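/-
Programme T (S56, Taylor–Wiles primes), chapter GLOB (helper1): the Greenberg–Wiles inequality,
ABSTRACT LINEAR ALGEBRA (Mathlib only).

Data over a field `F`: a finite family of "places" `v : ι`, vector spaces `H`, `H'` ("global `H¹` of
`M` and of `M'`"), `P v`, `P' v` ("local `H¹`"), localisation maps `loc : H → ∏ P v`,
`loc' : H' → ∏ P' v`, bilinear local pairings `pair v : P v × P' v → F`.
For local conditions `L v ≤ P v`:
* `sel loc L  = {x | ∀ v, loc x v ∈ L v}`, `sel' loc' L' = {y | ∀ v, loc' y v ∈ L' v}`;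
* `perp pair L v = {y | ∀ x ∈ L v, pair v x y = 0}` (the dual local conditions).

**Theorem `gw_le`.**  If global classes are orthogonal (`∑ v, pair v (loc x v) (loc' y v) = 0` for
`x ∈ sel loc L`, `y : H'`) then

  `dim sel(L) + dim H' ≤ dim ker(loc) + dim sel'(L^⊥) + ∑ v, dim L v`.

NO nondegeneracy of the local pairings is needed.  (`ker loc` is `Ш¹(M)`, `H'` is `H¹(G_S, M')`;
the difference `dim Ш¹(M) - dim H¹(G_S, M')` is then evaluated with S55, the tail of the
Poitou–Tate sequence and Tate's Euler characteristic formula: file `GWNumeric1`.)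

Also `gw_le_card`: the same inequality for cardinalities when `F` is finite.
-/
import Mathlib

set_option autoImplicit false

open Module

namespace Fermat.Agent.TW.GLOB.GWAbstract1

set_option linter.unusedSectionVars false

variable {F : Type*} [Field F] {ι : Type*} [Fintype ι]
variable {H H' : Type*} [AddCommGroup H] [Module F H] [AddCommGroup H'] [Module F H']
variable {P P' : ι → Type*} [∀ v, AddCommGroup (P v)] [∀ v, Module F (P v)]
  [∀ v, AddCommGroup (P' v)] [∀ v, Module F (P' v)]

/-- The Selmer subspace cut out by the local conditions `L`. -/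
def sel (loc : H →ₗ[F] (∀ v, P v)) (L : ∀ v, Submodule F (P v)) : Submodule F H where
  carrier := {x | ∀ v, loc x v ∈ L v}
  add_mem' := fun hx hy v => by
    rw [map_add, Pi.add_apply]; exact (L v).add_mem (hx v) (hy v)
  zero_mem' := fun v => by rw [map_zero, Pi.zero_apply]; exact (L v).zero_mem
  smul_mem' := fun c _ hx v => by
    rw [map_smul, Pi.smul_apply]; exact (L v).smul_mem c (hx v)

theorem mem_sel_iff (loc : H →ₗ[F] (∀ v, P v)) (L : ∀ v, Submodule F (P v)) (x : H) :
    x ∈ sel loc L ↔ ∀ v, loc x v ∈ L v := Iff.rfl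

theorem ker_le_sel (loc : H →ₗ[F] (∀ v, P v)) (L : ∀ v, Submodule F (P v)) :
    LinearMap.ker loc ≤ sel loc L := by
  intro x hx v
  rw [LinearMap.mem_ker] at hx
  rw [hx, Pi.zero_apply]
  exact (L v).zero_mem

theorem sel_mono (loc : H →ₗ[F] (∀ v, P v)) {L L' : ∀ v, Submodule F (P v)}
    (h : ∀ v, L v ≤ L' v) : sel loc L ≤ sel loc L' := fun _ hx v => h v (hx v)

/-- The dual local conditions. -/
def perp (pair : ∀ v, P v →ₗ[F] P' v →ₗ[F] F) (L : ∀ v, Submodule F (P v)) (v : ι) :
    Submodule F (P' v) where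
  carrier := {y | ∀ x ∈ L v, pair v x y = 0}
  add_mem' := fun hy hy' x hx => by rw [map_add, hy x hx, hy' x hx, add_zero]
  zero_mem' := fun x _ => by rw [map_zero]
  smul_mem' := fun c _ hy x hx => by rw [map_smul, hy x hx, smul_zero]

theorem mem_perp_iff (pair : ∀ v, P v →ₗ[F] P' v →ₗ[F] F) (L : ∀ v, Submodule F (P v)) (v : ι)
    (y : P' v) : y ∈ perp pair L v ↔ ∀ x ∈ L v, pair v x y = 0 := Iff.rfl

/-- The dual of everything is the right kernel of the pairing. -/
theorem mem_perp_top_iff (pair : ∀ v, P v →ₗ[F] P' v →ₗ[F] F) (v : ι) (y : P' v) :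
    y ∈ perp pair (fun _ => ⊤) v ↔ ∀ x, pair v x y = 0 := by
  rw [mem_perp_iff]
  exact ⟨fun h x => h x Submodule.mem_top, fun h x _ => h x⟩

theorem perp_anti (pair : ∀ v, P v →ₗ[F] P' v →ₗ[F] F) {L L' : ∀ v, Submodule F (P v)}
    (h : ∀ v, L v ≤ L' v) (v : ι) : perp pair L' v ≤ perp pair L v :=
  fun _ hy x hx => hy x (h v hx)

section Main

variable (loc : H →ₗ[F] (∀ v, P v)) (loc' : H' →ₗ[F] (∀ v, P' v))
  (pair : ∀ v, P v →ₗ[F] P' v →ₗ[F] F) (L : ∀ v, Submodule F (P v))

/-- `x ↦ (loc x v)_v : sel(L) → ∏ L v`. -/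
def phi : ↥(sel loc L) →ₗ[F] (∀ v, ↥(L v)) where
  toFun x v := ⟨loc x v, x.2 v⟩
  map_add' x y := by
    funext v
    apply Subtype.ext
    simp
  map_smul' c x := by
    funext v
    apply Subtype.ext
    simp

/-- `y ↦ (w ↦ ∑ v, pair v (w v) (loc' y v)) : H' → (∏ L v)^*`. -/
def psi : H' →ₗ[F] Module.Dual F (∀ v, ↥(L v)) where
  toFun y :=
    { toFun := fun w => ∑ v, pair v (w v : P v) (loc' y v)
      map_add' := fun w w' => by
        simp only [Pi.add_apply, Submodule.coe_add, map_add, LinearMap.add_apply,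
          Finset.sum_add_distrib]
      map_smul' := fun c w => by
        simp only [Pi.smul_apply, Submodule.coe_smul, map_smul, LinearMap.smul_apply,
          RingHom.id_apply, Finset.mul_sum, smul_eq_mul] }
  map_add' y y' := by
    ext w
    simp only [map_add, Pi.add_apply, LinearMap.coe_mk, AddHom.coe_mk, LinearMap.add_apply,
      Finset.sum_add_distrib]
  map_smul' c y := by
    ext w
    simp only [map_smul, Pi.smul_apply, LinearMap.coe_mk, AddHom.coe_mk, LinearMap.smul_apply,
      RingHom.id_apply, Finset.mul_sum, smul_eq_mul]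

theorem psi_apply (y : H') (w : ∀ v, ↥(L v)) :
    psi loc' pair L y w = ∑ v, pair v (w v : P v) (loc' y v) := rfl

theorem ker_phi : LinearMap.ker (phi loc L) = (LinearMap.ker loc).comap (sel loc L).subtype := by
  ext x
  rw [LinearMap.mem_ker, Submodule.mem_comap, LinearMap.mem_ker, Submodule.subtype_apply]
  constructor
  · intro h
    funext v
    have := congrFun h v
    exact congrArg Subtype.val this
  · intro h
    funext v
    apply Subtype.ext
    exact congrFun h v

theorem ker_psi [DecidableEq ι] : LinearMap.ker (psi loc' pair L) = sel loc' (perp pair L) := by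
  ext y
  rw [LinearMap.mem_ker, mem_sel_iff]
  constructor
  · intro h v x hx
    have h1 := LinearMap.congr_fun h (Pi.single v ⟨x, hx⟩)
    rw [psi_apply, LinearMap.zero_apply] at h1
    rw [Finset.sum_eq_single v] at h1
    · simpa using h1
    · intro w _ hwv
      rw [Pi.single_eq_of_ne hwv]
      simp
    · intro hv
      exact absurd (Finset.mem_univ v) hv
  · intro h
    refine LinearMap.ext fun w => ?_
    rw [psi_apply, LinearMap.zero_apply]
    exact Finset.sum_eq_zero fun v _ => h v _ (w v).2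

/-- **The abstract Greenberg–Wiles inequality.** -/
theorem gw_le [FiniteDimensional F H] [FiniteDimensional F H'] [∀ v, FiniteDimensional F ↥(L v)]
    (hrec : ∀ x ∈ sel loc L, ∀ y : H', ∑ v, pair v (loc x v) (loc' y v) = 0) :
    finrank F ↥(sel loc L) + finrank F H' ≤
      finrank F ↥(LinearMap.ker loc) + finrank F ↥(sel loc' (perp pair L))
        + ∑ v, finrank F ↥(L v) := by
  classical
  -- rank–nullity for `phi` and `psi`
  have h1 := LinearMap.finrank_range_add_finrank_ker (phi loc L)
  have h2 := LinearMap.finrank_range_add_finrank_ker (psi loc' pair L)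
  rw [ker_psi] at h2
  -- `ker phi ≃ ker loc`
  have h3 : finrank F ↥(LinearMap.ker (phi loc L)) = finrank F ↥(LinearMap.ker loc) := by
    rw [ker_phi]
    exact (Submodule.comapSubtypeEquivOfLe (ker_le_sel loc L)).finrank_eq
  -- orthogonality of the ranges
  have h4 : LinearMap.range (psi loc' pair L) ≤ (LinearMap.range (phi loc L)).dualAnnihilator := by
    rintro _ ⟨y, rfl⟩
    rw [Submodule.mem_dualAnnihilator]
    rintro _ ⟨x, rfl⟩
    rw [psi_apply]
    exact hrec x x.2 y
  have h5 := Subspace.finrank_add_finrank_dualAnnihilator_eq (LinearMap.range (phi loc L))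
  have h6 : finrank F (∀ v, ↥(L v)) = ∑ v, finrank F ↥(L v) := Module.finrank_pi_fintype F
  have h7 := Submodule.finrank_mono h4
  omega

end Main

section Card

variable [Finite F]
variable (loc : H →ₗ[F] (∀ v, P v)) (loc' : H' →ₗ[F] (∀ v, P' v))
  (pair : ∀ v, P v →ₗ[F] P' v →ₗ[F] F) (L : ∀ v, Submodule F (P v))

/-- The cardinality form of `gw_le` over a finite field. -/
theorem gw_le_card [FiniteDimensional F H] [FiniteDimensional F H']
    [∀ v, FiniteDimensional F ↥(L v)]
    (hrec : ∀ x ∈ sel loc L, ∀ y : H', ∑ v, pair v (loc x v) (loc' y v) = 0) :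
    Nat.card ↥(sel loc L) * Nat.card H' ≤
      Nat.card ↥(LinearMap.ker loc) * Nat.card ↥(sel loc' (perp pair L))
        * ∏ v, Nat.card ↥(L v) := by
  have h := gw_le loc loc' pair L hrec
  have hF : 1 ≤ Nat.card F := Nat.one_le_iff_ne_zero.2 Nat.card_pos.ne'
  have e1 : Nat.card ↥(sel loc L) = Nat.card F ^ finrank F ↥(sel loc L) :=
    Module.natCard_eq_pow_finrank
  have e2 : Nat.card H' = Nat.card F ^ finrank F H' := Module.natCard_eq_pow_finrank
  have e3 : Nat.card ↥(LinearMap.ker loc) = Nat.card F ^ finrank F ↥(LinearMap.ker loc) :=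
    Module.natCard_eq_pow_finrank
  have e4 : Nat.card ↥(sel loc' (perp pair L)) =
      Nat.card F ^ finrank F ↥(sel loc' (perp pair L)) := Module.natCard_eq_pow_finrank
  have e5 : ∏ v, Nat.card ↥(L v) = Nat.card F ^ ∑ v, finrank F ↥(L v) := by
    rw [← Finset.prod_pow_eq_pow_sum]
    exact Finset.prod_congr rfl fun v _ => Module.natCard_eq_pow_finrank
  rw [e1, e2, e3, e4, e5, ← pow_add, ← pow_add, ← pow_add]
  exact Nat.pow_le_pow_right hF h

end Card

end Fermat.Agent.TW.GLOB.GWAbstract1
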