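/-
PROGRAMME T, chapter GLOB (helper1).  `GWNumeric1`: the Greenberg–Wiles inequality in the concrete
vocabulary of `TW/DEF/Basic1`, from the abstract inequality `GWAbstract1.gw_le_card` and the
NUMERICAL inputs of global duality, stated as a structure `GWInputs` (each field is the output of
another file of Programme T; only the inequalities in the direction actually used are required).

`p` prime, `S` a finite set of primes, `M, M' : Rep (ZMod p) GQ` (in practice `M' = M^*(1)`).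
`locS S M : HS1 S M → ∏_{q ∈ S} Hq1 M q`, `sha1 S M = ker locS`, `loc2S`, `sha2 S M`.

`GWInputs S M M'`:
* `pair q : Hq1 M q × Hq1 M' q → 𝔽_p` with RECIPROCITY `∑_q pair q (res_q x) (res_q y) = 0`  (T3 + cup);
* finiteness of `HS1 S M`, `HS1 S M'`, `HS2 S M'`, `Hq2 M' q`, `M'`;
* `sha  : #Ш¹(M) ≤ #Ш²(M')`                                              (S55);
* `tail : #Ш²(M') * ∏_q #H²(ℚ_q, M') ≤ #H²(G_S, M') * #H⁰(G_S, M)`        (T6, end of Poitou–Tate);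
* `tate : #H⁰(M') * #H²(G_S, M') * #M' ≤ #H¹(G_S, M') * r0'`               (T7, Tate's formula;
  `r0' = #H⁰(ℝ, M')`);
* `loc02 q : #H⁰(ℚ_q, M) ≤ #H²(ℚ_q, M')`                                   (T/LOC, local duality);
* `arch : #M' = r0' * r0`, `0 < r0'`       (`r0 = #H⁰(ℝ, M)`; linear algebra of an involution).

**Theorem `card_Sel_le`.**  For local conditions `L q ≤ Hq1 M q`:

  `#Sel_S(M, L) * #H⁰(M') * ∏_q #H⁰(ℚ_q, M) * r0 ≤ #Sel_S(M', L^⊥) * #H⁰(M) * ∏_q #L_q`.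

Also `perp_top_eq_bot`: if `pair q` is right-nondegenerate then `(⊤)^⊥ = ⊥` at `q`.
-/
import Mathlib
import Fermat.Agent.TW.DEF.Basic1
import Fermat.Agent.TW.GLOB.GWAbstract1

set_option autoImplicit false
set_option linter.unusedSectionVars false

open Fermat.Agent.PT.PRO.LevelCoh28 Fermat.Agent.PT.GLUE.Objects21
open Fermat.Agent.TW.DEF.Basic1 Fermat.Agent.TW.GLOB

namespace Fermat.Agent.TW.GLOB.GWNumeric1

noncomputable section

variable {p : ℕ} [Fact p.Prime] (S : Finset Nat.Primes) (M M' : Rep.{0} (ZMod p) GQ)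

/-- The localisation map `H¹(G_S, M) → ∏_{q ∈ S} H¹(ℚ_q, M)`. -/
def locS : HS1 S M →ₗ[ZMod p] (∀ q : ↥S, Hq1 M ((q : Nat.Primes) : ℕ)) :=
  LinearMap.pi fun q => resq1 S M ((q : Nat.Primes) : ℕ)

@[simp] theorem locS_apply (x : HS1 S M) (q : ↥S) :
    locS S M x q = resq1 S M ((q : Nat.Primes) : ℕ) x := rfl

/-- The localisation map `H²(G_S, M) → ∏_{q ∈ S} H²(ℚ_q, M)`. -/
def loc2S : HS2 S M →ₗ[ZMod p] (∀ q : ↥S, Hq2 M ((q : Nat.Primes) : ℕ)) :=
  LinearMap.pi fun q => resq2 S M ((q : Nat.Primes) : ℕ)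

/-- `Ш¹_S(M)`. -/
def sha1 : Submodule (ZMod p) (HS1 S M) := LinearMap.ker (locS S M)

/-- `Ш²_S(M)`. -/
def sha2 : Submodule (ZMod p) (HS2 S M) := LinearMap.ker (loc2S S M)

theorem sel_eq_Sel (L : ∀ q : ↥S, Submodule (ZMod p) (Hq1 M ((q : Nat.Primes) : ℕ))) :
    GWAbstract1.sel (P := fun q : ↥S => Hq1 M ((q : Nat.Primes) : ℕ)) (locS S M) L = Sel S M L := by
  ext x
  rw [GWAbstract1.mem_sel_iff, mem_Sel_iff]
  rfl

/-- The numerical inputs of the Greenberg–Wiles formula. -/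
structure GWInputs where
  /-- the local pairings (local Tate pairing followed by an invariant map) -/
  pair : ∀ q : ↥S, Hq1 M ((q : Nat.Primes) : ℕ) →ₗ[ZMod p]
    Hq1 M' ((q : Nat.Primes) : ℕ) →ₗ[ZMod p] ZMod p
  recip : ∀ (x : HS1 S M) (y : HS1 S M'),
    ∑ q : ↥S, pair q (resq1 S M ((q : Nat.Primes) : ℕ) x) (resq1 S M' ((q : Nat.Primes) : ℕ) y) = 0
  finH1 : Finite (HS1 S M)
  finH1' : Finite (HS1 S M')
  finH2' : Finite (HS2 S M')
  finHq2' : ∀ q : ↥S, Finite (Hq2 M' ((q : Nat.Primes) : ℕ))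
  finM' : Finite M'
  /-- `#H⁰(ℝ, M)` and `#H⁰(ℝ, M')` -/
  r0 : ℕ
  r0' : ℕ
  r0'_pos : 0 < r0'
  arch : Nat.card M' = r0' * r0
  sha : Nat.card ↥(sha1 S M) ≤ Nat.card ↥(sha2 S M')
  tail : Nat.card ↥(sha2 S M') * ∏ q : ↥S, Nat.card (Hq2 M' ((q : Nat.Primes) : ℕ)) ≤
    Nat.card (HS2 S M') * Nat.card ↥M.ρ.invariants
  tate : Nat.card ↥M'.ρ.invariants * Nat.card (HS2 S M') * Nat.card M' ≤
    Nat.card (HS1 S M') * r0'
  loc02 : ∀ q : ↥S, Nat.card ↥(Mq M ((q : Nat.Primes) : ℕ)).ρ.invariants ≤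
    Nat.card (Hq2 M' ((q : Nat.Primes) : ℕ))

variable {S M M'}

/-- The dual local conditions. -/
def dualCond (I : GWInputs S M M')
    (L : ∀ q : ↥S, Submodule (ZMod p) (Hq1 M ((q : Nat.Primes) : ℕ))) (q : ↥S) :
    Submodule (ZMod p) (Hq1 M' ((q : Nat.Primes) : ℕ)) :=
  GWAbstract1.perp (P := fun q : ↥S => Hq1 M ((q : Nat.Primes) : ℕ))
    (P' := fun q : ↥S => Hq1 M' ((q : Nat.Primes) : ℕ)) I.pair L q

theorem mem_dualCond_iff (I : GWInputs S M M')
    (L : ∀ q : ↥S, Submodule (ZMod p) (Hq1 M ((q : Nat.Primes) : ℕ))) (q : ↥S)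
    (y : Hq1 M' ((q : Nat.Primes) : ℕ)) :
    y ∈ dualCond I L q ↔ ∀ x ∈ L q, I.pair q x y = 0 := Iff.rfl

/-- If the local pairing at `q` is right-nondegenerate, the dual of the full condition is `0`. -/
theorem dualCond_eq_bot_of_top (I : GWInputs S M M')
    (L : ∀ q : ↥S, Submodule (ZMod p) (Hq1 M ((q : Nat.Primes) : ℕ))) (q : ↥S) (hL : L q = ⊤)
    (hnd : ∀ y, (∀ x, I.pair q x y = 0) → y = 0) : dualCond I L q = ⊥ := by
  rw [eq_bot_iff]
  intro y hy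
  rw [mem_dualCond_iff, hL] at hy
  exact (Submodule.mem_bot _).2 (hnd y fun x => hy x Submodule.mem_top)

/-- Arithmetic behind `card_H1'_ge`. -/
theorem arith_low {h0 h0' k1 s2 h2' h1' A B r0 r0' cM' : ℕ} (hr0' : 0 < r0')
    (harch : cM' = r0' * r0) (hsha : k1 ≤ s2) (htail : s2 * B ≤ h2' * h0)
    (htate : h0' * h2' * cM' ≤ h1' * r0') (hAB : A ≤ B) :
    h0' * r0 * k1 * A ≤ h1' * h0 := by
  subst harch
  refine Nat.le_of_mul_le_mul_left ?_ hr0'
  calc r0' * (h0' * r0 * k1 * A)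
      ≤ r0' * (h0' * r0 * s2 * B) := by gcongr
    _ = h0' * (r0' * r0) * (s2 * B) := by ring
    _ ≤ h0' * (r0' * r0) * (h2' * h0) := by gcongr
    _ = h0' * h2' * (r0' * r0) * h0 := by ring
    _ ≤ h1' * r0' * h0 := by gcongr
    _ = r0' * (h1' * h0) := by ring

/-- Arithmetic behind `card_Sel_le`. -/
theorem arith_gw {s s' h0 h0' k1 h1' A P r0 : ℕ} (hk1 : 0 < k1)
    (hgw : s * h1' ≤ k1 * s' * P) (hlow : h0' * r0 * k1 * A ≤ h1' * h0) :
    s * h0' * A * r0 ≤ s' * h0 * P := by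
  refine Nat.le_of_mul_le_mul_left ?_ hk1
  calc k1 * (s * h0' * A * r0) = s * (h0' * r0 * k1 * A) := by ring
    _ ≤ s * (h1' * h0) := by gcongr
    _ = (s * h1') * h0 := by ring
    _ ≤ (k1 * s' * P) * h0 := by gcongr
    _ = k1 * (s' * h0 * P) := by ring

/-- **Lower bound for `#H¹(G_S, M')`** from the numerical inputs:
`#H⁰(M') * r0 * #Ш¹(M) * ∏_q #H⁰(ℚ_q, M) ≤ #H¹(G_S, M') * #H⁰(M)`. -/
theorem card_H1'_ge (I : GWInputs S M M') :
    Nat.card ↥M'.ρ.invariants * I.r0 * Nat.card ↥(sha1 S M) *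
        ∏ q : ↥S, Nat.card ↥(Mq M ((q : Nat.Primes) : ℕ)).ρ.invariants ≤
      Nat.card (HS1 S M') * Nat.card ↥M.ρ.invariants :=
  arith_low I.r0'_pos I.arch I.sha I.tail I.tate (Finset.prod_le_prod' fun q _ => I.loc02 q)

/-- The abstract inequality `GWAbstract1.gw_le_card` in the concrete vocabulary. -/
theorem card_Sel_mul_card_H1' (I : GWInputs S M M')
    (L : ∀ q : ↥S, Submodule (ZMod p) (Hq1 M ((q : Nat.Primes) : ℕ)))
    [∀ q, Finite ↥(L q)] :
    Nat.card ↥(Sel S M L) * Nat.card (HS1 S M') ≤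
      Nat.card ↥(sha1 S M) * Nat.card ↥(Sel S M' (dualCond I L)) *
        ∏ q : ↥S, Nat.card ↥(L q) := by
  have := I.finH1
  have := I.finH1'
  have hfL : ∀ q : ↥S, Module.Finite (ZMod p) ↥(L q) := fun q => Module.Finite.of_finite
  have hf1 : Module.Finite (ZMod p) (HS1 S M) := Module.Finite.of_finite
  have hf1' : Module.Finite (ZMod p) (HS1 S M') := Module.Finite.of_finite
  have hgw := GWAbstract1.gw_le_card (P := fun q : ↥S => Hq1 M ((q : Nat.Primes) : ℕ))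
    (P' := fun q : ↥S => Hq1 M' ((q : Nat.Primes) : ℕ)) (locS S M) (locS S M') I.pair L
    (fun x _ y => I.recip x y)
  rw [sel_eq_Sel S M L] at hgw
  have h2 : GWAbstract1.sel (P := fun q : ↥S => Hq1 M' ((q : Nat.Primes) : ℕ)) (locS S M')
      (GWAbstract1.perp (P := fun q : ↥S => Hq1 M ((q : Nat.Primes) : ℕ))
        (P' := fun q : ↥S => Hq1 M' ((q : Nat.Primes) : ℕ)) I.pair L) =
      Sel S M' (dualCond I L) := sel_eq_Sel S M' (dualCond I L)
  rw [h2] at hgw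
  exact hgw

/-- **The Greenberg–Wiles inequality.** -/
theorem card_Sel_le (I : GWInputs S M M')
    (L : ∀ q : ↥S, Submodule (ZMod p) (Hq1 M ((q : Nat.Primes) : ℕ)))
    [∀ q, Finite ↥(L q)] :
    Nat.card ↥(Sel S M L) * Nat.card ↥M'.ρ.invariants *
        (∏ q : ↥S, Nat.card ↥(Mq M ((q : Nat.Primes) : ℕ)).ρ.invariants) * I.r0 ≤
      Nat.card ↥(Sel S M' (dualCond I L)) * Nat.card ↥M.ρ.invariants *
        ∏ q : ↥S, Nat.card ↥(L q) := by
  have := I.finH1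
  exact arith_gw (Nat.card_pos (α := ↥(sha1 S M))) (card_Sel_mul_card_H1' I L) (card_H1'_ge I)

end

end Fermat.Agent.TW.GLOB.GWNumeric1
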