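/-
PROGRAMME T, chapter GLOB (helper1).  `InvAbstract1` (Mathlib only): the abstract algebra behind the
construction of the local invariant maps with the reciprocity law (`InvRecip1`).

* `exists_extension`: if `W` embeds into `ℤ/p` (`τ : W →+ ZMod p` injective), `V ≤ W` and
  `g : V →+ ZMod p` is injective, then `g` extends to an INJECTIVE `g' : W →+ ZMod p`.
* `exists_ext`: the family version: injective extensions `g' q` of `G q ∘ (locI q)⁻¹`.
* `exists_inv`: abstract assembly.  Data, for `q` in a finite index type: groups `Hq q` ("`H²(ℚ_q, μ_p)`"),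
  `W q` ("`H²(ℚ_q, ℚ̄_qˣ)[p]`", embedding into `ℤ/p`), `T q` ("`H²(G_S, I_{S,q})[p]`"), injective maps
  `κ q : Hq q →+ W q`, `locI q : T q →+ W q`, `G q : T q →+ ZMod p`, and a global group `HS` with
  `res q : HS →+ Hq q`, `x q : HS →+ T q` such that `locI q (x q β) = κ q (res q β)` and
  `∑ q, G q (x q β) = 0`.  Then there are injective `inv q : Hq q →+ ZMod p` with
  `∑ q, inv q (res q β) = 0` for all `β`.
* `liftQAdd`: an additive map out of a quotient MODULE from an additive map on the module killing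
  the submodule (no linearity required), `liftQAdd_mk`, `liftQAdd_mkQ`.
-/
import Mathlib

set_option autoImplicit false

namespace Fermat.Agent.TW.GLOB.InvAbstract1

variable {p : ℕ} [Fact p.Prime]

/-- Extension of an injective character from a subgroup of a group of "rank `≤ 1`". -/
theorem exists_extension {W : Type*} [AddCommGroup W] (τ : W →+ ZMod p)
    (hτ : Function.Injective τ) (V : AddSubgroup W) (g : V →+ ZMod p)
    (hg : Function.Injective g) :
    ∃ g' : W →+ ZMod p, Function.Injective g' ∧ ∀ v : V, g' (v : W) = g v := by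
  by_cases hV : ∀ v : V, v = 0
  · refine ⟨τ, hτ, fun v => ?_⟩
    rw [hV v, map_zero, ZeroMemClass.coe_zero, map_zero]
  · simp only [not_forall] at hV
    obtain ⟨v₀, hv₀⟩ := hV
    have hτv₀ : τ (v₀ : W) ≠ 0 := fun h => hv₀ (Subtype.ext (hτ (h.trans (map_zero τ).symm)))
    have hgv₀ : g v₀ ≠ 0 := fun h => hv₀ (hg (h.trans (map_zero g).symm))
    -- the unit `c = g v₀ / τ v₀`
    set c : ZMod p := g v₀ * (τ (v₀ : W))⁻¹ with hc
    have hc0 : c ≠ 0 := mul_ne_zero hgv₀ (inv_ne_zero hτv₀)
    refine ⟨(AddMonoidHom.mulLeft c).comp τ, ?_, fun v => ?_⟩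
    · intro a b hab
      apply hτ
      simpa [AddMonoidHom.mulLeft, hc0] using hab
    · -- `v = m • v₀` with `m = τ v / τ v₀`
      set m : ZMod p := τ (v : W) * (τ (v₀ : W))⁻¹ with hm
      have hv : v = m.val • v₀ := by
        apply Subtype.ext
        apply hτ
        rw [AddSubgroup.coe_nsmul, map_nsmul, nsmul_eq_mul, ZMod.natCast_val, ZMod.cast_id, hm,
          mul_assoc, inv_mul_cancel₀ hτv₀, mul_one]
      have hgv : g v = m * g v₀ := by
        conv_lhs => rw [hv]
        rw [map_nsmul, nsmul_eq_mul, ZMod.natCast_val, ZMod.cast_id]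
      rw [AddMonoidHom.comp_apply, AddMonoidHom.coe_mulLeft, hgv, hc, hm]
      field_simp

/-- **Extension of the global characters**: for injective `locI q : T q →+ W q` ("`locI2` on
`p`-torsion"), injective characters `G q` of `T q` and groups `W q` embedding into `ℤ/p`, there are
INJECTIVE characters `g' q` of `W q` with `g' q ∘ locI q = G q`. -/
theorem exists_ext {ι : Type*} {W T : ι → Type*} [∀ q, AddCommGroup (W q)]
    [∀ q, AddCommGroup (T q)]
    (τ : ∀ q, W q →+ ZMod p) (hτ : ∀ q, Function.Injective (τ q))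
    (locI : ∀ q, T q →+ W q) (hlocI : ∀ q, Function.Injective (locI q))
    (G : ∀ q, T q →+ ZMod p) (hG : ∀ q, Function.Injective (G q)) :
    ∃ g' : ∀ q, W q →+ ZMod p, (∀ q, Function.Injective (g' q)) ∧
      ∀ q (t : T q), g' q (locI q t) = G q t := by
  classical
  have key : ∀ q, ∃ g' : W q →+ ZMod p, Function.Injective g' ∧
      ∀ t : T q, g' (locI q t) = G q t := by
    intro q
    let e : T q ≃+ (locI q).range := AddMonoidHom.ofInjective (hlocI q)
    let g : (locI q).range →+ ZMod p := (G q).comp e.symm.toAddMonoidHom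
    have hg : Function.Injective g := (hG q).comp e.symm.injective
    obtain ⟨g', hg', hext⟩ := exists_extension (τ q) (hτ q) (locI q).range g hg
    refine ⟨g', hg', fun t => ?_⟩
    have h1 := hext (e t)
    have h2 : ((e t : (locI q).range) : W q) = locI q t := rfl
    rw [h2] at h1
    rw [h1]
    show G q (e.symm (e t)) = G q t
    rw [AddEquiv.symm_apply_apply]
  choose g' hg' hext using key
  exact ⟨g', hg', hext⟩

/-- **Abstract construction of the invariant maps with reciprocity.** -/
theorem exists_inv {ι : Type*} [Fintype ι] {HS : Type*} [AddCommGroup HS]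
    {Hq W T : ι → Type*} [∀ q, AddCommGroup (Hq q)] [∀ q, AddCommGroup (W q)]
    [∀ q, AddCommGroup (T q)]
    (res : ∀ q, HS →+ Hq q) (κ : ∀ q, Hq q →+ W q) (hκ : ∀ q, Function.Injective (κ q))
    (τ : ∀ q, W q →+ ZMod p) (hτ : ∀ q, Function.Injective (τ q))
    (locI : ∀ q, T q →+ W q) (hlocI : ∀ q, Function.Injective (locI q))
    (G : ∀ q, T q →+ ZMod p) (hG : ∀ q, Function.Injective (G q))
    (x : ∀ q, HS → T q) (hx : ∀ q β, locI q (x q β) = κ q (res q β))
    (hsum : ∀ β, ∑ q, G q (x q β) = 0) :
    ∃ inv : ∀ q, Hq q →+ ZMod p, (∀ q, Function.Injective (inv q)) ∧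
      ∀ β, ∑ q, inv q (res q β) = 0 := by
  obtain ⟨g', hg', hext⟩ := exists_ext τ hτ locI hlocI G hG
  refine ⟨fun q => (g' q).comp (κ q), fun q => (hg' q).comp (hκ q), fun β => ?_⟩
  rw [← hsum β]
  refine Finset.sum_congr rfl fun q _ => ?_
  rw [AddMonoidHom.comp_apply, ← hx q β, hext q]

/-- An additive map out of a quotient module, from an additive map killing the submodule. -/
noncomputable def liftQAdd {R M W : Type*} [Ring R] [AddCommGroup M] [Module R M] [AddCommGroup W]
    (P : Submodule R M) (f : M →+ W) (hf : ∀ x ∈ P, f x = 0) : (M ⧸ P) →+ W :=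
  QuotientAddGroup.lift P.toAddSubgroup f (fun x hx => hf x hx)

@[simp] theorem liftQAdd_mk {R M W : Type*} [Ring R] [AddCommGroup M] [Module R M]
    [AddCommGroup W] (P : Submodule R M) (f : M →+ W) (hf : ∀ x ∈ P, f x = 0) (x : M) :
    liftQAdd P f hf (Submodule.Quotient.mk x) = f x := rfl

@[simp] theorem liftQAdd_mkQ {R M W : Type*} [Ring R] [AddCommGroup M] [Module R M]
    [AddCommGroup W] (P : Submodule R M) (f : M →+ W) (hf : ∀ x ∈ P, f x = 0) (x : M) :
    liftQAdd P f hf (P.mkQ x) = f x := rfl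

end Fermat.Agent.TW.GLOB.InvAbstract1
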