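/-
PROGRAMME T, chapter GLOB (helper1).  `KummerH2_1`: the map `H²(A) → H²(X)[p]` induced by an
embedding `j : A ≅ X[p] ⊂ X` ("`μ_p ⊂ X`"), at the level of level cochains (`LevelCoh28`), and its
injectivity (Kummer theory + Hilbert 90).

Setting: `p` prime, `G` a group with level basis `𝓑`, `A : Rep (ZMod p) G`, `X : Rep kX G` (any coefficient ring `kX`, e.g. `ℤ`),
`j : A →+ X` additive and `G`-equivariant.
* `comp_mem_Z2`, `comp_mem_B2`: `j ∘ -` preserves level 2-cocycles and level 2-coboundaries;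
* `nsmul_comp_eq_zero : p • (j ∘ c) = 0`;
* **`mem_B2_of_comp_mem_B2`**: if `j` is injective with image `X[p]`, `X` is discrete and
  `p`-divisible, and every level 1-cocycle of `X` is a coboundary (Hilbert 90), then a level
  2-cocycle `c` of `A` with `j ∘ c ∈ B²(X)` is in `B²(A)`.
  (I.e. `H²(A) → H²(X)` is injective.)
* `jZ2 : Z2 𝓑 A →+ Z2 𝓑 X`, **`jH2 j hj : H2 𝓑 A →+ H2 𝓑 X`**, `jH2_mk`, `nsmul_jH2 : p • jH2 x = 0`,
  `jH2_injective` (same hypotheses), and naturality for change of group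
  `ppH2_jH2 : ppH2 f φX (jH2 j x) = jH2 j' (ppH2 f φA x)` when `φX ∘ j = j' ∘ φA`;
* algebra of `mapH2` in the coefficient map: `mapH2_mapH2` (composition), `mapH2_sum`, `mapH2_zero'`.
-/
import Mathlib
import Fermat.Agent.PT.PRO.LevelCoh28
import Fermat.Agent.PT.PRO.LevelCohRes28
import Fermat.Agent.TW.GLOB.InvAbstract1

set_option autoImplicit false
set_option linter.unusedSectionVars false

open CategoryTheory groupCohomology
open Fermat.Agent.PT.PRO.LevelCoh28 Fermat.Agent.PT.PRO.LevelCohRes28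
open Fermat.Agent.TW.GLOB.InvAbstract1

namespace Fermat.Agent.TW.GLOB.KummerH2_1

variable {p : ℕ} [Fact p.Prime] {G : Type} [Group G] {𝓑 : LevelBasis G}
  {kX : Type} [CommRing kX]
  {A : Rep.{0} (ZMod p) G} {X : Rep.{0} kX G} (j : A →+ X)
  (hj : ∀ g a, j (A.ρ g a) = X.ρ g (j a))

include hj in
theorem d₁₂_comp (x : G → A) : (d₁₂ X).hom (j ∘ x) = j ∘ (d₁₂ A).hom x := by
  funext ⟨g, h⟩
  simp only [d₁₂_hom_apply, Function.comp_apply, map_sub, map_add, hj]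

include hj in
theorem comp_mem_cocycles₂ {c : G × G → A} (hc : c ∈ cocycles₂ A) : j ∘ c ∈ cocycles₂ X := by
  rw [mem_cocycles₂_iff] at hc ⊢
  intro g h i
  simp only [Function.comp_apply, ← map_add, hc, ← hj]

include hj in
theorem comp_mem_Z2 {c : G × G → A} (hc : c ∈ Z2 𝓑 A) : j ∘ c ∈ Z2 𝓑 X :=
  ⟨comp_mem_cocycles₂ j hj hc.1, hc.2.comp j⟩

include hj in
theorem comp_mem_B2 {c : G × G → A} (hc : c ∈ B2 𝓑 A) : j ∘ c ∈ B2 𝓑 X := by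
  obtain ⟨x, hx, rfl⟩ := (mem_B2_iff 𝓑 A c).1 hc
  exact (mem_B2_iff 𝓑 X _).2 ⟨j ∘ x, hx.comp j, d₁₂_comp j hj x⟩

theorem nsmul_apply_eq_zero (a : A) : p • j a = 0 := by
  rw [← map_nsmul, ← Nat.cast_smul_eq_nsmul (ZMod p), ZMod.natCast_self, zero_smul, map_zero]

theorem nsmul_comp_eq_zero {Y : Type*} (c : Y → A) : p • (j ∘ c) = 0 := by
  funext y
  exact nsmul_apply_eq_zero j (c y)

include hj in
/-- **Kummer + Hilbert 90**: `H²(A) → H²(X)` is injective. -/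
theorem mem_B2_of_comp_mem_B2 (hinj : Function.Injective j)
    (hsurj : ∀ x : X, p • x = 0 → ∃ a, j a = x) (hdiv : ∀ x : X, ∃ y : X, p • y = x)
    (hX : IsDiscrete 𝓑.sets X)
    (h90 : ∀ b : G → X, b ∈ Z1 𝓑 X → ∃ a : X, (d₀₁ X).hom a = b)
    {c : G × G → A} (hc : j ∘ c ∈ B2 𝓑 X) : c ∈ B2 𝓑 A := by
  obtain ⟨b, hbl, hb⟩ := (mem_B2_iff 𝓑 X _).1 hc
  -- `p • b` is a level 1-cocycle
  have hpb : p • b ∈ Z1 𝓑 X := by
    refine mem_Z1_of 𝓑 X ?_ (hbl.comp (p • ·))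
    funext ⟨g, h⟩
    have hbgh := congrFun hb (g, h)
    rw [d₁₂_hom_apply] at hbgh
    rw [d₁₂_hom_apply]
    simp only [Pi.smul_apply, map_nsmul]
    rw [← smul_sub, ← smul_add, hbgh]
    exact nsmul_apply_eq_zero j _
  obtain ⟨a, ha⟩ := h90 _ hpb
  obtain ⟨α, rfl⟩ := hdiv a
  -- correct `b` by the coboundary of `α`
  set b' : G → X := b - (d₀₁ X).hom α with hb'
  have hb'l : IsLevel₁ 𝓑.sets b' := hbl.sub 𝓑.isBasis (isLevel₁_d₀₁ hX α)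
  have hpb' : ∀ g, p • b' g = 0 := by
    intro g
    have hag := congrFun ha g
    rw [d₀₁_hom_apply, Pi.smul_apply, map_nsmul] at hag
    rw [hb', Pi.sub_apply, d₀₁_hom_apply, smul_sub, smul_sub, hag, sub_self]
  have hdb' : (d₁₂ X).hom b' = j ∘ c := by
    funext ⟨g, h⟩
    have hbgh := congrFun hb (g, h)
    rw [d₁₂_hom_apply] at hbgh
    rw [d₁₂_hom_apply, ← hbgh]
    simp only [hb', Pi.sub_apply, d₀₁_hom_apply, map_sub, map_mul, Module.End.mul_apply]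
    abel
  -- descend `b'` to `A`
  choose b'' hb'' using fun g => hsurj (b' g) (hpb' g)
  have hjb'' : j ∘ b'' = b' := funext hb''
  refine (mem_B2_iff 𝓑 A c).2 ⟨b'', ?_, ?_⟩
  · obtain ⟨U, hU, h⟩ := hb'l
    refine ⟨U, hU, fun g s hs => hinj ?_⟩
    rw [hb'', hb'', h g s hs]
  · funext x
    apply hinj
    have h3 := congrFun (d₁₂_comp j hj b'') x
    rw [hjb'', hdb'] at h3
    exact h3.symm

/-! ### The map on cohomology -/

section JH2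

variable {p : ℕ} [Fact p.Prime] {G : Type} [Group G] {𝓑 : LevelBasis G}
  {kX : Type} [CommRing kX]
  {A : Rep.{0} (ZMod p) G} {X : Rep.{0} kX G} (j : A →+ X)
  (hj : ∀ g a, j (A.ρ g a) = X.ρ g (j a))

/-- `c ↦ j ∘ c` on level 2-cocycles. -/
def jZ2 : ↥(Z2 𝓑 A) →+ ↥(Z2 𝓑 X) where
  toFun c := ⟨j ∘ (c : G × G → A), comp_mem_Z2 j hj c.2⟩
  map_zero' := by
    apply Subtype.ext
    funext x
    exact map_zero j
  map_add' c c' := by
    apply Subtype.ext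
    funext x
    exact map_add j _ _

@[simp] theorem coe_jZ2 (c : ↥(Z2 𝓑 A)) : ((jZ2 j hj c : ↥(Z2 𝓑 X)) : G × G → X) = j ∘ (c : G × G → A) :=
  rfl

/-- **The map `H²(A) → H²(X)` induced by `j`.** -/
noncomputable def jH2 : H2 𝓑 A →+ H2 𝓑 X :=
  liftQAdd _ ((H2mk 𝓑 X).toAddMonoidHom.comp (jZ2 j hj)) (fun c hc => by
    show H2mk 𝓑 X (jZ2 j hj c) = 0
    rw [H2mk_eq_zero_iff]
    exact comp_mem_B2 j hj hc)

theorem jH2_mk (c : ↥(Z2 𝓑 A)) : jH2 j hj (H2mk 𝓑 A c) = H2mk 𝓑 X (jZ2 j hj c) := rfl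

theorem nsmul_jH2 (x : H2 𝓑 A) : p • jH2 j hj x = 0 := by
  obtain ⟨c, rfl⟩ := H2mk_surjective 𝓑 A x
  rw [jH2_mk, ← map_nsmul]
  have : p • jZ2 j hj c = 0 := Subtype.ext (nsmul_comp_eq_zero j _)
  rw [this, map_zero]

theorem jH2_injective (hinj : Function.Injective j)
    (hsurj : ∀ x : X, p • x = 0 → ∃ a, j a = x) (hdiv : ∀ x : X, ∃ y : X, p • y = x)
    (hX : IsDiscrete 𝓑.sets X)
    (h90 : ∀ b : G → X, b ∈ Z1 𝓑 X → ∃ a : X, (d₀₁ X).hom a = b) :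
    Function.Injective (jH2 (𝓑 := 𝓑) j hj) := by
  rw [injective_iff_map_eq_zero]
  intro x hx
  obtain ⟨c, rfl⟩ := H2mk_surjective 𝓑 A x
  rw [jH2_mk, H2mk_eq_zero_iff] at hx
  rw [H2mk_eq_zero_iff]
  exact mem_B2_of_comp_mem_B2 j hj hinj hsurj hdiv hX h90 hx

end JH2

section Natural

variable {p : ℕ} [Fact p.Prime] {G H : Type} [Group G] [Group H] (f : G →* H)
  {𝓑G : LevelBasis G} {𝓑H : LevelBasis H} (hf : IsLevelHom f 𝓑G.sets 𝓑H.sets)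
  {kX : Type} [CommRing kX]
  {A : Rep.{0} (ZMod p) H} {X : Rep.{0} kX H} (j : A →+ X)
  (hj : ∀ g a, j (A.ρ g a) = X.ρ g (j a))
  {A' : Rep.{0} (ZMod p) G} {X' : Rep.{0} kX G} (j' : A' →+ X')
  (hj' : ∀ g a, j' (A'.ρ g a) = X'.ρ g (j' a))
  (φA : A →ₗ[ZMod p] A') (hφA : ∀ (g : G) (a : A), φA (A.ρ (f g) a) = A'.ρ g (φA a))
  (φX : X →ₗ[kX] X') (hφX : ∀ (g : G) (a : X), φX (X.ρ (f g) a) = X'.ρ g (φX a))
  (hcomm : ∀ a, φX (j a) = j' (φA a))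

include hcomm in
/-- Naturality of `jH2` for change of group and coefficients. -/
theorem ppH2_jH2 (x : H2 𝓑H A) :
    ppH2 f φX hφX hf (jH2 j hj x) = jH2 j' hj' (ppH2 f φA hφA hf x) := by
  obtain ⟨c, rfl⟩ := H2mk_surjective 𝓑H A x
  rw [jH2_mk, ppH2_mk, ppH2_mk, jH2_mk]
  congr 1
  apply Subtype.ext
  funext y
  exact hcomm _

end Natural

/-! ### Algebra of `mapH2` in the coefficient map -/

section MapAlg

variable {k G : Type} [CommRing k] [Group G] {𝓑 : LevelBasis G} {A B C : Rep.{0} k G}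

theorem mapH2_mapH2 (φ : A →ₗ[k] B) (hφ : ∀ g a, φ (A.ρ g a) = B.ρ g (φ a))
    (ψ : B →ₗ[k] C) (hψ : ∀ g b, ψ (B.ρ g b) = C.ρ g (ψ b))
    (hψφ : ∀ g a, (ψ ∘ₗ φ) (A.ρ g a) = C.ρ g ((ψ ∘ₗ φ) a)) (x : H2 𝓑 A) :
    mapH2 ψ hψ (mapH2 φ hφ x) = mapH2 (ψ ∘ₗ φ) hψφ x := by
  obtain ⟨c, rfl⟩ := H2mk_surjective 𝓑 A x
  rfl

theorem mapH2_congr {φ φ' : A →ₗ[k] B} (hφ : ∀ g a, φ (A.ρ g a) = B.ρ g (φ a))
    (hφ' : ∀ g a, φ' (A.ρ g a) = B.ρ g (φ' a)) (h : φ = φ') (x : H2 𝓑 A) :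
    mapH2 φ hφ x = mapH2 φ' hφ' x := by
  subst h
  rfl

theorem mapH2_zero' (h0 : ∀ g a, (0 : A →ₗ[k] B) (A.ρ g a) = B.ρ g ((0 : A →ₗ[k] B) a))
    (x : H2 𝓑 A) : mapH2 (0 : A →ₗ[k] B) h0 x = 0 := by
  obtain ⟨c, rfl⟩ := H2mk_surjective 𝓑 A x
  rw [mapH2_mk]
  have : mapZ2 (𝓑 := 𝓑) (0 : A →ₗ[k] B) h0 c = 0 := by
    apply Subtype.ext
    funext y
    rfl
  rw [this, map_zero]

theorem mapH2_sum {ι : Type*} (s : Finset ι) (φ : ι → (A →ₗ[k] B))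
    (hφ : ∀ i g a, φ i (A.ρ g a) = B.ρ g (φ i a))
    (hs : ∀ g a, (∑ i ∈ s, φ i) (A.ρ g a) = B.ρ g ((∑ i ∈ s, φ i) a)) (x : H2 𝓑 A) :
    ∑ i ∈ s, mapH2 (φ i) (hφ i) x = mapH2 (∑ i ∈ s, φ i) hs x := by
  obtain ⟨c, rfl⟩ := H2mk_surjective 𝓑 A x
  simp only [mapH2_mk]
  rw [← map_sum]
  congr 1
  apply Subtype.ext
  funext y
  simp only [AddSubmonoidClass.coe_finsetSum, Finset.sum_apply]
  show ∑ i ∈ s, φ i ((c : G × G → A) y) = (∑ i ∈ s, φ i) ((c : G × G → A) y)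
  rw [LinearMap.sum_apply]

end MapAlg

end Fermat.Agent.TW.GLOB.KummerH2_1
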