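/-
PROGRAMME T, chapter GLOB (helper1).  `LocalInv1`: the LOCAL ingredients of the invariant maps (T3).

For primes `p`, `q` (`Γ_q = Gal(ℚ̄_q/ℚ_q)`, level basis `levelLoc q`, `unitsLoc q = ℚ̄_qˣ`):
* `pTorMap f : T[p] →+ T'[p]` for additive `f` (`InvP4.pTor`), injective if `f` is;
* `h90_top q`: every level 1-cocycle `Γ_q → ℚ̄_qˣ` is a coboundary (Hilbert 90);
* `jLoc p q : Mq (muP p) q →+ unitsLoc q` (`a ↦ ζ_p^a`), equivariant (`jLoc_ρ`);
* `kappa p q : Hq2 (muP p) q →+ (H2 (levelLoc q) (unitsLoc q))[p]`, the map induced by `μ_p ⊂ ℚ̄_qˣ`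
  (`coe_kappa : kappa x = KummerH2_1.jH2 (jLoc p q) _ x`), **`kappa_injective`** (Kummer + Hilbert 90);
* **`exists_tauLoc`**: `∃ τ : (H2 (levelLoc q) (unitsLoc q))[p] →+ ZMod p` injective
  (local class field theory: fundamental classes at all finite levels, `LocalFund11`).
-/
import Mathlib
import Fermat.Agent.TW.DEF.Mu1
import Fermat.Agent.TW.GLOB.KummerH2_1
import Fermat.Agent.TW.GLOB.InvAbstract1
import Fermat.Agent.PT.PRO.InvFund18
import Fermat.Agent.PT.PRO.LevelEquiv29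
import Fermat.Agent.PT.PRO.KerIsoGal7
import Fermat.Agent.PT.GLUE.LocalFund11
import Fermat.Agent.PT.BR.InfLocal13

set_option autoImplicit false
set_option linter.unusedSectionVars false

open CategoryTheory groupCohomology ExtCitation
open Fermat.Agent.PT.PRO Fermat.Agent.PT.PRO.LevelCoh28 Fermat.Agent.PT.PRO.LevelCohRes28
open Fermat.Agent.PT.GLUE.Objects21 Fermat.Agent.PT.PRO.InvP4
open Fermat.Agent.TW.DEF.Basic1 Fermat.Agent.TW.DEF.Mu1
open Fermat.Agent.TW.GLOB.KummerH2_1 Fermat.Agent.TW.GLOB.InvAbstract1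

namespace Fermat.Agent.TW.GLOB.LocalInv1

noncomputable section

/-! ### Maps on `p`-torsion -/

section PTor

variable (p : ℕ) {T T' : Type*} [AddCommGroup T] [AddCommGroup T']

/-- The map induced on `p`-torsion by an additive map. -/
def pTorMap (f : T →+ T') : pTor p T →+ pTor p T' where
  toFun x := ⟨f x.1, by
    have hx : p • (x.1 : T) = 0 := x.2
    show p • f x.1 = 0
    rw [← map_nsmul, hx, map_zero]⟩
  map_zero' := Subtype.ext (map_zero f)
  map_add' x y := Subtype.ext (map_add f x.1 y.1)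

@[simp] theorem coe_pTorMap (f : T →+ T') (x : pTor p T) : ((pTorMap p f x : pTor p T') : T') = f x.1 :=
  rfl

theorem pTorMap_injective (f : T →+ T') (hf : Function.Injective f) :
    Function.Injective (pTorMap p f) := fun x y h =>
  Subtype.ext (hf (congrArg Subtype.val h))

end PTor

variable (p : ℕ) [Fact p.Prime] (q : ℕ) [Fact q.Prime]

/-! ### Hilbert 90 -/

/-- **Hilbert 90** for level cochains of `Γ_q` with values in `ℚ̄_qˣ`. -/
theorem h90_top (b : Gq q → unitsLoc q) (hb : b ∈ Z1 (levelLoc q) (unitsLoc q)) :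
    ∃ a : unitsLoc q, (d₀₁ (unitsLoc q)).hom a = b := by
  have hc : IsLevel₁ (levelLoc q).sets b := hb.2
  have hcoc := (mem_cocycles₁_iff b).1 hb.1
  obtain ⟨W, hW, -, hinv, hfix⟩ := hc.exists_normal_fixing (levelLoc q).isBasis
    (isDiscrete_unitsLoc q)
  obtain ⟨_, ⟨F, hF, rfl⟩, rfl⟩ := hW
  have hFfin : FiniteDimensional ℚ F := hF
  rw [Fermat.Agent.PT.BR.LevelBridge13.comap_fixingSubgroup_eq] at hinv hfix
  let cm : Gq q → (PadicAlgCl q)ˣ := fun g => Additive.toMul (α := (PadicAlgCl q)ˣ) (b g)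
  obtain ⟨β, hβ⟩ := Fermat.Agent.PT.BR.InfGalois13.hilbert90_level (⊤ : Subgroup (Gq q))
    (Fermat.Agent.PT.BR.LocInj13.localField q F) cm
    (fun g s hs => congrArg (Additive.toMul (α := (PadicAlgCl q)ˣ)) (hinv g s hs))
    (fun g => by
      rw [← InfiniteGalois.fixedField_fixingSubgroup (Fermat.Agent.PT.BR.LocInj13.localField q F),
        IntermediateField.mem_fixedField_iff]
      intro s hs
      have := congrArg (fun a => ((Additive.toMul (α := (PadicAlgCl q)ˣ) a : (PadicAlgCl q)ˣ) :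
        PadicAlgCl q)) (hfix s hs g)
      exact this)
    (fun n _ n' _ => by
      have := congrArg (Additive.toMul (α := (PadicAlgCl q)ˣ)) (hcoc n n')
      exact this)
  refine ⟨Additive.ofMul β, ?_⟩
  funext n
  have := hβ n (Subgroup.mem_top n)
  rw [d₀₁_hom_apply]
  apply Additive.toMul.injective
  exact this.symm

/-! ### `μ_p ⊂ ℚ̄_qˣ` -/

/-- `a ↦ ζ_p^a`, as an additive map `μ_p → ℚ̄_qˣ`. -/
def jLoc : (Mq (muP p) q) →+ (unitsLoc q) := (KerIsoGal7.muLoc p q).j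

theorem jLoc_ρ (g : Gq q) (a : Mq (muP p) q) :
    jLoc p q ((Mq (muP p) q).ρ g a) = (unitsLoc q).ρ g (jLoc p q a) :=
  ((KerIsoGal7.muLoc p q).equiv g a).symm

theorem jLoc_injective : Function.Injective (jLoc p q) := (KerIsoGal7.muLoc p q).inj

theorem exists_jLoc_eq (x : unitsLoc q) (hx : p • x = 0) : ∃ a, jLoc p q a = x :=
  (KerIsoGal7.muLoc p q).surj x hx

/-- **`H²(ℚ_q, μ_p) → H²(ℚ_q, ℚ̄_qˣ)[p]`**, induced by `μ_p ⊂ ℚ̄_qˣ`. -/
def kappa : Hq2 (muP p) q →+ pTor p (H2 (levelLoc q) (unitsLoc q)) :=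
  (jH2 (𝓑 := levelLoc q) (jLoc p q) (jLoc_ρ p q)).codRestrict (pTor p _)
    (fun x => nsmul_jH2 (jLoc p q) (jLoc_ρ p q) x)

theorem coe_kappa (x : Hq2 (muP p) q) :
    ((kappa p q x : pTor p (H2 (levelLoc q) (unitsLoc q))) : H2 (levelLoc q) (unitsLoc q)) =
      jH2 (jLoc p q) (jLoc_ρ p q) x := rfl

/-- **Kummer theory + Hilbert 90**: `H²(ℚ_q, μ_p) → H²(ℚ_q, ℚ̄_qˣ)` is injective. -/
theorem kappa_injective : Function.Injective (kappa p q) := fun x y h =>
  jH2_injective (jLoc p q) (jLoc_ρ p q) (jLoc_injective p q) (exists_jLoc_eq p q)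
    (KerIsoGal7.exists_nsmul_eq_padic p q) (isDiscrete_unitsLoc q) (h90_top q)
    (congrArg Subtype.val h)

/-! ### The local invariant -/

/-- **`H²(ℚ_q, ℚ̄_qˣ)[p]` embeds into `ℤ/p`.** -/
theorem exists_tauLoc :
    ∃ τ : pTor p (H2 (levelLoc q) (unitsLoc q)) →+ ZMod p, Function.Injective τ := by
  obtain ⟨τ, hτ⟩ := InvFund18.exists_inv_of_isFundClass (unitsLoc q).ρ
    (LevelEquiv29.basis (levelLoc q)) (isDiscrete_unitsLoc q)
    (Fermat.Agent.PT.GLUE.LocalFund11.fundFixed_unitsLoc q p)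
  let e := LevelEquiv29.h2Equiv (levelLoc q) (unitsLoc q) (isDiscrete_unitsLoc q)
  exact ⟨τ.comp (pTorMap p e.toLinearMap.toAddMonoidHom),
    hτ.comp (pTorMap_injective p _ e.injective)⟩

end

end Fermat.Agent.TW.GLOB.LocalInv1
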