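/-
PROGRAMME T, chapter GLOB (helper1).  `InvRecip1` = T3: LOCAL INVARIANT MAPS WITH THE RECIPROCITY LAW.

`p` an odd prime, `S ∋ p` a finite set of primes, `μ = muP p` (`ZMod p` with the cyclotomic action).

**Structure `InvData p S`**: a global invariant `τ : H²(G_S, C_S)[p] ↪ ℤ/p` and local invariants
`g q : H²(ℚ_q, ℚ̄_qˣ)[p] ↪ ℤ/p` (`q ∈ S`), all injective, with the compatibility
`g q (locI2 t) = τ ((toCS ∘ incl_q)_* t)` for `t ∈ H²(G_S, I_{S,q})[p]` (`g_locIp`).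
**`exists_invData hp2 hpS : Nonempty (InvData p S)`.**

For `D : InvData p S`:
* `D.inv q := D.g q ∘ κ_q : Hq2 (muP p) q →+ ZMod p`, `D.inv_injective`;
* **`D.recip`**: `∑ q ∈ S, D.inv q (resq2 S (muP p) q β) = 0` for every `β : HS2 S (muP p)`;
* for an equivariant bilinear `b : M × M' → μ_p` (e.g. `Mu1.evalB`, `M' = M^*(1)`):
  `cupqB b hb q`, `cupSB b hb S` (cup products, `resq2_cupSB`),
  `D.pair b hb q hMq' : Hq1 M q →ₗ Hq1 M' q →ₗ ZMod p`, `pair = inv ∘ cup` (`pair_apply`),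
  `D.pair_eq_zero_iff : pair x y = 0 ↔ x ∪ y = 0`, and
  **`D.pair_recip`**: `∑ q, D.pair q (resq1 x) (resq1 y) = 0` (the `recip` field of
  `GWNumeric1.GWInputs`).
* `exists_inv_recip` (the bare statement: injective `inv q` with the reciprocity law).

Construction (see `InvAbstract1.exists_ext`): `inv q = g'_q ∘ κ_q` with
`κ_q : H²(ℚ_q, μ_p) ↪ H²(ℚ_q, ℚ̄_qˣ)[p]` (`LocalInv1`), and `g'_q` an injective extension to
`H²(ℚ_q, ℚ̄_qˣ)[p]` (which embeds in `ℤ/p`: `LocalInv1.exists_tauLoc`) of the character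
`τ ∘ (toCS ∘ incl_q)_* ∘ locI2⁻¹` of the image of `locI2 : H²(G_S, I_{S,q})[p] ↪ H²(ℚ_q, ℚ̄_qˣ)[p]`,
where `τ : H²(G_S, C_S)[p] ↪ ℤ/p` (global class field theory: `InvFund18`, `FundLevel2`,
`FundClassExists6`) and `(toCS ∘ incl_q)_*` is injective on `p`-torsion ((LG):
`LocalGlobalInst27`, `LocalInjMain14`).  Reciprocity is `toCS ∘ diag = 0` on `E_S ⊃ μ_p`.
-/
import Mathlib
import Fermat.Agent.TW.GLOB.LocalInv1
import Fermat.Agent.PT.GLUE.LocI13
import Fermat.Agent.PT.GLUE.LocalGlobalInst27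
import Fermat.Agent.PT.GLUE.FundLevel2
import Fermat.Agent.PT.GLOB.FundClassExists6
import Fermat.Agent.PT.GLOB.LocalInjMain14

set_option autoImplicit false
set_option linter.unusedSectionVars false

open CategoryTheory groupCohomology ExtCitation
open Fermat.Agent.PT.PRO Fermat.Agent.PT.PRO.LevelCoh28 Fermat.Agent.PT.PRO.LevelCohRes28
open Fermat.Agent.PT.GLUE Fermat.Agent.PT.GLUE.Objects21 Fermat.Agent.PT.PRO.InvP4
open Fermat.Agent.PT.GLUE.LevelTheta21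
open Fermat.Agent.TW.DEF.Basic1 Fermat.Agent.TW.DEF.Mu1
open Fermat.Agent.TW.GLOB.KummerH2_1 Fermat.Agent.TW.GLOB.InvAbstract1
open Fermat.Agent.TW.GLOB.LocalInv1

namespace Fermat.Agent.TW.GLOB.InvRecip1

noncomputable section

variable (p : ℕ) [Fact p.Prime] (S : Finset Nat.Primes)

/-! ### `μ_p ⊂ E_S` -/

section Glob

variable (hpS : pPrime p ∈ S)

/-- `a ↦ ζ_p^a`, as an additive map `μ_p → E_S`. -/
def jE : (muP p) →+ (ES S) := (KerIsoGal7.muES p S hpS).j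

theorem jE_ρ (g : GQ) (a : muP p) : jE p S hpS ((muP p).ρ g a) = (ES S).ρ g (jE p S hpS a) :=
  ((KerIsoGal7.muES p S hpS).equiv g a).symm

/-- `H²(G_S, μ_p) → H²(G_S, E_S)`. -/
def eH2 : HS2 S (muP p) →+ H2 (levelS S) (ES S) :=
  jH2 (𝓑 := levelS S) (jE p S hpS) (jE_ρ p S hpS)

variable (q : ℕ) [Fact q.Prime]

/-- **Local-global compatibility**: the localisation at `q` of the image in `H²(G_S, I_{S,q})` of a
class of `H²(G_S, μ_p)` is the image in `H²(ℚ_q, ℚ̄_qˣ)` of its restriction. -/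
theorem locI2_diagq_eH2 (β : HS2 S (muP p)) :
    LocI13.locI2 S q (mapH2 (diagq S q) (diagq_ρ S q) (eH2 p S hpS β)) =
      jH2 (jLoc p q) (jLoc_ρ p q) (resq2 S (muP p) q β) := by
  obtain ⟨c, rfl⟩ := H2mk_surjective (levelS S) (muP p) β
  rw [eH2, jH2_mk, mapH2_mk, resq2_mk, jH2_mk]
  show ppH2 _ _ _ _ (H2mk _ _ _) = _
  rw [ppH2_mk]
  congr 1

end Glob

/-! ### The global ingredients: `τ` and (LG) -/

section Inputs

variable (hp2 : p ≠ 2) (hpS : pPrime p ∈ S)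

include hp2 hpS in
/-- **`H²(G_S, C_S)[p]` embeds into `ℤ/p`** (global class field theory). -/
theorem exists_tauGlob :
    ∃ τ : pTor p (H2 (levelS S) (CS S)) →+ ZMod p, Function.Injective τ := by
  have hGCF := Fermat.Agent.PT.GLOB.FundClassExists6.fundClassExists p S
  have hfund := FundLevel2.fundFixed_CS p hp2 hpS hGCF
  obtain ⟨τ, hτ⟩ := InvFund18.exists_inv_of_isFundClass (CS S).ρ
    (LevelEquiv29.basis (levelS S)) (isDiscrete_CS S) hfund
  let e := LevelEquiv29.h2Equiv (levelS S) (CS S) (isDiscrete_CS S)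
  exact ⟨τ.comp (pTorMap p e.toLinearMap.toAddMonoidHom),
    hτ.comp (pTorMap_injective p _ e.injective)⟩

variable [DecidableEq ↥S]

include hp2 hpS in
/-- **(LG)** in the `LevelCoh28` model: `(toCS ∘ incl_q)_*` is injective on `p`-torsion. -/
theorem hLG (q : ↥S) (w : H2 (levelS S) (ISq S ((q : Nat.Primes) : ℕ))) (hw : p • w = 0)
    (h0 : mapH2 (toCS S) (toCS_ρ S) (mapH2 (inclq S q) (inclq_ρ S q) w) = 0) : w = 0 := by
  have hp : p.Prime := Fact.out
  have hIq : ∀ q : ↥S, IsDiscrete (levelS S).sets (ISq S ((q : Nat.Primes) : ℕ)) :=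
    fun q => isDiscrete_ISq S ((q : Nat.Primes) : ℕ)
  have key := LocalGlobalInst27.hLG_inclq S p hp hp2 ⟨pPrime p, hpS, rfl⟩
    (Fermat.Agent.PT.GLOB.LocalInjMain14.localInjectivity p S)
    (LevelEquiv29.basis (levelS S)) hIq (isDiscrete_IS S) (isDiscrete_CS S) q
    (LevelEquiv29.h2Equiv (levelS S) _ (hIq q) w)
    (by
      have h := (LevelEquiv29.h2Equiv (levelS S) _
        (hIq q)).toLinearMap.toAddMonoidHom.map_nsmul p w
      rw [hw] at h
      exact h.symm.trans (LinearEquiv.map_zero _))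
    (by
      rw [← LevelEquiv29.h2Equiv_mapH2 (levelS S) (hIq q) (isDiscrete_IS S),
        ← LevelEquiv29.h2Equiv_mapH2 (levelS S) (isDiscrete_IS S) (isDiscrete_CS S), h0]
      exact LinearEquiv.map_zero _)
  exact (LevelEquiv29.h2Equiv (levelS S) _ (hIq q)).injective
    (key.trans (LinearEquiv.map_zero _).symm)

end Inputs

/-! ### `∑_q toCS ∘ incl_q ∘ diag_q = 0` -/

section Sum

variable [DecidableEq ↥S]

/-- The composite `E_S → I_{S,q} → I_S → C_S`. -/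
def compq (q : ↥S) : Lin (ES S) (CS S) :=
  (toCS S) ∘ₗ (inclq S q) ∘ₗ (diagq S ((q : Nat.Primes) : ℕ))

theorem compq_ρ (q : ↥S) (g : GQ) (b : ES S) :
    compq S q ((ES S).ρ g b) = (CS S).ρ g (compq S q b) := by
  show toCS S (inclq S q (diagq S _ ((ES S).ρ g b))) = _
  rw [diagq_ρ, inclq_ρ, toCS_ρ]
  rfl

theorem sum_inclq_diagq (b : ES S) :
    ∑ q : ↥S, inclq S q (diagq S ((q : Nat.Primes) : ℕ) b) = diag S b := by
  apply (ISequiv S).injective
  funext r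
  rw [map_sum, Finset.sum_apply, ISequiv_diag]
  simp only [ISequiv_inclq]
  rw [Finset.sum_eq_single r]
  · exact Pi.single_eq_same _ _
  · intro q _ hq
    exact Pi.single_eq_of_ne (Ne.symm hq) _
  · intro h
    exact absurd (Finset.mem_univ r) h

theorem sum_compq : ∑ q : ↥S, compq S q = 0 := by
  ext b
  rw [LinearMap.sum_apply, LinearMap.zero_apply]
  show ∑ q : ↥S, toCS S (inclq S q (diagq S _ b)) = 0
  rw [← map_sum, sum_inclq_diagq, toCS_eq_zero_iff]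
  exact ⟨b, rfl⟩

/-- **Reciprocity at the level of `H²`**: `∑_q (toCS ∘ incl_q)_* (diag_q)_* y = 0`. -/
theorem sum_mapH2_eq_zero (y : H2 (levelS S) (ES S)) :
    ∑ q : ↥S, mapH2 (toCS S) (toCS_ρ S) (mapH2 (inclq S q) (inclq_ρ S q)
      (mapH2 (diagq S ((q : Nat.Primes) : ℕ)) (diagq_ρ S _) y)) = 0 := by
  have h1 : ∀ q : ↥S, mapH2 (toCS S) (toCS_ρ S) (mapH2 (inclq S q) (inclq_ρ S q)
      (mapH2 (diagq S ((q : Nat.Primes) : ℕ)) (diagq_ρ S _) y)) =
      mapH2 (compq S q) (compq_ρ S q) y := by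
    intro q
    obtain ⟨c, rfl⟩ := H2mk_surjective (levelS S) (ES S) y
    rfl
  simp only [h1]
  have hs : ∀ g a, (∑ q : ↥S, compq S q) ((ES S).ρ g a) =
      (CS S).ρ g ((∑ q : ↥S, compq S q) a) := by
    intro g a
    rw [sum_compq]
    simp
  rw [mapH2_sum Finset.univ (compq S) (compq_ρ S) hs y]
  have h0 : ∀ g a, (0 : Lin (ES S) (CS S)) ((ES S).ρ g a) =
      (CS S).ρ g ((0 : Lin (ES S) (CS S)) a) := by
    intro g a
    simp
  rw [mapH2_congr hs h0 (sum_compq S) y, mapH2_zero']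

end Sum

/-! ### The invariant data -/

section Main

variable [DecidableEq ↥S]

/-- The map `(toCS ∘ incl_q)_* : H²(G_S, I_{S,q}) → H²(G_S, C_S)`. -/
def toC (q : ↥S) : H2 (levelS S) (ISq S ((q : Nat.Primes) : ℕ)) →+ H2 (levelS S) (CS S) :=
  ((mapH2 (toCS S) (toCS_ρ S)).comp (mapH2 (inclq S q) (inclq_ρ S q))).toAddMonoidHom

theorem toC_apply (q : ↥S) (w : H2 (levelS S) (ISq S ((q : Nat.Primes) : ℕ))) :
    toC S q w = mapH2 (toCS S) (toCS_ρ S) (mapH2 (inclq S q) (inclq_ρ S q) w) := rfl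

/-- `locI2` on `p`-torsion. -/
def locIp (q : ↥S) : pTor p (H2 (levelS S) (ISq S ((q : Nat.Primes) : ℕ))) →+
    pTor p (H2 (levelLoc ((q : Nat.Primes) : ℕ)) (unitsLoc ((q : Nat.Primes) : ℕ))) :=
  pTorMap p (LocI13.locI2 S ((q : Nat.Primes) : ℕ)).toAddMonoidHom

theorem coe_locIp (q : ↥S) (t : pTor p (H2 (levelS S) (ISq S ((q : Nat.Primes) : ℕ)))) :
    (locIp p S q t).1 = LocI13.locI2 S ((q : Nat.Primes) : ℕ) t.1 := rfl

/-- **The invariant data**: a global invariant `τ : H²(G_S, C_S)[p] ↪ ℤ/p` and local invariants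
`g q : H²(ℚ_q, ℚ̄_qˣ)[p] ↪ ℤ/p` (`q ∈ S`) which are COMPATIBLE:
`g q (locI2 t) = τ ((toCS ∘ incl_q)_* t)` for `t ∈ H²(G_S, I_{S,q})[p]`. -/
structure InvData where
  /-- the global invariant map -/
  τ : pTor p (H2 (levelS S) (CS S)) →+ ZMod p
  τ_inj : Function.Injective τ
  /-- the local invariant maps -/
  g : ∀ q : ↥S,
    pTor p (H2 (levelLoc ((q : Nat.Primes) : ℕ)) (unitsLoc ((q : Nat.Primes) : ℕ))) →+ ZMod p
  g_inj : ∀ q, Function.Injective (g q)
  g_locIp : ∀ (q : ↥S) (t : pTor p (H2 (levelS S) (ISq S ((q : Nat.Primes) : ℕ)))),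
    g q (locIp p S q t) = τ (pTorMap p (toC S q) t)

variable {p S}

/-- The local invariant map on `H²(ℚ_q, μ_p)`. -/
def InvData.inv (D : InvData p S) (q : ↥S) : Hq2 (muP p) ((q : Nat.Primes) : ℕ) →+ ZMod p :=
  (D.g q).comp (kappa p ((q : Nat.Primes) : ℕ))

theorem InvData.inv_apply (D : InvData p S) (q : ↥S) (β : Hq2 (muP p) ((q : Nat.Primes) : ℕ)) :
    D.inv q β = D.g q (kappa p ((q : Nat.Primes) : ℕ) β) := rfl

theorem InvData.inv_injective (D : InvData p S) (q : ↥S) : Function.Injective (D.inv q) :=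
  (D.g_inj q).comp (kappa_injective p ((q : Nat.Primes) : ℕ))

/-- The class `x q β ∈ H²(G_S, I_{S,q})[p]` of a global class `β ∈ H²(G_S, μ_p)`. -/
def xq (hpS : pPrime p ∈ S) (q : ↥S) (β : HS2 S (muP p)) :
    pTor p (H2 (levelS S) (ISq S ((q : Nat.Primes) : ℕ))) :=
  ⟨mapH2 (diagq S ((q : Nat.Primes) : ℕ)) (diagq_ρ S _) (eH2 p S hpS β), by
    show p • mapH2 _ _ _ = 0
    rw [← map_nsmul, eH2, nsmul_jH2, map_zero]⟩

theorem locIp_xq (hpS : pPrime p ∈ S) (q : ↥S) (β : HS2 S (muP p)) :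
    locIp p S q (xq hpS q β) =
      kappa p ((q : Nat.Primes) : ℕ) (resq2 S (muP p) ((q : Nat.Primes) : ℕ) β) :=
  Subtype.ext (locI2_diagq_eH2 p S hpS ((q : Nat.Primes) : ℕ) β)

/-- **Reciprocity law**: `∑_{q ∈ S} inv_q (res_q β) = 0` for `β ∈ H²(G_S, μ_p)`. -/
theorem InvData.recip (D : InvData p S) (hpS : pPrime p ∈ S) (β : HS2 S (muP p)) :
    ∑ q : ↥S, D.inv q (resq2 S (muP p) ((q : Nat.Primes) : ℕ) β) = 0 := by
  have h1 : ∀ q : ↥S, D.inv q (resq2 S (muP p) ((q : Nat.Primes) : ℕ) β) =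
      D.τ (pTorMap p (toC S q) (xq hpS q β)) := by
    intro q
    exact (congrArg (D.g q) (locIp_xq hpS q β).symm).trans (D.g_locIp q (xq hpS q β))
  rw [Finset.sum_congr rfl (fun q _ => h1 q), ← map_sum]
  have h3 : ∑ q : ↥S, pTorMap p (toC S q) (xq hpS q β) = 0 := by
    apply Subtype.ext
    rw [AddSubgroup.val_finsetSum]
    exact sum_mapH2_eq_zero S (eH2 p S hpS β)
  rw [h3, map_zero]

variable (p S)

/-- **Existence of the invariant data** (`p` odd, `p ∈ S`). -/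
theorem exists_invData (hp2 : p ≠ 2) (hpS : pPrime p ∈ S) : Nonempty (InvData p S) := by
  classical
  obtain ⟨τ, hτ⟩ := exists_tauGlob p S hp2 hpS
  choose τl hτl using fun q : ↥S => exists_tauLoc p ((q : Nat.Primes) : ℕ)
  let G : ∀ q : ↥S, pTor p (H2 (levelS S) (ISq S ((q : Nat.Primes) : ℕ))) →+ ZMod p :=
    fun q => τ.comp (pTorMap p (toC S q))
  have hG : ∀ q, Function.Injective (G q) := by
    intro q
    rw [injective_iff_map_eq_zero]
    intro t ht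
    have h1 : pTorMap p (toC S q) t = 0 := hτ (ht.trans (map_zero τ).symm)
    have h2 : toC S q t.1 = 0 := congrArg Subtype.val h1
    exact Subtype.ext (hLG p S hp2 hpS q t.1 t.2 h2)
  obtain ⟨g', hg', hext⟩ := exists_ext (p := p) τl hτl (locIp p S)
    (fun q => pTorMap_injective p _ (LocI13.locI2_injective S ((q : Nat.Primes) : ℕ))) G hG
  exact ⟨⟨τ, hτ, g', hg', hext⟩⟩

/-- **T3: injective local invariant maps satisfying the reciprocity law.** -/
theorem exists_inv_recip (hp2 : p ≠ 2) (hpS : pPrime p ∈ S) :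
    ∃ inv : ∀ q : ↥S, Hq2 (muP p) ((q : Nat.Primes) : ℕ) →+ ZMod p,
      (∀ q, Function.Injective (inv q)) ∧
      ∀ β : HS2 S (muP p), ∑ q : ↥S, inv q (resq2 S (muP p) ((q : Nat.Primes) : ℕ) β) = 0 := by
  obtain ⟨D⟩ := exists_invData p S hp2 hpS
  exact ⟨D.inv, D.inv_injective, D.recip hpS⟩

end Main

/-! ### The local pairings -/

section Pairing

open Fermat.Agent.TW.DEF.Cup1

variable {p}
variable {M M' : Rep.{0} (ZMod p) GQ} (b : M →ₗ[ZMod p] M' →ₗ[ZMod p] (muP p))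
  (hb : ∀ (g : GQ) (m : M) (m' : M'), b (M.ρ g m) (M'.ρ g m') = (muP p).ρ g (b m m'))

/-- The local cup product `H¹(ℚ_q, M) × H¹(ℚ_q, M') → H²(ℚ_q, μ_p)` of an equivariant pairing
`b : M × M' → μ_p`. -/
def cupqB (q : ℕ) [Fact q.Prime] (hMq' : IsDiscrete (levelLoc q).sets (Mq M' q)) :
    Hq1 M q →ₗ[ZMod p] Hq1 M' q →ₗ[ZMod p] Hq2 (muP p) q :=
  cup (A := Mq M q) (B := Mq M' q) (C := Mq (muP p) q) b (fun g m m' => hb (rq q g) m m') hMq'

/-- The global cup product `H¹(G_S, M) × H¹(G_S, M') → H²(G_S, μ_p)`. -/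
def cupSB (S : Finset Nat.Primes) (hM' : IsDiscrete (levelS S).sets M') :
    HS1 S M →ₗ[ZMod p] HS1 S M' →ₗ[ZMod p] HS2 S (muP p) :=
  cup b hb hM'

theorem resq2_cupSB (S : Finset Nat.Primes) (q : ℕ) [Fact q.Prime]
    (hM' : IsDiscrete (levelS S).sets M') (hMq' : IsDiscrete (levelLoc q).sets (Mq M' q))
    (x : HS1 S M) (y : HS1 S M') :
    resq2 S (muP p) q (cupSB b hb S hM' x y) =
      cupqB b hb q hMq' (resq1 S M q x) (resq1 S M' q y) :=
  ppH2_cup (rq q) (isLevelHom_rq S q) b hb hM' (A' := Mq M q) (B' := Mq M' q)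
    (C' := Mq (muP p) q) b (fun g m m' => hb (rq q g) m m') hMq'
    LinearMap.id (fun _ _ => rfl) LinearMap.id (fun _ _ => rfl) LinearMap.id (fun _ _ => rfl)
    (fun _ _ => rfl) x y

variable {S} [DecidableEq ↥S]

/-- **The local pairing** `pair_q = inv_q ∘ ∪ : H¹(ℚ_q, M) × H¹(ℚ_q, M') → ℤ/p`. -/
def InvData.pair (D : InvData p S) (q : ↥S)
    (hMq' : IsDiscrete (levelLoc ((q : Nat.Primes) : ℕ)).sets (Mq M' ((q : Nat.Primes) : ℕ))) :
    Hq1 M ((q : Nat.Primes) : ℕ) →ₗ[ZMod p] Hq1 M' ((q : Nat.Primes) : ℕ) →ₗ[ZMod p] ZMod p :=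
  (cupqB b hb ((q : Nat.Primes) : ℕ) hMq').compr₂ ((D.inv q).toZModLinearMap p)

theorem InvData.pair_apply (D : InvData p S) (q : ↥S)
    (hMq' : IsDiscrete (levelLoc ((q : Nat.Primes) : ℕ)).sets (Mq M' ((q : Nat.Primes) : ℕ)))
    (x : Hq1 M ((q : Nat.Primes) : ℕ)) (y : Hq1 M' ((q : Nat.Primes) : ℕ)) :
    D.pair b hb q hMq' x y = D.inv q (cupqB b hb ((q : Nat.Primes) : ℕ) hMq' x y) := rfl

theorem InvData.pair_eq_zero_iff (D : InvData p S) (q : ↥S)
    (hMq' : IsDiscrete (levelLoc ((q : Nat.Primes) : ℕ)).sets (Mq M' ((q : Nat.Primes) : ℕ)))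
    (x : Hq1 M ((q : Nat.Primes) : ℕ)) (y : Hq1 M' ((q : Nat.Primes) : ℕ)) :
    D.pair b hb q hMq' x y = 0 ↔ cupqB b hb ((q : Nat.Primes) : ℕ) hMq' x y = 0 := by
  constructor
  · intro h
    exact D.inv_injective q
      (((D.pair_apply b hb q hMq' x y).symm.trans h).trans (map_zero (D.inv q)).symm)
  · intro h
    exact (D.pair_apply b hb q hMq' x y).trans
      ((congrArg (D.inv q) h).trans (map_zero (D.inv q)))

/-- **Reciprocity for the local pairings** (the `recip` field of `GWNumeric1.GWInputs`). -/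
theorem InvData.pair_recip (D : InvData p S) (hpS : pPrime p ∈ S)
    (hM' : IsDiscrete (levelS S).sets M')
    (hMq' : ∀ q : ↥S,
      IsDiscrete (levelLoc ((q : Nat.Primes) : ℕ)).sets (Mq M' ((q : Nat.Primes) : ℕ)))
    (x : HS1 S M) (y : HS1 S M') :
    ∑ q : ↥S, D.pair b hb q (hMq' q) (resq1 S M ((q : Nat.Primes) : ℕ) x)
      (resq1 S M' ((q : Nat.Primes) : ℕ) y) = 0 := by
  have h := D.recip hpS (cupSB b hb S hM' x y)
  have h2 : ∀ q : ↥S, D.pair b hb q (hMq' q) (resq1 S M ((q : Nat.Primes) : ℕ) x)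
      (resq1 S M' ((q : Nat.Primes) : ℕ) y) =
      D.inv q (resq2 S (muP p) ((q : Nat.Primes) : ℕ) (cupSB b hb S hM' x y)) := fun q =>
    (congrArg (D.inv q) (resq2_cupSB b hb S ((q : Nat.Primes) : ℕ) hM' (hMq' q) x y)).symm
  exact (Finset.sum_congr rfl (fun q _ => h2 q)).trans h

end Pairing

end

end Fermat.Agent.TW.GLOB.InvRecip1
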