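/-
Programme T (S56), chapter T/GLOB, brick (FL20) part (0).  Owner: helper2.

`Pair20Raw2`: the `(2,0)` pairing `ℍ²(Y⁰ → Y¹) × H⁰(A) → H²(X)` ("Ext²(A, X) × H⁰(A) → H²(X)")
at the cochain level for a pairing datum `D : Pairing20.Datum` (same vocabulary as the `(1,1)`
pairing of `Pairing20`; cochain formula = `ExtPairing4.Pairing.p20`):

* `IsHyper2 c₂ c₁`: `(c₂, c₁)` is a hyper-2-cocycle (`d² c₂ = 0`, `f ∘ c₂ = d¹ c₁`);
* `IsLift0 m̃ z'`: `ι (z' g) = g m̃ - m̃` (so `π m̃` is an invariant of `A`);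
* `pair20 c₂ c₁ m̃ z' (g, h) = ev₀ (c₂ (g, h)) (g h m̃) - ev₁ (c₁ g) (g z' h)`;
* the coboundary lemmas `dTwo_pair20`, `pair20_bdry_left`, `pair20_change_lift`, additivity;
* the finite-group statements `FinTN20l D` (left kernel = hyper-coboundaries) and `FinTN20r D`
  (right kernel = norms).
-/
import Mathlib
import Fermat.Agent.PT.PRO.HyperLevel25
import Fermat.Agent.PT.PRO.Pairing20
import Fermat.Agent.PT.PRO.ExtPairing4

set_option autoImplicit false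

namespace Fermat.Agent.TW.GLOB.Pair20Raw2

open Fermat.Agent.PT.PRO.HyperLevel25 Fermat.Agent.PT.PRO.Pairing20
  Fermat.Agent.PT.PRO.ExtPairing4

variable {k : Type*} [CommRing k] {G : Type*} [Group G]
variable {Y0 Y1 F0 F1 A X : Type*}
  [AddCommGroup Y0] [Module k Y0] [AddCommGroup Y1] [Module k Y1]
  [AddCommGroup F0] [Module k F0] [AddCommGroup F1] [Module k F1]
  [AddCommGroup A] [Module k A] [AddCommGroup X] [Module k X]

variable (D : Datum k G Y0 Y1 F0 F1 A X)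

/-- `(c₂, c₁)` is a hyper-2-cocycle of `f : Y⁰ → Y¹`. -/
def IsHyper2 (c2 : G × G → Y0) (c1 : G → Y1) : Prop :=
  dTwo D.ρY0 c2 = 0 ∧ ∀ q, D.f (c2 q) = dOne D.ρY1 c1 q

/-- `(m̃, z')` is a lifted invariant: `ι (z' g) = g m̃ - m̃`. -/
def IsLift0 (mt : F0) (z' : G → F1) : Prop := ∀ g, D.ι (z' g) = dZero D.ρF0 mt g

/-- The `(2,0)` pairing on cochains. -/
def pair20 (c2 : G × G → Y0) (c1 : G → Y1) (mt : F0) (z' : G → F1) : G × G → X :=
  fun q => D.ev0 (c2 q) (D.ρF0 (q.1 * q.2) mt) - D.ev1 (c1 q.1) (D.ρF1 q.1 (z' q.2))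

@[simp] lemma pair20_apply (c2 : G × G → Y0) (c1 : G → Y1) (mt : F0) (z' : G → F1) (g h : G) :
    pair20 D c2 c1 mt z' (g, h) =
      D.ev0 (c2 (g, h)) (D.ρF0 (g * h) mt) - D.ev1 (c1 g) (D.ρF1 g (z' h)) := rfl

lemma pair20_eq (c2 : G × G → Y0) (c1 : G → Y1) (mt : F0) (z' : G → F1) :
    pair20 D c2 c1 mt z' = (fun q : G × G => D.ev0 (c2 q) (D.ρF0 (q.1 * q.2) mt)) -
      (fun q : G × G => D.ev1 (c1 q.1) (D.ρF1 q.1 (z' q.2))) := rfl

/-- `ev₀ y (g • ι p) = ev₁ (f y) (g • p)`. -/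
lemma ev0_ρ_ι (y : Y0) (g : G) (p : F1) :
    D.ev0 y (D.ρF0 g (D.ι p)) = D.ev1 (D.f y) (D.ρF1 g p) := by
  rw [← D.ι_comm, D.ev_compat]

/-- For a lifted invariant, `z'` is a 1-cocycle of `F₁`. -/
lemma IsLift0.dOne_eq_zero {mt : F0} {z' : G → F1} (hz : IsLift0 D mt z') : dOne D.ρF1 z' = 0 := by
  funext ⟨g, h⟩
  apply D.ι_inj
  have h1 := congrFun (comp_dOne D.ρF1 D.ρF0 D.ι D.ι_comm z') (g, h)
  have h2 : (⇑D.ι ∘ z') = dZero D.ρF0 mt := funext hz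
  rw [Function.comp_apply] at h1
  rw [h1, h2, dOne_dZero]
  simp

/-- For a lifted invariant, `π m̃` is invariant. -/
lemma IsLift0.invariant {mt : F0} {z' : G → F1} (hz : IsLift0 D mt z') (g : G) :
    D.ρA g (D.π mt) = D.π mt := by
  have h1 : D.π (dZero D.ρF0 mt g) = 0 := by rw [← hz g]; exact (D.exact _).2 ⟨_, rfl⟩
  rw [dZero_apply, map_sub, D.π_comm, sub_eq_zero] at h1
  exact h1

/-- Every invariant of `A` has a lift. -/
lemma exists_isLift0 {a : A} (ha : ∀ g, D.ρA g a = a) :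
    ∃ (mt : F0) (z' : G → F1), IsLift0 D mt z' ∧ D.π mt = a := by
  obtain ⟨mt, rfl⟩ := D.π_surj a
  have hker : ∀ g, ∃ z, D.ι z = dZero D.ρF0 mt g := fun g =>
    (D.exact _).1 (by rw [dZero_apply, map_sub, D.π_comm, ha g, sub_self])
  choose z' hz' using hker
  exact ⟨mt, z', hz', rfl⟩

/-- **The pairing of a hyper-2-cocycle with a lifted invariant is a 2-cocycle.** -/
theorem dTwo_pair20 {c2 : G × G → Y0} {c1 : G → Y1} (hc : IsHyper2 D c2 c1) {mt : F0}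
    {z' : G → F1} (hz : IsLift0 D mt z') : dTwo D.ρX (pair20 D c2 c1 mt z') = 0 := by
  funext ⟨g, h, j⟩
  have hz' : dOne D.ρF1 z' (h, j) = 0 := congrFun hz.dOne_eq_zero (h, j)
  rw [pair20_eq, map_sub, Pi.sub_apply, leib20 D.ev0 D.ev0_comm, leib11 D.ev1 D.ev1_comm,
    congrFun hc.1 (g, h, j), hz', ← hz j, ev0_ρ_ι, hc.2 (g, h)]
  simp

/-- **Change of `(c₂, c₁)` by the hyper-coboundary** `D¹ (b₀, y₁) = (d¹ b₀, f ∘ b₀ - d⁰ y₁)`. -/
theorem pair20_bdry_left (b0 : G → Y0) (y1 : Y1) {mt : F0} {z' : G → F1}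
    (hz : IsLift0 D mt z') :
    pair20 D (dOne D.ρY0 b0) (fun a => D.f (b0 a) - dZero D.ρY1 y1 a) mt z' =
      dOne D.ρX (fun a => D.ev0 (b0 a) (D.ρF0 a mt) + D.ev1 y1 (z' a)) := by
  funext ⟨g, h⟩
  have e1 : (fun a => D.ev0 (b0 a) (D.ρF0 a mt) + D.ev1 y1 (z' a)) =
      (fun a => D.ev0 (b0 a) (D.ρF0 a mt)) + (fun a => D.ev1 y1 (z' a)) := rfl
  have hz' : dOne D.ρF1 z' (g, h) = 0 := congrFun hz.dOne_eq_zero (g, h)
  rw [e1, map_add, Pi.add_apply, leib10 D.ev0 D.ev0_comm, leib01 D.ev1 D.ev1_comm,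
    hz', ← hz h, ev0_ρ_ι]
  simp only [pair20_apply, map_sub, LinearMap.sub_apply, map_zero]
  abel

/-- Hyper-coboundaries are hyper-2-cocycles. -/
lemma isHyper2_bdry (b0 : G → Y0) (y1 : Y1) :
    IsHyper2 D (dOne D.ρY0 b0) (fun a => D.f (b0 a) - dZero D.ρY1 y1 a) := by
  refine ⟨dTwo_dOne _ _, fun q => ?_⟩
  have h1 := congrFun (comp_dOne D.ρY0 D.ρY1 D.f D.f_comm b0) q
  rw [Function.comp_apply] at h1
  have e : (fun a => D.f (b0 a) - dZero D.ρY1 y1 a) = (⇑D.f ∘ b0) - dZero D.ρY1 y1 := rfl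
  rw [e, map_sub, dOne_dZero, sub_zero, h1]

/-- **Change of the lift** `(m̃, z') ↦ (m̃ + ι w₀, z' + d⁰ w₀)`. -/
theorem pair20_change_lift {c2 : G × G → Y0} {c1 : G → Y1} (hc : IsHyper2 D c2 c1) (mt : F0)
    (z' : G → F1) (w0 : F1) :
    pair20 D c2 c1 (mt + D.ι w0) (fun a => z' a + dZero D.ρF1 w0 a) - pair20 D c2 c1 mt z' =
      dOne D.ρX (fun a => D.ev1 (c1 a) (D.ρF1 a w0)) := by
  funext ⟨g, h⟩
  rw [leib10 D.ev1 D.ev1_comm, ← hc.2 (g, h), ← ev0_ρ_ι]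
  simp only [pair20_apply, Pi.sub_apply, map_add]
  abel

lemma isLift0_change {mt : F0} {z' : G → F1} (hz : IsLift0 D mt z') (w0 : F1) :
    IsLift0 D (mt + D.ι w0) (fun a => z' a + dZero D.ρF1 w0 a) := by
  intro g
  rw [map_add, hz g]
  simp only [dZero_apply, map_sub, map_add, D.ι_comm]
  abel

/-! ### Additivity -/

lemma pair20_add_left (c2 c2' : G × G → Y0) (c1 c1' : G → Y1) (mt : F0) (z' : G → F1) :
    pair20 D (c2 + c2') (c1 + c1') mt z' = pair20 D c2 c1 mt z' + pair20 D c2' c1' mt z' := by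
  funext q
  simp only [pair20, Pi.add_apply, map_add, LinearMap.add_apply]
  abel

lemma pair20_sub_left (c2 c2' : G × G → Y0) (c1 c1' : G → Y1) (mt : F0) (z' : G → F1) :
    pair20 D (c2 - c2') (c1 - c1') mt z' = pair20 D c2 c1 mt z' - pair20 D c2' c1' mt z' := by
  funext q
  simp only [pair20, Pi.sub_apply, map_sub, LinearMap.sub_apply]
  abel

lemma pair20_smul_left (r : k) (c2 : G × G → Y0) (c1 : G → Y1) (mt : F0) (z' : G → F1) :
    pair20 D (r • c2) (r • c1) mt z' = r • pair20 D c2 c1 mt z' := by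
  funext q
  simp only [pair20, Pi.smul_apply, map_smul, LinearMap.smul_apply, smul_sub]

lemma pair20_add_right (c2 : G × G → Y0) (c1 : G → Y1) (mt mt' : F0) (z' z'' : G → F1) :
    pair20 D c2 c1 (mt + mt') (z' + z'') = pair20 D c2 c1 mt z' + pair20 D c2 c1 mt' z'' := by
  funext q
  simp only [pair20, Pi.add_apply, map_add]
  abel

lemma pair20_smul_right (r : k) (c2 : G × G → Y0) (c1 : G → Y1) (mt : F0) (z' : G → F1) :
    pair20 D c2 c1 (r • mt) (r • z') = r • pair20 D c2 c1 mt z' := by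
  funext q
  simp only [pair20, Pi.smul_apply, map_smul, smul_sub]

lemma IsHyper2.add {c2 c2' : G × G → Y0} {c1 c1' : G → Y1} (h : IsHyper2 D c2 c1)
    (h' : IsHyper2 D c2' c1') : IsHyper2 D (c2 + c2') (c1 + c1') := by
  refine ⟨by rw [map_add, h.1, h'.1, add_zero], fun q => ?_⟩
  rw [Pi.add_apply, map_add, map_add, Pi.add_apply, h.2, h'.2]

lemma IsHyper2.sub {c2 c2' : G × G → Y0} {c1 c1' : G → Y1} (h : IsHyper2 D c2 c1)
    (h' : IsHyper2 D c2' c1') : IsHyper2 D (c2 - c2') (c1 - c1') := by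
  refine ⟨by rw [map_sub, h.1, h'.1, sub_zero], fun q => ?_⟩
  rw [Pi.sub_apply, map_sub, map_sub, Pi.sub_apply, h.2, h'.2]

lemma IsHyper2.smul (r : k) {c2 : G × G → Y0} {c1 : G → Y1} (h : IsHyper2 D c2 c1) :
    IsHyper2 D (r • c2) (r • c1) := by
  refine ⟨by rw [map_smul, h.1, smul_zero], fun q => ?_⟩
  rw [Pi.smul_apply, map_smul, map_smul, Pi.smul_apply, h.2]

lemma IsLift0.add {mt mt' : F0} {z' z'' : G → F1} (h : IsLift0 D mt z') (h' : IsLift0 D mt' z'') :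
    IsLift0 D (mt + mt') (z' + z'') := by
  intro g
  rw [Pi.add_apply, map_add, map_add, Pi.add_apply, h g, h' g]

lemma IsLift0.smul (r : k) {mt : F0} {z' : G → F1} (h : IsLift0 D mt z') :
    IsLift0 D (r • mt) (r • z') := by
  intro g
  rw [Pi.smul_apply, map_smul, map_smul, Pi.smul_apply, h g]

/-- A 1-cocycle `c₁` of `Y¹` gives the hyper-2-cocycle `(0, c₁)`. -/
lemma isHyper2_zero_left {c1 : G → Y1} (h : dOne D.ρY1 c1 = 0) : IsHyper2 D 0 c1 := by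
  refine ⟨map_zero _, fun q => ?_⟩
  rw [Pi.zero_apply, map_zero, h]
  rfl

/-! ### The finite-group statements -/

/-- Hyper Tate–Nakayama in degrees `(2,0)` for a datum over a (finite) group, left kernel: a
hyper-2-cocycle pairing to a coboundary with every lifted invariant is a hyper-coboundary. -/
def FinTN20l (D : Datum k G Y0 Y1 F0 F1 A X) : Prop :=
  ∀ (c2 : G × G → Y0) (c1 : G → Y1), IsHyper2 D c2 c1 →
    (∀ mt z', IsLift0 D mt z' → ∃ u, pair20 D c2 c1 mt z' = dOne D.ρX u) →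
    ∃ (b0 : G → Y0) (y1 : Y1), c2 = dOne D.ρY0 b0 ∧
      c1 = fun a => D.f (b0 a) - dZero D.ρY1 y1 a

/-- Hyper Tate–Nakayama in degrees `(2,0)`, right kernel: a lifted invariant pairing to a
coboundary with every hyper-2-cocycle is a norm. -/
def FinTN20r (D : Datum k G Y0 Y1 F0 F1 A X) : Prop :=
  ∀ (mt : F0) (z' : G → F1), IsLift0 D mt z' →
    (∀ c2 c1, IsHyper2 D c2 c1 → ∃ u, pair20 D c2 c1 mt z' = dOne D.ρX u) →
    ∃ a' : A, D.π mt = ∑ᶠ g : G, D.ρA g a'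

end Fermat.Agent.TW.GLOB.Pair20Raw2
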