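/-
Programme T (S56), chapter T/GLOB, brick (FL20) part (a).  Owner: helper2.

`TN11Raw2`: the RAW cochain forms of the `(1,1)` Tate–Nakayama duality for a single `ℤ`-free
finitely generated module `P` over a finite group `G` (consumed by `FL20_2`), from
`TNOneOneFinal1.tn11 : Interface8.TN11`:

* `TN11rProp ρ ρC p`: a 1-cocycle `x` of `P`, with `p x` a coboundary, whose cup product with every
  1-cocycle of `Hom(P, C)` is a 2-coboundary of `C`, is a coboundary;
* `TN11lProp ρ ρC p`: a 1-cocycle `f` of `Hom(P, C)`, with `p f` a coboundary, whose cup product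
  with every 1-cocycle of `P` is a 2-coboundary, is a coboundary;
* `tn11r_raw`, `tn11l_raw` for `k = ℤ`, `(C, u)` with `Interface8.IsFundClass p (Rep.of ρC) u`.
-/
import Mathlib
import Fermat.Agent.PT.FG.TNOneOneFinal1
import Fermat.Agent.PT.FG.TN02Final3

set_option autoImplicit false

open CategoryTheory groupCohomology

namespace Fermat.Agent.TW.GLOB.TN11Raw2

open Fermat.Agent.PT.FG.Interface8 Fermat.Agent.PT.FG.TNDual1
open Fermat.Agent.PT.PRO.HyperLevel25

section Defs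

variable {k : Type*} [CommRing k] {G : Type*} [Group G]
  {P C : Type*} [AddCommGroup P] [Module k P] [AddCommGroup C] [Module k C]

/-- The raw cup product `(f ∪ x)(g, h) = f(g)(g • x(h))`. -/
def cupFun (ρ : Representation k G P) (f : G → (P →ₗ[k] C)) (x : G → P) : G × G → C :=
  fun q => f q.1 (ρ q.1 (x q.2))

@[simp] lemma cupFun_apply (ρ : Representation k G P) (f : G → (P →ₗ[k] C)) (x : G → P)
    (g h : G) : cupFun ρ f x (g, h) = f g (ρ g (x h)) := rfl

/-- `(1,1)` Tate–Nakayama, right kernel, raw form, for the module `(P, ρ)`. -/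
def TN11rProp (ρ : Representation k G P) (ρC : Representation k G C) (p : ℕ) : Prop :=
  ∀ x : G → P, dOne ρ x = 0 → (∃ w : P, (p : k) • x = dZero ρ w) →
    (∀ f : G → (P →ₗ[k] C), dOne (Representation.linHom ρ ρC) f = 0 →
      ∃ u : G → C, cupFun ρ f x = dOne ρC u) →
    ∃ w : P, x = dZero ρ w

/-- `(1,1)` Tate–Nakayama, left kernel, raw form, for the module `(P, ρ)`. -/
def TN11lProp (ρ : Representation k G P) (ρC : Representation k G C) (p : ℕ) : Prop :=
  ∀ f : G → (P →ₗ[k] C), dOne (Representation.linHom ρ ρC) f = 0 →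
    (∃ y : P →ₗ[k] C, (p : k) • f = dZero (Representation.linHom ρ ρC) y) →
    (∀ x : G → P, dOne ρ x = 0 → ∃ u : G → C, cupFun ρ f x = dOne ρC u) →
    ∃ y : P →ₗ[k] C, f = dZero (Representation.linHom ρ ρC) y

end Defs

section Generic

variable {k : Type} [CommRing k] {G : Type} [Group G]
  {P C : Type} [AddCommGroup P] [Module k P] [AddCommGroup C] [Module k C]
  (ρ : Representation k G P) (ρC : Representation k G C)

lemma mem_cocycles₁_of_dOne {A : Type} [AddCommGroup A] [Module k A] (ρA : Representation k G A)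
    {x : G → A} (hx : dOne ρA x = 0) : x ∈ cocycles₁ (Rep.of ρA) := by
  rw [mem_cocycles₁_iff]
  intro g h
  have := congrFun hx (g, h)
  rw [dOne_apply, Pi.zero_apply] at this
  show x (g * h) = ρA g (x h) + x g
  rw [← sub_eq_zero, ← neg_eq_zero, ← this]
  abel

lemma dOne_of_mem_cocycles₁ {A : Type} [AddCommGroup A] [Module k A] (ρA : Representation k G A)
    (x : cocycles₁ (Rep.of ρA)) : dOne ρA (x : G → A) = 0 := by
  funext ⟨g, h⟩
  have := (mem_cocycles₁_iff (A := Rep.of ρA) x).1 x.2 g h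
  have h' : (x : G → A) (g * h) = ρA g ((x : G → A) h) + (x : G → A) g := this
  rw [dOne_apply, Pi.zero_apply, h']
  abel

lemma mem_coboundaries₁_iff {A : Type} [AddCommGroup A] [Module k A] (ρA : Representation k G A)
    (x : G → A) : x ∈ coboundaries₁ (Rep.of ρA) ↔ ∃ w : A, x = dZero ρA w := by
  constructor
  · rintro ⟨w, hw⟩
    exact ⟨w, hw.symm⟩
  · rintro ⟨w, hw⟩
    exact ⟨w, hw.symm⟩

lemma mem_cocycles₂_of_dTwo {A : Type} [AddCommGroup A] [Module k A] (ρA : Representation k G A)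
    {z : G × G → A} (hz : dTwo ρA z = 0) : z ∈ cocycles₂ (Rep.of ρA) := by
  rw [mem_cocycles₂_iff]
  intro g h j
  have := congrFun hz (g, h, j)
  rw [dTwo_apply, Pi.zero_apply] at this
  show z (g * h, j) + z (g, h) = ρA g (z (h, j)) + z (g, h * j)
  refine Eq.symm ?_
  rw [← sub_eq_zero, ← this]
  abel

lemma mem_coboundaries₂_iff {A : Type} [AddCommGroup A] [Module k A] (ρA : Representation k G A)
    (z : G × G → A) : z ∈ coboundaries₂ (Rep.of ρA) ↔ ∃ t : G → A, z = dOne ρA t := by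
  constructor
  · rintro ⟨t, ht⟩
    exact ⟨t, ht.symm⟩
  · rintro ⟨t, ht⟩
    exact ⟨t, ht.symm⟩

/-- The representation `Hom(P, C)` of `Interface8` is `Representation.linHom`. -/
noncomputable abbrev HmRep : Rep.{0} k G := (Rep.ihom (Rep.of ρ)).obj (Rep.of ρC)

/-- A function with values in `Hom(P, C)` as a cochain of `HmRep`. -/
def toHm (f : G → (P →ₗ[k] C)) : G → (HmRep ρ ρC).V := f

/-- A cochain of `HmRep` as a function with values in `Hom(P, C)`. -/
def ofHm (f : G → (HmRep ρ ρC).V) : G → (P →ₗ[k] C) := f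

@[simp] lemma ofHm_toHm (f : G → (P →ₗ[k] C)) : ofHm ρ ρC (toHm ρ ρC f) = f := rfl

lemma mem_cocycles₁_Hm_of_dOne {f : G → (P →ₗ[k] C)}
    (hf : dOne (Representation.linHom ρ ρC) f = 0) :
    toHm ρ ρC f ∈ cocycles₁ (HmRep ρ ρC) := by
  refine (mem_cocycles₁_iff (A := HmRep ρ ρC) (toHm ρ ρC f)).2 fun g h => ?_
  have := congrFun hf (g, h)
  rw [dOne_apply, Pi.zero_apply] at this
  show f (g * h) = Representation.linHom ρ ρC g (f h) + f g
  rw [← sub_eq_zero, ← neg_eq_zero, ← this]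
  abel

lemma dOne_of_mem_cocycles₁_Hm (f : cocycles₁ (HmRep ρ ρC)) :
    dOne (Representation.linHom ρ ρC) (ofHm ρ ρC f) = 0 := by
  funext ⟨g, h⟩
  have := (mem_cocycles₁_iff (A := HmRep ρ ρC) f).1 f.2 g h
  have h' : ofHm ρ ρC f (g * h) =
      Representation.linHom ρ ρC g (ofHm ρ ρC f h) + ofHm ρ ρC f g := this
  rw [dOne_apply, Pi.zero_apply, h']
  abel

lemma mem_coboundaries₁_Hm_iff (f : G → (P →ₗ[k] C)) :
    toHm ρ ρC f ∈ coboundaries₁ (HmRep ρ ρC) ↔
      ∃ y : P →ₗ[k] C, f = dZero (Representation.linHom ρ ρC) y := by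
  constructor
  · rintro ⟨w, hw⟩
    exact ⟨w, hw.symm⟩
  · rintro ⟨w, hw⟩
    exact ⟨w, hw.symm⟩

/-- Helper (generic `k`, avoids the `ℤ`-module diamond): if `n • f = F` pointwise and `F` is a
coboundary then `n •` the cocycle of `f` is a coboundary. -/
lemma nsmul_mem_coboundaries₁_Hm (f F : G → (P →ₗ[k] C)) (y : P →ₗ[k] C)
    (hF : F = dZero (Representation.linHom ρ ρC) y) (n : ℕ) (fc : cocycles₁ (HmRep ρ ρC))
    (hfc : (fc : G → (HmRep ρ ρC).V) = toHm ρ ρC f) (h : ∀ g m, n • (f g m) = F g m) :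
    ((n • fc : cocycles₁ (HmRep ρ ρC)) : G → (HmRep ρ ρC).V) ∈ coboundaries₁ (HmRep ρ ρC) := by
  have h1 := (mem_coboundaries₁_Hm_iff ρ ρC F).2 ⟨y, hF⟩
  have e : ((n • fc : cocycles₁ (HmRep ρ ρC)) : G → (HmRep ρ ρC).V) = toHm ρ ρC F := by
    funext g
    have e1 : ((n • fc : cocycles₁ (HmRep ρ ρC)) : G → (HmRep ρ ρC).V) g =
        n • (fc : G → (HmRep ρ ρC).V) g := rfl
    rw [e1, hfc]
    show n • f g = F g
    refine LinearMap.ext fun m => ?_
    exact h g m
  rw [e]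
  exact h1

end Generic

section Raw

variable {G : Type} [Group G]
  {P C : Type} [AddCommGroup P] [Module ℤ P] [AddCommGroup C] [Module ℤ C]
  (ρ : Representation ℤ G P) (ρC : Representation ℤ G C)

variable [Finite G] (p : ℕ) [Fact p.Prime]

/-- **Raw TN11, right kernel.** -/
theorem tn11r_raw (hfree : Module.Free ℤ P) (hfin : Module.Finite ℤ P)
    (u : H2 (Rep.of ρC)) (hu : IsFundClass p (Rep.of ρC) u) : TN11rProp ρ ρC p := by
  intro x hx ⟨w, hw⟩ hpair
  obtain ⟨B, hB, -, hR⟩ := Fermat.Agent.PT.FG.TNOneOneFinal1.tn11 G p (Rep.of ρC) u hu (Rep.of ρ)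
    (free_int_congr _ _ hfree) (finite_int_congr _ _ hfin)
  let xc : cocycles₁ (Rep.of ρ) := ⟨x, mem_cocycles₁_of_dOne ρ hx⟩
  have h0 : H1π (Rep.of ρ) xc = 0 := by
    refine hR _ ⟨1, ?_⟩ fun ξ => ?_
    · rw [pow_one, ← map_nsmul, H1π_eq_zero_iff]
      refine (mem_coboundaries₁_iff ρ _).2 ⟨w, ?_⟩
      rw [← hw]
      funext g
      exact (@Nat.cast_smul_eq_nsmul ℤ P _ _ ‹Module ℤ P› p (x g)).symm
    · induction ξ using H1_induction_on with | h f =>
      obtain ⟨u', hu'⟩ := hpair (ofHm ρ ρC f) (dOne_of_mem_cocycles₁_Hm ρ ρC f)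
      have hc : cupFun ρ (ofHm ρ ρC f) x ∈ cocycles₂ (Rep.of ρC) := by
        rw [hu']
        exact mem_cocycles₂_of_dTwo ρC (dTwo_dOne ρC u')
      rw [hB f xc ⟨_, hc⟩ rfl, H2π_eq_zero_iff]
      exact (mem_coboundaries₂_iff ρC _).2 ⟨u', hu'⟩
  rw [H1π_eq_zero_iff] at h0
  exact (mem_coboundaries₁_iff ρ _).1 h0

/-- **Raw TN11, left kernel.** -/
theorem tn11l_raw (hfree : Module.Free ℤ P) (hfin : Module.Finite ℤ P)
    (u : H2 (Rep.of ρC)) (hu : IsFundClass p (Rep.of ρC) u) : TN11lProp ρ ρC p := by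
  intro f hf ⟨y, hy⟩ hpair
  obtain ⟨B, hB, hL, -⟩ := Fermat.Agent.PT.FG.TNOneOneFinal1.tn11 G p (Rep.of ρC) u hu (Rep.of ρ)
    (free_int_congr _ _ hfree) (finite_int_congr _ _ hfin)
  let fc : cocycles₁ (HmRep ρ ρC) := ⟨toHm ρ ρC f, mem_cocycles₁_Hm_of_dOne ρ ρC hf⟩
  have h0 : H1π (HmRep ρ ρC) fc = 0 := by
    refine hL _ ⟨1, ?_⟩ fun η => ?_
    · rw [pow_one, ← map_nsmul, H1π_eq_zero_iff]
      refine nsmul_mem_coboundaries₁_Hm ρ ρC f _ y hy p fc rfl fun g m => ?_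
      exact (@Nat.cast_smul_eq_nsmul ℤ C _ _ ‹Module ℤ C› p (f g m)).symm
    · induction η using H1_induction_on with | h x =>
      obtain ⟨u', hu'⟩ := hpair (x : G → P) (dOne_of_mem_cocycles₁ ρ x)
      have hc : cupFun ρ f (x : G → P) ∈ cocycles₂ (Rep.of ρC) := by
        rw [hu']
        exact mem_cocycles₂_of_dTwo ρC (dTwo_dOne ρC u')
      rw [hB fc x ⟨_, hc⟩ rfl, H2π_eq_zero_iff]
      exact (mem_coboundaries₂_iff ρC _).2 ⟨u', hu'⟩
  rw [H1π_eq_zero_iff] at h0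
  exact (mem_coboundaries₁_Hm_iff ρ ρC f).1 h0

end Raw

end Fermat.Agent.TW.GLOB.TN11Raw2
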