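/-
Programme T (S56), chapter T/GLOB, brick (FL20).  Owner: helper2.

`FL20_2`: FINITE-LEVEL hyper Tate–Nakayama in degrees `(2,0)`, raw cochain form: for a finite
group `G`, a resolution `R : 0 → P₁ → P₀ → M → 0` (`IndRes20.Res`) with `p M = 0` and a module `C`,
the statements `Pair20Raw2.FinTN20l (R.datum ρC)` (a hyper-2-cocycle of `K(P; C)` pairing to a
coboundary with all lifted invariants of `M` is a hyper-coboundary) and `FinTN20r (R.datum ρC)`
(a lifted invariant pairing to a coboundary with all hyper-2-cocycles is a norm), from the raw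
`(1,1)` Tate–Nakayama statements (`TN11Raw2.TN11lProp/TN11rProp`) of the single module
`P₁' = Fun(G, P₀) ×_{P₀} P₁` of the induced resolution.

Route (one degree above `IndTN20` + `IndResTransport20`):
* Part A: more acyclicity of `Fun(G, N)` (`Ĥ⁰ = 0`) and of `Hom(Fun(G, N), C)` (`H² = 0`);
* Part B: for a resolution with acyclic `P₀`, `FinTN20l/r` from `TN11l/r` of `P₁`;
* Part C: transport from the induced resolution `ind R` back to `R`;
* Part D: the main theorems `finTN20l`, `finTN20r`.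
-/
import Mathlib
import Fermat.Agent.TW.GLOB.Pair20Raw2
import Fermat.Agent.TW.GLOB.TN11Raw2
import Fermat.Agent.PT.PRO.IndTN20

set_option autoImplicit false
set_option linter.unusedSectionVars false

namespace Fermat.Agent.TW.GLOB.FL20_2

open Fermat.Agent.PT.PRO.HyperLevel25 Fermat.Agent.PT.PRO.Pairing20 Fermat.Agent.PT.PRO.IndRes20
open Fermat.Agent.PT.PRO.IndResTransport20 Fermat.Agent.PT.PRO.IndTN20
open Fermat.Agent.PT.PRO
open Fermat.Agent.TW.GLOB.Pair20Raw2 Fermat.Agent.TW.GLOB.TN11Raw2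

variable {k : Type*} [CommRing k] {G : Type*} [Group G] [Fintype G] [DecidableEq G]

/-! ### Part A: more acyclicity -/

section Acyclic

variable {N : Type*} [AddCommGroup N] [Module k N] (ρ : Representation k G N)

/-- `Ĥ⁰(G, Fun(G, N)) = 0`: every invariant of the diagonal action is a norm. -/
theorem fun_H0 (φ : G → N) (hφ : ∀ g, diagRep ρ g φ = φ) :
    ∃ e : G → N, φ = ∑ g : G, diagRep ρ g e := by
  refine ⟨dl k 1 (φ 1), ?_⟩
  have h1 : ∀ g : G, diagRep ρ g (dl k 1 (φ 1)) = dl k g (φ g) := by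
    intro g
    rw [diagRep_dl, mul_one]
    congr 1
    have := congrFun (hφ g) g
    rw [diagRep_apply, inv_mul_cancel] at this
    exact this
  rw [Finset.sum_congr rfl (fun g _ => h1 g)]
  exact (sum_dl (k := k) φ).symm

variable {C : Type*} [AddCommGroup C] [Module k C] (ρC : Representation k G C)

/-- Components of a functional on `Fun(G, N)`. -/
def toComp : ((G → N) →ₗ[k] C) →ₗ[k] (G → (N →ₗ[k] C)) where
  toFun ψ := fun x => ψ ∘ₗ dl k x
  map_add' ψ ψ' := by funext x; rfl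
  map_smul' r ψ := by funext x; rfl

/-- The functional with given components. -/
def ofComp : (G → (N →ₗ[k] C)) →ₗ[k] ((G → N) →ₗ[k] C) where
  toFun Ψ := ∑ x : G, Ψ x ∘ₗ LinearMap.proj x
  map_add' Ψ Ψ' := by
    simp only [Pi.add_apply, LinearMap.add_comp, Finset.sum_add_distrib]
  map_smul' r Ψ := by
    simp only [Pi.smul_apply, LinearMap.smul_comp, Finset.smul_sum, RingHom.id_apply]

lemma ofComp_apply (Ψ : G → (N →ₗ[k] C)) (φ : G → N) :
    ofComp (k := k) Ψ φ = ∑ x : G, Ψ x (φ x) := by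
  simp [ofComp, LinearMap.sum_apply]

lemma ofComp_toComp (ψ : (G → N) →ₗ[k] C) : ofComp (toComp ψ) = ψ := by
  refine LinearMap.ext fun φ => ?_
  rw [ofComp_apply]
  conv_rhs => rw [← sum_dl (k := k) φ, map_sum]
  rfl

lemma toComp_ofComp (Ψ : G → (N →ₗ[k] C)) : toComp (ofComp (k := k) Ψ) = Ψ := by
  funext x
  refine LinearMap.ext fun n => ?_
  show ofComp (k := k) Ψ (dl k x n) = Ψ x n
  rw [ofComp_apply]
  simp only [dl, LinearMap.single_apply]
  rw [Finset.sum_eq_single x]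
  · simp
  · intro y _ hy
    simp [Pi.single_eq_of_ne hy]
  · intro h
    exact absurd (Finset.mem_univ x) h

/-- `toComp` intertwines `Hom(Fun(G, N), C)` and `Fun(G, Hom(N, C))` (diagonal action). -/
lemma toComp_comm (g : G) (ψ : (G → N) →ₗ[k] C) :
    toComp (homFun ρ ρC g ψ) = diagRep (Representation.linHom ρ ρC) g (toComp ψ) := by
  funext y
  refine LinearMap.ext fun n => ?_
  show (homFun ρ ρC g ψ) (dl k y n) = (Representation.linHom ρ ρC g (ψ ∘ₗ dl k (g⁻¹ * y))) n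
  simp only [Representation.linHom_apply, LinearMap.comp_apply]
  rw [diagRep_dl]

lemma ofComp_comm (g : G) (Ψ : G → (N →ₗ[k] C)) :
    ofComp (diagRep (Representation.linHom ρ ρC) g Ψ) = homFun ρ ρC g (ofComp (k := k) Ψ) := by
  have h := toComp_comm ρ ρC g (ofComp (k := k) Ψ)
  rw [toComp_ofComp] at h
  rw [← h, ofComp_toComp]

/-- `H²(G, Hom(Fun(G, N), C)) = 0`. -/
theorem homFun_H2 (c2 : G × G → ((G → N) →ₗ[k] C)) (hc : dTwo (homFun ρ ρC) c2 = 0) :
    ∃ b0 : G → ((G → N) →ₗ[k] C), c2 = dOne (homFun ρ ρC) b0 := by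
  have h1 := comp_dTwo (homFun ρ ρC) (diagRep (Representation.linHom ρ ρC)) (toComp (k := k))
    (toComp_comm ρ ρC) c2
  rw [hc] at h1
  have h2 : dTwo (diagRep (Representation.linHom ρ ρC)) (⇑(toComp (k := k) (N := N) (C := C)) ∘ c2)
      = 0 := by
    rw [← h1]
    funext q
    simp
  obtain ⟨t, ht⟩ := fun_H2 (Representation.linHom ρ ρC) _ h2
  refine ⟨⇑(ofComp (k := k)) ∘ t, ?_⟩
  have h3 := comp_dOne (diagRep (Representation.linHom ρ ρC)) (homFun ρ ρC) (ofComp (k := k))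
    (ofComp_comm ρ ρC) t
  rw [← h3, ← ht]
  funext q
  simp only [Function.comp_apply, ofComp_toComp]

end Acyclic

/-! ### Part B: resolutions with acyclic `P₀` -/

section TN

variable {P1 P0 M C : Type*} [AddCommGroup P1] [Module k P1] [AddCommGroup P0] [Module k P0]
  [AddCommGroup M] [Module k M] [AddCommGroup C] [Module k C]

variable (R : Res k G P1 P0 M) (ρC : Representation k G C) (p : ℕ)

omit [Fintype G] [DecidableEq G] in
/-- The `(2,0)` pairing of `(0, c₁)` is minus the cup product. -/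
lemma pair20_zero_left (c1 : G → (P1 →ₗ[k] C)) (mt : P0) (z' : G → P1) :
    pair20 (R.datum ρC) 0 c1 mt z' = - cupFun R.ρ1 c1 z' := by
  funext ⟨g, h⟩
  simp only [pair20_apply, Pi.zero_apply, map_zero, LinearMap.zero_apply, zero_sub, Pi.neg_apply,
    cupFun_apply, Res.datum_ev1, Res.datum_ρF1]

/-- **Left kernel for a resolution with `H¹(G, P₀) = 0`, `H¹(G, Hom(P₀, C)) = 0`,
`H²(G, Hom(P₀, C)) = 0`.** -/
theorem TN20l_of_acyclic (hpM : ∀ m : M, (p : k) • m = 0)
    (hA1 : ∀ x : G → P0, dOne R.ρ0 x = 0 → ∃ w : P0, x = dZero R.ρ0 w)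
    (hB1 : ∀ c : G → (P0 →ₗ[k] C), dOne (Representation.linHom R.ρ0 ρC) c = 0 →
      ∃ y₀ : P0 →ₗ[k] C, c = dZero (Representation.linHom R.ρ0 ρC) y₀)
    (hB2 : ∀ c2 : G × G → (P0 →ₗ[k] C), dTwo (Representation.linHom R.ρ0 ρC) c2 = 0 →
      ∃ b0 : G → (P0 →ₗ[k] C), c2 = dOne (Representation.linHom R.ρ0 ρC) b0)
    (hTN : TN11lProp R.ρ1 ρC p) : FinTN20l (R.datum ρC) := by
  intro c2 c1 hc hpair
  set D := R.datum ρC with hD
  obtain ⟨b0, hb0⟩ := hB2 c2 hc.1
  have hb0' : c2 = dOne D.ρY0 b0 := hb0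
  -- subtract the hyper-coboundary `D¹ (b₀, 0)`
  set c1' : G → (P1 →ₗ[k] C) := c1 - fun a => D.f (b0 a) - dZero D.ρY1 0 a with hc1'
  have hsub : IsHyper2 D (c2 - dOne D.ρY0 b0) c1' := hc.sub D (isHyper2_bdry D b0 0)
  have hc20 : c2 - dOne D.ρY0 b0 = 0 := sub_eq_zero.2 hb0'
  rw [hc20] at hsub
  have hcoc : dOne (Representation.linHom R.ρ1 ρC) c1' = 0 := by
    funext q
    have := hsub.2 q
    rw [Pi.zero_apply, map_zero] at this
    exact this.symm
  -- `p c₁'` is a coboundary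
  have hp : ∃ y : P1 →ₗ[k] C, (p : k) • c1' = dZero (Representation.linHom R.ρ1 ρC) y := by
    obtain ⟨h, h1, h2⟩ := HomCx29.exists_homotopy R.ι R.ι_inj (p : k)
      (fun x => (R.exact _).1 (by rw [map_smul, hpM]))
    have he := HomCx29.homotopy_equivariant (ρ0 := R.ρ0) (ρ1 := R.ρ1) R.ι R.ι_comm R.ι_inj
      (p : k) h h1
    have hL : ∀ g (φ : P1 →ₗ[k] C), LinearMap.lcomp k C h (Representation.linHom R.ρ1 ρC g φ) =
        Representation.linHom R.ρ0 ρC g (LinearMap.lcomp k C h φ) := fun g φ =>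
      (linHom_precomp ρC R.ρ1 R.ρ0 h he g φ).symm
    have h3 := comp_dOne (Representation.linHom R.ρ1 ρC) (Representation.linHom R.ρ0 ρC)
      (LinearMap.lcomp k C h) hL c1'
    rw [hcoc] at h3
    obtain ⟨y0, hy0⟩ := hB1 (⇑(LinearMap.lcomp k C h) ∘ c1') (by
      rw [← h3]
      funext q
      simp)
    refine ⟨y0 ∘ₗ R.ι, funext fun a => LinearMap.ext fun z => ?_⟩
    have h4 := LinearMap.congr_fun (congrFun hy0 a) (R.ι z)
    simp only [Function.comp_apply, LinearMap.lcomp_apply', LinearMap.comp_apply, h2, map_smul,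
      dZero_apply, LinearMap.sub_apply, Representation.linHom_apply] at h4
    simp only [Pi.smul_apply, LinearMap.smul_apply, dZero_apply, LinearMap.sub_apply,
      Representation.linHom_apply, LinearMap.comp_apply, R.ι_comm]
    exact h4
  -- the pairing condition
  have hcup : ∀ x : G → P1, dOne R.ρ1 x = 0 → ∃ u : G → C, cupFun R.ρ1 c1' x = dOne ρC u := by
    intro x hx
    have hιx : dOne R.ρ0 (⇑R.ι ∘ x) = 0 := by
      rw [← comp_dOne R.ρ1 R.ρ0 R.ι R.ι_comm, hx]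
      funext q
      simp
    obtain ⟨mt, hmt⟩ := hA1 _ hιx
    have hlift : IsLift0 D mt x := fun g => congrFun hmt g
    obtain ⟨u, hu⟩ := hpair mt x hlift
    have h1 := pair20_sub_left D c2 (dOne D.ρY0 b0) c1
      (fun a => D.f (b0 a) - dZero D.ρY1 0 a) mt x
    rw [hc20, pair20_bdry_left D b0 0 hlift, hu, ← map_sub] at h1
    have h2 : pair20 D 0 c1' mt x = - cupFun R.ρ1 c1' x := pair20_zero_left R ρC c1' mt x
    rw [h2] at h1
    have hρ : D.ρX = ρC := rfl
    refine ⟨-(u - fun a => D.ev0 (b0 a) (D.ρF0 a mt) + D.ev1 0 (x a)), ?_⟩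
    rw [map_neg, ← hρ, ← h1, neg_neg]
  obtain ⟨y1', hy1'⟩ := hTN c1' hcoc hp hcup
  refine ⟨b0, -y1', hb0', ?_⟩
  have h5 : c1 = c1' + fun a => D.f (b0 a) - dZero D.ρY1 0 a := by rw [hc1']; abel
  rw [h5, hy1']
  funext a
  simp only [Pi.add_apply, map_zero, Pi.zero_apply, sub_zero, map_neg, Pi.neg_apply]
  have : dZero (Representation.linHom R.ρ1 ρC) y1' a = dZero D.ρY1 y1' a := rfl
  rw [this]
  abel

/-- **Right kernel for a resolution with `Ĥ⁰(G, P₀) = 0`.** -/
theorem TN20r_of_acyclic (hpM : ∀ m : M, (p : k) • m = 0)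
    (hA0 : ∀ w : P0, (∀ g, R.ρ0 g w = w) → ∃ e : P0, w = ∑ g : G, R.ρ0 g e)
    (hTN : TN11rProp R.ρ1 ρC p) : FinTN20r (R.datum ρC) := by
  intro mt z' hz hpair
  set D := R.datum ρC with hD
  have hz' : ∀ g, R.ι (z' g) = R.ρ0 g mt - mt := hz
  have hcoc : dOne R.ρ1 z' = 0 := hz.dOne_eq_zero D
  -- `p z'` is a coboundary
  have hp : ∃ w : P1, (p : k) • z' = dZero R.ρ1 w := by
    obtain ⟨h, h1, h2⟩ := HomCx29.exists_homotopy R.ι R.ι_inj (p : k)
      (fun x => (R.exact _).1 (by rw [map_smul, hpM]))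
    have he := HomCx29.homotopy_equivariant (ρ0 := R.ρ0) (ρ1 := R.ρ1) R.ι R.ι_comm R.ι_inj
      (p : k) h h1
    refine ⟨h mt, funext fun a => ?_⟩
    rw [Pi.smul_apply, ← h2, hz' a, map_sub, he, dZero_apply]
  have hcup : ∀ f : G → (P1 →ₗ[k] C), dOne (Representation.linHom R.ρ1 ρC) f = 0 →
      ∃ u : G → C, cupFun R.ρ1 f z' = dOne ρC u := by
    intro f hf
    obtain ⟨u, hu⟩ := hpair 0 f (isHyper2_zero_left D hf)
    have h2 : pair20 D 0 f mt z' = - cupFun R.ρ1 f z' := pair20_zero_left R ρC f mt z'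
    rw [h2] at hu
    have hρ : D.ρX = ρC := rfl
    refine ⟨-u, ?_⟩
    rw [map_neg, ← hρ, ← hu, neg_neg]
  obtain ⟨w, hw⟩ := hTN z' hcoc hp hcup
  -- `m̃ - ι w` is invariant
  have hinv : ∀ g, R.ρ0 g (mt - R.ι w) = mt - R.ι w := by
    intro g
    have h1 := congrFun hw g
    rw [dZero_apply] at h1
    have h2 := hz' g
    rw [h1, map_sub, R.ι_comm] at h2
    rw [map_sub, sub_eq_sub_iff_add_eq_add]
    rw [sub_eq_sub_iff_add_eq_add] at h2
    rw [← h2]
    abel
  obtain ⟨e, he⟩ := hA0 _ hinv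
  refine ⟨R.π e, ?_⟩
  rw [finsum_eq_sum_of_fintype]
  have h3 : R.π mt = R.π (mt - R.ι w) := by
    rw [map_sub, (R.exact _).2 ⟨w, rfl⟩, sub_zero]
  show R.π mt = ∑ g : G, R.ρM g (R.π e)
  rw [h3, he, map_sum]
  exact Finset.sum_congr rfl (fun g _ => R.π_comm g e)

end TN

/-! ### Part C: transport between the induced resolution and the given one -/

section Transport

variable {P1 P0 M C : Type*} [AddCommGroup P1] [Module k P1] [AddCommGroup P0] [Module k P0]
  [AddCommGroup M] [Module k M] [AddCommGroup C] [Module k C]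

variable (R : Res k G P1 P0 M) (ρC : Representation k G C)

/-- Pull-back along the augmentation, `Hom(P₀, C) → Hom(Fun(G, P₀), C)`. -/
def augL : (P0 →ₗ[k] C) →ₗ[k] ((G → P0) →ₗ[k] C) := LinearMap.lcomp k C (aug (k := k) P0)

/-- Pull-back along the projection, `Hom(P₁, C) → Hom(P₁', C)`. -/
def projL : (P1 →ₗ[k] C) →ₗ[k] (↥(indP1 R) →ₗ[k] C) := LinearMap.lcomp k C (proj1 R)

omit [DecidableEq G] in
@[simp] lemma augL_apply (y : P0 →ₗ[k] C) (φ : G → P0) :
    augL (k := k) (G := G) y φ = y (aug (k := k) P0 φ) := rfl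

@[simp] lemma projL_apply (y : P1 →ₗ[k] C) (w : ↥(indP1 R)) : projL R y w = y (proj1 R w) := rfl

lemma augL_comm (g : G) (y : P0 →ₗ[k] C) :
    augL (k := k) (G := G) ((R.datum ρC).ρY0 g y) = ((ind R).datum ρC).ρY0 g (augL y) :=
  (linHom_precomp ρC R.ρ0 (ind R).ρ0 (aug (k := k) P0) (aug_comm R) g y).symm

lemma projL_comm (g : G) (y : P1 →ₗ[k] C) :
    projL R ((R.datum ρC).ρY1 g y) = ((ind R).datum ρC).ρY1 g (projL R y) :=
  (linHom_precomp ρC R.ρ1 (ind R).ρ1 (proj1 R) (proj1_comm R) g y).symm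

lemma augL_injective : Function.Injective (augL (k := k) (G := G) (P0 := P0) (C := C)) := by
  intro y y' h
  ext x
  obtain ⟨φ, rfl⟩ := aug_surjective (k := k) (G := G) x
  exact LinearMap.congr_fun h φ

lemma projL_injective : Function.Injective (projL (C := C) R) := by
  intro y y' h
  ext z
  obtain ⟨w, rfl⟩ := proj1_surjective R z
  exact LinearMap.congr_fun h w

/-- `f' ∘ augL = projL ∘ f`. -/
lemma f_augL (y : P0 →ₗ[k] C) :
    ((ind R).datum ρC).f (augL y) = projL R ((R.datum ρC).f y) := by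
  ext w
  simp only [Res.datum_f, LinearMap.comp_apply, augL_apply, projL_apply]
  rw [aug_ι_ind]

/-! #### C1: forward transport of hyper-2-cocycles -/

lemma isHyper2_pull {c2 : G × G → (P0 →ₗ[k] C)} {c1 : G → (P1 →ₗ[k] C)}
    (h : IsHyper2 (R.datum ρC) c2 c1) :
    IsHyper2 ((ind R).datum ρC) (⇑(augL (k := k) (G := G)) ∘ c2) (⇑(projL R) ∘ c1) := by
  refine ⟨?_, fun q => ?_⟩
  · rw [← comp_dTwo (R.datum ρC).ρY0 ((ind R).datum ρC).ρY0 augL (augL_comm R ρC), h.1]
    funext q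
    simp
  · have h1 := congrFun (comp_dOne (R.datum ρC).ρY1 ((ind R).datum ρC).ρY1 (projL R)
      (projL_comm R ρC) c1) q
    rw [Function.comp_apply] at h1
    rw [← h1, ← h.2 q, Function.comp_apply, f_augL]

/-- Compatibility of the pairings. -/
lemma pair20_pull (c2 : G × G → (P0 →ₗ[k] C)) (c1 : G → (P1 →ₗ[k] C)) (mt : G → P0)
    (z' : G → ↥(indP1 R)) :
    pair20 ((ind R).datum ρC) (⇑(augL (k := k) (G := G)) ∘ c2) (⇑(projL R) ∘ c1) mt z' =
      pair20 (R.datum ρC) c2 c1 (aug (k := k) P0 mt) (⇑(proj1 R) ∘ z') := by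
  funext ⟨g, h⟩
  simp only [pair20_apply, Res.datum_ev0, Res.datum_ev1, Res.datum_ρF0, Res.datum_ρF1,
    Function.comp_apply, augL_apply, projL_apply]
  rw [aug_comm, proj1_comm]

/-! #### C2: transport of lifted invariants -/

lemma isLift0_push {mt : G → P0} {z' : G → ↥(indP1 R)}
    (h : IsLift0 ((ind R).datum ρC) mt z') :
    IsLift0 (R.datum ρC) (aug (k := k) P0 mt) (⇑(proj1 R) ∘ z') := by
  intro g
  have h1 : (ind R).ι (z' g) = dZero (ind R).ρ0 mt g := h g
  show R.ι (proj1 R (z' g)) = dZero R.ρ0 (aug (k := k) P0 mt) g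
  rw [← aug_ι_ind, h1, dZero_apply, dZero_apply, map_sub, aug_comm]

lemma exists_lift0_ind {mt : P0} {z' : G → P1} (h : IsLift0 (R.datum ρC) mt z') :
    ∃ (mt'' : G → P0) (z'' : G → ↥(indP1 R)), IsLift0 ((ind R).datum ρC) mt'' z'' ∧
      aug (k := k) P0 mt'' = mt ∧ ⇑(proj1 R) ∘ z'' = z' := by
  have hz : ∀ g, R.ι (z' g) = dZero R.ρ0 mt g := h
  refine ⟨sec (k := k) (G := G) P0 mt,
    fun g => ⟨(dZero (ind R).ρ0 (sec (k := k) (G := G) P0 mt) g, z' g), ?_⟩, ?_, aug_sec mt, ?_⟩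
  · rw [mem_indP1]
    show aug (k := k) P0 (dZero (ind R).ρ0 (sec (k := k) (G := G) P0 mt) g) = R.ι (z' g)
    rw [dZero_apply, map_sub, aug_comm, aug_sec, hz, dZero_apply]
  · intro g
    rfl
  · funext g
    rfl

/-! #### C3: every hyper-2-cocycle of the induced resolution is a pull-back up to a coboundary -/

theorem exists_pull2 {c2' : G × G → ((G → P0) →ₗ[k] C)} {c1' : G → (↥(indP1 R) →ₗ[k] C)}
    (h : IsHyper2 ((ind R).datum ρC) c2' c1') :
    ∃ (c2 : G × G → (P0 →ₗ[k] C)) (c1 : G → (P1 →ₗ[k] C)) (b0 : G → ((G → P0) →ₗ[k] C)),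
      IsHyper2 (R.datum ρC) c2 c1 ∧
      c2' = ⇑(augL (k := k) (G := G)) ∘ c2 + dOne ((ind R).datum ρC).ρY0 b0 ∧
      c1' = ⇑(projL R) ∘ c1 +
        fun a => ((ind R).datum ρC).f (b0 a) - dZero ((ind R).datum ρC).ρY1 0 a := by
  set D' := (ind R).datum ρC with hD'
  set b0 : G → ((G → P0) →ₗ[k] C) := fun g => c1' g ∘ₗ kerEmb R with hb0
  set c2'' : G × G → ((G → P0) →ₗ[k] C) := c2' - dOne D'.ρY0 b0 with hc2''
  set c1'' : G → (↥(indP1 R) →ₗ[k] C) := c1' - fun a => D'.f (b0 a) - dZero D'.ρY1 0 a with hc1''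
  have hcoc : IsHyper2 D' c2'' c1'' := h.sub D' (isHyper2_bdry D' b0 0)
  have hc1''_apply : ∀ g w, c1'' g w = c1' g w - c1' g (kerEmb R ((ind R).ι w)) := by
    intro g w
    simp only [hc1'', hb0, hD', Pi.sub_apply, LinearMap.sub_apply, Res.datum_f,
      LinearMap.comp_apply, map_zero, Pi.zero_apply, sub_zero]
  -- (k2)
  have k2 : ∀ g φ, c1'' g (kerEmb R φ) = 0 := by
    intro g φ
    rw [hc1''_apply, kerEmb_ι_kerEmb, sub_self]
  have k4 : ∀ g, c1'' g = (c1'' g ∘ₗ lift1 R) ∘ₗ proj1 R := fun g => eq_comp_proj1 R (k2 g)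
  have k3 : ∀ g w, proj1 R w = 0 → c1'' g w = 0 := by
    intro g w hw
    rw [k4 g, LinearMap.comp_apply, hw, map_zero]
  -- (k5)
  have k5 : ∀ q φ, c2'' q φ = c2'' q (sec (k := k) (G := G) P0 (aug (k := k) P0 φ)) := by
    rintro ⟨g, h'⟩ φ
    have h1 := LinearMap.congr_fun (hcoc.2 (g, h')) (kerEmb R φ)
    simp only [hD', Res.datum_f, Res.datum_ρY1, LinearMap.comp_apply, dOne_apply,
      LinearMap.sub_apply, LinearMap.add_apply] at h1
    rw [k2, k2, k3 _ _ (by rw [proj1_comm, proj1_kerEmb, map_zero]), map_zero, ι_kerEmb, map_sub]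
      at h1
    simp only [sub_zero, add_zero] at h1
    exact sub_eq_zero.1 h1
  set c2 : G × G → (P0 →ₗ[k] C) := fun q => c2'' q ∘ₗ sec (k := k) (G := G) P0 with hc2
  set c1 : G → (P1 →ₗ[k] C) := fun g => c1'' g ∘ₗ lift1 R with hc1
  have hpc2 : ⇑(augL (k := k) (G := G)) ∘ c2 = c2'' := by
    funext q
    refine LinearMap.ext fun φ => ?_
    simp only [Function.comp_apply, augL_apply, hc2, LinearMap.comp_apply]
    exact (k5 q φ).symm
  have hpc1 : ⇑(projL R) ∘ c1 = c1'' := by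
    funext g
    exact (k4 g).symm
  refine ⟨c2, c1, b0, ⟨?_, fun q => ?_⟩, ?_, ?_⟩
  · -- dTwo c2 = 0
    have h1 := comp_dTwo (R.datum ρC).ρY0 D'.ρY0 augL (augL_comm R ρC) c2
    rw [hpc2, hcoc.1] at h1
    funext q
    apply augL_injective (k := k) (G := G)
    have h2 := congrFun h1 q
    rw [Function.comp_apply] at h2
    rw [h2]
    simp
  · -- f (c2 q) = dOne c1 q
    apply projL_injective R
    have h1 := congrFun (comp_dOne (R.datum ρC).ρY1 D'.ρY1 (projL R) (projL_comm R ρC) c1) q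
    rw [Function.comp_apply, hpc1] at h1
    rw [h1, ← hcoc.2 q, ← f_augL, ← hpc2]
    rfl
  · rw [hpc2, hc2'']; abel
  · rw [hpc1, hc1'']; abel

/-! #### The reductions -/

/-- **Right kernel**: it suffices to treat the induced resolution. -/
theorem TN20r_of_ind (h : FinTN20r ((ind R).datum ρC)) : FinTN20r (R.datum ρC) := by
  intro mt z' hz hpair
  obtain ⟨mt'', z'', hl, ha, hb⟩ := exists_lift0_ind R ρC hz
  obtain ⟨a', ha'⟩ := h mt'' z'' hl (fun c2' c1' hc' => by
    obtain ⟨c2, c1, b0, hc, e2, e1⟩ := exists_pull2 R ρC hc'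
    obtain ⟨u, hu⟩ := hpair c2 c1 hc
    refine ⟨u + fun a => ((ind R).datum ρC).ev0 (b0 a) (((ind R).datum ρC).ρF0 a mt'') +
      ((ind R).datum ρC).ev1 0 (z'' a), ?_⟩
    rw [e2, e1, pair20_add_left, pair20_pull, ha, hb, hu,
      pair20_bdry_left ((ind R).datum ρC) b0 0 hl, map_add]
    rfl)
  refine ⟨a', ?_⟩
  have h1 : ((ind R).datum ρC).π mt'' = (R.datum ρC).π mt := by
    show R.π (aug (k := k) P0 mt'') = R.π mt
    rw [ha]
  rw [← h1, ha']
  rfl

/-- **Left kernel**: it suffices to treat the induced resolution. -/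
theorem TN20l_of_ind (h : FinTN20l ((ind R).datum ρC)) : FinTN20l (R.datum ρC) := by
  intro c2 c1 hc hpair
  set D' := (ind R).datum ρC with hD'
  obtain ⟨b0', y1', e2, e1⟩ := h _ _ (isHyper2_pull R ρC hc) (fun mt'' z'' hl => by
    obtain ⟨u, hu⟩ := hpair _ _ (isLift0_push R ρC hl)
    exact ⟨u, by rw [pair20_pull, hu]; rfl⟩)
  -- the return trip
  set e0 : (G → P0) →ₗ[k] C := y1' ∘ₗ kerEmb R with he0
  set y1'' : ↥(indP1 R) →ₗ[k] C := y1' - D'.f e0 with hy1''
  set b0'' : G → ((G → P0) →ₗ[k] C) := b0' - dZero D'.ρY0 e0 with hb0''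
  have e2' : ⇑(augL (k := k) (G := G)) ∘ c2 = dOne D'.ρY0 b0'' := by
    rw [hb0'', map_sub, dOne_dZero, sub_zero]
    exact e2
  have e1' : ∀ a, projL R (c1 a) = D'.f (b0'' a) - dZero D'.ρY1 y1'' a := by
    intro a
    have h1 := congrFun e1 a
    rw [Function.comp_apply] at h1
    rw [h1, hb0'', hy1'', Pi.sub_apply, map_sub, map_sub, Pi.sub_apply]
    have h2 : D'.f (dZero D'.ρY0 e0 a) = dZero D'.ρY1 (D'.f e0) a := by
      rw [dZero_apply, dZero_apply, map_sub, D'.f_comm]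
    rw [h2]
    abel
  have r1 : ∀ φ, y1'' (kerEmb R φ) = 0 := by
    intro φ
    simp only [hy1'', he0, hD', LinearMap.sub_apply, Res.datum_f, LinearMap.comp_apply]
    rw [kerEmb_ι_kerEmb, sub_self]
  have r1' : y1'' = (y1'' ∘ₗ lift1 R) ∘ₗ proj1 R := eq_comp_proj1 R r1
  have r3 : ∀ w, proj1 R w = 0 → y1'' w = 0 := by
    intro w hw
    rw [r1', LinearMap.comp_apply, hw, map_zero]
  set y1 : P1 →ₗ[k] C := y1'' ∘ₗ lift1 R with hy1
  have r4 : ∀ a φ, b0'' a φ = b0'' a (sec (k := k) (G := G) P0 (aug (k := k) P0 φ)) := by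
    intro a φ
    have h1 := LinearMap.congr_fun (e1' a) (kerEmb R φ)
    simp only [projL_apply, proj1_kerEmb, map_zero, hD', Res.datum_f, Res.datum_ρY1,
      LinearMap.comp_apply, LinearMap.sub_apply, dZero_apply] at h1
    rw [r1, r3 _ (by rw [proj1_comm, proj1_kerEmb, map_zero]), map_zero, sub_self, sub_zero,
      ι_kerEmb, map_sub] at h1
    exact (sub_eq_zero.1 h1.symm)
  set b0 : G → (P0 →ₗ[k] C) := fun a => b0'' a ∘ₗ sec (k := k) (G := G) P0 with hb0
  have r4' : ⇑(augL (k := k) (G := G)) ∘ b0 = b0'' := by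
    funext a
    refine LinearMap.ext fun φ => ?_
    simp only [Function.comp_apply, augL_apply, hb0, LinearMap.comp_apply]
    exact (r4 a φ).symm
  refine ⟨b0, y1, ?_, ?_⟩
  · -- c2 = dOne b0
    funext q
    apply augL_injective (k := k) (G := G)
    have h1 := congrFun (comp_dOne (R.datum ρC).ρY0 D'.ρY0 augL (augL_comm R ρC) b0) q
    rw [Function.comp_apply, r4', ← e2'] at h1
    exact h1.symm
  · -- c1 = f ∘ b0 - d y1
    funext a
    apply projL_injective R
    have h1 : augL (k := k) (G := G) (b0 a) = b0'' a := congrFun r4' a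
    have h2 : projL R (dZero (R.datum ρC).ρY1 y1 a) = dZero D'.ρY1 y1'' a := by
      rw [dZero_apply, dZero_apply, map_sub, projL_comm]
      have : projL R y1 = y1'' := r1'.symm
      rw [this]
    have h3 : projL R ((R.datum ρC).f (b0 a) - dZero (R.datum ρC).ρY1 y1 a) =
        D'.f (b0'' a) - dZero D'.ρY1 y1'' a := by
      rw [map_sub, h2, ← f_augL, h1]
    rw [h3]
    exact e1' a

end Transport

/-! ### Part D: the main theorems -/

section Main

variable {P1 P0 M C : Type*} [AddCommGroup P1] [Module k P1] [AddCommGroup P0] [Module k P0]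
  [AddCommGroup M] [Module k M] [AddCommGroup C] [Module k C]
variable (R : Res k G P1 P0 M) (ρC : Representation k G C) (p : ℕ)

/-- **Hyper Tate–Nakayama `(2,0)`, left kernel**, for any resolution `0 → P₁ → P₀ → M → 0` of a
module killed by `p` over a finite group, from the raw `(1,1)` statement for
`P₁' = Fun(G, P₀) ×_{P₀} P₁`. -/
theorem finTN20l (hpM : ∀ m : M, (p : k) • m = 0) (hTN : TN11lProp (indρ1 R) ρC p) :
    FinTN20l (R.datum ρC) :=
  TN20l_of_ind R ρC (TN20l_of_acyclic (ind R) ρC p hpM (fun x hx => fun_H1 R.ρ0 x hx)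
    (fun c hc => homFun_H1 R.ρ0 ρC c hc) (fun c2 hc2 => homFun_H2 R.ρ0 ρC c2 hc2) hTN)

/-- **Hyper Tate–Nakayama `(2,0)`, right kernel.** -/
theorem finTN20r (hpM : ∀ m : M, (p : k) • m = 0) (hTN : TN11rProp (indρ1 R) ρC p) :
    FinTN20r (R.datum ρC) :=
  TN20r_of_ind R ρC (TN20r_of_acyclic (ind R) ρC p hpM (fun w hw => fun_H0 R.ρ0 w hw) hTN)

end Main

end Fermat.Agent.TW.GLOB.FL20_2
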