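/-
Programme T (S56), chapter T/GLOB, brick (LIM20).  Owner: helper2.

`Lim20_2`: the LIMIT ARGUMENT for the duality `Ext²_G(M, C) × H⁰(G, M) → H²(G, C)` at the cochain
level (no quotient types), the analogue of `GlobalDuality20` + `HyperColim18` + `DescendRes18` one
degree up, for an abstract pairing datum `D : Pairing20.Datum` and a basis `𝒰` of open subgroups.

* `exists_normal_fixing₂`: a level 2-cochain with discrete values is of level `W`, `W ∈ 𝒰` normal;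
* `IsHyper2At D V`, `IsLift0At D V`, `isLevelAt₂_pair20`;
* `TN20lAt D V`, `TN20rAt D V` (hyper Tate–Nakayama `(2,0)` at level `V`) and their transport
  `tn20lAt_of_descend`, `tn20rAt_of_descend` from the finite-group statements
  `Pair20Raw2.FinTN20l/r` of the descended datum over `G ⧸ V`;
* `DatumIso.finTN20l/r` (transport along isomorphisms of data), `tn20lAt_datum`, `tn20rAt_datum`
  for `K(P; C)` from `K(P; C^V)` over `G ⧸ V`;
* `Hyp20 D 𝒰 ℱ` and the limit theorems `left_kernel20` (needs `INJ2` only) and `right_kernel20`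
  (needs `INJ2` and the vanishing of norms `NORM`).
-/
import Mathlib
import Fermat.Agent.TW.GLOB.FL20_2
import Fermat.Agent.PT.PRO.DescendRes18

set_option autoImplicit false

namespace Fermat.Agent.TW.GLOB.Lim20_2

open Fermat.Agent.PT.PRO.HyperLevel25 Fermat.Agent.PT.PRO.Pairing20
  Fermat.Agent.PT.PRO.GlobalDuality20 Fermat.Agent.PT.PRO.HyperColim18
  Fermat.Agent.PT.PRO.DescendRes18 Fermat.Agent.PT.PRO.IndRes20
  Fermat.Agent.TW.GLOB.Pair20Raw2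

variable {k : Type*} [CommRing k] {G : Type*} [Group G]

/-! ### Level 2-cochains with discrete values -/

section Level

variable {Y : Type*} [AddCommGroup Y] [Module k Y] {𝒰 : Set (Subgroup G)}

/-- A level 2-cochain with values in a discrete module is invariant under, and has all its values
fixed by, a single normal `W ∈ 𝒰`. -/
lemma exists_normal_fixing₂ (h𝒰 : IsLevelBasis 𝒰) {ρ : Representation k G Y}
    (hρ : IsDiscrete 𝒰 ρ) {c : G × G → Y} (hc : IsLevel₂ 𝒰 c) :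
    ∃ W ∈ 𝒰, W.Normal ∧ IsLevelAt₂ ρ W c := by
  obtain ⟨U, hU, hcU⟩ := hc
  have := h𝒰.finiteIndex U hU
  have : Finite (G ⧸ U) := Subgroup.finite_quotient_of_finiteIndex
  choose V hV𝒰 hVfix using hρ
  obtain ⟨W₀, hW₀, hW₀le⟩ := h𝒰.exists_le_of_finite
    (fun q : (G ⧸ U) × (G ⧸ U) => V (c (q.1.out, q.2.out))) (fun q => hV𝒰 _)
  obtain ⟨W₁, hW₁, hW₁le⟩ := h𝒰.inf W₀ hW₀ U hU
  obtain ⟨W, hW, hWle, hWn⟩ := h𝒰.normal W₁ hW₁
  have hrep : ∀ g g' : G, c (g, g') =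
      c ((QuotientGroup.mk (s := U) g).out, (QuotientGroup.mk (s := U) g').out) := by
    intro g g'
    obtain ⟨s, hs, h1⟩ := out_eq_mul U g
    obtain ⟨s', hs', h1'⟩ := out_eq_mul U g'
    rw [h1, h1', hcU g g' s s' hs hs']
  refine ⟨W, hW, hWn, fun g g' s s' hs hs' =>
    hcU g g' s s' ((hWle.trans hW₁le) hs).2 ((hWle.trans hW₁le) hs').2, fun q s hs => ?_⟩
  obtain ⟨g, g'⟩ := q
  rw [hrep g g']
  exact hVfix _ s (hW₀le (QuotientGroup.mk (s := U) g, QuotientGroup.mk (s := U) g')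
    ((hWle.trans hW₁le) hs).1)

/-- Inflation of a 3-cochain. -/
def infl₃ {V : Subgroup G} {ρ : Representation k G Y}
    (φ : (G ⧸ V) × (G ⧸ V) × (G ⧸ V) → fixedSub V ρ) : G × G × G → Y :=
  fun q => (φ ((q.1 : G ⧸ V), (q.2.1 : G ⧸ V), (q.2.2 : G ⧸ V)) : Y)

lemma infl₃_injective {V : Subgroup G} {ρ : Representation k G Y} :
    Function.Injective (infl₃ (V := V) (ρ := ρ)) := by
  intro c c' h
  funext ⟨q, q', q''⟩
  induction q using QuotientGroup.induction_on with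
  | H g =>
    induction q' using QuotientGroup.induction_on with
    | H g' =>
      induction q'' using QuotientGroup.induction_on with
      | H g'' => exact Subtype.ext (congrFun h (g, g', g''))

lemma infl₃_dTwo (V : Subgroup G) [V.Normal] (ρ : Representation k G Y)
    (c : (G ⧸ V) × (G ⧸ V) → fixedSub V ρ) :
    infl₃ (dTwo (fixedRep V ρ) c) = dTwo ρ (infl₂ c) := by
  funext ⟨g, h, j⟩
  simp only [infl₃, dTwo_apply, Submodule.coe_add, Submodule.coe_sub, fixedRep_mk,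
    infl₂_apply, QuotientGroup.mk_mul]

end Level

/-! ### Level-`V` data -/

variable {Y0 Y1 F0 F1 A X : Type*}
  [AddCommGroup Y0] [Module k Y0] [AddCommGroup Y1] [Module k Y1]
  [AddCommGroup F0] [Module k F0] [AddCommGroup F1] [Module k F1]
  [AddCommGroup A] [Module k A] [AddCommGroup X] [Module k X]

variable (D : Datum k G Y0 Y1 F0 F1 A X)

/-- `(c₂, c₁)` is a hyper-2-cocycle of level `V`. -/
def IsHyper2At (V : Subgroup G) (c2 : G × G → Y0) (c1 : G → Y1) : Prop :=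
  IsHyper2 D c2 c1 ∧ IsLevelAt₂ D.ρY0 V c2 ∧ IsLevelAt₁ D.ρY1 V c1

/-- `(m̃, z')` is a lifted invariant of level `V`. -/
def IsLift0At (V : Subgroup G) (mt : F0) (z' : G → F1) : Prop :=
  IsLift0 D mt z' ∧ FixedBy D.ρF0 V mt ∧ IsLevelAt₁ D.ρF1 V z'

/-- For a lifted invariant `(m̃, z')` with `m̃` fixed by the normal subgroup `V`, `z'` is of
level `V`. -/
lemma isLevelAt₁_of_isLift0 {V : Subgroup G} (hV : V.Normal) {mt : F0} {z' : G → F1}
    (hz : IsLift0 D mt z') (hm : FixedBy D.ρF0 V mt) : IsLevelAt₁ D.ρF1 V z' := by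
  have hz' : ∀ g, D.ι (z' g) = D.ρF0 g mt - mt := hz
  have hconj : ∀ (t g : G), t ∈ V → g⁻¹ * t * g ∈ V := fun t g ht => by
    have := hV.conj_mem t ht g⁻¹
    simpa using this
  refine ⟨fun g s hs => D.ι_inj ?_, fun g t ht => D.ι_inj ?_⟩
  · rw [hz', hz', map_mul, Module.End.mul_apply, hm s hs]
  · rw [D.ι_comm, hz', map_sub, hm t ht, ← Module.End.mul_apply, ← map_mul]
    have e1 : t * g = g * (g⁻¹ * t * g) := by group
    rw [e1, map_mul, Module.End.mul_apply, hm _ (hconj t g ht)]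

/-- The pairing of level-`V` data is a level-`V` 2-cochain (`V` normal). -/
lemma isLevelAt₂_pair20 {V : Subgroup G} (hV : V.Normal) {c2 : G × G → Y0} {c1 : G → Y1}
    (hc : IsHyper2At D V c2 c1) {mt : F0} {z' : G → F1} (hz : IsLift0At D V mt z') :
    IsLevelAt₂ D.ρX V (pair20 D c2 c1 mt z') := by
  obtain ⟨-, hc2, hc1⟩ := hc
  obtain ⟨-, hm, hz1⟩ := hz
  have hconj : ∀ (t g : G), t ∈ V → g⁻¹ * t * g ∈ V := fun t g ht => by
    have := hV.conj_mem t ht g⁻¹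
    simpa using this
  refine ⟨fun g g' s s' hs hs' => ?_, fun q t ht => ?_⟩
  · simp only [pair20_apply]
    have e1 : g * s * (g' * s') = g * g' * ((g'⁻¹ * s * g') * s') := by group
    rw [hc2.1 g g' s s' hs hs', hc1.1 g s hs, hz1.1 g' s' hs', e1, map_mul (D.ρF0),
      Module.End.mul_apply, hm _ (V.mul_mem (hconj s g' hs) hs'), map_mul (D.ρF1),
      Module.End.mul_apply, hz1.2 g' s hs]
  · obtain ⟨g, h⟩ := q
    have h1 : t * (g * h) = g * h * ((g * h)⁻¹ * t * (g * h)) := by group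
    have h2 : t * g = g * (g⁻¹ * t * g) := by group
    have e0 : D.ρF0 t (D.ρF0 (g * h) mt) = D.ρF0 (g * h) mt := by
      rw [← Module.End.mul_apply, ← map_mul, h1, map_mul, Module.End.mul_apply,
        hm _ (hconj t (g * h) ht)]
    have e1 : D.ρF1 t (D.ρF1 g (z' h)) = D.ρF1 g (z' h) := by
      rw [← Module.End.mul_apply, ← map_mul, h2, map_mul, Module.End.mul_apply,
        hz1.2 h _ (hconj t g ht)]
    simp only [pair20_apply, map_sub]
    rw [← D.ev0_comm, ← D.ev1_comm, hc2.2 (g, h) t ht, hc1.2 g t ht, e0, e1]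

/-- Hyper Tate–Nakayama `(2,0)` at level `V`, left kernel. -/
def TN20lAt (V : Subgroup G) : Prop :=
  ∀ (c2 : G × G → Y0) (c1 : G → Y1), IsHyper2At D V c2 c1 →
    (∀ mt z', IsLift0At D V mt z' →
      ∃ u, IsLevelAt₁ D.ρX V u ∧ pair20 D c2 c1 mt z' = dOne D.ρX u) →
    ∃ (b0 : G → Y0) (y1 : Y1), IsLevelAt₁ D.ρY0 V b0 ∧ FixedBy D.ρY1 V y1 ∧
      c2 = dOne D.ρY0 b0 ∧ c1 = fun a => D.f (b0 a) - dZero D.ρY1 y1 a

/-- Hyper Tate–Nakayama `(2,0)` at level `V`, right kernel. -/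
def TN20rAt (V : Subgroup G) : Prop :=
  ∀ (mt : F0) (z' : G → F1), IsLift0At D V mt z' →
    (∀ c2 c1, IsHyper2At D V c2 c1 →
      ∃ u, IsLevelAt₁ D.ρX V u ∧ pair20 D c2 c1 mt z' = dOne D.ρX u) →
    ∃ a' : A, FixedBy D.ρA V a' ∧ D.π mt = nrm D.ρA V a'

/-! ### Dictionary with the descended datum over `G ⧸ V` -/

section Dictionary

variable (V : Subgroup G) [V.Normal]
  (hπ : ∀ a, FixedBy D.ρA V a → ∃ x, FixedBy D.ρF0 V x ∧ D.π x = a)

lemma infl₂_pair20 (c2 : (G ⧸ V) × (G ⧸ V) → fixedSub V D.ρY0) (c1 : G ⧸ V → fixedSub V D.ρY1)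
    (mt : fixedSub V D.ρF0) (z' : G ⧸ V → fixedSub V D.ρF1) :
    infl₂ (pair20 (descend D V hπ) c2 c1 mt z') =
      pair20 D (infl₂ c2) (infl₁ c1) (mt : F0) (infl₁ z') := by
  funext ⟨g, h⟩
  rfl

lemma isHyper2_descend_iff (c2 : (G ⧸ V) × (G ⧸ V) → fixedSub V D.ρY0)
    (c1 : G ⧸ V → fixedSub V D.ρY1) :
    IsHyper2 (descend D V hπ) c2 c1 ↔ IsHyper2 D (infl₂ c2) (infl₁ c1) := by
  constructor
  · rintro ⟨h1, h2⟩
    refine ⟨?_, fun q => ?_⟩
    · have h3 : dTwo (fixedRep V D.ρY0) c2 = 0 := h1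
      rw [← infl₃_dTwo, h3]
      rfl
    · obtain ⟨g, g'⟩ := q
      have h3 := congrArg Subtype.val (h2 ((g : G ⧸ V), (g' : G ⧸ V)))
      have h4 := congrFun (infl₂_dOne V D.ρY1 c1) (g, g')
      rw [← h4]
      exact h3
  · rintro ⟨h1, h2⟩
    refine ⟨?_, fun q => ?_⟩
    · apply infl₃_injective
      have h3 : infl₃ (dTwo (fixedRep V D.ρY0) c2) = 0 := by rw [infl₃_dTwo, h1]
      exact h3
    · obtain ⟨q, q'⟩ := q
      induction q using QuotientGroup.induction_on with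
      | H g =>
        induction q' using QuotientGroup.induction_on with
        | H g' =>
          have h3 := h2 (g, g')
          have h4 := congrFun (infl₂_dOne V D.ρY1 c1) (g, g')
          rw [← h4] at h3
          exact Subtype.ext h3

lemma isLift0_descend_iff (mt : fixedSub V D.ρF0) (z' : G ⧸ V → fixedSub V D.ρF1) :
    IsLift0 (descend D V hπ) mt z' ↔ IsLift0 D (mt : F0) (infl₁ z') := by
  constructor
  · intro h g
    have h1 := congrArg Subtype.val (h (g : G ⧸ V))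
    have h2 := congrFun (infl₁_dZero V D.ρF0 mt) g
    rw [← h2]
    exact h1
  · intro h q
    induction q using QuotientGroup.induction_on with
    | H g =>
      have h1 := h g
      have h2 := congrFun (infl₁_dZero V D.ρF0 mt) g
      rw [← h2] at h1
      exact Subtype.ext h1

/-- **Transport of the left-kernel statement** from `G ⧸ V` to level `V`. -/
theorem tn20lAt_of_descend (h : FinTN20l (descend D V hπ)) : TN20lAt D V := by
  intro c2 c1 hc hpair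
  obtain ⟨hcoc, hc2, hc1⟩ := hc
  have hcoc' : IsHyper2 (descend D V hπ) (desc₂ c2 hc2) (desc₁ c1 hc1) := by
    rw [isHyper2_descend_iff, infl₂_desc₂, infl₁_desc₁]
    exact hcoc
  obtain ⟨b0, y1, h1, h2⟩ := h (desc₂ c2 hc2) (desc₁ c1 hc1) hcoc' (fun mt z' hl => by
    rw [isLift0_descend_iff] at hl
    obtain ⟨u, hu, hpu⟩ := hpair (mt : F0) (infl₁ z') ⟨hl, mt.2, isLevelAt₁_infl₁ z'⟩
    refine ⟨desc₁ u hu, infl₂_injective ?_⟩
    have h3 : infl₂ (dOne (fixedRep V D.ρX) (desc₁ u hu)) = dOne D.ρX u := by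
      rw [infl₂_dOne, infl₁_desc₁]
    have h4 : infl₂ (dOne (descend D V hπ).ρX (desc₁ u hu)) = dOne D.ρX u := h3
    rw [h4, infl₂_pair20, infl₂_desc₂, infl₁_desc₁]
    exact hpu)
  refine ⟨infl₁ b0, (y1 : Y1), isLevelAt₁_infl₁ b0, y1.2, ?_, ?_⟩
  · have h3 : desc₂ c2 hc2 = dOne (fixedRep V D.ρY0) b0 := h1
    rw [← infl₂_dOne, ← h3, infl₂_desc₂]
  · have h3 := congrArg infl₁ h2
    rw [infl₁_desc₁] at h3
    rw [h3]
    funext g
    rfl

/-- **Transport of the right-kernel statement** from `G ⧸ V` to level `V`. -/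
theorem tn20rAt_of_descend (h : FinTN20r (descend D V hπ)) : TN20rAt D V := by
  intro mt z' hz hpair
  obtain ⟨hlift, hm, hz1⟩ := hz
  have hlift' : IsLift0 (descend D V hπ) (toFixed mt hm) (desc₁ z' hz1) := by
    rw [isLift0_descend_iff, infl₁_desc₁]
    exact hlift
  obtain ⟨a', ha'⟩ := h (toFixed mt hm) (desc₁ z' hz1) hlift' (fun c2 c1 hc => by
    rw [isHyper2_descend_iff] at hc
    obtain ⟨u, hu, hpu⟩ := hpair (infl₂ c2) (infl₁ c1)
      ⟨hc, isLevelAt₂_infl₂ c2, isLevelAt₁_infl₁ c1⟩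
    refine ⟨desc₁ u hu, infl₂_injective ?_⟩
    have h3 : infl₂ (dOne (fixedRep V D.ρX) (desc₁ u hu)) = dOne D.ρX u := by
      rw [infl₂_dOne, infl₁_desc₁]
    have h4 : infl₂ (dOne (descend D V hπ).ρX (desc₁ u hu)) = dOne D.ρX u := h3
    rw [h4, infl₂_pair20, infl₁_desc₁]
    exact hpu)
  refine ⟨(a' : A), a'.2, ?_⟩
  have h1 : fixedMap V D.ρF0 D.ρA D.π D.π_comm (toFixed mt hm) =
      ∑ᶠ q : G ⧸ V, fixedRep V D.ρA q a' := ha'
  have h2 := congrArg Subtype.val h1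
  rw [coe_finsum_fixedRep] at h2
  exact h2

end Dictionary

/-! ### Transport along isomorphisms of data -/

section Iso

variable {Q : Type*} [Group Q]
variable {Y0' Y1' F0' F1' A' X' : Type*}
  [AddCommGroup Y0'] [Module k Y0'] [AddCommGroup Y1'] [Module k Y1']
  [AddCommGroup F0'] [Module k F0'] [AddCommGroup F1'] [Module k F1']
  [AddCommGroup A'] [Module k A'] [AddCommGroup X'] [Module k X']
variable {E : Datum k Q Y0 Y1 F0 F1 A X} {E' : Datum k Q Y0' Y1' F0' F1' A' X'}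
  (e : DatumIso E E')
include e

lemma iso_isHyper2 {c2 : Q × Q → Y0} {c1 : Q → Y1} (h : IsHyper2 E c2 c1) :
    IsHyper2 E' (⇑e.eY0 ∘ c2) (⇑e.eY1 ∘ c1) := by
  refine ⟨?_, fun q => ?_⟩
  · have h1 : ⇑e.eY0 ∘ dTwo E.ρY0 c2 = dTwo E'.ρY0 (⇑e.eY0 ∘ c2) :=
      comp_dTwo E.ρY0 E'.ρY0 e.eY0.toLinearMap e.ρY0_comm c2
    rw [← h1, h.1]
    funext q
    simp
  · have h1 : ⇑e.eY1 ∘ dOne E.ρY1 c1 = dOne E'.ρY1 (⇑e.eY1 ∘ c1) :=
      comp_dOne E.ρY1 E'.ρY1 e.eY1.toLinearMap e.ρY1_comm c1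
    rw [← h1, Function.comp_apply, Function.comp_apply, ← e.f_comm, h.2 q]

lemma iso_isHyper2_symm {c2' : Q × Q → Y0'} {c1' : Q → Y1'} (h : IsHyper2 E' c2' c1') :
    IsHyper2 E (⇑e.eY0.symm ∘ c2') (⇑e.eY1.symm ∘ c1') := by
  have h2 : ⇑e.eY0 ∘ ⇑e.eY0.symm ∘ c2' = c2' := by funext q; simp
  have h3 : ⇑e.eY1 ∘ ⇑e.eY1.symm ∘ c1' = c1' := by funext q; simp
  refine ⟨?_, fun q => ?_⟩
  · funext q
    apply e.eY0.injective
    have h1 : ⇑e.eY0 ∘ dTwo E.ρY0 (⇑e.eY0.symm ∘ c2') = dTwo E'.ρY0 (⇑e.eY0 ∘ ⇑e.eY0.symm ∘ c2') :=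
      comp_dTwo E.ρY0 E'.ρY0 e.eY0.toLinearMap e.ρY0_comm _
    rw [h2, h.1] at h1
    have h4 := congrFun h1 q
    rw [Function.comp_apply] at h4
    rw [h4]
    simp
  · apply e.eY1.injective
    have h1 : ⇑e.eY1 ∘ dOne E.ρY1 (⇑e.eY1.symm ∘ c1') = dOne E'.ρY1 (⇑e.eY1 ∘ ⇑e.eY1.symm ∘ c1') :=
      comp_dOne E.ρY1 E'.ρY1 e.eY1.toLinearMap e.ρY1_comm _
    rw [h3] at h1
    have h4 := congrFun h1 q
    rw [Function.comp_apply] at h4
    rw [h4, e.f_comm, Function.comp_apply, LinearEquiv.apply_symm_apply, h.2 q]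

lemma iso_isLift0 {mt : F0} {z' : Q → F1} (h : IsLift0 E mt z') :
    IsLift0 E' (e.eF0 mt) (⇑e.eF1 ∘ z') := by
  intro g
  rw [Function.comp_apply, ← e.ι_comm, h g, dZero_apply, dZero_apply, map_sub, e.ρF0_comm]

lemma iso_isLift0_symm {mt' : F0'} {z'' : Q → F1'} (h : IsLift0 E' mt' z'') :
    IsLift0 E (e.eF0.symm mt') (⇑e.eF1.symm ∘ z'') := by
  intro g
  apply e.eF0.injective
  rw [e.ι_comm, Function.comp_apply, LinearEquiv.apply_symm_apply, h g, dZero_apply, dZero_apply,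
    map_sub, e.ρF0_comm, LinearEquiv.apply_symm_apply]

lemma iso_pair20_comp (c2 : Q × Q → Y0) (c1 : Q → Y1) (mt : F0) (z' : Q → F1) :
    pair20 E' (⇑e.eY0 ∘ c2) (⇑e.eY1 ∘ c1) (e.eF0 mt) (⇑e.eF1 ∘ z') =
      ⇑e.eX ∘ pair20 E c2 c1 mt z' := by
  funext ⟨g, h⟩
  simp only [pair20_apply, Function.comp_apply, map_sub, e.ev0_comm, e.ev1_comm, e.ρF0_comm,
    e.ρF1_comm]

/-- `FinTN20l` transports along an isomorphism of data. -/
theorem finTN20l_of_iso (h : FinTN20l E') : FinTN20l E := by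
  intro c2 c1 hc hpair
  obtain ⟨b0', y1', h1, h2⟩ := h _ _ (iso_isHyper2 e hc) (fun mt' z'' hl => by
    obtain ⟨u, hu⟩ := hpair _ _ (iso_isLift0_symm e hl)
    refine ⟨⇑e.eX ∘ u, ?_⟩
    have h3 := iso_pair20_comp e c2 c1 (e.eF0.symm mt') (⇑e.eF1.symm ∘ z'')
    have h4 : ⇑e.eF1 ∘ ⇑e.eF1.symm ∘ z'' = z'' := by funext g; simp
    rw [LinearEquiv.apply_symm_apply, h4, hu] at h3
    rw [h3]
    exact comp_dOne E.ρX E'.ρX e.eX.toLinearMap e.ρX_comm u)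
  refine ⟨⇑e.eY0.symm ∘ b0', e.eY1.symm y1', ?_, ?_⟩
  · funext q
    apply e.eY0.injective
    have h3 : ⇑e.eY0 ∘ dOne E.ρY0 (⇑e.eY0.symm ∘ b0') = dOne E'.ρY0 (⇑e.eY0 ∘ ⇑e.eY0.symm ∘ b0') :=
      comp_dOne E.ρY0 E'.ρY0 e.eY0.toLinearMap e.ρY0_comm _
    have h4 : ⇑e.eY0 ∘ ⇑e.eY0.symm ∘ b0' = b0' := by funext g; simp
    rw [h4, ← h1] at h3
    have h5 := congrFun h3 q
    simp only [Function.comp_apply] at h5
    exact h5.symm
  · funext a
    apply e.eY1.injective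
    have h3 := congrFun h2 a
    rw [Function.comp_apply] at h3
    rw [h3, map_sub, e.f_comm, Function.comp_apply, LinearEquiv.apply_symm_apply, dZero_apply,
      dZero_apply, map_sub, e.ρY1_comm, LinearEquiv.apply_symm_apply]

/-- `FinTN20r` transports along an isomorphism of data. -/
theorem finTN20r_of_iso (h : FinTN20r E') : FinTN20r E := by
  intro mt z' hz hpair
  obtain ⟨a'', ha''⟩ := h _ _ (iso_isLift0 e hz) (fun c2' c1' hc' => by
    obtain ⟨u, hu⟩ := hpair _ _ (iso_isHyper2_symm e hc')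
    refine ⟨⇑e.eX ∘ u, ?_⟩
    have h3 := iso_pair20_comp e (⇑e.eY0.symm ∘ c2') (⇑e.eY1.symm ∘ c1') mt z'
    have h4 : ⇑e.eY0 ∘ ⇑e.eY0.symm ∘ c2' = c2' := by funext g; simp
    have h5 : ⇑e.eY1 ∘ ⇑e.eY1.symm ∘ c1' = c1' := by funext g; simp
    rw [h4, h5, hu] at h3
    rw [h3]
    exact comp_dOne E.ρX E'.ρX e.eX.toLinearMap e.ρX_comm u)
  refine ⟨e.eA.symm a'', ?_⟩
  apply e.eA.injective
  rw [e.π_comm, ha'']
  have h3 := AddMonoidHom.map_finsum_of_injective e.eA.toLinearMap.toAddMonoidHom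
    e.eA.injective (fun q : Q => E.ρA q (e.eA.symm a''))
  simp only [LinearMap.toAddMonoidHom_coe, LinearEquiv.coe_coe] at h3
  rw [h3]
  refine finsum_congr (fun q => ?_)
  rw [e.ρA_comm, LinearEquiv.apply_symm_apply]

end Iso

/-! ### The level-`V` statements for `K(P; C)` -/

section Quot

variable {P1 P0 M C : Type*} [AddCommGroup P1] [Module k P1]
  [AddCommGroup P0] [Module k P0] [AddCommGroup M] [Module k M] [AddCommGroup C] [Module k C]
variable (R : Res k G P1 P0 M) (ρC : Representation k G C) (V : Subgroup G) [V.Normal]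
  (h0 : ∀ s ∈ V, ∀ x, R.ρ0 s x = x)

/-- **`TN20lAt` at `V` for `K(P; C)`** from the finite-group statement for `K(P; C^V)` over
`G ⧸ V`. -/
theorem tn20lAt_datum (h : FinTN20l ((resQuot R V h0).datum (fixedRep V ρC))) :
    TN20lAt (R.datum ρC) V :=
  tn20lAt_of_descend (R.datum ρC) V (hπ_datum R ρC V h0)
    (finTN20l_of_iso (descendIso R ρC V h0) h)

/-- **`TN20rAt` at `V` for `K(P; C)`**. -/
theorem tn20rAt_datum (h : FinTN20r ((resQuot R V h0).datum (fixedRep V ρC))) :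
    TN20rAt (R.datum ρC) V :=
  tn20rAt_of_descend (R.datum ρC) V (hπ_datum R ρC V h0)
    (finTN20r_of_iso (descendIso R ρC V h0) h)

end Quot

/-! ### The limit argument -/

/-- `p` times the pairing of level-`V` data is a level-`V` coboundary, if `p A = 0`. -/
lemma smul_pair20_levelAt {V : Subgroup G} (hV : V.Normal) {p : ℕ}
    (hpA : ∀ a : A, (p : k) • a = 0) {c2 : G × G → Y0} {c1 : G → Y1}
    (hc : IsHyper2At D V c2 c1) {mt : F0} {z' : G → F1} (hz : IsLift0At D V mt z') :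
    ∃ u, IsLevelAt₁ D.ρX V u ∧ (p : k) • pair20 D c2 c1 mt z' = dOne D.ρX u := by
  obtain ⟨hcoc, -, hc1⟩ := hc
  obtain ⟨hl, hm, -⟩ := hz
  have hconj : ∀ (t g : G), t ∈ V → g⁻¹ * t * g ∈ V := fun t g ht => by
    have := hV.conj_mem t ht g⁻¹
    simpa using this
  obtain ⟨w0, hw0⟩ := (D.exact ((p : k) • mt)).1 (by rw [map_smul, hpA])
  have hw0V : FixedBy D.ρF1 V w0 := fun s hs => D.ι_inj (by
    rw [D.ι_comm, hw0, map_smul, hm s hs])
  have hz0 : (p : k) • z' = fun a => (0 : G → F1) a + dZero D.ρF1 w0 a := by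
    funext g
    apply D.ι_inj
    have h1 : D.ι (z' g) = D.ρF0 g mt - mt := hl g
    rw [Pi.smul_apply, map_smul, h1, Pi.zero_apply, zero_add, dZero_apply, map_sub, D.ι_comm,
      hw0, map_smul, smul_sub]
  have h1 := pair20_change_lift D hcoc 0 0 w0
  have h2 : pair20 D c2 c1 0 (0 : G → F1) = 0 := by
    funext q
    simp [pair20]
  rw [h2, sub_zero, zero_add, hw0, ← hz0, pair20_smul_right] at h1
  refine ⟨fun a => D.ev1 (c1 a) (D.ρF1 a w0), ⟨fun g s hs => ?_, fun g t ht => ?_⟩, h1⟩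
  · show D.ev1 (c1 (g * s)) (D.ρF1 (g * s) w0) = D.ev1 (c1 g) (D.ρF1 g w0)
    rw [hc1.1 g s hs, map_mul, Module.End.mul_apply, hw0V s hs]
  · show D.ρX t (D.ev1 (c1 g) (D.ρF1 g w0)) = D.ev1 (c1 g) (D.ρF1 g w0)
    have e1 : t * g = g * (g⁻¹ * t * g) := by group
    rw [← D.ev1_comm, hc1.2 g t ht, ← Module.End.mul_apply, ← map_mul, e1, map_mul,
      Module.End.mul_apply, hw0V _ (hconj t g ht)]

/-- The finite-level hypotheses of the `(2,0)` limit argument (`p`-primary form). -/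
structure Hyp20 (D : Datum k G Y0 Y1 F0 F1 A X) (𝒰 : Set (Subgroup G)) (ℱ : Set (Subgroup G))
    (p : ℕ) : Prop where
  /-- `ℱ` is a cofinal family of normal members of `𝒰` -/
  sub : ℱ ⊆ 𝒰
  normal : ∀ V ∈ ℱ, V.Normal
  cofinal : ∀ U ∈ 𝒰, ∃ V ∈ ℱ, V ≤ U
  /-- hyper Tate–Nakayama `(2,0)` at level `V`, left kernel -/
  TNl : ∀ V ∈ ℱ, TN20lAt D V
  /-- hyper Tate–Nakayama `(2,0)` at level `V`, right kernel = norms -/
  TNr : ∀ V ∈ ℱ, TN20rAt D V
  /-- inflation `H²(G/V, X^V)[p] → H²(𝒰; X)` is injective -/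
  INJ2p : ∀ V ∈ ℱ, Fermat.Agent.PT.PRO.HyperColimP18.INJ2pAt D.ρX 𝒰 V p
  /-- `p` kills `A` -/
  HpA : ∀ a : A, (p : k) • a = 0

variable {D} {𝒰 ℱ : Set (Subgroup G)} {p : ℕ}

/-- A level 1-cochain with discrete values is of level `V` for some `V ∈ ℱ` below `U`. -/
lemma exists_levelAt₁' (h𝒰 : IsLevelBasis 𝒰) (hcof : ∀ U ∈ 𝒰, ∃ V ∈ ℱ, V ≤ U) {Y : Type*}
    [AddCommGroup Y] [Module k Y] {ρ : Representation k G Y} (hρ : IsDiscrete 𝒰 ρ) {c : G → Y}
    (hc : IsLevel₁ 𝒰 c) (U : Subgroup G) (hU : U ∈ 𝒰) :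
    ∃ V ∈ ℱ, V ≤ U ∧ IsLevelAt₁ ρ V c := by
  obtain ⟨W, hW, -, h1, h2⟩ := h𝒰.exists_normal_fixing hρ hc
  obtain ⟨W', hW', hle⟩ := h𝒰.inf W hW U hU
  obtain ⟨V, hV, hVle⟩ := hcof W' hW'
  exact ⟨V, hV, hVle.trans (hle.trans inf_le_right),
    ⟨fun g s hs => h1 g s ((hVle.trans (hle.trans inf_le_left)) hs),
     fun g s hs => h2 g s ((hVle.trans (hle.trans inf_le_left)) hs)⟩⟩

/-- **Left kernel.**  A level hyper-2-cocycle which pairs to a level coboundary with every lifted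
invariant is a hyper-coboundary of a level cochain. -/
theorem left_kernel20 (h𝒰 : IsLevelBasis 𝒰) (H : Hyp20 D 𝒰 ℱ p) (hY0 : IsDiscrete 𝒰 D.ρY0)
    (hY1 : IsDiscrete 𝒰 D.ρY1) {c2 : G × G → Y0} {c1 : G → Y1} (hc : IsHyper2 D c2 c1)
    (hl2 : IsLevel₂ 𝒰 c2) (hl1 : IsLevel₁ 𝒰 c1)
    (hpair : ∀ mt z', IsLift0 D mt z' → IsLevel₁ 𝒰 z' →
      ∃ u, IsLevel₁ 𝒰 u ∧ pair20 D c2 c1 mt z' = dOne D.ρX u) :
    ∃ (b0 : G → Y0) (y1 : Y1), IsLevel₁ 𝒰 b0 ∧ c2 = dOne D.ρY0 b0 ∧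
      c1 = fun a => D.f (b0 a) - dZero D.ρY1 y1 a := by
  obtain ⟨W2, hW2, -, hc2W⟩ := exists_normal_fixing₂ h𝒰 hY0 hl2
  obtain ⟨V, hV, hVle, hc1V⟩ := exists_levelAt₁' h𝒰 H.cofinal hY1 hl1 W2 hW2
  have hVn := H.normal V hV
  have hcV : IsHyper2At D V c2 c1 := ⟨hc, hc2W.mono hVle, hc1V⟩
  obtain ⟨b0, y1, hb0, -, h1, h2⟩ := H.TNl V hV c2 c1 hcV (fun mt z' hz => by
    obtain ⟨u, hu, hpu⟩ := hpair mt z' hz.1 ⟨V, H.sub hV, hz.2.2.1⟩
    exact H.INJ2p V hV _ (isLevelAt₂_pair20 D hVn hcV hz)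
      (smul_pair20_levelAt D hVn H.HpA hcV hz) ⟨u, hu, hpu⟩)
  exact ⟨b0, y1, ⟨V, H.sub hV, hb0.1⟩, h1, h2⟩

/-- **Right kernel.**  A lifted invariant which pairs to a level coboundary with every level
hyper-2-cocycle is zero, provided norms from deep levels vanish (`hNORM`). -/
theorem right_kernel20 (H : Hyp20 D 𝒰 ℱ p)
    (hNORM : ∀ U ∈ ℱ, ∃ V ∈ ℱ, V ≤ U ∧ ∀ a', FixedBy D.ρA V a' → nrm D.ρA V a' = 0)
    (hF0 : IsDiscrete 𝒰 D.ρF0) {mt : F0} {z' : G → F1} (hz : IsLift0 D mt z')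
    (hpair : ∀ c2 c1, IsHyper2 D c2 c1 → IsLevel₂ 𝒰 c2 → IsLevel₁ 𝒰 c1 →
      ∃ u, IsLevel₁ 𝒰 u ∧ pair20 D c2 c1 mt z' = dOne D.ρX u) :
    D.π mt = 0 := by
  obtain ⟨U, hU, hmU⟩ := hF0 mt
  obtain ⟨V₀, hV₀, hV₀le⟩ := H.cofinal U hU
  obtain ⟨V, hV, hVle, hnorm⟩ := hNORM V₀ hV₀
  have hVn := H.normal V hV
  have hmV : FixedBy D.ρF0 V mt := fun s hs => hmU s (hV₀le (hVle hs))
  have hzV : IsLift0At D V mt z' := ⟨hz, hmV, isLevelAt₁_of_isLift0 D hVn hz hmV⟩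
  obtain ⟨a', ha', h1⟩ := H.TNr V hV mt z' hzV (fun c2 c1 hc => by
    obtain ⟨u, hu, hpu⟩ := hpair c2 c1 hc.1 ⟨V, H.sub hV, hc.2.1.1⟩ ⟨V, H.sub hV, hc.2.2.1⟩
    exact H.INJ2p V hV _ (isLevelAt₂_pair20 D hVn hc hzV)
      (smul_pair20_levelAt D hVn H.HpA hc hzV) ⟨u, hu, hpu⟩)
  rw [h1, hnorm a' ha']

end Fermat.Agent.TW.GLOB.Lim20_2
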