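/-
Programme T (S56), chapter T/GLOB, brick (LIM20), descended form.  Owner: helper2.

`ExtPair20_2`: the `(2,0)` pairing of `ExtPairing4` on CLASSES,

  `pair20 : ℍ²(Y) × H⁰(G, M) → H²(G, C)`,   `⟨(c₂, c₁), m⟩ (g, h) = β⁰ (c₂ (g, h)) (g h • m̃) - β¹ (c₁ g) (g • z' h)`

(`m̃ ∈ P₀` a lift of the invariant `m`, `ι (z' h) = h m̃ - m̃`), for a pairing `B` between a two-term
complex `Y` and a resolved module `P₁ → P₀ → M`; `H⁰(G, M)` is `P.ρM.invariants`.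

* `HZ2`, `Lift0`: raw hyper-2-cocycles and lifted invariants; `cls20`: the class of the raw cochain;
  independence of the lift, bilinearity, vanishing on hyper-coboundaries;
* `pair20`, `pair20_mk` (the pairing of classes is the class of the raw cochain for ANY lift),
  `pair20_eq_zero_iff`;
* `pair20_left_kernel`, `pair20_right_kernel`: under the finite-level hypotheses `Lim20_2.Hyp20`
  (and the vanishing of norms for the right kernel) both kernels are trivial.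
-/
import Mathlib
import Fermat.Agent.PT.PRO.ExtPairingB4
import Fermat.Agent.PT.PRO.PairP4
import Fermat.Agent.TW.GLOB.Lim20_2

set_option autoImplicit false

namespace Fermat.Agent.TW.GLOB.ExtPair20_2

open Function Fermat.Agent.PT.PRO.HyperLevel25 Fermat.Agent.PT.PRO.Resolved4
  Fermat.Agent.PT.PRO.ExtPairing4 Fermat.Agent.PT.PRO.ExtPairingB4
  Fermat.Agent.PT.PRO.GlobalDuality20
  Fermat.Agent.TW.GLOB.Lim20_2

/-! ### Descending a bilinear map to `H²` (abstract complexes) -/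

section Abstract

variable {k : Type*} [CommRing k]
variable {X0 X1 X2 X3 W H : Type*}
  [AddCommGroup X0] [Module k X0] [AddCommGroup X1] [Module k X1]
  [AddCommGroup X2] [Module k X2] [AddCommGroup X3] [Module k X3]
  [AddCommGroup W] [Module k W] [AddCommGroup H] [Module k H]

/-- Descend a bilinear map on (2-cocycles) × `W` to `H² × W`. -/
noncomputable def liftH2 (C : Cpx k X0 X1 X2 X3) (f : C.Z2 →ₗ[k] W →ₗ[k] H)
    (hl : ∀ z ∈ C.B2, f z = 0) : C.H2 →ₗ[k] W →ₗ[k] H :=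
  C.B2.liftQ f (fun z hz => by rw [LinearMap.mem_ker]; exact hl z hz)

lemma liftH2_apply (C : Cpx k X0 X1 X2 X3) (f : C.Z2 →ₗ[k] W →ₗ[k] H)
    (hl : ∀ z ∈ C.B2, f z = 0) (z : C.Z2) (w : W) : liftH2 C f hl (C.π2 z) w = f z w := rfl

end Abstract

variable {k G : Type*} [CommRing k] [Group G] {𝒰 : Set (Subgroup G)}
variable {Y0 Y1 P1 P0 M C : Type*}
  [AddCommGroup Y0] [Module k Y0] [AddCommGroup Y1] [Module k Y1]
  [AddCommGroup P1] [Module k P1] [AddCommGroup P0] [Module k P0]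
  [AddCommGroup M] [Module k M] [AddCommGroup C] [Module k C]

/-! ### Lifted invariants -/

/-- An element `m̃ ∈ P₀` whose image in `M` is invariant, together with `z' = ι⁻¹ (d⁰ m̃)`. -/
structure Lift0 (P : Resolved k 𝒰 P1 P0 M) where
  mt : P0
  z' : G → P1
  hz : ∀ g, P.ι (z' g) = dZero P.ρ0 mt g

namespace Lift0

variable {P : Resolved k 𝒰 P1 P0 M}

/-- `L` lifts the element `m : M`. -/
def Lifts (L : Lift0 P) (m : M) : Prop := P.π L.mt = m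

lemma isLevel₁_z' (L : Lift0 P) : IsLevel₁ 𝒰 L.z' := by
  obtain ⟨U, hU, h⟩ := isLevel₁_dZero P.disc0 L.mt
  refine ⟨U, hU, fun g s hs => P.ι_inj ?_⟩
  rw [L.hz, L.hz]
  exact h g s hs

/-- The image in `M` of a lifted invariant is invariant. -/
lemma invariant (L : Lift0 P) (g : G) : P.ρM g (P.π L.mt) = P.π L.mt := by
  have h1 : P.π (dZero P.ρ0 L.mt g) = 0 := by
    rw [← L.hz]
    exact P.π_ι _
  rw [dZero_apply, map_sub, P.π_comm, sub_eq_zero] at h1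
  exact h1

/-- Every invariant has a lift. -/
theorem exists_lift {m : M} (hm : ∀ g, P.ρM g m = m) : ∃ L : Lift0 P, L.Lifts m := by
  obtain ⟨mt, rfl⟩ := P.π_surj m
  have hker : ∀ g, ∃ p1, P.ι p1 = dZero P.ρ0 mt g := by
    intro g
    apply (P.exact _).1
    rw [dZero_apply, map_sub, P.π_comm, hm, sub_self]
  choose z' hz' using hker
  exact ⟨⟨mt, z', hz'⟩, rfl⟩

/-- Sum of lifts. -/
def add (L L' : Lift0 P) : Lift0 P where
  mt := L.mt + L'.mt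
  z' := L.z' + L'.z'
  hz g := by
    simp only [Pi.add_apply, map_add, L.hz, L'.hz]

lemma Lifts.add {L L' : Lift0 P} {m m' : M} (h : L.Lifts m) (h' : L'.Lifts m') :
    (L.add L').Lifts (m + m') := by
  show P.π (L.mt + L'.mt) = m + m'
  rw [map_add, h, h']

/-- Scalar multiple of a lift. -/
def smul (r : k) (L : Lift0 P) : Lift0 P where
  mt := r • L.mt
  z' := r • L.z'
  hz g := by
    simp only [Pi.smul_apply, map_smul, L.hz]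

lemma Lifts.smul (r : k) {L : Lift0 P} {m : M} (h : L.Lifts m) : (L.smul r).Lifts (r • m) := by
  show P.π (r • L.mt) = r • m
  rw [map_smul, h]

end Lift0

/-! ### Raw hyper-2-cocycles -/

/-- Raw hyper-2-cocycle data `(c₂, c₁)` of a two-term complex. -/
structure HZ2 (Y : Cx k 𝒰 Y0 Y1) where
  c2 : G × G → Y0
  c1 : G → Y1
  lev2 : IsLevel₂ 𝒰 c2
  lev1 : IsLevel₁ 𝒰 c1
  hc2 : ∀ g h j, dTwo Y.ρ0 c2 (g, h, j) = 0
  hc1 : ∀ g h, Y.f (c2 (g, h)) = dOne Y.ρ1 c1 (g, h)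

namespace HZ2

variable {Y : Cx k 𝒰 Y0 Y1} (h𝒰 : IsLevelBasis 𝒰)

/-- The hyper-2-cocycle of `HyperLevel25` attached to raw data. -/
def toZ2 (ξ : HZ2 Y) : (Y.tot h𝒰).Z2 :=
  ⟨⟨(ξ.c2, ξ.c1), ⟨ξ.lev2, ξ.lev1⟩⟩,
    (Y.mem_Z2_iff h𝒰 _).2 ⟨funext fun q => ξ.hc2 q.1 q.2.1 q.2.2, funext fun q => ξ.hc1 q.1 q.2⟩⟩

/-- The class in `ℍ²`. -/
def cls (ξ : HZ2 Y) : Y.ℍ2 h𝒰 := (Y.tot h𝒰).π2 (ξ.toZ2 h𝒰)

/-- Raw data of a hyper-2-cocycle of `HyperLevel25`. -/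
def ofZ2 (z : (Y.tot h𝒰).Z2) : HZ2 Y where
  c2 := z.1.1.1
  c1 := z.1.1.2
  lev2 := z.1.2.1
  lev1 := z.1.2.2
  hc2 g h j := congrFun ((Y.mem_Z2_iff h𝒰 z.1).1 z.2).1 (g, h, j)
  hc1 g h := congrFun ((Y.mem_Z2_iff h𝒰 z.1).1 z.2).2 (g, h)

lemma toZ2_ofZ2 (z : (Y.tot h𝒰).Z2) : (ofZ2 h𝒰 z).toZ2 h𝒰 = z := rfl

lemma cls_ofZ2 (z : (Y.tot h𝒰).Z2) : (ofZ2 h𝒰 z).cls h𝒰 = (Y.tot h𝒰).π2 z := rfl

lemma cls_surjective (w : Y.ℍ2 h𝒰) : ∃ ξ : HZ2 Y, ξ.cls h𝒰 = w := by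
  obtain ⟨z, rfl⟩ := (Y.tot h𝒰).π2_surjective w
  exact ⟨ofZ2 h𝒰 z, rfl⟩

end HZ2

/-! ### The class of the raw `(2,0)` cochain -/

variable {Y : Cx k 𝒰 Y0 Y1} {P : Resolved k 𝒰 P1 P0 M} {ρC : Representation k G C}
variable (B : Pairing Y P ρC) (h𝒰 : IsLevelBasis 𝒰) (hC : IsDiscrete 𝒰 ρC)

include h𝒰 in
/-- The raw `(2,0)` cochain of a hyper-2-cocycle and a lifted invariant is a level 2-cochain. -/
lemma isLevel₂_p20 (ξ : HZ2 Y) (L : Lift0 P) :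
    IsLevel₂ 𝒰 (B.p20 ξ.c2 ξ.c1 L.mt L.z') :=
  isLevel₂_sub' h𝒰 (isLevel₂_cup20 h𝒰 P.disc0 (fun y p => B.β0 y p) ξ.lev2 L.mt)
    (isLevel₂_cup11 h𝒰 P.disc1 (fun y p => B.β1 y p) ξ.lev1 L.isLevel₁_z')

/-- The class of the `(2,0)` cochain. -/
def cls20 (ξ : HZ2 Y) (L : Lift0 P) : Hlev2 h𝒰 ρC hC :=
  cl2 h𝒰 ρC hC (B.p20 ξ.c2 ξ.c1 L.mt L.z') (isLevel₂_p20 B h𝒰 ξ L)
    (B.dTwo_p20 ξ.hc2 ξ.hc1 L.hz)

/-- Independence of the lift. -/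
theorem cls20_indep (ξ : HZ2 Y) (L L' : Lift0 P) (hLL' : P.π L'.mt = P.π L.mt) :
    cls20 B h𝒰 hC ξ L' = cls20 B h𝒰 hC ξ L := by
  obtain ⟨w0, hw0⟩ : ∃ w, P.ι w = L'.mt - L.mt :=
    (P.exact _).1 (by rw [map_sub, hLL', sub_self])
  have hmt : L'.mt = L.mt + P.ι w0 := by rw [hw0]; abel
  have hz' : L'.z' = fun a => L.z' a + dZero P.ρ1 w0 a := by
    funext g
    apply P.ι_inj
    rw [map_add, L'.hz, L.hz, hmt]
    simp only [dZero_apply, map_add, P.ι_comm, map_sub]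
    abel
  unfold cls20
  rw [cl2_eq_iff]
  refine ⟨fun a => B.β1 (ξ.c1 a) (P.ρ1 a w0),
    isLevel₁_cup10 h𝒰 P.disc1 (fun y p => B.β1 y p) ξ.lev1 w0, ?_⟩
  rw [← B.p20_change_lift ξ.hc1 L.mt L.z' w0, ← hmt, ← hz']

/-! ### Bilinearity on cocycles -/

lemma cls20_add_left {ξ ξ' ξ'' : HZ2 Y} (hc2 : ξ''.c2 = ξ.c2 + ξ'.c2) (hc1 : ξ''.c1 = ξ.c1 + ξ'.c1)
    (L : Lift0 P) :
    cls20 B h𝒰 hC ξ'' L = cls20 B h𝒰 hC ξ L + cls20 B h𝒰 hC ξ' L := by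
  unfold cls20
  rw [← cl2_add]
  · apply cl2_congr
    funext q
    simp only [Pairing.p20, hc2, hc1, Pi.add_apply, map_add, LinearMap.add_apply]
    abel
  · exact h𝒰.isLevel₂_add (isLevel₂_p20 B h𝒰 ξ L) (isLevel₂_p20 B h𝒰 ξ' L)
  · rw [map_add, B.dTwo_p20 ξ.hc2 ξ.hc1 L.hz, B.dTwo_p20 ξ'.hc2 ξ'.hc1 L.hz, add_zero]

lemma cls20_smul_left (r : k) {ξ ξ'' : HZ2 Y} (hc2 : ξ''.c2 = r • ξ.c2) (hc1 : ξ''.c1 = r • ξ.c1)
    (L : Lift0 P) :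
    cls20 B h𝒰 hC ξ'' L = r • cls20 B h𝒰 hC ξ L := by
  unfold cls20
  rw [← cl2_smul]
  · apply cl2_congr
    funext q
    simp only [Pairing.p20, hc2, hc1, Pi.smul_apply, map_smul, LinearMap.smul_apply, smul_sub]
  · exact (isLevel₂_p20 B h𝒰 ξ L).comp (r • ·)
  · rw [map_smul, B.dTwo_p20 ξ.hc2 ξ.hc1 L.hz, smul_zero]

lemma cls20_add_right (ξ : HZ2 Y) (L L' : Lift0 P) :
    cls20 B h𝒰 hC ξ (L.add L') = cls20 B h𝒰 hC ξ L + cls20 B h𝒰 hC ξ L' := by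
  unfold cls20
  rw [← cl2_add]
  · apply cl2_congr
    funext q
    simp only [Pairing.p20, Lift0.add, Pi.add_apply, map_add]
    abel
  · exact h𝒰.isLevel₂_add (isLevel₂_p20 B h𝒰 ξ L) (isLevel₂_p20 B h𝒰 ξ L')
  · rw [map_add, B.dTwo_p20 ξ.hc2 ξ.hc1 L.hz, B.dTwo_p20 ξ.hc2 ξ.hc1 L'.hz, add_zero]

lemma cls20_smul_right (r : k) (ξ : HZ2 Y) (L : Lift0 P) :
    cls20 B h𝒰 hC ξ (L.smul r) = r • cls20 B h𝒰 hC ξ L := by
  unfold cls20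
  rw [← cl2_smul]
  · apply cl2_congr
    funext q
    simp only [Pairing.p20, Lift0.smul, Pi.smul_apply, map_smul, smul_sub]
  · exact (isLevel₂_p20 B h𝒰 ξ L).comp (r • ·)
  · rw [map_smul, B.dTwo_p20 ξ.hc2 ξ.hc1 L.hz, smul_zero]

/-- Vanishing of hyper-coboundaries `D¹ (b, y)`. -/
lemma cls20_bdry_left {ξ : HZ2 Y} (b0 : G → Y0) (y1 : Y1) (hb0 : IsLevel₁ 𝒰 b0)
    (hc2 : ξ.c2 = dOne Y.ρ0 b0) (hc1 : ξ.c1 = fun a => Y.f (b0 a) - dZero Y.ρ1 y1 a)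
    (L : Lift0 P) : cls20 B h𝒰 hC ξ L = 0 := by
  unfold cls20
  rw [cl2_eq_zero_iff]
  refine ⟨fun a => B.β0 (b0 a) (P.ρ0 a L.mt) + B.β1 y1 (L.z' a),
    h𝒰.isLevel₁_add (isLevel₁_cup10 h𝒰 P.disc0 (fun y p => B.β0 y p) hb0 L.mt)
      (L.isLevel₁_z'.comp (B.β1 y1)), ?_⟩
  rw [hc2, hc1]
  exact (B.p20_bdry_left b0 y1 L.hz).symm

/-! ### The pairing on classes -/

/-- The pairing on cocycles, via a chosen lift. -/
noncomputable def pair20Z (ξ : HZ2 Y) (m : P.ρM.invariants) : Hlev2 h𝒰 ρC hC :=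
  cls20 B h𝒰 hC ξ (Classical.choose (Lift0.exists_lift (P := P) (m := (m : M))
    (fun g => (Representation.mem_invariants _ _).1 m.2 g)))

lemma pair20Z_eq (ξ : HZ2 Y) (m : P.ρM.invariants) (L : Lift0 P) (hL : L.Lifts (m : M)) :
    pair20Z B h𝒰 hC ξ m = cls20 B h𝒰 hC ξ L := by
  unfold pair20Z
  apply cls20_indep
  have h1 : P.π _ = (m : M) := Classical.choose_spec (Lift0.exists_lift (P := P) (m := (m : M))
    (fun g => (Representation.mem_invariants _ _).1 m.2 g))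
  have h2 : P.π L.mt = (m : M) := hL
  rw [h1, h2]

lemma exists_lift' (m : P.ρM.invariants) : ∃ L : Lift0 P, L.Lifts (m : M) :=
  Lift0.exists_lift (fun g => (Representation.mem_invariants _ _).1 m.2 g)

/-- The pairing as a bilinear map on cocycles. -/
noncomputable def pair20ZZ :
    (Y.tot h𝒰).Z2 →ₗ[k] P.ρM.invariants →ₗ[k] Hlev2 h𝒰 ρC hC :=
  LinearMap.mk₂ k (fun z m => pair20Z B h𝒰 hC (HZ2.ofZ2 h𝒰 z) m)
    (fun z z' m => by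
      obtain ⟨L, hL⟩ := exists_lift' (P := P) m
      rw [pair20Z_eq B h𝒰 hC _ m L hL, pair20Z_eq B h𝒰 hC _ m L hL,
        pair20Z_eq B h𝒰 hC _ m L hL]
      exact cls20_add_left B h𝒰 hC rfl rfl L)
    (fun r z m => by
      obtain ⟨L, hL⟩ := exists_lift' (P := P) m
      rw [pair20Z_eq B h𝒰 hC _ m L hL, pair20Z_eq B h𝒰 hC _ m L hL]
      exact cls20_smul_left B h𝒰 hC r rfl rfl L)
    (fun z m m' => by
      obtain ⟨L, hL⟩ := exists_lift' (P := P) m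
      obtain ⟨L', hL'⟩ := exists_lift' (P := P) m'
      rw [pair20Z_eq B h𝒰 hC _ m L hL, pair20Z_eq B h𝒰 hC _ m' L' hL',
        pair20Z_eq B h𝒰 hC _ (m + m') (L.add L') (hL.add hL')]
      exact cls20_add_right B h𝒰 hC _ L L')
    (fun r z m => by
      obtain ⟨L, hL⟩ := exists_lift' (P := P) m
      rw [pair20Z_eq B h𝒰 hC _ m L hL, pair20Z_eq B h𝒰 hC _ (r • m) (L.smul r) (hL.smul r)]
      exact cls20_smul_right B h𝒰 hC r _ L)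

lemma pair20ZZ_apply (z : (Y.tot h𝒰).Z2) (m : P.ρM.invariants) (L : Lift0 P)
    (hL : L.Lifts (m : M)) :
    pair20ZZ B h𝒰 hC z m = cls20 B h𝒰 hC (HZ2.ofZ2 h𝒰 z) L :=
  pair20Z_eq B h𝒰 hC _ m L hL

lemma pair20ZZ_bdry_left (z : (Y.tot h𝒰).Z2) (hz : z ∈ (Y.tot h𝒰).B2) :
    pair20ZZ B h𝒰 hC z = 0 := by
  obtain ⟨x, hx⟩ := ((Y.tot h𝒰).mem_B2_iff z).1 hz
  ext m
  obtain ⟨L, hL⟩ := exists_lift' (P := P) m
  rw [pair20ZZ_apply B h𝒰 hC z m L hL, LinearMap.zero_apply]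
  have h1 : (z : K2lev k h𝒰 Y0 Y1).1 =
      (dOne Y.ρ0 x.1.1, ⇑Y.f ∘ x.1.1 - dZero Y.ρ1 x.1.2) := by
    rw [← hx]; rfl
  exact cls20_bdry_left B h𝒰 hC x.1.1 x.1.2 x.2 (congrArg Prod.fst h1) (congrArg Prod.snd h1) L

/-- **The `(2,0)` pairing** `ℍ²(Y) × H⁰(G, M) → H²(G, C)`. -/
noncomputable def pair20 :
    Y.ℍ2 h𝒰 →ₗ[k] P.ρM.invariants →ₗ[k] Hlev2 h𝒰 ρC hC :=
  liftH2 (Y.tot h𝒰) (pair20ZZ B h𝒰 hC) (pair20ZZ_bdry_left B h𝒰 hC)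

/-- The defining property: the pairing of classes is the class of the raw cochain, for ANY lift. -/
theorem pair20_mk (ξ : HZ2 Y) (m : P.ρM.invariants) (L : Lift0 P) (hL : L.Lifts (m : M)) :
    pair20 B h𝒰 hC (ξ.cls h𝒰) m = cls20 B h𝒰 hC ξ L :=
  pair20ZZ_apply B h𝒰 hC _ m L hL

/-- The pairing of two classes vanishes iff the raw cochain is a level coboundary. -/
theorem pair20_eq_zero_iff (ξ : HZ2 Y) (m : P.ρM.invariants) (L : Lift0 P) (hL : L.Lifts (m : M)) :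
    pair20 B h𝒰 hC (ξ.cls h𝒰) m = 0 ↔
      ∃ u : G → C, IsLevel₁ 𝒰 u ∧ dOne ρC u = B.p20 ξ.c2 ξ.c1 L.mt L.z' := by
  rw [pair20_mk B h𝒰 hC ξ m L hL]
  exact cl2_eq_zero_iff _ _

/-! ### Kernels -/

lemma toDatum_pair20 (c2 : G × G → Y0) (c1 : G → Y1) (mt : P0) (z' : G → P1) :
    Pair20Raw2.pair20 (toDatum B) c2 c1 mt z' = B.p20 c2 c1 mt z' := rfl

/-- **Left kernel.**  Under the finite-level hypotheses `Hyp20`, a class of `ℍ²(Y)` pairing to zero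
with all of `H⁰(M)` is zero. -/
theorem pair20_left_kernel {ℱ : Set (Subgroup G)} {p : ℕ}
    (H : Hyp20 (toDatum B) 𝒰 ℱ p) (ξ : Y.ℍ2 h𝒰)
    (h : ∀ m, pair20 B h𝒰 hC ξ m = 0) : ξ = 0 := by
  obtain ⟨ξ', rfl⟩ := HZ2.cls_surjective h𝒰 ξ
  have hcy : Pair20Raw2.IsHyper2 (toDatum B) ξ'.c2 ξ'.c1 :=
    ⟨funext fun q => ξ'.hc2 q.1 q.2.1 q.2.2, fun q => ξ'.hc1 q.1 q.2⟩
  obtain ⟨b0, y1, hb0, h1, h2⟩ := left_kernel20 (D := toDatum B) h𝒰 H Y.disc0 Y.disc1 hcy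
    ξ'.lev2 ξ'.lev1 (fun mt z' hz _ => by
      let L : Lift0 P := ⟨mt, z', hz⟩
      let m : P.ρM.invariants := ⟨P.π mt, (Representation.mem_invariants _ _).2 L.invariant⟩
      have hL : L.Lifts (m : M) := rfl
      obtain ⟨u, hu, hdu⟩ := (pair20_eq_zero_iff B h𝒰 hC ξ' m L hL).1 (h m)
      exact ⟨u, hu, hdu.symm⟩)
  unfold HZ2.cls
  rw [Cpx.π2_eq_zero_iff]
  refine ⟨⟨(b0, y1), hb0⟩, Subtype.ext ?_⟩
  show Y.D1 (b0, y1) = (ξ'.c2, ξ'.c1)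
  have h1' : ξ'.c2 = dOne Y.ρ0 b0 := h1
  have h2' : ξ'.c1 = fun a => Y.f (b0 a) - dZero Y.ρ1 y1 a := h2
  rw [Cx.D1_apply, h1', h2']
  rfl

/-- **Right kernel.**  Under `Hyp20` and the vanishing of norms from deep levels, an invariant of
`M` pairing to zero with all of `ℍ²(Y)` is zero. -/
theorem pair20_right_kernel {ℱ : Set (Subgroup G)} {p : ℕ}
    (H : Hyp20 (toDatum B) 𝒰 ℱ p)
    (hNORM : ∀ U ∈ ℱ, ∃ V ∈ ℱ, V ≤ U ∧
      ∀ a', FixedBy (toDatum B).ρA V a' → nrm (toDatum B).ρA V a' = 0)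
    (m : P.ρM.invariants) (h : ∀ ξ, pair20 B h𝒰 hC ξ m = 0) : m = 0 := by
  obtain ⟨L, hL⟩ := exists_lift' (P := P) m
  have hz : Pair20Raw2.IsLift0 (toDatum B) L.mt L.z' := L.hz
  have key := right_kernel20 (D := toDatum B) H hNORM P.disc0 hz
    (fun c2 c1 hc hl2 hl1 => by
      let ξ' : HZ2 Y := ⟨c2, c1, hl2, hl1, fun g h j => congrFun hc.1 (g, h, j),
        fun g h => hc.2 (g, h)⟩
      obtain ⟨u, hu, hdu⟩ := (pair20_eq_zero_iff B h𝒰 hC ξ' m L hL).1 (h _)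
      exact ⟨u, hu, hdu.symm⟩)
  apply Subtype.ext
  have hL' : P.π L.mt = (m : M) := hL
  rw [← hL']
  exact key

/-! ### The `p`-torsion valued pairing and the count -/

open Fermat.Agent.PT.PRO.PerfectPairing29 Fermat.Agent.PT.PRO.InvP4 Fermat.Agent.PT.PRO.PairP4

lemma nsmul_invariants_eq_zero {p : ℕ} (hpM : ∀ m : M, p • m = 0) (m : P.ρM.invariants) :
    p • m = 0 := by
  apply Subtype.ext
  rw [Submodule.coe_zero, ← hpM (m : M)]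
  exact AddSubmonoidClass.coe_nsmul m p

/-- The pairing `pair20` with values in the `p`-torsion of `H²_lev(C)` (`p M = 0`). -/
noncomputable def pair20P {p : ℕ} (hpM : ∀ m : M, p • m = 0) :
    Y.ℍ2 h𝒰 →+ P.ρM.invariants →+ pTor p (Hlev2 h𝒰 ρC hC) :=
  corestrictP p (ofLinear (pair20 B h𝒰 hC)) (nsmul_invariants_eq_zero hpM)

lemma pair20P_eq_zero_iff {p : ℕ} (hpM : ∀ m : M, p • m = 0) (ξ : Y.ℍ2 h𝒰)
    (m : P.ρM.invariants) :
    pair20P B h𝒰 hC hpM ξ m = 0 ↔ pair20 B h𝒰 hC ξ m = 0 := by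
  rw [Subtype.ext_iff, AddSubgroup.coe_zero]
  rfl

/-- **The count.**  Under `Hyp20`, the vanishing of norms, and an injective invariant map
`τ : H²_lev(C)[p] → ℤ/p`: `ℍ²(Y)` is finite of the same cardinality as `H⁰(G, M)` (`M` finite,
killed by `p`). -/
theorem card_ℍ2_eq {ℱ : Set (Subgroup G)} {p : ℕ} [Fact p.Prime]
    (H : Hyp20 (toDatum B) 𝒰 ℱ p)
    (hNORM : ∀ U ∈ ℱ, ∃ V ∈ ℱ, V ≤ U ∧
      ∀ a', FixedBy (toDatum B).ρA V a' → nrm (toDatum B).ρA V a' = 0)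
    [Finite P.ρM.invariants] (hpM : ∀ m : M, p • m = 0)
    (τ : pTor p (Hlev2 h𝒰 ρC hC) →+ ZMod p) (hτ : Injective τ) :
    Finite (Y.ℍ2 h𝒰) ∧ Nat.card (Y.ℍ2 h𝒰) = Nat.card P.ρM.invariants :=
  card_eq_of_nondegenerate (pair20P B h𝒰 hC hpM) τ (injOnTorsion_of_injective τ hτ)
    (nsmul_invariants_eq_zero hpM)
    (fun ξ h => pair20_left_kernel B h𝒰 hC H ξ fun m =>
      (pair20P_eq_zero_iff B h𝒰 hC hpM ξ m).1 (h m))
    (fun m h => pair20_right_kernel B h𝒰 hC H hNORM m fun ξ =>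
      (pair20P_eq_zero_iff B h𝒰 hC hpM ξ m).1 (h ξ))

end Fermat.Agent.TW.GLOB.ExtPair20_2
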