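/-
Programme T (S56), chapter T/GLOB, brick (LIM20), packaging.  Owner: helper2.

`FundHyp20_2`: the finite-level hypotheses `Lim20_2.Hyp20` of the `(2,0)` limit argument for
`K(P; C)`, from FUNDAMENTAL CLASSES AT FINITE LEVELS (`FundHyp12.FundFixed`), the analogue of
`FundHyp12` one degree up; and the vanishing of norms (`hNORM` of `Lim20_2.right_kernel20`) from
the divisibility property (DIV) of the level basis ("`p^∞` divides the degree").

* `k`-generic part: `TN11rFixed`, `TN11lFixed`, `hyp20_of_fixed`, `nrm_eq_zero_of_dvd`,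
  `norm_of_div`;
* `ℤ`-part: `tn11rFixed_of_fund`, `tn11lFixed_of_fund`.
-/
import Mathlib
import Fermat.Agent.TW.GLOB.Lim20_2
import Fermat.Agent.PT.PRO.FundHyp12

set_option autoImplicit false

namespace Fermat.Agent.TW.GLOB.FundHyp20_2

open Fermat.Agent.PT.PRO.HyperLevel25 Fermat.Agent.PT.PRO.Pairing20
  Fermat.Agent.PT.PRO.GlobalDuality20 Fermat.Agent.PT.PRO.HyperColim18
  Fermat.Agent.PT.PRO.HyperColimP18 Fermat.Agent.PT.PRO.IndRes20
  Fermat.Agent.PT.PRO.DescendRes18 Fermat.Agent.PT.PRO.RightKernel12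
  Fermat.Agent.PT.PRO.FundRaw18 Fermat.Agent.PT.PRO.FundHyp12
  Fermat.Agent.TW.GLOB.Pair20Raw2 Fermat.Agent.TW.GLOB.TN11Raw2 Fermat.Agent.TW.GLOB.FL20_2
  Fermat.Agent.TW.GLOB.Lim20_2
open Fermat.Agent.PT.FG.Interface8
open groupCohomology

/-! ### Vanishing of norms -/

section Norm

variable {k : Type*} [CommRing k] {G : Type*} [Group G] {A : Type*} [AddCommGroup A] [Module k A]

/-- If `U` acts trivially on `A`, `p A = 0` and `p ∣ [U : V]`, then the norm `N_{G/V}` vanishes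
on `A`. -/
theorem nrm_eq_zero_of_dvd (ρA : Representation k G A) {p : ℕ} (hpA : ∀ a : A, (p : k) • a = 0)
    {U V : Subgroup G} (hU : ∀ s ∈ U, ∀ a, ρA s a = a) [V.FiniteIndex] (hVU : V ≤ U)
    (hdiv : p ∣ V.relIndex U) (a' : A) : nrm ρA V a' = 0 := by
  classical
  have : Finite (G ⧸ V) := Subgroup.finite_quotient_of_finiteIndex
  let _ := Fintype.ofFinite (G ⧸ V)
  have hdep : ∀ g g' : G, g⁻¹ * g' ∈ U → ρA g' a' = ρA g a' := by
    intro g g' h
    have e : g' = g * (g⁻¹ * g') := by group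
    rw [e, map_mul, Module.End.mul_apply, hU _ h]
  let e := Subgroup.quotientEquivProdOfLE hVU
  have : Finite ((G ⧸ U) × (U ⧸ V.subgroupOf U)) := Finite.of_equiv _ e
  have : Finite (G ⧸ U) := Finite.of_surjective (fun x : (G ⧸ U) × (U ⧸ V.subgroupOf U) => x.1)
    Prod.fst_surjective
  have : Finite (U ⧸ V.subgroupOf U) := by
    obtain ⟨r⟩ : Nonempty (G ⧸ U) := ⟨((1 : G) : G ⧸ U)⟩
    exact Finite.of_injective (fun y : U ⧸ V.subgroupOf U => ((r, y) : (G ⧸ U) × _))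
      (fun y y' h => (Prod.ext_iff.1 h).2)
  let _ := Fintype.ofFinite (G ⧸ U)
  let _ := Fintype.ofFinite (U ⧸ V.subgroupOf U)
  have key : ∀ x : (G ⧸ U) × (U ⧸ V.subgroupOf U),
      ρA (Quotient.out (e.symm x)) a' = ρA (Quotient.out x.1) a' := by
    intro x
    apply hdep
    rw [← QuotientGroup.eq]
    have h1 : (e (e.symm x)).1 = x.1 := by rw [Equiv.apply_symm_apply]
    have h2 : (e (e.symm x)).1 = ((Quotient.out (e.symm x) : G) : G ⧸ U) := by
      conv_lhs => rw [← QuotientGroup.out_eq' (e.symm x)]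
      rfl
    rw [QuotientGroup.out_eq', ← h2, h1]
  unfold nrm
  rw [finsum_eq_sum_of_fintype, ← e.symm.sum_comp, Fintype.sum_prod_type]
  simp only [key]
  have hcard : Fintype.card (U ⧸ V.subgroupOf U) = V.relIndex U := by
    rw [Subgroup.relIndex, Subgroup.index, Nat.card_eq_fintype_card]
  obtain ⟨m, hm⟩ := hdiv
  refine Finset.sum_eq_zero fun r _ => ?_
  rw [Finset.sum_const, Finset.card_univ, hcard, hm, mul_comm, mul_smul,
    ← Nat.cast_smul_eq_nsmul k p, hpA, smul_zero]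

end Norm

/-! ### The `k`-generic part -/

section Generic

variable {k : Type} [CommRing k] {G : Type} [Group G] {P1 P0 M C : Type}
  [AddCommGroup P1] [Module k P1] [AddCommGroup P0] [Module k P0] [AddCommGroup M] [Module k M]
  [AddCommGroup C] [Module k C]

/-- Finite-level input: raw `(1,1)` Tate–Nakayama, right kernel, for all f.g. free modules over
all finite quotients `G ⧸ V` with coefficients `C^V`. -/
def TN11rFixed (ρC : Representation k G C) (𝒰 : Set (Subgroup G)) (p : ℕ) : Prop :=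
  ∀ V ∈ 𝒰, ∀ hn : V.Normal, haveI := hn;
    ∀ (_ : Fintype (G ⧸ V)) (P : Type) [AddCommGroup P] [Module k P]
      (_ : Module.Free k P) (_ : Module.Finite k P) (ρ : Representation k (G ⧸ V) P),
      TN11rProp ρ (fixedRep V ρC) p

/-- Finite-level input: raw `(1,1)` Tate–Nakayama, left kernel. -/
def TN11lFixed (ρC : Representation k G C) (𝒰 : Set (Subgroup G)) (p : ℕ) : Prop :=
  ∀ V ∈ 𝒰, ∀ hn : V.Normal, haveI := hn;
    ∀ (_ : Fintype (G ⧸ V)) (P : Type) [AddCommGroup P] [Module k P]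
      (_ : Module.Free k P) (_ : Module.Finite k P) (ρ : Representation k (G ⧸ V) P),
      TN11lProp ρ (fixedRep V ρC) p

variable [IsDomain k] [IsPrincipalIdealRing k]

variable (R : Res k G P1 P0 M) (ρC : Representation k G C) {𝒰 : Set (Subgroup G)} {p : ℕ}
  [Fact p.Prime]
  [Module.Free k P0] [Module.Finite k P0] [Module.Free k P1] [Module.Finite k P1]

/-- **`Hyp20` for `K(P; C)` from the finite-level inputs.** -/
theorem hyp20_of_fixed (h𝒰 : IsLevelBasis 𝒰) (hpM : ∀ m : M, (p : k) • m = 0)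
    (hC : IsDiscrete 𝒰 ρC) (h0 : IsDiscrete 𝒰 R.ρ0)
    (hTNl : TN11lFixed ρC 𝒰 p) (hTNr : TN11rFixed ρC 𝒰 p) (hH1 : H1Fixed ρC 𝒰 p) :
    Hyp20 (R.datum ρC) 𝒰 (goodSet 𝒰 R.ρ0) p := by
  refine ⟨goodSet_sub 𝒰 R.ρ0, goodSet_normal 𝒰 R.ρ0, goodSet_cofinal h𝒰 R.ρ0 h0, ?_, ?_, ?_, hpM⟩
  · intro V hV
    have := goodSet_normal 𝒰 R.ρ0 V hV
    have := h𝒰.finiteIndex V hV.1
    classical
    let i1 : Fintype (G ⧸ V) := Fintype.ofFinite _
    obtain ⟨hfree, hfin⟩ := free_finite_indP1 (resQuot R V (goodSet_trivial 𝒰 R.ρ0 V hV))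
    exact tn20lAt_datum R ρC V (goodSet_trivial 𝒰 R.ρ0 V hV)
      (finTN20l (resQuot R V (goodSet_trivial 𝒰 R.ρ0 V hV)) (fixedRep V ρC) p hpM
        (hTNl V hV.1 hV.2.1 i1 _ hfree hfin _))
  · intro V hV
    have := goodSet_normal 𝒰 R.ρ0 V hV
    have := h𝒰.finiteIndex V hV.1
    classical
    let i1 : Fintype (G ⧸ V) := Fintype.ofFinite _
    obtain ⟨hfree, hfin⟩ := free_finite_indP1 (resQuot R V (goodSet_trivial 𝒰 R.ρ0 V hV))
    exact tn20rAt_datum R ρC V (goodSet_trivial 𝒰 R.ρ0 V hV)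
      (finTN20r (resQuot R V (goodSet_trivial 𝒰 R.ρ0 V hV)) (fixedRep V ρC) p hpM
        (hTNr V hV.1 hV.2.1 i1 _ hfree hfin _))
  · intro V hV
    have := goodSet_normal 𝒰 R.ρ0 V hV
    exact inj2pAt_of_noPTorsion h𝒰 ρC hC V hV.1 (Fact.out : p.Prime) (hH1_of_h1 ρC h𝒰 hH1 V)

omit [IsDomain k] [IsPrincipalIdealRing k] [Fact p.Prime] [Module.Free k P0] [Module.Finite k P0]
  [Module.Free k P1] [Module.Finite k P1] in
/-- **The hypothesis `hNORM` of `right_kernel20` for `K(P; C)`** from the divisibility property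
(DIV) of the level basis. -/
theorem norm_of_div (h𝒰 : IsLevelBasis 𝒰) (hpM : ∀ m : M, (p : k) • m = 0)
    (hDIV : ∀ V0 ∈ 𝒰, ∃ V ∈ 𝒰, V.Normal ∧ V ≤ V0 ∧ p ∣ V.relIndex V0) :
    ∀ U ∈ goodSet 𝒰 R.ρ0, ∃ V ∈ goodSet 𝒰 R.ρ0, V ≤ U ∧
      ∀ a', FixedBy (R.datum ρC).ρA V a' → nrm (R.datum ρC).ρA V a' = 0 := by
  intro U hU
  obtain ⟨V, hV, hVn, hVU, hdiv⟩ := hDIV U hU.1
  refine ⟨V, ⟨hV, hVn, fun s hs x => hU.2.2 s (hVU hs) x⟩, hVU, fun a' _ => ?_⟩
  have := h𝒰.finiteIndex V hV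
  exact nrm_eq_zero_of_dvd R.ρM hpM (res_trivialM R U hU.2.2) hVU hdiv a'

end Generic

/-! ### The `ℤ`-part: the finite-level inputs from fundamental classes -/

section Int

variable {G : Type} [Group G] {C : Type} [AddCommGroup C] [Module ℤ C]
  (ρC : Representation ℤ G C) {𝒰 : Set (Subgroup G)} {p : ℕ} [Fact p.Prime]

theorem tn11rFixed_of_fund (hfund : FundFixed ρC 𝒰 p) : TN11rFixed ρC 𝒰 p := by
  intro V hV hn
  have := hn
  intro i1 P _ _ hfree hfin ρ
  obtain ⟨u, hu⟩ := hfund V hV hn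
  exact @tn11r_raw _ _ _ _ _ _ (fixedSub V ρC).addCommGroup
    (fixedSub V ρC).module ρ (fixedRep V ρC) (Finite.of_fintype _) p _ hfree hfin u hu

theorem tn11lFixed_of_fund (hfund : FundFixed ρC 𝒰 p) : TN11lFixed ρC 𝒰 p := by
  intro V hV hn
  have := hn
  intro i1 P _ _ hfree hfin ρ
  obtain ⟨u, hu⟩ := hfund V hV hn
  exact @tn11l_raw _ _ _ _ _ _ (fixedSub V ρC).addCommGroup
    (fixedSub V ρC).module ρ (fixedRep V ρC) (Finite.of_fintype _) p _ hfree hfin u hu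

end Int

end Fermat.Agent.TW.GLOB.FundHyp20_2
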