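/-
Programme T (S56), chapter GLOB (helper6): the FINITENESS fields of `GWNumeric1.GWInputs`
(`finH1`, `finH1'`, `finH2'`, `finHq2'`) and the finiteness inputs of (ADD)/(A6), for a GENERAL
finite `X : Rep.{0} (ZMod p) GQ`, discrete for `levelS S`, `pPrime p ∈ S`.

Abstract:
* `finite_of_fibers (f : α → β) (F : Set α) (hF : F.Finite) (h : ∀ x y, f x = f y → x - y ∈ F) :
    Finite α`  (`[AddGroup α] [Finite β]`);
* `finite_H1_of_finite_Z1 𝓑 A [Finite ↥(Z1 𝓑 A)] : Finite (H1 𝓑 A)`.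

Discreteness (`X` finite, discrete for `levelS S`):
* `exists_field_triv S hpS X hX : ∃ F₀, F₀.IsUnramifiedOutside S ∧ Kz p ≤ F₀ ∧
    ∀ s ∈ F₀.fixingSubgroup, X.ρ s = 1`;
* `isDiscrete_dualTwist S hpS X hX : IsDiscrete (levelS S).sets (X.dualTwist (cycloChar p))`;
* `isDiscrete_Mq S X hX q : IsDiscrete (levelLoc q).sets (Mq X q)`  (any `X`, not nec. finite).

Finiteness:
* `finite_Z1_levelS S hpS X hX : Finite ↥(Z1 (levelS S) X)`   (from helper15's
  `H1FiniteCoh15.exists_field_forall_cocycle`);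
* `finite_HS1 S hpS X hX : Finite (HS1 S X)`;
* `finite_HS1_dualTwist S hpS X hX : Finite (HS1 S (X.dualTwist (cycloChar p)))`;
* `finite_Hq2 S X hX q : Finite (Hq2 X q)`,
  `finite_Hq2_dualTwist S X hX q : Finite (Hq2 (X.dualTwist (cycloChar p)) q)`;
* `finite_sha1 S hpS X hX : Finite ↥(sha1 S X)`;
* `finite_sha2_of_card_le S M M' [Finite (HS1 S M)]
    (h : Nat.card ↥(sha1 S M) ≤ Nat.card ↥(sha2 S M')) : Finite ↥(sha2 S M')`;
* `finite_HS2_of_sha2 S X [Finite ↥(sha2 S X)] [∀ q : ↥S, Finite (Hq2 X q)] : Finite (HS2 S X)`;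
* `finite_HS2_of_card_le S hpS M hM M' (hq : ∀ q : ↥S, Finite (Hq2 M' q))
    (h : Nat.card ↥(sha1 S M) ≤ Nat.card ↥(sha2 S M')) : Finite (HS2 S M')`
  (= field `finH2'` from field `sha`).
-/
import Mathlib
import Fermat.Agent.PT.GLOB.H1FiniteCoh15
import Fermat.Agent.PT.BR.DualTwist7
import Fermat.Agent.TW.GLOB.GWNumeric1
import Fermat.Agent.TW.LOC.Loc02_2

set_option autoImplicit false
set_option linter.unusedSectionVars false
set_option linter.style.haveILetI false

open CategoryTheory groupCohomology ExtCitation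
open Fermat.Agent.PT.PRO.LevelCoh28 Fermat.Agent.PT.PRO.LevelCohRes28
open Fermat.Agent.PT.GLUE.Objects21
open Fermat.Agent.PT.GLOB.H1FiniteCoh15
open Fermat.Agent.PT.BR.DualTwist7
open Fermat.Agent.S14.Fields (zeta zeta_spec Kz zeta_mem_Kz)
open Fermat.Agent.TW.DEF.Basic1 Fermat.Agent.TW.GLOB.GWNumeric1

namespace Fermat.Agent.TW.GLOB.FiniteHS6

local notation "Qbar" => AlgebraicClosure ℚ

/-! ### Abstract finiteness lemmas -/

/-- A map to a finite type whose fibres differ by elements of a finite set has a finite domain. -/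
theorem finite_of_fibers {α β : Type*} [AddGroup α] [Finite β] (f : α → β) (F : Set α)
    (hF : F.Finite) (h : ∀ x y, f x = f y → x - y ∈ F) : Finite α := by
  classical
  haveI : Finite F := hF.to_subtype
  let rep : β → α := fun b => if hb : ∃ x, f x = b then hb.choose else 0
  have hrep : ∀ x, f (rep (f x)) = f x := by
    intro x
    have hb : ∃ y, f y = f x := ⟨x, rfl⟩
    simp only [rep, dif_pos hb]
    exact hb.choose_spec
  refine Finite.of_injective
    (fun x => ((f x, ⟨x - rep (f x), h _ _ (hrep x).symm⟩) : β × F)) ?_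
  intro x y hxy
  simp only [Prod.mk.injEq, Subtype.mk.injEq] at hxy
  obtain ⟨h1, h2⟩ := hxy
  rw [h1] at h2
  exact sub_left_injective h2

/-- `H¹` is finite as soon as the level cocycles are. -/
theorem finite_H1_of_finite_Z1 {k : Type} [CommRing k] {G : Type} [Group G] (𝓑 : LevelBasis G)
    (A : Rep.{0} k G) [Finite ↥(Z1 𝓑 A)] : Finite (H1 𝓑 A) :=
  Finite.of_surjective (H1mk 𝓑 A) (H1mk_surjective 𝓑 A)

variable {p : ℕ} [Fact p.Prime] (S : Finset Nat.Primes)

/-! ### Discreteness -/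

/-- A finite discrete `G_S`-module is trivialised by a field unramified outside `S` containing
`ζ_p`. -/
theorem exists_field_triv (hpS : pPrime p ∈ S) (X : Rep.{0} (ZMod p) GQ) [Finite X]
    (hX : IsDiscrete (levelS S).sets X) :
    ∃ F₀ : IntermediateField ℚ Qbar, F₀.IsUnramifiedOutside S ∧ Kz p ≤ F₀ ∧
      ∀ s ∈ F₀.fixingSubgroup, X.ρ s = 1 := by
  obtain ⟨U, ⟨F, hF, rfl⟩, -, hU⟩ :=
    hX.exists_fixing (levelS S).isBasis (Set.toFinite (Set.univ : Set X))
  refine ⟨F ⊔ Kz p, hF.sup (isUnramifiedOutside_Kz p hpS), le_sup_right, fun s hs => ?_⟩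
  · ext a
    exact hU s (IntermediateField.fixingSubgroup_antitone le_sup_left hs) a (Set.mem_univ a)

/-- `X^*(1)` is discrete for `levelS S` when `X` is finite and discrete (`p ∈ S`). -/
theorem isDiscrete_dualTwist (hpS : pPrime p ∈ S) (X : Rep.{0} (ZMod p) GQ) [Finite X]
    (hX : IsDiscrete (levelS S).sets X) :
    IsDiscrete (levelS S).sets (X.dualTwist (cycloChar p)) := by
  obtain ⟨F₀, hF₀, hK, h1⟩ := exists_field_triv S hpS X hX
  intro a
  refine ⟨F₀.fixingSubgroup, ⟨F₀, hF₀, rfl⟩, fun s hs => ?_⟩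
  rw [dualTwist_ρ_eq_one X (h1 s hs)
    (cycloChar_eq_one_of_mem_fixingSubgroup_Kz p
      (IntermediateField.fixingSubgroup_antitone hK hs))]
  rfl

/-- The restriction to `G_{ℚ_q}` of a discrete `G_S`-module is discrete. -/
theorem isDiscrete_Mq (X : Rep.{0} (ZMod p) GQ) (hX : IsDiscrete (levelS S).sets X)
    (q : ℕ) [Fact q.Prime] : IsDiscrete (levelLoc q).sets (Mq X q) := by
  intro a
  obtain ⟨U, hU, hUa⟩ := hX a
  obtain ⟨V, hV, hVU⟩ := isLevelHom_rq S q U hU
  exact ⟨V, hV, fun s hs => hUa (rq q s) (hVU hs)⟩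

/-! ### Finiteness of `H¹(G_S, X)` -/

/-- **The level-`S` cocycles of a finite discrete module are finitely many.** -/
theorem finite_Z1_levelS (hpS : pPrime p ∈ S) (X : Rep.{0} (ZMod p) GQ) [Finite X]
    (hX : IsDiscrete (levelS S).sets X) : Finite ↥(Z1 (levelS S) X) := by
  obtain ⟨F₀, hF₀, hK, h1⟩ := exists_field_triv S hpS X hX
  haveI := hF₀.1
  haveI : FiniteDimensional (ZMod p) X := Module.Finite.of_finite
  obtain ⟨F₁, -, hfin, hF₁⟩ := exists_field_forall_cocycle S X F₀ hF₀ (zeta_spec p)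
    (hK (zeta_mem_Kz p))
    (fun s hs a => by rw [h1 s hs]; rfl)
  haveI := hfin
  haveI := finiteIndex_fixingSubgroup F₁
  have hfin1 := finite_setOf_level (X := X) F₁.fixingSubgroup
  haveI : Finite {f : GQ → X | ∀ g, ∀ s ∈ F₁.fixingSubgroup, f (g * s) = f g} :=
    hfin1.to_subtype
  let Φ : ↥(Z1 (levelS S) X) →
      {f : GQ → X | ∀ g, ∀ s ∈ F₁.fixingSubgroup, f (g * s) = f g} := fun c =>
    ⟨(c : GQ → X), hF₁ ⟨(c : GQ → X), c.2.1⟩ ((isLevel₁_levelS_iff S _).1 c.2.2)⟩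
  refine Finite.of_injective Φ ?_
  intro c c' h
  apply Subtype.ext
  have h' := congrArg Subtype.val h
  exact h'

/-- **`H¹(G_S, X)` is finite** (`X` finite, discrete for `levelS S`, `p ∈ S`). -/
theorem finite_HS1 (hpS : pPrime p ∈ S) (X : Rep.{0} (ZMod p) GQ) [Finite X]
    (hX : IsDiscrete (levelS S).sets X) : Finite (HS1 S X) := by
  haveI := finite_Z1_levelS S hpS X hX
  exact finite_H1_of_finite_Z1 (levelS S) X

instance finite_dualTwist (X : Rep.{0} (ZMod p) GQ) [Finite X] :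
    Finite (X.dualTwist (cycloChar p)) := by
  haveI : FiniteDimensional (ZMod p) X := Module.Finite.of_finite
  haveI : FiniteDimensional (ZMod p) (X.dualTwist (cycloChar p)) :=
    inferInstanceAs (FiniteDimensional (ZMod p) (Module.Dual (ZMod p) X))
  exact Module.finite_of_finite (ZMod p)

/-- **`H¹(G_S, X^*(1))` is finite.** -/
theorem finite_HS1_dualTwist (hpS : pPrime p ∈ S) (X : Rep.{0} (ZMod p) GQ) [Finite X]
    (hX : IsDiscrete (levelS S).sets X) : Finite (HS1 S (X.dualTwist (cycloChar p))) :=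
  finite_HS1 S hpS _ (isDiscrete_dualTwist S hpS X hX)

/-- `Ш¹_S(X)` is finite. -/
theorem finite_sha1 (hpS : pPrime p ∈ S) (X : Rep.{0} (ZMod p) GQ) [Finite X]
    (hX : IsDiscrete (levelS S).sets X) : Finite ↥(sha1 S X) := by
  haveI := finite_HS1 S hpS X hX
  infer_instance

/-! ### Finiteness of the local `H²` -/

/-- **`H²(ℚ_q, X)` is finite.** -/
theorem finite_Hq2 (X : Rep.{0} (ZMod p) GQ) [Finite X]
    (hX : IsDiscrete (levelS S).sets X) (q : ℕ) [Fact q.Prime] : Finite (Hq2 X q) := by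
  haveI : FiniteDimensional (ZMod p) X := Module.Finite.of_finite
  exact (Fermat.Agent.TW.LOC.Loc02_2.card_Hq2_eq p X q (isDiscrete_Mq S X hX q)).1

/-- **`H²(ℚ_q, X^*(1))` is finite.** -/
theorem finite_Hq2_dualTwist (X : Rep.{0} (ZMod p) GQ) [Finite X]
    (hX : IsDiscrete (levelS S).sets X) (q : ℕ) [Fact q.Prime] :
    Finite (Hq2 (X.dualTwist (cycloChar p)) q) := by
  haveI : FiniteDimensional (ZMod p) X := Module.Finite.of_finite
  exact (Fermat.Agent.TW.LOC.Loc02_2.card_Hq2_dualTwist p X q (isDiscrete_Mq S X hX q)).1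

/-! ### Finiteness of `H²(G_S, X)` from `Ш²` -/

/-- `Ш²` is finite as soon as `#Ш¹(M) ≤ #Ш²(M')` (as `Nat.card`) and `H¹(G_S, M)` is finite. -/
theorem finite_sha2_of_card_le (M M' : Rep.{0} (ZMod p) GQ) [Finite (HS1 S M)]
    (h : Nat.card ↥(sha1 S M) ≤ Nat.card ↥(sha2 S M')) : Finite ↥(sha2 S M') := by
  have h1 : 0 < Nat.card ↥(sha1 S M) := Nat.card_pos
  exact Nat.finite_of_card_ne_zero (by omega)

/-- **`H²(G_S, X)` is finite** as soon as `Ш²_S(X)` and the local `H²(ℚ_q, X)`, `q ∈ S`, are. -/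
theorem finite_HS2_of_sha2 (X : Rep.{0} (ZMod p) GQ) [Finite ↥(sha2 S X)]
    [∀ q : ↥S, Finite (Hq2 X ((q : Nat.Primes) : ℕ))] : Finite (HS2 S X) := by
  refine finite_of_fibers (loc2S S X) (sha2 S X : Set (HS2 S X)) (Set.toFinite _) ?_
  intro x y hxy
  show x - y ∈ sha2 S X
  rw [sha2, LinearMap.mem_ker, map_sub, hxy]
  exact sub_self (loc2S S X y)

/-- The field `finH2'` of `GWInputs` from the field `sha` (and `finH1`, `finHq2'`). -/
theorem finite_HS2_of_card_le (hpS : pPrime p ∈ S) (M : Rep.{0} (ZMod p) GQ) [Finite M]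
    (hM : IsDiscrete (levelS S).sets M) (M' : Rep.{0} (ZMod p) GQ)
    (hq : ∀ q : ↥S, Finite (Hq2 M' ((q : Nat.Primes) : ℕ)))
    (h : Nat.card ↥(sha1 S M) ≤ Nat.card ↥(sha2 S M')) : Finite (HS2 S M') := by
  haveI := finite_HS1 S hpS M hM
  haveI := finite_sha2_of_card_le S M M' h
  exact finite_HS2_of_sha2 S M'

end Fermat.Agent.TW.GLOB.FiniteHS6
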