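/-
Programme T (S56, Taylor–Wiles primes), chapter GLOB (helper8): THE `sha` FIELD OF `GWInputs` —
statement S55 (Poitou–Tate, `Ш¹(X^*(1)) × Ш²(X)` perfect) in the vocabulary of `GWNumeric1`
(`sha1 S X = ker (HS1 S X → ∏_{q ∈ S} Hq1 X q)`, `sha2` likewise), as an equality of cardinalities.

`X : Rep.{0} (ZMod p) GQ` finite-dimensional, smooth (`hsm`), unramified outside `S` (`hMur`),
`pPrime p ∈ S`, `p ≠ 2` (the hypotheses of S55), `X' = X.dualTwist (cycloChar p)`:
* `concl_levelS` : the output of `PT/PRO/MainFinal4.main` moved back from the bases of `BR/LevelBridge13`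
  to `levelS S`, `levelLoc q` (`Transport29.Concl.congr` with `BasisCompare13`);
* `card_sha1_dualTwist` : `Finite (sha1 S X') ∧ Finite (sha2 S X) ∧ #sha1 S X' = #sha2 S X`;
* `card_sha1` : `Finite (sha1 S X) ∧ Finite (sha2 S X') ∧ #sha1 S X = #sha2 S X'`
  (the previous statement for `X'`, and `X ≅ X''`: `DualTwist7.ddualEquiv`).
Transport along an equivariant isomorphism: `hS1Iso_mem_sha1_iff`, `card_sha1_eq_of_equiv`,
`hS2Iso_mem_sha2_iff`, `card_sha2_eq_of_equiv`.
-/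
import Mathlib
import Fermat.Agent.PT.PRO.MainFinal4
import Fermat.Agent.PT.GLOB.LocalInjMain14
import Fermat.Agent.PT.GLUE.LocHyperFinal13
import Fermat.Agent.PT.BR.DualTwist7
import Fermat.Agent.TW.GLOB.GWNumeric1
import Fermat.Agent.TW.ASM.EquivTransport8

set_option autoImplicit false
set_option linter.unusedSectionVars false
set_option linter.style.haveILetI false

open groupCohomology ExtCitation
open Fermat.Agent.PT.PRO Fermat.Agent.PT.PRO.LevelCoh28 Fermat.Agent.PT.PRO.LevelCohRes28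
open Fermat.Agent.PT.GLUE Fermat.Agent.PT.GLUE.Objects21
open Fermat.Agent.PT.BR Fermat.Agent.PT.BR.LevelBridge13 Fermat.Agent.PT.BR.DualTwist7
open Fermat.Agent.TW.DEF.Basic1 Fermat.Agent.TW.GLOB.GWNumeric1
open Fermat.Agent.TW.ASM.EquivTransport8

namespace Fermat.Agent.TW.GLOB.ShaCount8

noncomputable section

/-! ### Transport of `sha1`, `sha2` along an equivariant isomorphism -/

section Transport

variable {p : ℕ} [Fact p.Prime] {A B : Rep.{0} (ZMod p) GQ} (e : A.V ≃ₗ[ZMod p] B.V)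
  (he : ∀ g a, e (A.ρ g a) = B.ρ g (e a)) (S : Finset Nat.Primes)

theorem hS1Iso_mem_sha1_iff (x : HS1 S A) : hS1Iso e he S x ∈ sha1 S B ↔ x ∈ sha1 S A := by
  rw [sha1, sha1, LinearMap.mem_ker, LinearMap.mem_ker]
  constructor
  · intro h
    funext q
    have h1 : resq1 S B ((q : Nat.Primes) : ℕ) (hS1Iso e he S x) = 0 := congrFun h q
    rw [resq1_hS1Iso] at h1
    exact (LinearEquiv.map_eq_zero_iff _).1 h1
  · intro h
    funext q
    have h1 : resq1 S A ((q : Nat.Primes) : ℕ) x = 0 := congrFun h q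
    show resq1 S B ((q : Nat.Primes) : ℕ) (hS1Iso e he S x) = 0
    rw [resq1_hS1Iso, h1, map_zero]

include e he in
theorem card_sha1_eq_of_equiv : Nat.card ↥(sha1 S A) = Nat.card ↥(sha1 S B) :=
  Nat.card_congr ((hS1Iso e he S).toEquiv.subtypeEquiv
    fun x => (hS1Iso_mem_sha1_iff e he S x).symm)

theorem hS2Iso_mem_sha2_iff (x : HS2 S A) : hS2Iso e he S x ∈ sha2 S B ↔ x ∈ sha2 S A := by
  rw [sha2, sha2, LinearMap.mem_ker, LinearMap.mem_ker]
  constructor
  · intro h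
    funext q
    have h1 : resq2 S B ((q : Nat.Primes) : ℕ) (hS2Iso e he S x) = 0 := congrFun h q
    rw [resq2_hS2Iso] at h1
    exact (LinearEquiv.map_eq_zero_iff _).1 h1
  · intro h
    funext q
    have h1 : resq2 S A ((q : Nat.Primes) : ℕ) x = 0 := congrFun h q
    show resq2 S B ((q : Nat.Primes) : ℕ) (hS2Iso e he S x) = 0
    rw [resq2_hS2Iso, h1, map_zero]

include e he in
theorem card_sha2_eq_of_equiv : Nat.card ↥(sha2 S A) = Nat.card ↥(sha2 S B) :=
  Nat.card_congr ((hS2Iso e he S).toEquiv.subtypeEquiv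
    fun x => (hS2Iso_mem_sha2_iff e he S x).symm)

end Transport

/-! ### S55 in the vocabulary of `GWNumeric1` -/

section Main

variable {p : ℕ} [Fact p.Prime]

/-- The count of S55 for the bases `levelS S`, `levelLoc q`. -/
theorem concl_levelS (hp2 : p ≠ 2) (S : Finset Nat.Primes) (hpS : pPrime p ∈ S)
    (M : Rep.{0} (ZMod p) GQ) [FiniteDimensional (ZMod p) M]
    (hsm : ∀ m : M, ∃ F : IntermediateField ℚ (AlgebraicClosure ℚ), FiniteDimensional ℚ F ∧
      ∀ s ∈ F.fixingSubgroup, M.ρ s m = m)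
    (hMur : ∀ q : Nat.Primes, q ∉ S → ∀ A : ValuationSubring (AlgebraicClosure ℚ),
      A.LiesOverPrime (q : ℕ) → ∀ g ∈ A.inertiaSubgroupIn ℚ, M.ρ g = 1) :
    Transport29.Concl (p := p) (fun q : ↥S => primeLocalToGlobal q.1) (levelS S)
      (fun q : ↥S => (levelLoc ((q : Nat.Primes) : ℕ) :
        LevelCoh28.LevelBasis (primeLocalGaloisGroup q.1)))
      (fun q : ↥S => isLevelHom_rq S ((q : Nat.Primes) : ℕ))
      (M.dualTwist (cycloChar p)) M := by
  classical
  haveI : FiniteDimensional (ZMod p) (M.dualTwist (cycloChar p)) :=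
    inferInstanceAs (FiniteDimensional (ZMod p) (Module.Dual (ZMod p) M))
  haveI : Finite (M.dualTwist (cycloChar p)) := Module.finite_of_finite (ZMod p)
  obtain ⟨i1, i2, h⟩ := MainFinal4.main hp2 S hpS M hsm hMur (M.dualTwist (cycloChar p)) rfl
    (Fermat.Agent.PT.GLOB.LocalInjMain14.localInjectivity p S)
    (fun h0 q => Fermat.Agent.PT.GLUE.LocHyperFinal13.s1At S _ _ _ _ _ _ _ h0)
    (fun h0 q => Fermat.Agent.PT.GLUE.LocHyperFinal13.s2hAt S _ _ _ _ _ _ _ h0)
  have key : Transport29.Concl (p := p) (fun q : ↥S => primeLocalToGlobal q.1) (globalBasis S)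
      (fun q : ↥S => pullBasis (primeLocalToGlobal q.1))
      (fun q : ↥S => ShaBridge13.isLevelHom_pull S (primeLocalToGlobal q.1))
      (M.dualTwist (cycloChar p)) M := ⟨i1, i2, h⟩
  exact Transport29.Concl.congr (fun q : ↥S => primeLocalToGlobal q.1)
    (BasisCompare13.globalBasis_eq S)
    (funext fun q : ↥S => BasisCompare13.pullBasis_prime_eq q.1) _ _ _ _ key

/-- **S55 as a count**: `#Ш¹_S(X^*(1)) = #Ш²_S(X)`. -/
theorem card_sha1_dualTwist (hp2 : p ≠ 2) (S : Finset Nat.Primes) (hpS : pPrime p ∈ S)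
    (M : Rep.{0} (ZMod p) GQ) [FiniteDimensional (ZMod p) M]
    (hsm : ∀ m : M, ∃ F : IntermediateField ℚ (AlgebraicClosure ℚ), FiniteDimensional ℚ F ∧
      ∀ s ∈ F.fixingSubgroup, M.ρ s m = m)
    (hMur : ∀ q : Nat.Primes, q ∉ S → ∀ A : ValuationSubring (AlgebraicClosure ℚ),
      A.LiesOverPrime (q : ℕ) → ∀ g ∈ A.inertiaSubgroupIn ℚ, M.ρ g = 1) :
    Finite ↥(sha1 S (M.dualTwist (cycloChar p))) ∧ Finite ↥(sha2 S M) ∧
      Nat.card ↥(sha1 S (M.dualTwist (cycloChar p))) = Nat.card ↥(sha2 S M) := by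
  obtain ⟨i1, i2, h⟩ := concl_levelS hp2 S hpS M hsm hMur
  haveI i1' : FiniteDimensional (ZMod p) ↥(sha1 S (M.dualTwist (cycloChar p))) := i1
  haveI i2' : FiniteDimensional (ZMod p) ↥(sha2 S M) := i2
  have h' : Module.finrank (ZMod p) ↥(sha1 S (M.dualTwist (cycloChar p))) =
      Module.finrank (ZMod p) ↥(sha2 S M) := h
  refine ⟨Module.finite_of_finite (ZMod p), Module.finite_of_finite (ZMod p), ?_⟩
  rw [Module.natCard_eq_pow_finrank (K := ZMod p)
      (V := ↥(sha1 S (M.dualTwist (cycloChar p)))),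
    Module.natCard_eq_pow_finrank (K := ZMod p) (V := ↥(sha2 S M)), h']

/-- **The `sha` field of `GWInputs`** (with equality): `#Ш¹_S(X) = #Ш²_S(X^*(1))`. -/
theorem card_sha1 (hp2 : p ≠ 2) (S : Finset Nat.Primes) (hpS : pPrime p ∈ S)
    (M : Rep.{0} (ZMod p) GQ) [FiniteDimensional (ZMod p) M]
    (hsm : ∀ m : M, ∃ F : IntermediateField ℚ (AlgebraicClosure ℚ), FiniteDimensional ℚ F ∧
      ∀ s ∈ F.fixingSubgroup, M.ρ s m = m)
    (hMur : ∀ q : Nat.Primes, q ∉ S → ∀ A : ValuationSubring (AlgebraicClosure ℚ),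
      A.LiesOverPrime (q : ℕ) → ∀ g ∈ A.inertiaSubgroupIn ℚ, M.ρ g = 1) :
    Finite ↥(sha1 S M) ∧ Finite ↥(sha2 S (M.dualTwist (cycloChar p))) ∧
      Nat.card ↥(sha1 S M) = Nat.card ↥(sha2 S (M.dualTwist (cycloChar p))) := by
  haveI : FiniteDimensional (ZMod p) (M.dualTwist (cycloChar p)) :=
    inferInstanceAs (FiniteDimensional (ZMod p) (Module.Dual (ZMod p) M))
  obtain ⟨f1, f2, h⟩ := card_sha1_dualTwist hp2 S hpS (M.dualTwist (cycloChar p))
    (smooth_dualTwist M hsm) (unram_dualTwist M hpS hMur)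
  have hc := card_sha1_eq_of_equiv (ddualEquiv (cycloChar p) M) (ddualEquiv_ρ (cycloChar p) M) S
  refine ⟨?_, f2, hc.trans h⟩
  exact Finite.of_equiv _ ((hS1Iso (ddualEquiv (cycloChar p) M) (ddualEquiv_ρ (cycloChar p) M)
    S).toEquiv.subtypeEquiv fun x =>
      (hS1Iso_mem_sha1_iff (ddualEquiv (cycloChar p) M) (ddualEquiv_ρ (cycloChar p) M) S x).symm).symm

end Main

end

end Fermat.Agent.TW.GLOB.ShaCount8
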