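/-
Programme T, chapter GLOB, task G3 (IND), brick 6: Artin's induction theorem as a counting
identity (no characters, no Möbius function).

`G` a finite group, `p` a prime, `N` the `p'`-part of `|G|`.
* `exists_artin_coeff`: there are integers `c K`, supported on the cyclic subgroups `K` of order
  prime to `p`, with `∑ K, c K * #Fix(h, G ⧸ K) = |G|` for every `h` with `h ^ N = 1`;
* `exists_artin_coeff_period` (the form used for representations): for such `h` and every
  `f : ℕ → ℚ`, `∑ K, c K * ∑ x : G ⧸ K, f (period h x) = |G| * f 1`.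
Ingredients: `|K| * #Fix(h, G ⧸ K) = #{x | x⁻¹ h x ∈ K}` (`conjCount_eq`), decomposition by the
cyclic group generated by `x⁻¹ h x` (`conjCount_eq_sum`), induction on `|C|`
(`genCount_mem_fixSpan`), fixed points of `h ^ t` versus periods (`card_fixed_pow`) and inversion
of constant divisor sums (`eq_of_divisor_sums_const`).  Mathlib only.
-/
import Mathlib

namespace Fermat.Agent.TW.GLOB.ArtinCount9

open Finset

/-- The number of points of `X` of period exactly `s` under `h`. -/
noncomputable def perCount {G : Type*} [Group G] (X : Type*) [MulAction G X] (h : G)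
    (s : ℕ) : ℕ := Nat.card {x : X // MulAction.period h x = s}

open Classical in
/-- The fixed points of `h ^ t` are the points whose period divides `t`. -/
theorem card_fixed_pow {G : Type*} [Group G] {X : Type*} [MulAction G X] [Fintype X]
    (h : G) {t : ℕ} (ht : t ≠ 0) :
    Nat.card {x : X // h ^ t • x = x} = ∑ s ∈ t.divisors, perCount X h s := by
  rw [Nat.card_eq_fintype_card, Fintype.card_subtype]
  have h1 : Finset.univ.filter (fun x : X => h ^ t • x = x)
      = Finset.univ.filter (fun x : X => MulAction.period h x ∈ t.divisors) := by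
    ext x
    simp only [Finset.mem_filter, Finset.mem_univ, true_and, Nat.mem_divisors]
    rw [MulAction.pow_smul_eq_iff_period_dvd]
    exact ⟨fun hd => ⟨hd, ht⟩, fun hd => hd.1⟩
  rw [h1, Finset.card_eq_sum_card_fiberwise (f := fun x : X => MulAction.period h x)
    (t := t.divisors)]
  · refine Finset.sum_congr rfl fun s hs => ?_
    unfold perCount
    rw [Nat.card_eq_fintype_card, Fintype.card_subtype]
    congr 1
    ext x
    simp only [Finset.mem_filter, Finset.mem_univ, true_and]
    constructor
    · exact fun hx => hx.2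
    · intro hx
      exact ⟨by rw [hx]; exact hs, hx⟩
  · intro x hx
    simpa using hx

/-- Inversion against a constant: if all divisor sums of `B` are equal to `C`, then
`B 1 = C` and `B s = 0` for `s ≥ 2`. -/
theorem eq_of_divisor_sums_const (B : ℕ → ℤ) (C : ℤ)
    (hB : ∀ t : ℕ, t ≠ 0 → ∑ s ∈ t.divisors, B s = C) :
    B 1 = C ∧ ∀ s : ℕ, 2 ≤ s → B s = 0 := by
  have h1 : B 1 = C := by simpa using hB 1 one_ne_zero
  refine ⟨h1, ?_⟩
  intro s
  induction s using Nat.strong_induction_on with
  | _ s ih =>
    intro hs
    have h2 := hB s (by omega)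
    rw [← Nat.insert_self_properDivisors (by omega : s ≠ 0),
      Finset.sum_insert Nat.self_notMem_properDivisors, add_comm] at h2
    have h3 : ∑ i ∈ s.properDivisors, B i = B 1 := by
      apply Finset.sum_eq_single_of_mem 1
      · rw [Nat.mem_properDivisors]; exact ⟨one_dvd _, by omega⟩
      · intro i hi hi1
        rw [Nat.mem_properDivisors] at hi
        have hi0 : i ≠ 0 := by
          rintro rfl
          have := hi.1
          rw [zero_dvd_iff] at this
          omega
        exact ih i hi.2 (by omega)
    rw [h3, h1] at h2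
    omega

section artin

variable {G : Type*} [Group G]

/-- The number of fixed points of `h` on `G ⧸ K`. -/
noncomputable def fixCount (K : Subgroup G) (h : G) : ℕ := Nat.card {q : G ⧸ K // h • q = q}

/-- The number of `x` with `x⁻¹ h x ∈ K`. -/
noncomputable def conjCount (K : Subgroup G) (h : G) : ℕ := Nat.card {x : G // x⁻¹ * h * x ∈ K}

/-- The number of `x` with `⟨x⁻¹ h x⟩ = C`. -/
noncomputable def genCount (C : Subgroup G) (h : G) : ℕ :=
  Nat.card {x : G // Subgroup.zpowers (x⁻¹ * h * x) = C}

theorem conjCount_eq (K : Subgroup G) (h : G) :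
    conjCount K h = Nat.card K * fixCount K h := by
  unfold conjCount fixCount
  change _ = Nat.card K * Nat.card ({q : G ⧸ K | h • q = q} : Set (G ⧸ K))
  rw [← QuotientGroup.card_preimage_mk K {q : G ⧸ K | h • q = q}]
  apply Nat.card_congr
  apply Equiv.subtypeEquivRight
  intro x
  rw [Set.mem_preimage]
  change _ ↔ h • (x : G ⧸ K) = x
  rw [MulAction.Quotient.smul_mk, QuotientGroup.eq, smul_eq_mul, mul_inv_rev, ← K.inv_mem_iff]
  simp [mul_assoc]

/-- The cyclic subgroups of order prime to `p`. -/
def cycP (G : Type*) [Group G] (p : ℕ) : Set (Subgroup G) :=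
  {K | IsCyclic K ∧ (Nat.card K).Coprime p}

theorem cycP_of_le {p : ℕ} {C C' : Subgroup G} (hC : C ∈ cycP G p) (h : C' ≤ C) :
    C' ∈ cycP G p := by
  obtain ⟨h1, h2⟩ := hC
  exact ⟨Subgroup.isCyclic_of_le h, Nat.Coprime.coprime_dvd_left (Subgroup.card_dvd_of_le h) h2⟩

theorem conj_pow' (x h : G) (n : ℕ) : (x⁻¹ * h * x) ^ n = x⁻¹ * h ^ n * x := by
  have := conj_pow (a := x⁻¹) (b := h) (i := n)
  rwa [inv_inv] at this

/-- The span of the fixed point functions of `G ⧸ K`, `K` cyclic of order prime to `p`. -/
noncomputable def fixSpan (G : Type*) [Group G] (p : ℕ) : Submodule ℤ (G → ℤ) :=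
  Submodule.span ℤ ((fun K : Subgroup G => fun h : G => (fixCount K h : ℤ)) '' cycP G p)

variable [Finite G]

open Classical in
theorem conjCount_eq_sum [Fintype (Subgroup G)] (K : Subgroup G) (h : G) :
    conjCount K h = ∑ C ∈ univ.filter (fun C : Subgroup G => C ≤ K), genCount C h := by
  cases nonempty_fintype G
  unfold conjCount genCount
  rw [Nat.card_eq_fintype_card, Fintype.card_subtype]
  rw [Finset.card_eq_sum_card_fiberwise (f := fun x : G => Subgroup.zpowers (x⁻¹ * h * x))
    (t := univ.filter (fun C : Subgroup G => C ≤ K))]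
  · refine Finset.sum_congr rfl fun C hC => ?_
    rw [Nat.card_eq_fintype_card, Fintype.card_subtype]
    congr 1
    ext x
    simp only [mem_filter, mem_univ, true_and]
    constructor
    · exact fun hx => hx.2
    · intro hx
      refine ⟨?_, hx⟩
      rw [mem_filter] at hC
      rw [← Subgroup.zpowers_le, hx]
      exact hC.2
  · intro x hx
    rw [Finset.mem_coe, mem_filter] at hx ⊢
    exact ⟨mem_univ _, Subgroup.zpowers_le.mpr hx.2⟩

open Classical in
/-- The counting functions `genCount C` are integral combinations of fixed point functions. -/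
theorem genCount_mem_fixSpan (p : ℕ) :
    ∀ (n : ℕ) (C : Subgroup G), Nat.card C = n → C ∈ cycP G p →
      (fun h : G => (genCount C h : ℤ)) ∈ fixSpan G p := by
  intro n
  induction n using Nat.strong_induction_on with
  | _ n ih =>
    intro C hCn hC
    cases nonempty_fintype (Subgroup G)
    have hle : univ.filter (fun C' : Subgroup G => C' ≤ C)
        = insert C (univ.filter (fun C' : Subgroup G => C' < C)) := by
      ext C'
      simp only [mem_filter, mem_univ, true_and, mem_insert]
      rw [le_iff_eq_or_lt]
    have hnotin : C ∉ univ.filter (fun C' : Subgroup G => C' < C) := by simp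
    have hfun : (fun h : G => (genCount C h : ℤ))
        = (Nat.card C : ℤ) • (fun h : G => (fixCount C h : ℤ))
          - ∑ C' ∈ univ.filter (fun C' : Subgroup G => C' < C),
              (fun h : G => (genCount C' h : ℤ)) := by
      funext h
      have h1 := conjCount_eq C h
      rw [conjCount_eq_sum C h, hle, Finset.sum_insert hnotin] at h1
      simp only [Pi.sub_apply, Pi.smul_apply, Finset.sum_apply, smul_eq_mul]
      have h2 := congrArg (fun z : ℕ => (z : ℤ)) h1
      simp only [Nat.cast_add, Nat.cast_sum, Nat.cast_mul] at h2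
      linarith
    rw [hfun]
    apply Submodule.sub_mem
    · apply Submodule.smul_mem
      exact Submodule.subset_span ⟨C, hC, rfl⟩
    · apply Submodule.sum_mem
      intro C' hC'
      rw [mem_filter] at hC'
      have hlt : Nat.card C' < n := by
        rw [← hCn]
        exact Set.Finite.card_lt_card (Set.toFinite _) (SetLike.coe_ssubset_coe.mpr hC'.2)
      exact ih _ hlt C' rfl (cycP_of_le hC hC'.2.le)

open Classical in
/-- At an element of order prime to `p`, the counting functions sum to `|G|`. -/
theorem sum_genCount [Fintype (Subgroup G)] (p : ℕ) {N : ℕ} (hN : N.Coprime p) {h : G}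
    (hh : h ^ N = 1) :
    ∑ C ∈ univ.filter (fun C : Subgroup G => C ∈ cycP G p), genCount C h = Nat.card G := by
  cases nonempty_fintype G
  have h0 : Nat.card G = (univ : Finset G).card := by
    rw [Nat.card_eq_fintype_card, Finset.card_univ]
  rw [h0, Finset.card_eq_sum_card_fiberwise (f := fun x : G => Subgroup.zpowers (x⁻¹ * h * x))
    (t := univ.filter (fun C : Subgroup G => C ∈ cycP G p))]
  · refine Finset.sum_congr rfl fun C _ => ?_
    unfold genCount
    rw [Nat.card_eq_fintype_card, Fintype.card_subtype]
  · intro x _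
    rw [Finset.mem_coe, mem_filter]
    refine ⟨mem_univ _, Subgroup.isCyclic_zpowers _, ?_⟩
    rw [Nat.card_zpowers]
    apply Nat.Coprime.coprime_dvd_left _ hN
    apply orderOf_dvd_of_pow_eq_one
    rw [conj_pow', hh]
    simp

/-- **Artin's theorem, counting form.**  The constant function `|G|` on the `p`-regular elements
is an integral combination of the fixed point functions of the `G ⧸ K`, `K` cyclic `p'`. -/
theorem exists_artin_coeff (p : ℕ) [Fact p.Prime] [Fintype (Subgroup G)] :
    ∃ c : Subgroup G → ℤ, (∀ K, c K ≠ 0 → K ∈ cycP G p) ∧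
      ∀ h : G, h ^ (ordCompl[p] (Nat.card G)) = 1 →
        ∑ K, c K * (fixCount K h : ℤ) = Nat.card G := by
  classical
  have hp : p.Prime := Fact.out
  have hNco : (ordCompl[p] (Nat.card G)).Coprime p :=
    (Nat.coprime_ordCompl hp Nat.card_pos.ne').symm
  have hmem : (fun h : G => ∑ C ∈ univ.filter (fun C : Subgroup G => C ∈ cycP G p),
      (genCount C h : ℤ)) ∈ fixSpan G p := by
    have : (fun h : G => ∑ C ∈ univ.filter (fun C : Subgroup G => C ∈ cycP G p),
        (genCount C h : ℤ))
        = ∑ C ∈ univ.filter (fun C : Subgroup G => C ∈ cycP G p),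
            (fun h : G => (genCount C h : ℤ)) := by
      funext h
      rw [Finset.sum_apply]
    rw [this]
    apply Submodule.sum_mem
    intro C hC
    rw [mem_filter] at hC
    exact genCount_mem_fixSpan p _ C rfl hC.2
  obtain ⟨l, hl, hlsum⟩ := (Finsupp.mem_span_image_iff_linearCombination ℤ).mp hmem
  refine ⟨fun K => l K, ?_, ?_⟩
  · intro K hK
    exact hl (Finsupp.mem_support_iff.mpr hK)
  · intro h hh
    have h1 := congrFun hlsum h
    rw [Finsupp.linearCombination_apply,
      Finsupp.sum_fintype _ _ (fun i => zero_smul ℤ (fun h : G => (fixCount i h : ℤ))),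
      Finset.sum_apply] at h1
    simp only [Pi.smul_apply, smul_eq_mul] at h1
    rw [h1]
    exact_mod_cast sum_genCount p hNco hh

/-- **Artin's theorem, orbit form.**  For `h` of order prime to `p` and any function `f` of the
period, the combination of the sums `∑ x : G ⧸ K, f (period h x)` with Artin's coefficients only
sees the fixed points. -/
theorem exists_artin_coeff_period (p : ℕ) [Fact p.Prime] [Fintype (Subgroup G)]
    [∀ K : Subgroup G, Fintype (G ⧸ K)] :
    ∃ c : Subgroup G → ℤ, (∀ K, c K ≠ 0 → K ∈ cycP G p) ∧
      ∀ h : G, h ^ (ordCompl[p] (Nat.card G)) = 1 → ∀ f : ℕ → ℚ,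
        ∑ K, (c K : ℚ) * ∑ x : G ⧸ K, f (MulAction.period h x) = Nat.card G * f 1 := by
  classical
  obtain ⟨c, hc, hsum⟩ := exists_artin_coeff (G := G) p
  refine ⟨c, hc, ?_⟩
  intro h hh f
  -- the numbers `B s`
  let B : ℕ → ℤ := fun s => ∑ K, c K * (perCount (G ⧸ K) h s : ℤ)
  have hB : ∀ t : ℕ, t ≠ 0 → ∑ s ∈ t.divisors, B s = Nat.card G := by
    intro t ht
    have h1 := hsum (h ^ t) (by rw [← pow_mul, mul_comm, pow_mul, hh, one_pow])
    rw [← h1]
    simp only [B]
    rw [Finset.sum_comm]
    refine Finset.sum_congr rfl fun K _ => ?_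
    rw [← Finset.mul_sum]
    congr 1
    unfold fixCount
    rw [card_fixed_pow h ht]
    push_cast
    rfl
  obtain ⟨hB1, hB2⟩ := eq_of_divisor_sums_const B _ hB
  have hper : ∀ (K : Subgroup G) (x : G ⧸ K), 0 < MulAction.period h x := fun K x =>
    MulAction.period_pos_of_orderOf_pos (orderOf_pos h) x
  have hB0 : B 0 = 0 := by
    simp only [B]
    apply Finset.sum_eq_zero
    intro K _
    have : perCount (G ⧸ K) h 0 = 0 := by
      unfold perCount
      rw [Nat.card_eq_fintype_card, Fintype.card_subtype]
      rw [Finset.card_eq_zero, Finset.filter_eq_empty_iff]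
      intro x _
      exact (hper K x).ne'
    rw [this]; simp
  set n := orderOf h with hn
  -- regroup the sum over points by the period
  have hregroup : ∀ K : Subgroup G, ∑ x : G ⧸ K, f (MulAction.period h x)
      = ∑ s ∈ Finset.range (n + 1), (perCount (G ⧸ K) h s : ℚ) * f s := by
    intro K
    rw [← Finset.sum_fiberwise_of_maps_to (s := univ) (t := Finset.range (n + 1))
      (g := fun x : G ⧸ K => MulAction.period h x)]
    · refine Finset.sum_congr rfl fun s _ => ?_
      rw [Finset.sum_congr rfl (fun x hx => by rw [(Finset.mem_filter.mp hx).2] :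
        ∀ x ∈ univ.filter (fun x : G ⧸ K => MulAction.period h x = s),
          f (MulAction.period h x) = f s)]
      rw [Finset.sum_const, nsmul_eq_mul]
      congr 2
      unfold perCount
      rw [Nat.card_eq_fintype_card, Fintype.card_subtype]
    · intro x _
      rw [Finset.mem_range, Nat.lt_succ_iff]
      exact MulAction.period_le_orderOf (orderOf_pos h) x
  simp_rw [hregroup, Finset.mul_sum]
  rw [Finset.sum_comm]
  have hterm : ∀ s ∈ Finset.range (n + 1),
      ∑ K, (c K : ℚ) * ((perCount (G ⧸ K) h s : ℚ) * f s) = (B s : ℚ) * f s := by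
    intro s _
    simp only [B]
    push_cast
    rw [Finset.sum_mul]
    refine Finset.sum_congr rfl fun K _ => ?_
    ring
  rw [Finset.sum_congr rfl hterm, Finset.sum_eq_single 1]
  · rw [hB1]; push_cast; ring
  · intro s _ hs1
    rcases Nat.lt_or_ge s 2 with h2 | h2
    · have : s = 0 := by omega
      rw [this, hB0]; simp
    · rw [hB2 s h2]; simp
  · intro h1
    exfalso
    apply h1
    rw [Finset.mem_range]
    have := orderOf_pos h
    omega

end artin

end Fermat.Agent.TW.GLOB.ArtinCount9
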