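/-
Programme T, chapter GLOB, task G3 (IND): the induction theorem for additive functions on
finite-dimensional modular representations of a finite group.

This file only fixes the VOCABULARY and the precise final STATEMENT (as a `Prop`), so that other
chapters can cite it as a hypothesis.  Mathlib only.
-/
import Mathlib

namespace Fermat.Agent.TW.GLOB.IndDefs9

universe u v w

/-- An *additive invariant* of finite-dimensional `k`-linear representations of `G` with values in
the additive group `A`: a rule attaching an element of `A` to every finite-dimensional
representation (in the universe of `G`), additive on short exact sequences of equivariant maps.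
Invariance under equivariant isomorphisms is a consequence, see `AdditiveInvariant.map_equiv`. -/
structure AdditiveInvariant (k : Type v) (G : Type u) (A : Type w) [Field k] [Group G]
    [AddCommGroup A] where
  /-- the value of the invariant on a finite-dimensional representation -/
  toFun : ∀ (V : Type u) [AddCommGroup V] [Module k V] [Module.Finite k V],
    Representation k G V → A
  /-- additivity on short exact sequences `0 → V₁ → V₂ → V₃ → 0` of equivariant linear maps -/
  map_exact : ∀ (V₁ V₂ V₃ : Type u) [AddCommGroup V₁] [Module k V₁] [Module.Finite k V₁]
    [AddCommGroup V₂] [Module k V₂] [Module.Finite k V₂]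
    [AddCommGroup V₃] [Module k V₃] [Module.Finite k V₃]
    (ρ₁ : Representation k G V₁) (ρ₂ : Representation k G V₂) (ρ₃ : Representation k G V₃)
    (i : V₁ →ₗ[k] V₂) (q : V₂ →ₗ[k] V₃),
    (∀ g v, i (ρ₁ g v) = ρ₂ g (i v)) → (∀ g v, q (ρ₂ g v) = ρ₃ g (q v)) →
    Function.Injective i → Function.Exact i q → Function.Surjective q →
    toFun V₂ ρ₂ = toFun V₁ ρ₁ + toFun V₃ ρ₃

namespace AdditiveInvariant

variable {k : Type v} {G : Type u} {A : Type w} [Field k] [Group G] [AddCommGroup A]
  (φ : AdditiveInvariant k G A)

/-- The value on a zero representation is zero. -/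
theorem map_subsingleton (V : Type u) [AddCommGroup V] [Module k V] [Module.Finite k V]
    [Subsingleton V] (ρ : Representation k G V) : φ.toFun V ρ = 0 := by
  have h := φ.map_exact V V V ρ ρ ρ 0 0 (fun g v => Subsingleton.elim _ _)
    (fun g v => Subsingleton.elim _ _) (fun a b _ => Subsingleton.elim _ _)
    (fun y => ⟨fun _ => ⟨0, Subsingleton.elim _ _⟩, fun _ => Subsingleton.elim _ _⟩)
    (fun y => ⟨0, Subsingleton.elim _ _⟩)
  have h2 : φ.toFun V ρ + 0 = φ.toFun V ρ + φ.toFun V ρ := by rw [add_zero]; exact h
  exact (add_left_cancel h2).symm

/-- An additive invariant takes the same value on equivariantly isomorphic representations. -/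
theorem map_equiv (V W : Type u) [AddCommGroup V] [Module k V] [Module.Finite k V]
    [AddCommGroup W] [Module k W] [Module.Finite k W]
    (ρ : Representation k G V) (σ : Representation k G W) (e : V ≃ₗ[k] W)
    (he : ∀ g v, e (ρ g v) = σ g (e v)) : φ.toFun V ρ = φ.toFun W σ := by
  have h := φ.map_exact V W PUnit.{u+1} ρ σ 1 e.toLinearMap 0 he
    (fun g v => rfl) e.injective
    (fun y => ⟨fun _ => ⟨e.symm y, by simp⟩, fun _ => rfl⟩)
    (fun y => ⟨0, Subsingleton.elim _ _⟩)
  rw [h, φ.map_subsingleton PUnit.{u+1} 1, add_zero]

end AdditiveInvariant

/-- **The induction theorem for additive functions (IND), as a statement.**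
`k` a finite field of characteristic `p`, `G` a finite group, `A` a torsion-free abelian group.
If an additive invariant `φ` of finite-dimensional `k[G]`-modules vanishes on every representation
coinduced (= induced, the index being finite) from a representation of a cyclic subgroup of order
prime to `p`, then `φ` vanishes identically. -/
def InductionPrinciple (p : ℕ) (k : Type v) (G : Type u) (A : Type w) [Field k] [Finite k]
    [CharP k p] [Group G] [Finite G] [AddCommGroup A] [IsAddTorsionFree A] : Prop :=
  ∀ φ : AdditiveInvariant k G A,
    (∀ C : Subgroup G, IsCyclic C → (Nat.card C).Coprime p →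
      ∀ (N : Type u) [AddCommGroup N] [Module k N] [Module.Finite k N]
        (σ : Representation k C N),
        φ.toFun (Representation.coindV C.subtype σ) (Representation.coind C.subtype σ) = 0) →
    ∀ (V : Type u) [AddCommGroup V] [Module k V] [Module.Finite k V] (ρ : Representation k G V),
      φ.toFun V ρ = 0

/-- The form of (IND) in which the chapters LOC and GLOB use it: `k = ZMod p`. -/
def InductionPrincipleZMod (p : ℕ) [Fact p.Prime] (G : Type u) (A : Type w) [Group G] [Finite G]
    [AddCommGroup A] [IsAddTorsionFree A] : Prop :=
  InductionPrinciple p (ZMod p) G A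

end Fermat.Agent.TW.GLOB.IndDefs9
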