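/-
Programme T, chapter GLOB, task G3 (IND), brick 2: eigenvalue multiplicities of operators of finite
order prime to the characteristic.

* `finrank_of_exact`: dimensions are additive in short exact sequences;
* `avg n w = n⁻¹ (1 + w + ⋯ + w^(n-1))` is a projection onto the fixed space of `w` when `w^n = 1`
  and `n` is invertible (`isProj_avg`), hence `avg n (ζ⁻¹ u)` is a projection onto the
  `ζ`-eigenspace of `u` (`isProj_eigen`);
* `finrank_eigenspace_of_exact`: eigenspace dimensions of such operators are additive in short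
  exact sequences;
* `trace_eq_sum_eigen`: the trace is the sum of the eigenvalues with multiplicities, when the
  field contains a primitive `n`-th root of unity;
* `trace_eq_trace_pow`, `exists_pRegular_exponent`: in characteristic `p` the trace of `ρ g` equals
  the trace of `ρ` on the `p`-regular part `g ^ e` of `g`.
Mathlib only.
-/
import Mathlib

namespace Fermat.Agent.TW.GLOB.EigenMult9

open Module Polynomial

section dim

variable {k : Type*} [Field k] {V₁ V₂ V₃ : Type*} [AddCommGroup V₁] [Module k V₁]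
  [AddCommGroup V₂] [Module k V₂] [AddCommGroup V₃] [Module k V₃]

/-- Dimensions are additive in short exact sequences. -/
theorem finrank_of_exact [Module.Finite k V₂] (i : V₁ →ₗ[k] V₂) (q : V₂ →ₗ[k] V₃)
    (hi : Function.Injective i) (hex : Function.Exact i q) (hq : Function.Surjective q) :
    finrank k V₂ = finrank k V₁ + finrank k V₃ := by
  have h1 := LinearMap.finrank_range_add_finrank_ker q
  rw [LinearMap.range_eq_top.mpr hq, finrank_top] at h1
  have h2 : LinearMap.ker q = LinearMap.range i := (LinearMap.exact_iff.mp hex)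
  rw [h2, LinearMap.finrank_range_of_inj hi] at h1
  omega

end dim

section avg

variable {k : Type*} [Field k] {V : Type*} [AddCommGroup V] [Module k V]

/-- The averaging operator `n⁻¹ (1 + w + ... + w^(n-1))`. -/
noncomputable def avg (n : ℕ) (w : Module.End k V) : Module.End k V :=
  ((n : k)⁻¹) • ∑ j ∈ Finset.range n, w ^ j

theorem sub_one_mul_avg {n : ℕ} {w : Module.End k V} (hw : w ^ n = 1) :
    (w - 1) * avg n w = 0 := by
  rw [avg, mul_smul_comm, mul_geom_sum, hw, sub_self, smul_zero]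

theorem avg_apply_of_fixed {n : ℕ} (hn : (n : k) ≠ 0) {w : Module.End k V} {v : V}
    (hv : w v = v) : avg n w v = v := by
  have hj : ∀ j : ℕ, (w ^ j) v = v := by
    intro j
    induction j with
    | zero => simp
    | succ j ih => rw [pow_succ, Module.End.mul_apply, hv, ih]
  simp only [avg, LinearMap.smul_apply, LinearMap.sum_apply, hj, Finset.sum_const,
    Finset.card_range]
  rw [← Nat.cast_smul_eq_nsmul k, smul_smul, inv_mul_cancel₀ hn, one_smul]

/-- `avg n w` is a projection onto the fixed space of `w`. -/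
theorem isProj_avg {n : ℕ} (hn : (n : k) ≠ 0) {w : Module.End k V} (hw : w ^ n = 1) :
    LinearMap.IsProj (LinearMap.ker (w - 1)) (avg n w) := by
  refine ⟨fun v => ?_, fun v hv => ?_⟩
  · rw [LinearMap.mem_ker, ← Module.End.mul_apply, sub_one_mul_avg hw, LinearMap.zero_apply]
  · apply avg_apply_of_fixed hn
    rw [LinearMap.mem_ker, LinearMap.sub_apply, Module.End.one_apply, sub_eq_zero] at hv
    exact hv

theorem ker_smul_sub_one {ζ : k} (hζ : ζ ≠ 0) (u : Module.End k V) :
    LinearMap.ker (ζ⁻¹ • u - 1) = Module.End.eigenspace u ζ := by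
  ext x
  rw [LinearMap.mem_ker, Module.End.mem_eigenspace_iff, LinearMap.sub_apply,
    LinearMap.smul_apply, Module.End.one_apply, sub_eq_zero, inv_smul_eq_iff₀ hζ]

theorem smul_pow_eq_one {n : ℕ} {ζ : k} (hζ : ζ ^ n = 1) {u : Module.End k V} (hu : u ^ n = 1) :
    (ζ⁻¹ • u) ^ n = 1 := by
  rw [_root_.smul_pow, hu, inv_pow, hζ, inv_one, one_smul]

theorem ne_zero_of_pow_eq_one {n : ℕ} (hn : (n : k) ≠ 0) {ζ : k} (hζ : ζ ^ n = 1) : ζ ≠ 0 := by
  rintro rfl
  have : n ≠ 0 := by rintro rfl; simp at hn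
  rw [zero_pow this] at hζ
  exact zero_ne_one hζ

/-- `avg n (ζ⁻¹ u)` is a projection onto the `ζ`-eigenspace of `u`. -/
theorem isProj_eigen {n : ℕ} (hn : (n : k) ≠ 0) {ζ : k} (hζ : ζ ^ n = 1) {u : Module.End k V}
    (hu : u ^ n = 1) : LinearMap.IsProj (Module.End.eigenspace u ζ) (avg n (ζ⁻¹ • u)) := by
  rw [← ker_smul_sub_one (ne_zero_of_pow_eq_one hn hζ)]
  exact isProj_avg hn (smul_pow_eq_one hζ hu)

/-- `u * π_ζ = ζ π_ζ`. -/
theorem mul_avg_eigen {n : ℕ} (hn : (n : k) ≠ 0) {ζ : k} (hζ : ζ ^ n = 1) {u : Module.End k V}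
    (hu : u ^ n = 1) : u * avg n (ζ⁻¹ • u) = ζ • avg n (ζ⁻¹ • u) := by
  have h := sub_one_mul_avg (smul_pow_eq_one hζ hu)
  rw [sub_mul, one_mul, sub_eq_zero, smul_mul_assoc] at h
  calc u * avg n (ζ⁻¹ • u) = ζ • ζ⁻¹ • (u * avg n (ζ⁻¹ • u)) := by
        rw [smul_smul, mul_inv_cancel₀ (ne_zero_of_pow_eq_one hn hζ), one_smul]
    _ = ζ • avg n (ζ⁻¹ • u) := by rw [h]

/-- Orthogonality of roots of unity. -/
theorem sum_pow_primitive {n : ℕ} {ξ : k} (hξ : IsPrimitiveRoot ξ n) {j : ℕ} (hj0 : j ≠ 0)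
    (hjn : j < n) : ∑ i ∈ Finset.range n, ((ξ ^ i)⁻¹) ^ j = 0 := by
  have h1 : ∀ i, ((ξ ^ i)⁻¹) ^ j = ((ξ⁻¹) ^ j) ^ i := by
    intro i
    rw [← inv_pow, ← pow_mul, ← pow_mul, mul_comm]
  simp_rw [h1]
  have hne : (ξ⁻¹) ^ j ≠ 1 := hξ.inv.pow_ne_one_of_pos_of_lt hj0 hjn
  have h2 := mul_geom_sum ((ξ⁻¹) ^ j) n
  have h3 : ((ξ⁻¹) ^ j) ^ n = 1 := by
    rw [← pow_mul, mul_comm, pow_mul, inv_pow, hξ.pow_eq_one, inv_one, one_pow]
  rw [h3, sub_self] at h2
  exact (mul_eq_zero.mp h2).resolve_left (sub_ne_zero.mpr hne)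

/-- The eigen-projectors sum to `1`. -/
theorem sum_avg_eigen {n : ℕ} (hn : (n : k) ≠ 0) {ξ : k} (hξ : IsPrimitiveRoot ξ n)
    (u : Module.End k V) : ∑ i ∈ Finset.range n, avg n ((ξ ^ i)⁻¹ • u) = 1 := by
  have hn0 : n ≠ 0 := by rintro rfl; simp at hn
  simp only [avg, _root_.smul_pow]
  rw [← Finset.smul_sum, Finset.sum_comm]
  simp_rw [← Finset.sum_smul]
  rw [Finset.sum_eq_single 0]
  · simp only [pow_zero, Finset.sum_const, Finset.card_range, nsmul_eq_mul, mul_one]
    rw [smul_smul, inv_mul_cancel₀ hn, one_smul]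
  · intro j hj hj0
    rw [sum_pow_primitive hξ hj0 (Finset.mem_range.mp hj), zero_smul]
  · intro h
    exact absurd (Finset.mem_range.mpr (Nat.pos_of_ne_zero hn0)) h

/-- **Trace formula**: the trace of an operator of order dividing `n` (prime to the
characteristic, `k` containing a primitive `n`-th root of unity `ξ`) is the sum of its eigenvalues
`ξ ^ i` counted with the dimensions of the eigenspaces. -/
theorem trace_eq_sum_eigen [Module.Finite k V] {n : ℕ} (hn : (n : k) ≠ 0) {ξ : k}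
    (hξ : IsPrimitiveRoot ξ n) {u : Module.End k V} (hu : u ^ n = 1) :
    LinearMap.trace k V u =
      ∑ i ∈ Finset.range n, (finrank k (Module.End.eigenspace u (ξ ^ i)) : k) * ξ ^ i := by
  have h1 : u = ∑ i ∈ Finset.range n, ξ ^ i • avg n ((ξ ^ i)⁻¹ • u) := by
    conv_lhs => rw [← mul_one u, ← sum_avg_eigen hn hξ u, Finset.mul_sum]
    refine Finset.sum_congr rfl fun i _ => ?_
    have hζ : (ξ ^ i) ^ n = 1 := by rw [← pow_mul, mul_comm, pow_mul, hξ.pow_eq_one, one_pow]
    exact mul_avg_eigen hn hζ hu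
  conv_lhs => rw [h1]
  rw [map_sum]
  refine Finset.sum_congr rfl fun i _ => ?_
  have hζ : (ξ ^ i) ^ n = 1 := by rw [← pow_mul, mul_comm, pow_mul, hξ.pow_eq_one, one_pow]
  rw [map_smul, (isProj_eigen hn hζ hu).trace, smul_eq_mul, mul_comm]

end avg

section additivity

variable {k : Type*} [Field k] {V₁ V₂ V₃ : Type*} [AddCommGroup V₁] [Module k V₁]
  [AddCommGroup V₂] [Module k V₂] [AddCommGroup V₃] [Module k V₃]

theorem map_pow_apply {u₂ : Module.End k V₂} {u₃ : Module.End k V₃} (q : V₂ →ₗ[k] V₃)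
    (hq : ∀ v, q (u₂ v) = u₃ (q v)) (j : ℕ) (v : V₂) : q ((u₂ ^ j) v) = (u₃ ^ j) (q v) := by
  induction j generalizing v with
  | zero => simp
  | succ j ih => rw [pow_succ, pow_succ, Module.End.mul_apply, Module.End.mul_apply, ih, hq]

theorem map_avg_apply {u₂ : Module.End k V₂} {u₃ : Module.End k V₃} (q : V₂ →ₗ[k] V₃)
    (hq : ∀ v, q (u₂ v) = u₃ (q v)) (n : ℕ) (v : V₂) : q (avg n u₂ v) = avg n u₃ (q v) := by
  simp only [avg, LinearMap.smul_apply, LinearMap.sum_apply, map_smul, map_sum,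
    map_pow_apply q hq]

/-- **Additivity of eigenspace dimensions** in short exact sequences, for operators of finite
order prime to the characteristic. -/
theorem finrank_eigenspace_of_exact [Module.Finite k V₂] {n : ℕ} (hn : (n : k) ≠ 0) {ζ : k}
    (hζ : ζ ^ n = 1) (u₁ : Module.End k V₁) (u₂ : Module.End k V₂) (u₃ : Module.End k V₃)
    (hu : u₂ ^ n = 1) (i : V₁ →ₗ[k] V₂) (q : V₂ →ₗ[k] V₃)
    (hiu : ∀ v, i (u₁ v) = u₂ (i v)) (hqu : ∀ v, q (u₂ v) = u₃ (q v))
    (hi : Function.Injective i) (hex : Function.Exact i q) (hq : Function.Surjective q) :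
    finrank k (Module.End.eigenspace u₂ ζ) =
      finrank k (Module.End.eigenspace u₁ ζ) + finrank k (Module.End.eigenspace u₃ ζ) := by
  have hi' : ∀ x ∈ Module.End.eigenspace u₁ ζ, i x ∈ Module.End.eigenspace u₂ ζ := by
    intro x hx
    rw [Module.End.mem_eigenspace_iff] at hx ⊢
    rw [← hiu, hx, map_smul]
  have hq' : ∀ x ∈ Module.End.eigenspace u₂ ζ, q x ∈ Module.End.eigenspace u₃ ζ := by
    intro x hx
    rw [Module.End.mem_eigenspace_iff] at hx ⊢
    rw [← hqu, hx, map_smul]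
  refine finrank_of_exact (i.restrict hi') (q.restrict hq') ?_ ?_ ?_
  · intro x y hxy
    apply Subtype.ext
    apply hi
    exact congrArg Subtype.val hxy
  · intro y
    constructor
    · intro hy
      have hy0 : q y.1 = 0 := congrArg Subtype.val hy
      obtain ⟨x, hx⟩ := (hex y.1).mp hy0
      have hxmem : x ∈ Module.End.eigenspace u₁ ζ := by
        rw [Module.End.mem_eigenspace_iff]
        apply hi
        rw [hiu, hx, map_smul, hx]
        exact Module.End.mem_eigenspace_iff.mp y.2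
      exact ⟨⟨x, hxmem⟩, Subtype.ext hx⟩
    · rintro ⟨x, rfl⟩
      apply Subtype.ext
      exact (hex _).mpr ⟨x.1, rfl⟩
  · rintro ⟨z, hz⟩
    obtain ⟨y, rfl⟩ := hq z
    have hζ0 := ne_zero_of_pow_eq_one hn hζ
    have hqu' : ∀ v, q ((ζ⁻¹ • u₂) v) = (ζ⁻¹ • u₃) (q v) := by
      intro v; simp [hqu]
    refine ⟨⟨avg n (ζ⁻¹ • u₂) y, (isProj_eigen hn hζ hu).map_mem y⟩, Subtype.ext ?_⟩
    change q (avg n (ζ⁻¹ • u₂) y) = q y
    rw [map_avg_apply q hqu']
    apply avg_apply_of_fixed hn
    rw [LinearMap.smul_apply, Module.End.mem_eigenspace_iff.mp hz, smul_smul,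
      inv_mul_cancel₀ hζ0, one_smul]

/-- Isomorphic operators have eigenspaces of the same dimension. -/
theorem finrank_eigenspace_of_equiv (ζ : k) (u₁ : Module.End k V₁) (u₂ : Module.End k V₂)
    (e : V₁ ≃ₗ[k] V₂) (he : ∀ v, e (u₁ v) = u₂ (e v)) :
    finrank k (Module.End.eigenspace u₁ ζ) = finrank k (Module.End.eigenspace u₂ ζ) := by
  refine LinearEquiv.finrank_eq (e.submoduleMap _ ≪≫ₗ LinearEquiv.ofEq _ _ ?_)
  ext y
  simp only [Submodule.mem_map, Module.End.mem_eigenspace_iff]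
  constructor
  · rintro ⟨x, hx, rfl⟩
    rw [LinearEquiv.coe_coe, ← he, hx, map_smul]
  · intro hy
    refine ⟨e.symm y, ?_, by simp⟩
    apply e.injective
    rw [he, map_smul]
    simpa using hy

end additivity

section pregular

variable {k : Type*} [Field k] {V : Type*} [AddCommGroup V] [Module k V]

/-- In characteristic `p`, an operator `x` with `x ^ (p ^ a) = 1` is unipotent. -/
theorem sub_one_pow_eq_zero (p : ℕ) [Fact p.Prime] [CharP k p] {x : Module.End k V} {a : ℕ}
    (hx : x ^ (p ^ a) = 1) : (x - 1) ^ (p ^ a) = 0 := by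
  have h1 : ((X : k[X]) - 1) ^ (p ^ a) = X ^ (p ^ a) - 1 := by
    rw [sub_pow_char_pow, one_pow]
  have h2 := congrArg (Polynomial.aeval x) h1
  simpa [hx] using h2

/-- In characteristic `p`: if `u = u^e * u^f` with `u^f` of `p`-power order, then `u` and `u^e`
have the same trace. -/
theorem trace_eq_trace_pow (p : ℕ) [Fact p.Prime] [CharP k p] (u : Module.End k V) {a e f : ℕ}
    (hf : (u ^ f) ^ (p ^ a) = 1) (hef : u ^ (e + f) = u) :
    LinearMap.trace k V u = LinearMap.trace k V (u ^ e) := by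
  have h1 : u - u ^ e = u ^ e * (u ^ f - 1) := by
    rw [mul_sub, mul_one, ← pow_add, hef]
  have hnil : IsNilpotent (u - u ^ e) := by
    rw [h1]
    apply Commute.isNilpotent_mul_left
    · exact ((Commute.pow_pow_self u e f).sub_right (Commute.one_right _))
    · exact ⟨p ^ a, sub_one_pow_eq_zero p hf⟩
  have h2 := (LinearMap.isNilpotent_trace_of_isNilpotent hnil).eq_zero
  rw [map_sub, sub_eq_zero] at h2
  exact h2

/-- For a finite group `G` and a prime `p` there is an exponent `e` such that `g ^ e` is the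
`p`-regular part of `g`: it has order dividing the `p'`-part `N` of `|G|`, and in every
representation in characteristic `p` the elements `g` and `g ^ e` have the same trace. -/
theorem exists_pRegular_exponent (p : ℕ) [Fact p.Prime] (G : Type*) [Group G] [Finite G] :
    ∃ e : ℕ, ∀ g : G, (g ^ e) ^ (ordCompl[p] (Nat.card G)) = 1 ∧
      ∀ (k : Type*) [Field k] [CharP k p] (V : Type*) [AddCommGroup V] [Module k V]
        (ρ : Representation k G V), LinearMap.trace k V (ρ g) = LinearMap.trace k V (ρ (g ^ e)) := by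
  have hp : p.Prime := Fact.out
  set m := Nat.card G with hm
  have hm0 : m ≠ 0 := Nat.card_pos.ne'
  set a := m.factorization p with ha
  set N := ordCompl[p] m with hN
  have hmul : p ^ a * N = m := Nat.ordProj_mul_ordCompl_eq_self m p
  have hco : Nat.Coprime (p ^ a) N := (Nat.coprime_ordCompl hp hm0).pow_left a
  obtain ⟨e, he0, he1⟩ := Nat.chineseRemainder hco 0 1
  obtain ⟨f, hf1, hf0⟩ := Nat.chineseRemainder hco 1 0
  have hpow_card : ∀ g : G, g ^ m = 1 := fun g => pow_card_eq_one'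
  have hgeN : ∀ g : G, (g ^ e) ^ N = 1 := by
    intro g
    obtain ⟨c, hc⟩ := (Nat.modEq_zero_iff_dvd.mp he0)
    rw [← pow_mul, hc, mul_assoc, mul_comm c N, ← mul_assoc, hmul, pow_mul, hpow_card, one_pow]
  have hgfp : ∀ g : G, (g ^ f) ^ (p ^ a) = 1 := by
    intro g
    obtain ⟨c, hc⟩ := (Nat.modEq_zero_iff_dvd.mp hf0)
    rw [← pow_mul, hc, mul_comm N c, mul_assoc, mul_comm N, hmul, mul_comm, pow_mul, hpow_card,
      one_pow]
  have hgef : ∀ g : G, g ^ (e + f) = g := by
    intro g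
    have h1 : e + f ≡ 1 [MOD p ^ a] := by simpa using he0.add hf1
    have h2 : e + f ≡ 1 [MOD N] := by simpa using he1.add hf0
    have h3 : e + f ≡ 1 [MOD m] := by
      rw [← hmul]
      exact (Nat.modEq_and_modEq_iff_modEq_mul hco).mp ⟨h1, h2⟩
    have h4 : e + f ≡ 1 [MOD orderOf g] := h3.of_dvd (orderOf_dvd_natCard g)
    calc g ^ (e + f) = g ^ 1 := pow_eq_pow_iff_modEq.mpr h4
      _ = g := pow_one g
  refine ⟨e, fun g => ⟨hgeN g, ?_⟩⟩
  intro k _ _ V _ _ ρ
  have := trace_eq_trace_pow p (ρ g) (a := a) (e := e) (f := f)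
    (by rw [← map_pow, ← map_pow, hgfp, map_one]) (by rw [← map_pow, hgef])
  rw [this, ← map_pow ρ]

end pregular

end Fermat.Agent.TW.GLOB.EigenMult9
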