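/-
Programme T, chapter GLOB, task G3 (IND), brick 1: independence of the trace functions of
pairwise non-isomorphic simple modules over an algebra over a FINITE field.

For a finite field `k`, a `k`-algebra `A` and finitely many simple `A`-modules `T i`, finite
dimensional over `k` and pairwise without nonzero homomorphisms (e.g. pairwise non-isomorphic),
the Jacobson density theorem yields for every index `i0` an element `a : A` acting as `0` on all
`T i`, `i ≠ i0`, and with nonzero `k`-trace on `T i0` (`exists_smul_trace`).  Consequently the trace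
functions `a ↦ tr(a | T i)` are linearly independent over `k` (`trace_linearIndependent`).
The finiteness of `k` is used through Wedderburn's little theorem (`End_A (T i)` is a field) and
the separability of finite extensions of finite fields (the trace form does not vanish).
Mathlib only.
-/
import Mathlib

namespace Fermat.Agent.TW.GLOB.TraceDensity9

open Module

/-- For a finite separable field extension `F/k` and a nonzero `F`-vector space `T`, finite
dimensional over `k`, some `F`-linear endomorphism of `T` has nonzero `k`-trace. -/
theorem exists_trace_ne_zero (k F T : Type*) [Field k] [Field F] [Algebra k F]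
    [FiniteDimensional k F] [Algebra.IsSeparable k F] [AddCommGroup T] [Module F T] [Module k T]
    [IsScalarTower k F T] [Module.Finite k T] [Nontrivial T] :
    ∃ b : T →ₗ[F] T, LinearMap.trace k T (b.restrictScalars k) ≠ 0 := by
  obtain ⟨v, hv⟩ := exists_ne (0 : T)
  obtain ⟨lam, hlam⟩ : ∃ lam : T →ₗ[F] F, lam v = 1 :=
    Module.Projective.exists_dual_eq_one F hv
  obtain ⟨d, hd⟩ : ∃ d : F, Algebra.trace k F d ≠ 0 := by
    obtain ⟨d, hd⟩ := Algebra.trace_surjective k F 1
    exact ⟨d, by rw [hd]; exact one_ne_zero⟩
  let ι : F →ₗ[F] T := LinearMap.toSpanSingleton F T v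
  refine ⟨ι ∘ₗ (d • lam), ?_⟩
  have h1 : (ι ∘ₗ (d • lam)).restrictScalars k
      = (ι.restrictScalars k) ∘ₗ ((d • lam).restrictScalars k) := rfl
  rw [h1, LinearMap.trace_comp_comm']
  have h2 : ((d • lam).restrictScalars k) ∘ₗ (ι.restrictScalars k) = Algebra.lmul k F d := by
    ext x
    simp [ι, hlam]
  rw [h2]
  exact hd

/-- A simple module `T` over an algebra over a finite field `k`, finite dimensional over `k`,
carries a `k`-linear endomorphism with nonzero trace which commutes with all module
endomorphisms. -/
theorem exists_commuting_trace_ne_zero (k A T : Type*) [Field k] [Finite k] [Ring A] [Algebra k A]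
    [AddCommGroup T] [Module k T] [Module A T] [IsScalarTower k A T] [Module.Finite k T]
    [IsSimpleModule A T] :
    ∃ b : T →ₗ[k] T, (∀ (ε : Module.End A T) (t : T), b (ε t) = ε (b t)) ∧
      LinearMap.trace k T b ≠ 0 := by
  classical
  have : Finite T := Module.finite_of_finite k
  have : Finite (Module.End A T) :=
    Finite.of_injective (fun f => (f : T → T)) DFunLike.coe_injective
  let _ : Field (Module.End A T) := littleWedderburn (Module.End A T)
  have : Nontrivial T := IsSimpleModule.nontrivial A T
  obtain ⟨b, hb⟩ := exists_trace_ne_zero k (Module.End A T) T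
  refine ⟨b.restrictScalars k, fun ε t => ?_, hb⟩
  exact b.map_smul ε t

section

variable (k A : Type*) [Field k] [Finite k] [Ring A] [Algebra k A]
  {ι : Type*} [Finite ι] (T : ι → Type*) [∀ i, AddCommGroup (T i)] [∀ i, Module k (T i)]
  [∀ i, Module A (T i)] [∀ i, IsScalarTower k A (T i)] [∀ i, Module.Finite k (T i)]
  [∀ i, IsSimpleModule A (T i)]

/-- **Density.**  Given finitely many simple modules, pairwise without nonzero homomorphisms, over
an algebra over a finite field, for every index `i0` some element of the algebra kills all the
other modules and has nonzero trace on `T i0`. -/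
theorem exists_smul_trace (hT : ∀ i j, i ≠ j → ∀ f : T i →ₗ[A] T j, f = 0) (i0 : ι) :
    ∃ a : A, (∀ i, i ≠ i0 → ∀ t : T i, a • t = 0) ∧
      LinearMap.trace k (T i0) (DistribSMul.toLinearMap k (T i0) a) ≠ 0 := by
  classical
  obtain ⟨b, hb, hbtr⟩ := exists_commuting_trace_ne_zero k A (T i0)
  have hfin : ∀ i, Finite (T i) := fun i => Module.finite_of_finite k
  -- the key identities for an endomorphism of the product
  have hcomp : ∀ (ε : Module.End A (Π i, T i)) (i j : ι), i ≠ j → ∀ w : T j,
      ε (Pi.single j w) i = 0 := by
    intro ε i j hij w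
    have := hT j i (Ne.symm hij) ((LinearMap.proj i) ∘ₗ ε ∘ₗ (LinearMap.single A T j))
    exact congrArg (fun f => f w) this
  have hdiag : ∀ (ε : Module.End A (Π i, T i)) (v : Π i, T i),
      ε v i0 = ε (Pi.single i0 (v i0)) i0 := by
    intro ε v
    cases nonempty_fintype ι
    conv_lhs => rw [← Finset.univ_sum_single v]
    rw [map_sum, Finset.sum_apply, Finset.sum_eq_single i0]
    · intro j _ hj
      exact hcomp ε i0 j (Ne.symm hj) _
    · intro h; exact absurd (Finset.mem_univ _) h
  let f : Module.End (Module.End A (Π i, T i)) (Π i, T i) :=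
    { toFun := fun v => Pi.single i0 (b (v i0))
      map_add' := fun v w => by simp [Pi.single_add]
      map_smul' := fun ε v => by
        simp only [RingHom.id_apply, Module.End.smul_def]
        funext i
        by_cases hi : i = i0
        · subst hi
          simp only [Pi.single_eq_same]
          rw [hdiag ε v, hdiag ε (Pi.single i (b (v i)))]
          simp only [Pi.single_eq_same]
          have := hb ((LinearMap.proj i) ∘ₗ ε ∘ₗ (LinearMap.single A T i)) (v i)
          simpa using this
        · rw [Pi.single_eq_of_ne hi, hcomp ε i i0 hi] }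
  have : Finite (Π i, T i) := Pi.finite
  cases nonempty_fintype (Π i, T i)
  obtain ⟨a, ha⟩ := jacobson_density f Finset.univ
  refine ⟨a, fun i hi t => ?_, ?_⟩
  · have h1 := ha (Pi.single i t) (Finset.mem_univ _)
    have h2 := congrFun h1 i
    simp only [f, LinearMap.coe_mk, AddHom.coe_mk, Pi.smul_apply, Pi.single_eq_same] at h2
    rw [← h2, Pi.single_eq_of_ne hi]
  · have : DistribSMul.toLinearMap k (T i0) a = b := by
      ext t
      have h1 := ha (Pi.single i0 t) (Finset.mem_univ _)
      have h2 := congrFun h1 i0
      simp only [f, LinearMap.coe_mk, AddHom.coe_mk, Pi.smul_apply, Pi.single_eq_same] at h2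
      rw [DistribSMul.toLinearMap_apply, h2]
    rw [this]
    exact hbtr

/-- **Linear independence of traces.**  If a `k`-linear combination of the trace functions of
finitely many simple modules, pairwise without nonzero homomorphisms, vanishes on the whole
algebra, then all coefficients vanish. -/
theorem trace_linearIndependent [Fintype ι]
    (hT : ∀ i j, i ≠ j → ∀ f : T i →ₗ[A] T j, f = 0) (d : ι → k)
    (h : ∀ a : A, ∑ i, d i * LinearMap.trace k (T i) (DistribSMul.toLinearMap k (T i) a) = 0)
    (i0 : ι) : d i0 = 0 := by
  obtain ⟨a, ha0, hatr⟩ := exists_smul_trace k A T hT i0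
  have h1 := h a
  rw [Finset.sum_eq_single i0] at h1
  · exact (mul_eq_zero.mp h1).resolve_right hatr
  · intro i _ hi
    have : DistribSMul.toLinearMap k (T i) a = 0 := by
      ext t
      rw [DistribSMul.toLinearMap_apply, ha0 i hi t, LinearMap.zero_apply]
    rw [this, map_zero, mul_zero]
  · intro h; exact absurd (Finset.mem_univ _) h

omit [Finite ι] in
/-- Pairwise non-isomorphic simple modules have no nonzero homomorphisms between them (Schur). -/
theorem hom_eq_zero_of_not_iso (hT : ∀ i j, i ≠ j → IsEmpty (T i ≃ₗ[A] T j)) :
    ∀ i j, i ≠ j → ∀ f : T i →ₗ[A] T j, f = 0 := by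
  intro i j hij f
  by_contra hf
  exact (hT i j hij).false (LinearEquiv.ofBijective f (LinearMap.bijective_of_ne_zero hf))

end

end Fermat.Agent.TW.GLOB.TraceDensity9
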