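/-
Programme T, chapter GLOB, task G3 (IND), brick 3: a Brauer–Nesbitt type independence statement.

`k` a finite field of characteristic `p`, `G` a finite group, `N` the `p'`-part of `|G|`, `K` an
extension field of `k` containing a primitive `N`-th root of unity `ξ`.  For a representation `ρ`
of `G` over `k`, `mult K ξ ρ g l` is the dimension of the `ξ ^ l`-eigenspace of `ρ g` on `K ⊗ V`.
These functions are additive in short exact sequences (`mult_of_exact`, for `p`-regular `g`),
isomorphism invariant (`mult_of_equiv`), compute the trace (`algebraMap_trace_eq`), and the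
multiplicity functions of pairwise non-isomorphic simple `k[G]`-modules are ℤ-linearly
independent (`brauer_li`).  Mathlib + TraceDensity9 + EigenMult9.
-/
import Mathlib
import Fermat.Agent.TW.GLOB.EigenMult9
import Fermat.Agent.TW.GLOB.TraceDensity9

namespace Fermat.Agent.TW.GLOB.BrauerLI9

open Module TensorProduct
open Fermat.Agent.TW.GLOB.EigenMult9 Fermat.Agent.TW.GLOB.TraceDensity9

section mult

variable {k : Type*} [Field k] (K : Type*) [Field K] [Algebra k K] {G : Type*} [Group G]

/-- Geometric multiplicity of the eigenvalue `ξ ^ l` of `ρ g` after base change to `K`. -/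
noncomputable def mult (ξ : K) {V : Type*} [AddCommGroup V] [Module k V]
    (ρ : Representation k G V) (g : G) (l : ℕ) : ℕ :=
  finrank K (Module.End.eigenspace ((ρ g).baseChange K) (ξ ^ l))

variable {K}

theorem baseChange_pow_eq_one {V : Type*} [AddCommGroup V] [Module k V]
    (ρ : Representation k G V) {g : G} {N : ℕ} (hg : g ^ N = 1) :
    ((ρ g).baseChange K) ^ N = 1 := by
  rw [← LinearMap.baseChange_pow, ← map_pow, hg, map_one, LinearMap.baseChange_one]

/-- The multiplicities are additive in short exact sequences (at elements of order dividing `N`,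
`N` invertible). -/
theorem mult_of_exact {N : ℕ} (hN : (N : K) ≠ 0) {ξ : K} (hξ : ξ ^ N = 1)
    {V₁ V₂ V₃ : Type*} [AddCommGroup V₁] [Module k V₁] [AddCommGroup V₂] [Module k V₂]
    [AddCommGroup V₃] [Module k V₃] [Module.Finite k V₂]
    (ρ₁ : Representation k G V₁) (ρ₂ : Representation k G V₂) (ρ₃ : Representation k G V₃)
    (i : V₁ →ₗ[k] V₂) (q : V₂ →ₗ[k] V₃)
    (hi : ∀ g v, i (ρ₁ g v) = ρ₂ g (i v)) (hq : ∀ g v, q (ρ₂ g v) = ρ₃ g (q v))
    (hinj : Function.Injective i) (hex : Function.Exact i q) (hsurj : Function.Surjective q)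
    {g : G} (hg : g ^ N = 1) (l : ℕ) :
    mult K ξ ρ₂ g l = mult K ξ ρ₁ g l + mult K ξ ρ₃ g l := by
  have hζ : (ξ ^ l) ^ N = 1 := by rw [← pow_mul, mul_comm, pow_mul, hξ, one_pow]
  refine finrank_eigenspace_of_exact hN hζ _ _ _ (baseChange_pow_eq_one ρ₂ hg)
    (i.baseChange K) (q.baseChange K) ?_ ?_ ?_ ?_ ?_
  · intro v
    have : (i.baseChange K) ∘ₗ ((ρ₁ g).baseChange K)
        = ((ρ₂ g).baseChange K) ∘ₗ (i.baseChange K) := by
      rw [← LinearMap.baseChange_comp, ← LinearMap.baseChange_comp]
      congr 1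
      ext v
      exact hi g v
    exact LinearMap.congr_fun this v
  · intro v
    have : (q.baseChange K) ∘ₗ ((ρ₂ g).baseChange K)
        = ((ρ₃ g).baseChange K) ∘ₗ (q.baseChange K) := by
      rw [← LinearMap.baseChange_comp, ← LinearMap.baseChange_comp]
      congr 1
      ext v
      exact hq g v
    exact LinearMap.congr_fun this v
  · exact Module.Flat.lTensor_preserves_injective_linearMap (M := K) i hinj
  · exact Module.Flat.lTensor_exact K hex
  · exact LinearMap.lTensor_surjective K hsurj

/-- The multiplicities are invariant under equivariant isomorphisms. -/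
theorem mult_of_equiv (ξ : K) {V₁ V₂ : Type*} [AddCommGroup V₁] [Module k V₁] [AddCommGroup V₂]
    [Module k V₂] (ρ₁ : Representation k G V₁) (ρ₂ : Representation k G V₂) (e : V₁ ≃ₗ[k] V₂)
    (he : ∀ g v, e (ρ₁ g v) = ρ₂ g (e v)) (g : G) (l : ℕ) :
    mult K ξ ρ₁ g l = mult K ξ ρ₂ g l := by
  refine finrank_eigenspace_of_equiv _ _ _ (e.baseChange k K V₁ V₂) ?_
  intro v
  have : (e.toLinearMap.baseChange K) ∘ₗ ((ρ₁ g).baseChange K)
      = ((ρ₂ g).baseChange K) ∘ₗ (e.toLinearMap.baseChange K) := by
    rw [← LinearMap.baseChange_comp, ← LinearMap.baseChange_comp]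
    congr 1
    ext v
    exact he g v
  exact LinearMap.congr_fun this v

/-- The trace of `ρ g` is the sum of the eigenvalues counted with multiplicities. -/
theorem algebraMap_trace_eq {N : ℕ} (hN : (N : K) ≠ 0) {ξ : K} (hξ : IsPrimitiveRoot ξ N)
    {V : Type*} [AddCommGroup V] [Module k V] [Module.Finite k V] (ρ : Representation k G V)
    {g : G} (hg : g ^ N = 1) :
    algebraMap k K (LinearMap.trace k V (ρ g)) =
      ∑ l ∈ Finset.range N, (mult K ξ ρ g l : K) * ξ ^ l := by
  rw [← LinearMap.trace_baseChange, trace_eq_sum_eigen hN hξ (baseChange_pow_eq_one ρ hg)]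
  rfl

end mult

section li

/-- If every solution `d` of a system `S` (closed under division by `p`) has all
coordinates divisible by `p`, then the only solution is zero. -/
theorem eq_zero_of_forall_dvd {ι : Type*} {p : ℕ} (hp : 1 < p) (S : (ι → ℤ) → Prop)
    (hdiv : ∀ d, S d → ∀ i, (p : ℤ) ∣ d i)
    (hquot : ∀ d d' : ι → ℤ, (∀ i, d i = (p : ℤ) * d' i) → S d → S d')
    (d : ι → ℤ) (hd : S d) : ∀ i, d i = 0 := by
  have key : ∀ m : ℕ, ∀ d, S d → ∀ i, (p : ℤ) ^ m ∣ d i := by
    intro m
    induction m with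
    | zero => intro d _ i; simp
    | succ m ih =>
      intro d hd i
      choose d' hd' using hdiv d hd
      have := ih d' (hquot d d' hd' hd) i
      rw [hd' i, pow_succ, mul_comm]
      exact mul_dvd_mul_left _ this
  intro i
  by_contra hne
  have h1 := key (d i).natAbs d hd i
  have h2 : (p : ℤ) ^ (d i).natAbs ≤ |d i| :=
    Int.le_of_dvd (abs_pos.mpr hne) ((dvd_abs _ _).mpr h1)
  have h3 : ((d i).natAbs : ℤ) < (p : ℤ) ^ (d i).natAbs := by
    exact_mod_cast Nat.lt_pow_self hp
  rw [Int.abs_eq_natAbs] at h2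
  omega

variable {k : Type*} [Field k] [Finite k] {K : Type*} [Field K] [Algebra k K] {G : Type*} [Group G]
  [Finite G]

/-- Step A: a relation between the multiplicity functions of pairwise non-isomorphic simple
modules has all coefficients divisible by `p`. -/
theorem dvd_of_mult_relation (p : ℕ) [Fact p.Prime] [CharP k p] {ξ : K}
    (hξ : IsPrimitiveRoot ξ (ordCompl[p] (Nat.card G)))
    {ι : Type*} [Fintype ι] (V : ι → Type*) [∀ i, AddCommGroup (V i)] [∀ i, Module k (V i)]
    [∀ i, Module.Finite k (V i)] (ρ : ∀ i, Representation k G (V i))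
    (hs : ∀ i, IsSimpleModule (MonoidAlgebra k G) (ρ i).asModule)
    (hne : ∀ i j, i ≠ j → ∀ f : (ρ i).asModule →ₗ[MonoidAlgebra k G] (ρ j).asModule, f = 0)
    (d : ι → ℤ)
    (h : ∀ g : G, g ^ (ordCompl[p] (Nat.card G)) = 1 → ∀ l < ordCompl[p] (Nat.card G),
      ∑ i, d i * (mult K ξ (ρ i) g l : ℤ) = 0) (i0 : ι) : (p : ℤ) ∣ d i0 := by
  classical
  set N := ordCompl[p] (Nat.card G) with hNdef
  have hN0 : N ≠ 0 := (Nat.ordCompl_pos p Nat.card_pos.ne').ne'
  have : NeZero N := ⟨hN0⟩
  have hNK : (N : K) ≠ 0 := (hξ.neZero').ne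
  -- traces vanish on p-regular elements
  have h1 : ∀ g : G, g ^ N = 1 → ∑ i, (d i : k) * LinearMap.trace k (V i) (ρ i g) = 0 := by
    intro g hg
    apply (algebraMap k K).injective
    rw [map_sum, map_zero]
    simp_rw [map_mul, map_intCast, algebraMap_trace_eq hNK hξ (ρ _) hg, Finset.mul_sum]
    rw [Finset.sum_comm]
    apply Finset.sum_eq_zero
    intro l hl
    have := h g hg l (Finset.mem_range.mp hl)
    have h2 := congrArg (fun z : ℤ => (z : K) * ξ ^ l) this
    simp only [Int.cast_sum, Int.cast_mul, Int.cast_natCast, Int.cast_zero, zero_mul,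
      Finset.sum_mul] at h2
    rw [← h2]
    refine Finset.sum_congr rfl fun i _ => ?_
    ring
  -- traces vanish on all elements
  obtain ⟨e, he⟩ := exists_pRegular_exponent p G
  have h2 : ∀ g : G, ∑ i, (d i : k) * LinearMap.trace k (V i) (ρ i g) = 0 := by
    intro g
    have := h1 (g ^ e) (he g).1
    rw [← this]
    refine Finset.sum_congr rfl fun i _ => ?_
    rw [(he g).2 k (V i) (ρ i)]
  -- hence on the whole group algebra
  have h3 : ∀ a : MonoidAlgebra k G,
      ∑ i, (d i : k) * LinearMap.trace k (V i) ((ρ i).asAlgebraHom a) = 0 := by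
    intro a
    induction a using MonoidAlgebra.induction_linear with
    | zero => simp
    | add x y hx hy =>
      simp only [map_add, mul_add, Finset.sum_add_distrib, hx, hy, add_zero]
    | single g c =>
      simp only [Representation.asAlgebraHom_single, map_smul, smul_eq_mul]
      have := congrArg (fun z => c * z) (h2 g)
      simp only [Finset.mul_sum, mul_zero] at this
      rw [← this]
      refine Finset.sum_congr rfl fun i _ => ?_
      ring
  have h4 := trace_linearIndependent k (MonoidAlgebra k G) (fun i => (ρ i).asModule) hne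
    (fun i => (d i : k)) (fun a => h3 a) i0
  exact (CharP.intCast_eq_zero_iff k p (d i0)).mp h4

/-- **Brauer–Nesbitt independence.**  The multiplicity functions of pairwise non-isomorphic simple
`k[G]`-modules (`k` a finite field of characteristic `p`) are linearly independent over `ℤ`. -/
theorem brauer_li (p : ℕ) [Fact p.Prime] [CharP k p] {ξ : K}
    (hξ : IsPrimitiveRoot ξ (ordCompl[p] (Nat.card G)))
    {ι : Type*} [Fintype ι] (V : ι → Type*) [∀ i, AddCommGroup (V i)] [∀ i, Module k (V i)]
    [∀ i, Module.Finite k (V i)] (ρ : ∀ i, Representation k G (V i))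
    (hs : ∀ i, IsSimpleModule (MonoidAlgebra k G) (ρ i).asModule)
    (hne : ∀ i j, i ≠ j → ∀ f : (ρ i).asModule →ₗ[MonoidAlgebra k G] (ρ j).asModule, f = 0)
    (d : ι → ℤ)
    (h : ∀ g : G, g ^ (ordCompl[p] (Nat.card G)) = 1 → ∀ l < ordCompl[p] (Nat.card G),
      ∑ i, d i * (mult K ξ (ρ i) g l : ℤ) = 0) : ∀ i, d i = 0 := by
  have hp : p.Prime := Fact.out
  refine eq_zero_of_forall_dvd hp.one_lt
    (fun d => ∀ g : G, g ^ (ordCompl[p] (Nat.card G)) = 1 → ∀ l < ordCompl[p] (Nat.card G),
      ∑ i, d i * (mult K ξ (ρ i) g l : ℤ) = 0) ?_ ?_ d h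
  · intro d hd i
    exact dvd_of_mult_relation p hξ V ρ hs hne d hd i
  · intro d d' hdd' hd g hg l hl
    have := hd g hg l hl
    simp_rw [hdd', mul_assoc] at this
    rw [← Finset.mul_sum] at this
    exact (mul_eq_zero.mp this).resolve_left (by exact_mod_cast hp.ne_zero)

end li

end Fermat.Agent.TW.GLOB.BrauerLI9
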