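/-
Programme T, chapter GLOB, task G3 (IND), brick 5: the representations `M ⊗ k[X]` and the orbit
formula for their eigenvalue multiplicities.

For a representation `ρ` of `G` on `M` and a finite `G`-set `X`, `permTwist ρ X` is the
representation on `X → M` given by `(g · F) x = ρ g (F (g⁻¹ • x))`.  For `h : G` (all of whose
periods on `X` are positive) the `ζ`-eigenspace of `h` on `X → M` is described orbit by orbit
(`evalRep_bijective`): it is `∏_ω ker ((ζ⁻¹ ρ h) ^ |ω| - 1)`, `ω` running over the orbits of `⟨h⟩`.
Summing over points instead of orbits (`sum_orbits_eq`) gives `mult_permTwist`: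
`mult K ξ (permTwist ρ X) h l = ∑ x, dim ker ((ξ^-l ρ h)^(per x) - 1) / per x`.
Mathlib + EigenMult9 + BrauerLI9.
-/
import Mathlib
import Fermat.Agent.TW.GLOB.EigenMult9
import Fermat.Agent.TW.GLOB.BrauerLI9

namespace Fermat.Agent.TW.GLOB.PermTwist9

open Module TensorProduct
open Fermat.Agent.TW.GLOB.EigenMult9 Fermat.Agent.TW.GLOB.BrauerLI9

section orbits

variable {G : Type*} [Group G] {X : Type*} [MulAction G X]

/-- The orbit relation of the cyclic group generated by `h`. -/
def cyc (h : G) : Setoid X where
  r x y := ∃ j : ℤ, h ^ j • x = y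
  iseqv :=
    ⟨fun x => ⟨0, by simp⟩,
     fun {x y} ⟨j, hj⟩ => ⟨-j, by rw [← hj, smul_smul, ← zpow_add]; simp⟩,
     fun {x y z} ⟨i, hi⟩ ⟨j, hj⟩ => ⟨j + i, by rw [← hj, ← hi, smul_smul, ← zpow_add]⟩⟩

/-- The chosen representative of the orbit of `x`. -/
noncomputable def rep (h : G) (x : X) : X := (Quotient.mk (cyc h) x).out

theorem rep_eq_of_rel (h : G) {x y : X} (hxy : (cyc h).r x y) : rep h x = rep h y := by
  unfold rep
  rw [Quotient.sound (s := cyc h) hxy]

theorem rep_smul (h : G) (x : X) : rep h (h • x) = rep h x :=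
  rep_eq_of_rel h ⟨-1, by simp⟩

theorem period_pow_smul (h : G) (j : ℕ) (x : X) :
    MulAction.period h (h ^ j • x) = MulAction.period h x := by
  have key : ∀ n : ℕ, h ^ n • (h ^ j • x) = h ^ j • x ↔ h ^ n • x = x := by
    intro n
    rw [smul_smul, ← pow_add, add_comm, pow_add, ← smul_smul]
    exact smul_left_cancel_iff _
  apply Nat.dvd_antisymm
  · rw [← MulAction.pow_smul_eq_iff_period_dvd, key]
    exact MulAction.pow_period_smul h x
  · rw [← MulAction.pow_smul_eq_iff_period_dvd, ← key]
    exact MulAction.pow_period_smul h _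

/-- Natural-number exponents suffice when periods are positive. -/
theorem exists_pow_smul_rep (h : G) (hper : ∀ x : X, 0 < MulAction.period h x) (x : X) :
    ∃ j : ℕ, h ^ j • rep h x = x := by
  obtain ⟨j, hj⟩ : (cyc h).r (rep h x) x := Quotient.mk_out (s := cyc h) x
  have hpos : (0 : ℤ) < MulAction.period h (rep h x) := by exact_mod_cast hper _
  refine ⟨(j % (MulAction.period h (rep h x) : ℤ)).toNat, ?_⟩
  rw [← zpow_natCast, Int.toNat_of_nonneg (Int.emod_nonneg _ hpos.ne'),
    MulAction.zpow_mod_period_smul, hj]

theorem period_rep (h : G) (hper : ∀ x : X, 0 < MulAction.period h x) (x : X) :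
    MulAction.period h (rep h x) = MulAction.period h x := by
  obtain ⟨j, hj⟩ := exists_pow_smul_rep h hper x
  conv_rhs => rw [← hj]
  rw [period_pow_smul]

theorem pow_smul_eq_pow_smul_iff (h : G) (x : X) (a b : ℕ) :
    h ^ a • x = h ^ b • x ↔ a ≡ b [MOD MulAction.period h x] := by
  rw [Nat.modEq_iff_dvd, ← MulAction.zpow_smul_eq_iff_period_dvd,
    show ((b : ℤ) - a) = -(a : ℤ) + b by ring, zpow_add, zpow_neg, ← smul_smul,
    zpow_natCast, zpow_natCast, inv_smul_eq_iff, eq_comm]

/-- The orbit of `ω.out` has exactly `period` elements. -/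
theorem card_fiber [Fintype X] [DecidableEq X] (h : G) (hper : ∀ x : X, 0 < MulAction.period h x)
    (ω : Quotient (cyc (X := X) h))
    [DecidablePred fun x : X => Quotient.mk (cyc h) x = ω] :
    (Finset.univ.filter (fun x : X => Quotient.mk (cyc h) x = ω)).card
      = MulAction.period h ω.out := by
  have hω : Quotient.mk (cyc h) ω.out = ω := Quotient.out_eq ω
  have himg : Finset.univ.filter (fun x : X => Quotient.mk (cyc h) x = ω)
      = (Finset.range (MulAction.period h ω.out)).image (fun j => h ^ j • ω.out) := by
    ext x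
    simp only [Finset.mem_filter, Finset.mem_univ, true_and, Finset.mem_image, Finset.mem_range]
    constructor
    · intro hx
      obtain ⟨j, hj⟩ := exists_pow_smul_rep h hper x
      have hr : rep h x = ω.out := by unfold rep; rw [hx]
      rw [hr] at hj
      refine ⟨j % MulAction.period h ω.out, Nat.mod_lt _ (hper _), ?_⟩
      rw [MulAction.pow_mod_period_smul, hj]
    · rintro ⟨j, _, rfl⟩
      rw [← hω]
      exact Quotient.sound (s := cyc h) ⟨-(j : ℤ), by
        rw [hω, ← zpow_natCast, smul_smul, ← zpow_add]; simp⟩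
  rw [himg, Finset.card_image_of_injOn, Finset.card_range]
  intro i hi j hj hij
  have := (pow_smul_eq_pow_smul_iff h ω.out i j).mp hij
  rw [Finset.coe_range, Set.mem_Iio] at hi hj
  exact Nat.ModEq.eq_of_lt_of_lt this hi hj

/-- **Orbit counting.**  A sum over the orbits of `⟨h⟩` of a function of the orbit size equals the
sum over the points of the function of the period divided by the period. -/
theorem sum_orbits_eq [Fintype X] (h : G) [Fintype (Quotient (cyc (X := X) h))]
    (hper : ∀ x : X, 0 < MulAction.period h x) (D : ℕ → ℚ) :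
    ∑ ω : Quotient (cyc (X := X) h), D (MulAction.period h ω.out)
      = ∑ x : X, D (MulAction.period h x) / MulAction.period h x := by
  classical
  rw [← Finset.sum_fiberwise Finset.univ (fun x : X => Quotient.mk (cyc h) x)]
  refine Finset.sum_congr rfl fun ω _ => ?_
  have h1 : ∀ x ∈ Finset.univ.filter (fun x : X => Quotient.mk (cyc h) x = ω),
      D (MulAction.period h x) / MulAction.period h x
        = D (MulAction.period h ω.out) / MulAction.period h ω.out := by
    intro x hx
    rw [Finset.mem_filter] at hx
    have hr : rep h x = ω.out := by unfold rep; rw [hx.2]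
    rw [← period_rep h hper x, hr]
  rw [Finset.sum_congr rfl h1, Finset.sum_const, card_fiber h hper ω, nsmul_eq_mul]
  have hpos : (MulAction.period h ω.out : ℚ) ≠ 0 := by exact_mod_cast (hper _).ne'
  field_simp

end orbits

section fix

variable {K : Type*} [Field K] {M : Type*} [AddCommGroup M] [Module K M]
variable {G : Type*} [Group G] {X : Type*} [MulAction G X]

/-- The space of functions `F : X → M` with `F (h • x) = w (F x)`. -/
def twFix (h : G) (w : Module.End K M) : Submodule K (X → M) where
  carrier := {F | ∀ x, F (h • x) = w (F x)}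
  add_mem' := by intro F F' hF hF' x; simp [hF x, hF' x]
  zero_mem' := by intro x; simp
  smul_mem' := by intro c F hF x; simp [hF x]

theorem mem_twFix {h : G} {w : Module.End K M} {F : X → M} :
    F ∈ twFix h w ↔ ∀ x, F (h • x) = w (F x) := Iff.rfl

theorem twFix_pow {h : G} {w : Module.End K M} {F : X → M} (hF : F ∈ twFix h w) (j : ℕ) (x : X) :
    F (h ^ j • x) = (w ^ j) (F x) := by
  induction j with
  | zero => simp
  | succ j ih => rw [pow_succ', mul_smul, hF, ih, pow_succ', Module.End.mul_apply]

theorem pow_apply_mod {w : Module.End K M} {s : ℕ} {m : M} (hm : (w ^ s) m = m) (a : ℕ) :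
    (w ^ a) m = (w ^ (a % s)) m := by
  conv_lhs => rw [← Nat.mod_add_div a s, pow_add, Module.End.mul_apply, pow_mul]
  congr 1
  induction a / s with
  | zero => simp
  | succ t ih => rw [pow_succ, Module.End.mul_apply, hm, ih]

theorem pow_apply_of_modEq {w : Module.End K M} {s : ℕ} {m : M} (hm : (w ^ s) m = m) {a b : ℕ}
    (hab : a ≡ b [MOD s]) : (w ^ a) m = (w ^ b) m := by
  rw [pow_apply_mod hm a, pow_apply_mod hm b, hab]

theorem mem_ker_pow_sub_one {w : Module.End K M} {s : ℕ} {m : M} :
    m ∈ LinearMap.ker (w ^ s - 1) ↔ (w ^ s) m = m := by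
  rw [LinearMap.mem_ker, LinearMap.sub_apply, Module.End.one_apply, sub_eq_zero]

/-- Evaluation at the orbit representatives. -/
noncomputable def evalRep (h : G) (w : Module.End K M) :
    twFix (X := X) h w →ₗ[K]
      Π ω : Quotient (cyc (X := X) h), LinearMap.ker (w ^ (MulAction.period h ω.out) - 1) where
  toFun F := fun ω => ⟨F.1 ω.out, by
    rw [mem_ker_pow_sub_one, ← twFix_pow F.2, MulAction.pow_period_smul]⟩
  map_add' F F' := by ext ω; rfl
  map_smul' c F := by ext ω; rfl

/-- A twisted-equivariant function is determined by its values at the orbit representatives,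
which can be prescribed arbitrarily in `ker (w ^ |ω| - 1)`. -/
theorem evalRep_bijective (h : G) (hper : ∀ x : X, 0 < MulAction.period h x)
    (w : Module.End K M) : Function.Bijective (evalRep (X := X) h w) := by
  constructor
  · intro F F' hFF'
    apply Subtype.ext
    funext x
    obtain ⟨j, hj⟩ := exists_pow_smul_rep h hper x
    have h1 : F.1 (rep h x) = F'.1 (rep h x) :=
      congrArg Subtype.val (congrFun hFF' (Quotient.mk (cyc h) x))
    rw [← hj, twFix_pow F.2, twFix_pow F'.2, h1]
  · intro m
    choose expo hexpo using exists_pow_smul_rep h hper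
    -- the value at the class of x, as an element of M
    let mv : Quotient (cyc (X := X) h) → M := fun ω => (m ω : M)
    have hmv : ∀ ω, (w ^ (MulAction.period h ω.out)) (mv ω) = mv ω := fun ω =>
      mem_ker_pow_sub_one.mp (m ω).2
    let F : X → M := fun x => (w ^ expo x) (mv (Quotient.mk (cyc h) x))
    have hq : ∀ x : X, Quotient.mk (cyc h) (h • x) = Quotient.mk (cyc h) x := fun x =>
      Quotient.sound (s := cyc h) ⟨-1, by simp⟩
    have hF : F ∈ twFix h w := by
      intro x
      simp only [F]
      rw [hq x, ← Module.End.mul_apply, ← pow_succ']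
      apply pow_apply_of_modEq (hmv _)
      rw [← pow_smul_eq_pow_smul_iff h]
      have h1 := hexpo (h • x)
      rw [rep_smul] at h1
      change h ^ expo (h • x) • rep h x = h ^ (expo x + 1) • rep h x
      rw [h1, pow_succ', mul_smul, hexpo x]
    refine ⟨⟨F, hF⟩, ?_⟩
    funext ω
    apply Subtype.ext
    change F ω.out = mv ω
    simp only [F]
    have hω : Quotient.mk (cyc h) ω.out = ω := Quotient.out_eq ω
    have h1 := hexpo ω.out
    have h2 : rep h ω.out = ω.out := by unfold rep; rw [hω]
    rw [h2] at h1
    rw [hω]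
    have h3 : expo ω.out ≡ 0 [MOD MulAction.period h ω.out] := by
      rw [← pow_smul_eq_pow_smul_iff h, h1, pow_zero, one_smul]
    rw [pow_apply_of_modEq (hmv ω) h3, pow_zero, Module.End.one_apply]

/-- **Orbit formula.**  The dimension of the twisted fixed space, as a sum over the points of
`X`. -/
theorem finrank_twFix [Fintype X] [Module.Finite K M] (h : G)
    (hper : ∀ x : X, 0 < MulAction.period h x) (w : Module.End K M) :
    (finrank K (twFix (X := X) h w) : ℚ) =
      ∑ x : X, (finrank K (LinearMap.ker (w ^ (MulAction.period h x) - 1)) : ℚ)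
        / MulAction.period h x := by
  classical
  cases nonempty_fintype (Quotient (cyc (X := X) h))
  rw [LinearEquiv.finrank_eq (LinearEquiv.ofBijective _ (evalRep_bijective h hper w)),
    Module.finrank_pi_fintype, Nat.cast_sum]
  exact sum_orbits_eq h hper (fun s => (finrank K (LinearMap.ker (w ^ s - 1)) : ℚ))

/-- The twisted permutation operator `F ↦ T ∘ F ∘ h⁻¹` on `X → M`. -/
def twOp (T : Module.End K M) (h : G) : Module.End K (X → M) :=
  T.compLeft X ∘ₗ LinearMap.funLeft K M (fun x => h⁻¹ • x)

@[simp] theorem twOp_apply (T : Module.End K M) (h : G) (F : X → M) (x : X) :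
    twOp T h F x = T (F (h⁻¹ • x)) := rfl

theorem eigenspace_twOp (T : Module.End K M) (h : G) {ζ : K} (hζ : ζ ≠ 0) :
    Module.End.eigenspace (twOp (X := X) T h) ζ = twFix h (ζ⁻¹ • T) := by
  ext F
  rw [Module.End.mem_eigenspace_iff]
  constructor
  · intro hF x
    have := congrFun hF (h • x)
    rw [twOp_apply, inv_smul_smul, Pi.smul_apply] at this
    rw [LinearMap.smul_apply, this, smul_smul, inv_mul_cancel₀ hζ, one_smul]
  · intro hF
    funext x
    have := hF (h⁻¹ • x)
    rw [smul_inv_smul, LinearMap.smul_apply] at this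
    rw [twOp_apply, Pi.smul_apply, this, smul_smul, mul_inv_cancel₀ hζ, one_smul]

end fix

section permTwist

variable {k : Type*} [Field k] {G : Type*} [Group G] {M : Type*} [AddCommGroup M] [Module k M]

/-- The representation on `X → M` with `(g · F) x = ρ g (F (g⁻¹ • x))` (this is `M ⊗ k[X]`). -/
def permTwist (ρ : Representation k G M) (X : Type*) [MulAction G X] :
    Representation k G (X → M) where
  toFun g := twOp (ρ g) g
  map_one' := by ext F x; simp
  map_mul' g g' := by ext F x; simp [mul_smul]

@[simp] theorem permTwist_apply (ρ : Representation k G M) (X : Type*) [MulAction G X] (g : G)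
    (F : X → M) (x : X) : permTwist ρ X g F x = ρ g (F (g⁻¹ • x)) := rfl

variable (K : Type*) [Field K] [Algebra k K]

/-- Base change commutes with the twisted permutation operator. -/
theorem piRight_twOp {X : Type*} [MulAction G X] [Fintype X] [DecidableEq X]
    (T : Module.End k M) (h : G) (v : K ⊗[k] (X → M)) :
    piRight k K K (fun _ : X => M) ((twOp T h).baseChange K v)
      = twOp (T.baseChange K) h (piRight k K K (fun _ : X => M) v) := by
  induction v using TensorProduct.induction_on with
  | zero => simp
  | tmul c F =>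
    funext x
    simp
  | add v v' hv hv' => simp only [map_add, hv, hv']

variable {K}

/-- **The multiplicities of `M ⊗ k[X]`**, as a sum over the points of `X`. -/
theorem mult_permTwist {X : Type*} [MulAction G X] [Fintype X] [Module.Finite k M]
    (ρ : Representation k G M) (h : G) (hper : ∀ x : X, 0 < MulAction.period h x) (ξ : K) (l : ℕ)
    (hξ : ξ ^ l ≠ 0) :
    (mult K ξ (permTwist ρ X) h l : ℚ) =
      ∑ x : X, (finrank K (LinearMap.ker
        (((ξ ^ l)⁻¹ • (ρ h).baseChange K) ^ (MulAction.period h x) - 1)) : ℚ)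
          / MulAction.period h x := by
  classical
  rw [← finrank_twFix h hper, ← eigenspace_twOp _ h hξ]
  congr 1
  exact finrank_eigenspace_of_equiv (ξ ^ l) _ _ (piRight k K K (fun _ : X => M))
    (piRight_twOp K (ρ h) h)

/-- The term of a fixed point of `h` in `mult_permTwist` is the multiplicity for `ρ` itself. -/
theorem finrank_ker_pow_one (ρ : Representation k G M) (h : G) (ξ : K) (l : ℕ) (hξ : ξ ^ l ≠ 0) :
    finrank K (LinearMap.ker (((ξ ^ l)⁻¹ • (ρ h).baseChange K) ^ 1 - 1)) = mult K ξ ρ h l := by
  rw [pow_one, ker_smul_sub_one hξ]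
  rfl

end permTwist

end Fermat.Agent.TW.GLOB.PermTwist9
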