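/-
Programme T, chapter GLOB, task G3 (IND), final brick: THE INDUCTION THEOREM for additive
functions on finite-dimensional modular representations.

`inductionPrinciple : InductionPrinciple p k G A` (statement in `IndDefs9`): `k` a finite field of
characteristic `p`, `G` a finite group, `A` a torsion-free abelian group.  An additive invariant
of finite-dimensional `k[G]`-modules which vanishes on all representations coinduced from cyclic
subgroups of order prime to `p` vanishes identically.

Proof: for `K ≤ G` the coinduction of `ρ|_K` is `M ⊗ k[G/K]` (`coindEquiv`); with Artin's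
coefficients `c K` (`ArtinCount9`) the eigenvalue multiplicities of `⨁ c K • (M ⊗ k[G/K])` and of
`|G| • M` agree at all `p`-regular elements (`PermTwist9.mult_permTwist`), over the cyclotomic
extension of `k` generated by the `N`-th roots of unity, `N` the `p'`-part of `|G|`; hence any
additive invariant takes the same value on both (`AddInv9.sum_smul_eq_zero_of_mult`, which rests on
Jordan–Hölder and the Brauer–Nesbitt independence `BrauerLI9.brauer_li`).
-/
import Mathlib
import Fermat.Agent.TW.GLOB.IndDefs9
import Fermat.Agent.TW.GLOB.AddInv9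
import Fermat.Agent.TW.GLOB.PermTwist9
import Fermat.Agent.TW.GLOB.ArtinCount9

namespace Fermat.Agent.TW.GLOB.ArtinInd9

open Module
open Fermat.Agent.TW.GLOB.IndDefs9 Fermat.Agent.TW.GLOB.BrauerLI9 Fermat.Agent.TW.GLOB.AddInv9
  Fermat.Agent.TW.GLOB.PermTwist9 Fermat.Agent.TW.GLOB.ArtinCount9

universe u v w

section coind

variable {k : Type*} [Field k] {G : Type*} [Group G] {M : Type*} [AddCommGroup M] [Module k M]

/-- The coinduction of the restriction of `ρ` to a subgroup `K` is `M ⊗ k[G/K]`, realised as
`permTwist ρ (G ⧸ K)`: a function `f` on `G` corresponds to `yK ↦ ρ y (f y⁻¹)`. -/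
noncomputable def coindEquiv (ρ : Representation k G M) (K : Subgroup G) :
    Representation.coindV K.subtype (ρ.comp K.subtype) ≃ₗ[k] (G ⧸ K → M) where
  toFun f := fun q => Quotient.liftOn' q (fun y => ρ y (f.1 y⁻¹)) (by
    intro a b hab
    rw [QuotientGroup.leftRel_apply] at hab
    have h1 : f.1 a⁻¹ = ρ (a⁻¹ * b) (f.1 b⁻¹) := by
      have := f.2 ⟨a⁻¹ * b, hab⟩ b⁻¹
      simp only [Subgroup.coe_subtype, MonoidHom.comp_apply] at this
      rw [← this]
      group
    show ρ a (f.1 a⁻¹) = ρ b (f.1 b⁻¹)
    rw [h1, ← Module.End.mul_apply, ← map_mul]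
    congr 2
    group)
  map_add' f f' := by
    funext q
    induction q using Quotient.inductionOn' with
    | h y => simp [Quotient.liftOn'_mk'']
  map_smul' c f := by
    funext q
    induction q using Quotient.inductionOn' with
    | h y => simp [Quotient.liftOn'_mk'']
  invFun F := ⟨fun x => ρ x (F ((x⁻¹ : G) : G ⧸ K)), by
    intro c x
    simp only [Subgroup.coe_subtype, MonoidHom.comp_apply, map_mul, Module.End.mul_apply]
    congr 3
    rw [QuotientGroup.eq]
    simp⟩
  left_inv f := by
    apply Subtype.ext
    funext x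
    show ρ x (ρ x⁻¹ (f.1 (x⁻¹)⁻¹)) = f.1 x
    rw [← Module.End.mul_apply, ← map_mul, mul_inv_cancel, map_one, Module.End.one_apply, inv_inv]
  right_inv F := by
    funext q
    induction q using Quotient.inductionOn' with
    | h y =>
      show ρ y (ρ y⁻¹ (F (((y⁻¹)⁻¹ : G) : G ⧸ K))) = F (y : G ⧸ K)
      rw [← Module.End.mul_apply, ← map_mul, mul_inv_cancel, map_one, Module.End.one_apply,
        inv_inv]

theorem coindEquiv_equivariant (ρ : Representation k G M) (K : Subgroup G) (g : G)
    (f : Representation.coindV K.subtype (ρ.comp K.subtype)) :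
    coindEquiv ρ K (Representation.coind K.subtype (ρ.comp K.subtype) g f)
      = permTwist ρ (G ⧸ K) g (coindEquiv ρ K f) := by
  funext q
  induction q using Quotient.inductionOn' with
  | h y =>
    show ρ y ((Representation.coind K.subtype (ρ.comp K.subtype) g f).1 y⁻¹)
      = ρ g (coindEquiv ρ K f (g⁻¹ • (y : G ⧸ K)))
    have h1 : g⁻¹ • ((y : G) : G ⧸ K) = ((g⁻¹ * y : G) : G ⧸ K) := rfl
    rw [h1]
    show _ = ρ g (ρ (g⁻¹ * y) (f.1 (g⁻¹ * y)⁻¹))
    rw [← Module.End.mul_apply, ← map_mul, mul_inv_cancel_left, mul_inv_rev, inv_inv]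
    rfl

end coind

section final

variable {k : Type v} {G : Type u} [Field k] [Group G]

/-- A bundled finite-dimensional representation (in the universe of the group). -/
structure FinRep (k : Type v) (G : Type u) [Field k] [Group G] : Type (max (u+1) v) where
  /-- the underlying space -/
  V : Type u
  [acg : AddCommGroup V]
  [mod : Module k V]
  [fin : Module.Finite k V]
  /-- the action -/
  ρ : Representation k G V

attribute [instance] FinRep.acg FinRep.mod FinRep.fin

/-- The main lemma of `AddInv9` for a family of bundled representations. -/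
theorem sum_smul_eq_zero_of_mult' [Finite k] [Finite G] (p : ℕ) [Fact p.Prime] [CharP k p]
    {K : Type*} [Field K] [Algebra k K] {ξ : K}
    (hξ : IsPrimitiveRoot ξ (ordCompl[p] (Nat.card G)))
    {A : Type w} [AddCommGroup A] (φ : AdditiveInvariant k G A)
    {J : Type*} [Fintype J] (R : J → FinRep k G) (c : J → ℤ)
    (h : ∀ g : G, g ^ (ordCompl[p] (Nat.card G)) = 1 → ∀ l < ordCompl[p] (Nat.card G),
      ∑ j, c j * (mult K ξ (R j).ρ g l : ℤ) = 0) :
    ∑ j, c j • φ.toFun (R j).V (R j).ρ = 0 :=
  sum_smul_eq_zero_of_mult p hξ φ (fun j => (R j).V) (fun j => (R j).ρ) c h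

/-- The induction theorem, with primality of `p` as an instance. -/
theorem inductionPrinciple_aux (p : ℕ) [Fact p.Prime] [Finite k] [CharP k p] [Finite G]
    {A : Type w} [AddCommGroup A] [IsAddTorsionFree A] : InductionPrinciple p k G A := by
  classical
  intro φ hφ V _ _ _ ρ
  have hp : p.Prime := Fact.out
  set N := ordCompl[p] (Nat.card G) with hNdef
  have hNco : N.Coprime p := (Nat.coprime_ordCompl hp Nat.card_pos.ne').symm
  have hN0 : N ≠ 0 := (Nat.ordCompl_pos p Nat.card_pos.ne').ne'
  have hNk : NeZero (N : k) := ⟨by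
    intro h0
    rw [CharP.cast_eq_zero_iff k p] at h0
    exact (Nat.Prime.coprime_iff_not_dvd hp).mp hNco.symm h0⟩
  have : NeZero N := ⟨hN0⟩
  -- a field with a primitive N-th root of unity
  obtain ⟨ξ, hξ⟩ := IsCyclotomicExtension.exists_isPrimitiveRoot k (CyclotomicField N k)
    (Set.mem_singleton N) hN0
  have hξ0 : ξ ≠ 0 := hξ.ne_zero hN0
  let _ : Fintype (Subgroup G) := Fintype.ofFinite _
  let _ : ∀ K' : Subgroup G, Fintype (G ⧸ K') := fun _ => Fintype.ofFinite _
  obtain ⟨c, hc, hArt⟩ := exists_artin_coeff_period (G := G) p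
  -- the family of representations
  let R : Option (Subgroup G) → FinRep k G := fun j =>
    match j with
    | none => ⟨V, ρ⟩
    | some K' => ⟨G ⧸ K' → V, permTwist ρ (G ⧸ K')⟩
  let c' : Option (Subgroup G) → ℤ := fun j =>
    match j with
    | none => -(Nat.card G : ℤ)
    | some K' => c K'
  have key := sum_smul_eq_zero_of_mult' p hξ φ R c' ?_
  · rw [Fintype.sum_option] at key
    simp only [R, c'] at key
    have hzero : ∀ K' : Subgroup G,
        c K' • φ.toFun (G ⧸ K' → V) (permTwist ρ (G ⧸ K')) = 0 := by
      intro K'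
      by_cases hcK : c K' = 0
      · rw [hcK, zero_smul]
      · obtain ⟨hcyc, hcop⟩ := hc K' hcK
        have h1 := hφ K' hcyc hcop V (ρ.comp K'.subtype)
        rw [φ.map_equiv _ _ _ _ (coindEquiv ρ K') (coindEquiv_equivariant ρ K')] at h1
        rw [h1, smul_zero]
    rw [Finset.sum_eq_zero (fun K' _ => hzero K'), add_zero] at key
    have hG : (-(Nat.card G : ℤ)) ≠ 0 := by
      simp [Nat.card_pos.ne']
    exact (IsAddTorsionFree.zsmul_eq_zero_iff_right hG).mp key
  · intro g hg l hl
    rw [Fintype.sum_option]
    simp only [R, c']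
    have hper : ∀ (K' : Subgroup G) (x : G ⧸ K'), 0 < MulAction.period g x := fun K' x =>
      MulAction.period_pos_of_orderOf_pos (orderOf_pos g) x
    have hξl : ξ ^ l ≠ 0 := pow_ne_zero _ hξ0
    have h1 := hArt g hg (fun s => (finrank (CyclotomicField N k) (LinearMap.ker
        (((ξ ^ l)⁻¹ • (ρ g).baseChange (CyclotomicField N k)) ^ s - 1)) : ℚ) / s)
    simp only [Nat.cast_one, div_one] at h1
    rw [finrank_ker_pow_one ρ g ξ l hξl] at h1
    have h2 : ∀ K' : Subgroup G,
        ((mult (CyclotomicField N k) ξ (permTwist ρ (G ⧸ K')) g l : ℤ) : ℚ)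
          = ∑ x : G ⧸ K', (finrank (CyclotomicField N k) (LinearMap.ker
              (((ξ ^ l)⁻¹ • (ρ g).baseChange (CyclotomicField N k)) ^ (MulAction.period g x) - 1))
                : ℚ) / (MulAction.period g x : ℚ) := by
      intro K'
      rw [Int.cast_natCast]
      exact mult_permTwist ρ g (hper K') ξ l hξl
    have h3 : ((-(Nat.card G : ℤ) * (mult (CyclotomicField N k) ξ ρ g l : ℤ)
        + ∑ K' : Subgroup G,
          c K' * (mult (CyclotomicField N k) ξ (permTwist ρ (G ⧸ K')) g l : ℤ) : ℤ) : ℚ) = 0 := by
      push_cast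
      simp only [Int.cast_natCast] at h2
      simp_rw [h2]
      rw [h1]
      ring
    exact_mod_cast h3

/-- **THE INDUCTION THEOREM (IND).**  `k` a finite field of characteristic `p`, `G` a finite
group, `A` a torsion-free abelian group: an additive invariant of finite-dimensional
`k[G]`-modules with values in `A` which vanishes on every representation coinduced from a cyclic
subgroup of order prime to `p` is identically zero. -/
theorem inductionPrinciple (p : ℕ) (k : Type v) (G : Type u) (A : Type w) [Field k] [Finite k]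
    [CharP k p] [Group G] [Finite G] [AddCommGroup A] [IsAddTorsionFree A] :
    InductionPrinciple p k G A := by
  have : Fact p.Prime := ⟨CharP.char_is_prime k p⟩
  exact inductionPrinciple_aux p

/-- The induction theorem over `ZMod p`. -/
theorem inductionPrincipleZMod (p : ℕ) [Fact p.Prime] (G : Type u) (A : Type w) [Group G]
    [Finite G] [AddCommGroup A] [IsAddTorsionFree A] : InductionPrincipleZMod p G A :=
  inductionPrinciple p (ZMod p) G A

end final

end Fermat.Agent.TW.GLOB.ArtinInd9
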