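/-
Programme T (S56), chapter GLOB (helper6): THE GLOBAL EULER–POINCARÉ DEFECT AS AN ADDITIVE
INVARIANT, and Tate's formula from its vanishing.

`{p} [Fact p.Prime] (S : Finset Nat.Primes)`.
* `AddHyp S : Prop` — (ADD): for every short exact sequence `0 → A → B → C → 0` of finite discrete
  `G_S`-modules over `ZMod p`,
  `#A^G * #C^G * #HS1 S B * #HS2 S A * #HS2 S C = #B^G * #HS1 S A * #HS1 S C * #HS2 S B`
  (the order of `LesCount0.card_les_of_surjective`);
* `FinH2Hyp S : Prop` — `HS2 S X` is finite for every finite discrete `X`;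
* `fixC X : Submodule (ZMod p) X` — the fixed points of complex conjugation;
* `chi S X : ℤ := finrank X^G - finrank (HS1 S X) + finrank (HS2 S X) + finrank X - finrank (fixC X)`;
* `chi_congr S e he : chi S A = chi S B` (equivariant isomorphism);
* `chi_exact S hpS hadd hfin2 … : chi S B = chi S A + chi S C` (`p` odd);
* `infl π ρ : Rep.{0} (ZMod p) GQ := Rep.of (ρ.comp π)` for `π : GQ →* Q`, `isDiscrete_infl`;
* `epsInv S π hπ hp2 hpS hadd hfin2 : AdditiveInvariant (ZMod p) Q ℤ` with
  `epsInv_toFun : (epsInv …).toFun V ρ = chi S (infl π ρ)`;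
* `chi_eq_toFun`, `chi_eq_zero_of_epsInv` (every finite discrete `X` killed by a normal
  `U ∈ (levelS S).sets` is the inflation of a representation of `GQ ⧸ U`);
* `tate_of_chi_eq_zero S hpS hfin2 X hX (h : chi S X = 0) :
    #X^G * #HS2 S X * #X = #HS1 S X * Nat.card {x : X // X.ρ complexConjugation x = x}`.
-/
import Mathlib
import Fermat.Agent.TW.GLOB.FiniteHS6
import Fermat.Agent.TW.GLOB.IndDefs9
import Fermat.Agent.TW.GLOB.ArtinInd9
import Fermat.Agent.TW.ASM.EquivTransport8

set_option autoImplicit false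
set_option linter.unusedSectionVars false
set_option linter.style.haveILetI false

open CategoryTheory groupCohomology ExtCitation Module
open Fermat.Agent.PT.PRO.LevelCoh28 Fermat.Agent.PT.PRO.LevelCohRes28
open Fermat.Agent.PT.GLUE.Objects21
open Fermat.Agent.TW.DEF.Basic1 Fermat.Agent.TW.GLOB.GWNumeric1
open Fermat.Agent.TW.GLOB.IndDefs9 Fermat.Agent.TW.GLOB.FiniteHS6
open Fermat.Agent.TW.ASM.EquivTransport8

namespace Fermat.Agent.TW.GLOB.EulerInv6

noncomputable section

/-! ### Linear algebra -/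

section LinAlg

variable {k : Type*} [Field k] {V₁ V₂ V₃ : Type*} [AddCommGroup V₁] [Module k V₁]
  [AddCommGroup V₂] [Module k V₂] [AddCommGroup V₃] [Module k V₃]

/-- The fixed points of a linear endomorphism. -/
def fixSub (c : V₁ →ₗ[k] V₁) : Submodule k V₁ := LinearMap.ker (c - LinearMap.id)

theorem mem_fixSub_iff (c : V₁ →ₗ[k] V₁) (v : V₁) : v ∈ fixSub c ↔ c v = v := by
  rw [fixSub, LinearMap.mem_ker, LinearMap.sub_apply, LinearMap.id_apply, sub_eq_zero]

variable [Module.Finite k V₁] [Module.Finite k V₂] [Module.Finite k V₃]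

/-- Rank–nullity for a short exact sequence. -/
theorem finrank_of_exact (i : V₁ →ₗ[k] V₂) (q : V₂ →ₗ[k] V₃) (hinj : Function.Injective i)
    (hex : ∀ b, q b = 0 ↔ ∃ a, i a = b) (hsurj : Function.Surjective q) :
    finrank k V₂ = finrank k V₁ + finrank k V₃ := by
  have h1 := LinearMap.finrank_range_add_finrank_ker q
  have h2 : LinearMap.range q = ⊤ := LinearMap.range_eq_top.2 hsurj
  have h3 : LinearMap.ker q = LinearMap.range i := by
    ext b
    rw [LinearMap.mem_ker, LinearMap.mem_range]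
    exact hex b
  rw [h2, finrank_top, h3, LinearMap.finrank_range_of_inj hinj] at h1
  omega

/-- Taking the fixed points of compatible involutions is exact when `2` is invertible. -/
theorem finrank_fixSub_of_exact (h2 : (2 : k) ≠ 0) (c₁ : V₁ →ₗ[k] V₁) (c₂ : V₂ →ₗ[k] V₂)
    (c₃ : V₃ →ₗ[k] V₃) (hc₂ : ∀ v, c₂ (c₂ v) = v)
    (i : V₁ →ₗ[k] V₂) (q : V₂ →ₗ[k] V₃) (hi : ∀ v, i (c₁ v) = c₂ (i v))
    (hq : ∀ v, q (c₂ v) = c₃ (q v)) (hinj : Function.Injective i)
    (hex : ∀ b, q b = 0 ↔ ∃ a, i a = b) (hsurj : Function.Surjective q) :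
    finrank k ↥(fixSub c₂) = finrank k ↥(fixSub c₁) + finrank k ↥(fixSub c₃) := by
  let i' : ↥(fixSub c₁) →ₗ[k] ↥(fixSub c₂) := i.restrict fun v hv => by
    rw [mem_fixSub_iff] at hv ⊢
    rw [← hi, hv]
  let q' : ↥(fixSub c₂) →ₗ[k] ↥(fixSub c₃) := q.restrict fun v hv => by
    rw [mem_fixSub_iff] at hv ⊢
    rw [← hq, hv]
  refine finrank_of_exact i' q' ?_ ?_ ?_
  · intro a b hab
    apply Subtype.ext
    apply hinj
    exact congrArg Subtype.val hab
  · intro b
    constructor
    · intro hb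
      have hb' : q (b : V₂) = 0 := congrArg Subtype.val hb
      obtain ⟨a, ha⟩ := (hex _).1 hb'
      refine ⟨⟨a, ?_⟩, Subtype.ext ha⟩
      rw [mem_fixSub_iff]
      apply hinj
      rw [hi, ha]
      exact (mem_fixSub_iff c₂ _).1 b.2
    · rintro ⟨a, rfl⟩
      apply Subtype.ext
      exact (hex _).2 ⟨a, rfl⟩
  · intro w
    obtain ⟨v, hv⟩ := hsurj (w : V₃)
    have hw : c₃ (w : V₃) = w := (mem_fixSub_iff c₃ _).1 w.2
    refine ⟨⟨(2 : k)⁻¹ • (v + c₂ v), ?_⟩, Subtype.ext ?_⟩
    · rw [mem_fixSub_iff, map_smul, map_add, hc₂, add_comm]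
    · show q ((2 : k)⁻¹ • (v + c₂ v)) = w
      rw [map_smul, map_add, hq, hv, hw, ← two_smul k (w : V₃), smul_smul, inv_mul_cancel₀ h2,
        one_smul]

end LinAlg

/-! ### The Euler–Poincaré–Tate defect -/

section Chi

variable {p : ℕ} [hp : Fact p.Prime] (S : Finset Nat.Primes)

/-- **(ADD)**: multiplicativity of the global Euler characteristic on short exact sequences of
finite discrete `G_S`-modules. -/
def AddHyp : Prop :=
  ∀ (A B C : Rep.{0} (ZMod p) GQ) [Finite A] [Finite B] [Finite C],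
    IsDiscrete (levelS S).sets A → IsDiscrete (levelS S).sets B → IsDiscrete (levelS S).sets C →
    ∀ (φ : A →ₗ[ZMod p] B) (_ : ∀ g a, φ (A.ρ g a) = B.ρ g (φ a))
      (ψ : B →ₗ[ZMod p] C) (_ : ∀ g b, ψ (B.ρ g b) = C.ρ g (ψ b)),
      Function.Injective φ → Function.Surjective ψ → (∀ b, ψ b = 0 ↔ ∃ a, φ a = b) →
      Nat.card ↥A.ρ.invariants * Nat.card ↥C.ρ.invariants * Nat.card (HS1 S B) *
          Nat.card (HS2 S A) * Nat.card (HS2 S C) =
        Nat.card ↥B.ρ.invariants * Nat.card (HS1 S A) * Nat.card (HS1 S C) * Nat.card (HS2 S B)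

/-- `H²(G_S, X)` is finite for every finite discrete `X`. -/
def FinH2Hyp : Prop :=
  ∀ (X : Rep.{0} (ZMod p) GQ) [Finite X], IsDiscrete (levelS S).sets X → Finite (HS2 S X)

/-- The fixed points of complex conjugation. -/
def fixC (X : Rep.{0} (ZMod p) GQ) : Submodule (ZMod p) X := fixSub (X.ρ complexConjugation)

theorem mem_fixC_iff (X : Rep.{0} (ZMod p) GQ) (x : X) :
    x ∈ fixC X ↔ X.ρ complexConjugation x = x := mem_fixSub_iff _ _

/-- **The Euler–Poincaré–Tate defect**
`χ(X) = h⁰ - h¹ + h² + dim X - dim X^{c}` (dimensions over `𝔽_p`). -/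
def chi (X : Rep.{0} (ZMod p) GQ) : ℤ :=
  (finrank (ZMod p) ↥X.ρ.invariants : ℤ) - finrank (ZMod p) (HS1 S X) + finrank (ZMod p) (HS2 S X) +
    finrank (ZMod p) X - finrank (ZMod p) ↥(fixC X)

/-- `#V = p ^ dim V`. -/
theorem card_eq_pow_finrank (V : Type*) [AddCommGroup V] [Module (ZMod p) V] [Finite V] :
    Nat.card V = p ^ finrank (ZMod p) V := by
  haveI : Module.Finite (ZMod p) V := Module.Finite.of_finite
  rw [Module.natCard_eq_pow_finrank (K := ZMod p) (V := V), Nat.card_zmod]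

variable {A B : Rep.{0} (ZMod p) GQ} (e : A.V ≃ₗ[ZMod p] B.V)
  (he : ∀ g a, e (A.ρ g a) = B.ρ g (e a))

include he in
/-- `χ` is invariant under equivariant isomorphisms. -/
theorem chi_congr : chi S A = chi S B := by
  unfold chi
  rw [(invIso e he).finrank_eq, (hS1Iso e he S).finrank_eq, (hS2Iso e he S).finrank_eq,
    e.finrank_eq]
  congr 1
  have : finrank (ZMod p) ↥(fixC A) = finrank (ZMod p) ↥(fixC B) := by
    refine LinearEquiv.finrank_eq (LinearEquiv.ofSubmodules e (fixC A) (fixC B) ?_)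
    ext b
    constructor
    · rintro ⟨a, ha, rfl⟩
      have ha' := (mem_fixC_iff A a).1 ha
      refine (mem_fixC_iff B _).2 ?_
      show B.ρ complexConjugation (e a) = e a
      rw [← he, ha']
    · intro hb
      have hb' := (mem_fixC_iff B b).1 hb
      refine ⟨e.symm b, (mem_fixC_iff A _).2 ?_, e.apply_symm_apply b⟩
      apply e.injective
      rw [he, e.apply_symm_apply, hb']
  rw [this]

theorem two_ne_zero_zmod (hp2 : p ≠ 2) : (2 : ZMod p) ≠ 0 := by
  intro h
  have h' : ((2 : ℕ) : ZMod p) = 0 := by exact_mod_cast h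
  rw [ZMod.natCast_eq_zero_iff] at h'
  exact hp2 ((Nat.prime_dvd_prime_iff_eq hp.out Nat.prime_two).1 h')

theorem conj_conj (X : Rep.{0} (ZMod p) GQ) (x : X) :
    X.ρ complexConjugation (X.ρ complexConjugation x) = x := by
  rw [← Module.End.mul_apply, ← map_mul, complexConjugation_mul_self, map_one,
    Module.End.one_apply]

/-- **`χ` is additive on short exact sequences**, given (ADD) and the finiteness of `H²`. -/
theorem chi_exact (hp2 : p ≠ 2) (hpS : pPrime p ∈ S) (hadd : AddHyp (p := p) S)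
    (hfin2 : FinH2Hyp (p := p) S) (A B C : Rep.{0} (ZMod p) GQ) [Finite A] [Finite B] [Finite C]
    (hA : IsDiscrete (levelS S).sets A) (hB : IsDiscrete (levelS S).sets B)
    (hC : IsDiscrete (levelS S).sets C)
    (φ : A →ₗ[ZMod p] B) (hφ : ∀ g a, φ (A.ρ g a) = B.ρ g (φ a))
    (ψ : B →ₗ[ZMod p] C) (hψ : ∀ g b, ψ (B.ρ g b) = C.ρ g (ψ b))
    (hinj : Function.Injective φ) (hsurj : Function.Surjective ψ)
    (hex : ∀ b, ψ b = 0 ↔ ∃ a, φ a = b) : chi S B = chi S A + chi S C := by
  have hcard := hadd A B C hA hB hC φ hφ ψ hψ hinj hsurj hex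
  haveI := finite_HS1 S hpS A hA
  haveI := finite_HS1 S hpS B hB
  haveI := finite_HS1 S hpS C hC
  haveI := hfin2 A hA
  haveI := hfin2 B hB
  haveI := hfin2 C hC
  rw [card_eq_pow_finrank (p := p) ↥A.ρ.invariants, card_eq_pow_finrank (p := p) ↥B.ρ.invariants,
    card_eq_pow_finrank (p := p) ↥C.ρ.invariants, card_eq_pow_finrank (p := p) (HS1 S A),
    card_eq_pow_finrank (p := p) (HS1 S B), card_eq_pow_finrank (p := p) (HS1 S C),
    card_eq_pow_finrank (p := p) (HS2 S A), card_eq_pow_finrank (p := p) (HS2 S B),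
    card_eq_pow_finrank (p := p) (HS2 S C)] at hcard
  simp only [← pow_add] at hcard
  have hexp := Nat.pow_right_injective hp.out.two_le hcard
  haveI : Module.Finite (ZMod p) A := Module.Finite.of_finite
  haveI : Module.Finite (ZMod p) B := Module.Finite.of_finite
  haveI : Module.Finite (ZMod p) C := Module.Finite.of_finite
  have hdim := finrank_of_exact φ ψ hinj hex hsurj
  have hfix := finrank_fixSub_of_exact (two_ne_zero_zmod hp2) (A.ρ complexConjugation)
    (B.ρ complexConjugation) (C.ρ complexConjugation) (conj_conj B) φ ψ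
    (hφ complexConjugation) (hψ complexConjugation) hinj hex hsurj
  unfold chi fixC
  omega

end Chi

/-! ### Inflation from a finite quotient; the additive invariant -/

section Infl

variable {p : ℕ} [hp : Fact p.Prime] (S : Finset Nat.Primes) {Q : Type} [Group Q] (π : GQ →* Q)

/-- The inflation to `G_ℚ` of a representation of a quotient `Q`. -/
def infl {V : Type} [AddCommGroup V] [Module (ZMod p) V] (ρ : Representation (ZMod p) Q V) :
    Rep.{0} (ZMod p) GQ := Rep.of (ρ.comp π)

theorem infl_ρ_apply {V : Type} [AddCommGroup V] [Module (ZMod p) V]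
    (ρ : Representation (ZMod p) Q V) (g : GQ) (v : V) : (infl π ρ).ρ g v = ρ (π g) v := rfl

theorem isDiscrete_infl (hπ : ∃ U ∈ (levelS S).sets, U ≤ π.ker) {V : Type} [AddCommGroup V]
    [Module (ZMod p) V] (ρ : Representation (ZMod p) Q V) :
    IsDiscrete (levelS S).sets (infl π ρ) := by
  obtain ⟨U, hU, hUπ⟩ := hπ
  intro a
  refine ⟨U, hU, fun s hs => ?_⟩
  show ρ (π s) a = a
  rw [MonoidHom.mem_ker.1 (hUπ hs), map_one]
  rfl

instance finite_infl {V : Type} [AddCommGroup V] [Module (ZMod p) V] [Module.Finite (ZMod p) V]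
    (ρ : Representation (ZMod p) Q V) : Finite (infl π ρ) :=
  (Module.finite_of_finite (ZMod p) : Finite V)

/-- **The Euler–Poincaré–Tate defect as an additive invariant** of the finite-dimensional
`𝔽_p`-representations of a finite quotient `Q` of `G_S`. -/
def epsInv (hπ : ∃ U ∈ (levelS S).sets, U ≤ π.ker) (hp2 : p ≠ 2) (hpS : pPrime p ∈ S)
    (hadd : AddHyp (p := p) S) (hfin2 : FinH2Hyp (p := p) S) :
    AdditiveInvariant (ZMod p) Q ℤ where
  toFun _ _ _ _ ρ := chi S (infl π ρ)
  map_exact _ _ _ _ _ _ _ _ _ _ _ _ ρ₁ ρ₂ ρ₃ i q hi hq hinj hex hsurj :=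
    chi_exact S hp2 hpS hadd hfin2 (infl π ρ₁) (infl π ρ₂) (infl π ρ₃)
      (isDiscrete_infl S π hπ ρ₁) (isDiscrete_infl S π hπ ρ₂) (isDiscrete_infl S π hπ ρ₃)
      i (fun g a => hi (π g) a) q (fun g b => hq (π g) b) hinj hsurj
      (fun b => (hex b).trans Set.mem_range)

theorem epsInv_toFun (hπ : ∃ U ∈ (levelS S).sets, U ≤ π.ker) (hp2 : p ≠ 2) (hpS : pPrime p ∈ S)
    (hadd : AddHyp (p := p) S) (hfin2 : FinH2Hyp (p := p) S) (V : Type) [AddCommGroup V]
    [Module (ZMod p) V] [Module.Finite (ZMod p) V] (ρ : Representation (ZMod p) Q V) :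
    (epsInv S π hπ hp2 hpS hadd hfin2).toFun V ρ = chi S (infl π ρ) := rfl

/-- A `G_ℚ`-module whose action factors through `π` has the `χ` of the inflation. -/
theorem chi_eq_chi_infl (X : Rep.{0} (ZMod p) GQ) (ρX : Representation (ZMod p) Q X)
    (h : ∀ g x, ρX (π g) x = X.ρ g x) : chi S X = chi S (infl π ρX) :=
  chi_congr S (A := X) (B := infl π ρX) (LinearEquiv.refl (ZMod p) X) (fun g a => (h g a).symm)

end Infl

section Final

variable {p : ℕ} [hp : Fact p.Prime] (S : Finset Nat.Primes)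

/-- The representation of `G_ℚ ⧸ U` on a module on which `U` acts trivially. -/
def descRep (U : Subgroup GQ) [U.Normal] (X : Rep.{0} (ZMod p) GQ) (hU : ∀ s ∈ U, X.ρ s = 1) :
    Representation (ZMod p) (GQ ⧸ U) X :=
  QuotientGroup.lift U X.ρ (fun s hs => hU s hs)

theorem descRep_mk (U : Subgroup GQ) [U.Normal] (X : Rep.{0} (ZMod p) GQ)
    (hU : ∀ s ∈ U, X.ρ s = 1) (g : GQ) (x : X) :
    descRep U X hU (QuotientGroup.mk' U g) x = X.ρ g x := rfl

theorem ker_mk'_le (U : Subgroup GQ) [U.Normal] (hU : U ∈ (levelS S).sets) :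
    ∃ V ∈ (levelS S).sets, V ≤ (QuotientGroup.mk' U).ker :=
  ⟨U, hU, by rw [QuotientGroup.ker_mk']⟩

/-- If the additive invariant `ε` of `G_ℚ ⧸ U` vanishes identically, then `χ(X) = 0` for every
finite `X` on which `U` acts trivially. -/
theorem chi_eq_zero_of_epsInv (U : Subgroup GQ) [U.Normal] (hU : U ∈ (levelS S).sets)
    (hp2 : p ≠ 2) (hpS : pPrime p ∈ S) (hadd : AddHyp (p := p) S) (hfin2 : FinH2Hyp (p := p) S)
    (hzero : ∀ (V : Type) [AddCommGroup V] [Module (ZMod p) V] [Module.Finite (ZMod p) V]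
      (ρ : Representation (ZMod p) (GQ ⧸ U) V),
      (epsInv S (QuotientGroup.mk' U) (ker_mk'_le S U hU) hp2 hpS hadd hfin2).toFun V ρ = 0)
    (X : Rep.{0} (ZMod p) GQ) [Finite X] (hX : ∀ s ∈ U, X.ρ s = 1) : chi S X = 0 := by
  haveI : Module.Finite (ZMod p) X := Module.Finite.of_finite
  rw [chi_eq_chi_infl S (QuotientGroup.mk' U) X (descRep U X hX) (descRep_mk U X hX)]
  exact hzero X (descRep U X hX)

/-- If all the additive invariants `ε` (one for each normal level `U`) vanish identically, then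
`χ(X) = 0` for every finite discrete `X`. -/
theorem chi_eq_zero (hp2 : p ≠ 2) (hpS : pPrime p ∈ S) (hadd : AddHyp (p := p) S)
    (hfin2 : FinH2Hyp (p := p) S)
    (hzero : ∀ (U : Subgroup GQ) [U.Normal] (hU : U ∈ (levelS S).sets) (V : Type)
      [AddCommGroup V] [Module (ZMod p) V] [Module.Finite (ZMod p) V]
      (ρ : Representation (ZMod p) (GQ ⧸ U) V),
      (epsInv S (QuotientGroup.mk' U) (ker_mk'_le S U hU) hp2 hpS hadd hfin2).toFun V ρ = 0)
    (X : Rep.{0} (ZMod p) GQ) [Finite X] (hX : IsDiscrete (levelS S).sets X) : chi S X = 0 := by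
  obtain ⟨U, hU, hUn, hfix⟩ :=
    hX.exists_fixing (levelS S).isBasis (Set.toFinite (Set.univ : Set X))
  haveI := hUn
  refine chi_eq_zero_of_epsInv S U hU hp2 hpS hadd hfin2 (hzero U hU) X fun s hs => ?_
  ext x
  exact hfix s hs x (Set.mem_univ x)

/-- **Tate's global Euler characteristic formula** from `χ(X) = 0`:
`#H⁰(X) · #H²(G_S, X) · #X = #H¹(G_S, X) · #X^{c}`. -/
theorem tate_of_chi_eq_zero (hpS : pPrime p ∈ S) (hfin2 : FinH2Hyp (p := p) S)
    (X : Rep.{0} (ZMod p) GQ) [Finite X] (hX : IsDiscrete (levelS S).sets X)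
    (h : chi S X = 0) :
    Nat.card ↥X.ρ.invariants * Nat.card (HS2 S X) * Nat.card X =
      Nat.card (HS1 S X) * Nat.card {x : X // X.ρ complexConjugation x = x} := by
  haveI := finite_HS1 S hpS X hX
  haveI := hfin2 X hX
  have hfix : Nat.card {x : X // X.ρ complexConjugation x = x} = Nat.card ↥(fixC X) :=
    Nat.card_congr (Equiv.subtypeEquivRight fun x => (mem_fixC_iff X x).symm)
  rw [hfix, card_eq_pow_finrank (p := p) ↥X.ρ.invariants, card_eq_pow_finrank (p := p) (HS2 S X),
    card_eq_pow_finrank (p := p) X, card_eq_pow_finrank (p := p) (HS1 S X),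
    card_eq_pow_finrank (p := p) ↥(fixC X), ← pow_add, ← pow_add, ← pow_add]
  congr 1
  unfold chi at h
  omega

end Final

/-! ### The final statements -/

section Tate

variable {p : ℕ} [hp : Fact p.Prime] (S : Finset Nat.Primes)

/-- The induction principle (`ArtinInd9`) for `ε`: it suffices to treat the representations
coinduced from cyclic subgroups of order prime to `p`. -/
theorem epsInv_eq_zero_of_cyclic (U : Subgroup GQ) [U.Normal] [Finite (GQ ⧸ U)]
    (hU : U ∈ (levelS S).sets)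
    (hp2 : p ≠ 2) (hpS : pPrime p ∈ S) (hadd : AddHyp (p := p) S) (hfin2 : FinH2Hyp (p := p) S)
    (hcyc : ∀ C : Subgroup (GQ ⧸ U), IsCyclic C → (Nat.card C).Coprime p →
      ∀ (N : Type) [AddCommGroup N] [Module (ZMod p) N] [Module.Finite (ZMod p) N]
        (σ : Representation (ZMod p) C N),
        (epsInv S (QuotientGroup.mk' U) (ker_mk'_le S U hU) hp2 hpS hadd hfin2).toFun
          (Representation.coindV C.subtype σ) (Representation.coind C.subtype σ) = 0)
    (V : Type) [AddCommGroup V] [Module (ZMod p) V] [Module.Finite (ZMod p) V]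
    (ρ : Representation (ZMod p) (GQ ⧸ U) V) :
    (epsInv S (QuotientGroup.mk' U) (ker_mk'_le S U hU) hp2 hpS hadd hfin2).toFun V ρ = 0 := by
  exact Fermat.Agent.TW.GLOB.ArtinInd9.inductionPrincipleZMod p (GQ ⧸ U) ℤ
    (epsInv S (QuotientGroup.mk' U) (ker_mk'_le S U hU) hp2 hpS hadd hfin2) hcyc V ρ

/-- **Tate's global Euler characteristic formula** for every finite discrete `G_S`-module, from
(ADD), the finiteness of `H²`, and the vanishing of `ε` on the representations coinduced from cyclic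
`p'`-subgroups of the finite quotients `G_ℚ ⧸ U`. -/
theorem tate (hp2 : p ≠ 2) (hpS : pPrime p ∈ S) (hadd : AddHyp (p := p) S)
    (hfin2 : FinH2Hyp (p := p) S)
    (hcyc : ∀ (U : Subgroup GQ) [U.Normal] [Finite (GQ ⧸ U)] (hU : U ∈ (levelS S).sets)
      (C : Subgroup (GQ ⧸ U)), IsCyclic C → (Nat.card C).Coprime p →
      ∀ (N : Type) [AddCommGroup N] [Module (ZMod p) N] [Module.Finite (ZMod p) N]
        (σ : Representation (ZMod p) C N),
        (epsInv S (QuotientGroup.mk' U) (ker_mk'_le S U hU) hp2 hpS hadd hfin2).toFun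
          (Representation.coindV C.subtype σ) (Representation.coind C.subtype σ) = 0)
    (X : Rep.{0} (ZMod p) GQ) [Finite X] (hX : IsDiscrete (levelS S).sets X) :
    Nat.card ↥X.ρ.invariants * Nat.card (HS2 S X) * Nat.card X =
      Nat.card (HS1 S X) * Nat.card {x : X // X.ρ complexConjugation x = x} :=
  tate_of_chi_eq_zero S hpS hfin2 X hX
    (chi_eq_zero S hp2 hpS hadd hfin2
      (fun U _ hU => by
        haveI := (levelS S).isBasis.finiteIndex U hU
        haveI : Finite (GQ ⧸ U) := Subgroup.finite_quotient_of_finiteIndex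
        exact epsInv_eq_zero_of_cyclic S U hU hp2 hpS hadd hfin2 (hcyc U hU)) X hX)

end Tate

end

end Fermat.Agent.TW.GLOB.EulerInv6
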