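/-
PROGRAMME T, chapter GLOB, brick (A4) — helper3.  `TailGe3`: the lower bound at the END of the
nine-term sequence,

  `#H⁰(G_S, X) · #range (loc² : H²(G_S, X') → ∏_{q ∈ S} H²(ℚ_q, X')) ≤ ∏_{q ∈ S} #H²(ℚ_q, X')`,

`X' = X^*(1)`.  Proof: the pairing `∏_q H²(ℚ_q, X') × H⁰(G_S, X) → 𝔽_p`,
`(x, m) ↦ ∑_q inv_q ((ev_m)_* x_q)` (`ev_m : X' → μ_p` the evaluation at the invariant vector `m`)
kills `range loc²` (reciprocity law `InvRecip1.exists_inv_recip` applied to `(ev_m)_* β`), and it is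
nondegenerate in `m` as soon as, at ONE prime `q₀ ∈ S`, `(ev_m)_* : H²(ℚ_{q₀}, X') → H²(ℚ_{q₀}, μ_p)`
is nonzero for every nonzero `G_{q₀}`-invariant `m` (hypothesis `hperf`, = (LOC-20-PERF)).

* `mapH2_add_fun`: `mapH2` is additive in the coefficient map;
* `card_mul_le_of_pairing`: the counting lemma;
* `evq`, `evq_equivariant`, `evG_equivariant`;
* **`tail_ge`**.
-/
import Mathlib
import Fermat.Agent.TW.GLOB.InvRecip1
import Fermat.Agent.TW.GLOB.GWNumeric1

set_option autoImplicit false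
set_option linter.unusedSectionVars false

open Fermat.Agent.PT.PRO.LevelCoh28 Fermat.Agent.PT.PRO.LevelCohRes28
open Fermat.Agent.PT.GLUE.Objects21
open Fermat.Agent.TW.DEF.Basic1 Fermat.Agent.TW.DEF.Mu1
open Fermat.Agent.TW.GLOB.GWNumeric1

namespace Fermat.Agent.TW.GLOB.TailGe3

noncomputable section

/-! ### `mapH2` is additive in the coefficient map -/

section MapAdd

variable {k G : Type} [CommRing k] [Group G] {𝓑 : LevelBasis G} {A B : Rep.{0} k G}

theorem mapH2_add_fun (φ₁ φ₂ : A →ₗ[k] B) (h₁ : ∀ g a, φ₁ (A.ρ g a) = B.ρ g (φ₁ a))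
    (h₂ : ∀ g a, φ₂ (A.ρ g a) = B.ρ g (φ₂ a))
    (h₁₂ : ∀ g a, (φ₁ + φ₂) (A.ρ g a) = B.ρ g ((φ₁ + φ₂) a)) (x : H2 𝓑 A) :
    mapH2 (𝓑 := 𝓑) (φ₁ + φ₂) h₁₂ x = mapH2 (𝓑 := 𝓑) φ₁ h₁ x + mapH2 (𝓑 := 𝓑) φ₂ h₂ x := by
  obtain ⟨c, rfl⟩ := H2mk_surjective 𝓑 A x
  rw [mapH2_mk, mapH2_mk, mapH2_mk, ← map_add]
  congr 1

theorem mapH2_congr_fun {φ φ' : A →ₗ[k] B} (e : φ = φ')
    (h : ∀ g a, φ (A.ρ g a) = B.ρ g (φ a)) (h' : ∀ g a, φ' (A.ρ g a) = B.ρ g (φ' a))
    (x : H2 𝓑 A) : mapH2 (𝓑 := 𝓑) φ h x = mapH2 (𝓑 := 𝓑) φ' h' x := by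
  subst e
  rfl

end MapAdd

/-! ### The counting lemma -/

section Count

variable {K : Type*} [Field K] [Finite K] {D V : Type*} [AddCommGroup D] [Module K D]
  [AddCommGroup V] [Module K V] [Finite D] [Finite V]

/-- If a bilinear pairing `B : D × V → K` has trivial kernel on the `D`-side and `R ≤ V` is
orthogonal to `D`, then `#D · #R ≤ #V`. -/
theorem card_mul_le_of_pairing (B : D →ₗ[K] V →ₗ[K] K) (hB : ∀ m, (∀ x, B m x = 0) → m = 0)
    (R : Set V) (hR : ∀ m, ∀ x ∈ R, B m x = 0) :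
    Nat.card D * Nat.card R ≤ Nat.card V := by
  haveI : Module.Finite K D := Module.Finite.of_finite
  haveI : Module.Finite K V := Module.Finite.of_finite
  have hinj : Function.Injective B := by
    rw [injective_iff_map_eq_zero]
    intro m hm
    exact hB m (fun x => by rw [hm, LinearMap.zero_apply])
  have hsurj : Function.Surjective B.flip := LinearMap.flip_surjective_iff₁.2 hinj
  have hRker : R ⊆ (LinearMap.ker B.flip : Set V) := by
    intro x hx
    rw [SetLike.mem_coe, LinearMap.mem_ker]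
    ext m
    rw [LinearMap.flip_apply, LinearMap.zero_apply]
    exact hR m x hx
  have h1 : Nat.card V = Nat.card (LinearMap.ker B.flip) * Nat.card (Module.Dual K D) := by
    have e := B.flip.quotKerEquivOfSurjective hsurj
    rw [← Nat.card_congr e.toEquiv]
    exact Submodule.card_eq_card_quotient_mul_card (LinearMap.ker B.flip)
  have h2 : Nat.card (Module.Dual K D) = Nat.card D := by
    rw [Module.natCard_eq_pow_finrank (K := K) (V := D),
      Module.natCard_eq_pow_finrank (K := K) (V := Module.Dual K D), Subspace.dual_finrank_eq]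
  have h3 : Nat.card R ≤ Nat.card (LinearMap.ker B.flip) :=
    Nat.card_le_card_of_injective (Set.inclusion hRker) (Set.inclusion_injective hRker)
  rw [h1, h2, mul_comm]
  exact Nat.mul_le_mul_right _ h3

end Count

/-! ### The abstract form of the argument -/

section Abstract

variable {p : ℕ} [Fact p.Prime] {ι : Type*} [Fintype ι]
  {D : Type*} [AddCommGroup D] [Module (ZMod p) D] [Finite D]
  {Hloc Hmu : ι → Type*} [∀ i, AddCommGroup (Hloc i)] [∀ i, Module (ZMod p) (Hloc i)]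
  [∀ i, Finite (Hloc i)] [∀ i, AddCommGroup (Hmu i)]

/-- Abstract form of `tail ≥`: local pairings `e i : D × Hloc i → Hmu i`, injective invariants
`inv i : Hmu i → 𝔽_p`, nondegeneracy in `D` at one index `i₀`, and a subset `R ⊆ ∏ Hloc i` on which
the sum of the local invariants vanishes. -/
theorem card_mul_le_of_local_pairings
    (inv : ∀ i, Hmu i →+ ZMod p) (hinv : ∀ i, Function.Injective (inv i))
    (e : ∀ i, D →+ Hloc i →+ Hmu i)
    (i₀ : ι) (hperf : ∀ m : D, m ≠ 0 → ∃ x : Hloc i₀, e i₀ m x ≠ 0)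
    (R : Set (∀ i, Hloc i)) (hR : ∀ m : D, ∀ x ∈ R, ∑ i, inv i (e i m (x i)) = 0) :
    Nat.card D * Nat.card R ≤ ∏ i, Nat.card (Hloc i) := by
  classical
  -- the pairing as an additive map in `x`, for fixed `m`
  let Bm : D → ((∀ i, Hloc i) →+ ZMod p) := fun m =>
    ∑ i, ((inv i).comp (e i m)).comp (Pi.evalAddMonoidHom Hloc i)
  have Bm_apply : ∀ m x, Bm m x = ∑ i, inv i (e i m (x i)) := by
    intro m x
    simp only [Bm, AddMonoidHom.finset_sum_apply]
    rfl
  let B : D →ₗ[ZMod p] (∀ i, Hloc i) →ₗ[ZMod p] ZMod p :=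
    (AddMonoidHom.mk' (fun m => (AddMonoidHom.toZModLinearMap p (Bm m)))
      (fun m m' => by
        refine LinearMap.ext fun x => ?_
        change Bm (m + m') x = Bm m x + Bm m' x
        rw [Bm_apply, Bm_apply, Bm_apply, ← Finset.sum_add_distrib]
        refine Finset.sum_congr rfl (fun i _ => ?_)
        rw [map_add, AddMonoidHom.add_apply, map_add])).toZModLinearMap p
  have B_apply : ∀ m x, B m x = ∑ i, inv i (e i m (x i)) := fun m x => Bm_apply m x
  have key := card_mul_le_of_pairing B ?_ R (fun m x hx => (B_apply m x).trans (hR m x hx))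
  · rwa [Nat.card_pi] at key
  · intro m hm
    by_contra hm0
    obtain ⟨x₀, hx₀⟩ := hperf m hm0
    have h := hm (Pi.single i₀ x₀)
    rw [B_apply, Finset.sum_eq_single i₀] at h
    · rw [Pi.single_eq_same] at h
      exact hx₀ (hinv i₀ (h.trans (map_zero _).symm))
    · intro i _ hi
      rw [Pi.single_eq_of_ne hi, map_zero, map_zero]
    · intro h'
      exact absurd (Finset.mem_univ i₀) h'

end Abstract

/-! ### The evaluation maps -/

section Main

open ExtCitation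

variable {p : ℕ} [Fact p.Prime] (S : Finset Nat.Primes) {X X' : Rep.{0} (ZMod p) GQ}
  (b : X →ₗ[ZMod p] X' →ₗ[ZMod p] (muP p))
  (hb : ∀ (g : GQ) (m : X) (f : X'), b (X.ρ g m) (X'.ρ g f) = (muP p).ρ g (b m f))

include hb in
theorem evG_equivariant {m : X} (hm : ∀ g, X.ρ g m = m) (g : GQ) (f : X') :
    b m (X'.ρ g f) = (muP p).ρ g (b m f) := by
  have h := hb g m f
  rwa [hm g] at h

/-- Evaluation at `m`, on the restrictions to `G_q`. -/
abbrev evq (q : ℕ) [Fact q.Prime] (m : X) : (Mq X' q) →ₗ[ZMod p] (Mq (muP p) q) := b m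

include hb in
theorem evq_equivariant (q : ℕ) [Fact q.Prime] {m : X} (hm : ∀ g : Gq q, X.ρ (rq q g) m = m)
    (g : Gq q) (f : Mq X' q) :
    evq b q m ((Mq X' q).ρ g f) = (Mq (muP p) q).ρ g (evq b q m f) := by
  have h := hb (rq q g) m f
  rwa [hm g] at h

/-- `m ↦ (ev_m)_*` on `H²(ℚ_q, -)`, additive in the invariant vector `m`. -/
def evH2 (q : ℕ) [Fact q.Prime] : ↥X.ρ.invariants →+ (Hq2 X' q →+ Hq2 (muP p) q) :=
  AddMonoidHom.mk' (fun m => (mapH2 (𝓑 := levelLoc q) (evq b q (m : X))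
      (evq_equivariant b hb q (fun g => m.2 (rq q g)))).toAddMonoidHom)
    (fun m m' => by
      ext x
      have e : evq b q ((m + m' : ↥X.ρ.invariants) : X) = evq b q (m : X) + evq b q (m' : X) := by
        rw [Submodule.coe_add]
        exact map_add b _ _
      have h := mapH2_add_fun (𝓑 := levelLoc q) (A := Mq X' q) (B := Mq (muP p) q)
        (evq b q (m : X)) (evq b q (m' : X))
        (evq_equivariant b hb q (fun g => m.2 (rq q g)))
        (evq_equivariant b hb q (fun g => m'.2 (rq q g)))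
        (by
          rw [← e]
          exact evq_equivariant b hb q (fun g => (m + m').2 (rq q g))) x
      change mapH2 (𝓑 := levelLoc q) (evq b q ((m + m' : ↥X.ρ.invariants) : X)) _ x =
        mapH2 (𝓑 := levelLoc q) (evq b q (m : X)) _ x + mapH2 (𝓑 := levelLoc q) (evq b q (m' : X)) _ x
      rw [← h]
      exact mapH2_congr_fun e _ _ _)

theorem evH2_apply (q : ℕ) [Fact q.Prime] (m : ↥X.ρ.invariants) (x : Hq2 X' q) :
    evH2 b hb q m x = mapH2 (𝓑 := levelLoc q) (evq b q (m : X))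
      (evq_equivariant b hb q (fun g => m.2 (rq q g))) x := rfl

/-- **(A4), `tail ≥`**: `#H⁰(G_S, X) · #range loc²_{X'} ≤ ∏_q #H²(ℚ_q, X')` for an equivariant
pairing `b : X × X' → μ_p`, given (LOC-20-PERF) at one prime `q₀ ∈ S`. -/
theorem tail_ge (hp2 : p ≠ 2) (hpS : pPrime p ∈ S) [Finite X]
    (hfin : ∀ q : ↥S, Finite (Hq2 X' ((q : Nat.Primes) : ℕ)))
    (q₀ : ↥S)
    (hperf : ∀ (m : X) (hm : ∀ g : Gq ((q₀ : Nat.Primes) : ℕ),
        X.ρ (rq ((q₀ : Nat.Primes) : ℕ) g) m = m), m ≠ 0 →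
      ∃ x : Hq2 X' ((q₀ : Nat.Primes) : ℕ),
        mapH2 (evq b ((q₀ : Nat.Primes) : ℕ) m)
          (evq_equivariant b hb ((q₀ : Nat.Primes) : ℕ) hm) x ≠ 0) :
    Nat.card ↥X.ρ.invariants * Nat.card ↥(LinearMap.range (loc2S S X')) ≤
      ∏ q : ↥S, Nat.card (Hq2 X' ((q : Nat.Primes) : ℕ)) := by
  classical
  haveI := hfin
  obtain ⟨inv, hinj, hrec⟩ := InvRecip1.exists_inv_recip p S hp2 hpS
  refine card_mul_le_of_local_pairings (p := p) (ι := ↥S) (D := ↥X.ρ.invariants)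
    (Hloc := fun q : ↥S => Hq2 X' ((q : Nat.Primes) : ℕ))
    (Hmu := fun q : ↥S => Hq2 (muP p) ((q : Nat.Primes) : ℕ)) inv hinj
    (fun q => evH2 b hb ((q : Nat.Primes) : ℕ)) q₀ ?_
    ((LinearMap.range (loc2S S X') : Submodule (ZMod p) _) : Set _) ?_
  · intro m hm0
    have hm0' : (m : X) ≠ 0 := fun h => hm0 (Subtype.ext h)
    obtain ⟨x₀, hx₀⟩ := hperf (m : X) (fun g => m.2 (rq ((q₀ : Nat.Primes) : ℕ) g)) hm0'
    exact ⟨x₀, hx₀⟩
  · -- orthogonality to the global classes: reciprocity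
    rintro m _ ⟨β, rfl⟩
    have h := hrec (mapH2 (𝓑 := levelS S) (b (m : X)) (evG_equivariant b hb (fun g => m.2 g)) β)
    rw [← h]
    refine Finset.sum_congr rfl (fun q _ => ?_)
    congr 1
    exact (ppH2_mapH2 (rq ((q : Nat.Primes) : ℕ)) (isLevelHom_rq S ((q : Nat.Primes) : ℕ))
      (b (m : X)) (evG_equivariant b hb (fun g => m.2 g)) (evq b ((q : Nat.Primes) : ℕ) (m : X))
      (evq_equivariant b hb ((q : Nat.Primes) : ℕ)
        (fun g => m.2 (rq ((q : Nat.Primes) : ℕ) g)))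
      LinearMap.id (fun _ _ => rfl) LinearMap.id (fun _ _ => rfl) (fun _ => rfl) β).symm

end Main

end

end Fermat.Agent.TW.GLOB.TailGe3
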