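/-
Programme T (S56), chapter T/GLOB, brick (A1) of T/plan/ADD (lead): **the long exact sequence of
level cohomology in counting form**.

For a short exact sequence `0 → A → B → C → 0` of discrete `G`-modules (`𝓑` a level basis of `G`)
with finite cohomology:

  `#A^G · #C^G · #H¹(B) · #H²(A) · #H²(C)
      = #B^G · #H¹(A) · #H¹(C) · #H²(B) · #coker (H²(B) → H²(C))`.

In particular (`card_les_le`) the Euler characteristic is submultiplicative, with equality
(`card_les_of_surjective`) as soon as `H²(B) → H²(C)` is onto.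
-/
import Mathlib
import Fermat.Agent.PT.PRO.LevelCoh28
import Fermat.Agent.PT.PRO.LevelCohRes28

set_option autoImplicit false
set_option linter.unusedSectionVars false

universe u

open CategoryTheory groupCohomology
open Fermat.Agent.PT.PRO.LevelCoh28 Fermat.Agent.PT.PRO.LevelCohRes28

namespace Fermat.Agent.TW.GLOB.LesCount0

/-! ### Counting along exact sequences -/

section Count

variable {k : Type*} [CommRing k] {X Y Z : Type*} [AddCommGroup X] [AddCommGroup Y]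
  [AddCommGroup Z] [Module k X] [Module k Y] [Module k Z]

theorem card_eq_ker_mul_range (f : X →ₗ[k] Y) :
    Nat.card X = Nat.card ↥(LinearMap.ker f) * Nat.card ↥(LinearMap.range f) := by
  have e : (X ⧸ LinearMap.ker f) ≃ₗ[k] ↥(LinearMap.range f) := f.quotKerEquivRange
  rw [← Nat.card_congr e.toEquiv]
  exact Submodule.card_eq_card_quotient_mul_card (LinearMap.ker f)

theorem card_eq_range_mul_range (f : X →ₗ[k] Y) (g : Y →ₗ[k] Z)
    (h : LinearMap.ker g = LinearMap.range f) :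
    Nat.card Y = Nat.card ↥(LinearMap.range f) * Nat.card ↥(LinearMap.range g) := by
  rw [card_eq_ker_mul_range g, h]

theorem card_eq_range_of_injective (f : X →ₗ[k] Y) (hf : Function.Injective f) :
    Nat.card X = Nat.card ↥(LinearMap.range f) :=
  Nat.card_congr (LinearEquiv.ofInjective f hf).toEquiv

theorem card_eq_range_mul_quot (g : Y →ₗ[k] Z) :
    Nat.card Z = Nat.card ↥(LinearMap.range g) * Nat.card (Z ⧸ LinearMap.range g) := by
  exact Submodule.card_eq_card_quotient_mul_card (LinearMap.range g)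

end Count

/-! ### The maps on invariants -/

section Inv

variable {k G : Type u} [CommRing k] [Group G] {A B C : Rep.{u} k G}
  (φ : A →ₗ[k] B) (hφ : ∀ g a, φ (A.ρ g a) = B.ρ g (φ a))

/-- The map induced on invariants. -/
def invMap : ↥A.ρ.invariants →ₗ[k] ↥B.ρ.invariants where
  toFun a := ⟨φ a, fun g => by rw [← hφ, a.2 g]⟩
  map_add' a b := Subtype.ext (map_add φ _ _)
  map_smul' r a := Subtype.ext (map_smul φ _ _)

@[simp] theorem invMap_coe (a : ↥A.ρ.invariants) : ((invMap φ hφ a : ↥B.ρ.invariants) : B) = φ a :=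
  rfl

theorem invMap_injective (hinj : Function.Injective φ) : Function.Injective (invMap φ hφ) := by
  intro a b h
  apply Subtype.ext
  apply hinj
  exact congrArg Subtype.val h

end Inv

/-! ### The count -/

section Les

variable {k G : Type u} [CommRing k] [Group G] {𝓑 : LevelBasis G} {A B C : Rep.{u} k G}
  (φ : A →ₗ[k] B) (hφ : ∀ g a, φ (A.ρ g a) = B.ρ g (φ a))
  (ψ : B →ₗ[k] C) (hψ : ∀ g b, ψ (B.ρ g b) = C.ρ g (ψ b))
  (hinj : Function.Injective φ) (hsurj : Function.Surjective ψ)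
  (hex : ∀ b, ψ b = 0 ↔ ∃ a, φ a = b) (hB : IsDiscrete 𝓑.sets B)

include hinj hex in
theorem ker_invMap : LinearMap.ker (invMap ψ hψ) = LinearMap.range (invMap φ hφ) := by
  ext b
  rw [LinearMap.mem_ker, LinearMap.mem_range]
  constructor
  · intro h
    have h1 : ψ (b : B) = 0 := congrArg Subtype.val h
    obtain ⟨a, ha⟩ := (hex _).1 h1
    refine ⟨⟨a, fun g => ?_⟩, Subtype.ext ha⟩
    apply hinj
    rw [hφ, ha, b.2 g]
  · rintro ⟨a, rfl⟩
    apply Subtype.ext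
    exact (hex _).2 ⟨a, rfl⟩

include hφ hinj hex hB in
theorem ker_delta0 :
    LinearMap.ker (delta0 (𝓑 := 𝓑) φ hφ ψ hψ hinj hsurj hex hB) =
      LinearMap.range (invMap ψ hψ) := by
  ext c
  rw [LinearMap.mem_ker, LinearMap.mem_range, delta0_eq_zero_iff]
  constructor
  · rintro ⟨b, hb, hbc⟩
    exact ⟨⟨b, hb⟩, Subtype.ext hbc⟩
  · rintro ⟨b, rfl⟩
    exact ⟨b, b.2, rfl⟩

include hφ hψ hinj hsurj hex hB in
/-- **The long exact sequence in counting form.** -/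
theorem card_les :
    Nat.card ↥A.ρ.invariants * Nat.card ↥C.ρ.invariants * Nat.card (H1 𝓑 B) *
        Nat.card (H2 𝓑 A) * Nat.card (H2 𝓑 C) =
      Nat.card ↥B.ρ.invariants * Nat.card (H1 𝓑 A) * Nat.card (H1 𝓑 C) * Nat.card (H2 𝓑 B) *
        Nat.card (H2 𝓑 C ⧸ LinearMap.range (mapH2 (𝓑 := 𝓑) ψ hψ)) := by
  have e0 := card_eq_range_of_injective (invMap φ hφ) (invMap_injective φ hφ hinj)
  have e1 := card_eq_range_mul_range (invMap φ hφ) (invMap ψ hψ) (ker_invMap φ hφ ψ hψ hinj hex)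
  have e2 := card_eq_range_mul_range (invMap ψ hψ) (delta0 (𝓑 := 𝓑) φ hφ ψ hψ hinj hsurj hex hB)
    (ker_delta0 φ hφ ψ hψ hinj hsurj hex hB)
  have e3 := card_eq_range_mul_range (delta0 (𝓑 := 𝓑) φ hφ ψ hψ hinj hsurj hex hB)
    (mapH1 (𝓑 := 𝓑) φ hφ) (ker_mapH1_eq_range_delta0 φ hφ ψ hψ hinj hsurj hex hB)
  have e4 := card_eq_range_mul_range (mapH1 (𝓑 := 𝓑) φ hφ) (mapH1 (𝓑 := 𝓑) ψ hψ)
    (ker_mapH1 φ hφ ψ hψ hinj hsurj hex hB)
  have e5 := card_eq_range_mul_range (mapH1 (𝓑 := 𝓑) ψ hψ)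
    (delta (𝓑 := 𝓑) φ hφ ψ hψ hinj hsurj hex hB) (ker_delta φ hφ ψ hψ hinj hsurj hex hB)
  have e6 := card_eq_range_mul_range (delta (𝓑 := 𝓑) φ hφ ψ hψ hinj hsurj hex hB)
    (mapH2 (𝓑 := 𝓑) φ hφ) (ker_mapH2 φ hφ ψ hψ hinj hsurj hex hB)
  have e7 := card_eq_range_mul_range (mapH2 (𝓑 := 𝓑) φ hφ) (mapH2 (𝓑 := 𝓑) ψ hψ)
    (ker_mapH2' φ hφ ψ hψ hinj hsurj hex hB)
  have e8 := card_eq_range_mul_quot (mapH2 (𝓑 := 𝓑) ψ hψ)
  rw [e0, e1, e2, e3, e4, e5, e6, e7]
  conv_lhs => rw [e8]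
  ring

include hφ hψ hinj hsurj hex hB in
/-- Equality when `H²(B) → H²(C)` is onto. -/
theorem card_les_of_surjective (h2 : Function.Surjective (mapH2 (𝓑 := 𝓑) ψ hψ)) :
    Nat.card ↥A.ρ.invariants * Nat.card ↥C.ρ.invariants * Nat.card (H1 𝓑 B) *
        Nat.card (H2 𝓑 A) * Nat.card (H2 𝓑 C) =
      Nat.card ↥B.ρ.invariants * Nat.card (H1 𝓑 A) * Nat.card (H1 𝓑 C) * Nat.card (H2 𝓑 B) := by
  rw [card_les φ hφ ψ hψ hinj hsurj hex hB]
  have : LinearMap.range (mapH2 (𝓑 := 𝓑) ψ hψ) = ⊤ := LinearMap.range_eq_top.2 h2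
  rw [this]
  have hs : Subsingleton (H2 𝓑 C ⧸ (⊤ : Submodule k (H2 𝓑 C))) :=
    Submodule.Quotient.subsingleton_iff.2 (by simp)
  have hq : Nat.card (H2 𝓑 C ⧸ (⊤ : Submodule k (H2 𝓑 C))) = 1 :=
    Nat.card_eq_one_iff_unique.2 ⟨hs, ⟨0⟩⟩
  rw [hq, mul_one]

include hφ hψ hinj hsurj hex hB in
/-- The Euler characteristic is submultiplicative. -/
theorem card_les_le [Finite (H2 𝓑 C)] :
    Nat.card ↥B.ρ.invariants * Nat.card (H1 𝓑 A) * Nat.card (H1 𝓑 C) * Nat.card (H2 𝓑 B) ≤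
      Nat.card ↥A.ρ.invariants * Nat.card ↥C.ρ.invariants * Nat.card (H1 𝓑 B) *
        Nat.card (H2 𝓑 A) * Nat.card (H2 𝓑 C) := by
  rw [card_les φ hφ ψ hψ hinj hsurj hex hB]
  haveI : Finite (H2 𝓑 C ⧸ LinearMap.range (mapH2 (𝓑 := 𝓑) ψ hψ)) :=
    Finite.of_surjective _ (Submodule.mkQ_surjective _)
  exact Nat.le_mul_of_pos_right _ Nat.card_pos

end Les

end Fermat.Agent.TW.GLOB.LesCount0
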