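/-
Programme T (S56, Taylor–Wiles primes), chapter GLOB, task T7 — helper5.

Functoriality lemmas for the coefficient maps `mapH1`, `mapH2` of the level cohomology
(`PT/PRO/LevelCoh28`): composition, identity, congruence, additivity, finite sums.
-/
import Mathlib
import Fermat.Agent.PT.PRO.LevelCoh28

set_option autoImplicit false
set_option linter.unusedSectionVars false

universe u

open Fermat.Agent.PT.PRO.LevelCoh28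

namespace Fermat.Agent.TW.GLOB.MapH5

variable {k G : Type u} [CommRing k] [Group G] {𝓑 : LevelBasis G} {A B C : Rep.{u} k G}

theorem comp_equivariant {φ : A →ₗ[k] B} (hφ : ∀ g a, φ (A.ρ g a) = B.ρ g (φ a))
    {ψ : B →ₗ[k] C} (hψ : ∀ g b, ψ (B.ρ g b) = C.ρ g (ψ b)) (g : G) (a : A) :
    (ψ ∘ₗ φ) (A.ρ g a) = C.ρ g ((ψ ∘ₗ φ) a) := by
  rw [LinearMap.comp_apply, hφ, hψ, LinearMap.comp_apply]

theorem add_equivariant {φ φ' : A →ₗ[k] B} (hφ : ∀ g a, φ (A.ρ g a) = B.ρ g (φ a))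
    (hφ' : ∀ g a, φ' (A.ρ g a) = B.ρ g (φ' a)) (g : G) (a : A) :
    (φ + φ') (A.ρ g a) = B.ρ g ((φ + φ') a) := by
  rw [LinearMap.add_apply, hφ, hφ', LinearMap.add_apply, map_add]

theorem zero_equivariant (g : G) (a : A) :
    (0 : A →ₗ[k] B) (A.ρ g a) = B.ρ g ((0 : A →ₗ[k] B) a) := by
  rw [LinearMap.zero_apply, LinearMap.zero_apply, map_zero]

theorem id_equivariant (g : G) (a : A) :
    (LinearMap.id : A →ₗ[k] A) (A.ρ g a) = A.ρ g ((LinearMap.id : A →ₗ[k] A) a) := rfl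

theorem sum_equivariant {ι : Type*} (s : Finset ι) {φ : ι → A →ₗ[k] B}
    (hφ : ∀ i g a, φ i (A.ρ g a) = B.ρ g (φ i a)) (g : G) (a : A) :
    (∑ i ∈ s, φ i) (A.ρ g a) = B.ρ g ((∑ i ∈ s, φ i) a) := by
  rw [LinearMap.sum_apply, LinearMap.sum_apply, map_sum]
  exact Finset.sum_congr rfl fun i _ => hφ i g a

/-! ### Degree 2 -/

theorem mapH2_congr {φ φ' : A →ₗ[k] B} (h : φ = φ') (hφ : ∀ g a, φ (A.ρ g a) = B.ρ g (φ a))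
    (hφ' : ∀ g a, φ' (A.ρ g a) = B.ρ g (φ' a)) (x : H2 𝓑 A) :
    mapH2 (𝓑 := 𝓑) φ hφ x = mapH2 (𝓑 := 𝓑) φ' hφ' x := by
  subst h
  rfl

theorem mapH2_comp {φ : A →ₗ[k] B} (hφ : ∀ g a, φ (A.ρ g a) = B.ρ g (φ a))
    {ψ : B →ₗ[k] C} (hψ : ∀ g b, ψ (B.ρ g b) = C.ρ g (ψ b)) (x : H2 𝓑 A) :
    mapH2 (𝓑 := 𝓑) ψ hψ (mapH2 (𝓑 := 𝓑) φ hφ x) =
      mapH2 (𝓑 := 𝓑) (ψ ∘ₗ φ) (comp_equivariant hφ hψ) x := by
  obtain ⟨c, rfl⟩ := H2mk_surjective 𝓑 A x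
  rfl

theorem mapH2_id (h : ∀ g a, (LinearMap.id : A →ₗ[k] A) (A.ρ g a) =
    A.ρ g ((LinearMap.id : A →ₗ[k] A) a)) (x : H2 𝓑 A) :
    mapH2 (𝓑 := 𝓑) (LinearMap.id : A →ₗ[k] A) h x = x := by
  obtain ⟨c, rfl⟩ := H2mk_surjective 𝓑 A x
  rfl

theorem mapH2_zero (h : ∀ g a, (0 : A →ₗ[k] B) (A.ρ g a) = B.ρ g ((0 : A →ₗ[k] B) a))
    (x : H2 𝓑 A) : mapH2 (𝓑 := 𝓑) (0 : A →ₗ[k] B) h x = 0 := by
  obtain ⟨c, rfl⟩ := H2mk_surjective 𝓑 A x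
  rw [mapH2_mk, ← map_zero (H2mk 𝓑 B)]
  congr 1

theorem mapH2_add {φ φ' : A →ₗ[k] B} (hφ : ∀ g a, φ (A.ρ g a) = B.ρ g (φ a))
    (hφ' : ∀ g a, φ' (A.ρ g a) = B.ρ g (φ' a)) (x : H2 𝓑 A) :
    mapH2 (𝓑 := 𝓑) (φ + φ') (add_equivariant hφ hφ') x =
      mapH2 (𝓑 := 𝓑) φ hφ x + mapH2 (𝓑 := 𝓑) φ' hφ' x := by
  obtain ⟨c, rfl⟩ := H2mk_surjective 𝓑 A x
  rw [mapH2_mk, mapH2_mk, mapH2_mk, ← map_add]
  congr 1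

theorem mapH2_sum {ι : Type*} [DecidableEq ι] (s : Finset ι) {φ : ι → A →ₗ[k] B}
    (hφ : ∀ i g a, φ i (A.ρ g a) = B.ρ g (φ i a)) (x : H2 𝓑 A) :
    mapH2 (𝓑 := 𝓑) (∑ i ∈ s, φ i) (sum_equivariant s hφ) x =
      ∑ i ∈ s, mapH2 (𝓑 := 𝓑) (φ i) (hφ i) x := by
  induction s using Finset.induction_on with
  | empty =>
    simp only [Finset.sum_empty]
    exact mapH2_zero _ x
  | insert i s hi ih =>
    have h1 : ∑ j ∈ insert i s, mapH2 (𝓑 := 𝓑) (φ j) (hφ j) x =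
        mapH2 (𝓑 := 𝓑) (φ i) (hφ i) x + ∑ j ∈ s, mapH2 (𝓑 := 𝓑) (φ j) (hφ j) x :=
      Finset.sum_insert hi
    rw [h1, ← ih, ← mapH2_add (hφ i) (sum_equivariant s hφ)]
    exact mapH2_congr (Finset.sum_insert hi) _ _ x

/-! ### Degree 1 -/

theorem mapH1_congr {φ φ' : A →ₗ[k] B} (h : φ = φ') (hφ : ∀ g a, φ (A.ρ g a) = B.ρ g (φ a))
    (hφ' : ∀ g a, φ' (A.ρ g a) = B.ρ g (φ' a)) (x : H1 𝓑 A) :
    mapH1 (𝓑 := 𝓑) φ hφ x = mapH1 (𝓑 := 𝓑) φ' hφ' x := by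
  subst h
  rfl

theorem mapH1_comp {φ : A →ₗ[k] B} (hφ : ∀ g a, φ (A.ρ g a) = B.ρ g (φ a))
    {ψ : B →ₗ[k] C} (hψ : ∀ g b, ψ (B.ρ g b) = C.ρ g (ψ b)) (x : H1 𝓑 A) :
    mapH1 (𝓑 := 𝓑) ψ hψ (mapH1 (𝓑 := 𝓑) φ hφ x) =
      mapH1 (𝓑 := 𝓑) (ψ ∘ₗ φ) (comp_equivariant hφ hψ) x := by
  obtain ⟨c, rfl⟩ := H1mk_surjective 𝓑 A x
  rfl

theorem mapH1_id (h : ∀ g a, (LinearMap.id : A →ₗ[k] A) (A.ρ g a) =
    A.ρ g ((LinearMap.id : A →ₗ[k] A) a)) (x : H1 𝓑 A) :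
    mapH1 (𝓑 := 𝓑) (LinearMap.id : A →ₗ[k] A) h x = x := by
  obtain ⟨c, rfl⟩ := H1mk_surjective 𝓑 A x
  rfl

end Fermat.Agent.TW.GLOB.MapH5
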