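/-
PROGRAMME T (S56), chapter GLOB, brick (A7) of T/plan/ADD — helper3.  `AddEuler3`: **(ADD)**,
multiplicativity of the global Euler characteristic `E(X) = h⁰(X) h²(X) / h¹(X)` on short exact
sequences of finite discrete `G_S`-modules (= helper6's `EulerInv6.AddHyp S`), by the SQUEEZE:

* `LesCount0.card_les` for `0 → A → B → C → 0`:          `E(A) E(C) = E(B) κ`,  `κ = #coker(H²(B) → H²(C))`;
* `LesCount0.card_les` for the dual `0 → C' → B' → A' → 0`: `E(A') E(C') = E(B') κ'`;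
* the nine-term count `NineHyp S` (brick (A6)):           `E(X) E(X') = ∏_{q ∈ S} E_q(X)`;
* local additivity `LocalPerf2.card_les_local'`:           `E_q(B) = E_q(A) E_q(C)`;
hence `κ κ' = 1`.

* `dualMap χ φ : B^*(χ) → A^*(χ)` (transpose), equivariance, exactness of the dual sequence;
* `squeeze` : the arithmetic;
* `NineHyp S`;
* **`addHyp_of_nine`** : `NineHyp S → (∀ q ∈ S, NatHyp q p) → AddHyp S`.
-/
import Mathlib
import Fermat.Agent.TW.GLOB.EulerInv6
import Fermat.Agent.TW.GLOB.LesCount0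
import Fermat.Agent.TW.LOC.LocalPerf2
import Fermat.Agent.TW.LOC.FiniteH1Loc6

set_option autoImplicit false
set_option linter.unusedSectionVars false
set_option linter.style.haveILetI false

open ExtCitation
open Fermat.Agent.PT.PRO.LevelCoh28 Fermat.Agent.PT.PRO.LevelCohRes28
open Fermat.Agent.PT.GLUE.Objects21
open Fermat.Agent.TW.DEF.Basic1 Fermat.Agent.TW.GLOB.GWNumeric1
open Fermat.Agent.TW.GLOB.FiniteHS6 Fermat.Agent.TW.GLOB.EulerInv6
open Fermat.Agent.TW.LOC.LocalRE2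

namespace Fermat.Agent.TW.GLOB.AddEuler3

noncomputable section

/-! ### The dual of a short exact sequence -/

section Dual

variable {k : Type} [Field k] {G : Type} [Group G] (χ : G →* kˣ) {A B C : Rep.{0} k G}
  (φ : A →ₗ[k] B) (hφ : ∀ g a, φ (A.ρ g a) = B.ρ g (φ a))
  (ψ : B →ₗ[k] C) (hψ : ∀ g b, ψ (B.ρ g b) = C.ρ g (ψ b))

/-- The transpose `B^*(χ) → A^*(χ)`. -/
def dualMap : (B.dualTwist χ) →ₗ[k] (A.dualTwist χ) := φ.dualMap

theorem dualMap_apply (f : B.dualTwist χ) (a : A) :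
    (dualMap χ φ f : Module.Dual k A) a = (f : Module.Dual k B) (φ a) := rfl

include hφ in
theorem dualMap_equivariant (g : G) (f : B.dualTwist χ) :
    dualMap χ φ ((B.dualTwist χ).ρ g f) = (A.dualTwist χ).ρ g (dualMap χ φ f) := by
  apply LinearMap.ext
  intro a
  rw [Rep.dualTwist_ρ_apply, dualMap_apply, Rep.dualTwist_ρ_apply, LinearMap.smul_apply,
    LinearMap.smul_apply, LinearMap.comp_apply, LinearMap.comp_apply, dualMap_apply, hφ]

theorem dualMap_injective (hsurj : Function.Surjective ψ) :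
    Function.Injective (dualMap χ ψ) :=
  LinearMap.dualMap_injective_of_surjective hsurj

theorem dualMap_surjective (hinj : Function.Injective φ) :
    Function.Surjective (dualMap χ φ) :=
  LinearMap.dualMap_surjective_of_injective hinj

theorem dualMap_exact (hex : ∀ b, ψ b = 0 ↔ ∃ a, φ a = b) (f : B.dualTwist χ) :
    dualMap χ φ f = 0 ↔ ∃ h : C.dualTwist χ, dualMap χ ψ h = f := by
  constructor
  · intro hf
    have hmem : (f : Module.Dual k B) ∈ LinearMap.range ψ.dualMap := by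
      rw [LinearMap.range_dualMap_eq_dualAnnihilator_ker, Submodule.mem_dualAnnihilator]
      intro b hb
      obtain ⟨a, rfl⟩ := (hex b).1 (LinearMap.mem_ker.1 hb)
      exact LinearMap.congr_fun hf a
    obtain ⟨h, hh⟩ := hmem
    exact ⟨h, hh⟩
  · rintro ⟨h, rfl⟩
    apply LinearMap.ext
    intro a
    rw [dualMap_apply, dualMap_apply, (hex (φ a)).2 ⟨a, rfl⟩, map_zero]
    rfl

end Dual

/-! ### The arithmetic of the squeeze -/

theorem squeeze {ι : Type*} (s : Finset ι)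
    {a0 a1 a2 a0' a1' a2' b0 b1 b2 b0' b1' b2' c0 c1 c2 c0' c1' c2' κ κ' : ℕ}
    {la0 la1 la2 lb0 lb1 lb2 lc0 lc1 lc2 : ι → ℕ}
    (hG : a0 * c0 * b1 * a2 * c2 = b0 * a1 * c1 * b2 * κ)
    (hG' : c0' * a0' * b1' * c2' * a2' = b0' * c1' * a1' * b2' * κ')
    (hL : ∀ q ∈ s, la0 q * lc0 q * lb1 q * la2 q * lc2 q = lb0 q * la1 q * lc1 q * lb2 q)
    (hA : a0 * a2 * a0' * a2' * ∏ q ∈ s, la1 q = a1 * a1' * ∏ q ∈ s, (la0 q * la2 q))
    (hB : b0 * b2 * b0' * b2' * ∏ q ∈ s, lb1 q = b1 * b1' * ∏ q ∈ s, (lb0 q * lb2 q))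
    (hC : c0 * c2 * c0' * c2' * ∏ q ∈ s, lc1 q = c1 * c1' * ∏ q ∈ s, (lc0 q * lc2 q))
    (hpos : 0 < a1 * a1' * c1 * c1' * b1 * b1')
    (hposl : ∀ q ∈ s, 0 < lb0 q * lb2 q * la1 q * lc1 q) : κ = 1 := by
  set A0 := ∏ q ∈ s, (la0 q * la2 q) with hA0
  set A1 := ∏ q ∈ s, la1 q with hA1
  set B0 := ∏ q ∈ s, (lb0 q * lb2 q) with hB0
  set B1 := ∏ q ∈ s, lb1 q with hB1
  set C0 := ∏ q ∈ s, (lc0 q * lc2 q) with hC0
  set C1 := ∏ q ∈ s, lc1 q with hC1
  have hLL : A0 * C0 * B1 = B0 * A1 * C1 := by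
    rw [hA0, hC0, hB1, hB0, hA1, hC1, ← Finset.prod_mul_distrib, ← Finset.prod_mul_distrib,
      ← Finset.prod_mul_distrib, ← Finset.prod_mul_distrib]
    refine Finset.prod_congr rfl fun q hq => ?_
    calc la0 q * la2 q * (lc0 q * lc2 q) * lb1 q
        = la0 q * lc0 q * lb1 q * la2 q * lc2 q := by ring
      _ = lb0 q * la1 q * lc1 q * lb2 q := hL q hq
      _ = lb0 q * lb2 q * la1 q * lc1 q := by ring
  have hposl' : 0 < B0 * A1 * C1 := by
    rw [hB0, hA1, hC1, ← Finset.prod_mul_distrib, ← Finset.prod_mul_distrib]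
    exact Finset.prod_pos hposl
  set K := a1 * a1' * c1 * c1' * b1 * b1' * (B0 * A1 * C1) with hK
  have hKpos : 0 < K := Nat.mul_pos hpos hposl'
  have key : K * (κ * κ') = K * 1 := by
    rw [mul_one]
    calc K * (κ * κ')
        = (b1 * b1' * B0) * (a1 * a1' * c1 * c1' * A1 * C1 * (κ * κ')) := by rw [hK]; ring
      _ = (b0 * b2 * b0' * b2' * B1) * (a1 * a1' * c1 * c1' * A1 * C1 * (κ * κ')) := by rw [hB]
      _ = ((b0 * a1 * c1 * b2 * κ) * (b0' * c1' * a1' * b2' * κ')) * (B1 * A1 * C1) := by ring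
      _ = ((a0 * c0 * b1 * a2 * c2) * (c0' * a0' * b1' * c2' * a2')) * (B1 * A1 * C1) := by
          rw [hG, hG']
      _ = (a0 * a2 * a0' * a2' * A1) * (c0 * c2 * c0' * c2' * C1) * (b1 * b1' * B1) := by ring
      _ = (a1 * a1' * A0) * (c1 * c1' * C0) * (b1 * b1' * B1) := by rw [hA, hC]
      _ = a1 * a1' * c1 * c1' * b1 * b1' * (A0 * C0 * B1) := by ring
      _ = a1 * a1' * c1 * c1' * b1 * b1' * (B0 * A1 * C1) := by rw [hLL]
  have h1 : κ * κ' = 1 := Nat.eq_of_mul_eq_mul_left hKpos key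
  exact Nat.eq_one_of_mul_eq_one_right h1

/-! ### (ADD) from the nine-term count -/

section Main

variable {p : ℕ} [Fact p.Prime] (S : Finset Nat.Primes)

/-- **(A6), the nine-term count**, cross-multiplied: `E(X) E(X') = ∏_{q ∈ S} E_q(X)`. -/
def NineHyp : Prop :=
  ∀ (X X' : Rep.{0} (ZMod p) GQ) [Finite X], X' = X.dualTwist (cycloChar p) →
    IsDiscrete (levelS S).sets X →
    Nat.card ↥X.ρ.invariants * Nat.card (HS2 S X) * Nat.card ↥X'.ρ.invariants *
        Nat.card (HS2 S X') * ∏ q : ↥S, Nat.card (Hq1 X ((q : Nat.Primes) : ℕ)) =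
      Nat.card (HS1 S X) * Nat.card (HS1 S X') *
        ∏ q : ↥S, (Nat.card ↥(Mq X ((q : Nat.Primes) : ℕ)).ρ.invariants *
          Nat.card (Hq2 X ((q : Nat.Primes) : ℕ)))

/-- The cokernel of `H²(B) → H²(C)` is trivial: the squeeze. -/
theorem card_coker_eq_one (hp2 : p ≠ 2) (hpS : pPrime p ∈ S) (hnine : NineHyp (p := p) S)
    (hnat : ∀ q : ↥S, NatHyp ((q : Nat.Primes) : ℕ) p)
    (A B C : Rep.{0} (ZMod p) GQ) [Finite A] [Finite B] [Finite C]
    (hA : IsDiscrete (levelS S).sets A) (hB : IsDiscrete (levelS S).sets B)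
    (hC : IsDiscrete (levelS S).sets C)
    (φ : A →ₗ[ZMod p] B) (hφ : ∀ g a, φ (A.ρ g a) = B.ρ g (φ a))
    (ψ : B →ₗ[ZMod p] C) (hψ : ∀ g b, ψ (B.ρ g b) = C.ρ g (ψ b))
    (hinj : Function.Injective φ) (hsurj : Function.Surjective ψ)
    (hex : ∀ b, ψ b = 0 ↔ ∃ a, φ a = b) :
    Nat.card (HS2 S C ⧸ LinearMap.range (mapH2 (𝓑 := levelS S) ψ hψ)) = 1 := by
  have hB' := isDiscrete_dualTwist S hpS B hB
  have hG := LesCount0.card_les (𝓑 := levelS S) φ hφ ψ hψ hinj hsurj hex hB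
  have hG' := LesCount0.card_les (𝓑 := levelS S) (dualMap (cycloChar p) ψ)
    (dualMap_equivariant (cycloChar p) ψ hψ) (dualMap (cycloChar p) φ)
    (dualMap_equivariant (cycloChar p) φ hφ) (dualMap_injective (cycloChar p) ψ hsurj)
    (dualMap_surjective (cycloChar p) φ hinj) (dualMap_exact (cycloChar p) φ ψ hex) hB'
  have hL : ∀ q ∈ (Finset.univ : Finset ↥S),
      Nat.card ↥(Mq A ((q : Nat.Primes) : ℕ)).ρ.invariants *
        Nat.card ↥(Mq C ((q : Nat.Primes) : ℕ)).ρ.invariants *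
        Nat.card (Hq1 B ((q : Nat.Primes) : ℕ)) * Nat.card (Hq2 A ((q : Nat.Primes) : ℕ)) *
        Nat.card (Hq2 C ((q : Nat.Primes) : ℕ)) =
      Nat.card ↥(Mq B ((q : Nat.Primes) : ℕ)).ρ.invariants *
        Nat.card (Hq1 A ((q : Nat.Primes) : ℕ)) * Nat.card (Hq1 C ((q : Nat.Primes) : ℕ)) *
        Nat.card (Hq2 B ((q : Nat.Primes) : ℕ)) := by
    intro q _
    haveI : Finite (Mq B ((q : Nat.Primes) : ℕ)) := inferInstanceAs (Finite B)
    haveI : Finite (Mq C ((q : Nat.Primes) : ℕ)) := inferInstanceAs (Finite C)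
    exact Fermat.Agent.TW.LOC.LocalPerf2.card_les_local' (hnat q)
      (A := Mq A ((q : Nat.Primes) : ℕ)) (B := Mq B ((q : Nat.Primes) : ℕ))
      (C := Mq C ((q : Nat.Primes) : ℕ))
      (isDiscrete_Mq S B hB ((q : Nat.Primes) : ℕ)) (isDiscrete_Mq S C hC ((q : Nat.Primes) : ℕ))
      φ (fun g a => hφ (rq ((q : Nat.Primes) : ℕ) g) a) ψ
      (fun g b => hψ (rq ((q : Nat.Primes) : ℕ) g) b) hinj hsurj hex
  have hNA := hnine A _ rfl hA
  have hNB := hnine B _ rfl hB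
  have hNC := hnine C _ rfl hC
  haveI := finite_HS1 S hpS A hA
  haveI := finite_HS1 S hpS B hB
  haveI := finite_HS1 S hpS C hC
  haveI := finite_HS1_dualTwist S hpS A hA
  haveI := finite_HS1_dualTwist S hpS B hB
  haveI := finite_HS1_dualTwist S hpS C hC
  have hpos : 0 < Nat.card (HS1 S A) * Nat.card (HS1 S (A.dualTwist (cycloChar p))) *
      Nat.card (HS1 S C) * Nat.card (HS1 S (C.dualTwist (cycloChar p))) *
      Nat.card (HS1 S B) * Nat.card (HS1 S (B.dualTwist (cycloChar p))) := by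
    have h1 : 0 < Nat.card (HS1 S A) := Nat.card_pos
    have h2 : 0 < Nat.card (HS1 S (A.dualTwist (cycloChar p))) := Nat.card_pos
    have h3 : 0 < Nat.card (HS1 S C) := Nat.card_pos
    have h4 : 0 < Nat.card (HS1 S (C.dualTwist (cycloChar p))) := Nat.card_pos
    have h5 : 0 < Nat.card (HS1 S B) := Nat.card_pos
    have h6 : 0 < Nat.card (HS1 S (B.dualTwist (cycloChar p))) := Nat.card_pos
    positivity
  have hposl : ∀ q ∈ (Finset.univ : Finset ↥S),
      0 < Nat.card ↥(Mq B ((q : Nat.Primes) : ℕ)).ρ.invariants *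
        Nat.card (Hq2 B ((q : Nat.Primes) : ℕ)) * Nat.card (Hq1 A ((q : Nat.Primes) : ℕ)) *
        Nat.card (Hq1 C ((q : Nat.Primes) : ℕ)) := by
    intro q _
    haveI : Finite (Mq B ((q : Nat.Primes) : ℕ)) := inferInstanceAs (Finite B)
    haveI := finite_Hq2 S B hB ((q : Nat.Primes) : ℕ)
    haveI := Fermat.Agent.TW.LOC.FiniteH1Loc6.finite_Hq1_of_levelS hp2 S A hA
      ((q : Nat.Primes) : ℕ)
    haveI := Fermat.Agent.TW.LOC.FiniteH1Loc6.finite_Hq1_of_levelS hp2 S C hC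
      ((q : Nat.Primes) : ℕ)
    have h1 : 0 < Nat.card ↥(Mq B ((q : Nat.Primes) : ℕ)).ρ.invariants := Nat.card_pos
    have h2 : 0 < Nat.card (Hq2 B ((q : Nat.Primes) : ℕ)) := Nat.card_pos
    have h3 : 0 < Nat.card (Hq1 A ((q : Nat.Primes) : ℕ)) := Nat.card_pos
    have h4 : 0 < Nat.card (Hq1 C ((q : Nat.Primes) : ℕ)) := Nat.card_pos
    positivity
  exact squeeze (Finset.univ : Finset ↥S) hG hG' hL hNA hNB hNC hpos hposl

/-- **(ADD)** from the nine-term count (A6) and (LOC-20-NAT) at the primes of `S`. -/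
theorem addHyp_of_nine (hp2 : p ≠ 2) (hpS : pPrime p ∈ S) (hnine : NineHyp (p := p) S)
    (hnat : ∀ q : ↥S, NatHyp ((q : Nat.Primes) : ℕ) p) : AddHyp (p := p) S := by
  intro A B C _ _ _ hA hB hC φ hφ ψ hψ hinj hsurj hex
  have hκ := card_coker_eq_one S hp2 hpS hnine hnat A B C hA hB hC φ hφ ψ hψ hinj hsurj hex
  have hG := LesCount0.card_les (𝓑 := levelS S) φ hφ ψ hψ hinj hsurj hex hB
  rw [hκ, mul_one] at hG
  exact hG

end Main

end

end Fermat.Agent.TW.GLOB.AddEuler3
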