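/-
Programme T (S56), chapter T/GLOB, brick (A6) of T/plan/ADD (lead): **the nine-term Poitou–Tate
sequence in counting form**.

`X, X' : Rep (ZMod p) GQ` (in practice `X' = X^*(1)`), `S` a finite set of primes.  Write
`h^i(X) = #H^i(G_S, X)`, `h^i_q(X) = #H^i(ℚ_q, X)`, `r^i(X) = #range(loc^i_X)`.  From

* `tail`  : `h⁰(X) * r²(X') = ∏_q h²_q(X')`         (end of Poitou–Tate, (A3)+(A4) for `X`),
* `tail'` : `h⁰(X') * r²(X) = ∏_q h²_q(X)`          (the same for `X'`, via `X'' = X`),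
* `mid`   : `r¹(X) * r¹(X') = ∏_q h¹_q(X)`          (middle exactness + local duality, (A5)),
* `sha`   : `#Ш¹(X) = #Ш²(X')`, `sha' : #Ш¹(X') = #Ш²(X)`   (S55, both ways),

we get the **nine-term count** (`NineTerm S X X'`)

  `h⁰(X) h²(X) h⁰(X') h²(X') ∏_q h¹_q(X) = h¹(X) h¹(X') ∏_q h²_q(X') ∏_q h²_q(X)`,

i.e. (with `h²_q(X') = h⁰_q(X)`) `χ(G_S, X) χ(G_S, X') = ∏_q χ(ℚ_q, X)`.
-/
import Mathlib
import Fermat.Agent.TW.GLOB.GWNumeric1
import Fermat.Agent.TW.GLOB.LesCount0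

set_option autoImplicit false
set_option linter.unusedSectionVars false

open Fermat.Agent.PT.PRO.LevelCoh28 Fermat.Agent.PT.GLUE.Objects21
open Fermat.Agent.TW.DEF.Basic1 Fermat.Agent.TW.GLOB.GWNumeric1

namespace Fermat.Agent.TW.GLOB.NineTerm0

noncomputable section

/-- Arithmetic behind `nine_term`. -/
theorem nineTerm_arith {x0 x0' x1 x1' x2 x2' s1 s1' s2 s2' r1 r1' r2 r2' P1 P2 P2' : ℕ}
    (e1 : x1 = s1 * r1) (e1' : x1' = s1' * r1') (e2 : x2 = s2 * r2) (e2' : x2' = s2' * r2')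
    (hs : s1 = s2') (hs' : s1' = s2)
    (t : x0 * r2' = P2') (t' : x0' * r2 = P2)
    (m : r1 * r1' = P1) :
    x0 * x2 * x0' * x2' * P1 = x1 * x1' * P2' * P2 := by
  subst e1 e1' e2 e2' hs hs' t t' m
  ring

/-- `#H = #ker f * #range f` for a map into a product (stated with the family explicit, which
keeps unification cheap at the cohomology groups). -/
theorem card_eq_ker_mul_range_pi {k : Type*} [CommRing k] {H : Type*} [AddCommGroup H]
    [Module k H] {ι : Type*} {P : ι → Type*} [∀ i, AddCommGroup (P i)] [∀ i, Module k (P i)]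
    (f : H →ₗ[k] ∀ i, P i) :
    Nat.card H = Nat.card ↥(LinearMap.ker f) * Nat.card ↥(LinearMap.range f) :=
  LesCount0.card_eq_ker_mul_range f

variable {p : ℕ} [Fact p.Prime] (S : Finset Nat.Primes) (X X' : Rep.{0} (ZMod p) GQ)

/-- The nine-term count for the pair `(X, X')`. -/
def NineTerm : Prop :=
  Nat.card ↥X.ρ.invariants * Nat.card (HS2 S X) * Nat.card ↥X'.ρ.invariants *
      Nat.card (HS2 S X') * ∏ q : ↥S, Nat.card (Hq1 X ((q : Nat.Primes) : ℕ)) =
    Nat.card (HS1 S X) * Nat.card (HS1 S X') *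
      (∏ q : ↥S, Nat.card (Hq2 X' ((q : Nat.Primes) : ℕ))) *
      ∏ q : ↥S, Nat.card (Hq2 X ((q : Nat.Primes) : ℕ))

theorem card_HS1_eq : Nat.card (HS1 S X) =
    Nat.card ↥(sha1 S X) * Nat.card ↥(LinearMap.range (locS S X)) := by
  have e := card_eq_ker_mul_range_pi (P := fun q : ↥S => Hq1 X ((q : Nat.Primes) : ℕ)) (locS S X)
  unfold sha1
  exact e

theorem card_HS2_eq : Nat.card (HS2 S X) =
    Nat.card ↥(sha2 S X) * Nat.card ↥(LinearMap.range (loc2S S X)) := by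
  have e := card_eq_ker_mul_range_pi (P := fun q : ↥S => Hq2 X ((q : Nat.Primes) : ℕ)) (loc2S S X)
  unfold sha2
  exact e

/-- **The nine-term count** from its five inputs. -/
theorem nine_term
    (tail : Nat.card ↥X.ρ.invariants * Nat.card ↥(LinearMap.range (loc2S S X')) =
      ∏ q : ↥S, Nat.card (Hq2 X' ((q : Nat.Primes) : ℕ)))
    (tail' : Nat.card ↥X'.ρ.invariants * Nat.card ↥(LinearMap.range (loc2S S X)) =
      ∏ q : ↥S, Nat.card (Hq2 X ((q : Nat.Primes) : ℕ)))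
    (mid : Nat.card ↥(LinearMap.range (locS S X)) * Nat.card ↥(LinearMap.range (locS S X')) =
      ∏ q : ↥S, Nat.card (Hq1 X ((q : Nat.Primes) : ℕ)))
    (sha : Nat.card ↥(sha1 S X) = Nat.card ↥(sha2 S X'))
    (sha' : Nat.card ↥(sha1 S X') = Nat.card ↥(sha2 S X)) :
    NineTerm S X X' :=
  nineTerm_arith (card_HS1_eq S X) (card_HS1_eq S X') (card_HS2_eq S X) (card_HS2_eq S X')
    sha sha' tail tail' mid

/-- The `tail` input from the two inequalities (A3) (`GWInputs.tail` shape) and (A4). -/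
theorem tail_of_le [Finite ↥(sha2 S X')]
    (hle : Nat.card ↥(sha2 S X') * ∏ q : ↥S, Nat.card (Hq2 X' ((q : Nat.Primes) : ℕ)) ≤
      Nat.card (HS2 S X') * Nat.card ↥X.ρ.invariants)
    (hge : Nat.card ↥X.ρ.invariants * Nat.card ↥(LinearMap.range (loc2S S X')) ≤
      ∏ q : ↥S, Nat.card (Hq2 X' ((q : Nat.Primes) : ℕ))) :
    Nat.card ↥X.ρ.invariants * Nat.card ↥(LinearMap.range (loc2S S X')) =
      ∏ q : ↥S, Nat.card (Hq2 X' ((q : Nat.Primes) : ℕ)) := by
  refine le_antisymm hge ?_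
  have hpos : 0 < Nat.card ↥(sha2 S X') := Nat.card_pos
  refine Nat.le_of_mul_le_mul_left ?_ hpos
  calc Nat.card ↥(sha2 S X') * ∏ q : ↥S, Nat.card (Hq2 X' ((q : Nat.Primes) : ℕ))
      ≤ Nat.card (HS2 S X') * Nat.card ↥X.ρ.invariants := hle
    _ = Nat.card ↥(sha2 S X') *
        (Nat.card ↥X.ρ.invariants * Nat.card ↥(LinearMap.range (loc2S S X'))) := by
        rw [card_HS2_eq S X']; ring

end

end Fermat.Agent.TW.GLOB.NineTerm0
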