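/-
Programme T (S56, Taylor–Wiles primes), chapter GLOB (helper8): `ShaCount8` for a FINITE DISCRETE
`G_S`-module.

`X : Rep.{0} (ZMod p) GQ` finite with `hX : IsDiscrete (levelS S).sets X` (the standing hypotheses of the
(ADD)/(GW) chain) satisfies the hypotheses `hsm`, `hMur` of S55:
* `smooth_of_isDiscrete`, `unram_of_isDiscrete`;
* `card_sha1_of_isDiscrete` : `Finite (sha1 S X) ∧ Finite (sha2 S X') ∧ #sha1 S X = #sha2 S X'`;
* `card_sha1_dualTwist_of_isDiscrete` : `Finite (sha1 S X') ∧ Finite (sha2 S X) ∧ #sha1 S X' = #sha2 S X`,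
  where `X' = X.dualTwist (cycloChar p)`, `p` odd, `pPrime p ∈ S`.
-/
import Mathlib
import Fermat.Agent.TW.GLOB.ShaCount8

set_option autoImplicit false
set_option linter.unusedSectionVars false
set_option linter.style.haveILetI false

open groupCohomology ExtCitation
open Fermat.Agent.PT.PRO Fermat.Agent.PT.PRO.LevelCoh28
open Fermat.Agent.PT.GLUE Fermat.Agent.PT.GLUE.Objects21
open Fermat.Agent.TW.DEF.Basic1 Fermat.Agent.TW.GLOB.GWNumeric1

namespace Fermat.Agent.TW.GLOB.ShaDisc8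

noncomputable section

variable {p : ℕ} [Fact p.Prime]

/-- A discrete `G_S`-module is smooth (hypothesis `hsm` of S55). -/
theorem smooth_of_isDiscrete (S : Finset Nat.Primes) (X : Rep.{0} (ZMod p) GQ)
    (hX : IsDiscrete (levelS S).sets X) (m : X) :
    ∃ F : IntermediateField ℚ (AlgebraicClosure ℚ), FiniteDimensional ℚ F ∧
      ∀ s ∈ F.fixingSubgroup, X.ρ s m = m := by
  obtain ⟨U, ⟨F, hF, rfl⟩, hU⟩ := hX m
  exact ⟨F, hF.1, fun s hs => hU s hs⟩

/-- A discrete `G_S`-module is unramified outside `S` (hypothesis `hMur` of S55). -/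
theorem unram_of_isDiscrete (S : Finset Nat.Primes) (X : Rep.{0} (ZMod p) GQ)
    (hX : IsDiscrete (levelS S).sets X) (q : Nat.Primes) (hq : q ∉ S)
    (A : ValuationSubring (AlgebraicClosure ℚ)) (hA : A.LiesOverPrime (q : ℕ))
    (g : GQ) (hg : g ∈ A.inertiaSubgroupIn ℚ) : X.ρ g = 1 := by
  ext m
  obtain ⟨U, ⟨F, hF, rfl⟩, hU⟩ := hX m
  exact hU g (hF.2 q hq A hA hg)

/-- **`#Ш¹_S(X) = #Ш²_S(X^*(1))`** for a finite discrete `G_S`-module `X`. -/
theorem card_sha1_of_isDiscrete (hp2 : p ≠ 2) (S : Finset Nat.Primes) (hpS : pPrime p ∈ S)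
    (X : Rep.{0} (ZMod p) GQ) [Finite X] (hX : IsDiscrete (levelS S).sets X) :
    Finite ↥(sha1 S X) ∧ Finite ↥(sha2 S (X.dualTwist (cycloChar p))) ∧
      Nat.card ↥(sha1 S X) = Nat.card ↥(sha2 S (X.dualTwist (cycloChar p))) := by
  haveI : FiniteDimensional (ZMod p) X := Module.Finite.of_finite
  exact Fermat.Agent.TW.GLOB.ShaCount8.card_sha1 hp2 S hpS X (smooth_of_isDiscrete S X hX)
    (unram_of_isDiscrete S X hX)

/-- **`#Ш¹_S(X^*(1)) = #Ш²_S(X)`** for a finite discrete `G_S`-module `X`. -/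
theorem card_sha1_dualTwist_of_isDiscrete (hp2 : p ≠ 2) (S : Finset Nat.Primes)
    (hpS : pPrime p ∈ S) (X : Rep.{0} (ZMod p) GQ) [Finite X]
    (hX : IsDiscrete (levelS S).sets X) :
    Finite ↥(sha1 S (X.dualTwist (cycloChar p))) ∧ Finite ↥(sha2 S X) ∧
      Nat.card ↥(sha1 S (X.dualTwist (cycloChar p))) = Nat.card ↥(sha2 S X) := by
  haveI : FiniteDimensional (ZMod p) X := Module.Finite.of_finite
  exact Fermat.Agent.TW.GLOB.ShaCount8.card_sha1_dualTwist hp2 S hpS X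
    (smooth_of_isDiscrete S X hX) (unram_of_isDiscrete S X hX)

end

end Fermat.Agent.TW.GLOB.ShaDisc8
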