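/-
PROGRAMME T, chapter GLOB, brick (A4) — helper3.  `TailGeNat3`: `TailGe3.tail_ge` with its
hypothesis (LOC-20-PERF) discharged from (LOC-20-NAT) in the shape of helper2's `LocalRE2.NatHyp`
(+ `H²(ℚ_{q₀}, μ_p) ≠ 0`), for a left-nondegenerate pairing `b : X × X' → μ_p`.

* `perf_of_nat`: (LOC-20-PERF) at `q₀` from `NatHyp q₀ p` and `hne`;
* **`tail_ge_of_nat`**;
* **`tail_ge_dualTwist_of_nat`**: the case `X' = X^*(1)`, `b` = evaluation (stated for `X'` with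
  `hX'eq : X' = X.dualTwist (cycloChar p)`, to keep instance search away from `dualTwist`).
-/
import Mathlib
import Fermat.Agent.TW.GLOB.TailGe3
import Fermat.Agent.TW.LOC.LocalRE2

set_option autoImplicit false
set_option linter.unusedSectionVars false

open Fermat.Agent.PT.PRO.LevelCoh28 Fermat.Agent.PT.PRO.LevelCohRes28
open Fermat.Agent.PT.GLUE.Objects21
open Fermat.Agent.TW.DEF.Basic1 Fermat.Agent.TW.DEF.Mu1
open Fermat.Agent.TW.GLOB.GWNumeric1 Fermat.Agent.TW.GLOB.TailGe3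
open Fermat.Agent.TW.LOC.LocalRE2

namespace Fermat.Agent.TW.GLOB.TailGeNat3

noncomputable section

open ExtCitation

variable {p : ℕ} [Fact p.Prime] (S : Finset Nat.Primes) {X X' : Rep.{0} (ZMod p) GQ}
  (b : X →ₗ[ZMod p] X' →ₗ[ZMod p] (muP p))
  (hb : ∀ (g : GQ) (m : X) (f : X'), b (X.ρ g m) (X'.ρ g f) = (muP p).ρ g (b m f))

/-- (LOC-20-PERF) at `q` from (LOC-20-NAT) at `q` and `H²(ℚ_q, μ_p) ≠ 0`. -/
theorem perf_of_nat (q : ℕ) [Fact q.Prime] [Finite X']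
    (hX'q : IsDiscrete (levelLoc q).sets (Mq X' q))
    (hnat : NatHyp q p) (hne : ∃ x : H2 (levelLoc q) (muq q p), x ≠ 0)
    (m : X) (hm : ∀ g : Gq q, X.ρ (rq q g) m = m) (hbm : b m ≠ 0) :
    ∃ x : Hq2 X' q, mapH2 (evq b q m) (evq_equivariant b hb q hm) x ≠ 0 := by
  obtain ⟨y, hy⟩ := hne
  haveI : Finite (Mq X' q) := inferInstanceAs (Finite X')
  have hf0 : (evq b q m : (Mq X' q) →ₗ[ZMod p] (muq q p)) ≠ 0 := hbm
  obtain ⟨x, hx⟩ := hnat (Mq X' q) hX'q (evq b q m) (evq_equivariant b hb q hm) hf0 y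
  exact ⟨x, fun h0 => hy (hx.symm.trans h0)⟩

include hb in
/-- **(A4), `tail ≥`**, conditional only on (LOC-20-NAT) at one prime `q₀ ∈ S`. -/
theorem tail_ge_of_nat (hp2 : p ≠ 2) (hpS : pPrime p ∈ S) [Finite X] [Finite X']
    (hX' : IsDiscrete (levelS S).sets X')
    (hfin : ∀ q : ↥S, Finite (Hq2 X' ((q : Nat.Primes) : ℕ)))
    (hbnd : ∀ m : X, m ≠ 0 → b m ≠ 0) (q₀ : ↥S)
    (hnat : NatHyp ((q₀ : Nat.Primes) : ℕ) p)
    (hne : ∃ x : H2 (levelLoc ((q₀ : Nat.Primes) : ℕ)) (muq ((q₀ : Nat.Primes) : ℕ) p), x ≠ 0) :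
    Nat.card ↥X.ρ.invariants * Nat.card ↥(LinearMap.range (loc2S S X')) ≤
      ∏ q : ↥S, Nat.card (Hq2 X' ((q : Nat.Primes) : ℕ)) :=
  tail_ge S b hb hp2 hpS hfin q₀ (fun m hm hm0 =>
    perf_of_nat b hb ((q₀ : Nat.Primes) : ℕ) (isDiscrete_Mq p S ((q₀ : Nat.Primes) : ℕ) hX')
      hnat hne m hm (hbnd m hm0))

section DualTwist

variable (X : Rep.{0} (ZMod p) GQ)

theorem evalB_ne_zero {m : X} (hm : m ≠ 0) : evalB (cycloChar p) X m ≠ 0 := by
  intro h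
  apply hm
  rw [← Module.forall_dual_apply_eq_zero_iff (ZMod p)]
  intro f
  have := LinearMap.congr_fun h f
  exact this

theorem tail_ge_dualTwist_of_nat (hp2 : p ≠ 2) (hpS : pPrime p ∈ S) [Finite X]
    {X' : Rep.{0} (ZMod p) GQ} (hX'eq : X' = X.dualTwist (cycloChar p))
    (hX' : IsDiscrete (levelS S).sets X')
    (hfin : ∀ q : ↥S, Finite (Hq2 X' ((q : Nat.Primes) : ℕ)))
    (q₀ : ↥S)
    (hnat : NatHyp ((q₀ : Nat.Primes) : ℕ) p)
    (hne : ∃ x : H2 (levelLoc ((q₀ : Nat.Primes) : ℕ)) (muq ((q₀ : Nat.Primes) : ℕ) p), x ≠ 0) :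
    Nat.card ↥X.ρ.invariants * Nat.card ↥(LinearMap.range (loc2S S X')) ≤
      ∏ q : ↥S, Nat.card (Hq2 X' ((q : Nat.Primes) : ℕ)) := by
  subst hX'eq
  haveI : Finite (X.dualTwist (cycloChar p)) :=
    Finite.of_injective (fun f : Module.Dual (ZMod p) X => (f : X → ZMod p)) DFunLike.coe_injective
  exact tail_ge_of_nat S (evalB (cycloChar p) X) (evalB_equivariant (cycloChar p) X) hp2 hpS hX' hfin
    (fun m hm => evalB_ne_zero X hm) q₀ hnat hne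

end DualTwist

end

end Fermat.Agent.TW.GLOB.TailGeNat3
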