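/-
PROGRAMME T, chapter GLOB, brick (A4) — helper3.  `TailGeFlip3`: the two instances of `tail ≥`
consumed by the nine-term count (A6), conditional ONLY on (LOC-20-NAT) (`LocalRE2.NatHyp`) at one
prime `q₀ ∈ S` (`hne` is discharged by helper2's `LocalPerf2.exists_ne_zero_H2_muq`).

`X` finite, `X' = X^*(1)` (kept generic, with `hX'eq`).

* `tail_ge_dualTwist`      : `#H⁰(G_S, X)  * #range (loc²_{X'}) ≤ ∏_{q ∈ S} #H²(ℚ_q, X')`;
* `tail_ge_dualTwist_flip` : `#H⁰(G_S, X') * #range (loc²_X)    ≤ ∏_{q ∈ S} #H²(ℚ_q, X)`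
  (the evaluation pairing flipped: no double dual needed).
-/
import Mathlib
import Fermat.Agent.TW.GLOB.TailGeNat3
import Fermat.Agent.TW.LOC.LocalPerf2

set_option autoImplicit false
set_option linter.unusedSectionVars false

open Fermat.Agent.PT.PRO.LevelCoh28 Fermat.Agent.PT.PRO.LevelCohRes28
open Fermat.Agent.PT.GLUE.Objects21
open Fermat.Agent.TW.DEF.Basic1 Fermat.Agent.TW.DEF.Mu1
open Fermat.Agent.TW.GLOB.GWNumeric1 Fermat.Agent.TW.GLOB.TailGe3
open Fermat.Agent.TW.LOC.LocalRE2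

namespace Fermat.Agent.TW.GLOB.TailGeFlip3

noncomputable section

open ExtCitation

variable {p : ℕ} [Fact p.Prime] (S : Finset Nat.Primes) (X : Rep.{0} (ZMod p) GQ)

theorem finite_dualTwist [Finite X] : Finite (X.dualTwist (cycloChar p)) :=
  Finite.of_injective (fun f : Module.Dual (ZMod p) X => (f : X → ZMod p)) DFunLike.coe_injective

/-- `tail ≥` for `(X, X^*(1))`, conditional only on (LOC-20-NAT) at one prime of `S`. -/
theorem tail_ge_dualTwist (hp2 : p ≠ 2) (hpS : pPrime p ∈ S) [Finite X]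
    {X' : Rep.{0} (ZMod p) GQ} (hX'eq : X' = X.dualTwist (cycloChar p))
    (hX' : IsDiscrete (levelS S).sets X')
    (hfin : ∀ q : ↥S, Finite (Hq2 X' ((q : Nat.Primes) : ℕ)))
    (q₀ : ↥S) (hnat : NatHyp ((q₀ : Nat.Primes) : ℕ) p) :
    Nat.card ↥X.ρ.invariants * Nat.card ↥(LinearMap.range (loc2S S X')) ≤
      ∏ q : ↥S, Nat.card (Hq2 X' ((q : Nat.Primes) : ℕ)) :=
  TailGeNat3.tail_ge_dualTwist_of_nat S X hp2 hpS hX'eq hX' hfin q₀ hnat
    (Fermat.Agent.TW.LOC.LocalPerf2.exists_ne_zero_H2_muq ((q₀ : Nat.Primes) : ℕ) p)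

/-- The flipped evaluation pairing `X^*(1) × X → μ_p`. -/
theorem evalB_flip_equivariant (g : GQ) (f : X.dualTwist (cycloChar p)) (m : X) :
    (evalB (cycloChar p) X).flip ((X.dualTwist (cycloChar p)).ρ g f) (X.ρ g m) =
      (muP p).ρ g ((evalB (cycloChar p) X).flip f m) := by
  rw [LinearMap.flip_apply, LinearMap.flip_apply]
  exact evalB_equivariant (cycloChar p) X g m f

theorem evalB_flip_ne_zero {f : X.dualTwist (cycloChar p)} (hf : f ≠ 0) :
    (evalB (cycloChar p) X).flip f ≠ 0 := by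
  intro h
  apply hf
  apply LinearMap.ext
  intro m
  have := LinearMap.congr_fun h m
  exact this

/-- `tail ≥` for `(X^*(1), X)`, conditional only on (LOC-20-NAT) at one prime of `S`. -/
theorem tail_ge_dualTwist_flip (hp2 : p ≠ 2) (hpS : pPrime p ∈ S) [Finite X]
    {X' : Rep.{0} (ZMod p) GQ} (hX'eq : X' = X.dualTwist (cycloChar p))
    (hX : IsDiscrete (levelS S).sets X)
    (hfin : ∀ q : ↥S, Finite (Hq2 X ((q : Nat.Primes) : ℕ)))
    (q₀ : ↥S) (hnat : NatHyp ((q₀ : Nat.Primes) : ℕ) p) :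
    Nat.card ↥X'.ρ.invariants * Nat.card ↥(LinearMap.range (loc2S S X)) ≤
      ∏ q : ↥S, Nat.card (Hq2 X ((q : Nat.Primes) : ℕ)) := by
  subst hX'eq
  haveI : Finite (X.dualTwist (cycloChar p)) := finite_dualTwist X
  exact TailGeNat3.tail_ge_of_nat S (evalB (cycloChar p) X).flip (evalB_flip_equivariant X)
    hp2 hpS hX hfin (fun f hf => evalB_flip_ne_zero X hf) q₀ hnat
    (Fermat.Agent.TW.LOC.LocalPerf2.exists_ne_zero_H2_muq ((q₀ : Nat.Primes) : ℕ) p)

end

end Fermat.Agent.TW.GLOB.TailGeFlip3
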