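/-
PROGRAMME T (S56), chapter GLOB — helper3.  `AddFinal3`: the FINAL WRAPPER of the (ADD) chain:
`EulerInv6.AddHyp S` (multiplicativity of the `G_S` Euler characteristic on short exact sequences of
finite discrete `G_S`-modules), from the bricks of T/plan/ADD.  Everything is on main except the two
bricks taken here as hypotheses (in the shapes announced by their owners):

* `TailLeHyp S` : (A3), `tail ≤`, both orientations (`GWInputs.tail` shape for `(X, X')`, and
  helper1's `Tail1.tail_le` at `M := X`);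
* `MidHyp S`    : (A5), middle exactness in count form.

Inputs used: `NineTerm0` (nine-term count, lead), `AddEuler3` (squeeze), `TailGeFlip3` ((A4), both
orientations), `LocalNat20_1.natHyp` ((LOC-20-NAT), helper1), `LocalPerf2` ((LOC-ADD), helper2),
`ShaDisc8` (S55 as counts, helper8), `FiniteHS6`/`FiniteH1Loc6` (finiteness, helper6), `Loc02_2`.

* `nineTerm`  : `NineTerm0.NineTerm S X X'` for `X' = X^*(1)`;
* `nineHyp`   : `AddEuler3.NineHyp S`;
* **`addHyp`** : `TailLeHyp S → MidHyp S → EulerInv6.AddHyp S`.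
-/
import Mathlib
import Fermat.Agent.TW.GLOB.AddEuler3
import Fermat.Agent.TW.GLOB.NineTerm0
import Fermat.Agent.TW.GLOB.ShaDisc8
import Fermat.Agent.TW.GLOB.TailGeFlip3
import Fermat.Agent.TW.LOC.LocalNat20_1

set_option autoImplicit false
set_option linter.unusedSectionVars false
set_option linter.style.haveILetI false

open ExtCitation
open Fermat.Agent.PT.PRO.LevelCoh28 Fermat.Agent.PT.PRO.LevelCohRes28
open Fermat.Agent.PT.GLUE.Objects21
open Fermat.Agent.TW.DEF.Basic1 Fermat.Agent.TW.GLOB.GWNumeric1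
open Fermat.Agent.TW.GLOB.FiniteHS6 Fermat.Agent.TW.GLOB.EulerInv6
open Fermat.Agent.TW.GLOB.NineTerm0 Fermat.Agent.TW.GLOB.AddEuler3

namespace Fermat.Agent.TW.GLOB.AddFinal3

noncomputable section

variable {p : ℕ} [Fact p.Prime] (S : Finset Nat.Primes)

/-- **(A3)**, `tail ≤`, in both orientations. -/
def TailLeHyp : Prop :=
  ∀ (X X' : Rep.{0} (ZMod p) GQ) [Finite X], X' = X.dualTwist (cycloChar p) →
    IsDiscrete (levelS S).sets X →
    (Nat.card ↥(sha2 S X') * ∏ q : ↥S, Nat.card (Hq2 X' ((q : Nat.Primes) : ℕ)) ≤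
        Nat.card (HS2 S X') * Nat.card ↥X.ρ.invariants) ∧
      (Nat.card ↥(sha2 S X) * ∏ q : ↥S, Nat.card (Hq2 X ((q : Nat.Primes) : ℕ)) ≤
        Nat.card (HS2 S X) * Nat.card ↥X'.ρ.invariants)

/-- **(A5)**, middle exactness in count form. -/
def MidHyp : Prop :=
  ∀ (X X' : Rep.{0} (ZMod p) GQ) [Finite X], X' = X.dualTwist (cycloChar p) →
    IsDiscrete (levelS S).sets X →
    Nat.card ↥(LinearMap.range (locS S X)) * Nat.card ↥(LinearMap.range (locS S X')) =
      ∏ q : ↥S, Nat.card (Hq1 X ((q : Nat.Primes) : ℕ))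

variable (X X' : Rep.{0} (ZMod p) GQ)

/-- The `Ш` inputs (S55 in count form, helper8). -/
theorem sha_facts (hp2 : p ≠ 2) (hpS : pPrime p ∈ S) [Finite X]
    (hX'eq : X' = X.dualTwist (cycloChar p)) (hX : IsDiscrete (levelS S).sets X) :
    Finite ↥(sha2 S X') ∧ Finite ↥(sha2 S X) ∧
      Nat.card ↥(sha1 S X) = Nat.card ↥(sha2 S X') ∧
      Nat.card ↥(sha1 S X') = Nat.card ↥(sha2 S X) := by
  subst hX'eq
  obtain ⟨-, h1, h2⟩ := Fermat.Agent.TW.GLOB.ShaDisc8.card_sha1_of_isDiscrete hp2 S hpS X hX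
  obtain ⟨-, h3, h4⟩ :=
    Fermat.Agent.TW.GLOB.ShaDisc8.card_sha1_dualTwist_of_isDiscrete hp2 S hpS X hX
  exact ⟨h1, h3, h2, h4⟩

theorem isDiscrete_of_eq (hpS : pPrime p ∈ S) [Finite X]
    (hX'eq : X' = X.dualTwist (cycloChar p)) (hX : IsDiscrete (levelS S).sets X) :
    IsDiscrete (levelS S).sets X' := by
  subst hX'eq
  exact isDiscrete_dualTwist S hpS X hX

/-- Local duality `(2,0)` in count form, for generic `X'`. -/
theorem card_Hq2_of_eq [Finite X] (hX'eq : X' = X.dualTwist (cycloChar p))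
    (hX : IsDiscrete (levelS S).sets X) (q : ℕ) [Fact q.Prime] :
    Finite (Hq2 X' q) ∧ Nat.card (Hq2 X' q) = Nat.card ↥(Mq X q).ρ.invariants := by
  subst hX'eq
  haveI : FiniteDimensional (ZMod p) X := Module.Finite.of_finite
  exact Fermat.Agent.TW.LOC.Loc02_2.card_Hq2_dualTwist p X q (isDiscrete_Mq S X hX q)

/-- **The nine-term count** for `(X, X^*(1))`. -/
theorem nineTerm (hp2 : p ≠ 2) (hpS : pPrime p ∈ S) (htail : TailLeHyp (p := p) S)
    (hmid : MidHyp (p := p) S) [Finite X]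
    (hX'eq : X' = X.dualTwist (cycloChar p)) (hX : IsDiscrete (levelS S).sets X) :
    NineTerm S X X' := by
  obtain ⟨hf2', hf2, hsha, hsha'⟩ := sha_facts S X X' hp2 hpS hX'eq hX
  have hX' := isDiscrete_of_eq S X X' hpS hX'eq hX
  obtain ⟨hle, hle'⟩ := htail X X' hX'eq hX
  have hfin' : ∀ q : ↥S, Finite (Hq2 X' ((q : Nat.Primes) : ℕ)) := fun q =>
    (card_Hq2_of_eq S X X' hX'eq hX ((q : Nat.Primes) : ℕ)).1
  have hfin : ∀ q : ↥S, Finite (Hq2 X ((q : Nat.Primes) : ℕ)) := fun q =>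
    finite_Hq2 S X hX ((q : Nat.Primes) : ℕ)
  let q₀ : ↥S := ⟨pPrime p, hpS⟩
  have hnat := Fermat.Agent.TW.LOC.LocalNat20_1.natHyp ((q₀ : Nat.Primes) : ℕ) p
  have hge := TailGeFlip3.tail_ge_dualTwist S X hp2 hpS hX'eq hX' hfin' q₀ hnat
  have hge' := TailGeFlip3.tail_ge_dualTwist_flip S X hp2 hpS hX'eq hX hfin q₀ hnat
  exact nine_term S X X' (tail_of_le S X X' hle hge) (tail_of_le S X' X hle' hge')
    (hmid X X' hX'eq hX) hsha hsha'

/-- Arithmetic: regrouping the local factors. -/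
theorem regroup {ι : Type*} [Fintype ι] {L R : ℕ} (f g h : ι → ℕ)
    (H : L = R * (∏ q, f q) * ∏ q, g q) (hf : ∀ q, f q = h q) :
    L = R * ∏ q, (h q * g q) := by
  rw [H, Finset.prod_mul_distrib, mul_assoc]
  congr 2
  exact Finset.prod_congr rfl fun q _ => hf q

/-- **(A6)** in the shape consumed by `AddEuler3.addHyp_of_nine`. -/
theorem nineHyp (hp2 : p ≠ 2) (hpS : pPrime p ∈ S) (htail : TailLeHyp (p := p) S)
    (hmid : MidHyp (p := p) S) : NineHyp (p := p) S := by
  intro X X' _ hX'eq hX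
  have h9 := nineTerm S X X' hp2 hpS htail hmid hX'eq hX
  unfold NineTerm at h9
  exact regroup (fun q : ↥S => Nat.card (Hq2 X' ((q : Nat.Primes) : ℕ)))
    (fun q : ↥S => Nat.card (Hq2 X ((q : Nat.Primes) : ℕ)))
    (fun q : ↥S => Nat.card ↥(Mq X ((q : Nat.Primes) : ℕ)).ρ.invariants) h9
    (fun q => (card_Hq2_of_eq S X X' hX'eq hX ((q : Nat.Primes) : ℕ)).2)

/-- **(ADD)**: the `G_S` Euler characteristic is multiplicative on short exact sequences. -/
theorem addHyp (hp2 : p ≠ 2) (hpS : pPrime p ∈ S) (htail : TailLeHyp (p := p) S)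
    (hmid : MidHyp (p := p) S) : AddHyp (p := p) S :=
  addHyp_of_nine S hp2 hpS (nineHyp S hp2 hpS htail hmid)
    (fun q => Fermat.Agent.TW.LOC.LocalNat20_1.natHyp ((q : Nat.Primes) : ℕ) p)

end

end Fermat.Agent.TW.GLOB.AddFinal3
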