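/-
PROGRAMME T (S56), chapter GLOB, brick (A5) of T/plan/ADD — helper3.  `MECountAbs3`: the linear
algebra behind middle exactness in count form.

* `card_mul_card_of_perp` : for a perfect pairing `B : P × P' → F` of finite `F`-vector spaces and
  subspaces `R ⊆ P`, `R' ⊆ P'` with `R = R'^⊥`:  `#R * #R' = #P`;
* `card_range_mul_card_range` : the same for the ranges of two maps into products, the pairing
  being a sum of perfect local pairings (reciprocity + middle exactness as hypotheses).
-/
import Mathlib

set_option autoImplicit false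
set_option linter.unusedSectionVars false
set_option linter.style.haveILetI false


namespace Fermat.Agent.TW.GLOB.MECountAbs3

noncomputable section

/-! ### Linear algebra -/

section LinAlg

variable {F : Type*} [Field F] {P P' : Type*} [AddCommGroup P] [Module F P]
  [AddCommGroup P'] [Module F P']

/-- For a perfect pairing of finite vector spaces, `#R'^⊥ * #R' = #P`. -/
theorem card_mul_card_of_perp [Finite P] [Finite P'] (B : P →ₗ[F] P' →ₗ[F] F)
    (hl : ∀ x, (∀ y, B x y = 0) → x = 0) (hr : ∀ y, (∀ x, B x y = 0) → y = 0)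
    (R : Submodule F P) (R' : Submodule F P')
    (hperp : ∀ x ∈ R, ∀ y ∈ R', B x y = 0)
    (hex : ∀ x, (∀ y ∈ R', B x y = 0) → x ∈ R) :
    Nat.card ↥R * Nat.card ↥R' = Nat.card P := by
  haveI : Module.Finite F P := Module.Finite.of_finite
  haveI : Module.Finite F P' := Module.Finite.of_finite
  -- `B` and its flip are injective, so the dimensions agree and `B` is bijective onto the dual
  have hBinj : Function.Injective B := by
    rw [injective_iff_map_eq_zero]
    intro x hx
    exact hl x fun y => by rw [hx]; rfl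
  have hBfinj : Function.Injective B.flip := by
    rw [injective_iff_map_eq_zero]
    intro y hy
    refine hr y fun x => ?_
    have := LinearMap.congr_fun hy x
    exact this
  have hdim : Module.finrank F P = Module.finrank F (Module.Dual F P') := by
    apply le_antisymm
    · exact LinearMap.finrank_le_finrank_of_injective hBinj
    · rw [Subspace.dual_finrank_eq]
      have := LinearMap.finrank_le_finrank_of_injective hBfinj
      rwa [Subspace.dual_finrank_eq] at this
  have hBsurj : Function.Surjective B :=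
    (LinearMap.injective_iff_surjective_of_finrank_eq_finrank hdim).1 hBinj
  -- restriction to `R'`
  let Φ : P →ₗ[F] Module.Dual F ↥R' := (LinearMap.lcomp F F R'.subtype).comp B
  have hΦ : ∀ x (y : ↥R'), Φ x y = B x (y : P') := fun x y => rfl
  have hker : LinearMap.ker Φ = R := by
    ext x
    rw [LinearMap.mem_ker]
    constructor
    · intro h
      refine hex x fun y hy => ?_
      have := LinearMap.congr_fun h ⟨y, hy⟩
      exact this
    · intro hx
      apply LinearMap.ext
      intro y
      rw [hΦ]
      exact hperp x hx y y.2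
  have hsurj : Function.Surjective Φ := by
    intro φ
    obtain ⟨ψ, hψ⟩ := LinearMap.exists_extend φ
    obtain ⟨x, hx⟩ := hBsurj ψ
    refine ⟨x, ?_⟩
    apply LinearMap.ext
    intro y
    rw [hΦ, hx, ← hψ]
    rfl
  have hrange : LinearMap.range Φ = ⊤ := LinearMap.range_eq_top.2 hsurj
  have hcount : Nat.card P = Nat.card ↥(LinearMap.ker Φ) * Nat.card ↥(LinearMap.range Φ) := by
    have e : (P ⧸ LinearMap.ker Φ) ≃ₗ[F] ↥(LinearMap.range Φ) := Φ.quotKerEquivRange
    rw [← Nat.card_congr e.toEquiv]
    exact Submodule.card_eq_card_quotient_mul_card (LinearMap.ker Φ)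
  have hdual : Nat.card (Module.Dual F ↥R') = Nat.card ↥R' := by
    haveI : Module.Finite F ↥R' := Module.Finite.of_finite
    let b := Module.Free.chooseBasis F ↥R'
    exact (Nat.card_congr b.toDualEquiv.toEquiv).symm
  rw [hcount, hker, hrange]
  congr 1
  rw [← hdual]
  exact (Nat.card_congr (Submodule.topEquiv (R := F) (M := Module.Dual F ↥R')).toEquiv).symm

end LinAlg

/-! ### Ranges of localisation maps -/

section Pi

variable {F : Type*} [Field F] {ι : Type*} [Fintype ι] [DecidableEq ι]
  {H H' : Type*} [AddCommGroup H] [Module F H] [AddCommGroup H'] [Module F H']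
  {P P' : ι → Type*} [∀ i, AddCommGroup (P i)] [∀ i, Module F (P i)]
  [∀ i, AddCommGroup (P' i)] [∀ i, Module F (P' i)]

/-- The sum of local pairings. -/
def sumPair (pair : ∀ i, P i →ₗ[F] P' i →ₗ[F] F) : (∀ i, P i) →ₗ[F] (∀ i, P' i) →ₗ[F] F :=
  ∑ i, ((pair i).comp (LinearMap.proj i)).compl₂ (LinearMap.proj i)

theorem sumPair_apply (pair : ∀ i, P i →ₗ[F] P' i →ₗ[F] F) (x : ∀ i, P i) (y : ∀ i, P' i) :
    sumPair pair x y = ∑ i, pair i (x i) (y i) := by
  unfold sumPair
  rw [LinearMap.sum_apply, LinearMap.sum_apply]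
  rfl

theorem card_range_mul_card_range [∀ i, Finite (P i)] [∀ i, Finite (P' i)]
    (loc : H →ₗ[F] ∀ i, P i) (loc' : H' →ₗ[F] ∀ i, P' i)
    (pair : ∀ i, P i →ₗ[F] P' i →ₗ[F] F)
    (hl : ∀ i x, (∀ y, pair i x y = 0) → x = 0) (hr : ∀ i y, (∀ x, pair i x y = 0) → y = 0)
    (hrecip : ∀ x y, ∑ i, pair i (loc x i) (loc' y i) = 0)
    (hme : ∀ x : ∀ i, P i, (∀ y, ∑ i, pair i (x i) (loc' y i) = 0) → ∃ X, loc X = x) :
    Nat.card ↥(LinearMap.range loc) * Nat.card ↥(LinearMap.range loc') =
      ∏ i, Nat.card (P i) := by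
  rw [← Nat.card_pi]
  refine card_mul_card_of_perp (sumPair pair) ?_ ?_ _ _ ?_ ?_
  · intro x hx
    funext i
    refine hl i (x i) fun y => ?_
    have h := hx (Pi.single i y)
    rw [sumPair_apply, Finset.sum_eq_single i] at h
    · rwa [Pi.single_eq_same] at h
    · intro j _ hji
      rw [Pi.single_eq_of_ne hji, map_zero]
    · intro hi
      exact absurd (Finset.mem_univ i) hi
  · intro y hy
    funext i
    refine hr i (y i) fun x => ?_
    have h := hy (Pi.single i x)
    rw [sumPair_apply, Finset.sum_eq_single i] at h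
    · rwa [Pi.single_eq_same] at h
    · intro j _ hji
      rw [Pi.single_eq_of_ne hji, map_zero, LinearMap.zero_apply]
    · intro hi
      exact absurd (Finset.mem_univ i) hi
  · rintro _ ⟨x, rfl⟩ _ ⟨y, rfl⟩
    rw [sumPair_apply]
    exact hrecip x y
  · intro x hx
    obtain ⟨X, hX⟩ := hme x fun y => by
      rw [← sumPair_apply]
      exact hx _ ⟨y, rfl⟩
    exact ⟨X, hX⟩

end Pi

end

end Fermat.Agent.TW.GLOB.MECountAbs3
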