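/-
PROGRAMME T, chapter GLOB (helper1).  `PairCup1`: the hyper-cohomology pairing `pair11` on the image
of plain cohomology is the CUP PRODUCT (raw cochain identities, no arithmetic).

Generic setting of `PT/PRO/ExtPairing4` (`Y` a two-term complex, `P` a resolved module `M`,
`B : Pairing Y P ρC`), `N` a discrete `G`-module with an equivariant `ι0 : N → Y⁰`, `f ∘ ι0 = 0`:

* `pair11_incl1`: for a level 1-cocycle `z` of `N`, a level 1-cocycle `x` of `M` and a lift `L` of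
  `x` to `P₀`, `pair11 (incl1 [z]) [x] = [ (g, h) ↦ β⁰ (ι0 (z g)) (g • x̃ h) ]`
  (the general form of `TW/LOC/CupDuality2.pair11_incl1_eq_zero`).
* `pair11_compare1`: for `P` a resolution of `M' = Module.Dual (ZMod p) M` with the twisted action
  (`hA`), `X ⊇ μ_p` (`D : MuData χ ρX`), `z` a level 1-cocycle of `M`, `y` a level 1-cocycle of
  `M'`:  `pair11 (compare1 [z]) [y] = [ (g, h) ↦ j ((g • y h) (z g)) ] = j_* (z ∪ y)`.
-/
import Mathlib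
import Fermat.Agent.PT.PRO.KerIso7
import Fermat.Agent.PT.PRO.ExtPairingB4

set_option autoImplicit false

namespace Fermat.Agent.TW.GLOB.PairCup1

open Function
open Fermat.Agent.PT.PRO Fermat.Agent.PT.PRO.HyperLevel25 Fermat.Agent.PT.PRO.Resolved4
open Fermat.Agent.PT.PRO.ExtPairing4 Fermat.Agent.PT.PRO.ExtPairingB4
open Fermat.Agent.PT.PRO.KerIso7

section Generic

variable {k G : Type*} [CommRing k] [Group G] {𝒰 : Set (Subgroup G)}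
variable {Y0 Y1 P1 P0 M C N : Type*}
  [AddCommGroup Y0] [Module k Y0] [AddCommGroup Y1] [Module k Y1]
  [AddCommGroup P1] [Module k P1] [AddCommGroup P0] [Module k P0]
  [AddCommGroup M] [Module k M] [AddCommGroup C] [Module k C] [AddCommGroup N] [Module k N]
variable {Y : Cx k 𝒰 Y0 Y1} {P : Resolved k 𝒰 P1 P0 M} {ρC : Representation k G C}
variable (B : Pairing Y P ρC) (h𝒰 : IsLevelBasis 𝒰) (hC : HyperLevel25.IsDiscrete 𝒰 ρC)
variable {ρN : Representation k G N} (hN : HyperLevel25.IsDiscrete 𝒰 ρN) (ι0 : N →ₗ[k] Y0)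
  (hι : ∀ g n, ι0 (ρN g n) = Y.ρ0 g (ι0 n)) (hfι : ∀ n, Y.f (ι0 n) = 0)

/-- The pairing of `incl1 [z]` with `[x]` is the class of the cup-type cochain
`(g, h) ↦ β⁰ (ι (z g)) (g • x̃ h)` (`x̃` a lift of `x` to `P₀`). -/
theorem pair11_incl1 (z : (HyperCompare25.plainCpx h𝒰 ρN hN).Z1) (x : G → M)
    (hl : IsLevel₁ 𝒰 x) (hc : dOne P.ρM x = 0) (L : Lift1 P) (hL : L.Lifts x) :
    ∃ (hl2 : IsLevel₂ 𝒰 (fun gh : G × G => B.β0 (ι0 (z.1.1 gh.1)) (P.ρ0 gh.1 (L.xt gh.2))))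
      (hc2 : dTwo ρC (fun gh : G × G => B.β0 (ι0 (z.1.1 gh.1)) (P.ρ0 gh.1 (L.xt gh.2))) = 0),
      pair11 B h𝒰 hC (HyperCompare25.incl1 Y h𝒰 hN ι0 hι hfι
        ((HyperCompare25.plainCpx h𝒰 ρN hN).π1 z)) (cl1 h𝒰 P.ρM P.discM x hl hc) =
      cl2 h𝒰 ρC hC (fun gh : G × G => B.β0 (ι0 (z.1.1 gh.1)) (P.ρ0 gh.1 (L.xt gh.2))) hl2 hc2 := by
  have e1 : HyperCompare25.incl1 Y h𝒰 hN ι0 hι hfι ((HyperCompare25.plainCpx h𝒰 ρN hN).π1 z) =
      (HZ1.ofZ1 h𝒰 ((HyperCompare25.inclHom Y h𝒰 hN ι0 hι hfι).mapZ1 z)).cls h𝒰 := rfl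
  have hf : B.p11 (HZ1.ofZ1 h𝒰 ((HyperCompare25.inclHom Y h𝒰 hN ι0 hι hfι).mapZ1 z)).c
      (HZ1.ofZ1 h𝒰 ((HyperCompare25.inclHom Y h𝒰 hN ι0 hι hfι).mapZ1 z)).e L.xt L.y' =
      (fun gh : G × G => B.β0 (ι0 (z.1.1 gh.1)) (P.ρ0 gh.1 (L.xt gh.2))) := by
    funext ⟨g, h⟩
    show B.β0 (ι0 (z.1.1 g)) (P.ρ0 g (L.xt h)) + B.β1 0 (L.y' (g, h)) = _
    rw [map_zero, LinearMap.zero_apply, add_zero]
  refine ⟨hf ▸ isLevel₂_p11 B h𝒰 _ L, hf ▸ B.dTwo_p11 (HZ1.hc _) (HZ1.he _) L.hy, ?_⟩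
  rw [e1, pair11_cl1 B h𝒰 hC _ x hl hc L hL]
  unfold cls11
  exact cl2_congr hf _ _ _ _

end Generic

section Compare

variable {k : Type*} [CommRing k] (hk : IntSurj k)
variable {p : ℕ} [Fact p.Prime] {G : Type*} [Group G]
variable {X : Type*} [AddCommGroup X] [Module k X]
variable {M : Type*} [AddCommGroup M] [Module (ZMod p) M] [Module k M]
variable [Module k (Module.Dual (ZMod p) M)]
variable {P0 P1 : Type*} [AddCommGroup P0] [Module k P0] [AddCommGroup P1] [Module k P1]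
variable {𝒰 : Set (Subgroup G)} (h𝒰 : IsLevelBasis 𝒰)
variable [FiniteDimensional (ZMod p) M] [Module.Finite k P0] [Module.Finite k P1]
variable (P : Resolved4.Resolved k 𝒰 P1 P0 (Module.Dual (ZMod p) M))
  (ρM : Representation (ZMod p) G M) (hM : IsDiscrete 𝒰 ρM) (χ : G →* (ZMod p)ˣ)
  (hA : ∀ g a, P.ρM g a = (χ g : ZMod p) • (a ∘ₗ ρM g⁻¹))
  {ρX : Representation k G X} (hX : IsDiscrete 𝒰 ρX) (D : MuData χ ρX)

omit [FiniteDimensional (ZMod p) M] in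
/-- **`pair11 (compare1 [z]) [y] = j_* (z ∪ y)`**, `(z ∪ y)(g, h) = (g • y h) (z g)`. -/
theorem pair11_compare1
    (z : (HyperCompare25.plainCpx h𝒰 (intRep hk ρM) (isDiscrete_intRep hk hM)).Z1)
    (y : G → Module.Dual (ZMod p) M) (hyl : IsLevel₁ 𝒰 y) (hyc : dOne P.ρM y = 0) :
    ∃ (hl2 : IsLevel₂ 𝒰 (fun gh : G × G => D.j ((P.ρM gh.1 (y gh.2)) (z.1.1 gh.1))))
      (hc2 : dTwo ρX (fun gh : G × G => D.j ((P.ρM gh.1 (y gh.2)) (z.1.1 gh.1))) = 0),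
      pair11 (evalPairing P h𝒰 ρX hX) h𝒰 hX
        (compare1 hk h𝒰 P ρM hM χ hA hX D
          ((HyperCompare25.plainCpx h𝒰 (intRep hk ρM) (isDiscrete_intRep hk hM)).π1 z))
        (cl1 h𝒰 P.ρM P.discM y hyl hyc) =
      cl2 h𝒰 ρX hX (fun gh : G × G => D.j ((P.ρM gh.1 (y gh.2)) (z.1.1 gh.1))) hl2 hc2 := by
  obtain ⟨L, hL⟩ := Lift1.exists_lift (P := P) hyl hyc
  obtain ⟨hl2, hc2, h⟩ := pair11_incl1 (evalPairing P h𝒰 ρX hX) h𝒰 hX (isDiscrete_intRep hk hM)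
    (kapRes hk D.j P.π)
    (kapRes_equivariant hk ρM χ P.ρM hA ρX D.j D.equiv P.ρ0 P.π P.π_comm)
    (lcomp_kapRes hk D.j P.π P.ι P.π_ι) z y hyl hyc L hL
  have hf : (fun gh : G × G => (evalPairing P h𝒰 ρX hX).β0 (kapRes hk D.j P.π (z.1.1 gh.1))
      (P.ρ0 gh.1 (L.xt gh.2))) =
      (fun gh : G × G => D.j ((P.ρM gh.1 (y gh.2)) (z.1.1 gh.1))) := by
    funext ⟨g, h⟩
    show (evalPairing P h𝒰 ρX hX).β0 (kapRes hk D.j P.π (z.1.1 g)) (P.ρ0 g (L.xt h)) = _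
    rw [evalPairing_β0, kapRes_apply, P.π_comm, hL h]
  refine ⟨hf ▸ hl2, hf ▸ hc2, ?_⟩
  rw [show compare1 hk h𝒰 P ρM hM χ hA hX D = HyperCompare25.incl1 (P.K h𝒰 ρX hX) h𝒰
    (isDiscrete_intRep hk hM) (kapRes hk D.j P.π)
    (kapRes_equivariant hk ρM χ P.ρM hA ρX D.j D.equiv P.ρ0 P.π P.π_comm)
    (lcomp_kapRes hk D.j P.π P.ι P.π_ι) from rfl, h]
  exact cl2_congr hf _ _ _ _

end Compare

end Fermat.Agent.TW.GLOB.PairCup1
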