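/-
PROGRAMME T, chapter GLOB (helper1).  `MiddleExact1` = (ME): MIDDLE EXACTNESS of the Poitou-Tate
sequence, `H¹(G_S, M) → ∏_{q ∈ S} H¹(ℚ_q, M) → H¹(G_S, M^*(1))^∨`, in the vocabulary of
`TW/DEF/Basic1` + `TW/GLOB/InvRecip1`.

`p` an odd prime, `S ∋ p`, `M : Rep (ZMod p) GQ` finite-dimensional, `M` and `M' = M.dualTwist
(cycloChar p)` discrete for `levelS S`, `D : InvData p S` (local invariants with reciprocity).

**`middle_exact`**: a family of local classes `x q ∈ Hq1 M q` (`q ∈ S`) such that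
`∑_{q ∈ S} D.inv q (x q ∪ res_q y) = 0` for EVERY `y ∈ HS1 S M'` is the family of restrictions
`res_q X` of a global class `X ∈ HS1 S M`.

Proof: `MEKer1.exists_global_of_orthogonal` (hyper-cohomology of `0 → E_S → I_S → C_S → 0`, global
duality `LKAt` for `C_S`, `(S1)`) at the S55 objects (`exists_global_S55`), the cup-product
formula `PairCup1.pair11_compare1` (`key`), and the compatibility `InvData.g_locIp`.
-/
import Mathlib
import Fermat.Agent.TW.GLOB.InvRecip1
import Fermat.Agent.TW.GLOB.MEKer1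
import Fermat.Agent.TW.GLOB.PairCup1
import Fermat.Agent.PT.PRO.StarS55_7
import Fermat.Agent.PT.PRO.GlobalHypP8
import Fermat.Agent.PT.PRO.InvFund18
import Fermat.Agent.PT.PRO.HpAt29
import Fermat.Agent.PT.GLUE.LocHyperFinal13
import Fermat.Agent.PT.GLUE.FundLevel2
import Fermat.Agent.PT.GLUE.GexNormFinal15
import Fermat.Agent.PT.GLUE.LevelTheta21
import Fermat.Agent.PT.GLOB.FundClassExists6

set_option autoImplicit false
set_option linter.unusedSectionVars false
set_option linter.unusedVariables false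

open Function ExtCitation
open Fermat.Agent.PT Fermat.Agent.PT.PRO Fermat.Agent.PT.GLUE Fermat.Agent.PT.GLUE.Objects21
open Fermat.Agent.PT.PRO.HyperLevel25 Fermat.Agent.PT.PRO.Resolved4
open Fermat.Agent.PT.PRO.HyperRes25 Fermat.Agent.PT.PRO.PairingRes1
open Fermat.Agent.PT.PRO.IntRep20 Fermat.Agent.PT.PRO.LevelEquiv29
open Fermat.Agent.PT.PRO.ProdDict10 Fermat.Agent.PT.GLUE.LocS2_29
open Fermat.Agent.PT.GLUE.LevelTheta21
open Fermat.Agent.PT.PRO.IndRes20 Fermat.Agent.PT.PRO.Setup20 Fermat.Agent.PT.PRO.Objects20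
open Fermat.Agent.PT.PRO.KerIso7 Fermat.Agent.PT.PRO.KerIsoGal7
open Fermat.Agent.PT.PRO.ExtPairing4 Fermat.Agent.PT.PRO.ExtPairingB4
open Fermat.Agent.PT.PRO.HyperCompare25

namespace Fermat.Agent.TW.GLOB.MiddleExact1

local notation "Γ" => (AlgebraicClosure ℚ ≃ₐ[ℚ] AlgebraicClosure ℚ)

variable (p : ℕ) [Fact p.Prime] (S : Finset Nat.Primes)
  (M : Rep.{0} (ZMod p) Γ) [FiniteDimensional (ZMod p) M]

/-- The resolution of `A = M^∨(1)` used throughout. -/
noncomputable abbrev resA := HpAt29.freeRes (IntRep20.intRep (M.dualTwist (cycloChar p)))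

theorem hpA (m : (M.dualTwist (cycloChar p))) : p • m = 0 := by
  rw [← Nat.cast_smul_eq_nsmul (ZMod p), ZMod.natCast_self, zero_smul]

variable [Finite (M.dualTwist (cycloChar p))]

/-- **Middle exactness, hyper form at the S55 objects.** -/
theorem exists_global_S55 (hp2 : p ≠ 2) (hpS : pPrime p ∈ S)
    (hMi : IsDiscrete (levelS S).sets (IntRep20.intRep M))
    (hAi : IsDiscrete (levelS S).sets (IntRep20.intRep (M.dualTwist (cycloChar p))))
    (h0 : IsDiscrete (levelS S).sets (resA p M).ρ0)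
    (x : ∀ q : ↥S, Hp1 (basis (levelLoc ((q : Nat.Primes) : ℕ)))
      (KerIso7.intRep intSurj_int (M.ρ.comp (localGaloisToGlobal ((q : Nat.Primes) : ℕ))))
      (isDiscrete_intRep intSurj_int
        (IsLevelHom.isDiscrete (isLevelHom_loc S ((q : Nat.Primes) : ℕ)) hMi)))
    (hz : ∀ (h : Hlev1 (basis (levelS S)) (toResolved (resA p M) h0).ρM
        (toResolved (resA p M) h0).discM)
      (w : ∀ q : ↥S, Hlev2 (basis (levelS S)) (ISq S ((q : Nat.Primes) : ℕ)).ρ
        (isDiscrete_ISq' S q)), (∀ q, p • w q = 0) →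
      (∀ q : ↥S, resH2 (isLevelHom_loc S ((q : Nat.Primes) : ℕ)) (basis (levelS S))
          (basis (levelLoc ((q : Nat.Primes) : ℕ))) (isDiscrete_ISq' S q)
          (isDiscrete_unitsLoc ((q : Nat.Primes) : ℕ)) (evq S ((q : Nat.Primes) : ℕ))
          (evq_ρ S ((q : Nat.Primes) : ℕ)) (w q) =
        pair11 (evalPairing (comapResolved (localGaloisToGlobal ((q : Nat.Primes) : ℕ))
            (isLevelHom_loc S ((q : Nat.Primes) : ℕ)) (toResolved (resA p M) h0))
            (basis (levelLoc ((q : Nat.Primes) : ℕ))) (unitsLoc ((q : Nat.Primes) : ℕ)).ρ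
            (isDiscrete_unitsLoc ((q : Nat.Primes) : ℕ)))
          (basis (levelLoc ((q : Nat.Primes) : ℕ))) (isDiscrete_unitsLoc ((q : Nat.Primes) : ℕ))
          (MEKer1.cmpq intSurj_int (resA p M) h0
            (fun q : ↥S => basis (levelLoc ((q : Nat.Primes) : ℕ)))
            (fun q : ↥S => localGaloisToGlobal ((q : Nat.Primes) : ℕ))
            (fun q : ↥S => isLevelHom_loc S ((q : Nat.Primes) : ℕ)) M.ρ hMi (cycloChar p)
            (KerIsoMain7.hA_freeRes M (cycloChar p))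
            (fun q : ↥S => isDiscrete_unitsLoc ((q : Nat.Primes) : ℕ))
            (fun q : ↥S => muLoc p ((q : Nat.Primes) : ℕ)) q (x q))
          (resH1 (isLevelHom_loc S ((q : Nat.Primes) : ℕ)) (basis (levelS S))
            (basis (levelLoc ((q : Nat.Primes) : ℕ))) (toResolved (resA p M) h0).discM
            (comapResolved (localGaloisToGlobal ((q : Nat.Primes) : ℕ))
              (isLevelHom_loc S ((q : Nat.Primes) : ℕ)) (toResolved (resA p M) h0)).discM
            LinearMap.id (fun _ _ => rfl) h)) →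
      ∑ q : ↥S, (lvlHom (basis (levelS S)) (isDiscrete_IS' S) (isDiscrete_CS S) (toCS S)
        (toCS_ρ S)).mapH2 ((lvlHom (basis (levelS S)) (isDiscrete_ISq' S q) (isDiscrete_IS' S)
          (inclq S q) (inclq_ρ S q)).mapH2 (w q)) = 0) :
    ∃ X : Hp1 (basis (levelS S)) (KerIso7.intRep intSurj_int M.ρ)
        (isDiscrete_intRep intSurj_int hMi), ∀ q : ↥S,
      (KerIsoMain7.resPlain intSurj_int (basis (levelS S))
        (basis (levelLoc ((q : Nat.Primes) : ℕ))) M.ρ hMi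
        (localGaloisToGlobal ((q : Nat.Primes) : ℕ))
        (isLevelHom_loc S ((q : Nat.Primes) : ℕ))).mapH1 X = x q := by
  classical
  have hp : p.Prime := Fact.out
  have hGCF := GLOB.FundClassExists6.fundClassExists p S
  have hfund := GLUE.FundLevel2.fundFixed_CS p hp2 hpS hGCF
  have hgex := GLUE.GexNormFinal15.gexNormLevel (S := S) hp hp2 hpS
  have hdual : InvFund18.AlphaPackage (resA p M) h0 (basis (levelS S))
      (CS S).ρ (isDiscrete_CS S) p (hpA p M) :=
    InvFund18.alphaPackage_of_isFundClass _ (CS S).ρ (basis (levelS S)) h0 (hpA p M)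
      (isDiscrete_CS S)
      (GlobalHypP8.trivFam_sub _ _) (GlobalHypP8.trivFam_normal _ _)
      (GlobalHypP8.trivFam_cofinal _ (basis (levelS S)) h0) (GlobalHypP8.trivFam_triv0 _ _)
      hfund (GlobalHypP8.gexNorm_trivFam _ hgex)
  exact MEKer1.exists_global_of_orthogonal intSurj_int (resA p M) h0 (basis (levelS S))
    (fun q : ↥S => basis (levelLoc ((q : Nat.Primes) : ℕ)))
    (fun q : ↥S => localGaloisToGlobal ((q : Nat.Primes) : ℕ))
    (fun q : ↥S => isLevelHom_loc S ((q : Nat.Primes) : ℕ))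
    M.ρ hMi (cycloChar p) (KerIsoMain7.hA_freeRes M (cycloChar p))
    (isDiscrete_ES S) (isDiscrete_IS' S) (isDiscrete_CS S) (isDiscrete_ISq' S)
    (fun q : ↥S => isDiscrete_unitsLoc ((q : Nat.Primes) : ℕ))
    (diag S) (diag_ρ S) (toCS S) (toCS_ρ S)
    (Objects21.diag_injective S ⟨pPrime p, hpS⟩) (toCS_surjective S)
    (StarS55_7.exact_diag_toCS S)
    (inclq S) (inclq_ρ S)
    (ISproj S) (ISproj_ρ S)
    (fun q x => (congrFun (ISequiv_inclq S q x) q).trans
      (Pi.single_eq_same (M := fun r : ↥S => ↑(ISq S ((r : Nat.Primes) : ℕ))) q x))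
    (fun q q' hq' x => (congrFun (ISequiv_inclq S q' x) q).trans
      (Pi.single_eq_of_ne (M := fun r : ↥S => ↑(ISq S ((r : Nat.Primes) : ℕ))) hq'.symm x))
    (fun q : ↥S => evq S ((q : Nat.Primes) : ℕ)) (fun q : ↥S => evq_ρ S ((q : Nat.Primes) : ℕ))
    (muES p S hpS) (fun q : ↥S => muLoc p ((q : Nat.Primes) : ℕ))
    (StarS55_7.evq_ISproj_diag_muES p S hpS)
    (ESDivisible27.exists_zsmul_eq (Fact.out) hpS)
    (fun q : ↥S => exists_zsmul_eq_unitsLoc p ((q : Nat.Primes) : ℕ))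
    (MainWrap20.lkAt_of_alphaPackage hdual)
    (fun q : ↥S => LocHyperFinal13.s1At S ((q : Nat.Primes) : ℕ) (basis (levelS S))
      (basis (levelLoc ((q : Nat.Primes) : ℕ))) (isLevelHom_loc S ((q : Nat.Primes) : ℕ))
      (isDiscrete_ISq' S q) (isDiscrete_unitsLoc ((q : Nat.Primes) : ℕ)) (resA p M) h0)
    x hz

/-! ### The cup-product formula at `q` -/

section Key

open Fermat.Agent.TW.DEF.Basic1 Fermat.Agent.TW.DEF.Mu1 Fermat.Agent.TW.DEF.Cup1
open Fermat.Agent.TW.GLOB.InvRecip1 Fermat.Agent.TW.GLOB.LocalInv1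
open Fermat.Agent.TW.GLOB.KummerH2_1

/-- **`pair11 (compare1 ξ) (res_q y) = κ_q (ξ ∪ res_q y)`** in `H²(ℚ_q, ℚ̄_qˣ)` (`Hlev2` model). -/
theorem key (hMi : IsDiscrete (levelS S).sets (IntRep20.intRep M))
    (hM' : LevelCoh28.IsDiscrete (levelS S).sets (M.dualTwist (cycloChar p)))
    (h0 : IsDiscrete (levelS S).sets (resA p M).ρ0) (q : ↥S)
    (hMq : LevelCoh28.IsDiscrete (levelLoc ((q : Nat.Primes) : ℕ)).sets
      (Mq M ((q : Nat.Primes) : ℕ)))
    (hMq' : LevelCoh28.IsDiscrete (levelLoc ((q : Nat.Primes) : ℕ)).sets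
      (Mq (M.dualTwist (cycloChar p)) ((q : Nat.Primes) : ℕ)))
    (ξ : Hq1 M ((q : Nat.Primes) : ℕ)) (y : HS1 S (M.dualTwist (cycloChar p))) :
    pair11 (evalPairing (comapResolved (localGaloisToGlobal ((q : Nat.Primes) : ℕ))
        (isLevelHom_loc S ((q : Nat.Primes) : ℕ)) (toResolved (resA p M) h0))
        (basis (levelLoc ((q : Nat.Primes) : ℕ))) (unitsLoc ((q : Nat.Primes) : ℕ)).ρ
        (isDiscrete_unitsLoc ((q : Nat.Primes) : ℕ)))
      (basis (levelLoc ((q : Nat.Primes) : ℕ))) (isDiscrete_unitsLoc ((q : Nat.Primes) : ℕ))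
      (MEKer1.cmpq intSurj_int (resA p M) h0
        (fun q : ↥S => basis (levelLoc ((q : Nat.Primes) : ℕ)))
        (fun q : ↥S => localGaloisToGlobal ((q : Nat.Primes) : ℕ))
        (fun q : ↥S => isLevelHom_loc S ((q : Nat.Primes) : ℕ)) M.ρ hMi (cycloChar p)
        (KerIsoMain7.hA_freeRes M (cycloChar p))
        (fun q : ↥S => isDiscrete_unitsLoc ((q : Nat.Primes) : ℕ))
        (fun q : ↥S => muLoc p ((q : Nat.Primes) : ℕ)) q
        (h1IntEquiv (levelLoc ((q : Nat.Primes) : ℕ)) (Mq M ((q : Nat.Primes) : ℕ)) hMq ξ))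
      (resH1 (isLevelHom_loc S ((q : Nat.Primes) : ℕ)) (basis (levelS S))
        (basis (levelLoc ((q : Nat.Primes) : ℕ))) (toResolved (resA p M) h0).discM
        (comapResolved (localGaloisToGlobal ((q : Nat.Primes) : ℕ))
          (isLevelHom_loc S ((q : Nat.Primes) : ℕ)) (toResolved (resA p M) h0)).discM
        LinearMap.id (fun _ _ => rfl)
        (h1IntEquiv (levelS S) (M.dualTwist (cycloChar p)) hM' y)) =
    h2Equiv (levelLoc ((q : Nat.Primes) : ℕ)) (unitsLoc ((q : Nat.Primes) : ℕ))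
      (isDiscrete_unitsLoc ((q : Nat.Primes) : ℕ))
      (jH2 (jLoc p ((q : Nat.Primes) : ℕ)) (jLoc_ρ p ((q : Nat.Primes) : ℕ))
        (cupq p M ((q : Nat.Primes) : ℕ) hMq' ξ
          (resq1 S (M.dualTwist (cycloChar p)) ((q : Nat.Primes) : ℕ) y))) := by
  refine Exists.elim (LevelCoh28.H1mk_surjective (levelLoc ((q : Nat.Primes) : ℕ))
    (Mq M ((q : Nat.Primes) : ℕ)) ξ) (fun cx hcx => ?_)
  subst hcx
  refine Exists.elim (LevelCoh28.H1mk_surjective (levelS S) (M.dualTwist (cycloChar p)) y)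
    (fun cy hcy => ?_)
  subst hcy
  have hyc : dOne (toResolved ((resA p M).comap (localGaloisToGlobal ((q : Nat.Primes) : ℕ)))
      (comap_disc0 (resA p M) h0 (localGaloisToGlobal ((q : Nat.Primes) : ℕ))
        (isLevelHom_loc S ((q : Nat.Primes) : ℕ)))).ρM
      (fun g => cy.1 (localGaloisToGlobal ((q : Nat.Primes) : ℕ) g)) = 0 := by
    funext ⟨g, h⟩
    have h1 := congrFun ((LevelCompare13.mem_cocycles₁_iff (M.dualTwist (cycloChar p)) cy.1).1
      cy.2.1) (localGaloisToGlobal ((q : Nat.Primes) : ℕ) g,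
        localGaloisToGlobal ((q : Nat.Primes) : ℕ) h)
    show _ - cy.1 (localGaloisToGlobal ((q : Nat.Primes) : ℕ) (g * h)) + _ = _
    rw [map_mul]
    exact h1
  have hpc := PairCup1.pair11_compare1 intSurj_int
    (basis (levelLoc ((q : Nat.Primes) : ℕ)))
    (toResolved ((resA p M).comap (localGaloisToGlobal ((q : Nat.Primes) : ℕ)))
      (comap_disc0 (resA p M) h0 (localGaloisToGlobal ((q : Nat.Primes) : ℕ))
        (isLevelHom_loc S ((q : Nat.Primes) : ℕ))))
    (M.ρ.comp (localGaloisToGlobal ((q : Nat.Primes) : ℕ)))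
    (IsLevelHom.isDiscrete (isLevelHom_loc S ((q : Nat.Primes) : ℕ)) hMi)
    ((cycloChar p).comp (localGaloisToGlobal ((q : Nat.Primes) : ℕ)))
    (KerIsoMain7.hA_comap (resA p M) M.ρ (cycloChar p) (KerIsoMain7.hA_freeRes M (cycloChar p))
      (localGaloisToGlobal ((q : Nat.Primes) : ℕ)))
    (isDiscrete_unitsLoc ((q : Nat.Primes) : ℕ)) (muLoc p ((q : Nat.Primes) : ℕ))
    (toZ1Int (levelLoc ((q : Nat.Primes) : ℕ)) (Mq M ((q : Nat.Primes) : ℕ)) hMq cx)
    (fun g => cy.1 (localGaloisToGlobal ((q : Nat.Primes) : ℕ) g))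
    ((isLevelHom_loc S ((q : Nat.Primes) : ℕ)).isLevel₁ cy.2.2) hyc
  refine Exists.elim hpc (fun hl2 h' => Exists.elim h' (fun hc2 h => ?_))
  refine h.trans ?_
  have e1 : h2Equiv (levelLoc ((q : Nat.Primes) : ℕ)) (unitsLoc ((q : Nat.Primes) : ℕ))
      (isDiscrete_unitsLoc ((q : Nat.Primes) : ℕ))
      (jH2 (jLoc p ((q : Nat.Primes) : ℕ)) (jLoc_ρ p ((q : Nat.Primes) : ℕ))
        (cupq p M ((q : Nat.Primes) : ℕ) hMq'
          (LevelCoh28.H1mk (levelLoc ((q : Nat.Primes) : ℕ)) (Mq M ((q : Nat.Primes) : ℕ)) cx)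
          (resq1 S (M.dualTwist (cycloChar p)) ((q : Nat.Primes) : ℕ)
            (LevelCoh28.H1mk (levelS S) (M.dualTwist (cycloChar p)) cy)))) =
      (Resolved4.lvl (basis (levelLoc ((q : Nat.Primes) : ℕ))) (unitsLoc ((q : Nat.Primes) : ℕ)).ρ
        (isDiscrete_unitsLoc ((q : Nat.Primes) : ℕ))).π2
        (toZ2 (levelLoc ((q : Nat.Primes) : ℕ)) (unitsLoc ((q : Nat.Primes) : ℕ))
          (isDiscrete_unitsLoc ((q : Nat.Primes) : ℕ))
          (jZ2 (jLoc p ((q : Nat.Primes) : ℕ)) (jLoc_ρ p ((q : Nat.Primes) : ℕ))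
            (cupZ (A := Mq M ((q : Nat.Primes) : ℕ))
              (B := Mq (M.dualTwist (cycloChar p)) ((q : Nat.Primes) : ℕ))
              (C := Mq (muP p) ((q : Nat.Primes) : ℕ)) (evalB (cycloChar p) M)
              (fun g m f => evalB_equivariant (cycloChar p) M
                (rq ((q : Nat.Primes) : ℕ) g) m f) hMq' cx
              (resZ1 S (M.dualTwist (cycloChar p)) ((q : Nat.Primes) : ℕ) cy)))) := rfl
  refine Eq.trans ?_ e1.symm
  unfold cl2
  congr 1

end Key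

/-! ### The main theorem -/

section Main

open Fermat.Agent.TW.DEF.Basic1 Fermat.Agent.TW.DEF.Mu1 Fermat.Agent.TW.DEF.Cup1
open Fermat.Agent.TW.GLOB.InvRecip1 Fermat.Agent.TW.GLOB.LocalInv1
open Fermat.Agent.TW.GLOB.KummerH2_1 Fermat.Agent.PT.PRO.InvP4

omit [FiniteDimensional (ZMod p) M] [Finite (M.dualTwist (cycloChar p))] in
/-- Torsion is reflected by a linear equivalence. -/
theorem nsmul_eq_zero_of_map {A B : Type*} [AddCommGroup A] [AddCommGroup B] [Module ℤ A]
    [Module ℤ B] (e : A ≃ₗ[ℤ] B) (n : ℕ) (a : A) (h : n • e a = 0) : n • a = 0 := by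
  apply e.injective
  rw [map_nsmul, h, map_zero]

omit [FiniteDimensional (ZMod p) M] [Finite (M.dualTwist (cycloChar p))] in
/-- `locI2` in the `Hlev2` models is `PairingRes1.resH2` along `(r_q, ev_q)`. -/
theorem h2Equiv_locI2 (q : ↥S) (W : LevelCoh28.H2 (levelS S) (ISq S ((q : Nat.Primes) : ℕ))) :
    h2Equiv (levelLoc ((q : Nat.Primes) : ℕ)) (unitsLoc ((q : Nat.Primes) : ℕ))
        (isDiscrete_unitsLoc ((q : Nat.Primes) : ℕ)) (LocI13.locI2 S ((q : Nat.Primes) : ℕ) W) =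
      resH2 (isLevelHom_loc S ((q : Nat.Primes) : ℕ)) (basis (levelS S))
        (basis (levelLoc ((q : Nat.Primes) : ℕ))) (isDiscrete_ISq' S q)
        (isDiscrete_unitsLoc ((q : Nat.Primes) : ℕ)) (evq S ((q : Nat.Primes) : ℕ))
        (evq_ρ S ((q : Nat.Primes) : ℕ))
        (h2Equiv (levelS S) (ISq S ((q : Nat.Primes) : ℕ)) (isDiscrete_ISq' S q) W) :=
  h2Equiv_ppH2 (localGaloisToGlobal ((q : Nat.Primes) : ℕ))
    (isDiscrete_ISq S ((q : Nat.Primes) : ℕ)) (isDiscrete_unitsLoc ((q : Nat.Primes) : ℕ))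
    (evq S ((q : Nat.Primes) : ℕ)) (evq_ρ S ((q : Nat.Primes) : ℕ))
    (LocI13.isLevelHom_levelLoc S ((q : Nat.Primes) : ℕ)) W

set_option maxHeartbeats 2000000 in
/-- The orthogonality hypothesis of `exists_global_S55` from the orthogonality for `D.inv`. -/
theorem hz_of_orth (D : InvData p S)
    (hMi : IsDiscrete (levelS S).sets (IntRep20.intRep M))
    (hM' : LevelCoh28.IsDiscrete (levelS S).sets (M.dualTwist (cycloChar p)))
    (h0 : IsDiscrete (levelS S).sets (resA p M).ρ0)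
    (hMq : ∀ q : ↥S, LevelCoh28.IsDiscrete (levelLoc ((q : Nat.Primes) : ℕ)).sets
      (Mq M ((q : Nat.Primes) : ℕ)))
    (hMq' : ∀ q : ↥S, LevelCoh28.IsDiscrete (levelLoc ((q : Nat.Primes) : ℕ)).sets
      (Mq (M.dualTwist (cycloChar p)) ((q : Nat.Primes) : ℕ)))
    (x : ∀ q : ↥S, Hq1 M ((q : Nat.Primes) : ℕ))
    (horth : ∀ y : HS1 S (M.dualTwist (cycloChar p)),
      ∑ q : ↥S, D.inv q (cupq p M ((q : Nat.Primes) : ℕ) (hMq' q) (x q)
        (resq1 S (M.dualTwist (cycloChar p)) ((q : Nat.Primes) : ℕ) y)) = 0)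
    (h : Hlev1 (basis (levelS S)) (toResolved (resA p M) h0).ρM
        (toResolved (resA p M) h0).discM)
    (w : ∀ q : ↥S, Hlev2 (basis (levelS S)) (ISq S ((q : Nat.Primes) : ℕ)).ρ
        (isDiscrete_ISq' S q)) (hw : ∀ q, p • w q = 0)
    (hres : ∀ q : ↥S, resH2 (isLevelHom_loc S ((q : Nat.Primes) : ℕ)) (basis (levelS S))
          (basis (levelLoc ((q : Nat.Primes) : ℕ))) (isDiscrete_ISq' S q)
          (isDiscrete_unitsLoc ((q : Nat.Primes) : ℕ)) (evq S ((q : Nat.Primes) : ℕ))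
          (evq_ρ S ((q : Nat.Primes) : ℕ)) (w q) =
        pair11 (evalPairing (comapResolved (localGaloisToGlobal ((q : Nat.Primes) : ℕ))
            (isLevelHom_loc S ((q : Nat.Primes) : ℕ)) (toResolved (resA p M) h0))
            (basis (levelLoc ((q : Nat.Primes) : ℕ))) (unitsLoc ((q : Nat.Primes) : ℕ)).ρ
            (isDiscrete_unitsLoc ((q : Nat.Primes) : ℕ)))
          (basis (levelLoc ((q : Nat.Primes) : ℕ))) (isDiscrete_unitsLoc ((q : Nat.Primes) : ℕ))
          (MEKer1.cmpq intSurj_int (resA p M) h0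
            (fun q : ↥S => basis (levelLoc ((q : Nat.Primes) : ℕ)))
            (fun q : ↥S => localGaloisToGlobal ((q : Nat.Primes) : ℕ))
            (fun q : ↥S => isLevelHom_loc S ((q : Nat.Primes) : ℕ)) M.ρ hMi (cycloChar p)
            (KerIsoMain7.hA_freeRes M (cycloChar p))
            (fun q : ↥S => isDiscrete_unitsLoc ((q : Nat.Primes) : ℕ))
            (fun q : ↥S => muLoc p ((q : Nat.Primes) : ℕ)) q
            (h1IntEquiv (levelLoc ((q : Nat.Primes) : ℕ)) (Mq M ((q : Nat.Primes) : ℕ))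
              (hMq q) (x q)))
          (resH1 (isLevelHom_loc S ((q : Nat.Primes) : ℕ)) (basis (levelS S))
            (basis (levelLoc ((q : Nat.Primes) : ℕ))) (toResolved (resA p M) h0).discM
            (comapResolved (localGaloisToGlobal ((q : Nat.Primes) : ℕ))
              (isLevelHom_loc S ((q : Nat.Primes) : ℕ)) (toResolved (resA p M) h0)).discM
            LinearMap.id (fun _ _ => rfl) h)) :
    ∑ q : ↥S, (lvlHom (basis (levelS S)) (isDiscrete_IS' S) (isDiscrete_CS S) (toCS S)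
      (toCS_ρ S)).mapH2 ((lvlHom (basis (levelS S)) (isDiscrete_ISq' S q) (isDiscrete_IS' S)
        (inclq S q) (inclq_ρ S q)).mapH2 (w q)) = 0 := by
  refine Exists.elim ((h1IntEquiv (levelS S) (M.dualTwist (cycloChar p)) hM').surjective h)
    (fun y hy => ?_)
  subst hy
  have hW : ∃ W : ∀ q : ↥S, LevelCoh28.H2 (levelS S) (ISq S ((q : Nat.Primes) : ℕ)),
      ∀ q : ↥S, h2Equiv (levelS S) (ISq S ((q : Nat.Primes) : ℕ)) (isDiscrete_ISq' S q) (W q) =
        w q :=
    ⟨fun q => (h2Equiv (levelS S) (ISq S ((q : Nat.Primes) : ℕ)) (isDiscrete_ISq' S q)).symm (w q),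
      fun q => LinearEquiv.apply_symm_apply _ _⟩
  refine Exists.elim hW (fun W hWw => ?_)
  have hpW : ∀ q : ↥S, p • W q = 0 := fun q =>
    nsmul_eq_zero_of_map (h2Equiv (levelS S) (ISq S ((q : Nat.Primes) : ℕ))
      (isDiscrete_ISq' S q)) p (W q) ((congrArg (fun z => p • z) (hWw q)).trans (hw q))
  have ht : ∃ t : ∀ q : ↥S, pTor p (LevelCoh28.H2 (levelS S) (ISq S ((q : Nat.Primes) : ℕ))),
      ∀ q : ↥S, (t q).1 = W q := ⟨fun q => ⟨W q, hpW q⟩, fun q => rfl⟩
  refine Exists.elim ht (fun t htW => ?_)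
  have hA : ∀ q : ↥S, locIp p S q (t q) =
      kappa p ((q : Nat.Primes) : ℕ) (cupq p M ((q : Nat.Primes) : ℕ) (hMq' q) (x q)
        (resq1 S (M.dualTwist (cycloChar p)) ((q : Nat.Primes) : ℕ) y)) := fun q => by
    apply Subtype.ext
    apply (h2Equiv (levelLoc ((q : Nat.Primes) : ℕ)) (unitsLoc ((q : Nat.Primes) : ℕ))
      (isDiscrete_unitsLoc ((q : Nat.Primes) : ℕ))).injective
    refine (congrArg (fun z => h2Equiv (levelLoc ((q : Nat.Primes) : ℕ))
      (unitsLoc ((q : Nat.Primes) : ℕ)) (isDiscrete_unitsLoc ((q : Nat.Primes) : ℕ))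
      (LocI13.locI2 S ((q : Nat.Primes) : ℕ) z)) (htW q)).trans ?_
    refine (h2Equiv_locI2 S q (W q)).trans ?_
    refine (congrArg _ (hWw q)).trans ?_
    exact (hres q).trans (key p S M hMi hM' h0 q (hMq q) (hMq' q) (x q) y)
  have hsum : ∑ q : ↥S, pTorMap p (toC S q) (t q) = 0 := by
    apply D.τ_inj
    have h1 : ∀ q : ↥S, D.τ (pTorMap p (toC S q) (t q)) =
        D.inv q (cupq p M ((q : Nat.Primes) : ℕ) (hMq' q) (x q)
          (resq1 S (M.dualTwist (cycloChar p)) ((q : Nat.Primes) : ℕ) y)) := fun q =>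
      (D.g_locIp q (t q)).symm.trans (congrArg (D.g q) (hA q))
    exact ((map_sum D.τ _ _).trans ((Finset.sum_congr rfl (fun q _ => h1 q)).trans
      (horth y))).trans (map_zero D.τ).symm
  have hsum' : ∑ q : ↥S, toC S q (W q) = 0 := by
    have h2 := congrArg Subtype.val hsum
    rw [AddSubgroup.val_finsetSum] at h2
    exact (Finset.sum_congr rfl (fun q _ => (congrArg (toC S q) (htW q)).symm)).trans h2
  have h3 := congrArg (h2Equiv (levelS S) (CS S)
    (isDiscrete_CS S)).toLinearMap.toAddMonoidHom hsum'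
  have hterm : ∀ q : ↥S, (lvlHom (basis (levelS S)) (isDiscrete_IS' S) (isDiscrete_CS S) (toCS S)
      (toCS_ρ S)).mapH2 ((lvlHom (basis (levelS S)) (isDiscrete_ISq' S q) (isDiscrete_IS' S)
        (inclq S q) (inclq_ρ S q)).mapH2 (w q)) =
      (h2Equiv (levelS S) (CS S) (isDiscrete_CS S)).toLinearMap.toAddMonoidHom
        (toC S q (W q)) := fun q =>
    (congrArg (fun z => (lvlHom (basis (levelS S)) (isDiscrete_IS' S) (isDiscrete_CS S) (toCS S)
      (toCS_ρ S)).mapH2 ((lvlHom (basis (levelS S)) (isDiscrete_ISq' S q) (isDiscrete_IS' S)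
        (inclq S q) (inclq_ρ S q)).mapH2 z)) (hWw q).symm).trans
    ((congrArg (lvlHom (basis (levelS S)) (isDiscrete_IS' S) (isDiscrete_CS S) (toCS S)
      (toCS_ρ S)).mapH2 (h2Equiv_mapH2 (levelS S) (isDiscrete_ISq S ((q : Nat.Primes) : ℕ))
        (isDiscrete_IS S) (inclq S q) (inclq_ρ S q) (W q)).symm).trans
      (h2Equiv_mapH2 (levelS S) (isDiscrete_IS S) (isDiscrete_CS S) (toCS S) (toCS_ρ S)
        (LevelCoh28.mapH2 (inclq S q) (inclq_ρ S q) (W q))).symm)
  exact (Finset.sum_congr rfl (fun q _ => hterm q)).trans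
    ((map_sum (h2Equiv (levelS S) (CS S) (isDiscrete_CS S)).toLinearMap.toAddMonoidHom _
      _).symm.trans (h3.trans (map_zero _)))

omit [Finite (M.dualTwist (cycloChar p))] in
/-- **(ME) Middle exactness of the Poitou-Tate sequence.**  A family of local classes which is
orthogonal (for the sum of the local invariants of the cup products) to all global classes of
`M^*(1)` comes from a global class of `M`. -/
theorem middle_exact (hp2 : p ≠ 2) (hpS : pPrime p ∈ S) (D : InvData p S)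
    (hM : LevelCoh28.IsDiscrete (levelS S).sets M)
    (hM' : LevelCoh28.IsDiscrete (levelS S).sets (M.dualTwist (cycloChar p)))
    (x : ∀ q : ↥S, Hq1 M ((q : Nat.Primes) : ℕ))
    (horth : ∀ y : HS1 S (M.dualTwist (cycloChar p)),
      ∑ q : ↥S, D.inv q (cupq p M ((q : Nat.Primes) : ℕ)
        (isDiscrete_Mq p S ((q : Nat.Primes) : ℕ) hM') (x q)
        (resq1 S (M.dualTwist (cycloChar p)) ((q : Nat.Primes) : ℕ) y)) = 0) :
    ∃ X : HS1 S M, ∀ q : ↥S, resq1 S M ((q : Nat.Primes) : ℕ) X = x q := by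
  classical
  have : FiniteDimensional (ZMod p) (M.dualTwist (cycloChar p)) :=
    inferInstanceAs (FiniteDimensional (ZMod p) (Module.Dual (ZMod p) M))
  have : Finite (M.dualTwist (cycloChar p)) := Module.finite_of_finite (ZMod p)
  have hMi : IsDiscrete (levelS S).sets (IntRep20.intRep M) := hM
  have hAi : IsDiscrete (levelS S).sets (IntRep20.intRep (M.dualTwist (cycloChar p))) := hM'
  have h0 : IsDiscrete (levelS S).sets (resA p M).ρ0 :=
    FreeRes29.isDiscrete_freeRep (basis (levelS S)) hAi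
  have hMq : ∀ q : ↥S, LevelCoh28.IsDiscrete (levelLoc ((q : Nat.Primes) : ℕ)).sets
      (Mq M ((q : Nat.Primes) : ℕ)) := fun q => isDiscrete_Mq p S ((q : Nat.Primes) : ℕ) hM
  have hex := exists_global_S55 p S M hp2 hpS hMi hAi h0
    (fun q : ↥S => h1IntEquiv (levelLoc ((q : Nat.Primes) : ℕ)) (Mq M ((q : Nat.Primes) : ℕ))
      (hMq q) (x q))
    (fun h w hw hres => hz_of_orth p S M D hMi hM' h0 hMq
      (fun q : ↥S => isDiscrete_Mq p S ((q : Nat.Primes) : ℕ) hM') x horth h w hw hres)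
  refine Exists.elim hex (fun X' hX' => ?_)
  refine ⟨(h1IntEquiv (levelS S) M hM).symm X', fun q => ?_⟩
  apply (h1IntEquiv (levelLoc ((q : Nat.Primes) : ℕ)) (Mq M ((q : Nat.Primes) : ℕ))
    (hMq q)).injective
  refine Eq.trans ?_ (hX' q)
  have h1 := h1IntEquiv_ppH1 (rq ((q : Nat.Primes) : ℕ)) hM (hMq q)
    (LinearMap.id : M →ₗ[ZMod p] Mq M ((q : Nat.Primes) : ℕ)) (fun _ _ => rfl)
    (isLevelHom_rq S ((q : Nat.Primes) : ℕ)) LinearMap.id (fun _ _ => rfl) (fun _ => rfl)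
    ((h1IntEquiv (levelS S) M hM).symm X')
  exact h1.trans (congrArg _ (AddEquiv.apply_symm_apply _ X'))

end Main


end Fermat.Agent.TW.GLOB.MiddleExact1
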