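/-
PROGRAMME T (S56), chapter GLOB, brick (A5) of T/plan/ADD — helper3.  `MECount3`: **middle exactness
of the Poitou–Tate sequence in COUNT form**:

  `#range (loc¹_X) * #range (loc¹_{X'}) = ∏_{q ∈ S} #H¹(ℚ_q, X)`,   `X' = X^*(1)`.

* **`mid_of_eq`**, **`midHyp`** : the count, from `MECountAbs3` (linear algebra), `InvRecip1` (local
  invariants, reciprocity), `MiddleExact1.middle_exact` (helper1), `CupDualityMu2` (perfectness of
  the local cup product, helper2), `FiniteH1Loc6` (finiteness of the local `H¹`, helper6).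
-/
import Mathlib
import Fermat.Agent.TW.GLOB.MECountAbs3
import Fermat.Agent.TW.GLOB.MiddleExact1
import Fermat.Agent.TW.GLOB.AddFinal3
import Fermat.Agent.TW.LOC.CupDualityMu2
import Fermat.Agent.TW.LOC.FiniteH1Loc6

set_option autoImplicit false
set_option linter.unusedSectionVars false
set_option linter.style.haveILetI false

open ExtCitation
open Fermat.Agent.PT.PRO.LevelCoh28 Fermat.Agent.PT.PRO.LevelCohRes28
open Fermat.Agent.PT.GLUE.Objects21
open Fermat.Agent.TW.DEF.Basic1 Fermat.Agent.TW.DEF.Mu1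
open Fermat.Agent.TW.GLOB.GWNumeric1 Fermat.Agent.TW.GLOB.InvRecip1
open Fermat.Agent.TW.GLOB.FiniteHS6 Fermat.Agent.TW.GLOB.MECountAbs3

namespace Fermat.Agent.TW.GLOB.MECount3

noncomputable section

/-! ### The count -/

section Main

variable {p : ℕ} [Fact p.Prime] (S : Finset Nat.Primes)

/-- The count for a generic pairing `b : X × X' → μ_p`, from perfectness of the local cup products,
reciprocity and middle exactness. -/
theorem mid_generic {X X' : Rep.{0} (ZMod p) GQ}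
    (b : X →ₗ[ZMod p] X' →ₗ[ZMod p] (muP p))
    (hb : ∀ (g : GQ) (m : X) (f : X'), b (X.ρ g m) (X'.ρ g f) = (muP p).ρ g (b m f))
    (hpS : pPrime p ∈ S) (D : InvData p S)
    (hX' : IsDiscrete (levelS S).sets X')
    (hXq' : ∀ q : ↥S, IsDiscrete (levelLoc ((q : Nat.Primes) : ℕ)).sets
      (Mq X' ((q : Nat.Primes) : ℕ)))
    (hfin : ∀ q : ↥S, Finite (Hq1 X ((q : Nat.Primes) : ℕ)))
    (hfin' : ∀ q : ↥S, Finite (Hq1 X' ((q : Nat.Primes) : ℕ)))
    (hl : ∀ (q : ↥S) (x : Hq1 X ((q : Nat.Primes) : ℕ)),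
      (∀ y, cupqB b hb ((q : Nat.Primes) : ℕ) (hXq' q) x y = 0) → x = 0)
    (hr : ∀ (q : ↥S) (y : Hq1 X' ((q : Nat.Primes) : ℕ)),
      (∀ x, cupqB b hb ((q : Nat.Primes) : ℕ) (hXq' q) x y = 0) → y = 0)
    (hme : ∀ x : ∀ q : ↥S, Hq1 X ((q : Nat.Primes) : ℕ),
      (∀ y : HS1 S X', ∑ q : ↥S, D.inv q (cupqB b hb ((q : Nat.Primes) : ℕ) (hXq' q) (x q)
        (resq1 S X' ((q : Nat.Primes) : ℕ) y)) = 0) →
      ∃ Xg : HS1 S X, ∀ q : ↥S, resq1 S X ((q : Nat.Primes) : ℕ) Xg = x q) :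
    Nat.card ↥(LinearMap.range (locS S X)) * Nat.card ↥(LinearMap.range (locS S X')) =
      ∏ q : ↥S, Nat.card (Hq1 X ((q : Nat.Primes) : ℕ)) := by
  classical
  have key := card_range_mul_card_range (F := ZMod p)
    (P := fun q : ↥S => Hq1 X ((q : Nat.Primes) : ℕ))
    (P' := fun q : ↥S => Hq1 X' ((q : Nat.Primes) : ℕ))
    (locS S X) (locS S X') (fun q => D.pair b hb q (hXq' q))
  refine key ?_ ?_ ?_ ?_
  · intro q x h
    exact hl q x fun y => (D.pair_eq_zero_iff b hb q (hXq' q) x y).1 (h y)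
  · intro q y h
    exact hr q y fun x => (D.pair_eq_zero_iff b hb q (hXq' q) x y).1 (h x)
  · intro x y
    have h := D.pair_recip b hb hpS hX' hXq' x y
    refine (Finset.sum_congr rfl fun q _ => ?_).trans h
    exact rfl
  · intro x hx
    obtain ⟨Xg, hXg⟩ := hme x fun y => by
      have h := hx y
      refine (Finset.sum_congr rfl fun q _ => ?_).trans h
      exact rfl
    exact ⟨Xg, funext fun q => (locS_apply S X Xg q).trans (hXg q)⟩

/-- **(A5)** for `X' = X^*(1)` (generic `X'` with an equation). -/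
theorem mid_of_eq (hp2 : p ≠ 2) (hpS : pPrime p ∈ S) (X X' : Rep.{0} (ZMod p) GQ) [Finite X]
    (hX'eq : X' = X.dualTwist (cycloChar p)) (hX : IsDiscrete (levelS S).sets X) :
    Nat.card ↥(LinearMap.range (locS S X)) * Nat.card ↥(LinearMap.range (locS S X')) =
      ∏ q : ↥S, Nat.card (Hq1 X ((q : Nat.Primes) : ℕ)) := by
  subst hX'eq
  haveI : FiniteDimensional (ZMod p) X := Module.Finite.of_finite
  obtain ⟨D⟩ := exists_invData (p := p) (S := S) hp2 hpS
  have hX' := isDiscrete_dualTwist S hpS X hX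
  have hXq : ∀ q : ↥S, IsDiscrete (levelLoc ((q : Nat.Primes) : ℕ)).sets
      (Mq X ((q : Nat.Primes) : ℕ)) := fun q => isDiscrete_Mq S X hX ((q : Nat.Primes) : ℕ)
  have hXq' : ∀ q : ↥S, IsDiscrete (levelLoc ((q : Nat.Primes) : ℕ)).sets
      (Mq (X.dualTwist (cycloChar p)) ((q : Nat.Primes) : ℕ)) := fun q =>
    isDiscrete_Mq S _ hX' ((q : Nat.Primes) : ℕ)
  exact mid_generic S (evalB (cycloChar p) X) (evalB_equivariant (cycloChar p) X) hpS D hX' hXq'
    (fun q => Fermat.Agent.TW.LOC.FiniteH1Loc6.finite_Hq1_of_levelS hp2 S X hX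
      ((q : Nat.Primes) : ℕ))
    (fun q => Fermat.Agent.TW.LOC.FiniteH1Loc6.finite_Hq1_of_levelS hp2 S _ hX'
      ((q : Nat.Primes) : ℕ))
    (fun q x h => Fermat.Agent.TW.LOC.CupDualityMu2.cupq_left_nondegenerate p X
      ((q : Nat.Primes) : ℕ) (hXq q) (hXq' q) x h)
    (fun q y h => Fermat.Agent.TW.LOC.CupDualityMu2.cupq_right_nondegenerate p X
      ((q : Nat.Primes) : ℕ) (hXq q) (hXq' q) y h)
    (fun x hx => Fermat.Agent.TW.GLOB.MiddleExact1.middle_exact p S X hp2 hpS D hX hX' x hx)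

/-- The hypothesis `MidHyp S` of `AddFinal3`. -/
theorem midHyp (hp2 : p ≠ 2) (hpS : pPrime p ∈ S) :
    Fermat.Agent.TW.GLOB.AddFinal3.MidHyp (p := p) S :=
  fun X X' _ hX'eq hX => mid_of_eq S hp2 hpS X X' hX'eq hX

end Main

end

end Fermat.Agent.TW.GLOB.MECount3
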