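/-
PROGRAMME T (S56), chapter GLOB — helper3.  `AddDone3`: **(ADD), UNCONDITIONAL**:
`addHyp S hp2 hpS : EulerInv6.AddHyp S` — the `G_S` Euler characteristic `h⁰ h² / h¹` is multiplicative
on short exact sequences of finite discrete `𝔽_p[G_S]`-modules (`p` odd, `p ∈ S`).

`AddTail3.addHyp_of_mid` (squeeze + nine-term count + `tail ≤`/`tail ≥`) with `MECount3.midHyp`
(middle exactness in count form).  Also the nine-term count itself, `nineTerm`.
-/
import Mathlib
import Fermat.Agent.TW.GLOB.AddTail3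
import Fermat.Agent.TW.GLOB.MECount3

set_option autoImplicit false
set_option linter.unusedSectionVars false

open ExtCitation
open Fermat.Agent.PT.PRO.LevelCoh28
open Fermat.Agent.PT.GLUE.Objects21
open Fermat.Agent.TW.DEF.Basic1 Fermat.Agent.TW.GLOB.GWNumeric1
open Fermat.Agent.TW.GLOB.EulerInv6

namespace Fermat.Agent.TW.GLOB.AddDone3

variable {p : ℕ} [Fact p.Prime] (S : Finset Nat.Primes)

/-- **(ADD)**, unconditional. -/
theorem addHyp (hp2 : p ≠ 2) (hpS : pPrime p ∈ S) : AddHyp (p := p) S :=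
  Fermat.Agent.TW.GLOB.AddTail3.addHyp_of_mid S hp2 hpS
    (Fermat.Agent.TW.GLOB.MECount3.midHyp S hp2 hpS)

/-- **The nine-term Poitou–Tate count**, unconditional:
`h⁰(X) h²(X) h⁰(X') h²(X') ∏_q h¹_q(X) = h¹(X) h¹(X') ∏_q h²_q(X') ∏_q h²_q(X)`. -/
theorem nineTerm (hp2 : p ≠ 2) (hpS : pPrime p ∈ S) (X X' : Rep.{0} (ZMod p) GQ) [Finite X]
    (hX'eq : X' = X.dualTwist (cycloChar p)) (hX : IsDiscrete (levelS S).sets X) :
    Fermat.Agent.TW.GLOB.NineTerm0.NineTerm S X X' :=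
  Fermat.Agent.TW.GLOB.AddFinal3.nineTerm S X X' hp2 hpS
    (Fermat.Agent.TW.GLOB.AddTail3.tailLeHyp S hp2 hpS)
    (Fermat.Agent.TW.GLOB.MECount3.midHyp S hp2 hpS) hX'eq hX

end Fermat.Agent.TW.GLOB.AddDone3
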