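/-
Programme T (S56, Taylor–Wiles primes), chapter GLOB, task T7 (Tate's global Euler–Poincaré
formula), framework brick — helper5.

**Level cohomology of a normal subgroup and the conjugation action of the ambient group.**

`G` a group with a level basis `𝓑` (`PT/PRO/LevelCoh28`), `U ≤ G` a subgroup, `A : Rep k G`.

* `subBasis 𝓑 U : LevelBasis ↥U` — the induced basis `{V ∩ U | V ∈ 𝓑}` on the group `↥U`;
  `resRep U A := Rep.res U.subtype A`; `isDiscrete_resRep`; `isLevelHom_subtype`;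
  `resH1 U A : H¹(𝓑; A) → H¹(𝓑|U; A|U)`, `resH2` (restriction).
* For `U` NORMAL and `γ : G`: `conjHom U γ : ↥U →* ↥U`, `u ↦ γ⁻¹ u γ` (continuous for `subBasis`),
  and the conjugation maps
    `conjH1 U A γ : H¹(U; A) →ₗ H¹(U; A)`,  `conjH2 U A γ : H²(U; A) →ₗ H²(U; A)`,
  `[c] ↦ [u ↦ γ • c (γ⁻¹ u γ)]`, with
  - `conjH1_mul`, `conjH1_one` (a left action of `G`), same for `conjH2`;
  - **inner automorphisms act trivially**: `conjH1_of_mem`, `conjH2_of_mem` (`γ ∈ U ⟹ conjH γ = id`)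
    (explicit homotopies: `h = c u` in degree 1, `h x = c (u, u⁻¹ x u) - c (x, u)` in degree 2);
  - hence representations of the quotient `G ⧸ U`:
    `repH1 U A : Representation k (G ⧸ U) (H¹(U; A))`, `repH2 U A`, and on the invariants
    `repH0 U A : Representation k (G ⧸ U) (A^U)`;
  - naturality: `conjH1_mapH1`, `conjH2_mapH2` (equivariant coefficient maps), `conjH2_delta`
    (the connecting map `δ : H¹(C) → H²(A)` of a short exact sequence of `G`-modules, restricted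
    to `U`), `conjH1_delta0` (`δ⁰ : C^U → H¹(U; A)`);
  - `conjH1_resH1`, `conjH2_resH2` : restrictions of classes of `G` are invariant.
-/
import Mathlib
import Fermat.Agent.PT.PRO.LevelCohRes28
import Fermat.Agent.PT.PRO.ShapiroLevel28

set_option autoImplicit false
set_option linter.unusedSectionVars false

universe u

open CategoryTheory groupCohomology
open Fermat.Agent.PT.PRO.LevelCoh28 Fermat.Agent.PT.PRO.LevelCohRes28

namespace Fermat.Agent.TW.GLOB.SubLevel5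

variable {k G : Type u} [CommRing k] [Group G]

/-! ### The induced basis on a subgroup -/

/-- The traces on `U` of the members of a family of subgroups of `G`. -/
def subSets (𝓤 : Set (Subgroup G)) (U : Subgroup G) : Set (Subgroup U) :=
  {W | ∃ V ∈ 𝓤, W = V.subgroupOf U}

theorem subgroupOf_mem_subSets {𝓤 : Set (Subgroup G)} (U : Subgroup G) {V : Subgroup G}
    (hV : V ∈ 𝓤) : V.subgroupOf U ∈ subSets 𝓤 U := ⟨V, hV, rfl⟩

theorem isLevelBasis_subSets {𝓤 : Set (Subgroup G)} (h𝓤 : IsLevelBasis 𝓤) (U : Subgroup G) :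
    IsLevelBasis (subSets 𝓤 U) where
  nonempty := by
    obtain ⟨V, hV⟩ := h𝓤.nonempty
    exact ⟨_, subgroupOf_mem_subSets U hV⟩
  directed := by
    rintro _ ⟨V, hV, rfl⟩ _ ⟨V', hV', rfl⟩
    obtain ⟨W, hW, hle⟩ := h𝓤.directed V hV V' hV'
    refine ⟨W.subgroupOf U, subgroupOf_mem_subSets U hW, le_inf ?_ ?_⟩
    · exact Subgroup.comap_mono (hle.trans inf_le_left)
    · exact Subgroup.comap_mono (hle.trans inf_le_right)
  normalCore := by
    rintro _ ⟨V, hV, rfl⟩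
    obtain ⟨N, hN, hle, hn⟩ := h𝓤.normalCore V hV
    have := hn
    exact ⟨N.subgroupOf U, subgroupOf_mem_subSets U hN, Subgroup.comap_mono hle, inferInstance⟩
  finiteIndex := by
    rintro _ ⟨V, hV, rfl⟩
    have := h𝓤.finiteIndex V hV
    infer_instance

/-- The induced level basis on the group `↥U`. -/
def subBasis (𝓑 : LevelBasis G) (U : Subgroup G) : LevelBasis U :=
  ⟨subSets 𝓑.sets U, isLevelBasis_subSets 𝓑.isBasis U⟩

variable (𝓑 : LevelBasis G) (U : Subgroup G) (A : Rep.{u} k G)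

/-- The restriction of a `G`-module to `U`. -/
abbrev resRep : Rep.{u} k U := Rep.res U.subtype A

theorem resRep_ρ_apply (s : U) (a : A) : (resRep U A).ρ s a = A.ρ (s : G) a := rfl

variable {𝓑 A} in
theorem isDiscrete_resRep (hA : IsDiscrete 𝓑.sets A) :
    IsDiscrete (subBasis 𝓑 U).sets (resRep U A) := by
  intro a
  obtain ⟨V, hV, h⟩ := hA a
  exact ⟨V.subgroupOf U, subgroupOf_mem_subSets U hV, fun s hs => h (s : G) hs⟩

/-- The inclusion `U → G` is continuous. -/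
theorem isLevelHom_subtype : IsLevelHom U.subtype (subBasis 𝓑 U).sets 𝓑.sets :=
  fun V hV => ⟨V.subgroupOf U, subgroupOf_mem_subSets U hV, le_rfl⟩

/-- Restriction `H¹(G; A) → H¹(U; A)`. -/
noncomputable def resH1 : H1 𝓑 A →ₗ[k] H1 (subBasis 𝓑 U) (resRep U A) :=
  ppH1 U.subtype (LinearMap.id : A →ₗ[k] resRep U A) (fun _ _ => rfl) (isLevelHom_subtype 𝓑 U)

/-- Restriction `H²(G; A) → H²(U; A)`. -/
noncomputable def resH2 : H2 𝓑 A →ₗ[k] H2 (subBasis 𝓑 U) (resRep U A) :=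
  ppH2 U.subtype (LinearMap.id : A →ₗ[k] resRep U A) (fun _ _ => rfl) (isLevelHom_subtype 𝓑 U)

/-! ### Conjugation -/

section Conj

variable [hU : U.Normal]

/-- `u ↦ γ⁻¹ u γ` on the normal subgroup `U`. -/
def conjHom (γ : G) : U →* U where
  toFun s := ⟨γ⁻¹ * (s : G) * γ, by
    have := hU.conj_mem (s : G) s.2 γ⁻¹
    rwa [inv_inv] at this⟩
  map_one' := by
    apply Subtype.ext
    simp
  map_mul' s t := by
    apply Subtype.ext
    simp only [Subgroup.coe_mul]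
    group

@[simp] theorem coe_conjHom (γ : G) (s : U) : ((conjHom U γ s : U) : G) = γ⁻¹ * (s : G) * γ := rfl

theorem conjHom_mul (γ γ' : G) : conjHom U (γ * γ') = (conjHom U γ').comp (conjHom U γ) := by
  ext s
  simp only [coe_conjHom, MonoidHom.comp_apply, mul_inv_rev]
  group

theorem conjHom_one : conjHom U (1 : G) = MonoidHom.id U := by
  ext s
  simp

/-- Conjugation is continuous for the induced basis. -/
theorem isLevelHom_conjHom (γ : G) :
    IsLevelHom (conjHom U γ) (subBasis 𝓑 U).sets (subBasis 𝓑 U).sets := by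
  rintro _ ⟨V, hV, rfl⟩
  obtain ⟨N, hN, hle, hn⟩ := 𝓑.isBasis.normalCore V hV
  refine ⟨N.subgroupOf U, subgroupOf_mem_subSets U hN, fun s hs => ?_⟩
  have h1 : (s : G) ∈ N := hs
  have h2 : γ⁻¹ * (s : G) * γ ∈ N := by
    have := hn.conj_mem (s : G) h1 γ⁻¹
    rwa [inv_inv] at this
  exact hle h2

/-- The coefficient map of conjugation is `conjHom`-equivariant. -/
theorem conj_equivariant (γ : G) (s : U) (a : A) :
    A.ρ γ ((resRep U A).ρ (conjHom U γ s) a) = (resRep U A).ρ s (A.ρ γ a) := by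
  rw [resRep_ρ_apply, resRep_ρ_apply, coe_conjHom, ← Module.End.mul_apply, ← map_mul,
    ← Module.End.mul_apply, ← map_mul]
  congr 2
  group

/-- The coefficient map of conjugation, as a linear endomorphism of `A|U`. -/
def conjCoef (γ : G) : resRep U A →ₗ[k] resRep U A := A.ρ γ

theorem conjCoef_apply (γ : G) (a : A) : conjCoef U A γ a = A.ρ γ a := rfl

theorem conjCoef_equivariant (γ : G) (s : U) (a : resRep U A) :
    conjCoef U A γ ((resRep U A).ρ (conjHom U γ s) a) = (resRep U A).ρ s (conjCoef U A γ a) :=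
  conj_equivariant U A γ s a

/-- Conjugation by `γ` on `H¹(U; A)`: `[c] ↦ [s ↦ γ • c (γ⁻¹ s γ)]`. -/
noncomputable def conjH1 (γ : G) :
    H1 (subBasis 𝓑 U) (resRep U A) →ₗ[k] H1 (subBasis 𝓑 U) (resRep U A) :=
  ppH1 (conjHom U γ) (conjCoef U A γ) (conjCoef_equivariant U A γ) (isLevelHom_conjHom 𝓑 U γ)

/-- Conjugation by `γ` on `H²(U; A)`. -/
noncomputable def conjH2 (γ : G) :
    H2 (subBasis 𝓑 U) (resRep U A) →ₗ[k] H2 (subBasis 𝓑 U) (resRep U A) :=
  ppH2 (conjHom U γ) (conjCoef U A γ) (conjCoef_equivariant U A γ) (isLevelHom_conjHom 𝓑 U γ)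

/-- Conjugation on level 1-cocycles. -/
noncomputable def conjZ1 (γ : G) :
    ↥(Z1 (subBasis 𝓑 U) (resRep U A)) →ₗ[k] ↥(Z1 (subBasis 𝓑 U) (resRep U A)) :=
  ppZ1 (conjHom U γ) (conjCoef U A γ) (conjCoef_equivariant U A γ) (isLevelHom_conjHom 𝓑 U γ)

/-- Conjugation on level 2-cocycles. -/
noncomputable def conjZ2 (γ : G) :
    ↥(Z2 (subBasis 𝓑 U) (resRep U A)) →ₗ[k] ↥(Z2 (subBasis 𝓑 U) (resRep U A)) :=
  ppZ2 (conjHom U γ) (conjCoef U A γ) (conjCoef_equivariant U A γ) (isLevelHom_conjHom 𝓑 U γ)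

theorem conjZ1_apply (γ : G) (c : ↥(Z1 (subBasis 𝓑 U) (resRep U A))) (s : U) :
    (conjZ1 𝓑 U A γ c : U → resRep U A) s = A.ρ γ ((c : U → resRep U A) (conjHom U γ s)) := rfl

theorem conjZ2_apply (γ : G) (c : ↥(Z2 (subBasis 𝓑 U) (resRep U A))) (s t : U) :
    (conjZ2 𝓑 U A γ c : U × U → resRep U A) (s, t) =
      A.ρ γ ((c : U × U → resRep U A) (conjHom U γ s, conjHom U γ t)) := rfl

theorem conjH1_mk (γ : G) (c : ↥(Z1 (subBasis 𝓑 U) (resRep U A))) :
    conjH1 𝓑 U A γ (H1mk _ _ c) = H1mk _ _ (conjZ1 𝓑 U A γ c) := rfl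

theorem conjH2_mk (γ : G) (c : ↥(Z2 (subBasis 𝓑 U) (resRep U A))) :
    conjH2 𝓑 U A γ (H2mk _ _ c) = H2mk _ _ (conjZ2 𝓑 U A γ c) := rfl

/-! #### A left action of `G` -/

theorem conjH1_mul (γ γ' : G) (x : H1 (subBasis 𝓑 U) (resRep U A)) :
    conjH1 𝓑 U A (γ * γ') x = conjH1 𝓑 U A γ (conjH1 𝓑 U A γ' x) := by
  obtain ⟨c, rfl⟩ := H1mk_surjective _ _ x
  rw [conjH1_mk, conjH1_mk, conjH1_mk]
  congr 1
  apply Subtype.ext
  funext s
  rw [conjZ1_apply, conjZ1_apply, conjZ1_apply, conjHom_mul, map_mul]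
  rfl

theorem conjH2_mul (γ γ' : G) (x : H2 (subBasis 𝓑 U) (resRep U A)) :
    conjH2 𝓑 U A (γ * γ') x = conjH2 𝓑 U A γ (conjH2 𝓑 U A γ' x) := by
  obtain ⟨c, rfl⟩ := H2mk_surjective _ _ x
  rw [conjH2_mk, conjH2_mk, conjH2_mk]
  congr 1
  apply Subtype.ext
  funext ⟨s, t⟩
  rw [conjZ2_apply, conjZ2_apply, conjZ2_apply, conjHom_mul, map_mul]
  rfl

theorem conjH1_one (x : H1 (subBasis 𝓑 U) (resRep U A)) : conjH1 𝓑 U A 1 x = x := by
  obtain ⟨c, rfl⟩ := H1mk_surjective _ _ x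
  rw [conjH1_mk]
  congr 1
  apply Subtype.ext
  funext s
  rw [conjZ1_apply, conjHom_one, map_one]
  rfl

theorem conjH2_one (x : H2 (subBasis 𝓑 U) (resRep U A)) : conjH2 𝓑 U A 1 x = x := by
  obtain ⟨c, rfl⟩ := H2mk_surjective _ _ x
  rw [conjH2_mk]
  congr 1
  apply Subtype.ext
  funext ⟨s, t⟩
  rw [conjZ2_apply, conjHom_one, map_one]
  rfl

end Conj

/-! ### Inner automorphisms act trivially on cohomology (abstract group) -/

section Inner

variable {H : Type u} [Group H] (B : Rep.{u} k H)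

/-- Degree 1: `u • c (u⁻¹ s u) - c s = (d⁰ (c u)) s`. -/
theorem inner_cocycle₁ {c : H → B} (hc : c ∈ cocycles₁ B) (v s : H) :
    B.ρ v (c (v⁻¹ * s * v)) - c s = (d₀₁ B).hom (c v) s := by
  rw [mem_cocycles₁_iff] at hc
  have h1 := hc v (v⁻¹ * s * v)
  have h2 := hc s v
  have h3 : v * (v⁻¹ * s * v) = s * v := by group
  rw [h3] at h1
  rw [d₀₁_hom_apply, sub_eq_sub_iff_add_eq_add]
  exact h1.symm.trans h2

/-- The homotopy in degree 2: `s ↦ c (v, v⁻¹ s v) - c (s, v)`. -/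
def innerHtpy (c : H × H → B) (v : H) : H → B := fun s => c (v, v⁻¹ * s * v) - c (s, v)

/-- Degree 2: `v • c (v⁻¹ s v, v⁻¹ t v) - c (s, t) = (d¹ h) (s, t)`. -/
theorem inner_cocycle₂ {c : H × H → B} (hc : c ∈ cocycles₂ B) (v s t : H) :
    B.ρ v (c (v⁻¹ * s * v, v⁻¹ * t * v)) - c (s, t) =
      (d₁₂ B).hom (innerHtpy B c v) (s, t) := by
  rw [mem_cocycles₂_iff] at hc
  have h1 := hc v (v⁻¹ * s * v) (v⁻¹ * t * v)
  have h2 := hc s v (v⁻¹ * t * v)
  have h3 := hc s t v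
  have e1 : v * (v⁻¹ * s * v) = s * v := by group
  have e2 : v⁻¹ * s * v * (v⁻¹ * t * v) = v⁻¹ * (s * t) * v := by group
  have e3 : v * (v⁻¹ * t * v) = t * v := by group
  rw [e1, e2] at h1
  rw [e3] at h2
  rw [d₁₂_hom_apply]
  simp only [innerHtpy, map_sub]
  have k1 : B.ρ v (c (v⁻¹ * s * v, v⁻¹ * t * v)) =
      c (s * v, v⁻¹ * t * v) + c (v, v⁻¹ * s * v) - c (v, v⁻¹ * (s * t) * v) :=
    eq_sub_of_add_eq h1.symm
  have k2 : c (s * v, v⁻¹ * t * v) = B.ρ s (c (v, v⁻¹ * t * v)) + c (s, t * v) - c (s, v) :=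
    eq_sub_of_add_eq h2
  have k3 : c (s, t) = B.ρ s (c (t, v)) + c (s, t * v) - c (s * t, v) := by
    rw [eq_sub_iff_add_eq, add_comm]
    exact h3
  rw [k1, k2, k3]
  abel

theorem isLevel₁_innerHtpy {𝓤 : Set (Subgroup H)} (h𝓤 : IsLevelBasis 𝓤) {c : H × H → B}
    (hc : IsLevel₂ 𝓤 c) (v : H) : IsLevel₁ 𝓤 (innerHtpy B c v) := by
  obtain ⟨V, hV, hinv⟩ := hc
  obtain ⟨N, hN, hle, hn⟩ := h𝓤.normalCore V hV
  refine ⟨N, hN, fun s w hw => ?_⟩
  have hw' : v⁻¹ * w * v ∈ V := by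
    have := hn.conj_mem w hw v⁻¹
    rw [inv_inv] at this
    exact hle this
  have e1 : v⁻¹ * (s * w) * v = v⁻¹ * s * v * (v⁻¹ * w * v) := by group
  have a1 : c (v, v⁻¹ * s * v * (v⁻¹ * w * v)) = c (v, v⁻¹ * s * v) := by
    have := hinv v (v⁻¹ * s * v) 1 V.one_mem (v⁻¹ * w * v) hw'
    rwa [mul_one] at this
  have a2 : c (s * w, v) = c (s, v) := by
    have := hinv s v w (hle hw) 1 V.one_mem
    rwa [mul_one] at this
  simp only [innerHtpy, e1, a1, a2]

end Inner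

/-! ### Conjugation by elements of `U` is trivial; the action of `G ⧸ U` -/

section Quotient

variable [hU : U.Normal]

theorem conjHom_of_mem {γ : G} (hγ : γ ∈ U) (s : U) :
    conjHom U γ s = (⟨γ, hγ⟩ : U)⁻¹ * s * ⟨γ, hγ⟩ := Subtype.ext rfl

theorem conjH1_of_mem {γ : G} (hγ : γ ∈ U) (x : H1 (subBasis 𝓑 U) (resRep U A)) :
    conjH1 𝓑 U A γ x = x := by
  obtain ⟨c, rfl⟩ := H1mk_surjective _ _ x
  rw [conjH1_mk]
  refine (Submodule.Quotient.eq _).2 ?_
  rw [Submodule.mem_comap]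
  refine ⟨(c : U → resRep U A) ⟨γ, hγ⟩, ?_⟩
  funext s
  have h := inner_cocycle₁ (resRep U A) c.2.1 ⟨γ, hγ⟩ s
  rw [← h]
  show _ = (conjZ1 𝓑 U A γ c : U → resRep U A) s - (c : U → resRep U A) s
  rw [conjZ1_apply, conjHom_of_mem U hγ]
  rfl

theorem conjH2_of_mem {γ : G} (hγ : γ ∈ U) (x : H2 (subBasis 𝓑 U) (resRep U A)) :
    conjH2 𝓑 U A γ x = x := by
  obtain ⟨c, rfl⟩ := H2mk_surjective _ _ x
  rw [conjH2_mk]
  refine (Submodule.Quotient.eq _).2 ?_
  rw [Submodule.mem_comap]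
  refine (mem_B2_iff _ _ _).2 ⟨innerHtpy (resRep U A) (c : U × U → resRep U A) ⟨γ, hγ⟩,
    isLevel₁_innerHtpy (resRep U A) (subBasis 𝓑 U).isBasis c.2.2 ⟨γ, hγ⟩, ?_⟩
  funext ⟨s, t⟩
  have h := inner_cocycle₂ (resRep U A) c.2.1 ⟨γ, hγ⟩ s t
  rw [← h]
  show _ = (conjZ2 𝓑 U A γ c : U × U → resRep U A) (s, t) - (c : U × U → resRep U A) (s, t)
  rw [conjZ2_apply, conjHom_of_mem U hγ, conjHom_of_mem U hγ]
  rfl

/-- `γ ↦ conjH1 γ` as a monoid homomorphism `G → End`. -/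
noncomputable def conjH1Hom : G →* Module.End k (H1 (subBasis 𝓑 U) (resRep U A)) where
  toFun γ := conjH1 𝓑 U A γ
  map_one' := LinearMap.ext fun x => conjH1_one 𝓑 U A x
  map_mul' γ γ' := LinearMap.ext fun x => conjH1_mul 𝓑 U A γ γ' x

/-- `γ ↦ conjH2 γ` as a monoid homomorphism `G → End`. -/
noncomputable def conjH2Hom : G →* Module.End k (H2 (subBasis 𝓑 U) (resRep U A)) where
  toFun γ := conjH2 𝓑 U A γ
  map_one' := LinearMap.ext fun x => conjH2_one 𝓑 U A x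
  map_mul' γ γ' := LinearMap.ext fun x => conjH2_mul 𝓑 U A γ γ' x

/-- **The representation of `G ⧸ U` on `H¹(U; A)`** (conjugation). -/
noncomputable def repH1 : Representation k (G ⧸ U) (H1 (subBasis 𝓑 U) (resRep U A)) :=
  QuotientGroup.lift U (conjH1Hom 𝓑 U A) fun _ hγ =>
    MonoidHom.mem_ker.mpr (LinearMap.ext fun x => conjH1_of_mem 𝓑 U A hγ x)

/-- **The representation of `G ⧸ U` on `H²(U; A)`** (conjugation). -/
noncomputable def repH2 : Representation k (G ⧸ U) (H2 (subBasis 𝓑 U) (resRep U A)) :=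
  QuotientGroup.lift U (conjH2Hom 𝓑 U A) fun _ hγ =>
    MonoidHom.mem_ker.mpr (LinearMap.ext fun x => conjH2_of_mem 𝓑 U A hγ x)

@[simp] theorem repH1_mk (γ : G) (x : H1 (subBasis 𝓑 U) (resRep U A)) :
    repH1 𝓑 U A (γ : G ⧸ U) x = conjH1 𝓑 U A γ x := rfl

@[simp] theorem repH2_mk (γ : G) (x : H2 (subBasis 𝓑 U) (resRep U A)) :
    repH2 𝓑 U A (γ : G ⧸ U) x = conjH2 𝓑 U A γ x := rfl

/-! #### Degree 0 -/

/-- `G` preserves the `U`-invariants. -/
theorem ρ_mem_invariants (γ : G) {a : A} (ha : a ∈ (resRep U A).ρ.invariants) :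
    A.ρ γ a ∈ (resRep U A).ρ.invariants := by
  intro s
  have h := conj_equivariant U A γ s a
  rw [ha (conjHom U γ s)] at h
  exact h.symm

/-- `γ ↦ ρ γ` on the `U`-invariants. -/
noncomputable def conjH0Hom : G →* Module.End k ↥(resRep U A).ρ.invariants where
  toFun γ := (A.ρ γ).restrict fun _ ha => ρ_mem_invariants U A γ ha
  map_one' := by
    ext a
    simp
  map_mul' γ γ' := by
    ext a
    simp

/-- **The representation of `G ⧸ U` on `A^U`.** -/
noncomputable def repH0 : Representation k (G ⧸ U) ↥(resRep U A).ρ.invariants :=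
  QuotientGroup.lift U (conjH0Hom U A) fun γ hγ => by
    rw [MonoidHom.mem_ker]
    ext a
    exact a.2 ⟨γ, hγ⟩

@[simp] theorem coe_repH0_mk (γ : G) (a : ↥(resRep U A).ρ.invariants) :
    ((repH0 U A (γ : G ⧸ U) a : ↥(resRep U A).ρ.invariants) : A) = A.ρ γ (a : A) := rfl

end Quotient

/-! ### Naturality of the conjugation action -/

section Natural

variable [hU : U.Normal] {A} {B C : Rep.{u} k G}
  (φ : A →ₗ[k] B) (hφ : ∀ g a, φ (A.ρ g a) = B.ρ g (φ a))

include hφ in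
/-- An equivariant coefficient map, restricted to `U`. -/
theorem res_equivariant (s : U) (a : resRep U A) :
    φ ((resRep U A).ρ s a) = (resRep U B).ρ s (φ a) := hφ (s : G) a

/-- `H¹(U; φ)` for an equivariant coefficient map `φ : A → B` of `G`-modules. -/
noncomputable def mapResH1 :
    H1 (subBasis 𝓑 U) (resRep U A) →ₗ[k] H1 (subBasis 𝓑 U) (resRep U B) :=
  mapH1 (A := resRep U A) (B := resRep U B) φ (res_equivariant U φ hφ)

/-- `H²(U; φ)` for an equivariant coefficient map `φ : A → B` of `G`-modules. -/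
noncomputable def mapResH2 :
    H2 (subBasis 𝓑 U) (resRep U A) →ₗ[k] H2 (subBasis 𝓑 U) (resRep U B) :=
  mapH2 (A := resRep U A) (B := resRep U B) φ (res_equivariant U φ hφ)

include hφ in
/-- Conjugation commutes with coefficient maps, degree 1. -/
theorem conjH1_mapH1 (γ : G) (x : H1 (subBasis 𝓑 U) (resRep U A)) :
    conjH1 𝓑 U B γ (mapResH1 𝓑 U φ hφ x) = mapResH1 𝓑 U φ hφ (conjH1 𝓑 U A γ x) :=
  ppH1_mapH1 (conjHom U γ) (isLevelHom_conjHom 𝓑 U γ) (A := resRep U A) (B := resRep U B)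
    φ (res_equivariant U φ hφ) (A' := resRep U A) (B' := resRep U B) φ (res_equivariant U φ hφ)
    (conjCoef U A γ) (conjCoef_equivariant U A γ) (conjCoef U B γ) (conjCoef_equivariant U B γ)
    (fun a => (hφ γ a).symm) x

include hφ in
/-- Conjugation commutes with coefficient maps, degree 2. -/
theorem conjH2_mapH2 (γ : G) (x : H2 (subBasis 𝓑 U) (resRep U A)) :
    conjH2 𝓑 U B γ (mapResH2 𝓑 U φ hφ x) = mapResH2 𝓑 U φ hφ (conjH2 𝓑 U A γ x) :=
  ppH2_mapH2 (conjHom U γ) (isLevelHom_conjHom 𝓑 U γ) (A := resRep U A) (B := resRep U B)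
    φ (res_equivariant U φ hφ) (A' := resRep U A) (B' := resRep U B) φ (res_equivariant U φ hφ)
    (conjCoef U A γ) (conjCoef_equivariant U A γ) (conjCoef U B γ) (conjCoef_equivariant U B γ)
    (fun a => (hφ γ a).symm) x

variable (ψ : B →ₗ[k] C) (hψ : ∀ g b, ψ (B.ρ g b) = C.ρ g (ψ b))
  (hinj : Function.Injective φ) (hsurj : Function.Surjective ψ)
  (hex : ∀ b, ψ b = 0 ↔ ∃ a, φ a = b) (hB : IsDiscrete 𝓑.sets B)

/-- The connecting map `δ : H¹(U; C) → H²(U; A)` of a short exact sequence of `G`-modules. -/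
noncomputable def deltaRes :
    H1 (subBasis 𝓑 U) (resRep U C) →ₗ[k] H2 (subBasis 𝓑 U) (resRep U A) :=
  delta (A := resRep U A) (B := resRep U B) (C := resRep U C) φ (res_equivariant U φ hφ)
    ψ (res_equivariant U ψ hψ) hinj hsurj hex (isDiscrete_resRep U hB)

/-- The connecting map `δ⁰ : C^U → H¹(U; A)` of a short exact sequence of `G`-modules. -/
noncomputable def delta0Res :
    ↥(resRep U C).ρ.invariants →ₗ[k] H1 (subBasis 𝓑 U) (resRep U A) :=
  delta0 (A := resRep U A) (B := resRep U B) (C := resRep U C) φ (res_equivariant U φ hφ)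
    ψ (res_equivariant U ψ hψ) hinj hsurj hex (isDiscrete_resRep U hB)

/-- **Conjugation commutes with `δ`.** -/
theorem conjH2_delta (γ : G) (x : H1 (subBasis 𝓑 U) (resRep U C)) :
    deltaRes 𝓑 U φ hφ ψ hψ hinj hsurj hex hB (conjH1 𝓑 U C γ x) =
      conjH2 𝓑 U A γ (deltaRes 𝓑 U φ hφ ψ hψ hinj hsurj hex hB x) :=
  delta_natural (conjHom U γ) (isLevelHom_conjHom 𝓑 U γ)
    (A := resRep U A) (B := resRep U B) (C := resRep U C)
    φ (res_equivariant U φ hφ) ψ (res_equivariant U ψ hψ) hinj hsurj hex (isDiscrete_resRep U hB)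
    (A' := resRep U A) (B' := resRep U B) (C' := resRep U C)
    φ (res_equivariant U φ hφ) ψ (res_equivariant U ψ hψ) hinj hsurj hex (isDiscrete_resRep U hB)
    (conjCoef U A γ) (conjCoef_equivariant U A γ) (conjCoef U B γ) (conjCoef_equivariant U B γ)
    (conjCoef U C γ) (conjCoef_equivariant U C γ)
    (fun a => (hφ γ a).symm) (fun b => (hψ γ b).symm) x

/-- **Conjugation commutes with `δ⁰`.** -/
theorem conjH1_delta0 (γ : G) (x : ↥(resRep U C).ρ.invariants) :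
    delta0Res 𝓑 U φ hφ ψ hψ hinj hsurj hex hB ⟨C.ρ γ (x : C), ρ_mem_invariants U C γ x.2⟩ =
      conjH1 𝓑 U A γ (delta0Res 𝓑 U φ hφ ψ hψ hinj hsurj hex hB x) :=
  Fermat.Agent.PT.PRO.ShapiroLevel28.delta0_natural (conjHom U γ) (isLevelHom_conjHom 𝓑 U γ)
    (A := resRep U A) (B := resRep U B) (C := resRep U C)
    φ (res_equivariant U φ hφ) ψ (res_equivariant U ψ hψ) hinj hsurj hex (isDiscrete_resRep U hB)
    (A' := resRep U A) (B' := resRep U B) (C' := resRep U C)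
    φ (res_equivariant U φ hφ) ψ (res_equivariant U ψ hψ) hinj hsurj hex (isDiscrete_resRep U hB)
    (conjCoef U A γ) (conjCoef_equivariant U A γ) (conjCoef U B γ) (conjCoef_equivariant U B γ)
    (conjCoef U C γ) (conjCoef_equivariant U C γ)
    (fun a => (hφ γ a).symm) (fun b => (hψ γ b).symm) x

/-! #### The same statements for the representations of `G ⧸ U` -/

include hφ in
theorem mapResH1_repH1 (q : G ⧸ U) (x : H1 (subBasis 𝓑 U) (resRep U A)) :
    mapResH1 𝓑 U φ hφ (repH1 𝓑 U A q x) = repH1 𝓑 U B q (mapResH1 𝓑 U φ hφ x) := by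
  induction q using QuotientGroup.induction_on with
  | H γ => exact (conjH1_mapH1 𝓑 U φ hφ γ x).symm

include hφ in
theorem mapResH2_repH2 (q : G ⧸ U) (x : H2 (subBasis 𝓑 U) (resRep U A)) :
    mapResH2 𝓑 U φ hφ (repH2 𝓑 U A q x) = repH2 𝓑 U B q (mapResH2 𝓑 U φ hφ x) := by
  induction q using QuotientGroup.induction_on with
  | H γ => exact (conjH2_mapH2 𝓑 U φ hφ γ x).symm

theorem deltaRes_repH1 (q : G ⧸ U) (x : H1 (subBasis 𝓑 U) (resRep U C)) :
    deltaRes 𝓑 U φ hφ ψ hψ hinj hsurj hex hB (repH1 𝓑 U C q x) =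
      repH2 𝓑 U A q (deltaRes 𝓑 U φ hφ ψ hψ hinj hsurj hex hB x) := by
  induction q using QuotientGroup.induction_on with
  | H γ => exact conjH2_delta 𝓑 U φ hφ ψ hψ hinj hsurj hex hB γ x

theorem delta0Res_repH0 (q : G ⧸ U) (x : ↥(resRep U C).ρ.invariants) :
    delta0Res 𝓑 U φ hφ ψ hψ hinj hsurj hex hB (repH0 U C q x) =
      repH1 𝓑 U A q (delta0Res 𝓑 U φ hφ ψ hψ hinj hsurj hex hB x) := by
  induction q using QuotientGroup.induction_on with
  | H γ => exact conjH1_delta0 𝓑 U φ hφ ψ hψ hinj hsurj hex hB γ x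

end Natural

/-! ### Restrictions of classes of `G` are invariant -/

section ResInvariant

variable [hU : U.Normal]

theorem conjH1_resH1 (γ : G) (x : H1 𝓑 A) :
    conjH1 𝓑 U A γ (resH1 𝓑 U A x) = resH1 𝓑 U A x := by
  obtain ⟨c, rfl⟩ := H1mk_surjective _ _ x
  refine (Submodule.Quotient.eq _).2 ?_
  rw [Submodule.mem_comap]
  refine ⟨(c : G → A) γ, ?_⟩
  funext s
  have h := inner_cocycle₁ A c.2.1 γ (s : G)
  exact h.symm

theorem conjH2_resH2 (γ : G) (x : H2 𝓑 A) :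
    conjH2 𝓑 U A γ (resH2 𝓑 U A x) = resH2 𝓑 U A x := by
  obtain ⟨c, rfl⟩ := H2mk_surjective _ _ x
  refine (Submodule.Quotient.eq _).2 ?_
  rw [Submodule.mem_comap]
  refine (mem_B2_iff _ _ _).2 ⟨fun s : U => innerHtpy A (c : G × G → A) γ (s : G),
    isLevel₁_precomp (isLevelHom_subtype 𝓑 U) (isLevel₁_innerHtpy A 𝓑.isBasis c.2.2 γ), ?_⟩
  funext ⟨s, t⟩
  have h := inner_cocycle₂ A c.2.1 γ (s : G) (t : G)
  exact h.symm

theorem repH1_resH1 (q : G ⧸ U) (x : H1 𝓑 A) :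
    repH1 𝓑 U A q (resH1 𝓑 U A x) = resH1 𝓑 U A x := by
  induction q using QuotientGroup.induction_on with
  | H γ => exact conjH1_resH1 𝓑 U A γ x

theorem repH2_resH2 (q : G ⧸ U) (x : H2 𝓑 A) :
    repH2 𝓑 U A q (resH2 𝓑 U A x) = resH2 𝓑 U A x := by
  induction q using QuotientGroup.induction_on with
  | H γ => exact conjH2_resH2 𝓑 U A γ x

end ResInvariant

end Fermat.Agent.TW.GLOB.SubLevel5
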