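/-
Programme T (S56, Taylor–Wiles primes), chapter GLOB, task T7 (Tate's global Euler–Poincaré
formula), brick (MU-c) — helper5.

**`H¹(Gal(ℚ̄/F); E_S)` is finite.**

`F = K.F` a finite level (`K : Lev S`: finite Galois over `ℚ`, unramified outside `S`),
`U = K.U = Gal(ℚ̄/F)` with the induced level basis `subBasis (levelS S) U`, `E_S = ES S` the
`S`-units of `ℚ_S`.

* `exists_beta` (Hilbert 90): every level cocycle `c : U → E_S` is `u ↦ u β / β` for a `β ∈ Lˣ`,
  `L ⊇ F` a bigger level;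
* `smul_divT_eq`: the divisor (prime to `S`) of such a `β` is `Gal(L/F)`-invariant, so
  (`TowerMaps6.exists_inclDiv_eq_of_fixed`) it is the extension of a divisor `D₀` of `F`;
* `Rel K c cl` : the class `cl ∈ Cl_S(F)` of such a `D₀`; `exists_rel`, and
  `sub_mem_coboundaries_of_rel`: two cocycles related to the same class differ by a coboundary;
* **`finite_H1_ES`** : `Finite (H1 (subBasis (levelS S) K.U) (resRep K.U (ES S)))`
  (`[c] ↦ cl` is injective into the finite `S`-class group of `F`).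
-/
import Mathlib
import Fermat.Agent.PT.GLUE.Levels21
import Fermat.Agent.PT.GLUE.ESLevel27
import Fermat.Agent.PT.BR.InfGalois13
import Fermat.Agent.PT.GLOB.TowerTrans23
import Fermat.Agent.PT.GLOB.FirstIneq16
import Fermat.Agent.TW.GLOB.SubLevel5

set_option autoImplicit false
set_option linter.unusedSectionVars false

open groupCohomology
open Fermat.Agent.PT.PRO.LevelCoh28 Fermat.Agent.PT.GLUE.Objects21 Fermat.Agent.PT.GLUE.Levels21
open Fermat.Agent.PT.GLUE.ESLevel27 Fermat.Agent.PT.GLOB Fermat.Agent.TW.GLOB.SubLevel5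

namespace Fermat.Agent.TW.GLOB.H1ES5

local notation "Qbar" => AlgebraicClosure ℚ
local notation "Γ" => (AlgebraicClosure ℚ ≃ₐ[ℚ] AlgebraicClosure ℚ)

local instance isAlgClosureQbarH5 : IsAlgClosure ℚ Qbar := ⟨inferInstance, inferInstance⟩
local instance normalQbarH5 : Normal ℚ Qbar := IsAlgClosure.normal ℚ Qbar
local instance isGaloisQbarH5 : IsGalois ℚ Qbar := IsAlgClosure.isGalois ℚ Qbar

variable {S : Finset Nat.Primes}

/-! ### The underlying element of `ℚ̄ˣ` -/

/-- The underlying element of `ℚ̄ˣ` of an element of `E_S`. -/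
def esVal (a : ES S) : Qbarˣ := ((Additive.toMul (α := ESgroup S) a : ESgroup S) : Qbarˣ)

theorem esVal_mem (a : ES S) : esVal a ∈ ESgroup S := (Additive.toMul (α := ESgroup S) a).2

theorem esVal_add (a b : ES S) : esVal (a + b) = esVal a * esVal b := rfl

theorem esVal_zero : esVal (0 : ES S) = 1 := rfl

theorem esVal_sub (a b : ES S) : esVal (a - b) = esVal a / esVal b := rfl

theorem esVal_ρ (g : Γ) (a : ES S) : esVal ((ES S).ρ g a) = g • esVal a := rfl

theorem esVal_injective : Function.Injective (esVal (S := S)) := by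
  intro a b h
  apply Additive.toMul.injective
  exact Subtype.ext h

/-- An element of `ℚ̄ˣ` lying in `E_S`, as an element of the module `ES S`. -/
def esMk (x : Qbarˣ) (hx : x ∈ ESgroup S) : ES S := Additive.ofMul (⟨x, hx⟩ : ESgroup S)

theorem esVal_esMk (x : Qbarˣ) (hx : x ∈ ESgroup S) : esVal (esMk x hx) = x := rfl

/-! ### Hilbert 90 -/

/-- **Hilbert 90.** A level cocycle `c : Gal(ℚ̄/F) → E_S` is of the form `u ↦ u β / β` with
`β ∈ Lˣ` for a level `L ⊇ F`. -/
theorem exists_beta (K : Lev S) (c : ↥K.U → ES S)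
    (hc : c ∈ Z1 (subBasis (levelS S) K.U) (resRep K.U (ES S))) :
    ∃ (L : Lev S) (_ : K.F ≤ L.F) (β : (↥L.F)ˣ),
      ∀ u : K.U, esVal (c u) = (u : Γ) • unitsVal L.F β / unitsVal L.F β := by
  classical
  obtain ⟨hcoc, hlev⟩ := (mem_Z1_iff _ _ _).1 hc
  have hcoc' := (mem_cocycles₁_iff _).1 hcoc
  obtain ⟨W, hW, -, hinv, hfix⟩ := hlev.exists_normal_fixing
    (subBasis (levelS S) K.U).isBasis (isDiscrete_resRep K.U (isDiscrete_ES S))
  obtain ⟨V, hV, rfl⟩ := hW
  obtain ⟨L₀, hL₀⟩ := exists_lev_le hV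
  have hLK : (K.sup L₀).U ≤ K.U :=
    IntermediateField.fixingSubgroup_antitone (K.le_sup_left L₀)
  have hLV : (K.sup L₀).U ≤ V :=
    (IntermediateField.fixingSubgroup_antitone (K.le_sup_right L₀)).trans hL₀
  have hc1 : c 1 = 0 := by
    have h := hcoc' 1 1
    rw [mul_one, map_one, Module.End.one_apply] at h
    exact left_eq_add.mp h
  -- the extension by `1`
  let ct : Γ → Qbarˣ := fun g => if h : g ∈ K.U then esVal (c ⟨g, h⟩) else 1
  have hct : ∀ (g : Γ) (h : g ∈ K.U), ct g = esVal (c ⟨g, h⟩) := fun g h => dif_pos h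
  have hct' : ∀ g : Γ, g ∉ K.U → ct g = 1 := fun g h => dif_neg h
  have h1 : ∀ g : Γ, ∀ s ∈ (K.sup L₀).F.fixingSubgroup, ct (g * s) = ct g := by
    intro g s hs
    have hsU : s ∈ K.U := hLK hs
    by_cases hg : g ∈ K.U
    · rw [hct g hg, hct (g * s) (K.U.mul_mem hg hsU)]
      congr 1
      exact hinv ⟨g, hg⟩ ⟨s, hsU⟩ (hLV hs)
    · have hgs : g * s ∉ K.U := fun h => hg (by
        have := K.U.mul_mem h (K.U.inv_mem hsU)
        rwa [mul_inv_cancel_right] at this)
      rw [hct' g hg, hct' _ hgs]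
  have h2 : ∀ g : Γ, ((ct g : Qbarˣ) : Qbar) ∈ (K.sup L₀).F := by
    intro g
    by_cases hg : g ∈ K.U
    · rw [hct g hg]
      refine (ρ_eq_self_iff_mem S (K.sup L₀).F (c ⟨g, hg⟩)).1 fun s hs => ?_
      exact hfix ⟨s, hLK hs⟩ (hLV hs) ⟨g, hg⟩
    · rw [hct' g hg, Units.val_one]
      exact one_mem _
  have h3 : ∀ n ∈ K.U, ∀ n' ∈ K.U, ct (n * n') = n • ct n' * ct n := by
    intro n hn n' hn'
    rw [hct n hn, hct n' hn', hct (n * n') (K.U.mul_mem hn hn')]
    have h := hcoc' ⟨n, hn⟩ ⟨n', hn'⟩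
    have h' := congrArg esVal h
    rw [esVal_add] at h'
    exact h'
  obtain ⟨β, hβ⟩ := Fermat.Agent.PT.BR.InfGalois13.hilbert90_level (K := ℚ) (Ω := Qbar) K.U
    (K.sup L₀).F ct h1 h2 h3
  have hβmem : ((β : Qbarˣ) : Qbar) ∈ (K.sup L₀).F := by
    rw [← InfiniteGalois.fixedField_fixingSubgroup (K.sup L₀).F,
      IntermediateField.mem_fixedField_iff]
    intro s hs
    have hsU : s ∈ K.U := hLK hs
    have e1 : ct s = 1 := by
      have := h1 1 s hs
      rw [one_mul] at this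
      rw [this, hct 1 K.U.one_mem]
      have : (⟨1, K.U.one_mem⟩ : K.U) = 1 := rfl
      rw [this, hc1, esVal_zero]
    have e2 := hβ s hsU
    rw [e1] at e2
    have e3 : s • β = β := (div_eq_one.mp e2.symm)
    exact congrArg (fun z : Qbarˣ => (z : Qbar)) e3
  obtain ⟨β₀, hβ₀⟩ := exists_unitsVal_eq (K.sup L₀).F β hβmem
  refine ⟨K.sup L₀, K.le_sup_left L₀, β₀, fun u => ?_⟩
  rw [hβ₀]
  exact (hct (u : Γ) u.2).symm.trans (hβ (u : Γ) u.2)

/-! ### Invariance of the divisor -/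

section Tower

variable (K L : Lev S) [hKL : Fact (K.F ≤ L.F)]

/-! Shortcut instances (instance search for the Galois actions is slow). -/

noncomputable instance (priority := 10000) instActUnitsRel :
    MulDistribMulAction (↥L.F ≃ₐ[↥K.F] ↥L.F) (↥L.F)ˣ :=
  Interface23.instActionUnitsField ↥K.F ↥L.F

noncomputable instance (priority := 10000) instSMulUnitsRel :
    SMul (↥L.F ≃ₐ[↥K.F] ↥L.F) (↥L.F)ˣ :=
  (instActUnitsRel K L).toSMul

noncomputable instance (priority := 10000) instActDivRel :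
    MulDistribMulAction (↥L.F ≃ₐ[↥K.F] ↥L.F) (Interface23.DivT S ↥L.F) :=
  Interface23.instMulDistribMulActionDivT S ↥K.F ↥L.F

noncomputable instance (priority := 10000) instSMulDivRel :
    SMul (↥L.F ≃ₐ[↥K.F] ↥L.F) (Interface23.DivT S ↥L.F) :=
  (instActDivRel K L).toSMul

/-- Every element of `Gal(L/F)` is the restriction of an element of `Gal(ℚ̄/F)`. -/
theorem exists_lift (τ : L.F ≃ₐ[K.F] L.F) :
    ∃ n : Γ, n ∈ K.U ∧ ∀ x : (↥L.F)ˣ, unitsVal L.F (τ • x) = n • unitsVal L.F x := by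
  obtain ⟨n, hn⟩ := AlgEquiv.restrictNormalHom_surjective (F := ℚ) (K₁ := L.F) Qbar
    (τ.restrictScalars ℚ)
  have hcomm : ∀ y : L.F, n (y : Qbar) = ((τ y : L.F) : Qbar) := by
    intro y
    have h := AlgEquiv.restrictNormal_commutes n L.F y
    have h' : (AlgEquiv.restrictNormalHom L.F n) y = τ y := by
      rw [hn]
      rfl
    rw [← h']
    exact h.symm
  refine ⟨n, ?_, fun x => ?_⟩
  · refine (IntermediateField.mem_fixingSubgroup_iff _ _).2 fun x hx => ?_
    have h := hcomm (algebraMap K.F L.F ⟨x, hx⟩)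
    rw [τ.commutes] at h
    exact h
  · apply Units.ext
    exact (hcomm (x : L.F)).symm

/-- If `u β / β ∈ E_S` for all `u ∈ Gal(ℚ̄/F)`, the divisor of `β ∈ Lˣ` is `Gal(L/F)`-invariant. -/
theorem smul_divT_eq (β : (↥L.F)ˣ)
    (hβ : ∀ u ∈ K.U, u • unitsVal L.F β / unitsVal L.F β ∈ ESgroup S) (τ : L.F ≃ₐ[K.F] L.F) :
    τ • Interface23.divT S L.F β = Interface23.divT S L.F β := by
  obtain ⟨n, hn, hτ⟩ := exists_lift K L τ
  have hx : τ • β / β ∈ (Interface23.divT S ↥L.F).ker := by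
    apply mem_ker_divT_of_mem_ESgroup S L.F
    rw [map_div, hτ]
    exact hβ n hn
  rw [MonoidHom.mem_ker, map_div, div_eq_one, ClassAction23.divT_smul] at hx
  exact hx

end Tower

/-! ### The class in the `S`-class group -/

/-- `cl ∈ Cl_S(F)` is the class attached to the cocycle `c`. -/
def Rel (K : Lev S) (c : ↥K.U → ES S)
    (cl : Interface23.DivT S K.F ⧸ (Interface23.divT S K.F).range) : Prop :=
  ∃ (L : Lev S) (_ : Fact (K.F ≤ L.F)) (β : (↥L.F)ˣ) (D₀ : Interface23.DivT S K.F),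
    (∀ u : K.U, esVal (c u) = (u : Γ) • unitsVal L.F β / unitsVal L.F β) ∧
    Tower23.inclDiv S K.F L.F D₀ = Interface23.divT S L.F β ∧ cl = QuotientGroup.mk D₀

theorem exists_rel (K : Lev S) (c : ↥K.U → ES S)
    (hc : c ∈ Z1 (subBasis (levelS S) K.U) (resRep K.U (ES S))) : ∃ cl, Rel K c cl := by
  obtain ⟨L, hle, β, hβ⟩ := exists_beta K c hc
  have hF : Fact (K.F ≤ L.F) := ⟨hle⟩
  have hinv : ∀ τ : L.F ≃ₐ[K.F] L.F, τ • Interface23.divT S L.F β = Interface23.divT S L.F β := by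
    intro τ
    refine smul_divT_eq K L β (fun u hu => ?_) τ
    rw [← hβ ⟨u, hu⟩]
    exact esVal_mem _
  obtain ⟨D₀, hD₀⟩ := TowerMaps6.exists_inclDiv_eq_of_fixed S K.F L.F
    (isUnramifiedOutside_tower K L) _ hinv
  exact ⟨_, L, hF, β, D₀, hβ, hD₀, rfl⟩

/-! ### Injectivity -/

theorem div_div_div_aux {G : Type*} [CommGroup G] (a b a' b' f : G) :
    (a / b) / (a' / b') = (a * f / a') / (b * f / b') := by
  rw [div_div_div_comm (a * f) a' (b * f) b', mul_div_mul_right_eq_div]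

theorem unitsVal_map_tower (K L : Lev S) [Fact (K.F ≤ L.F)] (x : (↥K.F)ˣ) :
    unitsVal L.F (Units.map (algebraMap K.F L.F : K.F →* L.F) x) = unitsVal K.F x := by
  apply Units.ext
  rfl

/-- an element of `F` is fixed by `Gal(ℚ̄/F)` -/
theorem smul_unitsVal_of_mem (K : Lev S) (u : K.U) (f : (↥K.F)ˣ) :
    (u : Γ) • unitsVal K.F f = unitsVal K.F f := by
  apply Units.ext
  exact (IntermediateField.mem_fixingSubgroup_iff _ _).1 u.2 _ ((f : K.F)).2

/-- **Injectivity**: two cocycles attached to the same class differ by a coboundary. -/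
theorem sub_mem_coboundaries_of_rel (K : Lev S) (c c' : ↥K.U → ES S)
    (cl : Interface23.DivT S K.F ⧸ (Interface23.divT S K.F).range)
    (h : Rel K c cl) (h' : Rel K c' cl) :
    c - c' ∈ coboundaries₁ (resRep K.U (ES S)) := by
  obtain ⟨L, hL, β, D₀, hβ, hD, hcl⟩ := h
  obtain ⟨L', hL', β', D₀', hβ', hD', hcl'⟩ := h'
  have hmem : D₀⁻¹ * D₀' ∈ (Interface23.divT S K.F).range := by
    rw [← QuotientGroup.eq, ← hcl, ← hcl']
  obtain ⟨f, hf⟩ := hmem
  -- the compositum
  have h1 : Fact (L.F ≤ (L.sup L').F) := ⟨L.le_sup_left L'⟩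
  have h2 : Fact (L'.F ≤ (L.sup L').F) := ⟨L.le_sup_right L'⟩
  have h3 : Fact (K.F ≤ (L.sup L').F) := ⟨hL.out.trans (L.le_sup_left L')⟩
  have t1 : IsScalarTower K.F L.F (L.sup L').F := IsScalarTower.of_algebraMap_eq fun x => rfl
  have t2 : IsScalarTower K.F L'.F (L.sup L').F := IsScalarTower.of_algebraMap_eq fun x => rfl
  set b₁ : (↥(L.sup L').F)ˣ := Units.map (algebraMap L.F (L.sup L').F : L.F →* (L.sup L').F) β
    with hb₁
  set b₂ : (↥(L.sup L').F)ˣ := Units.map (algebraMap L'.F (L.sup L').F : L'.F →* (L.sup L').F) β'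
    with hb₂
  set f₂ : (↥(L.sup L').F)ˣ := Units.map (algebraMap K.F (L.sup L').F : K.F →* (L.sup L').F) f
    with hf₂
  have hb : b₁ * f₂ / b₂ ∈ (Interface23.divT S ↥(L.sup L').F).ker := by
    rw [MonoidHom.mem_ker, map_div, map_mul, hb₁, hb₂, hf₂, ← Tower23.inclDiv_divT,
      ← Tower23.inclDiv_divT, ← Tower23.inclDiv_divT, ← hD, ← hD', hf,
      TowerTrans23.inclDiv_inclDiv, TowerTrans23.inclDiv_inclDiv, ← map_mul, ← map_div]
    have : D₀ * (D₀⁻¹ * D₀') / D₀' = 1 := by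
      rw [mul_inv_cancel_left, div_self']
    rw [this, map_one]
  have hε : unitsVal (L.sup L').F (b₁ * f₂ / b₂) ∈ ESgroup S :=
    mem_ESgroup_of_mem_ker_divT S (L.sup L').F (L.sup L').unr _ hb
  have hεval : unitsVal (L.sup L').F (b₁ * f₂ / b₂) =
      unitsVal L.F β * unitsVal K.F f / unitsVal L'.F β' := by
    rw [map_div, map_mul, hb₁, hb₂, hf₂, unitsVal_map_tower, unitsVal_map_tower,
      unitsVal_map_tower]
  refine ⟨esMk _ hε, ?_⟩
  funext u
  apply esVal_injective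
  rw [d₀₁_hom_apply, Pi.sub_apply, esVal_sub, esVal_sub, hβ u, hβ' u]
  change (u : Γ) • esVal (esMk _ hε) / esVal (esMk _ hε) = _
  rw [esVal_esMk, hεval, smul_div', smul_mul', smul_unitsVal_of_mem]
  exact (div_div_div_aux _ _ _ _ _).symm

/-! ### Finiteness -/

/-- **`H¹(Gal(ℚ̄/F); E_S)` is finite**: it injects into the `S`-class group of `F`. -/
theorem finite_H1_ES (K : Lev S) :
    Finite (H1 (subBasis (levelS S) K.U) (resRep K.U (ES S))) := by
  classical
  have hex : ∀ x : H1 (subBasis (levelS S) K.U) (resRep K.U (ES S)),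
      ∃ c : ↥(Z1 (subBasis (levelS S) K.U) (resRep K.U (ES S))), H1mk _ _ c = x :=
    H1mk_surjective _ _
  choose rep hrep using hex
  have hcl : ∀ x, ∃ cl, Rel K (rep x : ↥K.U → ES S) cl := fun x => exists_rel K _ (rep x).2
  choose cl hcl using hcl
  refine Finite.of_injective cl ?_
  intro x y hxy
  rw [← hrep x, ← hrep y, ← sub_eq_zero, ← map_sub, H1mk_eq_zero_iff]
  have hy := hcl y
  rw [← hxy] at hy
  exact sub_mem_coboundaries_of_rel K _ _ (cl x) (hcl x) hy

end Fermat.Agent.TW.GLOB.H1ES5
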