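/-
Programme T (S56, Taylor–Wiles primes), chapter GLOB, task T7 — helper5.

**Additive coefficient maps between representations over different rings.**

`A : Rep k G`, `B : Rep k' G` (two coefficient rings), `j : A →+ B` additive and `G`-equivariant.
Level cohomology (`PT/PRO/LevelCoh28`) only sees the additive structure:
* `addH1 j hj : H1 𝓑 A →+ H1 𝓑 B`, `addH2 j hj : H2 𝓑 A →+ H2 𝓑 B`, `addH0 j hj` on invariants;
* functoriality (`addH1_comp`, `addH1_id`, …), hence for an equivariant additive bijection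
  `e : A ≃+ B` the additive equivalences `addH1Equiv`, `addH2Equiv`, `addH0Equiv`;
* naturality for pull–push (`ppH1_addH1`, `ppH2_addH2`) and for the conjugation action of
  `G ⧸ U` on `Hⁿ(U; -)` (`repH1_addH1`, `repH2_addH2`, `repH0_addH0`);
* compatibility with `k'`-linear coefficient maps (`mapH1_addH1`, `mapH2_addH2`).
-/
import Mathlib
import Fermat.Agent.TW.GLOB.SubLevel5

set_option autoImplicit false
set_option linter.unusedSectionVars false

open CategoryTheory groupCohomology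
open Fermat.Agent.PT.PRO.LevelCoh28 Fermat.Agent.PT.PRO.LevelCohRes28
  Fermat.Agent.TW.GLOB.SubLevel5

namespace Fermat.Agent.TW.GLOB.AddCoh5

/-- An additive map out of a quotient module, from an additive map killing the submodule. -/
noncomputable def liftQ' {R M W : Type*} [Ring R] [AddCommGroup M] [Module R M] [AddCommGroup W]
    (P : Submodule R M) (f : M →+ W) (hf : ∀ x ∈ P, f x = 0) : (M ⧸ P) →+ W :=
  QuotientAddGroup.lift P.toAddSubgroup f (fun x hx => hf x hx)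

@[simp] theorem liftQ'_mkQ {R M W : Type*} [Ring R] [AddCommGroup M] [Module R M]
    [AddCommGroup W] (P : Submodule R M) (f : M →+ W) (hf : ∀ x ∈ P, f x = 0) (x : M) :
    liftQ' P f hf (P.mkQ x) = f x := rfl

section Maps

variable {k k' : Type} [CommRing k] [CommRing k'] {G : Type} [Group G] {𝓑 : LevelBasis G}
  {A : Rep.{0} k G} {B : Rep.{0} k' G} (j : A →+ B) (hj : ∀ g a, j (A.ρ g a) = B.ρ g (j a))

include hj in
theorem d₀₁_comp (a : A) : (d₀₁ B).hom (j a) = j ∘ (d₀₁ A).hom a := by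
  funext g
  simp only [d₀₁_hom_apply, Function.comp_apply, map_sub, hj]

include hj in
theorem d₁₂_comp (x : G → A) : (d₁₂ B).hom (j ∘ x) = j ∘ (d₁₂ A).hom x := by
  funext ⟨g, h⟩
  simp only [d₁₂_hom_apply, Function.comp_apply, map_sub, map_add, hj]

include hj in
theorem comp_mem_cocycles₁ {c : G → A} (hc : c ∈ cocycles₁ A) : j ∘ c ∈ cocycles₁ B := by
  rw [mem_cocycles₁_iff] at hc ⊢
  intro g h
  simp only [Function.comp_apply, hc, map_add, hj]

include hj in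
theorem comp_mem_cocycles₂ {c : G × G → A} (hc : c ∈ cocycles₂ A) : j ∘ c ∈ cocycles₂ B := by
  rw [mem_cocycles₂_iff] at hc ⊢
  intro g h i
  simp only [Function.comp_apply, ← map_add, hc, ← hj]

include hj in
theorem comp_mem_coboundaries₁ {c : G → A} (hc : c ∈ coboundaries₁ A) :
    j ∘ c ∈ coboundaries₁ B := by
  obtain ⟨a, rfl⟩ := hc
  exact ⟨j a, d₀₁_comp j hj a⟩

include hj in
theorem comp_mem_Z1 {c : G → A} (hc : c ∈ Z1 𝓑 A) : j ∘ c ∈ Z1 𝓑 B :=
  ⟨comp_mem_cocycles₁ j hj hc.1, hc.2.comp j⟩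

include hj in
theorem comp_mem_Z2 {c : G × G → A} (hc : c ∈ Z2 𝓑 A) : j ∘ c ∈ Z2 𝓑 B :=
  ⟨comp_mem_cocycles₂ j hj hc.1, hc.2.comp j⟩

include hj in
theorem comp_mem_B2 {c : G × G → A} (hc : c ∈ B2 𝓑 A) : j ∘ c ∈ B2 𝓑 B := by
  obtain ⟨x, hx, rfl⟩ := (mem_B2_iff 𝓑 A c).1 hc
  exact (mem_B2_iff 𝓑 B _).2 ⟨j ∘ x, hx.comp j, d₁₂_comp j hj x⟩

/-- `c ↦ j ∘ c` on level 1-cocycles. -/
def addZ1 : ↥(Z1 𝓑 A) →+ ↥(Z1 𝓑 B) where
  toFun c := ⟨j ∘ (c : G → A), comp_mem_Z1 j hj c.2⟩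
  map_zero' := Subtype.ext (funext fun _ => map_zero j)
  map_add' _ _ := Subtype.ext (funext fun _ => map_add j _ _)

/-- `c ↦ j ∘ c` on level 2-cocycles. -/
def addZ2 : ↥(Z2 𝓑 A) →+ ↥(Z2 𝓑 B) where
  toFun c := ⟨j ∘ (c : G × G → A), comp_mem_Z2 j hj c.2⟩
  map_zero' := Subtype.ext (funext fun _ => map_zero j)
  map_add' _ _ := Subtype.ext (funext fun _ => map_add j _ _)

@[simp] theorem coe_addZ1 (c : ↥(Z1 𝓑 A)) :
    ((addZ1 j hj c : ↥(Z1 𝓑 B)) : G → B) = j ∘ (c : G → A) := rfl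

@[simp] theorem coe_addZ2 (c : ↥(Z2 𝓑 A)) :
    ((addZ2 j hj c : ↥(Z2 𝓑 B)) : G × G → B) = j ∘ (c : G × G → A) := rfl

/-- **The map `H¹(A) → H¹(B)` induced by an additive equivariant map.** -/
noncomputable def addH1 : H1 𝓑 A →+ H1 𝓑 B :=
  liftQ' _ ((H1mk 𝓑 B).toAddMonoidHom.comp (addZ1 j hj)) (fun c hc => by
    show H1mk 𝓑 B (addZ1 j hj c) = 0
    rw [H1mk_eq_zero_iff]
    exact comp_mem_coboundaries₁ j hj hc)

/-- **The map `H²(A) → H²(B)` induced by an additive equivariant map.** -/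
noncomputable def addH2 : H2 𝓑 A →+ H2 𝓑 B :=
  liftQ' _ ((H2mk 𝓑 B).toAddMonoidHom.comp (addZ2 j hj)) (fun c hc => by
    show H2mk 𝓑 B (addZ2 j hj c) = 0
    rw [H2mk_eq_zero_iff]
    exact comp_mem_B2 j hj hc)

theorem addH1_mk (c : ↥(Z1 𝓑 A)) : addH1 j hj (H1mk 𝓑 A c) = H1mk 𝓑 B (addZ1 j hj c) := rfl

theorem addH2_mk (c : ↥(Z2 𝓑 A)) : addH2 j hj (H2mk 𝓑 A c) = H2mk 𝓑 B (addZ2 j hj c) := rfl

include hj in
theorem map_mem_invariants {a : A} (ha : a ∈ A.ρ.invariants) : j a ∈ B.ρ.invariants := by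
  intro g
  rw [← hj, ha g]

/-- The map on invariants induced by an additive equivariant map. -/
def addH0 : ↥A.ρ.invariants →+ ↥B.ρ.invariants where
  toFun a := ⟨j a.1, map_mem_invariants j hj a.2⟩
  map_zero' := Subtype.ext (map_zero j)
  map_add' _ _ := Subtype.ext (map_add j _ _)

@[simp] theorem coe_addH0 (a : ↥A.ρ.invariants) : ((addH0 j hj a : ↥B.ρ.invariants) : B) = j a.1 :=
  rfl

end Maps

/-! ### Functoriality, equivalences -/

section Functor

variable {k k' k'' : Type} [CommRing k] [CommRing k'] [CommRing k''] {G : Type} [Group G]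
  {𝓑 : LevelBasis G} {A : Rep.{0} k G} {B : Rep.{0} k' G} {C : Rep.{0} k'' G}
  (j : A →+ B) (hj : ∀ g a, j (A.ρ g a) = B.ρ g (j a))
  (j' : B →+ C) (hj' : ∀ g b, j' (B.ρ g b) = C.ρ g (j' b))

include hj hj' in
theorem comp_equivariant (g : G) (a : A) : (j'.comp j) (A.ρ g a) = C.ρ g ((j'.comp j) a) := by
  rw [AddMonoidHom.comp_apply, hj, hj', AddMonoidHom.comp_apply]

theorem addH1_comp (x : H1 𝓑 A) :
    addH1 j' hj' (addH1 j hj x) = addH1 (j'.comp j) (comp_equivariant j hj j' hj') x := by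
  obtain ⟨c, rfl⟩ := H1mk_surjective 𝓑 A x
  rfl

theorem addH2_comp (x : H2 𝓑 A) :
    addH2 j' hj' (addH2 j hj x) = addH2 (j'.comp j) (comp_equivariant j hj j' hj') x := by
  obtain ⟨c, rfl⟩ := H2mk_surjective 𝓑 A x
  rfl

theorem addH1_congr {j₁ j₂ : A →+ B} (h : j₁ = j₂) (h₁ : ∀ g a, j₁ (A.ρ g a) = B.ρ g (j₁ a))
    (h₂ : ∀ g a, j₂ (A.ρ g a) = B.ρ g (j₂ a)) (x : H1 𝓑 A) : addH1 j₁ h₁ x = addH1 j₂ h₂ x := by
  subst h
  rfl

theorem addH2_congr {j₁ j₂ : A →+ B} (h : j₁ = j₂) (h₁ : ∀ g a, j₁ (A.ρ g a) = B.ρ g (j₁ a))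
    (h₂ : ∀ g a, j₂ (A.ρ g a) = B.ρ g (j₂ a)) (x : H2 𝓑 A) : addH2 j₁ h₁ x = addH2 j₂ h₂ x := by
  subst h
  rfl

theorem addH1_id (h : ∀ g a, (AddMonoidHom.id A) (A.ρ g a) = A.ρ g ((AddMonoidHom.id A) a))
    (x : H1 𝓑 A) : addH1 (AddMonoidHom.id A) h x = x := by
  obtain ⟨c, rfl⟩ := H1mk_surjective 𝓑 A x
  rfl

theorem addH2_id (h : ∀ g a, (AddMonoidHom.id A) (A.ρ g a) = A.ρ g ((AddMonoidHom.id A) a))
    (x : H2 𝓑 A) : addH2 (AddMonoidHom.id A) h x = x := by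
  obtain ⟨c, rfl⟩ := H2mk_surjective 𝓑 A x
  rfl

variable (e : A ≃+ B) (he : ∀ g a, e (A.ρ g a) = B.ρ g (e a))

include he in
theorem symm_equivariant (g : G) (b : B) : e.symm (B.ρ g b) = A.ρ g (e.symm b) := by
  apply e.injective
  rw [AddEquiv.apply_symm_apply, he, AddEquiv.apply_symm_apply]

/-- `H¹(A) ≃+ H¹(B)` for an equivariant additive bijection. -/
noncomputable def addH1Equiv : H1 𝓑 A ≃+ H1 𝓑 B where
  toFun := addH1 e.toAddMonoidHom (fun g a => he g a)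
  invFun := addH1 e.symm.toAddMonoidHom (fun g b => symm_equivariant e he g b)
  left_inv x := by
    obtain ⟨c, rfl⟩ := H1mk_surjective 𝓑 A x
    show H1mk 𝓑 A _ = H1mk 𝓑 A c
    congr 1
    exact Subtype.ext (funext fun g => e.symm_apply_apply _)
  right_inv x := by
    obtain ⟨c, rfl⟩ := H1mk_surjective 𝓑 B x
    show H1mk 𝓑 B _ = H1mk 𝓑 B c
    congr 1
    exact Subtype.ext (funext fun g => e.apply_symm_apply _)
  map_add' := map_add _

/-- `H²(A) ≃+ H²(B)` for an equivariant additive bijection. -/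
noncomputable def addH2Equiv : H2 𝓑 A ≃+ H2 𝓑 B where
  toFun := addH2 e.toAddMonoidHom (fun g a => he g a)
  invFun := addH2 e.symm.toAddMonoidHom (fun g b => symm_equivariant e he g b)
  left_inv x := by
    obtain ⟨c, rfl⟩ := H2mk_surjective 𝓑 A x
    show H2mk 𝓑 A _ = H2mk 𝓑 A c
    congr 1
    exact Subtype.ext (funext fun g => e.symm_apply_apply _)
  right_inv x := by
    obtain ⟨c, rfl⟩ := H2mk_surjective 𝓑 B x
    show H2mk 𝓑 B _ = H2mk 𝓑 B c
    congr 1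
    exact Subtype.ext (funext fun g => e.apply_symm_apply _)
  map_add' := map_add _

/-- `A^G ≃+ B^G` for an equivariant additive bijection. -/
noncomputable def addH0Equiv : ↥A.ρ.invariants ≃+ ↥B.ρ.invariants where
  toFun := addH0 e.toAddMonoidHom (fun g a => he g a)
  invFun := addH0 e.symm.toAddMonoidHom (fun g b => symm_equivariant e he g b)
  left_inv x := Subtype.ext (e.symm_apply_apply x.1)
  right_inv x := Subtype.ext (e.apply_symm_apply x.1)
  map_add' := map_add _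

theorem addH1Equiv_apply (x : H1 𝓑 A) :
    addH1Equiv (𝓑 := 𝓑) e he x = addH1 e.toAddMonoidHom (fun g a => he g a) x := rfl

theorem addH2Equiv_apply (x : H2 𝓑 A) :
    addH2Equiv (𝓑 := 𝓑) e he x = addH2 e.toAddMonoidHom (fun g a => he g a) x := rfl

theorem coe_addH0Equiv (x : ↥A.ρ.invariants) :
    ((addH0Equiv e he x : ↥B.ρ.invariants) : B) = e x.1 := rfl

end Functor

/-! ### Compatibility with linear coefficient maps -/

section Linear

variable {k k' : Type} [CommRing k] [CommRing k'] {G : Type} [Group G]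
  {𝓑 : LevelBasis G} {A : Rep.{0} k G} {B C : Rep.{0} k' G}
  (j : A →+ B) (hj : ∀ g a, j (A.ρ g a) = B.ρ g (j a))
  (φ : B →ₗ[k'] C) (hφ : ∀ g b, φ (B.ρ g b) = C.ρ g (φ b))

include hj hφ in
theorem lin_comp_equivariant (g : G) (a : A) :
    (φ.toAddMonoidHom.comp j) (A.ρ g a) = C.ρ g ((φ.toAddMonoidHom.comp j) a) := by
  show φ (j (A.ρ g a)) = C.ρ g (φ (j a))
  rw [hj, hφ]

theorem mapH1_addH1 (x : H1 𝓑 A) :
    mapH1 (𝓑 := 𝓑) φ hφ (addH1 j hj x) =
      addH1 (φ.toAddMonoidHom.comp j) (lin_comp_equivariant j hj φ hφ) x := by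
  obtain ⟨c, rfl⟩ := H1mk_surjective 𝓑 A x
  rfl

theorem mapH2_addH2 (x : H2 𝓑 A) :
    mapH2 (𝓑 := 𝓑) φ hφ (addH2 j hj x) =
      addH2 (φ.toAddMonoidHom.comp j) (lin_comp_equivariant j hj φ hφ) x := by
  obtain ⟨c, rfl⟩ := H2mk_surjective 𝓑 A x
  rfl

end Linear

/-! ### Naturality for pull–push -/

section Natural

variable {k k' : Type} [CommRing k] [CommRing k'] {G H : Type} [Group G] [Group H] (f : G →* H)
  {𝓑G : LevelBasis G} {𝓑H : LevelBasis H} (hf : IsLevelHom f 𝓑G.sets 𝓑H.sets)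
  {A : Rep.{0} k H} {B : Rep.{0} k' H} (j : A →+ B) (hj : ∀ g a, j (A.ρ g a) = B.ρ g (j a))
  {A' : Rep.{0} k G} {B' : Rep.{0} k' G} (j' : A' →+ B')
  (hj' : ∀ g a, j' (A'.ρ g a) = B'.ρ g (j' a))
  (φA : A →ₗ[k] A') (hφA : ∀ (g : G) (a : A), φA (A.ρ (f g) a) = A'.ρ g (φA a))
  (φB : B →ₗ[k'] B') (hφB : ∀ (g : G) (b : B), φB (B.ρ (f g) b) = B'.ρ g (φB b))
  (hcomm : ∀ a, φB (j a) = j' (φA a))

include hcomm in
theorem ppH1_addH1 (x : H1 𝓑H A) :
    ppH1 f φB hφB hf (addH1 j hj x) = addH1 j' hj' (ppH1 f φA hφA hf x) := by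
  obtain ⟨c, rfl⟩ := H1mk_surjective 𝓑H A x
  rw [addH1_mk, ppH1_mk, ppH1_mk, addH1_mk]
  congr 1
  apply Subtype.ext
  funext y
  exact hcomm _

include hcomm in
theorem ppH2_addH2 (x : H2 𝓑H A) :
    ppH2 f φB hφB hf (addH2 j hj x) = addH2 j' hj' (ppH2 f φA hφA hf x) := by
  obtain ⟨c, rfl⟩ := H2mk_surjective 𝓑H A x
  rw [addH2_mk, ppH2_mk, ppH2_mk, addH2_mk]
  congr 1
  apply Subtype.ext
  funext y
  exact hcomm _

end Natural

/-! ### Over an open normal subgroup: the conjugation action -/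

section Sub

variable {k k' : Type} [CommRing k] [CommRing k'] {G : Type} [Group G] (𝓑 : LevelBasis G)
  (U : Subgroup G) [hU : U.Normal] {A : Rep.{0} k G} {B : Rep.{0} k' G}
  (j : A →+ B) (hj : ∀ g a, j (A.ρ g a) = B.ρ g (j a))

/-- `H¹(U; j)`. -/
noncomputable def addResH1 :
    H1 (subBasis 𝓑 U) (resRep U A) →+ H1 (subBasis 𝓑 U) (resRep U B) :=
  addH1 (A := resRep U A) (B := resRep U B) j (fun s a => hj (s : G) a)

/-- `H²(U; j)`. -/
noncomputable def addResH2 :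
    H2 (subBasis 𝓑 U) (resRep U A) →+ H2 (subBasis 𝓑 U) (resRep U B) :=
  addH2 (A := resRep U A) (B := resRep U B) j (fun s a => hj (s : G) a)

/-- `j` on `U`-invariants. -/
noncomputable def addResH0 : ↥(resRep U A).ρ.invariants →+ ↥(resRep U B).ρ.invariants :=
  addH0 (A := resRep U A) (B := resRep U B) j (fun s a => hj (s : G) a)

@[simp] theorem coe_addResH0 (a : ↥(resRep U A).ρ.invariants) :
    ((addResH0 U j hj a : ↥(resRep U B).ρ.invariants) : B) = j a.1 := rfl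

theorem conjH1_addResH1 (γ : G) (x : H1 (subBasis 𝓑 U) (resRep U A)) :
    conjH1 𝓑 U B γ (addResH1 𝓑 U j hj x) = addResH1 𝓑 U j hj (conjH1 𝓑 U A γ x) :=
  ppH1_addH1 (conjHom U γ) (isLevelHom_conjHom 𝓑 U γ) (A := resRep U A) (B := resRep U B) j
    (fun s a => hj (s : G) a) (A' := resRep U A) (B' := resRep U B) j (fun s a => hj (s : G) a)
    (conjCoef U A γ) (conjCoef_equivariant U A γ) (conjCoef U B γ) (conjCoef_equivariant U B γ)
    (fun a => (hj γ a).symm) x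

theorem conjH2_addResH2 (γ : G) (x : H2 (subBasis 𝓑 U) (resRep U A)) :
    conjH2 𝓑 U B γ (addResH2 𝓑 U j hj x) = addResH2 𝓑 U j hj (conjH2 𝓑 U A γ x) :=
  ppH2_addH2 (conjHom U γ) (isLevelHom_conjHom 𝓑 U γ) (A := resRep U A) (B := resRep U B) j
    (fun s a => hj (s : G) a) (A' := resRep U A) (B' := resRep U B) j (fun s a => hj (s : G) a)
    (conjCoef U A γ) (conjCoef_equivariant U A γ) (conjCoef U B γ) (conjCoef_equivariant U B γ)
    (fun a => (hj γ a).symm) x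

theorem repH1_addResH1 (q : G ⧸ U) (x : H1 (subBasis 𝓑 U) (resRep U A)) :
    repH1 𝓑 U B q (addResH1 𝓑 U j hj x) = addResH1 𝓑 U j hj (repH1 𝓑 U A q x) := by
  induction q using QuotientGroup.induction_on with
  | H γ => exact conjH1_addResH1 𝓑 U j hj γ x

theorem repH2_addResH2 (q : G ⧸ U) (x : H2 (subBasis 𝓑 U) (resRep U A)) :
    repH2 𝓑 U B q (addResH2 𝓑 U j hj x) = addResH2 𝓑 U j hj (repH2 𝓑 U A q x) := by
  induction q using QuotientGroup.induction_on with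
  | H γ => exact conjH2_addResH2 𝓑 U j hj γ x

theorem repH0_addResH0 (q : G ⧸ U) (x : ↥(resRep U A).ρ.invariants) :
    repH0 U B q (addResH0 U j hj x) = addResH0 U j hj (repH0 U A q x) := by
  induction q using QuotientGroup.induction_on with
  | H γ =>
    apply Subtype.ext
    rw [coe_repH0_mk, coe_addResH0, coe_addResH0, coe_repH0_mk, hj]

variable (e : A ≃+ B) (he : ∀ g a, e (A.ρ g a) = B.ρ g (e a))

/-- `H¹(U; A) ≃+ H¹(U; B)`. -/
noncomputable def addResH1Equiv :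
    H1 (subBasis 𝓑 U) (resRep U A) ≃+ H1 (subBasis 𝓑 U) (resRep U B) :=
  addH1Equiv (A := resRep U A) (B := resRep U B) e (fun s a => he (s : G) a)

/-- `H²(U; A) ≃+ H²(U; B)`. -/
noncomputable def addResH2Equiv :
    H2 (subBasis 𝓑 U) (resRep U A) ≃+ H2 (subBasis 𝓑 U) (resRep U B) :=
  addH2Equiv (A := resRep U A) (B := resRep U B) e (fun s a => he (s : G) a)

/-- `A^U ≃+ B^U`. -/
noncomputable def addResH0Equiv :
    ↥(resRep U A).ρ.invariants ≃+ ↥(resRep U B).ρ.invariants :=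
  addH0Equiv (A := resRep U A) (B := resRep U B) e (fun s a => he (s : G) a)

theorem addResH1Equiv_apply (x : H1 (subBasis 𝓑 U) (resRep U A)) :
    addResH1Equiv 𝓑 U e he x = addResH1 𝓑 U e.toAddMonoidHom (fun g a => he g a) x := rfl

theorem addResH2Equiv_apply (x : H2 (subBasis 𝓑 U) (resRep U A)) :
    addResH2Equiv 𝓑 U e he x = addResH2 𝓑 U e.toAddMonoidHom (fun g a => he g a) x := rfl

theorem coe_addResH0Equiv (x : ↥(resRep U A).ρ.invariants) :
    ((addResH0Equiv U e he x : ↥(resRep U B).ρ.invariants) : B) = e x.1 := rfl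

theorem repH1_addResH1Equiv (q : G ⧸ U) (x : H1 (subBasis 𝓑 U) (resRep U A)) :
    repH1 𝓑 U B q (addResH1Equiv 𝓑 U e he x) = addResH1Equiv 𝓑 U e he (repH1 𝓑 U A q x) :=
  repH1_addResH1 𝓑 U e.toAddMonoidHom (fun g a => he g a) q x

theorem repH2_addResH2Equiv (q : G ⧸ U) (x : H2 (subBasis 𝓑 U) (resRep U A)) :
    repH2 𝓑 U B q (addResH2Equiv 𝓑 U e he x) = addResH2Equiv 𝓑 U e he (repH2 𝓑 U A q x) :=
  repH2_addResH2 𝓑 U e.toAddMonoidHom (fun g a => he g a) q x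

theorem repH0_addResH0Equiv (q : G ⧸ U) (x : ↥(resRep U A).ρ.invariants) :
    repH0 U B q (addResH0Equiv U e he x) = addResH0Equiv U e he (repH0 U A q x) :=
  repH0_addResH0 U e.toAddMonoidHom (fun g a => he g a) q x

end Sub

end Fermat.Agent.TW.GLOB.AddCoh5
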