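/-
Programme T (S56, Taylor–Wiles primes), chapter GLOB, task T7 — helper5.

**The Kummer sequence over an open normal subgroup `U`, equivariantly for `G ⧸ U`.**

`X : Rep k G` a discrete, `n`-divisible `G`-module (think `E_S`, `k = ℤ`, `n = p`),
`A : Rep k' G` (think `μ_p = muP p`, `k' = ZMod p`) with an additive, equivariant, injective
`j : A →+ X` onto the `n`-torsion of `X`.  From the long exact sequence of `LevelCoh28` for
`0 → X[n] → X --n--> X → 0` over `U` and `AddCoh5` (`A ≃+ X[n]`) we get additive maps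

  `A^U --kj0--> X^U --n--> X^U --kd0--> H¹(U; A) --kj1--> H¹(U; X) --n--> H¹(U; X)
       --kd1--> H²(U; A) --kj2--> H²(U; X) --n--> H²(U; X)`,

exact everywhere (in the shapes consumed by `EulerAbs9.euler_abstract`) and equivariant for the
conjugation action of `G ⧸ U` (`SubLevel5.repH0/repH1/repH2`).
-/
import Mathlib
import Fermat.Agent.TW.GLOB.AddCoh5

set_option autoImplicit false
set_option linter.unusedSectionVars false

open CategoryTheory groupCohomology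
open Fermat.Agent.PT.PRO.LevelCoh28 Fermat.Agent.PT.PRO.LevelCohRes28
  Fermat.Agent.TW.GLOB.SubLevel5 Fermat.Agent.TW.GLOB.AddCoh5

namespace Fermat.Agent.TW.GLOB.KummerU5

/-! ### The `n`-torsion subrepresentation and multiplication by `n` -/

section Tors

variable {k : Type} [CommRing k] {G : Type} [Group G] (X : Rep.{0} k G) (n : ℕ)

/-- Multiplication by `n`, as a `k`-linear map. -/
def nMul : X →ₗ[k] X := (n : k) • (LinearMap.id : X →ₗ[k] X)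

theorem nMul_apply (x : X) : nMul X n x = n • x := by
  rw [nMul, LinearMap.smul_apply, LinearMap.id_apply, Nat.cast_smul_eq_nsmul]

theorem nMul_ρ (g : G) (x : X) : nMul X n (X.ρ g x) = X.ρ g (nMul X n x) := by
  rw [nMul_apply, nMul_apply, map_nsmul]

/-- The `n`-torsion submodule. -/
def torsSub : Submodule k X := LinearMap.ker (nMul X n)

theorem mem_torsSub_iff (x : X) : x ∈ torsSub X n ↔ n • x = 0 := by
  rw [torsSub, LinearMap.mem_ker, nMul_apply]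

theorem torsSub_le_comap (g : G) : torsSub X n ≤ (torsSub X n).comap (X.ρ g) := by
  intro x hx
  rw [Submodule.mem_comap, mem_torsSub_iff, ← map_nsmul, (mem_torsSub_iff X n x).1 hx, map_zero]

/-- The `n`-torsion of `X` as a `G`-module. -/
abbrev TX : Rep.{0} k G := Rep.subrepresentation X (torsSub X n) (torsSub_le_comap X n)

/-- The inclusion `X[n] → X`. -/
def ιT : TX X n →ₗ[k] X := (torsSub X n).subtype

theorem ιT_ρ (g : G) (t : TX X n) : ιT X n ((TX X n).ρ g t) = X.ρ g (ιT X n t) := rfl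

theorem ιT_injective : Function.Injective (ιT X n) := Subtype.val_injective

theorem nMul_eq_zero_iff (x : X) : nMul X n x = 0 ↔ ∃ t, ιT X n t = x :=
  ⟨fun h => ⟨⟨x, h⟩, rfl⟩, by rintro ⟨t, rfl⟩; exact t.2⟩

variable {X n} in
theorem nMul_surjective (hdiv : ∀ x : X, ∃ y : X, n • y = x) : Function.Surjective (nMul X n) :=
  fun x => by
    obtain ⟨y, hy⟩ := hdiv x
    exact ⟨y, (nMul_apply X n y).trans hy⟩

theorem mapH1_nMul {𝓑 : LevelBasis G} (x : H1 𝓑 X) :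
    mapH1 (𝓑 := 𝓑) (nMul X n) (nMul_ρ X n) x = n • x := by
  obtain ⟨c, rfl⟩ := H1mk_surjective 𝓑 X x
  rw [mapH1_mk, ← map_nsmul]
  congr 1
  apply Subtype.ext
  funext g
  show nMul X n ((c : G → X) g) = ((n • c : ↥(Z1 𝓑 X)) : G → X) g
  rw [nMul_apply]
  rfl

theorem mapH2_nMul {𝓑 : LevelBasis G} (x : H2 𝓑 X) :
    mapH2 (𝓑 := 𝓑) (nMul X n) (nMul_ρ X n) x = n • x := by
  obtain ⟨c, rfl⟩ := H2mk_surjective 𝓑 X x
  rw [mapH2_mk, ← map_nsmul]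
  congr 1
  apply Subtype.ext
  funext g
  show nMul X n ((c : G × G → X) g) = ((n • c : ↥(Z2 𝓑 X)) : G × G → X) g
  rw [nMul_apply]
  rfl

end Tors

/-! ### The long exact sequence over `U` for `0 → X[n] → X → X → 0` -/

section LES

variable {k : Type} [CommRing k] {G : Type} [Group G] (𝓑 : LevelBasis G) (U : Subgroup G)
  [hU : U.Normal] {X : Rep.{0} k G} (hX : IsDiscrete 𝓑.sets X) {n : ℕ}
  (hdiv : ∀ x : X, ∃ y : X, n • y = x)

/-- `δ⁰ : X^U → H¹(U; X[n])`. -/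
noncomputable def dT0 : ↥(resRep U X).ρ.invariants →ₗ[k] H1 (subBasis 𝓑 U) (resRep U (TX X n)) :=
  delta0Res 𝓑 U (ιT X n) (ιT_ρ X n) (nMul X n) (nMul_ρ X n) (ιT_injective X n)
    (nMul_surjective hdiv) (nMul_eq_zero_iff X n) hX

/-- `δ¹ : H¹(U; X) → H²(U; X[n])`. -/
noncomputable def dT1 :
    H1 (subBasis 𝓑 U) (resRep U X) →ₗ[k] H2 (subBasis 𝓑 U) (resRep U (TX X n)) :=
  deltaRes 𝓑 U (ιT X n) (ιT_ρ X n) (nMul X n) (nMul_ρ X n) (ιT_injective X n)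
    (nMul_surjective hdiv) (nMul_eq_zero_iff X n) hX

theorem dT0_eq_zero_iff (x : ↥(resRep U X).ρ.invariants) :
    dT0 𝓑 U hX hdiv x = 0 ↔ ∃ x' : ↥(resRep U X).ρ.invariants, x = n • x' := by
  unfold dT0 delta0Res
  rw [delta0_eq_zero_iff]
  constructor
  · rintro ⟨b, hb, hbx⟩
    refine ⟨⟨b, hb⟩, Subtype.ext ?_⟩
    rw [← hbx, nMul_apply]
    rfl
  · rintro ⟨x', rfl⟩
    refine ⟨x'.1, x'.2, ?_⟩
    rw [nMul_apply]
    rfl

theorem mapResH1_ιT_eq_zero_iff (v : H1 (subBasis 𝓑 U) (resRep U (TX X n))) :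
    mapResH1 𝓑 U (ιT X n) (ιT_ρ X n) v = 0 ↔ ∃ x, dT0 𝓑 U hX hdiv x = v := by
  have h := ker_mapH1_eq_range_delta0 (𝓑 := subBasis 𝓑 U) (A := resRep U (TX X n))
    (B := resRep U X) (C := resRep U X) (ιT X n) (res_equivariant U (ιT X n) (ιT_ρ X n))
    (nMul X n) (res_equivariant U (nMul X n) (nMul_ρ X n)) (ιT_injective X n)
    (nMul_surjective hdiv) (nMul_eq_zero_iff X n) (isDiscrete_resRep U hX)
  have h1 : v ∈ LinearMap.ker (mapResH1 𝓑 U (ιT X n) (ιT_ρ X n)) ↔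
      v ∈ LinearMap.range (dT0 𝓑 U hX hdiv) := by
    unfold mapResH1 dT0 delta0Res
    rw [h]
  rw [LinearMap.mem_ker, LinearMap.mem_range] at h1
  exact h1

include hX hdiv in
theorem nsmul_eq_zero_iff_H1 (y : H1 (subBasis 𝓑 U) (resRep U X)) :
    n • y = 0 ↔ ∃ v, mapResH1 𝓑 U (ιT X n) (ιT_ρ X n) v = y := by
  have h := ker_mapH1 (𝓑 := subBasis 𝓑 U) (A := resRep U (TX X n))
    (B := resRep U X) (C := resRep U X) (ιT X n) (res_equivariant U (ιT X n) (ιT_ρ X n))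
    (nMul X n) (res_equivariant U (nMul X n) (nMul_ρ X n)) (ιT_injective X n)
    (nMul_surjective hdiv) (nMul_eq_zero_iff X n) (isDiscrete_resRep U hX)
  have h1 : y ∈ LinearMap.ker (mapH1 (𝓑 := subBasis 𝓑 U) (A := resRep U X) (B := resRep U X)
      (nMul X n) (res_equivariant U (nMul X n) (nMul_ρ X n))) ↔
      y ∈ LinearMap.range (mapResH1 𝓑 U (ιT X n) (ιT_ρ X n)) := by
    unfold mapResH1
    rw [h]
  rw [LinearMap.mem_ker, LinearMap.mem_range] at h1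
  rw [← h1]
  exact (mapH1_nMul (resRep U X) n y).symm ▸ Iff.rfl

theorem dT1_eq_zero_iff (y : H1 (subBasis 𝓑 U) (resRep U X)) :
    dT1 𝓑 U hX hdiv y = 0 ↔ ∃ y', y = n • y' := by
  have h := ker_delta (𝓑 := subBasis 𝓑 U) (A := resRep U (TX X n))
    (B := resRep U X) (C := resRep U X) (ιT X n) (res_equivariant U (ιT X n) (ιT_ρ X n))
    (nMul X n) (res_equivariant U (nMul X n) (nMul_ρ X n)) (ιT_injective X n)
    (nMul_surjective hdiv) (nMul_eq_zero_iff X n) (isDiscrete_resRep U hX)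
  have h1 : y ∈ LinearMap.ker (dT1 𝓑 U hX hdiv) ↔
      y ∈ LinearMap.range (mapH1 (𝓑 := subBasis 𝓑 U) (A := resRep U X) (B := resRep U X)
      (nMul X n) (res_equivariant U (nMul X n) (nMul_ρ X n))) := by
    unfold dT1 deltaRes
    rw [h]
  rw [LinearMap.mem_ker, LinearMap.mem_range] at h1
  rw [h1]
  constructor
  · rintro ⟨y', rfl⟩
    exact ⟨y', mapH1_nMul (resRep U X) n y'⟩
  · rintro ⟨y', rfl⟩
    exact ⟨y', mapH1_nMul (resRep U X) n y'⟩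

theorem mapResH2_ιT_eq_zero_iff (v : H2 (subBasis 𝓑 U) (resRep U (TX X n))) :
    mapResH2 𝓑 U (ιT X n) (ιT_ρ X n) v = 0 ↔ ∃ y, dT1 𝓑 U hX hdiv y = v := by
  have h := ker_mapH2 (𝓑 := subBasis 𝓑 U) (A := resRep U (TX X n))
    (B := resRep U X) (C := resRep U X) (ιT X n) (res_equivariant U (ιT X n) (ιT_ρ X n))
    (nMul X n) (res_equivariant U (nMul X n) (nMul_ρ X n)) (ιT_injective X n)
    (nMul_surjective hdiv) (nMul_eq_zero_iff X n) (isDiscrete_resRep U hX)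
  have h1 : v ∈ LinearMap.ker (mapResH2 𝓑 U (ιT X n) (ιT_ρ X n)) ↔
      v ∈ LinearMap.range (dT1 𝓑 U hX hdiv) := by
    unfold mapResH2 dT1 deltaRes
    rw [h]
  rw [LinearMap.mem_ker, LinearMap.mem_range] at h1
  exact h1

include hX hdiv in
theorem nsmul_eq_zero_iff_H2 (z : H2 (subBasis 𝓑 U) (resRep U X)) :
    n • z = 0 ↔ ∃ v, mapResH2 𝓑 U (ιT X n) (ιT_ρ X n) v = z := by
  have h := ker_mapH2' (𝓑 := subBasis 𝓑 U) (A := resRep U (TX X n))
    (B := resRep U X) (C := resRep U X) (ιT X n) (res_equivariant U (ιT X n) (ιT_ρ X n))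
    (nMul X n) (res_equivariant U (nMul X n) (nMul_ρ X n)) (ιT_injective X n)
    (nMul_surjective hdiv) (nMul_eq_zero_iff X n) (isDiscrete_resRep U hX)
  have h1 : z ∈ LinearMap.ker (mapH2 (𝓑 := subBasis 𝓑 U) (A := resRep U X) (B := resRep U X)
      (nMul X n) (res_equivariant U (nMul X n) (nMul_ρ X n))) ↔
      z ∈ LinearMap.range (mapResH2 𝓑 U (ιT X n) (ιT_ρ X n)) := by
    unfold mapResH2
    rw [h]
  rw [LinearMap.mem_ker, LinearMap.mem_range] at h1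
  rw [← h1]
  exact (mapH2_nMul (resRep U X) n z).symm ▸ Iff.rfl

end LES

/-! ### The Kummer sequence for `j : A →+ X` -/

section Kummer

variable {k k' : Type} [CommRing k] [CommRing k'] {G : Type} [Group G] (𝓑 : LevelBasis G)
  (U : Subgroup G) [hU : U.Normal] {X : Rep.{0} k G} (hX : IsDiscrete 𝓑.sets X) {n : ℕ}
  (hdiv : ∀ x : X, ∃ y : X, n • y = x)
  {A : Rep.{0} k' G} (j : A →+ X) (hj : ∀ g a, j (A.ρ g a) = X.ρ g (j a))
  (hjinj : Function.Injective j) (hjn : ∀ a, n • j a = 0)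
  (hjsurj : ∀ x : X, n • x = 0 → ∃ a, j a = x)

/-- `A → X[n]`. -/
def jT : A →+ TX X n where
  toFun a := ⟨j a, (mem_torsSub_iff X n _).2 (hjn a)⟩
  map_zero' := Subtype.ext (map_zero j)
  map_add' _ _ := Subtype.ext (map_add j _ _)

include hjinj hjsurj in
theorem jT_bijective : Function.Bijective (jT j hjn) := by
  constructor
  · intro a b h
    exact hjinj (congrArg Subtype.val h)
  · rintro ⟨x, hx⟩
    obtain ⟨a, ha⟩ := hjsurj x ((mem_torsSub_iff X n x).1 hx)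
    exact ⟨a, Subtype.ext ha⟩

/-- `A ≃+ X[n]`. -/
noncomputable def eT : A ≃+ TX X n :=
  AddEquiv.ofBijective (jT j hjn) (jT_bijective j hjinj hjn hjsurj)

include hj in
theorem eT_ρ (g : G) (a : A) :
    eT j hjinj hjn hjsurj (A.ρ g a) = (TX X n).ρ g (eT j hjinj hjn hjsurj a) :=
  Subtype.ext (hj g a)

theorem ιT_eT (a : A) : ιT X n (eT j hjinj hjn hjsurj a) = j a := rfl

/-- `H¹(U; A) ≃+ H¹(U; X[n])`. -/
noncomputable def E1 : H1 (subBasis 𝓑 U) (resRep U A) ≃+ H1 (subBasis 𝓑 U) (resRep U (TX X n)) :=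
  addResH1Equiv 𝓑 U (eT j hjinj hjn hjsurj) (eT_ρ j hj hjinj hjn hjsurj)

/-- `H²(U; A) ≃+ H²(U; X[n])`. -/
noncomputable def E2 : H2 (subBasis 𝓑 U) (resRep U A) ≃+ H2 (subBasis 𝓑 U) (resRep U (TX X n)) :=
  addResH2Equiv 𝓑 U (eT j hjinj hjn hjsurj) (eT_ρ j hj hjinj hjn hjsurj)

/-- `A^U → X^U`. -/
noncomputable def kj0 : ↥(resRep U A).ρ.invariants →+ ↥(resRep U X).ρ.invariants :=
  addResH0 U j hj

/-- `X^U → H¹(U; A)`. -/
noncomputable def kd0 : ↥(resRep U X).ρ.invariants →+ H1 (subBasis 𝓑 U) (resRep U A) :=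
  (E1 𝓑 U j hj hjinj hjn hjsurj).symm.toAddMonoidHom.comp (dT0 𝓑 U hX hdiv).toAddMonoidHom

/-- `H¹(U; A) → H¹(U; X)`. -/
noncomputable def kj1 : H1 (subBasis 𝓑 U) (resRep U A) →+ H1 (subBasis 𝓑 U) (resRep U X) :=
  addResH1 𝓑 U j hj

/-- `H¹(U; X) → H²(U; A)`. -/
noncomputable def kd1 : H1 (subBasis 𝓑 U) (resRep U X) →+ H2 (subBasis 𝓑 U) (resRep U A) :=
  (E2 𝓑 U j hj hjinj hjn hjsurj).symm.toAddMonoidHom.comp (dT1 𝓑 U hX hdiv).toAddMonoidHom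

/-- `H²(U; A) → H²(U; X)`. -/
noncomputable def kj2 : H2 (subBasis 𝓑 U) (resRep U A) →+ H2 (subBasis 𝓑 U) (resRep U X) :=
  addResH2 𝓑 U j hj

theorem kd0_apply (x : ↥(resRep U X).ρ.invariants) :
    kd0 𝓑 U hX hdiv j hj hjinj hjn hjsurj x =
      (E1 𝓑 U j hj hjinj hjn hjsurj).symm (dT0 𝓑 U hX hdiv x) := rfl

theorem kd1_apply (y : H1 (subBasis 𝓑 U) (resRep U X)) :
    kd1 𝓑 U hX hdiv j hj hjinj hjn hjsurj y =
      (E2 𝓑 U j hj hjinj hjn hjsurj).symm (dT1 𝓑 U hX hdiv y) := rfl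

theorem kj1_eq (v : H1 (subBasis 𝓑 U) (resRep U A)) :
    kj1 𝓑 U j hj v =
      mapResH1 𝓑 U (ιT X n) (ιT_ρ X n) (E1 𝓑 U j hj hjinj hjn hjsurj v) := by
  obtain ⟨c, rfl⟩ := H1mk_surjective _ _ v
  rfl

theorem kj2_eq (v : H2 (subBasis 𝓑 U) (resRep U A)) :
    kj2 𝓑 U j hj v =
      mapResH2 𝓑 U (ιT X n) (ιT_ρ X n) (E2 𝓑 U j hj hjinj hjn hjsurj v) := by
  obtain ⟨c, rfl⟩ := H2mk_surjective _ _ v
  rfl

/-! #### Exactness -/

include hjinj in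
theorem kj0_injective : Function.Injective (kj0 U j hj) := by
  intro a b h
  apply Subtype.ext
  apply hjinj
  exact congrArg Subtype.val h

include hjinj hjn hjsurj in
theorem nsmul_eq_zero_iff_H0 (x : ↥(resRep U X).ρ.invariants) :
    n • x = 0 ↔ ∃ a, kj0 U j hj a = x := by
  constructor
  · intro h
    have h1 : n • (x : X) = 0 := by
      have := congrArg Subtype.val h
      exact this
    obtain ⟨a, ha⟩ := hjsurj x.1 h1
    refine ⟨⟨a, fun s => ?_⟩, Subtype.ext ha⟩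
    apply hjinj
    show j (A.ρ (s : G) a) = j a
    rw [hj, ha]
    exact x.2 s
  · rintro ⟨a, rfl⟩
    apply Subtype.ext
    exact hjn a.1

theorem kd0_eq_zero_iff (x : ↥(resRep U X).ρ.invariants) :
    kd0 𝓑 U hX hdiv j hj hjinj hjn hjsurj x = 0 ↔
      ∃ x' : ↥(resRep U X).ρ.invariants, x = n • x' := by
  rw [kd0_apply, AddEquiv.map_eq_zero_iff, dT0_eq_zero_iff]

theorem kj1_eq_zero_iff (v : H1 (subBasis 𝓑 U) (resRep U A)) :
    kj1 𝓑 U j hj v = 0 ↔ ∃ x, kd0 𝓑 U hX hdiv j hj hjinj hjn hjsurj x = v := by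
  rw [kj1_eq 𝓑 U j hj hjinj hjn hjsurj, mapResH1_ιT_eq_zero_iff 𝓑 U hX hdiv]
  constructor
  · rintro ⟨x, hx⟩
    exact ⟨x, by rw [kd0_apply, hx, AddEquiv.symm_apply_apply]⟩
  · rintro ⟨x, rfl⟩
    exact ⟨x, by rw [kd0_apply, AddEquiv.apply_symm_apply]⟩

include hX hdiv hjinj hjn hjsurj in
theorem nsmul_eq_zero_iff_kj1 (y : H1 (subBasis 𝓑 U) (resRep U X)) :
    n • y = 0 ↔ ∃ v, kj1 𝓑 U j hj v = y := by
  rw [nsmul_eq_zero_iff_H1 𝓑 U hX hdiv]
  constructor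
  · rintro ⟨w, rfl⟩
    exact ⟨(E1 𝓑 U j hj hjinj hjn hjsurj).symm w, by
      rw [kj1_eq 𝓑 U j hj hjinj hjn hjsurj, AddEquiv.apply_symm_apply]⟩
  · rintro ⟨v, rfl⟩
    exact ⟨_, (kj1_eq 𝓑 U j hj hjinj hjn hjsurj v).symm⟩

theorem kd1_eq_zero_iff (y : H1 (subBasis 𝓑 U) (resRep U X)) :
    kd1 𝓑 U hX hdiv j hj hjinj hjn hjsurj y = 0 ↔ ∃ y', y = n • y' := by
  rw [kd1_apply, AddEquiv.map_eq_zero_iff, dT1_eq_zero_iff]

theorem kj2_eq_zero_iff (v : H2 (subBasis 𝓑 U) (resRep U A)) :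
    kj2 𝓑 U j hj v = 0 ↔ ∃ y, kd1 𝓑 U hX hdiv j hj hjinj hjn hjsurj y = v := by
  rw [kj2_eq 𝓑 U j hj hjinj hjn hjsurj, mapResH2_ιT_eq_zero_iff 𝓑 U hX hdiv]
  constructor
  · rintro ⟨y, hy⟩
    exact ⟨y, by rw [kd1_apply, hy, AddEquiv.symm_apply_apply]⟩
  · rintro ⟨y, rfl⟩
    exact ⟨y, by rw [kd1_apply, AddEquiv.apply_symm_apply]⟩

include hX hdiv hjinj hjn hjsurj in
theorem nsmul_eq_zero_iff_kj2 (z : H2 (subBasis 𝓑 U) (resRep U X)) :
    n • z = 0 ↔ ∃ v, kj2 𝓑 U j hj v = z := by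
  rw [nsmul_eq_zero_iff_H2 𝓑 U hX hdiv]
  constructor
  · rintro ⟨w, rfl⟩
    exact ⟨(E2 𝓑 U j hj hjinj hjn hjsurj).symm w, by
      rw [kj2_eq 𝓑 U j hj hjinj hjn hjsurj, AddEquiv.apply_symm_apply]⟩
  · rintro ⟨v, rfl⟩
    exact ⟨_, (kj2_eq 𝓑 U j hj hjinj hjn hjsurj v).symm⟩

/-! #### Equivariance for `G ⧸ U` -/

theorem kj0_repH0 (q : G ⧸ U) (a : ↥(resRep U A).ρ.invariants) :
    kj0 U j hj (repH0 U A q a) = repH0 U X q (kj0 U j hj a) :=
  (repH0_addResH0 U j hj q a).symm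

theorem kj1_repH1 (q : G ⧸ U) (v : H1 (subBasis 𝓑 U) (resRep U A)) :
    kj1 𝓑 U j hj (repH1 𝓑 U A q v) = repH1 𝓑 U X q (kj1 𝓑 U j hj v) :=
  (repH1_addResH1 𝓑 U j hj q v).symm

theorem kj2_repH2 (q : G ⧸ U) (v : H2 (subBasis 𝓑 U) (resRep U A)) :
    kj2 𝓑 U j hj (repH2 𝓑 U A q v) = repH2 𝓑 U X q (kj2 𝓑 U j hj v) :=
  (repH2_addResH2 𝓑 U j hj q v).symm

theorem kd0_repH0 (q : G ⧸ U) (x : ↥(resRep U X).ρ.invariants) :
    kd0 𝓑 U hX hdiv j hj hjinj hjn hjsurj (repH0 U X q x) =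
      repH1 𝓑 U A q (kd0 𝓑 U hX hdiv j hj hjinj hjn hjsurj x) := by
  apply (E1 𝓑 U j hj hjinj hjn hjsurj).injective
  rw [kd0_apply, kd0_apply, AddEquiv.apply_symm_apply]
  unfold E1
  rw [← repH1_addResH1Equiv, AddEquiv.apply_symm_apply]
  exact delta0Res_repH0 𝓑 U (ιT X n) (ιT_ρ X n) (nMul X n) (nMul_ρ X n) (ιT_injective X n)
    (nMul_surjective hdiv) (nMul_eq_zero_iff X n) hX q x

theorem kd1_repH1 (q : G ⧸ U) (y : H1 (subBasis 𝓑 U) (resRep U X)) :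
    kd1 𝓑 U hX hdiv j hj hjinj hjn hjsurj (repH1 𝓑 U X q y) =
      repH2 𝓑 U A q (kd1 𝓑 U hX hdiv j hj hjinj hjn hjsurj y) := by
  apply (E2 𝓑 U j hj hjinj hjn hjsurj).injective
  rw [kd1_apply, kd1_apply, AddEquiv.apply_symm_apply]
  unfold E2
  rw [← repH2_addResH2Equiv, AddEquiv.apply_symm_apply]
  exact deltaRes_repH1 𝓑 U (ιT X n) (ιT_ρ X n) (nMul X n) (nMul_ρ X n) (ιT_injective X n)
    (nMul_surjective hdiv) (nMul_eq_zero_iff X n) hX q y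

end Kummer

end Fermat.Agent.TW.GLOB.KummerU5
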