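/-
Chapter T / GLOB, brick R4b + R4c (helper9): the "Herbrand quotient" lemmas for additive
invariants of `𝔽_p[G]`-modules.

* `map_eq_ker_add_range`, `map_eq_range_add_coker`: for an equivariant map `f : V → W` of
  finite-dimensional representations, `φ V = φ (ker f) + φ (range f)` and
  `φ W = φ (range f) + φ (W ⧸ range f)`.
* `map_torsion_eq_map_quot` (R4b): for a finite abelian group `A` with a `G`-action, every
  additive invariant `φ` takes the same value on (any models of) `A[p]` and `A/pA`.
* `map_quot_eq_torsion_add_free` (R4c): for an abelian group `E` with finite torsion subgroup `T`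
  and a `G`-action, `φ(E/pE) = φ(E[p]) + φ((E/T)/p)`.
-/
import Mathlib
import Fermat.Agent.TW.GLOB.IndDefs9

namespace Fermat.Agent.TW.GLOB.HerbrandQuot9

open Fermat.Agent.TW.GLOB.IndDefs9

universe u v w

section kerRange

variable {k : Type v} {G : Type u} [Field k] [Group G] {B : Type w} [AddCommGroup B]
  (φ : AdditiveInvariant k G B)
  {V W : Type u} [AddCommGroup V] [Module k V] [Module.Finite k V]
  [AddCommGroup W] [Module k W] [Module.Finite k W]
  (ρV : Representation k G V) (ρW : Representation k G W) (f : V →ₗ[k] W)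
  (hf : ∀ g v, f (ρV g v) = ρW g (f v))

include hf in
omit [Module.Finite k V] [Module.Finite k W] in
theorem ker_invariant (g : G) : LinearMap.ker f ≤ (LinearMap.ker f).comap (ρV g) := by
  intro v hv
  rw [Submodule.mem_comap, LinearMap.mem_ker, hf, LinearMap.mem_ker.mp hv, map_zero]

include hf in
omit [Module.Finite k V] [Module.Finite k W] in
theorem range_invariant (g : G) : LinearMap.range f ≤ (LinearMap.range f).comap (ρW g) := by
  rintro _ ⟨v, rfl⟩
  exact ⟨ρV g v, hf g v⟩

omit [Module.Finite k W] in
/-- `φ V = φ (ker f) + φ (range f)` -/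
theorem map_eq_ker_add_range :
    φ.toFun V ρV = φ.toFun (LinearMap.ker f) (ρV.subrepresentation _ (ker_invariant ρV ρW f hf))
      + φ.toFun (LinearMap.range f) (ρW.subrepresentation _ (range_invariant ρV ρW f hf)) :=
  φ.map_exact _ V _ _ ρV _ (LinearMap.ker f).subtype f.rangeRestrict (fun _ _ => rfl)
    (fun g v => Subtype.ext (hf g v)) (LinearMap.ker f).injective_subtype
    (by
      intro v
      constructor
      · intro hv
        exact ⟨⟨v, by
          have := congrArg Subtype.val hv
          simpa using this⟩, rfl⟩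
      · rintro ⟨x, rfl⟩
        exact Subtype.ext x.2)
    f.surjective_rangeRestrict

/-- `φ W = φ (range f) + φ (W ⧸ range f)` -/
theorem map_eq_range_add_coker :
    φ.toFun W ρW = φ.toFun (LinearMap.range f)
        (ρW.subrepresentation _ (range_invariant ρV ρW f hf))
      + φ.toFun (W ⧸ LinearMap.range f) (ρW.quotient _ (range_invariant ρV ρW f hf)) :=
  φ.map_exact _ W _ _ ρW _ (LinearMap.range f).subtype (LinearMap.range f).mkQ (fun _ _ => rfl)
    (fun _ _ => rfl) (LinearMap.range f).injective_subtype
    (LinearMap.exact_subtype_mkQ _) (LinearMap.range f).mkQ_surjective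

end kerRange

section herbrand

variable (p : ℕ) [Fact p.Prime] {G : Type u} [Group G] {B : Type w} [AddCommGroup B]
  (φ : AdditiveInvariant (ZMod p) G B)

/-- multiplication by `p` -/
def mulP (A : Type*) [AddCommGroup A] : A →+ A := nsmulAddMonoidHom p

omit [Fact p.Prime] in
@[simp] theorem mulP_apply (A : Type*) [AddCommGroup A] (a : A) : mulP p A a = p • a := rfl

theorem nsmul_eq_zero_of_zmod {V : Type*} [AddCommGroup V] [Module (ZMod p) V] (v : V) :
    p • v = 0 := by
  rw [← Nat.cast_smul_eq_nsmul (ZMod p), ZMod.natCast_self, zero_smul]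

/-- **Herbrand quotient lemma.**  For a finite abelian group `A` with an action of `G`, any
`𝔽_p[G]`-models `V ≅ A[p]` and `W ≅ A/pA` have the same value under every additive invariant. -/
theorem map_torsion_eq_map_quot :
    ∀ (n : ℕ) (A : Type u) [AddCommGroup A] [Finite A], Nat.card A = n → ∀ (α : G → A →+ A)
      (V W : Type u) [AddCommGroup V] [Module (ZMod p) V] [Module.Finite (ZMod p) V]
      [AddCommGroup W] [Module (ZMod p) W] [Module.Finite (ZMod p) W]
      (ρV : Representation (ZMod p) G V) (ρW : Representation (ZMod p) G W)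
      (i : V →+ A) (q : A →+ W), Function.Injective i → (∀ a, a ∈ i.range ↔ p • a = 0) →
      Function.Surjective q → (∀ a, q a = 0 ↔ ∃ a', a = p • a') →
      (∀ g v, i (ρV g v) = α g (i v)) → (∀ g a, q (α g a) = ρW g (q a)) →
      φ.toFun V ρV = φ.toFun W ρW := by
  intro n
  induction n using Nat.strong_induction_on with
  | _ n ih =>
    intro A _ _ hAn α V W _ _ _ _ _ _ ρV ρW i q hi hiK hq hqK hiα hqα
    -- the composite `f = q ∘ i`
    let f : V →ₗ[ZMod p] W := (q.comp i).toZModLinearMap p
    have hf_apply : ∀ v, f v = q (i v) := fun v => rfl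
    have hf : ∀ g v, f (ρV g v) = ρW g (f v) := by
      intro g v
      rw [hf_apply, hf_apply, hiα, hqα]
    rw [map_eq_ker_add_range φ ρV ρW f hf, map_eq_range_add_coker φ ρV ρW f hf, add_comm]
    congr 1
    -- the subgroup `pA`
    let B' : AddSubgroup A := (mulP p A).range
    by_cases htop : B' = ⊤
    · -- `p` is bijective on `A`: both sides vanish
      have hsurj : Function.Surjective (mulP p A) := AddMonoidHom.range_eq_top.mp htop
      have hinj : Function.Injective (mulP p A) := Finite.injective_iff_surjective.mpr hsurj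
      have hV : Subsingleton V := by
        refine ⟨fun v v' => hi ?_⟩
        have h1 : ∀ v : V, i v = 0 := by
          intro v
          apply hinj
          rw [mulP_apply, map_zero]
          exact (hiK _).mp ⟨v, rfl⟩
        rw [h1, h1]
      have hW : Subsingleton W := by
        refine ⟨fun w w' => ?_⟩
        have h1 : ∀ w : W, w = 0 := by
          intro w
          obtain ⟨a, rfl⟩ := hq w
          obtain ⟨a', rfl⟩ := hsurj a
          exact (hqK _).mpr ⟨a', rfl⟩
        rw [h1 w, h1 w']
      rw [φ.map_subsingleton, φ.map_subsingleton]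
    · -- induction step: apply the hypothesis to `pA`
      have hlt : Nat.card B' < n := by
        rw [← hAn, ← AddSubgroup.card_top (G := A)]
        exact Set.Finite.card_lt_card (Set.toFinite _)
          (SetLike.coe_ssubset_coe.mpr (lt_top_iff_ne_top.mpr htop))
      -- the action on `pA`
      let α' : G → B' →+ B' := fun g =>
        ((α g).comp B'.subtype).codRestrict B' (by
          rintro ⟨_, a, rfl⟩
          exact ⟨α g a, by simp [mulP_apply, map_nsmul]⟩)
      have hα' : ∀ g (b : B'), ((α' g b : B') : A) = α g b := fun g b => rfl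
      -- the model of `(pA)[p]`
      let i' : LinearMap.ker f →+ B' :=
        (i.comp (LinearMap.ker f).subtype.toAddMonoidHom).codRestrict B' (by
          intro v
          obtain ⟨a', ha'⟩ := (hqK (i v.1)).mp (LinearMap.mem_ker.mp v.2)
          exact ⟨a', by rw [mulP_apply]; exact ha'.symm⟩)
      have hi'_val : ∀ v : LinearMap.ker f, ((i' v : B') : A) = i v.1 := fun v => rfl
      have hqB : ∀ b : B', q b = 0 := by
        rintro ⟨_, a, rfl⟩
        exact (hqK _).mpr ⟨a, rfl⟩
      -- the model of `pA / p(pA)`: divide by `p`, then apply `q`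
      have hdiv : ∀ b : B', ∃ a : A, p • a = (b : A) := fun b => b.2
      choose dv hdv using hdiv
      have hkey : ∀ (b : B') (a : A), p • a = (b : A) →
          (LinearMap.range f).mkQ (q (dv b)) = (LinearMap.range f).mkQ (q a) := by
        intro b a ha
        rw [← sub_eq_zero, ← map_sub, ← map_sub, Submodule.mkQ_apply,
          Submodule.Quotient.mk_eq_zero]
        have h0 : p • (dv b - a) = 0 := by rw [smul_sub, hdv, ha, sub_self]
        obtain ⟨v, hv⟩ := (hiK _).mpr h0
        exact ⟨v, by rw [hf_apply, hv]⟩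
      let q' : B' →+ (W ⧸ LinearMap.range f) := AddMonoidHom.mk' (fun b =>
        (LinearMap.range f).mkQ (q (dv b))) (by
          intro b b'
          rw [hkey (b + b') (dv b + dv b') (by rw [smul_add, hdv, hdv]; rfl), map_add, map_add])
      have hq'_apply : ∀ (b : B') (a : A), p • a = (b : A) →
          q' b = (LinearMap.range f).mkQ (q a) := hkey
      refine ih _ hlt B' rfl α' _ _ _ _ i' q' ?_ ?_ ?_ ?_ ?_ ?_
      · -- injectivity of i'
        intro v v' hvv'
        apply Subtype.ext
        apply hi
        have := congrArg (fun b : B' => (b : A)) hvv'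
        simpa [hi'_val] using this
      · -- range of i' is the p-torsion of pA
        intro b
        constructor
        · rintro ⟨v, rfl⟩
          apply Subtype.ext
          rw [AddSubgroup.coe_nsmul, hi'_val, ← map_nsmul i, nsmul_eq_zero_of_zmod p v.1, map_zero]
          rfl
        · intro hb
          have hb' : p • (b : A) = 0 := by
            have := congrArg (fun b : B' => (b : A)) hb
            simpa using this
          obtain ⟨v, hv⟩ := (hiK _).mpr hb'
          have hvker : v ∈ LinearMap.ker f := by
            rw [LinearMap.mem_ker, hf_apply, hv]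
            exact hqB b
          exact ⟨⟨v, hvker⟩, Subtype.ext hv⟩
      · -- surjectivity of q'
        intro w
        obtain ⟨w0, rfl⟩ := (LinearMap.range f).mkQ_surjective w
        obtain ⟨a, rfl⟩ := hq w0
        exact ⟨⟨p • a, a, rfl⟩, hq'_apply _ a rfl⟩
      · -- kernel of q'
        intro b
        obtain ⟨a, ha⟩ : ∃ a : A, p • a = (b : A) := b.2
        rw [hq'_apply b a ha, Submodule.mkQ_apply, Submodule.Quotient.mk_eq_zero]
        constructor
        · rintro ⟨v, hv⟩
          rw [hf_apply] at hv
          have h0 : q (a - i v) = 0 := by rw [map_sub, hv, sub_self]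
          obtain ⟨a'', ha''⟩ := (hqK _).mp h0
          refine ⟨⟨p • a'', a'', rfl⟩, Subtype.ext ?_⟩
          rw [AddSubgroup.coe_nsmul]
          show (b : A) = p • p • a''
          have h5 : p • i v = 0 := by
            rw [← map_nsmul i, nsmul_eq_zero_of_zmod p v, map_zero]
          rw [← ha, ← ha'', smul_sub, h5, sub_zero]
        · rintro ⟨⟨_, a'', rfl⟩, hb''⟩
          have hb3 : (b : A) = p • p • a'' := by
            have := congrArg (fun b : B' => (b : A)) hb''
            simpa using this
          have h0 : p • (a - p • a'') = 0 := by rw [smul_sub, ha, hb3, sub_self]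
          obtain ⟨v, hv⟩ := (hiK _).mpr h0
          refine ⟨v, ?_⟩
          rw [hf_apply, hv, map_sub, (hqK (p • a'')).mpr ⟨a'', rfl⟩, sub_zero]
      · -- equivariance of i'
        intro g v
        apply Subtype.ext
        rw [hα', hi'_val, hi'_val]
        exact hiα g v.1
      · -- equivariance of q'
        intro g b
        obtain ⟨a, ha⟩ : ∃ a : A, p • a = (b : A) := b.2
        have h1 : p • (α g a) = ((α' g b : B') : A) := by
          rw [hα', ← ha, map_nsmul]
        rw [hq'_apply _ _ h1, hq'_apply b a ha, hqα]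
        rfl

/-- **Finitely generated version.**  For an abelian group `E` with finite torsion subgroup `T` and
an action of `G`: `φ(E/pE) = φ(E[p]) + φ((E/T)/p)`, for any models of the three modules. -/
theorem map_quot_eq_torsion_add_free (E : Type u) [AddCommGroup E]
    [Finite (AddCommGroup.torsion E)] (α : G → E →+ E)
    (V W W' : Type u) [AddCommGroup V] [Module (ZMod p) V] [Module.Finite (ZMod p) V]
    [AddCommGroup W] [Module (ZMod p) W] [Module.Finite (ZMod p) W]
    [AddCommGroup W'] [Module (ZMod p) W'] [Module.Finite (ZMod p) W']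
    (ρV : Representation (ZMod p) G V) (ρW : Representation (ZMod p) G W)
    (ρW' : Representation (ZMod p) G W')
    (i : V →+ E) (hi : Function.Injective i) (hiK : ∀ e, e ∈ i.range ↔ p • e = 0)
    (hiα : ∀ g v, i (ρV g v) = α g (i v))
    (q : E →+ W) (hq : Function.Surjective q) (hqK : ∀ e, q e = 0 ↔ ∃ e', e = p • e')
    (hqα : ∀ g e, q (α g e) = ρW g (q e))
    (q' : E →+ W') (hq' : Function.Surjective q')
    (hq'K : ∀ e, q' e = 0 ↔ ∃ t e', IsOfFinAddOrder t ∧ e = t + p • e')
    (hq'α : ∀ g e, q' (α g e) = ρW' g (q' e)) :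
    φ.toFun W ρW = φ.toFun V ρV + φ.toFun W' ρW' := by
  have hp : p.Prime := Fact.out
  -- the induced map `W → W'`
  have hker : q.ker ≤ q'.ker := by
    intro e he
    rw [AddMonoidHom.mem_ker] at he ⊢
    obtain ⟨e', rfl⟩ := (hqK e).mp he
    exact (hq'K _).mpr ⟨0, e', IsOfFinAddOrder.zero, by rw [zero_add]⟩
  let g0 : W →+ W' := (q.liftOfRightInverse (Function.surjInv hq)
    (Function.rightInverse_surjInv hq)) ⟨q', hker⟩
  have hg0 : ∀ e, g0 (q e) = q' e := fun e =>
    AddMonoidHom.liftOfRightInverse_comp_apply q _ (Function.rightInverse_surjInv hq) ⟨q', hker⟩ e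
  let g : W →ₗ[ZMod p] W' := g0.toZModLinearMap p
  have hg : ∀ e, g (q e) = q' e := hg0
  have hgeq : ∀ γ w, g (ρW γ w) = ρW' γ (g w) := by
    intro γ w
    obtain ⟨e, rfl⟩ := hq w
    rw [← hqα, hg, hg, hq'α]
  have hgsurj : Function.Surjective g := by
    intro w'
    obtain ⟨e, rfl⟩ := hq' w'
    exact ⟨q e, hg e⟩
  have hkinv : ∀ γ, LinearMap.ker g ≤ (LinearMap.ker g).comap (ρW γ) := by
    intro γ w hw
    rw [Submodule.mem_comap, LinearMap.mem_ker, hgeq, LinearMap.mem_ker.mp hw, map_zero]
  -- additivity for `0 → ker g → W → W' → 0`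
  have h1 : φ.toFun W ρW = φ.toFun (LinearMap.ker g) (ρW.subrepresentation _ hkinv)
      + φ.toFun W' ρW' :=
    φ.map_exact _ W W' _ ρW ρW' (LinearMap.ker g).subtype g (fun _ _ => rfl) hgeq
      (LinearMap.ker g).injective_subtype
      (by
        intro w
        constructor
        · intro hw; exact ⟨⟨w, hw⟩, rfl⟩
        · rintro ⟨x, rfl⟩; exact x.2)
      hgsurj
  rw [h1]
  congr 1
  symm
  -- the torsion subgroup
  let T : AddSubgroup E := AddCommGroup.torsion E
  let αT : G → T →+ T := fun γ => ((α γ).comp T.subtype).codRestrict T (by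
    intro t
    exact (α γ).isOfFinAddOrder t.2)
  have hpT : ∀ e : E, p • e = 0 → e ∈ T := by
    intro e he
    rw [AddCommGroup.mem_torsion, isOfFinAddOrder_iff_nsmul_eq_zero]
    exact ⟨p, hp.pos, he⟩
  let iT : V →+ T := i.codRestrict T (fun v => hpT _ ((hiK _).mp ⟨v, rfl⟩))
  let qT : T →+ LinearMap.ker g := (q.comp T.subtype).codRestrict (LinearMap.ker g).toAddSubgroup
    (by
      intro t
      show g (q t) = 0
      rw [hg]
      exact (hq'K _).mpr ⟨t, 0, t.2, by simp⟩)
  refine map_torsion_eq_map_quot p φ _ T rfl αT V (LinearMap.ker g) ρV _ iT qT ?_ ?_ ?_ ?_ ?_ ?_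
  · intro v v' hvv'
    apply hi
    exact congrArg (fun t : T => (t : E)) hvv'
  · intro t
    constructor
    · rintro ⟨v, rfl⟩
      apply Subtype.ext
      rw [AddSubgroup.coe_nsmul]
      exact (hiK _).mp ⟨v, rfl⟩
    · intro ht
      have ht' : p • (t : E) = 0 := by
        have := congrArg (fun t : T => (t : E)) ht
        simpa using this
      obtain ⟨v, hv⟩ := (hiK _).mpr ht'
      exact ⟨v, Subtype.ext hv⟩
  · rintro ⟨w, hw⟩
    obtain ⟨e, rfl⟩ := hq w
    rw [LinearMap.mem_ker, hg] at hw
    obtain ⟨t, e', ht, rfl⟩ := (hq'K _).mp hw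
    refine ⟨⟨t, ht⟩, Subtype.ext ?_⟩
    show q t = q (t + p • e')
    rw [map_add, (hqK (p • e')).mpr ⟨e', rfl⟩, add_zero]
  · intro t
    constructor
    · intro ht
      have ht' : q t = 0 := congrArg Subtype.val ht
      obtain ⟨e', he'⟩ := (hqK _).mp ht'
      have hfin : IsOfFinAddOrder e' := by
        have h2 := t.2
        rw [AddCommGroup.mem_torsion, isOfFinAddOrder_iff_nsmul_eq_zero] at h2
        obtain ⟨n, hn, hn0⟩ := h2
        rw [isOfFinAddOrder_iff_nsmul_eq_zero]
        refine ⟨n * p, Nat.mul_pos hn hp.pos, ?_⟩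
        rw [mul_smul, ← he', hn0]
      exact ⟨⟨e', hfin⟩, Subtype.ext (by rw [AddSubgroup.coe_nsmul]; exact he')⟩
    · rintro ⟨t', rfl⟩
      apply Subtype.ext
      show q ((p • t' : T) : E) = 0
      rw [AddSubgroup.coe_nsmul]
      exact (hqK _).mpr ⟨t', rfl⟩
  · intro γ v
    apply Subtype.ext
    exact hiα γ v
  · intro γ t
    apply Subtype.ext
    exact hqα γ t

end herbrand

end Fermat.Agent.TW.GLOB.HerbrandQuot9
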