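/-
Chapter T / GLOB, brick (C) of the `(MU*)` computation (helper9, for helper5's `KummerU5`):
the purely algebraic Euler-characteristic bookkeeping along a Kummer long exact sequence

  `0 → E0/p → V1 → H1X[p] → 0`,   `0 → H1X/p → V2 → H2X[p] → 0`

for an additive invariant `ψ` of `𝔽_p[C]`-modules, `H1X` a finite abelian group with `C`-action:
`ψ V1 + ψ (H2X[p]) = ψ (E0/p) + ψ V2`.  The equality `ψ (H1X[p]) = ψ (H1X/p)` is the Herbrand
quotient lemma `HerbrandQuot9.map_torsion_eq_map_quot`.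
-/
import Mathlib
import Fermat.Agent.TW.GLOB.IndDefs9
import Fermat.Agent.TW.GLOB.HerbrandQuot9

namespace Fermat.Agent.TW.GLOB.EulerAbs9

open Fermat.Agent.TW.GLOB.IndDefs9 Fermat.Agent.TW.GLOB.HerbrandQuot9

/-- **Abstract Kummer Euler characteristic.**  See the file header. No group laws for the actions
`αE α1 α2` are needed. -/
theorem euler_abstract (p : ℕ) [Fact p.Prime] {C : Type} [Group C] {B : Type*} [AddCommGroup B]
    (ψ : AdditiveInvariant (ZMod p) C B)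
    {E0 H1X H2X : Type} [AddCommGroup E0] [AddCommGroup H1X] [Finite H1X] [AddCommGroup H2X]
    (αE : C → E0 →+ E0) (α1 : C → H1X →+ H1X) (α2 : C → H2X →+ H2X)
    (V1 V2 W0 T2 : Type)
    [AddCommGroup V1] [Module (ZMod p) V1] [Module.Finite (ZMod p) V1]
    [AddCommGroup V2] [Module (ZMod p) V2] [Module.Finite (ZMod p) V2]
    [AddCommGroup W0] [Module (ZMod p) W0] [Module.Finite (ZMod p) W0]
    [AddCommGroup T2] [Module (ZMod p) T2] [Module.Finite (ZMod p) T2]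
    (ρ1 : Representation (ZMod p) C V1) (ρ2 : Representation (ZMod p) C V2)
    (ρW : Representation (ZMod p) C W0) (ρT : Representation (ZMod p) C T2)
    (q0 : E0 →+ W0) (hq0 : Function.Surjective q0) (hq0K : ∀ e, q0 e = 0 ↔ ∃ e', e = p • e')
    (hq0α : ∀ c e, q0 (αE c e) = ρW c (q0 e))
    (d0 : E0 →+ V1) (hd0K : ∀ e, d0 e = 0 ↔ ∃ e', e = p • e')
    (hd0α : ∀ c e, d0 (αE c e) = ρ1 c (d0 e))
    (j1 : V1 →+ H1X) (hj1K : ∀ v, j1 v = 0 ↔ ∃ e, d0 e = v) (hj1R : ∀ x, p • x = 0 ↔ ∃ v, j1 v = x)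
    (hj1α : ∀ c v, j1 (ρ1 c v) = α1 c (j1 v))
    (d1 : H1X →+ V2) (hd1K : ∀ x, d1 x = 0 ↔ ∃ x', x = p • x')
    (hd1α : ∀ c x, d1 (α1 c x) = ρ2 c (d1 x))
    (j2 : V2 →+ H2X) (hj2K : ∀ v, j2 v = 0 ↔ ∃ x, d1 x = v) (hj2R : ∀ y, p • y = 0 ↔ ∃ v, j2 v = y)
    (hj2α : ∀ c v, j2 (ρ2 c v) = α2 c (j2 v))
    (i2 : T2 →+ H2X) (hi2 : Function.Injective i2) (hi2K : ∀ y, y ∈ i2.range ↔ p • y = 0)
    (hi2α : ∀ c t, i2 (ρT c t) = α2 c (i2 t)) :
    ψ.toFun V1 ρ1 + ψ.toFun T2 ρT = ψ.toFun W0 ρW + ψ.toFun V2 ρ2 := by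
  classical
  -- the induced injection `f : W0 → V1`, `f (q0 e) = d0 e`
  have hker0 : q0.ker ≤ d0.ker := by
    intro e he
    rw [AddMonoidHom.mem_ker] at he ⊢
    exact (hd0K e).mpr ((hq0K e).mp he)
  let g0 : W0 →+ V1 := (q0.liftOfRightInverse (Function.surjInv hq0)
    (Function.rightInverse_surjInv hq0)) ⟨d0, hker0⟩
  have hg0 : ∀ e, g0 (q0 e) = d0 e := fun e =>
    AddMonoidHom.liftOfRightInverse_comp_apply q0 _ (Function.rightInverse_surjInv hq0)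
      ⟨d0, hker0⟩ e
  let f : W0 →ₗ[ZMod p] V1 := g0.toZModLinearMap p
  have hf : ∀ e, f (q0 e) = d0 e := hg0
  have hfeq : ∀ c w, f (ρW c w) = ρ1 c (f w) := by
    intro c w
    obtain ⟨e, rfl⟩ := hq0 w
    rw [← hq0α, hf, hf, hd0α]
  have hfinj : Function.Injective f := by
    rw [← LinearMap.ker_eq_bot, LinearMap.ker_eq_bot']
    intro w hw
    obtain ⟨e, rfl⟩ := hq0 w
    rw [hf] at hw
    exact (hq0K e).mpr ((hd0K e).mp hw)
  have hN1inv : ∀ c, LinearMap.range f ≤ (LinearMap.range f).comap (ρ1 c) :=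
    range_invariant ρW ρ1 f hfeq
  -- `ψ V1 = ψ W0 + ψ (V1 / range f)`
  have hV1 : ψ.toFun V1 ρ1 = ψ.toFun W0 ρW
      + ψ.toFun (V1 ⧸ LinearMap.range f) (ρ1.quotient _ hN1inv) :=
    ψ.map_exact W0 V1 _ ρW ρ1 _ f (LinearMap.range f).mkQ hfeq (fun _ _ => rfl) hfinj
      (LinearMap.exact_map_mkQ_range f) (LinearMap.range f).mkQ_surjective
  -- the model `M1 = V1 / range f` of `H1X[p]`
  have hj1N : (LinearMap.range f).toAddSubgroup ≤ j1.ker := by
    rintro _ ⟨w, rfl⟩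
    obtain ⟨e, rfl⟩ := hq0 w
    rw [AddMonoidHom.mem_ker, hf]
    exact (hj1K _).mpr ⟨e, rfl⟩
  let i1 : (V1 ⧸ LinearMap.range f) →+ H1X :=
    QuotientAddGroup.lift (LinearMap.range f).toAddSubgroup j1 hj1N
  have hi1 : ∀ v, i1 (Submodule.Quotient.mk v) = j1 v := fun v => rfl
  have hi1inj : Function.Injective i1 := by
    rw [injective_iff_map_eq_zero]
    intro x hx
    obtain ⟨v, rfl⟩ := Submodule.Quotient.mk_surjective _ x
    rw [hi1] at hx
    obtain ⟨e, rfl⟩ := (hj1K v).mp hx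
    rw [Submodule.Quotient.mk_eq_zero]
    exact ⟨q0 e, hf e⟩
  have hi1K : ∀ a, a ∈ i1.range ↔ p • a = 0 := by
    intro a
    constructor
    · rintro ⟨x, rfl⟩
      obtain ⟨v, rfl⟩ := Submodule.Quotient.mk_surjective _ x
      rw [hi1]
      exact (hj1R _).mpr ⟨v, rfl⟩
    · intro ha
      obtain ⟨v, rfl⟩ := (hj1R a).mp ha
      exact ⟨Submodule.Quotient.mk v, hi1 v⟩
  have hi1α : ∀ c x, i1 ((ρ1.quotient _ hN1inv) c x) = α1 c (i1 x) := by
    intro c x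
    obtain ⟨v, rfl⟩ := Submodule.Quotient.mk_surjective _ x
    have : (ρ1.quotient _ hN1inv) c (Submodule.Quotient.mk v)
        = Submodule.Quotient.mk (ρ1 c v) := rfl
    rw [this, hi1, hi1, hj1α]
  -- the surjection `r : V2 → T2`, `i2 (r v) = j2 v`
  have hj2mem : ∀ v, j2 v ∈ i2.range := fun v => (hi2K _).mpr ((hj2R _).mpr ⟨v, rfl⟩)
  let r0 : V2 →+ T2 :=
    (AddMonoidHom.ofInjective hi2).symm.toAddMonoidHom.comp (j2.codRestrict i2.range hj2mem)
  have hr0 : ∀ v, i2 (r0 v) = j2 v := by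
    intro v
    have h := (AddMonoidHom.ofInjective hi2).apply_symm_apply (j2.codRestrict i2.range hj2mem v)
    exact congrArg Subtype.val h
  let r : V2 →ₗ[ZMod p] T2 := r0.toZModLinearMap p
  have hr : ∀ v, i2 (r v) = j2 v := hr0
  have hreq : ∀ c v, r (ρ2 c v) = ρT c (r v) := by
    intro c v
    apply hi2
    rw [hr, hi2α, hr, hj2α]
  have hrsurj : Function.Surjective r := by
    intro t
    obtain ⟨v, hv⟩ := (hj2R (i2 t)).mp ((hi2K _).mp ⟨t, rfl⟩)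
    exact ⟨v, hi2 (by rw [hr, hv])⟩
  have hrker : ∀ v, r v = 0 ↔ ∃ x, d1 x = v := by
    intro v
    rw [← hj2K, ← hr]
    constructor
    · intro h; rw [h, map_zero]
    · intro h; exact hi2 (by rw [h, map_zero])
  have hM2inv : ∀ c, LinearMap.ker r ≤ (LinearMap.ker r).comap (ρ2 c) :=
    ker_invariant ρ2 ρT r hreq
  -- `ψ V2 = ψ (ker r) + ψ T2`
  have hV2 : ψ.toFun V2 ρ2 = ψ.toFun (LinearMap.ker r) (ρ2.subrepresentation _ hM2inv)
      + ψ.toFun T2 ρT :=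
    ψ.map_exact _ V2 T2 _ ρ2 ρT (LinearMap.ker r).subtype r (fun _ _ => rfl) hreq
      (LinearMap.ker r).injective_subtype
      (by
        intro v
        constructor
        · intro hv; exact ⟨⟨v, hv⟩, rfl⟩
        · rintro ⟨x, rfl⟩; exact x.2)
      hrsurj
  -- the model `M2 = ker r` of `H1X / p`
  let q1 : H1X →+ LinearMap.ker r :=
    d1.codRestrict (LinearMap.ker r).toAddSubgroup (fun x => (hrker _).mpr ⟨x, rfl⟩)
  have hq1 : ∀ x, ((q1 x : LinearMap.ker r) : V2) = d1 x := fun x => rfl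
  have hq1surj : Function.Surjective q1 := by
    rintro ⟨v, hv⟩
    obtain ⟨x, rfl⟩ := (hrker v).mp hv
    exact ⟨x, Subtype.ext rfl⟩
  have hq1K : ∀ a, q1 a = 0 ↔ ∃ a', a = p • a' := by
    intro a
    rw [← hd1K, ← hq1]
    constructor
    · intro h; rw [h]; rfl
    · intro h; exact Subtype.ext h
  have hq1α : ∀ c a, q1 (α1 c a) = (ρ2.subrepresentation _ hM2inv) c (q1 a) := by
    intro c a
    apply Subtype.ext
    rw [hq1, hd1α]
    rfl
  -- Herbrand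
  have hH : ψ.toFun (V1 ⧸ LinearMap.range f) (ρ1.quotient _ hN1inv)
      = ψ.toFun (LinearMap.ker r) (ρ2.subrepresentation _ hM2inv) :=
    map_torsion_eq_map_quot p ψ (Nat.card H1X) H1X rfl α1 _ _ _ _ i1 q1 hi1inj hi1K hq1surj hq1K
      hi1α hq1α
  rw [hV1, hV2, hH]
  abel

end Fermat.Agent.TW.GLOB.EulerAbs9
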