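/-
Programme T (S56, Taylor–Wiles primes), chapter GLOB, task T7 — helper5.

**The Euler characteristic of `μ_p` from the Kummer sequence, abstractly.**

Input: the Kummer maps `E0 --d0--> V1 --j1--> H1X --d1--> V2 --j2--> H2X` (`V1`, `V2` models of
`H¹`, `H²` of `μ_p`; `E0 = E^U`, `H1X = H¹(U; E)` finite, `H2X = H²(U; E)`), exact and equivariant,
and the two "external" computations as hypotheses:
* `hunits` : `ψ W + b1 = ψ V0 + (bPl + bInf)` for every model `W` of `E0 / p`;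
* `hH2`    : `ψ T + b1 = bPl` for every model `T` of `H2X[p]`.
Output: `ψ V0 + ψ V2 + bInf = ψ V1`.

The models `W0 := range d0 ⊆ V1` and `T2 := V2 ⧸ range d1` are constructed here; the bookkeeping is
`EulerAbs9.euler_abstract`.
-/
import Mathlib
import Fermat.Agent.TW.GLOB.EulerAbs9
import Fermat.Agent.TW.GLOB.AddCoh5

set_option autoImplicit false
set_option linter.unusedSectionVars false

open Fermat.Agent.TW.GLOB.IndDefs9 Fermat.Agent.TW.GLOB.EulerAbs9 Fermat.Agent.TW.GLOB.AddCoh5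

namespace Fermat.Agent.TW.GLOB.MUAbs5

variable (p : ℕ) [Fact p.Prime] {C : Type} [Group C] {B : Type*} [AddCommGroup B]
  (ψ : AdditiveInvariant (ZMod p) C B)
  {E0 H1X H2X : Type} [AddCommGroup E0] [AddCommGroup H1X] [Finite H1X] [AddCommGroup H2X]
  (αE : C → E0 →+ E0) (α1 : C → H1X →+ H1X) (α2 : C → H2X →+ H2X)
  (V0 V1 V2 : Type)
  [AddCommGroup V0] [Module (ZMod p) V0] [Module.Finite (ZMod p) V0]
  [AddCommGroup V1] [Module (ZMod p) V1] [Module.Finite (ZMod p) V1]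
  [AddCommGroup V2] [Module (ZMod p) V2] [Module.Finite (ZMod p) V2]
  (ρ0 : Representation (ZMod p) C V0) (ρ1 : Representation (ZMod p) C V1)
  (ρ2 : Representation (ZMod p) C V2)
  (d0 : E0 →+ V1) (hd0K : ∀ e, d0 e = 0 ↔ ∃ e', e = p • e')
  (hd0α : ∀ c e, d0 (αE c e) = ρ1 c (d0 e))
  (j1 : V1 →+ H1X) (hj1K : ∀ v, j1 v = 0 ↔ ∃ e, d0 e = v) (hj1R : ∀ x, p • x = 0 ↔ ∃ v, j1 v = x)
  (hj1α : ∀ c v, j1 (ρ1 c v) = α1 c (j1 v))
  (d1 : H1X →+ V2) (hd1K : ∀ x, d1 x = 0 ↔ ∃ x', x = p • x')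
  (hd1α : ∀ c x, d1 (α1 c x) = ρ2 c (d1 x))
  (j2 : V2 →+ H2X) (hj2K : ∀ v, j2 v = 0 ↔ ∃ x, d1 x = v) (hj2R : ∀ y, p • y = 0 ↔ ∃ v, j2 v = y)
  (hj2α : ∀ c v, j2 (ρ2 c v) = α2 c (j2 v))
  (b1 bPl bInf : B)
  (hunits : ∀ (W : Type) [AddCommGroup W] [Module (ZMod p) W] [Module.Finite (ZMod p) W]
    (ρW : Representation (ZMod p) C W) (q : E0 →+ W), Function.Surjective q →
    (∀ e, q e = 0 ↔ ∃ e', e = p • e') → (∀ c e, q (αE c e) = ρW c (q e)) →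
    ψ.toFun W ρW + b1 = ψ.toFun V0 ρ0 + (bPl + bInf))
  (hH2 : ∀ (T : Type) [AddCommGroup T] [Module (ZMod p) T] [Module.Finite (ZMod p) T]
    (ρT : Representation (ZMod p) C T) (i : T →+ H2X), Function.Injective i →
    (∀ y, y ∈ i.range ↔ p • y = 0) → (∀ c t, i (ρT c t) = α2 c (i t)) →
    ψ.toFun T ρT + b1 = bPl)

include hd0K hd0α hj1K hj1R hj1α hd1K hd1α hj2K hj2R hj2α hunits hH2 in
/-- **The Euler characteristic of `μ_p` from the Kummer sequence.** -/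
theorem euler_of_kummer : ψ.toFun V0 ρ0 + ψ.toFun V2 ρ2 + bInf = ψ.toFun V1 ρ1 := by
  -- the model `W0 = range d0` of `E0 / p`
  let W0 : Submodule (ZMod p) V1 := AddSubgroup.toZModSubmodule p d0.range
  have hW0 : ∀ c, W0 ≤ W0.comap (ρ1 c) := by
    rintro c _ ⟨e, rfl⟩
    exact ⟨αE c e, hd0α c e⟩
  let q0 : E0 →+ W0 :=
    { toFun := fun e => ⟨d0 e, ⟨e, rfl⟩⟩
      map_zero' := Subtype.ext (map_zero d0)
      map_add' := fun _ _ => Subtype.ext (map_add d0 _ _) }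
  have hq0 : Function.Surjective q0 := by
    rintro ⟨_, ⟨e, rfl⟩⟩
    exact ⟨e, rfl⟩
  have hq0K : ∀ e, q0 e = 0 ↔ ∃ e', e = p • e' := fun e => by
    rw [← hd0K e]
    exact ⟨fun h => congrArg Subtype.val h, fun h => Subtype.ext h⟩
  have hq0α : ∀ c e, q0 (αE c e) = (ρ1.subrepresentation W0 hW0) c (q0 e) :=
    fun c e => Subtype.ext (hd0α c e)
  -- the model `T2 = V2 ⧸ range d1` of `H2X[p]`
  let R1 : Submodule (ZMod p) V2 := AddSubgroup.toZModSubmodule p d1.range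
  have hR1 : ∀ c, R1 ≤ R1.comap (ρ2 c) := by
    rintro c _ ⟨x, rfl⟩
    exact ⟨α1 c x, hd1α c x⟩
  let i2 : (V2 ⧸ R1) →+ H2X := liftQ' R1 j2 (fun v hv => by
    obtain ⟨x, rfl⟩ := hv
    exact (hj2K _).2 ⟨x, rfl⟩)
  have hi2mk : ∀ v, i2 (R1.mkQ v) = j2 v := fun v => rfl
  have hi2 : Function.Injective i2 := by
    rw [injective_iff_map_eq_zero]
    intro t ht
    obtain ⟨v, rfl⟩ := R1.mkQ_surjective t
    rw [hi2mk] at ht
    obtain ⟨x, hx⟩ := (hj2K v).1 ht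
    exact (Submodule.Quotient.mk_eq_zero R1).2 ⟨x, hx⟩
  have hi2K : ∀ y, y ∈ i2.range ↔ p • y = 0 := fun y => by
    rw [hj2R y]
    constructor
    · rintro ⟨t, rfl⟩
      obtain ⟨v, rfl⟩ := R1.mkQ_surjective t
      exact ⟨v, (hi2mk v).symm⟩
    · rintro ⟨v, rfl⟩
      exact ⟨R1.mkQ v, hi2mk v⟩
  have hi2α : ∀ c t, i2 ((ρ2.quotient R1 hR1) c t) = α2 c (i2 t) := fun c t => by
    obtain ⟨v, rfl⟩ := R1.mkQ_surjective t
    show i2 (R1.mkQ (ρ2 c v)) = α2 c (i2 (R1.mkQ v))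
    rw [hi2mk, hi2mk, hj2α]
  have key := euler_abstract p ψ αE α1 α2 V1 V2 W0 (V2 ⧸ R1) ρ1 ρ2
    (ρ1.subrepresentation W0 hW0) (ρ2.quotient R1 hR1) q0 hq0 hq0K hq0α d0 hd0K hd0α
    j1 hj1K hj1R hj1α d1 hd1K hd1α j2 hj2K hj2R hj2α i2 hi2 hi2K hi2α
  have hu := hunits W0 (ρ1.subrepresentation W0 hW0) q0 hq0 hq0K hq0α
  have hh := hH2 (V2 ⧸ R1) (ρ2.quotient R1 hR1) i2 hi2 hi2K hi2α
  -- `ψV1 + ψT = ψW + ψV2`, `ψW + b1 = ψV0 + (bPl + bInf)`, `ψT + b1 = bPl`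
  have h1 : ψ.toFun V1 ρ1 + bPl = ψ.toFun V0 ρ0 + ψ.toFun V2 ρ2 + bInf + bPl := by
    calc ψ.toFun V1 ρ1 + bPl
        = (ψ.toFun V1 ρ1 + ψ.toFun (V2 ⧸ R1) (ρ2.quotient R1 hR1)) + b1 := by
          rw [← hh]; abel
      _ = (ψ.toFun W0 (ρ1.subrepresentation W0 hW0) + b1) + ψ.toFun V2 ρ2 := by
          rw [key]; abel
      _ = ψ.toFun V0 ρ0 + ψ.toFun V2 ρ2 + bInf + bPl := by
          rw [hu]; abel
  exact (add_right_cancel h1).symm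

end Fermat.Agent.TW.GLOB.MUAbs5
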