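/-
Programme T (S56, Taylor–Wiles primes), chapter GLOB, task T7 (Tate's global Euler–Poincaré
formula), framework brick — helper5.

**Shapiro's isomorphism carries the coefficient action of `G ⧸ U` on `Hⁿ(G; Coind_U^G A)` to the
conjugation action on `Hⁿ(U; A)`.**

`G` a group with a level basis `𝓑`, `U ≤ G` a NORMAL subgroup with the induced basis
`SubLevel5.subBasis 𝓑 U`, `A : Rep k G`, `X := SubLevel5.resRep U A`,
`Coind := SmoothCoind28.scoind U.subtype 𝓑 X` (functions `f : G → A`, level, `f (u x) = u • f x`,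
`G` acting by right translation).

* `innerH1_eq`, `innerH2_eq` : for ANY group with a level basis and any module `B`, the inner
  automorphism maps `[c] ↦ [x ↦ γ • c (γ⁻¹ x γ)]` are the identity of `H¹(𝓑; B)`, `H²(𝓑; B)`;
* `subBasis_induced` : the hypothesis `hind` of `ShapiroLevel28` for `U.subtype`;
* `transl 𝓑 U A γ : Coind →ₗ Coind`, `(T_γ f)(x) = γ • f (γ⁻¹ x)` — a `G`-equivariant endomorphism;
  `transl_mul`, `transl_one`, `transl_of_mem` (`T_u = id` for `u ∈ U`): an action of `G ⧸ U` on the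
  coefficients `Coind` commuting with `G`;
* **`sh1_transl`, `sh2_transl`** : `shₙ (Hⁿ(T_γ) x) = conjHₙ γ (shₙ x)` for the Shapiro maps
  `shₙ : Hⁿ(𝓑; Coind) → Hⁿ(𝓑|U; A)` of `ShapiroLevel28`;
* `shapiro1Equiv`, `shapiro2Equiv` : the Shapiro isomorphisms for `U ≤ G` (discrete `A`), and their
  equivariance `shapiro1Equiv_transl`, `shapiro2Equiv_transl`.
-/
import Mathlib
import Fermat.Agent.TW.GLOB.SubLevel5
import Fermat.Agent.PT.PRO.ShapiroLevel28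

set_option autoImplicit false
set_option linter.unusedSectionVars false

universe u

open CategoryTheory groupCohomology
open Fermat.Agent.PT.PRO.LevelCoh28 Fermat.Agent.PT.PRO.LevelCohRes28
  Fermat.Agent.PT.PRO.SmoothCoind28 Fermat.Agent.PT.PRO.ShapiroLevel28
  Fermat.Agent.TW.GLOB.SubLevel5

namespace Fermat.Agent.TW.GLOB.ShapiroConj5

variable {k G : Type u} [CommRing k] [Group G]

/-! ### Inner automorphisms of the whole group act trivially -/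

section InnerWhole

variable (𝓑 : LevelBasis G) (B : Rep.{u} k G)

/-- `x ↦ γ⁻¹ x γ`. -/
def innerHom (γ : G) : G →* G where
  toFun x := γ⁻¹ * x * γ
  map_one' := by simp
  map_mul' x y := by group

@[simp] theorem innerHom_apply (γ x : G) : innerHom γ x = γ⁻¹ * x * γ := rfl

theorem isLevelHom_innerHom (γ : G) : IsLevelHom (innerHom γ) 𝓑.sets 𝓑.sets := by
  intro V hV
  obtain ⟨N, hN, hle, hn⟩ := 𝓑.isBasis.normalCore V hV
  refine ⟨N, hN, fun s hs => ?_⟩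
  have h2 : γ⁻¹ * s * γ ∈ N := by
    have := hn.conj_mem s hs γ⁻¹
    rwa [inv_inv] at this
  exact hle h2

theorem inner_equivariant (γ g : G) (b : B) :
    B.ρ γ (B.ρ (innerHom γ g) b) = B.ρ g (B.ρ γ b) := by
  rw [innerHom_apply, ← Module.End.mul_apply, ← map_mul, ← Module.End.mul_apply, ← map_mul]
  congr 2
  group

/-- The inner automorphism map on `H¹`. -/
noncomputable def innerH1 (γ : G) : H1 𝓑 B →ₗ[k] H1 𝓑 B :=
  ppH1 (innerHom γ) (B.ρ γ) (inner_equivariant B γ) (isLevelHom_innerHom 𝓑 γ)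

/-- The inner automorphism map on `H²`. -/
noncomputable def innerH2 (γ : G) : H2 𝓑 B →ₗ[k] H2 𝓑 B :=
  ppH2 (innerHom γ) (B.ρ γ) (inner_equivariant B γ) (isLevelHom_innerHom 𝓑 γ)

theorem innerH1_eq (γ : G) (x : H1 𝓑 B) : innerH1 𝓑 B γ x = x := by
  obtain ⟨c, rfl⟩ := H1mk_surjective _ _ x
  refine (Submodule.Quotient.eq _).2 ?_
  rw [Submodule.mem_comap]
  refine ⟨(c : G → B) γ, ?_⟩
  funext s
  exact (inner_cocycle₁ B c.2.1 γ s).symm

theorem innerH2_eq (γ : G) (x : H2 𝓑 B) : innerH2 𝓑 B γ x = x := by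
  obtain ⟨c, rfl⟩ := H2mk_surjective _ _ x
  refine (Submodule.Quotient.eq _).2 ?_
  rw [Submodule.mem_comap]
  refine (mem_B2_iff _ _ _).2 ⟨innerHtpy B (c : G × G → B) γ,
    isLevel₁_innerHtpy B 𝓑.isBasis c.2.2 γ, ?_⟩
  funext ⟨s, t⟩
  exact (inner_cocycle₂ B c.2.1 γ s t).symm

end InnerWhole

/-! ### The translation action on the coinduced module -/

section Transl

variable (𝓑 : LevelBasis G) (U : Subgroup G) (A : Rep.{u} k G)

/-- The basis of `U` is induced from that of `G` (hypothesis `hind` of `ShapiroLevel28`). -/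
theorem subBasis_induced :
    ∀ W ∈ (subBasis 𝓑 U).sets, ∃ V ∈ 𝓑.sets, V.comap U.subtype ≤ W := by
  rintro _ ⟨V, hV, rfl⟩
  exact ⟨V, hV, le_rfl⟩

/-- The coinduced module `Coind_U^G (A|U)`. -/
noncomputable abbrev coindRes : Rep.{u} k G := scoind (k := k) U.subtype 𝓑 (resRep U A)

variable [hU : U.Normal]

/-- `(T_γ f)(x) = γ • f (γ⁻¹ x)` on the coinduced module. -/
noncomputable def transl (γ : G) : coindRes 𝓑 U A →ₗ[k] coindRes 𝓑 U A where
  toFun f := ⟨fun x => A.ρ γ (f.1 (γ⁻¹ * x)), by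
    refine ⟨fun s x => ?_, ?_⟩
    · have h1 : γ⁻¹ * ((s : G) * x) = ((conjHom U γ s : U) : G) * (γ⁻¹ * x) := by
        rw [coe_conjHom]
        group
      show A.ρ γ (f.1 (γ⁻¹ * (U.subtype s * x))) = (resRep U A).ρ s (A.ρ γ (f.1 (γ⁻¹ * x)))
      rw [Subgroup.coe_subtype, h1]
      have h2 := f.2.1 (conjHom U γ s) (γ⁻¹ * x)
      rw [Subgroup.coe_subtype] at h2
      rw [h2]
      exact conj_equivariant U A γ s _
    · obtain ⟨V, hV, h⟩ := f.2.2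
      refine ⟨V, hV, fun x s hs => ?_⟩
      show A.ρ γ (f.1 (γ⁻¹ * (x * s))) = A.ρ γ (f.1 (γ⁻¹ * x))
      rw [← mul_assoc, h _ s hs]⟩
  map_add' f f' := Subtype.ext (funext fun x => map_add (A.ρ γ) _ _)
  map_smul' c f := Subtype.ext (funext fun x => map_smul (A.ρ γ) _ _)

@[simp] theorem transl_apply (γ : G) (f : coindRes 𝓑 U A) (x : G) :
    (transl 𝓑 U A γ f).1 x = A.ρ γ (f.1 (γ⁻¹ * x)) := rfl

/-- `T_γ` commutes with the action of `G` (right translation). -/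
theorem transl_equivariant (γ g : G) (f : coindRes 𝓑 U A) :
    transl 𝓑 U A γ ((coindRes 𝓑 U A).ρ g f) = (coindRes 𝓑 U A).ρ g (transl 𝓑 U A γ f) := by
  refine Subtype.ext (funext fun x => ?_)
  show A.ρ γ (f.1 (γ⁻¹ * x * g)) = A.ρ γ (f.1 (γ⁻¹ * (x * g)))
  rw [mul_assoc]

theorem transl_mul (γ γ' : G) (f : coindRes 𝓑 U A) :
    transl 𝓑 U A (γ * γ') f = transl 𝓑 U A γ (transl 𝓑 U A γ' f) := by
  refine Subtype.ext (funext fun x => ?_)
  show A.ρ (γ * γ') (f.1 ((γ * γ')⁻¹ * x)) = A.ρ γ (A.ρ γ' (f.1 (γ'⁻¹ * (γ⁻¹ * x))))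
  rw [map_mul, Module.End.mul_apply, mul_inv_rev, mul_assoc]

theorem transl_one (f : coindRes 𝓑 U A) : transl 𝓑 U A 1 f = f := by
  refine Subtype.ext (funext fun x => ?_)
  show A.ρ 1 (f.1 (1⁻¹ * x)) = f.1 x
  rw [map_one, inv_one, one_mul]
  rfl

/-- `T_u = id` for `u ∈ U`. -/
theorem transl_of_mem {γ : G} (hγ : γ ∈ U) (f : coindRes 𝓑 U A) : transl 𝓑 U A γ f = f := by
  refine Subtype.ext (funext fun x => ?_)
  show A.ρ γ (f.1 (γ⁻¹ * x)) = f.1 x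
  have h := f.2.1 (⟨γ, hγ⟩⁻¹ : U) x
  have h' : f.1 (γ⁻¹ * x) = A.ρ γ⁻¹ (f.1 x) := h
  rw [h', ← Module.End.mul_apply, ← map_mul, mul_inv_cancel, map_one]
  rfl

end Transl

/-! ### Compatibility with Shapiro's isomorphism -/

section Compat

variable (𝓑 : LevelBasis G) (U : Subgroup G) [hU : U.Normal] (A : Rep.{u} k G)

/-- The Shapiro map `H¹(𝓑; Coind_U^G A) → H¹(𝓑|U; A)`. -/
noncomputable def shapiro1 : H1 𝓑 (coindRes 𝓑 U A) →ₗ[k] H1 (subBasis 𝓑 U) (resRep U A) :=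
  sh1 U.subtype 𝓑 (subBasis 𝓑 U) (isLevelHom_subtype 𝓑 U) (resRep U A)

/-- The Shapiro map `H²(𝓑; Coind_U^G A) → H²(𝓑|U; A)`. -/
noncomputable def shapiro2 : H2 𝓑 (coindRes 𝓑 U A) →ₗ[k] H2 (subBasis 𝓑 U) (resRep U A) :=
  sh2 U.subtype 𝓑 (subBasis 𝓑 U) (isLevelHom_subtype 𝓑 U) (resRep U A)

/-- **Shapiro carries the translation action on the coefficients to conjugation, degree 1.** -/
theorem sh1_transl (γ : G) (x : H1 𝓑 (coindRes 𝓑 U A)) :
    shapiro1 𝓑 U A (mapH1 (transl 𝓑 U A γ) (transl_equivariant 𝓑 U A γ) x) =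
      conjH1 𝓑 U A γ (shapiro1 𝓑 U A x) := by
  conv_lhs => rw [← innerH1_eq 𝓑 (coindRes 𝓑 U A) γ x]
  obtain ⟨c, rfl⟩ := H1mk_surjective _ _ x
  show H1mk _ _ _ = H1mk _ _ _
  congr 1
  apply Subtype.ext
  funext s
  show A.ρ γ (((c : G → coindRes 𝓑 U A) (γ⁻¹ * (s : G) * γ)).1 (γ⁻¹ * 1 * γ)) =
    A.ρ γ (((c : G → coindRes 𝓑 U A) (γ⁻¹ * (s : G) * γ)).1 1)
  rw [mul_one, inv_mul_cancel]

/-- **Shapiro carries the translation action on the coefficients to conjugation, degree 2.** -/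
theorem sh2_transl (γ : G) (x : H2 𝓑 (coindRes 𝓑 U A)) :
    shapiro2 𝓑 U A (mapH2 (transl 𝓑 U A γ) (transl_equivariant 𝓑 U A γ) x) =
      conjH2 𝓑 U A γ (shapiro2 𝓑 U A x) := by
  conv_lhs => rw [← innerH2_eq 𝓑 (coindRes 𝓑 U A) γ x]
  obtain ⟨c, rfl⟩ := H2mk_surjective _ _ x
  show H2mk _ _ _ = H2mk _ _ _
  congr 1
  apply Subtype.ext
  funext ⟨s, t⟩
  show A.ρ γ (((c : G × G → coindRes 𝓑 U A)
      (γ⁻¹ * (s : G) * γ, γ⁻¹ * (t : G) * γ)).1 (γ⁻¹ * 1 * γ)) =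
    A.ρ γ (((c : G × G → coindRes 𝓑 U A) (γ⁻¹ * (s : G) * γ, γ⁻¹ * (t : G) * γ)).1 1)
  rw [mul_one, inv_mul_cancel]

variable {A} in
/-- Shapiro's isomorphism in degree 1 for `U ≤ G` and a discrete `G`-module `A`. -/
noncomputable def shapiro1Equiv (hA : IsDiscrete 𝓑.sets A) :
    H1 𝓑 (coindRes 𝓑 U A) ≃ₗ[k] H1 (subBasis 𝓑 U) (resRep U A) :=
  sh1Equiv U.subtype 𝓑 (subBasis 𝓑 U) (isLevelHom_subtype 𝓑 U) (subBasis_induced 𝓑 U)
    (resRep U A) (isDiscrete_resRep U hA)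

variable {A} in
/-- Shapiro's isomorphism in degree 2 for `U ≤ G` and a discrete `G`-module `A`. -/
noncomputable def shapiro2Equiv (hA : IsDiscrete 𝓑.sets A) :
    H2 𝓑 (coindRes 𝓑 U A) ≃ₗ[k] H2 (subBasis 𝓑 U) (resRep U A) :=
  sh2Equiv U.subtype 𝓑 (subBasis 𝓑 U) (isLevelHom_subtype 𝓑 U) (subBasis_induced 𝓑 U)
    (resRep U A) (isDiscrete_resRep U hA)

variable {A} in
theorem shapiro1Equiv_transl (hA : IsDiscrete 𝓑.sets A) (γ : G) (x : H1 𝓑 (coindRes 𝓑 U A)) :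
    shapiro1Equiv 𝓑 U hA (mapH1 (transl 𝓑 U A γ) (transl_equivariant 𝓑 U A γ) x) =
      repH1 𝓑 U A (γ : G ⧸ U) (shapiro1Equiv 𝓑 U hA x) :=
  sh1_transl 𝓑 U A γ x

variable {A} in
theorem shapiro2Equiv_transl (hA : IsDiscrete 𝓑.sets A) (γ : G) (x : H2 𝓑 (coindRes 𝓑 U A)) :
    shapiro2Equiv 𝓑 U hA (mapH2 (transl 𝓑 U A γ) (transl_equivariant 𝓑 U A γ) x) =
      repH2 𝓑 U A (γ : G ⧸ U) (shapiro2Equiv 𝓑 U hA x) :=
  sh2_transl 𝓑 U A γ x

end Compat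

end Fermat.Agent.TW.GLOB.ShapiroConj5
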