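/-
Programme T (S56, Taylor–Wiles primes), chapter GLOB, task T7 (Tate's global Euler–Poincaré
formula), framework brick — helper5.

**Restriction to a normal subgroup of invertible index is an isomorphism onto the invariants**
(the substitute for Hochschild–Serre / restriction–corestriction; no transfer is used).

`G` a group with a level basis `𝓑`, `U ≤ G` a normal subgroup of finite index `n`, `A : Rep k G`
discrete, `n` invertible in `k`.  With the vocabulary of `SubLevel5` / `ShapiroConj5`: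

* `diag U hA : A →ₗ Coind_U^G A`, `a ↦ (x ↦ x • a)` (equivariant, fixed by all translations `T_γ`),
  `avg : Coind_U^G A →ₗ A`, `f ↦ n⁻¹ ∑_{γ ∈ G/U} γ • f (γ⁻¹)` (equivariant), `avg ∘ diag = id`,
  `diag ∘ avg = n⁻¹ ∑_{q ∈ G/U} T_q`;
* `resH1_eq_shapiro1_diag`, `resH2_eq_shapiro2_diag` : `res = Shapiro ∘ Hⁿ(diag)`;
* **`resH1_injective`, `resH2_injective`** : `Hⁿ(𝓑; A) → Hⁿ(𝓑|U; A)` is injective;
* **`mem_range_resH1_iff`, `mem_range_resH2_iff`** : `x ∈ range res ↔ ∀ γ, conjHₙ γ x = x`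
  (the image of restriction is the group of `G ⧸ U`-invariants for the conjugation action).
-/
import Mathlib
import Fermat.Agent.TW.GLOB.ShapiroConj5

set_option autoImplicit false
set_option linter.unusedSectionVars false

universe u

open CategoryTheory groupCohomology
open Fermat.Agent.PT.PRO.LevelCoh28 Fermat.Agent.PT.PRO.LevelCohRes28
  Fermat.Agent.PT.PRO.SmoothCoind28 Fermat.Agent.PT.PRO.ShapiroLevel28
  Fermat.Agent.TW.GLOB.SubLevel5 Fermat.Agent.TW.GLOB.ShapiroConj5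

namespace Fermat.Agent.TW.GLOB.ResInvariants5

variable {k G : Type u} [CommRing k] [Group G]
variable {𝓑 : LevelBasis G} (U : Subgroup G) [hU : U.Normal] {A : Rep.{u} k G}

/-! ### The diagonal embedding -/

section Diag

variable (hA : IsDiscrete 𝓑.sets A)

/-- `a ↦ (x ↦ x • a)`. -/
noncomputable def diag : A →ₗ[k] coindRes 𝓑 U A where
  toFun a := ⟨fun x => A.ρ x a, by
    refine ⟨fun s x => ?_, ?_⟩
    · show A.ρ (U.subtype s * x) a = (resRep U A).ρ s (A.ρ x a)
      rw [map_mul]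
      rfl
    · obtain ⟨V, hV, h⟩ := hA a
      refine ⟨V, hV, fun x s hs => ?_⟩
      show A.ρ (x * s) a = A.ρ x a
      rw [map_mul, Module.End.mul_apply, h s hs]⟩
  map_add' a b := Subtype.ext (funext fun x => map_add (A.ρ x) a b)
  map_smul' c a := Subtype.ext (funext fun x => map_smul (A.ρ x) c a)

@[simp] theorem diag_apply (a : A) (x : G) : (diag U hA a).1 x = A.ρ x a := rfl

theorem diag_equivariant (g : G) (a : A) :
    diag U hA (A.ρ g a) = (coindRes 𝓑 U A).ρ g (diag U hA a) := by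
  refine Subtype.ext (funext fun x => ?_)
  show A.ρ x (A.ρ g a) = A.ρ (x * g) a
  rw [map_mul]
  rfl

theorem transl_diag (γ : G) (a : A) : transl 𝓑 U A γ (diag U hA a) = diag U hA a := by
  refine Subtype.ext (funext fun x => ?_)
  show A.ρ γ (A.ρ (γ⁻¹ * x) a) = A.ρ x a
  rw [← Module.End.mul_apply, ← map_mul, mul_inv_cancel_left]

theorem ev_diag (a : A) : ev U.subtype 𝓑 (resRep U A) (diag U hA a) = a := by
  show A.ρ 1 a = a
  rw [map_one]
  rfl

end Diag

/-! ### The translation action of the quotient and the averaging map -/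

section Avg

variable (𝓑 A)

/-- `γ ↦ T_γ` as a monoid homomorphism. -/
noncomputable def translHom : G →* Module.End k (coindRes 𝓑 U A) where
  toFun γ := transl 𝓑 U A γ
  map_one' := LinearMap.ext (transl_one 𝓑 U A)
  map_mul' γ γ' := LinearMap.ext (transl_mul 𝓑 U A γ γ')

/-- The action of `G ⧸ U` on the coinduced module by translations. -/
noncomputable def translQ : (G ⧸ U) →* Module.End k (coindRes 𝓑 U A) :=
  QuotientGroup.lift U (translHom 𝓑 U A) fun _ hγ =>
    MonoidHom.mem_ker.mpr (LinearMap.ext (transl_of_mem 𝓑 U A hγ))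

@[simp] theorem translQ_mk (γ : G) (f : coindRes 𝓑 U A) :
    translQ 𝓑 U A (γ : G ⧸ U) f = transl 𝓑 U A γ f := rfl

theorem translQ_equivariant (q : G ⧸ U) (g : G) (f : coindRes 𝓑 U A) :
    translQ 𝓑 U A q ((coindRes 𝓑 U A).ρ g f) = (coindRes 𝓑 U A).ρ g (translQ 𝓑 U A q f) := by
  induction q using QuotientGroup.induction_on with
  | H γ => exact transl_equivariant 𝓑 U A γ g f

/-- The value at `g` of a translate is `g •` the value at `1` of another translate. -/
theorem translQ_apply_eq (q : G ⧸ U) (g : G) (f : coindRes 𝓑 U A) :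
    (translQ 𝓑 U A q f).1 g = A.ρ g ((translQ 𝓑 U A ((g : G ⧸ U)⁻¹ * q) f).1 1) := by
  induction q using QuotientGroup.induction_on with
  | H γ =>
    have h1 : ((g : G ⧸ U)⁻¹ * (γ : G ⧸ U)) = ((g⁻¹ * γ : G) : G ⧸ U) := rfl
    rw [h1, translQ_mk, translQ_mk, transl_apply, transl_apply, ← Module.End.mul_apply, ← map_mul,
      mul_inv_cancel_left, mul_one, mul_inv_rev, inv_inv]

variable [Fintype (G ⧸ U)]

/-- `f ↦ ∑_{q ∈ G/U} (T_q f)(1)`. -/
noncomputable def avgSum : coindRes 𝓑 U A →ₗ[k] A :=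
  ∑ q : G ⧸ U, (ev U.subtype 𝓑 (resRep U A)) ∘ₗ (translQ 𝓑 U A q)

theorem avgSum_apply (f : coindRes 𝓑 U A) :
    avgSum 𝓑 U A f = ∑ q : G ⧸ U, (translQ 𝓑 U A q f).1 1 := by
  simp [avgSum, LinearMap.sum_apply]

/-- `∑_q (T_q f)(g) = g • ∑_q (T_q f)(1)`. -/
theorem sum_translQ_apply (g : G) (f : coindRes 𝓑 U A) :
    ∑ q : G ⧸ U, (translQ 𝓑 U A q f).1 g = A.ρ g (avgSum 𝓑 U A f) := by
  rw [avgSum_apply, map_sum]
  rw [← Equiv.sum_comp (Equiv.mulLeft ((g : G ⧸ U)⁻¹))
    (fun q => A.ρ g ((translQ 𝓑 U A q f).1 1))]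
  refine Finset.sum_congr rfl fun q _ => ?_
  rw [translQ_apply_eq]
  rfl

theorem avgSum_equivariant (g : G) (f : coindRes 𝓑 U A) :
    avgSum 𝓑 U A ((coindRes 𝓑 U A).ρ g f) = A.ρ g (avgSum 𝓑 U A f) := by
  rw [← sum_translQ_apply, avgSum_apply]
  refine Finset.sum_congr rfl fun q _ => ?_
  rw [translQ_equivariant]
  show (translQ 𝓑 U A q f).1 (1 * g) = (translQ 𝓑 U A q f).1 g
  rw [one_mul]

variable {𝓑 A} in
theorem avgSum_diag (hA : IsDiscrete 𝓑.sets A) (a : A) :
    avgSum 𝓑 U A (diag U hA a) = Fintype.card (G ⧸ U) • a := by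
  rw [avgSum_apply]
  have h : ∀ q : G ⧸ U, (translQ 𝓑 U A q (diag U hA a)).1 1 = a := by
    intro q
    induction q using QuotientGroup.induction_on with
    | H γ =>
      rw [translQ_mk, transl_diag]
      exact ev_diag U hA a
  rw [Finset.sum_congr rfl fun q _ => h q, Finset.sum_const, Finset.card_univ]

variable {𝓑 A} in
/-- `diag (∑_q (T_q f)(1)) = ∑_q T_q f`. -/
theorem diag_avgSum (hA : IsDiscrete 𝓑.sets A) (f : coindRes 𝓑 U A) :
    diag U hA (avgSum 𝓑 U A f) = ∑ q : G ⧸ U, translQ 𝓑 U A q f := by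
  refine Subtype.ext (funext fun x => ?_)
  rw [diag_apply, ← sum_translQ_apply]
  have : ((∑ q : G ⧸ U, translQ 𝓑 U A q f : coindRes 𝓑 U A)).1 x =
      ∑ q : G ⧸ U, (translQ 𝓑 U A q f).1 x := by
    have h1 : ((∑ q : G ⧸ U, translQ 𝓑 U A q f : coindRes 𝓑 U A)).1 =
        ∑ q : G ⧸ U, (translQ 𝓑 U A q f).1 :=
      map_sum (scoindV (k := k) U.subtype 𝓑 (resRep U A)).subtype _ _
    rw [h1, Finset.sum_apply]
  rw [this]

end Avg

/-! ### Restriction is Shapiro after the diagonal -/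

section ResShapiro

variable (hA : IsDiscrete 𝓑.sets A)

theorem resH1_eq_shapiro1_diag (x : H1 𝓑 A) :
    resH1 𝓑 U A x = shapiro1 𝓑 U A (mapH1 (diag U hA) (diag_equivariant U hA) x) := by
  obtain ⟨c, rfl⟩ := H1mk_surjective _ _ x
  show H1mk _ _ _ = H1mk _ _ _
  congr 1
  apply Subtype.ext
  funext s
  show (c : G → A) (s : G) = A.ρ 1 ((c : G → A) (s : G))
  rw [map_one]
  rfl

theorem resH2_eq_shapiro2_diag (x : H2 𝓑 A) :
    resH2 𝓑 U A x = shapiro2 𝓑 U A (mapH2 (diag U hA) (diag_equivariant U hA) x) := by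
  obtain ⟨c, rfl⟩ := H2mk_surjective _ _ x
  show H2mk _ _ _ = H2mk _ _ _
  congr 1
  apply Subtype.ext
  funext ⟨s, t⟩
  show (c : G × G → A) ((s : G), (t : G)) = A.ρ 1 ((c : G × G → A) ((s : G), (t : G)))
  rw [map_one]
  rfl

end ResShapiro

/-! ### Injectivity and the image of restriction -/

section Main

variable (hA : IsDiscrete 𝓑.sets A) [Fintype (G ⧸ U)]
  [hinv : Invertible ((Fintype.card (G ⧸ U) : ℕ) : k)]

include hA hinv in
theorem mapH1_diag_injective :
    Function.Injective (mapH1 (𝓑 := 𝓑) (diag U hA) (diag_equivariant U hA)) := by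
  intro x y hxy
  have key : ∀ z : H1 𝓑 A,
      mapH1 (𝓑 := 𝓑) (avgSum 𝓑 U A) (avgSum_equivariant 𝓑 U A)
        (mapH1 (𝓑 := 𝓑) (diag U hA) (diag_equivariant U hA) z) = Fintype.card (G ⧸ U) • z := by
    intro z
    obtain ⟨c, rfl⟩ := H1mk_surjective _ _ z
    rw [mapH1_mk, mapH1_mk, ← map_nsmul]
    congr 1
    apply Subtype.ext
    funext g
    exact avgSum_diag U hA _
  have h := congrArg (mapH1 (𝓑 := 𝓑) (avgSum 𝓑 U A) (avgSum_equivariant 𝓑 U A)) hxy
  rw [key, key] at h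
  have h2 := congrArg (fun z => (⅟((Fintype.card (G ⧸ U) : ℕ) : k)) • z) h
  simp only [← Nat.cast_smul_eq_nsmul k, smul_smul, invOf_mul_self, one_smul] at h2
  exact h2

include hA hinv in
theorem mapH2_diag_injective :
    Function.Injective (mapH2 (𝓑 := 𝓑) (diag U hA) (diag_equivariant U hA)) := by
  intro x y hxy
  have key : ∀ z : H2 𝓑 A,
      mapH2 (𝓑 := 𝓑) (avgSum 𝓑 U A) (avgSum_equivariant 𝓑 U A)
        (mapH2 (𝓑 := 𝓑) (diag U hA) (diag_equivariant U hA) z) = Fintype.card (G ⧸ U) • z := by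
    intro z
    obtain ⟨c, rfl⟩ := H2mk_surjective _ _ z
    rw [mapH2_mk, mapH2_mk, ← map_nsmul]
    congr 1
    apply Subtype.ext
    funext g
    exact avgSum_diag U hA _
  have h := congrArg (mapH2 (𝓑 := 𝓑) (avgSum 𝓑 U A) (avgSum_equivariant 𝓑 U A)) hxy
  rw [key, key] at h
  have h2 := congrArg (fun z => (⅟((Fintype.card (G ⧸ U) : ℕ) : k)) • z) h
  simp only [← Nat.cast_smul_eq_nsmul k, smul_smul, invOf_mul_self, one_smul] at h2
  exact h2

include hA hinv in
/-- **Restriction to a normal subgroup of invertible index is injective, degree 1.** -/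
theorem resH1_injective : Function.Injective (resH1 𝓑 U A) := by
  intro x y hxy
  rw [resH1_eq_shapiro1_diag U hA, resH1_eq_shapiro1_diag U hA] at hxy
  exact mapH1_diag_injective U hA ((shapiro1Equiv 𝓑 U hA).injective hxy)

include hA hinv in
/-- **Restriction to a normal subgroup of invertible index is injective, degree 2.** -/
theorem resH2_injective : Function.Injective (resH2 𝓑 U A) := by
  intro x y hxy
  rw [resH2_eq_shapiro2_diag U hA, resH2_eq_shapiro2_diag U hA] at hxy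
  exact mapH2_diag_injective U hA ((shapiro2Equiv 𝓑 U hA).injective hxy)

include hA hinv in
/-- **The image of restriction is the group of invariants, degree 1.** -/
theorem mem_range_resH1_iff (x : H1 (subBasis 𝓑 U) (resRep U A)) :
    x ∈ LinearMap.range (resH1 𝓑 U A) ↔ ∀ γ : G, conjH1 𝓑 U A γ x = x := by
  constructor
  · rintro ⟨y, rfl⟩ γ
    exact conjH1_resH1 𝓑 U A γ y
  · intro hx
    obtain ⟨y, rfl⟩ := (shapiro1Equiv 𝓑 U hA).surjective x
    -- all translates of `y` are equal to `y`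
    have hy : ∀ q : G ⧸ U,
        mapH1 (𝓑 := 𝓑) (translQ 𝓑 U A q) (translQ_equivariant 𝓑 U A q) y = y := by
      intro q
      induction q using QuotientGroup.induction_on with
      | H γ =>
        apply (shapiro1Equiv 𝓑 U hA).injective
        exact (sh1_transl 𝓑 U A γ y).trans (hx γ)
    -- hence `diag_* (avgSum_* y) = n • y`
    have hsum : mapH1 (𝓑 := 𝓑) (diag U hA) (diag_equivariant U hA)
        (mapH1 (𝓑 := 𝓑) (avgSum 𝓑 U A) (avgSum_equivariant 𝓑 U A) y) =
          Fintype.card (G ⧸ U) • y := by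
      obtain ⟨c, rfl⟩ := H1mk_surjective _ _ y
      have h1 : mapZ1 (𝓑 := 𝓑) (diag U hA) (diag_equivariant U hA)
          (mapZ1 (𝓑 := 𝓑) (avgSum 𝓑 U A) (avgSum_equivariant 𝓑 U A) c) =
            ∑ q : G ⧸ U, mapZ1 (𝓑 := 𝓑) (translQ 𝓑 U A q) (translQ_equivariant 𝓑 U A q) c := by
        apply Subtype.ext
        funext g
        have h2 : ((∑ q : G ⧸ U, mapZ1 (𝓑 := 𝓑) (translQ 𝓑 U A q)
            (translQ_equivariant 𝓑 U A q) c : ↥(Z1 𝓑 (coindRes 𝓑 U A))) :
              G → coindRes 𝓑 U A) =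
            ∑ q : G ⧸ U, ((mapZ1 (𝓑 := 𝓑) (translQ 𝓑 U A q)
              (translQ_equivariant 𝓑 U A q) c : ↥(Z1 𝓑 (coindRes 𝓑 U A))) :
                G → coindRes 𝓑 U A) :=
          map_sum (Z1 𝓑 (coindRes 𝓑 U A)).subtype _ _
        rw [h2, Finset.sum_apply]
        exact diag_avgSum U hA _
      rw [mapH1_mk, mapH1_mk, h1, map_sum]
      have hy' : ∀ q : G ⧸ U, H1mk 𝓑 (coindRes 𝓑 U A) (mapZ1 (𝓑 := 𝓑) (translQ 𝓑 U A q)
          (translQ_equivariant 𝓑 U A q) c) = H1mk 𝓑 (coindRes 𝓑 U A) c := fun q => hy q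
      rw [Finset.sum_congr rfl fun q _ => hy' q, Finset.sum_const, Finset.card_univ]
    refine ⟨(⅟((Fintype.card (G ⧸ U) : ℕ) : k)) •
      mapH1 (𝓑 := 𝓑) (avgSum 𝓑 U A) (avgSum_equivariant 𝓑 U A) y, ?_⟩
    rw [resH1_eq_shapiro1_diag U hA, map_smul, hsum, ← Nat.cast_smul_eq_nsmul k, smul_smul,
      invOf_mul_self, one_smul]
    rfl

include hA hinv in
/-- **The image of restriction is the group of invariants, degree 2.** -/
theorem mem_range_resH2_iff (x : H2 (subBasis 𝓑 U) (resRep U A)) :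
    x ∈ LinearMap.range (resH2 𝓑 U A) ↔ ∀ γ : G, conjH2 𝓑 U A γ x = x := by
  constructor
  · rintro ⟨y, rfl⟩ γ
    exact conjH2_resH2 𝓑 U A γ y
  · intro hx
    obtain ⟨y, rfl⟩ := (shapiro2Equiv 𝓑 U hA).surjective x
    have hy : ∀ q : G ⧸ U,
        mapH2 (𝓑 := 𝓑) (translQ 𝓑 U A q) (translQ_equivariant 𝓑 U A q) y = y := by
      intro q
      induction q using QuotientGroup.induction_on with
      | H γ =>
        apply (shapiro2Equiv 𝓑 U hA).injective
        exact (sh2_transl 𝓑 U A γ y).trans (hx γ)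
    have hsum : mapH2 (𝓑 := 𝓑) (diag U hA) (diag_equivariant U hA)
        (mapH2 (𝓑 := 𝓑) (avgSum 𝓑 U A) (avgSum_equivariant 𝓑 U A) y) =
          Fintype.card (G ⧸ U) • y := by
      obtain ⟨c, rfl⟩ := H2mk_surjective _ _ y
      have h1 : mapZ2 (𝓑 := 𝓑) (diag U hA) (diag_equivariant U hA)
          (mapZ2 (𝓑 := 𝓑) (avgSum 𝓑 U A) (avgSum_equivariant 𝓑 U A) c) =
            ∑ q : G ⧸ U, mapZ2 (𝓑 := 𝓑) (translQ 𝓑 U A q) (translQ_equivariant 𝓑 U A q) c := by
        apply Subtype.ext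
        funext g
        have h2 : ((∑ q : G ⧸ U, mapZ2 (𝓑 := 𝓑) (translQ 𝓑 U A q)
            (translQ_equivariant 𝓑 U A q) c : ↥(Z2 𝓑 (coindRes 𝓑 U A))) :
              G × G → coindRes 𝓑 U A) =
            ∑ q : G ⧸ U, ((mapZ2 (𝓑 := 𝓑) (translQ 𝓑 U A q)
              (translQ_equivariant 𝓑 U A q) c : ↥(Z2 𝓑 (coindRes 𝓑 U A))) :
                G × G → coindRes 𝓑 U A) :=
          map_sum (Z2 𝓑 (coindRes 𝓑 U A)).subtype _ _
        rw [h2, Finset.sum_apply]
        exact diag_avgSum U hA _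
      rw [mapH2_mk, mapH2_mk, h1, map_sum]
      have hy' : ∀ q : G ⧸ U, H2mk 𝓑 (coindRes 𝓑 U A) (mapZ2 (𝓑 := 𝓑) (translQ 𝓑 U A q)
          (translQ_equivariant 𝓑 U A q) c) = H2mk 𝓑 (coindRes 𝓑 U A) c := fun q => hy q
      rw [Finset.sum_congr rfl fun q _ => hy' q, Finset.sum_const, Finset.card_univ]
    refine ⟨(⅟((Fintype.card (G ⧸ U) : ℕ) : k)) •
      mapH2 (𝓑 := 𝓑) (avgSum 𝓑 U A) (avgSum_equivariant 𝓑 U A) y, ?_⟩
    rw [resH2_eq_shapiro2_diag U hA, map_smul, hsum, ← Nat.cast_smul_eq_nsmul k, smul_smul,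
      invOf_mul_self, one_smul]
    rfl

end Main

end Fermat.Agent.TW.GLOB.ResInvariants5
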