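/-
Programme T (S56, Taylor–Wiles primes), chapter GLOB, task T7 (Tate's global Euler–Poincaré
formula), framework brick — helper5.

**Corestriction (trace) from a normal subgroup of finite index**, in the level cohomology of
`PT/PRO/LevelCoh28`, built from Shapiro's isomorphism and the trace `avgSum` on the coinduced module
(`ResInvariants5`).  `G` a group with level basis `𝓑`, `U ≤ G` normal of finite index, `A` a discrete
`G`-module (any coefficient ring `k`, in particular `k = ℤ`: no invertibility hypothesis).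

* `coindMap U φ hφ : Coind_U^G A →ₗ Coind_U^G B` for an equivariant `φ : A →ₗ B` (functoriality of the
  coinduced module), `coindMap_equivariant`, `transl_coindMap`, `avgSum_coindMap`;
* `trH1`, `trH2 : Hⁿ(𝓑|U; A) →ₗ Hⁿ(𝓑; A)`;
* `trH?_resH?` : `tr ∘ res = [G : U]`;
* `resH?_trH?` : `res ∘ tr = ∑_{q ∈ G/U} q •` (the norm for the conjugation action `repH?`);
* `trH?_repH?` : `tr ∘ (q •) = tr`;
* `trH?_mapResH?` : naturality in the coefficients.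
-/
import Mathlib
import Fermat.Agent.TW.GLOB.ResInvariants5

set_option autoImplicit false
set_option linter.unusedSectionVars false

universe u

open CategoryTheory groupCohomology
open Fermat.Agent.PT.PRO.LevelCoh28 Fermat.Agent.PT.PRO.LevelCohRes28
  Fermat.Agent.PT.PRO.SmoothCoind28 Fermat.Agent.PT.PRO.ShapiroLevel28
  Fermat.Agent.TW.GLOB.SubLevel5 Fermat.Agent.TW.GLOB.ShapiroConj5
  Fermat.Agent.TW.GLOB.ResInvariants5

namespace Fermat.Agent.TW.GLOB.TraceLevel5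

variable {k G : Type u} [CommRing k] [Group G]

/-! ### Functoriality of the coinduced module -/

section CoindMap

variable {𝓑 : LevelBasis G} (U : Subgroup G) {A B : Rep.{u} k G}
  (φ : A →ₗ[k] B) (hφ : ∀ g a, φ (A.ρ g a) = B.ρ g (φ a))

/-- `Coind_U^G φ`. -/
noncomputable def coindMap : coindRes 𝓑 U A →ₗ[k] coindRes 𝓑 U B :=
  scoindMap (k := k) U.subtype 𝓑 (X := resRep U A) (Y := resRep U B) φ
    (fun s a => hφ (s : G) a)

@[simp] theorem coindMap_apply (f : coindRes 𝓑 U A) (x : G) :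
    (coindMap (𝓑 := 𝓑) U φ hφ f).1 x = φ (f.1 x) := rfl

theorem coindMap_equivariant (g : G) (f : coindRes 𝓑 U A) :
    coindMap (𝓑 := 𝓑) U φ hφ ((coindRes 𝓑 U A).ρ g f) =
      (coindRes 𝓑 U B).ρ g (coindMap (𝓑 := 𝓑) U φ hφ f) := rfl

variable [hU : U.Normal]

theorem transl_coindMap (γ : G) (f : coindRes 𝓑 U A) :
    transl 𝓑 U B γ (coindMap (𝓑 := 𝓑) U φ hφ f) =
      coindMap (𝓑 := 𝓑) U φ hφ (transl 𝓑 U A γ f) := by
  refine Subtype.ext (funext fun x => ?_)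
  show B.ρ γ (φ (f.1 (γ⁻¹ * x))) = φ (A.ρ γ (f.1 (γ⁻¹ * x)))
  rw [hφ]

theorem translQ_coindMap (q : G ⧸ U) (f : coindRes 𝓑 U A) :
    translQ 𝓑 U B q (coindMap (𝓑 := 𝓑) U φ hφ f) =
      coindMap (𝓑 := 𝓑) U φ hφ (translQ 𝓑 U A q f) := by
  induction q using QuotientGroup.induction_on with
  | H γ => exact transl_coindMap U φ hφ γ f

theorem avgSum_coindMap [Fintype (G ⧸ U)] (f : coindRes 𝓑 U A) :
    avgSum 𝓑 U B (coindMap (𝓑 := 𝓑) U φ hφ f) = φ (avgSum 𝓑 U A f) := by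
  rw [avgSum_apply, avgSum_apply, map_sum]
  refine Finset.sum_congr rfl fun q _ => ?_
  rw [translQ_coindMap]
  rfl

theorem diag_comp (hA : IsDiscrete 𝓑.sets A) (hB : IsDiscrete 𝓑.sets B) (a : A) :
    coindMap (𝓑 := 𝓑) U φ hφ (diag U hA a) = diag U hB (φ a) := by
  refine Subtype.ext (funext fun x => ?_)
  show φ (A.ρ x a) = B.ρ x (φ a)
  rw [hφ]

end CoindMap

/-! ### The trace maps -/

section Trace

variable (𝓑 : LevelBasis G) (U : Subgroup G) [hU : U.Normal] {A : Rep.{u} k G}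
  (hA : IsDiscrete 𝓑.sets A) [Fintype (G ⧸ U)]

/-- Corestriction `H¹(𝓑|U; A) → H¹(𝓑; A)`. -/
noncomputable def trH1 : H1 (subBasis 𝓑 U) (resRep U A) →ₗ[k] H1 𝓑 A :=
  (mapH1 (𝓑 := 𝓑) (avgSum 𝓑 U A) (avgSum_equivariant 𝓑 U A)) ∘ₗ
    (shapiro1Equiv 𝓑 U hA).symm.toLinearMap

/-- Corestriction `H²(𝓑|U; A) → H²(𝓑; A)`. -/
noncomputable def trH2 : H2 (subBasis 𝓑 U) (resRep U A) →ₗ[k] H2 𝓑 A :=
  (mapH2 (𝓑 := 𝓑) (avgSum 𝓑 U A) (avgSum_equivariant 𝓑 U A)) ∘ₗ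
    (shapiro2Equiv 𝓑 U hA).symm.toLinearMap

theorem trH1_shapiro1Equiv (y : H1 𝓑 (coindRes 𝓑 U A)) :
    trH1 𝓑 U hA (shapiro1Equiv 𝓑 U hA y) =
      mapH1 (𝓑 := 𝓑) (avgSum 𝓑 U A) (avgSum_equivariant 𝓑 U A) y := by
  rw [trH1, LinearMap.comp_apply, LinearEquiv.coe_coe, LinearEquiv.symm_apply_apply]

theorem trH2_shapiro2Equiv (y : H2 𝓑 (coindRes 𝓑 U A)) :
    trH2 𝓑 U hA (shapiro2Equiv 𝓑 U hA y) =
      mapH2 (𝓑 := 𝓑) (avgSum 𝓑 U A) (avgSum_equivariant 𝓑 U A) y := by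
  rw [trH2, LinearMap.comp_apply, LinearEquiv.coe_coe, LinearEquiv.symm_apply_apply]

/-- `tr ∘ res = [G : U]`, degree 1. -/
theorem trH1_resH1 (x : H1 𝓑 A) :
    trH1 𝓑 U hA (resH1 𝓑 U A x) = Fintype.card (G ⧸ U) • x := by
  rw [resH1_eq_shapiro1_diag U hA]
  have h : shapiro1 𝓑 U A (mapH1 (diag U hA) (diag_equivariant U hA) x) =
      shapiro1Equiv 𝓑 U hA (mapH1 (diag U hA) (diag_equivariant U hA) x) := rfl
  rw [h, trH1_shapiro1Equiv]
  obtain ⟨c, rfl⟩ := H1mk_surjective _ _ x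
  rw [mapH1_mk, mapH1_mk, ← map_nsmul]
  congr 1
  apply Subtype.ext
  funext g
  exact avgSum_diag U hA _

/-- `tr ∘ res = [G : U]`, degree 2. -/
theorem trH2_resH2 (x : H2 𝓑 A) :
    trH2 𝓑 U hA (resH2 𝓑 U A x) = Fintype.card (G ⧸ U) • x := by
  rw [resH2_eq_shapiro2_diag U hA]
  have h : shapiro2 𝓑 U A (mapH2 (diag U hA) (diag_equivariant U hA) x) =
      shapiro2Equiv 𝓑 U hA (mapH2 (diag U hA) (diag_equivariant U hA) x) := rfl
  rw [h, trH2_shapiro2Equiv]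
  obtain ⟨c, rfl⟩ := H2mk_surjective _ _ x
  rw [mapH2_mk, mapH2_mk, ← map_nsmul]
  congr 1
  apply Subtype.ext
  funext g
  exact avgSum_diag U hA _

/-- `res ∘ tr = ∑_{q ∈ G/U} q •`, degree 1. -/
theorem resH1_trH1 (x : H1 (subBasis 𝓑 U) (resRep U A)) :
    resH1 𝓑 U A (trH1 𝓑 U hA x) = ∑ q : G ⧸ U, repH1 𝓑 U A q x := by
  obtain ⟨y, rfl⟩ := (shapiro1Equiv 𝓑 U hA).surjective x
  rw [trH1_shapiro1Equiv, resH1_eq_shapiro1_diag U hA]
  have hsum : mapH1 (𝓑 := 𝓑) (diag U hA) (diag_equivariant U hA)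
      (mapH1 (𝓑 := 𝓑) (avgSum 𝓑 U A) (avgSum_equivariant 𝓑 U A) y) =
        ∑ q : G ⧸ U, mapH1 (𝓑 := 𝓑) (translQ 𝓑 U A q) (translQ_equivariant 𝓑 U A q) y := by
    obtain ⟨c, rfl⟩ := H1mk_surjective _ _ y
    have h1 : mapZ1 (𝓑 := 𝓑) (diag U hA) (diag_equivariant U hA)
        (mapZ1 (𝓑 := 𝓑) (avgSum 𝓑 U A) (avgSum_equivariant 𝓑 U A) c) =
          ∑ q : G ⧸ U, mapZ1 (𝓑 := 𝓑) (translQ 𝓑 U A q) (translQ_equivariant 𝓑 U A q) c := by
      apply Subtype.ext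
      funext g
      have h2 : ((∑ q : G ⧸ U, mapZ1 (𝓑 := 𝓑) (translQ 𝓑 U A q)
          (translQ_equivariant 𝓑 U A q) c : ↥(Z1 𝓑 (coindRes 𝓑 U A))) :
            G → coindRes 𝓑 U A) =
          ∑ q : G ⧸ U, ((mapZ1 (𝓑 := 𝓑) (translQ 𝓑 U A q)
            (translQ_equivariant 𝓑 U A q) c : ↥(Z1 𝓑 (coindRes 𝓑 U A))) :
              G → coindRes 𝓑 U A) :=
        map_sum (Z1 𝓑 (coindRes 𝓑 U A)).subtype _ _
      rw [h2, Finset.sum_apply]
      exact diag_avgSum U hA _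
    rw [mapH1_mk, mapH1_mk, h1, map_sum]
    rfl
  rw [hsum, map_sum]
  refine Finset.sum_congr rfl fun q _ => ?_
  induction q using QuotientGroup.induction_on with
  | H γ => exact sh1_transl 𝓑 U A γ y

/-- `res ∘ tr = ∑_{q ∈ G/U} q •`, degree 2. -/
theorem resH2_trH2 (x : H2 (subBasis 𝓑 U) (resRep U A)) :
    resH2 𝓑 U A (trH2 𝓑 U hA x) = ∑ q : G ⧸ U, repH2 𝓑 U A q x := by
  obtain ⟨y, rfl⟩ := (shapiro2Equiv 𝓑 U hA).surjective x
  rw [trH2_shapiro2Equiv, resH2_eq_shapiro2_diag U hA]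
  have hsum : mapH2 (𝓑 := 𝓑) (diag U hA) (diag_equivariant U hA)
      (mapH2 (𝓑 := 𝓑) (avgSum 𝓑 U A) (avgSum_equivariant 𝓑 U A) y) =
        ∑ q : G ⧸ U, mapH2 (𝓑 := 𝓑) (translQ 𝓑 U A q) (translQ_equivariant 𝓑 U A q) y := by
    obtain ⟨c, rfl⟩ := H2mk_surjective _ _ y
    have h1 : mapZ2 (𝓑 := 𝓑) (diag U hA) (diag_equivariant U hA)
        (mapZ2 (𝓑 := 𝓑) (avgSum 𝓑 U A) (avgSum_equivariant 𝓑 U A) c) =
          ∑ q : G ⧸ U, mapZ2 (𝓑 := 𝓑) (translQ 𝓑 U A q) (translQ_equivariant 𝓑 U A q) c := by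
      apply Subtype.ext
      funext g
      have h2 : ((∑ q : G ⧸ U, mapZ2 (𝓑 := 𝓑) (translQ 𝓑 U A q)
          (translQ_equivariant 𝓑 U A q) c : ↥(Z2 𝓑 (coindRes 𝓑 U A))) :
            G × G → coindRes 𝓑 U A) =
          ∑ q : G ⧸ U, ((mapZ2 (𝓑 := 𝓑) (translQ 𝓑 U A q)
            (translQ_equivariant 𝓑 U A q) c : ↥(Z2 𝓑 (coindRes 𝓑 U A))) :
              G × G → coindRes 𝓑 U A) :=
        map_sum (Z2 𝓑 (coindRes 𝓑 U A)).subtype _ _
      rw [h2, Finset.sum_apply]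
      exact diag_avgSum U hA _
    rw [mapH2_mk, mapH2_mk, h1, map_sum]
    rfl
  rw [hsum, map_sum]
  refine Finset.sum_congr rfl fun q _ => ?_
  induction q using QuotientGroup.induction_on with
  | H γ => exact sh2_transl 𝓑 U A γ y

/-- The trace of a translate is the trace. -/
theorem avgSum_translQ (q : G ⧸ U) (f : coindRes 𝓑 U A) :
    avgSum 𝓑 U A (translQ 𝓑 U A q f) = avgSum 𝓑 U A f := by
  rw [avgSum_apply, avgSum_apply]
  rw [← Equiv.sum_comp (Equiv.mulRight q) (fun q' => (translQ 𝓑 U A q' f).1 1)]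
  refine Finset.sum_congr rfl fun q' _ => ?_
  rw [Equiv.coe_mulRight, map_mul]
  rfl

/-- `tr ∘ (q •) = tr`, degree 1. -/
theorem trH1_repH1 (q : G ⧸ U) (x : H1 (subBasis 𝓑 U) (resRep U A)) :
    trH1 𝓑 U hA (repH1 𝓑 U A q x) = trH1 𝓑 U hA x := by
  obtain ⟨y, rfl⟩ := (shapiro1Equiv 𝓑 U hA).surjective x
  induction q using QuotientGroup.induction_on with
  | H γ =>
    rw [← shapiro1Equiv_transl, trH1_shapiro1Equiv, trH1_shapiro1Equiv]
    obtain ⟨c, rfl⟩ := H1mk_surjective _ _ y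
    rw [mapH1_mk, mapH1_mk, mapH1_mk]
    congr 1
    apply Subtype.ext
    funext g
    exact avgSum_translQ 𝓑 U (γ : G ⧸ U) _

/-- `tr ∘ (q •) = tr`, degree 2. -/
theorem trH2_repH2 (q : G ⧸ U) (x : H2 (subBasis 𝓑 U) (resRep U A)) :
    trH2 𝓑 U hA (repH2 𝓑 U A q x) = trH2 𝓑 U hA x := by
  obtain ⟨y, rfl⟩ := (shapiro2Equiv 𝓑 U hA).surjective x
  induction q using QuotientGroup.induction_on with
  | H γ =>
    rw [← shapiro2Equiv_transl, trH2_shapiro2Equiv, trH2_shapiro2Equiv]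
    obtain ⟨c, rfl⟩ := H2mk_surjective _ _ y
    rw [mapH2_mk, mapH2_mk, mapH2_mk]
    congr 1
    apply Subtype.ext
    funext g
    exact avgSum_translQ 𝓑 U (γ : G ⧸ U) _

end Trace

/-! ### Naturality in the coefficients -/

section Natural

variable (𝓑 : LevelBasis G) (U : Subgroup G) [hU : U.Normal] {A B : Rep.{u} k G}
  (hA : IsDiscrete 𝓑.sets A) (hB : IsDiscrete 𝓑.sets B) [Fintype (G ⧸ U)]
  (φ : A →ₗ[k] B) (hφ : ∀ g a, φ (A.ρ g a) = B.ρ g (φ a))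

/-- Shapiro's isomorphism is natural in the coefficients, degree 1. -/
theorem shapiro1Equiv_coindMap (y : H1 𝓑 (coindRes 𝓑 U A)) :
    shapiro1Equiv 𝓑 U hB (mapH1 (𝓑 := 𝓑) (coindMap U φ hφ) (coindMap_equivariant U φ hφ) y) =
      mapResH1 𝓑 U φ hφ (shapiro1Equiv 𝓑 U hA y) :=
  sh1_natural U.subtype 𝓑 (subBasis 𝓑 U) (isLevelHom_subtype 𝓑 U) (resRep U A)
    (Y := resRep U B) φ (fun s a => hφ (s : G) a) y

/-- Shapiro's isomorphism is natural in the coefficients, degree 2. -/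
theorem shapiro2Equiv_coindMap (y : H2 𝓑 (coindRes 𝓑 U A)) :
    shapiro2Equiv 𝓑 U hB (mapH2 (𝓑 := 𝓑) (coindMap U φ hφ) (coindMap_equivariant U φ hφ) y) =
      mapResH2 𝓑 U φ hφ (shapiro2Equiv 𝓑 U hA y) :=
  sh2_natural U.subtype 𝓑 (subBasis 𝓑 U) (isLevelHom_subtype 𝓑 U) (resRep U A)
    (Y := resRep U B) φ (fun s a => hφ (s : G) a) y

/-- The trace is natural in the coefficients, degree 1. -/
theorem trH1_mapResH1 (x : H1 (subBasis 𝓑 U) (resRep U A)) :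
    trH1 𝓑 U hB (mapResH1 𝓑 U φ hφ x) = mapH1 (𝓑 := 𝓑) φ hφ (trH1 𝓑 U hA x) := by
  obtain ⟨y, rfl⟩ := (shapiro1Equiv 𝓑 U hA).surjective x
  rw [← shapiro1Equiv_coindMap 𝓑 U hA hB, trH1_shapiro1Equiv, trH1_shapiro1Equiv]
  obtain ⟨c, rfl⟩ := H1mk_surjective _ _ y
  rw [mapH1_mk, mapH1_mk, mapH1_mk, mapH1_mk]
  congr 1
  apply Subtype.ext
  funext g
  exact avgSum_coindMap U φ hφ _

/-- The trace is natural in the coefficients, degree 2. -/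
theorem trH2_mapResH2 (x : H2 (subBasis 𝓑 U) (resRep U A)) :
    trH2 𝓑 U hB (mapResH2 𝓑 U φ hφ x) = mapH2 (𝓑 := 𝓑) φ hφ (trH2 𝓑 U hA x) := by
  obtain ⟨y, rfl⟩ := (shapiro2Equiv 𝓑 U hA).surjective x
  rw [← shapiro2Equiv_coindMap 𝓑 U hA hB, trH2_shapiro2Equiv, trH2_shapiro2Equiv]
  obtain ⟨c, rfl⟩ := H2mk_surjective _ _ y
  rw [mapH2_mk, mapH2_mk, mapH2_mk, mapH2_mk]
  congr 1
  apply Subtype.ext
  funext g
  exact avgSum_coindMap U φ hφ _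

end Natural

end Fermat.Agent.TW.GLOB.TraceLevel5
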