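/-
Programme T (S56, Taylor–Wiles primes), chapter GLOB, task T7 (Tate's global Euler–Poincaré
formula), framework brick — helper5.

**The "Mackey" module `Fun(G/U, A)`.**  `G` a group, `U ≤ G` normal, `r : H →* G` a homomorphism
(`H` = a decomposition group), `A` an `H`-module.  `FunQ U r A` is the `H`-module of all functions
`ν : G ⧸ U → A` with `(h ν)(x) = h • ν (r̄(h)⁻¹ x)`; it carries the commuting action of `G ⧸ U` by
right translations `rightTr γ`, the `H`-equivariant idempotents `piT T` (restriction to a subset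
`T ⊆ G ⧸ U` stable under left multiplication by `r̄(H)`), the `H`-equivariant sum `sumQ`, and the
comparison `toLoc`/`ofLoc` of the functions supported on `r̄(H)` with the local coinduced module
`Coind_{U'}^{H} A`, `U' = r⁻¹ U`:

* `toLoc ∘ ofLoc = id`, `ofLoc ∘ toLoc = piT (range r̄)`;
* `toLoc ∘ rightTr (r̄ h₀) = transl h₀ ∘ toLoc`;
* `sumQ ∘ piT (range r̄) = avgSum ∘ toLoc`.
-/
import Mathlib
import Fermat.Agent.TW.GLOB.TraceLevel5

set_option autoImplicit false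
set_option linter.unusedSectionVars false

universe u

open CategoryTheory groupCohomology
open Fermat.Agent.PT.PRO.LevelCoh28 Fermat.Agent.PT.PRO.LevelCohRes28
  Fermat.Agent.PT.PRO.SmoothCoind28 Fermat.Agent.PT.PRO.ShapiroLevel28
  Fermat.Agent.TW.GLOB.SubLevel5 Fermat.Agent.TW.GLOB.ShapiroConj5
  Fermat.Agent.TW.GLOB.ResInvariants5

namespace Fermat.Agent.TW.GLOB.FunQ5

variable {k G H : Type u} [CommRing k] [Group G] [Group H]

/-! ### The module -/

section Basic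

variable (U : Subgroup G) [hU : U.Normal] (r : H →* G) (A : Rep.{u} k H)

/-- `r̄ : H → G ⧸ U`. -/
def rbar : H →* G ⧸ U := (QuotientGroup.mk' U).comp r

@[simp] theorem rbar_apply (h : H) : rbar U r h = ((r h : G) : G ⧸ U) := rfl

/-- The action on functions. -/
def funρ : Representation k H ((G ⧸ U) → A) where
  toFun h :=
    { toFun := fun ν x => A.ρ h (ν ((rbar U r h)⁻¹ * x))
      map_add' := fun ν ν' => by
        funext x
        simp only [Pi.add_apply, map_add]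
      map_smul' := fun c ν => by
        funext x
        simp only [Pi.smul_apply, map_smul, RingHom.id_apply] }
  map_one' := by
    refine LinearMap.ext fun ν => funext fun x => ?_
    show A.ρ 1 (ν ((rbar U r 1)⁻¹ * x)) = ν x
    rw [map_one, map_one, inv_one, one_mul]
    rfl
  map_mul' h h' := by
    refine LinearMap.ext fun ν => funext fun x => ?_
    show A.ρ (h * h') (ν ((rbar U r (h * h'))⁻¹ * x)) =
      A.ρ h (A.ρ h' (ν ((rbar U r h')⁻¹ * ((rbar U r h)⁻¹ * x))))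
    rw [map_mul, map_mul, mul_inv_rev, mul_assoc]
    rfl

/-- `Fun(G ⧸ U, A)` as an `H`-module. -/
noncomputable def FunQ : Rep.{u} k H := Rep.of (funρ U r A)

/-- The underlying functions. -/
noncomputable def fe : FunQ U r A ≃ₗ[k] ((G ⧸ U) → A) := LinearEquiv.refl k _

@[simp] theorem fe_ρ (h : H) (ν : FunQ U r A) (x : G ⧸ U) :
    fe U r A ((FunQ U r A).ρ h ν) x = A.ρ h (fe U r A ν ((rbar U r h)⁻¹ * x)) := rfl

@[simp] theorem fe_symm_apply (f : (G ⧸ U) → A) (x : G ⧸ U) :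
    fe U r A ((fe U r A).symm f) x = f x := rfl

theorem fe_injective : Function.Injective (fe U r A) := (fe U r A).injective

/-- `Fun(G ⧸ U, A)` is discrete if `A` is and `U' = r⁻¹ U` is open. -/
theorem isDiscrete_FunQ [Finite (G ⧸ U)] {𝓑H : LevelBasis H} (hA : IsDiscrete 𝓑H.sets A)
    (hopen : ∃ V ∈ 𝓑H.sets, V ≤ U.comap r) : IsDiscrete 𝓑H.sets (FunQ U r A) := by
  intro ν
  obtain ⟨V, hV, -, hfix⟩ := hA.exists_fixing 𝓑H.isBasis
    (Set.finite_range (fe U r A ν))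
  obtain ⟨V₀, hV₀, hV₀U⟩ := hopen
  obtain ⟨W, hW, hWle⟩ := 𝓑H.isBasis.directed V hV V₀ hV₀
  refine ⟨W, hW, fun s hs => ?_⟩
  apply fe_injective
  funext x
  have h1 : rbar U r s = 1 := by
    rw [rbar_apply, QuotientGroup.eq_one_iff]
    exact hV₀U ((hWle.trans inf_le_right) hs)
  rw [fe_ρ, h1, inv_one, one_mul]
  exact hfix s ((hWle.trans inf_le_left) hs) _ ⟨x, rfl⟩

end Basic

/-! ### Right translations, restriction to subsets, the sum -/

section Ops

variable (U : Subgroup G) [hU : U.Normal] (r : H →* G) (A : Rep.{u} k H)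

/-- `(R_γ ν)(x) = ν (x γ)`. -/
noncomputable def rightTr (γ : G ⧸ U) : FunQ U r A →ₗ[k] FunQ U r A :=
  (fe U r A).symm.toLinearMap ∘ₗ (LinearMap.funLeft k A (fun x : G ⧸ U => x * γ)) ∘ₗ
    (fe U r A).toLinearMap

@[simp] theorem fe_rightTr (γ : G ⧸ U) (ν : FunQ U r A) (x : G ⧸ U) :
    fe U r A (rightTr U r A γ ν) x = fe U r A ν (x * γ) := rfl

theorem rightTr_equivariant (γ : G ⧸ U) (h : H) (ν : FunQ U r A) :
    rightTr U r A γ ((FunQ U r A).ρ h ν) = (FunQ U r A).ρ h (rightTr U r A γ ν) := by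
  apply fe_injective
  funext x
  rw [fe_rightTr, fe_ρ, fe_ρ, fe_rightTr, mul_assoc]

theorem rightTr_mul (γ γ' : G ⧸ U) (ν : FunQ U r A) :
    rightTr U r A (γ * γ') ν = rightTr U r A γ (rightTr U r A γ' ν) := by
  apply fe_injective
  funext x
  rw [fe_rightTr, fe_rightTr, fe_rightTr, mul_assoc]

theorem rightTr_one (ν : FunQ U r A) : rightTr U r A 1 ν = ν := by
  apply fe_injective
  funext x
  rw [fe_rightTr, mul_one]

open Classical in
/-- Restriction to the subset `T`, extended by zero. -/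
noncomputable def piT (T : Set (G ⧸ U)) : FunQ U r A →ₗ[k] FunQ U r A :=
  (fe U r A).symm.toLinearMap ∘ₗ
    { toFun := fun f x => if x ∈ T then f x else 0
      map_add' := fun f f' => by
        funext x
        by_cases hx : x ∈ T <;> simp [hx]
      map_smul' := fun c f => by
        funext x
        by_cases hx : x ∈ T <;> simp [hx] } ∘ₗ (fe U r A).toLinearMap

open Classical in
theorem fe_piT (T : Set (G ⧸ U)) (ν : FunQ U r A) (x : G ⧸ U) :
    fe U r A (piT U r A T ν) x = if x ∈ T then fe U r A ν x else 0 := rfl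

theorem fe_piT_of_mem {T : Set (G ⧸ U)} (ν : FunQ U r A) {x : G ⧸ U} (hx : x ∈ T) :
    fe U r A (piT U r A T ν) x = fe U r A ν x := by
  rw [fe_piT, if_pos hx]

theorem fe_piT_of_notMem {T : Set (G ⧸ U)} (ν : FunQ U r A) {x : G ⧸ U} (hx : x ∉ T) :
    fe U r A (piT U r A T ν) x = 0 := by
  rw [fe_piT, if_neg hx]

/-- `T` is stable under left multiplication by `r̄(H)`. -/
def IsStable (T : Set (G ⧸ U)) : Prop := ∀ (h : H) (x : G ⧸ U), rbar U r h * x ∈ T ↔ x ∈ T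

variable {U r} in
theorem IsStable.inv_mul_mem_iff {T : Set (G ⧸ U)} (hT : IsStable U r T) (h : H) (x : G ⧸ U) :
    (rbar U r h)⁻¹ * x ∈ T ↔ x ∈ T := by
  rw [← hT h ((rbar U r h)⁻¹ * x), mul_inv_cancel_left]

theorem piT_equivariant {T : Set (G ⧸ U)} (hT : IsStable U r T) (h : H) (ν : FunQ U r A) :
    piT U r A T ((FunQ U r A).ρ h ν) = (FunQ U r A).ρ h (piT U r A T ν) := by
  apply fe_injective
  funext x
  rw [fe_ρ]
  by_cases hx : x ∈ T
  · rw [fe_piT_of_mem U r A _ hx, fe_piT_of_mem U r A _ ((hT.inv_mul_mem_iff h x).2 hx), fe_ρ]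
  · rw [fe_piT_of_notMem U r A _ hx, fe_piT_of_notMem U r A _ (fun h' => hx ((hT.inv_mul_mem_iff h x).1 h')),
      map_zero]

theorem piT_piT (T T' : Set (G ⧸ U)) (ν : FunQ U r A) :
    piT U r A T (piT U r A T' ν) = piT U r A (T ∩ T') ν := by
  apply fe_injective
  funext x
  by_cases hx : x ∈ T
  · rw [fe_piT_of_mem U r A _ hx]
    by_cases hx' : x ∈ T'
    · rw [fe_piT_of_mem U r A _ hx', fe_piT_of_mem U r A _ (Set.mem_inter hx hx')]
    · rw [fe_piT_of_notMem U r A _ hx', fe_piT_of_notMem U r A _ (fun h => hx' h.2)]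
  · rw [fe_piT_of_notMem U r A _ hx, fe_piT_of_notMem U r A _ (fun h => hx h.1)]

theorem piT_univ (ν : FunQ U r A) : piT U r A Set.univ ν = ν := by
  apply fe_injective
  funext x
  rw [fe_piT_of_mem U r A _ (Set.mem_univ x)]

theorem piT_empty (ν : FunQ U r A) : piT U r A ∅ ν = 0 := by
  apply fe_injective
  funext x
  rw [fe_piT_of_notMem U r A _ (Set.notMem_empty x)]
  rfl

/-- `R_γ ∘ π_T = π_{T γ⁻¹} ∘ R_γ`. -/
theorem rightTr_piT (γ : G ⧸ U) (T : Set (G ⧸ U)) (ν : FunQ U r A) :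
    rightTr U r A γ (piT U r A T ν) =
      piT U r A ((fun x => x * γ) ⁻¹' T) (rightTr U r A γ ν) := by
  apply fe_injective
  funext x
  rw [fe_rightTr]
  by_cases hx : x * γ ∈ T
  · rw [fe_piT_of_mem U r A _ hx, fe_piT_of_mem U r A (T := (fun x => x * γ) ⁻¹' T) _ hx, fe_rightTr]
  · rw [fe_piT_of_notMem U r A _ hx, fe_piT_of_notMem U r A (T := (fun x => x * γ) ⁻¹' T) _ hx]

/-- The sum of the `π_T` over a partition is the identity. -/
theorem sum_piT {ι : Type*} [Fintype ι] (T : ι → Set (G ⧸ U))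
    (hT : ∀ x : G ⧸ U, ∃! i, x ∈ T i) (ν : FunQ U r A) :
    ∑ i, piT U r A (T i) ν = ν := by
  apply fe_injective
  funext x
  rw [map_sum, Finset.sum_apply]
  obtain ⟨i, hi, huniq⟩ := hT x
  rw [Finset.sum_eq_single i]
  · exact fe_piT_of_mem U r A _ hi
  · intro j _ hj
    exact fe_piT_of_notMem U r A _ (fun h => hj (huniq j h))
  · intro h
    exact absurd (Finset.mem_univ i) h

variable [Fintype (G ⧸ U)]

/-- `ν ↦ ∑_x ν x`. -/
noncomputable def sumQ : FunQ U r A →ₗ[k] A :=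
  (∑ x : G ⧸ U, LinearMap.proj (R := k) (φ := fun _ : G ⧸ U => (A : Type u)) x) ∘ₗ
    (fe U r A).toLinearMap

theorem sumQ_apply (ν : FunQ U r A) : sumQ U r A ν = ∑ x : G ⧸ U, fe U r A ν x := by
  simp [sumQ]

theorem sumQ_equivariant (h : H) (ν : FunQ U r A) :
    sumQ U r A ((FunQ U r A).ρ h ν) = A.ρ h (sumQ U r A ν) := by
  rw [sumQ_apply, sumQ_apply, map_sum]
  exact Fintype.sum_equiv (Equiv.mulLeft (rbar U r h)⁻¹) _ _ (fun x => by rw [fe_ρ]; rfl)

theorem sumQ_rightTr (γ : G ⧸ U) (ν : FunQ U r A) :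
    sumQ U r A (rightTr U r A γ ν) = sumQ U r A ν := by
  rw [sumQ_apply, sumQ_apply]
  rw [← Equiv.sum_comp (Equiv.mulRight γ) (fun x => fe U r A ν x)]
  rfl

end Ops

/-! ### The functions supported on `r̄(H)` and the local coinduced module -/

section Loc

variable (U : Subgroup G) [hU : U.Normal] (r : H →* G) (A : Rep.{u} k H) (𝓑H : LevelBasis H)

/-- The image of `H` in `G ⧸ U`. -/
def Dset : Set (G ⧸ U) := Set.range (rbar U r)

theorem isStable_Dset : IsStable U r (Dset U r) := by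
  intro h x
  constructor
  · rintro ⟨h', hh'⟩
    exact ⟨h⁻¹ * h', by rw [map_mul, map_inv, hh', inv_mul_cancel_left]⟩
  · rintro ⟨h', rfl⟩
    exact ⟨h * h', map_mul _ _ _⟩

variable {U r} in
/-- Right translates of a stable set are stable. -/
theorem IsStable.preimage_mulRight {T : Set (G ⧸ U)} (hT : IsStable U r T) (γ : G ⧸ U) :
    IsStable U r ((fun x => x * γ) ⁻¹' T) := by
  intro h x
  show rbar U r h * x * γ ∈ T ↔ x * γ ∈ T
  rw [mul_assoc]
  exact hT h (x * γ)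

/-- `U' = r⁻¹ U`. -/
abbrev Uloc : Subgroup H := U.comap r

theorem rbar_eq_one_iff (h : H) : rbar U r h = 1 ↔ h ∈ Uloc U r := by
  rw [rbar_apply, QuotientGroup.eq_one_iff]
  rfl

theorem rbar_eq_iff (h h' : H) : rbar U r h = rbar U r h' ↔ h'⁻¹ * h ∈ Uloc U r := by
  rw [← rbar_eq_one_iff, map_mul, map_inv, inv_mul_eq_one, eq_comm]

variable (hA : IsDiscrete 𝓑H.sets A) (hopen : ∃ V ∈ 𝓑H.sets, V ≤ U.comap r)

/-- `ν ↦ (h ↦ h • ν (r̄(h)⁻¹))`, from `Fun(G ⧸ U, A)` to `Coind_{U'}^H A`. -/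
noncomputable def toLoc [Finite (G ⧸ U)] : FunQ U r A →ₗ[k] coindRes 𝓑H (Uloc U r) A where
  toFun ν := ⟨fun h => A.ρ h (fe U r A ν (rbar U r h)⁻¹), by
    refine ⟨fun s h => ?_, ?_⟩
    · show A.ρ ((s : H) * h) (fe U r A ν (rbar U r ((s : H) * h))⁻¹) =
        A.ρ (s : H) (A.ρ h (fe U r A ν (rbar U r h)⁻¹))
      have h1 : rbar U r (s : H) = 1 := (rbar_eq_one_iff U r _).2 s.2
      rw [map_mul, map_mul, h1, one_mul]
      rfl
    · obtain ⟨V, hV, -, hfix⟩ := hA.exists_fixing 𝓑H.isBasis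
        (Set.finite_range (fe U r A ν))
      obtain ⟨V₀, hV₀, hV₀U⟩ := hopen
      obtain ⟨W, hW, hWle⟩ := 𝓑H.isBasis.directed V hV V₀ hV₀
      refine ⟨W, hW, fun h s hs => ?_⟩
      show A.ρ (h * s) (fe U r A ν (rbar U r (h * s))⁻¹) = A.ρ h (fe U r A ν (rbar U r h)⁻¹)
      have h1 : rbar U r s = 1 :=
        (rbar_eq_one_iff U r _).2 (hV₀U ((hWle.trans inf_le_right) hs))
      rw [map_mul, map_mul, h1, mul_one, Module.End.mul_apply,
        hfix s ((hWle.trans inf_le_left) hs) _ ⟨_, rfl⟩]⟩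
  map_add' ν ν' := Subtype.ext (funext fun h => by
    show A.ρ h (fe U r A (ν + ν') (rbar U r h)⁻¹) = _
    rw [map_add, Pi.add_apply, map_add]
    rfl)
  map_smul' c ν := Subtype.ext (funext fun h => by
    show A.ρ h (fe U r A (c • ν) (rbar U r h)⁻¹) = _
    rw [map_smul, Pi.smul_apply, map_smul]
    rfl)

@[simp] theorem toLoc_apply [Finite (G ⧸ U)] (ν : FunQ U r A) (h : H) :
    (toLoc U r A 𝓑H hA hopen ν).1 h = A.ρ h (fe U r A ν (rbar U r h)⁻¹) := rfl

theorem toLoc_equivariant [Finite (G ⧸ U)] (h₀ : H) (ν : FunQ U r A) :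
    toLoc U r A 𝓑H hA hopen ((FunQ U r A).ρ h₀ ν) =
      (coindRes 𝓑H (Uloc U r) A).ρ h₀ (toLoc U r A 𝓑H hA hopen ν) := by
  refine Subtype.ext (funext fun h => ?_)
  show A.ρ h (fe U r A ((FunQ U r A).ρ h₀ ν) (rbar U r h)⁻¹) =
    A.ρ (h * h₀) (fe U r A ν (rbar U r (h * h₀))⁻¹)
  rw [fe_ρ, map_mul, map_mul, mul_inv_rev]
  rfl

/-- `toLoc` kills the functions vanishing on `r̄(H)`. -/
theorem toLoc_piT_Dset [Finite (G ⧸ U)] (ν : FunQ U r A) :
    toLoc U r A 𝓑H hA hopen (piT U r A (Dset U r) ν) = toLoc U r A 𝓑H hA hopen ν := by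
  refine Subtype.ext (funext fun h => ?_)
  rw [toLoc_apply, toLoc_apply, fe_piT_of_mem]
  exact ⟨h⁻¹, map_inv _ _⟩

open Classical in
/-- `f ↦ (r̄(h)⁻¹ ↦ h⁻¹ • f h)`, extended by zero outside `r̄(H)`. -/
noncomputable def ofLoc : coindRes 𝓑H (Uloc U r) A →ₗ[k] FunQ U r A :=
  (fe U r A).symm.toLinearMap ∘ₗ
    { toFun := fun f x =>
        if hx : ∃ h : H, (rbar U r h)⁻¹ = x then A.ρ hx.choose⁻¹ (f.1 hx.choose) else 0
      map_add' := fun f f' => by
        funext x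
        by_cases hx : ∃ h : H, (rbar U r h)⁻¹ = x
        · simp only [dif_pos hx, Pi.add_apply]
          rw [← map_add]
          rfl
        · simp only [dif_neg hx, Pi.add_apply, add_zero]
      map_smul' := fun c f => by
        funext x
        by_cases hx : ∃ h : H, (rbar U r h)⁻¹ = x
        · simp only [dif_pos hx, Pi.smul_apply, RingHom.id_apply]
          rw [← map_smul]
          rfl
        · simp only [dif_neg hx, Pi.smul_apply, smul_zero] }

/-- The value of `ofLoc f` at `r̄(h)⁻¹`. -/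
theorem fe_ofLoc_rbar (f : coindRes 𝓑H (Uloc U r) A) (h : H) :
    fe U r A (ofLoc U r A 𝓑H f) (rbar U r h)⁻¹ = A.ρ h⁻¹ (f.1 h) := by
  have hx : ∃ h' : H, (rbar U r h')⁻¹ = (rbar U r h)⁻¹ := ⟨h, rfl⟩
  have h1 : fe U r A (ofLoc U r A 𝓑H f) (rbar U r h)⁻¹ =
      A.ρ hx.choose⁻¹ (f.1 hx.choose) := dif_pos hx
  rw [h1]
  have h2 : rbar U r hx.choose = rbar U r h := inv_injective hx.choose_spec
  have h3 : h⁻¹ * hx.choose ∈ Uloc U r := (rbar_eq_iff U r _ _).1 h2
  -- `choose = h * s` with `s ∈ U'`; write `choose = s' * h` with `s' = h s h⁻¹ ∈ U'`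
  have h4 : hx.choose * h⁻¹ ∈ Uloc U r := by
    have := (inferInstance : (Uloc U r).Normal).conj_mem _ h3 h
    simpa [mul_assoc] using this
  have h5 : f.1 hx.choose = A.ρ (hx.choose * h⁻¹) (f.1 h) := by
    have := f.2.1 ⟨hx.choose * h⁻¹, h4⟩ h
    rw [Subgroup.coe_subtype] at this
    simpa [mul_assoc] using this
  rw [h5, ← Module.End.mul_apply, ← map_mul]
  congr 2
  group

theorem fe_ofLoc_of_notMem (f : coindRes 𝓑H (Uloc U r) A) {x : G ⧸ U} (hx : x ∉ Dset U r) :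
    fe U r A (ofLoc U r A 𝓑H f) x = 0 := by
  have hx' : ¬ ∃ h : H, (rbar U r h)⁻¹ = x := by
    rintro ⟨h, rfl⟩
    exact hx ⟨h⁻¹, map_inv _ _⟩
  exact dif_neg hx'

theorem ofLoc_equivariant (h₀ : H) (f : coindRes 𝓑H (Uloc U r) A) :
    ofLoc U r A 𝓑H ((coindRes 𝓑H (Uloc U r) A).ρ h₀ f) =
      (FunQ U r A).ρ h₀ (ofLoc U r A 𝓑H f) := by
  apply fe_injective
  funext x
  rw [fe_ρ]
  by_cases hx : x ∈ Dset U r
  · obtain ⟨h, rfl⟩ := hx
    have e1 : rbar U r h = (rbar U r h⁻¹)⁻¹ := by rw [map_inv, inv_inv]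
    have e2 : (rbar U r h₀)⁻¹ * rbar U r h = (rbar U r (h⁻¹ * h₀))⁻¹ := by
      rw [map_mul, map_inv, mul_inv_rev, inv_inv]
    rw [e2, fe_ofLoc_rbar, e1, fe_ofLoc_rbar, ← Module.End.mul_apply, ← map_mul]
    show A.ρ (h⁻¹)⁻¹ (f.1 (h⁻¹ * h₀)) = A.ρ (h₀ * (h⁻¹ * h₀)⁻¹) (f.1 (h⁻¹ * h₀))
    congr 2
    group
  · have hx' : (rbar U r h₀)⁻¹ * x ∉ Dset U r :=
      fun h' => hx (((isStable_Dset U r).inv_mul_mem_iff h₀ x).1 h')
    rw [fe_ofLoc_of_notMem _ _ _ _ _ hx, fe_ofLoc_of_notMem _ _ _ _ _ hx', map_zero]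

theorem toLoc_ofLoc [Finite (G ⧸ U)] (f : coindRes 𝓑H (Uloc U r) A) :
    toLoc U r A 𝓑H hA hopen (ofLoc U r A 𝓑H f) = f := by
  refine Subtype.ext (funext fun h => ?_)
  rw [toLoc_apply, fe_ofLoc_rbar, ← Module.End.mul_apply, ← map_mul, mul_inv_cancel, map_one]
  rfl

theorem ofLoc_toLoc [Finite (G ⧸ U)] (ν : FunQ U r A) :
    ofLoc U r A 𝓑H (toLoc U r A 𝓑H hA hopen ν) = piT U r A (Dset U r) ν := by
  apply fe_injective
  funext x
  by_cases hx : x ∈ Dset U r
  · obtain ⟨h, rfl⟩ := hx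
    have e1 : rbar U r h = (rbar U r h⁻¹)⁻¹ := by rw [map_inv, inv_inv]
    rw [fe_piT_of_mem U r A (T := Dset U r) ν ⟨h, rfl⟩]
    conv_lhs => rw [e1]
    rw [fe_ofLoc_rbar, toLoc_apply, ← Module.End.mul_apply, ← map_mul, inv_inv, mul_inv_cancel,
      map_one, ← e1]
    rfl
  · rw [fe_ofLoc_of_notMem _ _ _ _ _ hx, fe_piT_of_notMem _ _ _ _ hx]

include hA hopen in
theorem piT_Dset_ofLoc [Finite (G ⧸ U)] (f : coindRes 𝓑H (Uloc U r) A) :
    piT U r A (Dset U r) (ofLoc U r A 𝓑H f) = ofLoc U r A 𝓑H f := by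
  rw [← ofLoc_toLoc U r A 𝓑H hA hopen, toLoc_ofLoc]

/-- Right translation by `r̄(h₀)` corresponds to the local translation `T_{h₀}`. -/
theorem toLoc_rightTr [Finite (G ⧸ U)] (h₀ : H) (ν : FunQ U r A) :
    toLoc U r A 𝓑H hA hopen (rightTr U r A (rbar U r h₀) ν) =
      transl 𝓑H (Uloc U r) A h₀ (toLoc U r A 𝓑H hA hopen ν) := by
  refine Subtype.ext (funext fun h => ?_)
  rw [toLoc_apply, transl_apply, toLoc_apply, fe_rightTr, ← Module.End.mul_apply, ← map_mul,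
    mul_inv_cancel_left, map_mul, map_inv, mul_inv_rev, inv_inv]

end Loc

/-! ### The sum over `r̄(H)` is the local trace -/

section SumLoc

variable (U : Subgroup G) [hU : U.Normal] (r : H →* G) (A : Rep.{u} k H) (𝓑H : LevelBasis H)
  (hA : IsDiscrete 𝓑H.sets A) (hopen : ∃ V ∈ 𝓑H.sets, V ≤ U.comap r)

/-- The injection `H ⧸ U' → G ⧸ U`. -/
def rbarQ : H ⧸ Uloc U r →* G ⧸ U := QuotientGroup.map (Uloc U r) U r le_rfl

theorem rbarQ_mk (h : H) : rbarQ U r (h : H ⧸ Uloc U r) = rbar U r h := rfl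

theorem rbarQ_injective : Function.Injective (rbarQ U r) := by
  rw [injective_iff_map_eq_one]
  intro q hq
  induction q using QuotientGroup.induction_on with
  | H h =>
    rw [rbarQ_mk, rbar_eq_one_iff] at hq
    exact (QuotientGroup.eq_one_iff h).2 hq

theorem mem_Dset_iff (x : G ⧸ U) : x ∈ Dset U r ↔ ∃ q : H ⧸ Uloc U r, rbarQ U r q = x := by
  constructor
  · rintro ⟨h, rfl⟩
    exact ⟨(h : H ⧸ Uloc U r), rfl⟩
  · rintro ⟨q, rfl⟩
    induction q using QuotientGroup.induction_on with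
    | H h => exact ⟨h, rfl⟩

theorem translQ_toLoc_one [Finite (G ⧸ U)] (q : H ⧸ Uloc U r) (ν : FunQ U r A) :
    (translQ 𝓑H (Uloc U r) A q (toLoc U r A 𝓑H hA hopen ν)).1 1 =
      fe U r A ν (rbarQ U r q) := by
  induction q using QuotientGroup.induction_on with
  | H h₀ =>
    rw [translQ_mk, transl_apply, toLoc_apply, mul_one, ← Module.End.mul_apply, ← map_mul,
      mul_inv_cancel, map_one, map_inv, inv_inv, rbarQ_mk]
    rfl

/-- `∑_{x ∈ r̄(H)} ν x` is the local trace of `toLoc ν`. -/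
theorem sumQ_piT_Dset [Fintype (G ⧸ U)] [Fintype (H ⧸ Uloc U r)] (ν : FunQ U r A) :
    sumQ U r A (piT U r A (Dset U r) ν) =
      avgSum 𝓑H (Uloc U r) A (toLoc U r A 𝓑H hA hopen ν) := by
  classical
  rw [sumQ_apply, avgSum_apply]
  have h1 : ∀ q : H ⧸ Uloc U r,
      (translQ 𝓑H (Uloc U r) A q (toLoc U r A 𝓑H hA hopen ν)).1 1 =
        fe U r A ν (rbarQ U r q) := fun q => translQ_toLoc_one U r A 𝓑H hA hopen q ν
  rw [Finset.sum_congr rfl fun q _ => h1 q]
  have h2 : ∀ x : G ⧸ U, fe U r A (piT U r A (Dset U r) ν) x =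
      if x ∈ Dset U r then fe U r A ν x else 0 := by
    intro x
    by_cases hx : x ∈ Dset U r
    · rw [fe_piT_of_mem U r A ν hx, if_pos hx]
    · rw [fe_piT_of_notMem U r A ν hx, if_neg hx]
  rw [Finset.sum_congr rfl fun x _ => h2 x, ← Finset.sum_filter]
  have h3 : Finset.univ.filter (fun x : G ⧸ U => x ∈ Dset U r) =
      Finset.univ.map ⟨rbarQ U r, rbarQ_injective U r⟩ := by
    ext x
    simp only [Finset.mem_filter, Finset.mem_univ, true_and, Finset.mem_map,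
      Function.Embedding.coeFn_mk]
    exact mem_Dset_iff U r x
  rw [h3, Finset.sum_map]
  rfl

end SumLoc

end Fermat.Agent.TW.GLOB.FunQ5
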