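/-
Programme T, chapter GLOB, task G3 (IND), brick 4: Jordan–Hölder for additive invariants and the
main lemma "additive invariants only see eigenvalue multiplicities".

* `IsSimpleRep`, `SimpleRep`, `RepIso`: explicit irreducibility, bundled simple representations,
  equivariant isomorphism as a proposition;
* `exists_simple_decomposition`: the value of an additive invariant on a finite-dimensional
  representation is a sum of its values on simple representations;
* `sum_smul_eq_zero_of_mult` (**main lemma**): `k` a finite field of characteristic `p`, `G`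
  finite, `K ⊇ k` containing a primitive root of unity `ξ` of order the `p'`-part of `|G|`.  If
  `∑ j, c j * mult K ξ (ρ j) g l = 0` for all `p`-regular `g` and all `l`, then
  `∑ j, c j • φ (ρ j) = 0` for every additive invariant `φ`.
Mathlib + IndDefs9 + BrauerLI9.
-/
import Mathlib
import Fermat.Agent.TW.GLOB.IndDefs9
import Fermat.Agent.TW.GLOB.BrauerLI9

namespace Fermat.Agent.TW.GLOB.AddInv9

open Module
open Fermat.Agent.TW.GLOB.IndDefs9 Fermat.Agent.TW.GLOB.BrauerLI9

universe u v w w'

section simple

variable {k : Type v} {G : Type u} [Field k] [Group G]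

/-- Irreducibility of a representation, in explicit form: the space is nonzero and the only
invariant subspaces are `⊥` and `⊤`. -/
def IsSimpleRep {V : Type*} [AddCommGroup V] [Module k V] (ρ : Representation k G V) : Prop :=
  Nontrivial V ∧ ∀ W : Submodule k V, (∀ g, W ≤ W.comap (ρ g)) → W = ⊥ ∨ W = ⊤

theorem IsSimpleRep.isSimpleModule {V : Type*} [AddCommGroup V] [Module k V]
    {ρ : Representation k G V} (h : IsSimpleRep ρ) :
    IsSimpleModule (MonoidAlgebra k G) ρ.asModule := by
  rw [← Representation.irreducible_iff_isSimpleModule_asModule]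
  have := h.1
  refine { exists_pair_ne := ⟨⊥, ⊤, ?_⟩, eq_bot_or_eq_top := ?_ }
  · intro hbt
    have : (⊥ : Submodule k V) = ⊤ := congrArg Subrepresentation.toSubmodule hbt
    exact bot_ne_top this
  · intro W
    rcases h.2 W.toSubmodule (fun g v hv => W.apply_mem_toSubmodule g hv) with h0 | h1
    · left; exact Subrepresentation.toSubmodule_injective h0
    · right; exact Subrepresentation.toSubmodule_injective h1

/-- Equivariant isomorphism of representations, as a proposition. -/
def RepIso {V W : Type*} [AddCommGroup V] [Module k V] [AddCommGroup W] [Module k W]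
    (ρ : Representation k G V) (σ : Representation k G W) : Prop :=
  ∃ e : V ≃ₗ[k] W, ∀ g v, e (ρ g v) = σ g (e v)

theorem RepIso.refl {V : Type*} [AddCommGroup V] [Module k V] (ρ : Representation k G V) :
    RepIso ρ ρ := ⟨LinearEquiv.refl k V, fun _ _ => rfl⟩

theorem RepIso.symm {V W : Type*} [AddCommGroup V] [Module k V] [AddCommGroup W] [Module k W]
    {ρ : Representation k G V} {σ : Representation k G W} (h : RepIso ρ σ) : RepIso σ ρ := by
  obtain ⟨e, he⟩ := h
  refine ⟨e.symm, fun g w => ?_⟩
  apply e.injective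
  rw [he, e.apply_symm_apply, e.apply_symm_apply]

theorem RepIso.trans {V W U : Type*} [AddCommGroup V] [Module k V] [AddCommGroup W] [Module k W]
    [AddCommGroup U] [Module k U]
    {ρ : Representation k G V} {σ : Representation k G W} {τ : Representation k G U}
    (h : RepIso ρ σ) (h' : RepIso σ τ) : RepIso ρ τ := by
  obtain ⟨e, he⟩ := h
  obtain ⟨e', he'⟩ := h'
  exact ⟨e.trans e', fun g v => by simp [he, he']⟩

/-- A nonzero `k[G]`-linear map between simple modules gives an isomorphism of representations. -/
theorem repIso_of_linearMap_ne_zero {V W : Type*} [AddCommGroup V] [Module k V] [AddCommGroup W]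
    [Module k W] {ρ : Representation k G V} {σ : Representation k G W}
    [IsSimpleModule (MonoidAlgebra k G) ρ.asModule] [IsSimpleModule (MonoidAlgebra k G) σ.asModule]
    (f : ρ.asModule →ₗ[MonoidAlgebra k G] σ.asModule) (hf : f ≠ 0) : RepIso ρ σ := by
  let e : ρ.asModule ≃ₗ[MonoidAlgebra k G] σ.asModule :=
    LinearEquiv.ofBijective f (LinearMap.bijective_of_ne_zero hf)
  refine ⟨e.restrictScalars k, fun g v => ?_⟩
  have h1 : (MonoidAlgebra.single g (1:k) : MonoidAlgebra k G) • (show ρ.asModule from v)
      = ρ g v := by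
    rw [Representation.single_smul, one_smul]; rfl
  have h2 : (MonoidAlgebra.single g (1:k) : MonoidAlgebra k G) • (e (show ρ.asModule from v))
      = σ g (e v) := by
    rw [Representation.single_smul, one_smul]; rfl
  change e (ρ g v) = σ g (e v)
  rw [← h1, ← h2, map_smul]

/-- A bundled finite-dimensional simple representation (in the universe of the group). -/
structure SimpleRep (k : Type v) (G : Type u) [Field k] [Group G] : Type (max (u+1) v) where
  /-- the underlying space -/
  V : Type u
  [acg : AddCommGroup V]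
  [mod : Module k V]
  [fin : Module.Finite k V]
  /-- the action -/
  ρ : Representation k G V
  simple : IsSimpleRep ρ

attribute [instance] SimpleRep.acg SimpleRep.mod SimpleRep.fin

/-- Every nonzero finite-dimensional representation contains a simple subrepresentation. -/
theorem exists_simple_sub {V : Type*} [AddCommGroup V] [Module k V] [Module.Finite k V]
    [Nontrivial V] (ρ : Representation k G V) :
    ∃ (W : Submodule k V) (hW : ∀ g, W ≤ W.comap (ρ g)), W ≠ ⊥ ∧
      IsSimpleRep (ρ.subrepresentation W hW) := by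
  classical
  -- the set of dimensions of nonzero invariant subspaces
  let S : Set ℕ := {d | ∃ W : Submodule k V, (∀ g, W ≤ W.comap (ρ g)) ∧ W ≠ ⊥ ∧ finrank k W = d}
  have hS : S.Nonempty := ⟨finrank k (⊤ : Submodule k V), ⊤, fun g => le_top, top_ne_bot, rfl⟩
  obtain ⟨W, hW, hW0, hWd⟩ := Nat.sInf_mem hS
  have hmin : ∀ W' : Submodule k V, (∀ g, W' ≤ W'.comap (ρ g)) → W' ≠ ⊥ →
      finrank k W ≤ finrank k W' := by
    intro W' h1 h2
    rw [hWd]
    exact Nat.sInf_le ⟨W', h1, h2, rfl⟩
  refine ⟨W, hW, hW0, ?_, ?_⟩
  · exact Submodule.nontrivial_iff_ne_bot.mpr hW0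
  · intro W' hW'
    by_cases h0 : W' = ⊥
    · left; exact h0
    · right
      have hinv : ∀ g, W'.map W.subtype ≤ (W'.map W.subtype).comap (ρ g) := by
        intro g x hx
        obtain ⟨y, hy, rfl⟩ := hx
        exact ⟨(ρ.subrepresentation W hW g) y, hW' g hy, rfl⟩
      have hne : W'.map W.subtype ≠ ⊥ := by
        intro h
        apply h0
        apply Submodule.map_injective_of_injective W.injective_subtype
        rw [h, Submodule.map_bot]
      have h1 := hmin _ hinv hne
      have h2 : W'.map W.subtype ≤ W := Submodule.map_subtype_le W W'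
      have h3 : W'.map W.subtype = W := Submodule.eq_of_le_of_finrank_le h2 h1
      apply Submodule.map_injective_of_injective W.injective_subtype
      rw [h3, Submodule.map_subtype_top]

/-- An additive invariant is additive for a subrepresentation and its quotient. -/
theorem map_sub_quotient {B : Type w} [AddCommGroup B] (Φ : AdditiveInvariant k G B)
    (V : Type u) [AddCommGroup V] [Module k V] [Module.Finite k V] (ρ : Representation k G V)
    (W : Submodule k V) (hW : ∀ g, W ≤ W.comap (ρ g)) :
    Φ.toFun V ρ = Φ.toFun W (ρ.subrepresentation W hW) + Φ.toFun (V ⧸ W) (ρ.quotient W hW) :=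
  Φ.map_exact W V (V ⧸ W) _ ρ _ W.subtype W.mkQ (fun _ _ => rfl) (fun _ _ => rfl)
    W.injective_subtype (LinearMap.exact_subtype_mkQ W) W.mkQ_surjective

/-- **Jordan–Hölder for additive invariants**: the value of an additive invariant on a
finite-dimensional representation is a sum of its values on simple representations. -/
theorem exists_simple_decomposition {B : Type w} [AddCommGroup B] (Φ : AdditiveInvariant k G B) :
    ∀ (n : ℕ) (V : Type u) [AddCommGroup V] [Module k V] [Module.Finite k V]
      (ρ : Representation k G V), finrank k V = n →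
      ∃ (m : ℕ) (T : Fin m → SimpleRep k G), Φ.toFun V ρ = ∑ l, Φ.toFun (T l).V (T l).ρ := by
  intro n
  induction n using Nat.strong_induction_on with
  | _ n ih =>
    intro V _ _ _ ρ hn
    by_cases hV : Subsingleton V
    · exact ⟨0, Fin.elim0, by rw [Φ.map_subsingleton V ρ]; simp⟩
    · rw [not_subsingleton_iff_nontrivial] at hV
      obtain ⟨W, hW, hW0, hWs⟩ := exists_simple_sub ρ
      have hlt : finrank k (V ⧸ W) < n := by
        have h1 := Submodule.finrank_quotient_add_finrank W
        have h2 : 1 ≤ finrank k W := Submodule.one_le_finrank_iff.mpr hW0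
        omega
      obtain ⟨m, T, hT⟩ := ih _ hlt (V ⧸ W) (ρ.quotient W hW) rfl
      refine ⟨m + 1, Fin.cons ⟨W, ρ.subrepresentation W hW, hWs⟩ T, ?_⟩
      rw [map_sub_quotient Φ V ρ W hW, hT, Fin.sum_univ_succ]
      rfl

end simple

section main

variable {k : Type v} {G : Type u} [Field k] [Group G]

/-- The product of two additive invariants. -/
def prodInvariant {A : Type w} {B : Type w'} [AddCommGroup A] [AddCommGroup B]
    (φ : AdditiveInvariant k G A) (ψ : AdditiveInvariant k G B) :
    AdditiveInvariant k G (A × B) where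
  toFun V _ _ _ ρ := (φ.toFun V ρ, ψ.toFun V ρ)
  map_exact V₁ V₂ V₃ _ _ _ _ _ _ _ _ _ ρ₁ ρ₂ ρ₃ i q hi hq hinj hex hsurj := by
    rw [Prod.mk_add_mk, φ.map_exact V₁ V₂ V₃ ρ₁ ρ₂ ρ₃ i q hi hq hinj hex hsurj,
      ψ.map_exact V₁ V₂ V₃ ρ₁ ρ₂ ρ₃ i q hi hq hinj hex hsurj]

open Classical in
/-- The eigenvalue multiplicities at elements of order dividing `N`, as an additive invariant. -/
noncomputable def multInvariant (K : Type*) [Field K] [Algebra k K] {N : ℕ} (hN : (N : K) ≠ 0)
    {ξ : K} (hξ : ξ ^ N = 1) : AdditiveInvariant k G (G → ℕ → ℤ) where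
  toFun V _ _ _ ρ := fun g l => if g ^ N = 1 then (mult K ξ ρ g l : ℤ) else 0
  map_exact V₁ V₂ V₃ _ _ _ _ _ _ _ _ _ ρ₁ ρ₂ ρ₃ i q hi hq hinj hex hsurj := by
    funext g l
    by_cases hg : g ^ N = 1
    · simp only [hg, if_true, Pi.add_apply]
      rw [mult_of_exact hN hξ ρ₁ ρ₂ ρ₃ i q hi hq hinj hex hsurj hg l]
      push_cast
      rfl
    · simp [hg]

/-- The setoid of isomorphism on a family of simple representations. -/
def isoSetoid {X : Type*} (T : X → SimpleRep k G) : Setoid X where
  r x y := RepIso (T x).ρ (T y).ρ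
  iseqv := ⟨fun _ => RepIso.refl _, fun h => h.symm, fun h h' => h.trans h'⟩

/-- **Linear independence of simple classes, with repetitions.**  If a ℤ-combination of the
multiplicity functions of a finite family of simple representations vanishes, then so does the
same combination of the values of any additive invariant. -/
theorem sum_smul_simple_eq_zero [Finite k] [Finite G] (p : ℕ) [Fact p.Prime] [CharP k p]
    {K : Type*} [Field K] [Algebra k K] {ξ : K}
    (hξ : IsPrimitiveRoot ξ (ordCompl[p] (Nat.card G)))
    {A : Type w} [AddCommGroup A] (φ : AdditiveInvariant k G A)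
    {X : Type*} [Fintype X] (T : X → SimpleRep k G) (c : X → ℤ)
    (h : ∀ g : G, g ^ (ordCompl[p] (Nat.card G)) = 1 → ∀ l < ordCompl[p] (Nat.card G),
      ∑ x, c x * (mult K ξ (T x).ρ g l : ℤ) = 0) :
    ∑ x, c x • φ.toFun (T x).V (T x).ρ = 0 := by
  classical
  let s : Setoid X := isoSetoid T
  let Q := Quotient s
  let r : Q → X := fun q => q.out
  have hr : ∀ x : X, RepIso (T x).ρ (T (r ⟦x⟧)).ρ := fun x =>
    Setoid.symm (Quotient.mk_out (s := s) x)
  let d : Q → ℤ := fun q => ∑ x with (⟦x⟧ : Q) = q, c x
  -- the relation for the representatives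
  have hd : ∀ g : G, g ^ (ordCompl[p] (Nat.card G)) = 1 → ∀ l < ordCompl[p] (Nat.card G),
      ∑ q, d q * (mult K ξ (T (r q)).ρ g l : ℤ) = 0 := by
    intro g hg l hl
    rw [← h g hg l hl, ← Finset.sum_fiberwise Finset.univ (fun x => (⟦x⟧ : Q))]
    refine Finset.sum_congr rfl fun q _ => ?_
    simp only [d]
    rw [Finset.sum_mul]
    refine Finset.sum_congr rfl fun x hx => ?_
    rw [Finset.mem_filter] at hx
    have hrx := hr x
    rw [hx.2] at hrx
    obtain ⟨e, he⟩ := hrx
    rw [mult_of_equiv ξ _ _ e he g l]
  have hs : ∀ q, IsSimpleModule (MonoidAlgebra k G) (T (r q)).ρ.asModule :=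
    fun q => (T (r q)).simple.isSimpleModule
  have hne : ∀ q q', q ≠ q' →
      ∀ f : (T (r q)).ρ.asModule →ₗ[MonoidAlgebra k G] (T (r q')).ρ.asModule, f = 0 := by
    intro q q' hqq' f
    by_contra hf
    have := hs q
    have := hs q'
    have hiso : RepIso (T (r q)).ρ (T (r q')).ρ := repIso_of_linearMap_ne_zero f hf
    apply hqq'
    have : (⟦r q⟧ : Q) = ⟦r q'⟧ := Quotient.sound hiso
    simpa [r] using this
  have hd0 := brauer_li p hξ (fun q => (T (r q)).V) (fun q => (T (r q)).ρ) hs hne d hd
  rw [← Finset.sum_fiberwise Finset.univ (fun x => (⟦x⟧ : Q))]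
  apply Finset.sum_eq_zero
  intro q _
  have : ∀ x ∈ Finset.univ.filter (fun x => (⟦x⟧ : Q) = q),
      c x • φ.toFun (T x).V (T x).ρ = c x • φ.toFun (T (r q)).V (T (r q)).ρ := by
    intro x hx
    rw [Finset.mem_filter] at hx
    have hrx := hr x
    rw [hx.2] at hrx
    obtain ⟨e, he⟩ := hrx
    rw [φ.map_equiv _ _ _ _ e he]
  rw [Finset.sum_congr rfl this, ← Finset.sum_smul]
  have := hd0 q
  simp only [d] at this
  rw [this, zero_smul]

/-- **Main lemma.**  If a ℤ-combination of the multiplicity functions of finitely many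
finite-dimensional representations vanishes (at all `p`-regular elements), then the same
combination of the values of any additive invariant vanishes. -/
theorem sum_smul_eq_zero_of_mult [Finite k] [Finite G] (p : ℕ) [Fact p.Prime] [CharP k p]
    {K : Type*} [Field K] [Algebra k K] {ξ : K}
    (hξ : IsPrimitiveRoot ξ (ordCompl[p] (Nat.card G)))
    {A : Type w} [AddCommGroup A] (φ : AdditiveInvariant k G A)
    {J : Type*} [Fintype J] (V : J → Type u) [∀ j, AddCommGroup (V j)] [∀ j, Module k (V j)]
    [∀ j, Module.Finite k (V j)] (ρ : ∀ j, Representation k G (V j)) (c : J → ℤ)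
    (h : ∀ g : G, g ^ (ordCompl[p] (Nat.card G)) = 1 → ∀ l < ordCompl[p] (Nat.card G),
      ∑ j, c j * (mult K ξ (ρ j) g l : ℤ) = 0) :
    ∑ j, c j • φ.toFun (V j) (ρ j) = 0 := by
  classical
  set N := ordCompl[p] (Nat.card G) with hNdef
  have hN0 : N ≠ 0 := (Nat.ordCompl_pos p Nat.card_pos.ne').ne'
  have : NeZero N := ⟨hN0⟩
  have hNK : (N : K) ≠ 0 := (hξ.neZero').ne
  have hξN : ξ ^ N = 1 := hξ.pow_eq_one
  let Φ := prodInvariant φ (multInvariant (k := k) (G := G) K hNK hξN)
  choose m T hT using fun j => exists_simple_decomposition Φ _ (V j) (ρ j) rfl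
  have h1 : ∀ j, φ.toFun (V j) (ρ j) = ∑ l, φ.toFun (T j l).V (T j l).ρ := by
    intro j
    have := congrArg Prod.fst (hT j)
    rw [Prod.fst_sum] at this
    exact this
  have h2 : ∀ j (g : G), g ^ N = 1 → ∀ l',
      (mult K ξ (ρ j) g l' : ℤ) = ∑ l, (mult K ξ (T j l).ρ g l' : ℤ) := by
    intro j g hg l'
    have := congrArg Prod.snd (hT j)
    rw [Prod.snd_sum] at this
    have := congrFun (congrFun this g) l'
    simp only [Φ, prodInvariant, multInvariant, hg, if_true, Finset.sum_apply] at this
    exact this
  have key := sum_smul_simple_eq_zero p hξ φ (X := Σ j, Fin (m j)) (fun x => T x.1 x.2)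
    (fun x => c x.1) ?_
  · rw [Fintype.sum_sigma] at key
    rw [← key]
    refine Finset.sum_congr rfl fun j _ => ?_
    rw [h1 j, Finset.smul_sum]
  · intro g hg l hl
    rw [Fintype.sum_sigma, ← h g hg l hl]
    refine Finset.sum_congr rfl fun j _ => ?_
    rw [h2 j g hg l, Finset.mul_sum]

end main

end Fermat.Agent.TW.GLOB.AddInv9
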