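/-
Chapter T / GLOB, brick R4a (helper9): reduction mod `p` of `ℤ[G]`-lattices and additive invariants.

Main results (`G` a finite group, `φ` an additive invariant of `𝔽_p[G]`-modules in the sense of
`IndDefs9`):

* `sum_smul_lattice_eq_zero`: for a finite family of `ℤ[G]`-lattices `Λ j` (f.g. free `ℤ`-modules
  with a representation `α j` of `G`) and integers `c j` with
  `∑ j, c j * rank (Λ j)^{⟨g⟩} = 0` for every `p`-regular `g ∈ G`, one has
  `∑ j, c j • φ (Λ j / p) = 0`, where `Λ j / p` is given by any model `q j : Λ j → W j`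
  (surjective, kernel `p Λ j`, equivariant).
* `map_lattice_eq`: the two-lattice form: equal ranks of fixed lattices of all (`p`-regular)
  elements imply `φ (Λ / p) = φ (Λ' / p)`.

Ingredients: the characteristic polynomial of a finite order automorphism of a lattice is a product
of cyclotomic polynomials (`exists_charpoly_eq_prod_cyclotomic`, uses irreducibility of cyclotomic
polynomials over `ℤ`); its exponents are determined by the ranks of the fixed lattices of the
powers (`exists_exponents`, via `ℂ`); they compute the eigenvalue multiplicities of the reduction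
mod `p` over any extension of `𝔽_p` (`finrank_eigenspace_of_charpoly`, `charpoly_reduction`); one
concludes with the main lemma `AddInv9.sum_smul_eq_zero_of_mult`.
-/
import Mathlib
import Fermat.Agent.TW.GLOB.AddInv9

namespace Fermat.Agent.TW.GLOB.LatticeRed9

open Polynomial Module TensorProduct
open Fermat.Agent.TW.GLOB.IndDefs9 Fermat.Agent.TW.GLOB.EigenMult9
  Fermat.Agent.TW.GLOB.BrauerLI9 Fermat.Agent.TW.GLOB.AddInv9

universe u v w

section ufd

/-- A divisor of a product of primes is associated to a sub-product. -/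
theorem exists_le_associated_prod_of_dvd {M : Type*} [CommMonoidWithZero M] [IsCancelMulZero M]
    (s : Multiset M) (hs : ∀ π ∈ s, Prime π) (x : M) (hx : x ∣ s.prod) :
    ∃ t ≤ s, Associated x t.prod := by
  induction s using Multiset.induction_on generalizing x with
  | empty =>
    refine ⟨0, le_rfl, ?_⟩
    rw [Multiset.prod_zero] at hx ⊢
    obtain ⟨y, hy⟩ := hx
    exact associated_one_of_mul_eq_one y hy.symm
  | cons π s ih =>
    have hπ : Prime π := hs π (Multiset.mem_cons_self π s)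
    have hs' : ∀ π' ∈ s, Prime π' := fun π' h => hs π' (Multiset.mem_cons_of_mem h)
    rw [Multiset.prod_cons] at hx
    by_cases hπx : π ∣ x
    · obtain ⟨x', rfl⟩ := hπx
      have hx' : x' ∣ s.prod := (mul_dvd_mul_iff_left hπ.ne_zero).mp hx
      obtain ⟨t, hts, hxt⟩ := ih hs' x' hx'
      refine ⟨π ::ₘ t, Multiset.cons_le_cons π hts, ?_⟩
      rw [Multiset.prod_cons]
      exact hxt.mul_left π
    · have hx' : x ∣ s.prod := (hπ.left_dvd_or_dvd_right_of_dvd_mul hx).resolve_left hπx
      obtain ⟨t, hts, hxt⟩ := ih hs' x hx'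
      exact ⟨t, hts.trans (Multiset.le_cons_self s π), hxt⟩

end ufd

section charpolyDvd

variable {R : Type*} [CommRing R] {n : Type*} [DecidableEq n] [Fintype n]

/-- If `A ^ m = 1` then the characteristic polynomial of `A` divides `(X ^ m - 1) ^ n`. -/
theorem matrix_charpoly_dvd_pow (A : Matrix n n R) {m : ℕ} (hA : A ^ m = 1) :
    A.charpoly ∣ (X ^ m - 1) ^ Fintype.card n := by
  have hcomm : Commute (Matrix.scalar n (X : R[X])) ((C : R →+* R[X]).mapMatrix A) :=
    Matrix.scalar_commute _ (fun _ => Commute.all _ _) _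
  have h := hcomm.mul_geom_sum₂ m
  have h1 : (Matrix.scalar n (X : R[X])) ^ m = Matrix.scalar n (X ^ m) := (map_pow _ _ _).symm
  have h2 : ((C : R →+* R[X]).mapMatrix A) ^ m = 1 := by rw [← map_pow, hA, map_one]
  rw [h1, h2] at h
  have h3 : Matrix.scalar n ((X : R[X]) ^ m) - 1 = Matrix.scalar n ((X : R[X]) ^ m - 1) := by
    rw [map_sub, map_one]
  rw [h3] at h
  have h4 := congrArg Matrix.det h
  rw [Matrix.det_mul] at h4
  have h5 : (Matrix.scalar n ((X : R[X]) ^ m - 1)).det = (X ^ m - 1) ^ Fintype.card n := by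
    rw [Matrix.scalar_apply, Matrix.det_diagonal, Finset.prod_const, Finset.card_univ]
  rw [h5] at h4
  exact ⟨_, h4.symm⟩

end charpolyDvd

section cyclo

/-- A monic integer polynomial dividing a power of `X ^ m - 1` is a product of cyclotomic
polynomials. -/
theorem eq_prod_cyclotomic_of_dvd {m : ℕ} (hm : 0 < m) {P : ℤ[X]} (hP : P.Monic) {n : ℕ}
    (hdvd : P ∣ (X ^ m - 1) ^ n) :
    ∃ a : ℕ → ℕ, P = ∏ d ∈ m.divisors, cyclotomic d ℤ ^ a d := by
  classical
  let s : Multiset ℤ[X] := n • (m.divisors.val.map (fun d => cyclotomic d ℤ))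
  have hsprod : s.prod = (X ^ m - 1) ^ n := by
    rw [Multiset.prod_nsmul, ← prod_cyclotomic_eq_X_pow_sub_one hm ℤ]
    rfl
  have hmem : ∀ π ∈ s, ∃ d ∈ m.divisors, cyclotomic d ℤ = π := by
    intro π hπ
    have := Multiset.mem_of_mem_nsmul hπ
    obtain ⟨d, hd, rfl⟩ := Multiset.mem_map.mp this
    exact ⟨d, hd, rfl⟩
  have hs : ∀ π ∈ s, Prime π := by
    intro π hπ
    obtain ⟨d, hd, rfl⟩ := hmem π hπ
    exact (cyclotomic.irreducible (Nat.pos_of_mem_divisors hd)).prime
  obtain ⟨t, hts, hPt⟩ := exists_le_associated_prod_of_dvd s hs P (hsprod ▸ hdvd)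
  have hsub : t.toFinset ⊆ m.divisors.image (fun d => cyclotomic d ℤ) := by
    intro π hπ
    have h1 : π ∈ s := Multiset.mem_of_le hts (Multiset.mem_toFinset.mp hπ)
    obtain ⟨d, hd, rfl⟩ := hmem π h1
    exact Finset.mem_image.mpr ⟨d, hd, rfl⟩
  have ht : t.prod = ∏ d ∈ m.divisors, cyclotomic d ℤ ^ t.count (cyclotomic d ℤ) := by
    rw [Finset.prod_multiset_count_of_subset t _ hsub, Finset.prod_image]
    intro d _ d' _ h
    exact cyclotomic_injective (R := ℤ) h
  refine ⟨fun d => t.count (cyclotomic d ℤ), ?_⟩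
  rw [← ht]
  refine eq_of_monic_of_associated hP ?_ hPt
  rw [ht]
  exact monic_prod_of_monic _ _ (fun d _ => (cyclotomic.monic d ℤ).pow _)

end cyclo

section roots

variable {K : Type*} [Field K]

/-- Root multiplicities of a product of cyclotomic polynomials over a field in which `m` is
invertible. -/
theorem rootMultiplicity_prod_cyclotomic {m : ℕ} (hm : (m : K) ≠ 0) (a : ℕ → ℕ) (ζ : K) :
    rootMultiplicity ζ (∏ d ∈ m.divisors, cyclotomic d K ^ a d)
      = if orderOf ζ ∣ m then a (orderOf ζ) else 0 := by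
  classical
  have hm0 : m ≠ 0 := by rintro rfl; simp at hm
  have hne : (∏ d ∈ m.divisors, cyclotomic d K ^ a d) ≠ 0 :=
    Finset.prod_ne_zero_iff.mpr fun d _ => pow_ne_zero _ (cyclotomic_ne_zero d K)
  rw [← count_roots, roots_prod _ _ hne, Multiset.count_bind]
  have h1 : ∀ d ∈ m.divisors, Multiset.count ζ (cyclotomic d K ^ a d).roots
      = if d = orderOf ζ then a d else 0 := by
    intro d hd
    have hdm : d ∣ m := Nat.dvd_of_mem_divisors hd
    have hd0 : 0 < d := Nat.pos_of_mem_divisors hd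
    have : NeZero (d : K) := ⟨by
      intro h0
      obtain ⟨e, rfl⟩ := hdm
      rw [Nat.cast_mul, h0, zero_mul] at hm
      exact hm rfl⟩
    rw [roots_pow, Multiset.count_nsmul, cyclotomic.roots_eq_primitiveRoots_val,
      Multiset.count_eq_of_nodup (primitiveRoots d K).nodup]
    by_cases h : d = orderOf ζ
    · subst h
      rw [if_pos rfl, if_pos, mul_one]
      exact (mem_primitiveRoots hd0).mpr (IsPrimitiveRoot.orderOf ζ)
    · rw [if_neg h, if_neg, mul_zero]
      intro h'
      exact h ((mem_primitiveRoots hd0).mp h').eq_orderOf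
  rw [Multiset.map_congr rfl h1]
  change (∑ d ∈ m.divisors, if d = orderOf ζ then a d else 0) = _
  rw [Finset.sum_ite_eq' m.divisors (orderOf ζ) a]
  simp only [Nat.mem_divisors, hm0, ne_eq, not_false_eq_true, and_true]

end roots

section semisimple

variable {K : Type*} [Field K] {V : Type*} [AddCommGroup V] [Module K V] [FiniteDimensional K V]

/-- For an operator of finite order prime to the characteristic, geometric and algebraic
multiplicities agree. -/
theorem finrank_eigenspace_eq_rootMultiplicity (u : Module.End K V) {m : ℕ} (hm : (m : K) ≠ 0)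
    (hu : u ^ m = 1) (ζ : K) :
    finrank K (u.eigenspace ζ) = u.charpoly.rootMultiplicity ζ := by
  have hss : u.IsSemisimple :=
    Module.End.isSemisimple_of_squarefree_aeval_eq_zero (p := X ^ m - 1)
      ((X_pow_sub_one_separable_iff.mpr hm).squarefree) (by simp [hu])
  rw [← hss.isFinitelySemisimple.maxGenEigenspace_eq_eigenspace,
    LinearMap.finrank_maxGenEigenspace_eq]

/-- The eigenvalue multiplicities of an operator of order dividing `m` whose characteristic
polynomial is a product of cyclotomic polynomials. -/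
theorem finrank_eigenspace_of_charpoly (u : Module.End K V) {m : ℕ} (hm : (m : K) ≠ 0)
    (hu : u ^ m = 1) (a : ℕ → ℕ)
    (hP : u.charpoly = ∏ d ∈ m.divisors, cyclotomic d K ^ a d) (ζ : K) :
    finrank K (u.eigenspace ζ) = if orderOf ζ ∣ m then a (orderOf ζ) else 0 := by
  rw [finrank_eigenspace_eq_rootMultiplicity u hm hu, hP, rootMultiplicity_prod_cyclotomic hm]

end semisimple

section fixedDecomp

variable {L : Type*} [Field L] [CharZero L] {V : Type*} [AddCommGroup V] [Module L V]
  [FiniteDimensional L V]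

omit [CharZero L] [FiniteDimensional L V] in
theorem pow_mul_avg_eigen {n : ℕ} (hn : (n : L) ≠ 0) {ζ : L} (hζ : ζ ^ n = 1)
    {u : Module.End L V} (hu : u ^ n = 1) (k : ℕ) :
    u ^ k * avg n (ζ⁻¹ • u) = ζ ^ k • avg n (ζ⁻¹ • u) := by
  induction k with
  | zero => simp
  | succ k ih =>
    rw [pow_succ, mul_assoc, mul_avg_eigen hn hζ hu, mul_smul_comm, ih, smul_smul, pow_succ,
      mul_comm]

/-- In characteristic zero, the dimension of the fixed space of `u ^ t` is the sum of the
dimensions of the eigenspaces of `u` at the `t`-th roots of unity. -/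
theorem finrank_ker_pow_sub_one [DecidableEq L] {m : ℕ} (hm : 0 < m) {ξ : L} (hξ : IsPrimitiveRoot ξ m)
    {u : Module.End L V} (hu : u ^ m = 1) (t : ℕ) :
    finrank L (LinearMap.ker (u ^ t - 1))
      = ∑ i ∈ Finset.range m,
          if (ξ ^ i) ^ t = 1 then finrank L (Module.End.eigenspace u (ξ ^ i)) else 0 := by
  have hn : (m : L) ≠ 0 := Nat.cast_ne_zero.mpr hm.ne'
  have hζ : ∀ i, (ξ ^ i) ^ m = 1 := fun i => by
    rw [← pow_mul, mul_comm, pow_mul, hξ.pow_eq_one, one_pow]
  have hw : (u ^ t) ^ m = 1 := by rw [← pow_mul, mul_comm, pow_mul, hu, one_pow]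
  have hproj := isProj_avg hn hw
  have hπe : ∀ i, avg m (u ^ t) * avg m ((ξ ^ i)⁻¹ • u)
      = if (ξ ^ i) ^ t = 1 then avg m ((ξ ^ i)⁻¹ • u) else 0 := by
    intro i
    have h1 : avg m (u ^ t) * avg m ((ξ ^ i)⁻¹ • u)
        = ((m : L)⁻¹ * ∑ j ∈ Finset.range m, ((ξ ^ i) ^ t) ^ j) • avg m ((ξ ^ i)⁻¹ • u) := by
      conv_lhs => rw [avg, smul_mul_assoc, Finset.sum_mul]
      rw [mul_smul, Finset.sum_smul]
      congr 1
      refine Finset.sum_congr rfl fun j _ => ?_
      rw [← pow_mul, pow_mul_avg_eigen hn (hζ i) hu, pow_mul]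
    rw [h1]
    split_ifs with h
    · rw [h]
      simp only [one_pow, Finset.sum_const, Finset.card_range, nsmul_eq_mul, mul_one]
      rw [inv_mul_cancel₀ hn, one_smul]
    · have h2 := mul_geom_sum ((ξ ^ i) ^ t) m
      have h3 : ((ξ ^ i) ^ t) ^ m = 1 := by
        rw [← pow_mul, mul_comm, pow_mul, hζ i, one_pow]
      rw [h3, sub_self] at h2
      rw [(mul_eq_zero.mp h2).resolve_left (sub_ne_zero.mpr h), mul_zero, zero_smul]
  have hπ : avg m (u ^ t) = ∑ i ∈ Finset.range m,
      if (ξ ^ i) ^ t = 1 then avg m ((ξ ^ i)⁻¹ • u) else 0 := by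
    conv_lhs => rw [← mul_one (avg m (u ^ t)), ← sum_avg_eigen hn hξ u, Finset.mul_sum]
    exact Finset.sum_congr rfl fun i _ => hπe i
  have htr := hproj.trace
  rw [hπ, map_sum] at htr
  apply Nat.cast_injective (R := L)
  rw [← htr, Nat.cast_sum]
  refine Finset.sum_congr rfl fun i _ => ?_
  split_ifs with h
  · exact (isProj_eigen hn (hζ i) hu).trace
  · simp

end fixedDecomp

section lattice

variable {Λ : Type*} [AddCommGroup Λ] [Module.Free ℤ Λ] [Module.Finite ℤ Λ]

/-- flat base change of a kernel -/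
theorem finrank_ker_baseChange (L : Type*) [Field L] [CharZero L] (f : Λ →ₗ[ℤ] Λ) :
    finrank L (LinearMap.ker (f.baseChange L)) = finrank ℤ (LinearMap.ker f) := by
  have e := LinearMap.tensorKerEquiv L L f
  have h : f.baseChange L = AlgebraTensorModule.lTensor L L f := rfl
  rw [h, ← e.finrank_eq, Module.finrank_baseChange]

theorem baseChange_charpoly_eq (K : Type*) [Field K] (T : Module.End ℤ Λ) {m : ℕ} (a : ℕ → ℕ)
    (hP : T.charpoly = ∏ d ∈ m.divisors, cyclotomic d ℤ ^ a d) :
    (T.baseChange K).charpoly = ∏ d ∈ m.divisors, cyclotomic d K ^ a d := by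
  rw [LinearMap.charpoly_baseChange, hP, Polynomial.map_prod]
  refine Finset.prod_congr rfl fun d _ => ?_
  rw [Polynomial.map_pow, map_cyclotomic]

omit [Module.Free ℤ Λ] [Module.Finite ℤ Λ] in
theorem baseChange_pow_eq_one' (K : Type*) [Field K] (T : Module.End ℤ Λ) {m : ℕ} (hT : T ^ m = 1) :
    (T.baseChange K) ^ m = 1 := by
  rw [← LinearMap.baseChange_pow, hT, LinearMap.baseChange_one]

/-- The rank of the fixed lattice of `T ^ t`, for `T` of finite order whose characteristic
polynomial is `∏ Φ_d ^ a d`. -/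
theorem finrank_ker_pow_sub_one_lattice {m : ℕ} (hm : 0 < m) (T : Module.End ℤ Λ) (hT : T ^ m = 1)
    (a : ℕ → ℕ) (hP : T.charpoly = ∏ d ∈ m.divisors, cyclotomic d ℤ ^ a d)
    {ξ : ℂ} (hξ : IsPrimitiveRoot ξ m) (t : ℕ) :
    finrank ℤ (LinearMap.ker (T ^ t - 1))
      = ∑ i ∈ Finset.range m, if (ξ ^ i) ^ t = 1 then a (orderOf (ξ ^ i)) else 0 := by
  have hn : (m : ℂ) ≠ 0 := Nat.cast_ne_zero.mpr hm.ne'
  have hu := baseChange_pow_eq_one' ℂ T hT
  have hPu := baseChange_charpoly_eq ℂ T a hP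
  have h1 : (T ^ t - 1).baseChange ℂ = (T.baseChange ℂ) ^ t - 1 := by
    rw [LinearMap.baseChange_sub, LinearMap.baseChange_pow, LinearMap.baseChange_one]
  rw [← finrank_ker_baseChange ℂ, h1, finrank_ker_pow_sub_one hm hξ hu]
  refine Finset.sum_congr rfl fun i _ => ?_
  have hdiv : orderOf (ξ ^ i) ∣ m := by
    apply orderOf_dvd_of_pow_eq_one
    rw [← pow_mul, mul_comm, pow_mul, hξ.pow_eq_one, one_pow]
  rw [finrank_eigenspace_of_charpoly _ hn hu a hPu, if_pos hdiv]

end lattice

section inversion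

/-- Triangular inversion: the numbers `∑_{ζ ∈ μ_t} A (ord ζ)` determine the `A d`, `d ∣ m`. -/
theorem eq_zero_of_sum_orderOf {m : ℕ} (hm : 0 < m) {ξ : ℂ} (hξ : IsPrimitiveRoot ξ m)
    (A : ℕ → ℤ)
    (h : ∀ t, ∑ i ∈ Finset.range m, (if (ξ ^ i) ^ t = 1 then A (orderOf (ξ ^ i)) else 0) = 0) :
    ∀ d, d ∣ m → A d = 0 := by
  intro d
  induction d using Nat.strong_induction_on with
  | _ d ih =>
    intro hdm
    have hd0 : 0 < d := Nat.pos_of_dvd_of_pos hdm hm
    have hord : ∀ i, orderOf (ξ ^ i) ∣ m := fun i => by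
      apply orderOf_dvd_of_pow_eq_one
      rw [← pow_mul, mul_comm, pow_mul, hξ.pow_eq_one, one_pow]
    have h1 : ∀ i ∈ Finset.range m, (if (ξ ^ i) ^ d = 1 then A (orderOf (ξ ^ i)) else 0)
        = if orderOf (ξ ^ i) = d then A d else 0 := by
      intro i _
      by_cases hi : orderOf (ξ ^ i) = d
      · rw [if_pos hi, if_pos, hi]
        rw [← hi]
        exact pow_orderOf_eq_one _
      · rw [if_neg hi]
        split_ifs with h2
        · have h3 : orderOf (ξ ^ i) ∣ d := orderOf_dvd_of_pow_eq_one h2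
          exact ih _ (lt_of_le_of_ne (Nat.le_of_dvd hd0 h3) hi) (hord i)
        · rfl
    have h2 := h d
    rw [Finset.sum_congr rfl h1, Finset.sum_ite, Finset.sum_const, Finset.sum_const_zero,
      add_zero, nsmul_eq_mul] at h2
    rcases mul_eq_zero.mp h2 with h3 | h3
    · exfalso
      have h4 : (Finset.filter (fun i => orderOf (ξ ^ i) = d) (Finset.range m)).card ≠ 0 := by
        by_cases hd1 : d = 1
        · refine Finset.card_ne_zero_of_mem (a := 0) ?_
          rw [Finset.mem_filter, Finset.mem_range]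
          exact ⟨hm, by rw [pow_zero, orderOf_one, hd1]⟩
        · refine Finset.card_ne_zero_of_mem (a := m / d) ?_
          rw [Finset.mem_filter, Finset.mem_range]
          refine ⟨Nat.div_lt_self hm (by omega), ?_⟩
          exact (hξ.pow hm (Nat.div_mul_cancel hdm).symm).eq_orderOf.symm
      exact h4 (by exact_mod_cast h3)
    · exact h3

end inversion

section reduction

variable (p : ℕ) [Fact p.Prime] {Λ : Type*} [AddCommGroup Λ] [Module.Free ℤ Λ] [Module.Finite ℤ Λ]
  {W : Type*} [AddCommGroup W] [Module (ZMod p) W] [Module.Finite (ZMod p) W]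

omit [Module.Free ℤ Λ] [Module.Finite ℤ Λ] in
theorem exists_one_tmul (z : ZMod p ⊗[ℤ] Λ) : ∃ x : Λ, z = (1 : ZMod p) ⊗ₜ[ℤ] x := by
  induction z using TensorProduct.induction_on with
  | zero => exact ⟨0, (tmul_zero _ _).symm⟩
  | tmul a x =>
    obtain ⟨n, rfl⟩ := ZMod.intCast_surjective a
    refine ⟨n • x, ?_⟩
    rw [← TensorProduct.smul_tmul, zsmul_eq_mul, mul_one]
  | add z₁ z₂ h₁ h₂ =>
    obtain ⟨x₁, rfl⟩ := h₁
    obtain ⟨x₂, rfl⟩ := h₂
    exact ⟨x₁ + x₂, (tmul_add _ _ _).symm⟩

/-- The characteristic polynomial of the reduction mod `p` of an endomorphism of a lattice. -/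
theorem charpoly_reduction (q : Λ →+ W) (hq : Function.Surjective q)
    (hqK : ∀ e, q e = 0 ↔ ∃ e', e = p • e') (T : Module.End ℤ Λ) (S : Module.End (ZMod p) W)
    (hTS : ∀ e, q (T e) = S (q e)) :
    S.charpoly = T.charpoly.map (Int.castRingHom (ZMod p)) := by
  let B : ZMod p ⊗[ℤ] Λ →ₗ[ZMod p] W := LinearMap.liftBaseChange (ZMod p) q.toIntLinearMap
  have hB : ∀ (a : ZMod p) (x : Λ), B (a ⊗ₜ x) = a • q x := fun a x => by
    simp [B]
  have hBsurj : Function.Surjective B := by
    intro w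
    obtain ⟨x, rfl⟩ := hq w
    exact ⟨1 ⊗ₜ x, by rw [hB, one_smul]⟩
  have hBinj : Function.Injective B := by
    rw [injective_iff_map_eq_zero]
    intro z hz
    obtain ⟨x, rfl⟩ := exists_one_tmul p z
    rw [hB, one_smul] at hz
    obtain ⟨x', rfl⟩ := (hqK x).mp hz
    rw [← TensorProduct.smul_tmul, nsmul_eq_mul, mul_one, ZMod.natCast_self, zero_tmul]
  let e : ZMod p ⊗[ℤ] Λ ≃ₗ[ZMod p] W := LinearEquiv.ofBijective B ⟨hBinj, hBsurj⟩
  have he : ∀ z, e z = B z := fun z => rfl
  have hconj : S = e.conj (T.baseChange (ZMod p)) := by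
    apply LinearMap.ext
    intro w
    obtain ⟨z, rfl⟩ := e.surjective w
    rw [LinearEquiv.conj_apply_apply, LinearEquiv.symm_apply_apply]
    obtain ⟨x, rfl⟩ := exists_one_tmul p z
    rw [LinearMap.baseChange_tmul, he, he, hB, hB, one_smul, one_smul, hTS]
  rw [hconj, LinearEquiv.charpoly_conj, LinearMap.charpoly_baseChange, algebraMap_int_eq]

end reduction

section core

/-- The characteristic polynomial of an automorphism of finite order of a lattice is a product
of cyclotomic polynomials. -/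
theorem exists_charpoly_eq_prod_cyclotomic {Λ : Type*} [AddCommGroup Λ] [Module.Free ℤ Λ]
    [Module.Finite ℤ Λ] {m : ℕ} (hm : 0 < m) (T : Module.End ℤ Λ) (hT : T ^ m = 1) :
    ∃ a : ℕ → ℕ, T.charpoly = ∏ d ∈ m.divisors, cyclotomic d ℤ ^ a d := by
  classical
  let b := Module.Free.chooseBasis ℤ Λ
  have h1 : (LinearMap.toMatrix b b T) ^ m = 1 := by
    rw [LinearMap.toMatrix_pow, hT, LinearMap.toMatrix_one]
  have h2 := matrix_charpoly_dvd_pow _ h1
  rw [LinearMap.charpoly_toMatrix] at h2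
  exact eq_prod_cyclotomic_of_dvd hm (LinearMap.charpoly_monic T) h2

/-- **Core lemma.**  For a family of finite-order automorphisms `T j` of lattices: a linear
relation between the ranks of the fixed lattices of all powers implies the same relation between
the exponents of the cyclotomic factors of the characteristic polynomials. -/
theorem exists_exponents {J : Type*} [Fintype J] (Λ : J → Type*) [∀ j, AddCommGroup (Λ j)]
    [∀ j, Module.Free ℤ (Λ j)] [∀ j, Module.Finite ℤ (Λ j)] (T : ∀ j, Module.End ℤ (Λ j))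
    {m : ℕ} (hm : 0 < m) (hT : ∀ j, T j ^ m = 1) (c : J → ℤ)
    (hrank : ∀ t : ℕ, ∑ j, c j * (finrank ℤ (LinearMap.ker (T j ^ t - 1)) : ℤ) = 0) :
    ∃ a : J → ℕ → ℕ, (∀ j, (T j).charpoly = ∏ d ∈ m.divisors, cyclotomic d ℤ ^ a j d) ∧
      ∀ d, d ∣ m → ∑ j, c j * (a j d : ℤ) = 0 := by
  choose a ha using fun j => exists_charpoly_eq_prod_cyclotomic hm (T j) (hT j)
  refine ⟨a, ha, ?_⟩
  obtain ⟨ξ, hξ⟩ : ∃ ξ : ℂ, IsPrimitiveRoot ξ m := ⟨_, Complex.isPrimitiveRoot_exp m hm.ne'⟩
  refine eq_zero_of_sum_orderOf hm hξ (fun d => ∑ j, c j * (a j d : ℤ)) ?_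
  intro t
  have h1 := hrank t
  simp_rw [finrank_ker_pow_sub_one_lattice hm (T _) (hT _) (a _) (ha _) hξ t] at h1
  refine Eq.trans ?_ h1
  symm
  calc ∑ j, c j * ((∑ i ∈ Finset.range m,
          if (ξ ^ i) ^ t = 1 then a j (orderOf (ξ ^ i)) else 0 : ℕ) : ℤ)
      = ∑ j, ∑ i ∈ Finset.range m,
          if (ξ ^ i) ^ t = 1 then c j * (a j (orderOf (ξ ^ i)) : ℤ) else 0 := by
        refine Finset.sum_congr rfl fun j _ => ?_
        rw [Nat.cast_sum, Finset.mul_sum]
        refine Finset.sum_congr rfl fun i _ => ?_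
        split_ifs <;> simp
    _ = ∑ i ∈ Finset.range m, ∑ j,
          if (ξ ^ i) ^ t = 1 then c j * (a j (orderOf (ξ ^ i)) : ℤ) else 0 := Finset.sum_comm
    _ = _ := by
        refine Finset.sum_congr rfl fun i _ => ?_
        split_ifs <;> simp

end core

section main

variable (p : ℕ) [Fact p.Prime] {G : Type u} [Group G] [Finite G] {B : Type w} [AddCommGroup B]
  (φ : AdditiveInvariant (ZMod p) G B)

/-- The relation between eigenvalue multiplicities (over any extension `K` of `𝔽_p`) of the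
reductions mod `p`, at a `p`-regular element. -/
theorem sum_mul_mult_eq_zero {J : Type*} [Fintype J] (Λ : J → Type*)
    [∀ j, AddCommGroup (Λ j)] [∀ j, Module.Free ℤ (Λ j)] [∀ j, Module.Finite ℤ (Λ j)]
    (α : ∀ j, Representation ℤ G (Λ j)) (c : J → ℤ)
    (hrank : ∀ g : G, (orderOf g).Coprime p →
      ∑ j, c j * (finrank ℤ (LinearMap.ker (α j g - 1)) : ℤ) = 0)
    (W : J → Type*) [∀ j, AddCommGroup (W j)] [∀ j, Module (ZMod p) (W j)]
    [∀ j, Module.Finite (ZMod p) (W j)] (ρ : ∀ j, Representation (ZMod p) G (W j))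
    (q : ∀ j, Λ j →+ W j) (hq : ∀ j, Function.Surjective (q j))
    (hqK : ∀ j e, q j e = 0 ↔ ∃ e', e = p • e')
    (hqα : ∀ j g e, q j (α j g e) = ρ j g (q j e))
    (K : Type*) [Field K] [Algebra (ZMod p) K] (ξ : K) (g : G) (hg : (orderOf g).Coprime p)
    (l : ℕ) : ∑ j, c j * (mult K ξ (ρ j) g l : ℤ) = 0 := by
  classical
  have hp : p.Prime := Fact.out
  set m := orderOf g with hmdef
  have hm : 0 < m := orderOf_pos g
  have hmK : (m : K) ≠ 0 := by
    intro h0
    rw [← map_natCast (algebraMap (ZMod p) K), map_eq_zero, ZMod.natCast_eq_zero_iff] at h0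
    exact (Nat.Prime.coprime_iff_not_dvd hp).mp hg.symm h0
  -- the operators
  have hT : ∀ j, (α j g) ^ m = 1 := fun j => by
    rw [← map_pow, hmdef, pow_orderOf_eq_one, map_one]
  have hrank' : ∀ t : ℕ, ∑ j, c j * (finrank ℤ (LinearMap.ker ((α j g) ^ t - 1)) : ℤ) = 0 := by
    intro t
    have h1 := hrank (g ^ t) (Nat.Coprime.coprime_dvd_left (orderOf_pow_dvd t) hg)
    rw [← h1]
    refine Finset.sum_congr rfl fun j _ => ?_
    rw [map_pow]
  obtain ⟨a, ha, hca⟩ := exists_exponents Λ (fun j => α j g) hm hT c hrank'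
  -- the multiplicities
  have hmult : ∀ j, mult K ξ (ρ j) g l
      = if orderOf (ξ ^ l) ∣ m then a j (orderOf (ξ ^ l)) else 0 := by
    intro j
    have hu : ((ρ j g).baseChange K) ^ m = 1 := baseChange_pow_eq_one (ρ j) (pow_orderOf_eq_one g)
    refine finrank_eigenspace_of_charpoly _ hmK hu (a j) ?_ _
    rw [LinearMap.charpoly_baseChange,
      charpoly_reduction p (q j) (hq j) (hqK j) (α j g) (ρ j g) (hqα j g), ha j,
      Polynomial.map_map, Polynomial.map_prod]
    refine Finset.prod_congr rfl fun d _ => ?_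
    rw [Polynomial.map_pow, map_cyclotomic]
  rw [Finset.sum_congr rfl (fun j _ => by rw [hmult j])]
  by_cases hd : orderOf (ξ ^ l) ∣ m
  · simp only [if_pos hd]
    exact hca _ hd
  · simp only [if_neg hd, Nat.cast_zero, mul_zero, Finset.sum_const_zero]

/-- **Reduction of lattices (R4a), general form.**  Let `Λ j` be a finite family of `ℤ[G]`-lattices
and `c j` integers such that `∑ j, c j * rank (Λ j)^{⟨g⟩} = 0` for all `p`-regular `g ∈ G`.  Then
`∑ j, c j • φ (Λ j / p) = 0` for every additive invariant `φ` of `𝔽_p[G]`-modules. -/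
theorem sum_smul_lattice_eq_zero {J : Type*} [Fintype J] (Λ : J → Type*)
    [∀ j, AddCommGroup (Λ j)] [∀ j, Module.Free ℤ (Λ j)] [∀ j, Module.Finite ℤ (Λ j)]
    (α : ∀ j, Representation ℤ G (Λ j)) (c : J → ℤ)
    (hrank : ∀ g : G, (orderOf g).Coprime p →
      ∑ j, c j * (finrank ℤ (LinearMap.ker (α j g - 1)) : ℤ) = 0)
    (W : J → Type u) [∀ j, AddCommGroup (W j)] [∀ j, Module (ZMod p) (W j)]
    [∀ j, Module.Finite (ZMod p) (W j)] (ρ : ∀ j, Representation (ZMod p) G (W j))
    (q : ∀ j, Λ j →+ W j) (hq : ∀ j, Function.Surjective (q j))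
    (hqK : ∀ j e, q j e = 0 ↔ ∃ e', e = p • e')
    (hqα : ∀ j g e, q j (α j g e) = ρ j g (q j e)) :
    ∑ j, c j • φ.toFun (W j) (ρ j) = 0 := by
  have hp : p.Prime := Fact.out
  have hNco : (ordCompl[p] (Nat.card G)).Coprime p :=
    (Nat.coprime_ordCompl hp Nat.card_pos.ne').symm
  have hN0 : ordCompl[p] (Nat.card G) ≠ 0 := (Nat.ordCompl_pos p Nat.card_pos.ne').ne'
  have hNk : NeZero ((ordCompl[p] (Nat.card G) : ℕ) : ZMod p) := ⟨by
    intro h0
    rw [CharP.cast_eq_zero_iff (ZMod p) p] at h0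
    exact (Nat.Prime.coprime_iff_not_dvd hp).mp hNco.symm h0⟩
  have : NeZero (ordCompl[p] (Nat.card G)) := ⟨hN0⟩
  obtain ⟨ξ, hξ⟩ := IsCyclotomicExtension.exists_isPrimitiveRoot (ZMod p)
    (CyclotomicField (ordCompl[p] (Nat.card G)) (ZMod p)) (Set.mem_singleton _) hN0
  refine sum_smul_eq_zero_of_mult p hξ φ W ρ c ?_
  intro g hg l _
  exact sum_mul_mult_eq_zero p Λ α c hrank W ρ q hq hqK hqα _ ξ g
    (Nat.Coprime.coprime_dvd_left (orderOf_dvd_of_pow_eq_one hg) hNco) l

end main

section bundled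

/-- A `ℤ[G]`-lattice together with a model of its reduction mod `p`. -/
structure LatticeModel (p : ℕ) (G : Type u) [Group G] : Type (max (u+1) (v+1)) where
  /-- the lattice -/
  L : Type v
  [acgL : AddCommGroup L]
  [freeL : Module.Free ℤ L]
  [finL : Module.Finite ℤ L]
  /-- the action on the lattice -/
  α : Representation ℤ G L
  /-- the reduction -/
  W : Type u
  [acgW : AddCommGroup W]
  [modW : Module (ZMod p) W]
  [finW : Module.Finite (ZMod p) W]
  /-- the action on the reduction -/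
  ρ : Representation (ZMod p) G W
  /-- the reduction map -/
  q : L →+ W
  surj : Function.Surjective q
  ker_eq : ∀ e, q e = 0 ↔ ∃ e', e = p • e'
  equivariant : ∀ g e, q (α g e) = ρ g (q e)

attribute [instance] LatticeModel.acgL LatticeModel.freeL LatticeModel.finL LatticeModel.acgW
  LatticeModel.modW LatticeModel.finW

variable (p : ℕ) [Fact p.Prime] {G : Type u} [Group G] [Finite G] {B : Type w} [AddCommGroup B]
  (φ : AdditiveInvariant (ZMod p) G B)

/-- `sum_smul_lattice_eq_zero` for a family of bundled lattices. -/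
theorem sum_smul_latticeModel_eq_zero {J : Type*} [Fintype J] (R : J → LatticeModel.{u, v} p G)
    (c : J → ℤ)
    (hrank : ∀ g : G, (orderOf g).Coprime p →
      ∑ j, c j * (finrank ℤ (LinearMap.ker ((R j).α g - 1)) : ℤ) = 0) :
    ∑ j, c j • φ.toFun (R j).W (R j).ρ = 0 :=
  sum_smul_lattice_eq_zero p φ (fun j => (R j).L) (fun j => (R j).α) c hrank
    (fun j => (R j).W) (fun j => (R j).ρ) (fun j => (R j).q) (fun j => (R j).surj)
    (fun j => (R j).ker_eq) (fun j => (R j).equivariant)

/-- **Reduction of lattices (R4a), two-lattice form**: if the fixed lattices of every `p`-regular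
element have the same rank in `Λ` and `Λ'`, then `φ (Λ / p) = φ (Λ' / p)`. -/
theorem map_latticeModel_eq (R R' : LatticeModel.{u, v} p G)
    (hrank : ∀ g : G, (orderOf g).Coprime p →
      finrank ℤ (LinearMap.ker (R.α g - 1)) = finrank ℤ (LinearMap.ker (R'.α g - 1))) :
    φ.toFun R.W R.ρ = φ.toFun R'.W R'.ρ := by
  have key := sum_smul_latticeModel_eq_zero p φ (fun b : Bool => cond b R R')
    (fun b => cond b 1 (-1)) ?_
  · rw [Fintype.sum_bool] at key
    simp only [cond_true, cond_false, one_smul, neg_smul] at key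
    exact sub_eq_zero.mp (by rw [sub_eq_add_neg]; exact key)
  · intro g hg
    rw [Fintype.sum_bool]
    simp only [cond_true, cond_false, one_mul, neg_mul]
    rw [hrank g hg]
    exact add_neg_cancel _

end bundled

section unbundled

variable (p : ℕ) [Fact p.Prime] {G : Type u} [Group G] [Finite G] {B : Type w} [AddCommGroup B]
  (φ : AdditiveInvariant (ZMod p) G B)

/-- **Reduction of lattices (R4a), two-lattice form, unbundled.** -/
theorem map_lattice_eq (Λ Λ' : Type v) [AddCommGroup Λ] [Module.Free ℤ Λ] [Module.Finite ℤ Λ]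
    [AddCommGroup Λ'] [Module.Free ℤ Λ'] [Module.Finite ℤ Λ']
    (α : Representation ℤ G Λ) (α' : Representation ℤ G Λ')
    (hrank : ∀ g : G, (orderOf g).Coprime p →
      finrank ℤ (LinearMap.ker (α g - 1)) = finrank ℤ (LinearMap.ker (α' g - 1)))
    (W W' : Type u) [AddCommGroup W] [Module (ZMod p) W] [Module.Finite (ZMod p) W]
    [AddCommGroup W'] [Module (ZMod p) W'] [Module.Finite (ZMod p) W']
    (ρ : Representation (ZMod p) G W) (ρ' : Representation (ZMod p) G W')
    (q : Λ →+ W) (hq : Function.Surjective q) (hqK : ∀ e, q e = 0 ↔ ∃ e', e = p • e')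
    (hqα : ∀ g e, q (α g e) = ρ g (q e))
    (q' : Λ' →+ W') (hq' : Function.Surjective q') (hq'K : ∀ e, q' e = 0 ↔ ∃ e', e = p • e')
    (hq'α : ∀ g e, q' (α' g e) = ρ' g (q' e)) :
    φ.toFun W ρ = φ.toFun W' ρ' :=
  map_latticeModel_eq p φ ⟨Λ, α, W, ρ, q, hq, hqK, hqα⟩ ⟨Λ', α', W', ρ', q', hq', hq'K, hq'α⟩ hrank

theorem mem_ker_sub_one_iff {R : Type*} [CommRing R] {M : Type*} [AddCommGroup M] [Module R M]
    (f : Module.End R M) (x : M) : x ∈ LinearMap.ker (f - 1) ↔ f x = x := by
  rw [LinearMap.mem_ker, LinearMap.sub_apply, Module.End.one_apply, sub_eq_zero]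

end unbundled

end Fermat.Agent.TW.GLOB.LatticeRed9
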