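/-
Chapter T / GLOB, brick R4a-final (helper9): the all-in-one corollary of R4a + R4c for a finitely
generated abelian group `E` with an action of a finite group `C`, compared with a permutation
lattice.

* `quotEnd`, `finrank_ker_quotEnd_sub_one`: the fixed lattices of a finite order automorphism on `E`
  and on `E / tors` have the same rank.
* `permRep X k`: the permutation representation `(g f) x = f (g⁻¹ x)` on `X → k`;
  `finrank_permRep_fixed`: the rank of the `g`-fixed lattice of `X → ℤ` is the number of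
  `⟨g⟩`-orbits on `X`.
* `tensorModel`, `trivModel`, `permModel`: models (`LatticeRed9.LatticeModel`) of the reductions
  mod `p` of a lattice `Λ` (`𝔽_p ⊗ Λ`), of `ℤ` (`𝔽_p`) and of `X → ℤ` (`X → 𝔽_p`).
* `map_units_eq` (**R4a-final**): if `rank E^{⟨g⟩} + 1 = #(X / ⟨g⟩)` for all `p`-regular `g`, then
  `φ (E / p) + φ (𝔽_p) = φ (E[p]) + φ (𝔽_p[X])` for every additive invariant `φ`.
* `map_units_eq_of_subgroups`: the same with the hypothesis for all subgroups `C' ≤ C`.
-/
import Mathlib
import Fermat.Agent.TW.GLOB.HerbrandQuot9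
import Fermat.Agent.TW.GLOB.LatticeRed9

namespace Fermat.Agent.TW.GLOB.LatticeRedFinal9

open Module TensorProduct
open Fermat.Agent.TW.GLOB.IndDefs9 Fermat.Agent.TW.GLOB.HerbrandQuot9
  Fermat.Agent.TW.GLOB.LatticeRed9

universe w

section torsionQuot

variable {E : Type*} [AddCommGroup E]

theorem map_mem_torsion (f : Module.End ℤ E) {x : E} (hx : x ∈ Submodule.torsion ℤ E) :
    f x ∈ Submodule.torsion ℤ E := by
  obtain ⟨a, ha⟩ := (Submodule.mem_torsion_iff x).mp hx
  rw [Submonoid.smul_def] at ha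
  exact (Submodule.mem_torsion_iff _).mpr
    ⟨a, by rw [Submonoid.smul_def, ← map_smul, ha, map_zero]⟩

/-- The endomorphism of `E / tors` induced by an endomorphism of `E`, as a monoid homomorphism. -/
def quotEnd : Module.End ℤ E →* Module.End ℤ (E ⧸ Submodule.torsion ℤ E) where
  toFun f := (Submodule.torsion ℤ E).mapQ _ f (fun _ hx => map_mem_torsion f hx)
  map_one' := by
    ext x
    rfl
  map_mul' f g := by
    ext x
    rfl

@[simp] theorem quotEnd_mk (f : Module.End ℤ E) (x : E) :
    quotEnd f (Submodule.Quotient.mk x) = Submodule.Quotient.mk (f x) := rfl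

variable [Module.Finite ℤ E]

/-- The fixed lattices of `f` on `E` and of the induced map on `E / tors` have the same rank. -/
theorem finrank_ker_quotEnd_sub_one (f : Module.End ℤ E) {r : ℕ} (hr : 0 < r) (hf : f ^ r = 1) :
    finrank ℤ (LinearMap.ker (quotEnd f - 1)) = finrank ℤ (LinearMap.ker (f - 1)) := by
  obtain ⟨M, hM⟩ : ∃ M, M = LinearMap.ker (f - 1) := ⟨_, rfl⟩
  obtain ⟨M', hM'⟩ : ∃ M', M' = LinearMap.ker (quotEnd f - 1) := ⟨_, rfl⟩
  rw [← hM, ← hM']
  have hmemM : ∀ x, x ∈ M ↔ f x = x := fun x => by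
    rw [hM, LinearMap.mem_ker, LinearMap.sub_apply, Module.End.one_apply, sub_eq_zero]
  have hmemM' : ∀ x, x ∈ M' ↔ quotEnd f x = x := fun x => by
    rw [hM', LinearMap.mem_ker, LinearMap.sub_apply, Module.End.one_apply, sub_eq_zero]
  let g : M →ₗ[ℤ] E ⧸ Submodule.torsion ℤ E := (Submodule.torsion ℤ E).mkQ ∘ₗ M.subtype
  -- (1) `finrank M = finrank (range g)`
  have h1 : finrank ℤ M = finrank ℤ (LinearMap.range g) := by
    have h := Submodule.finrank_quotient_add_finrank (LinearMap.ker g)
    have hker : finrank ℤ (LinearMap.ker g) = 0 := by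
      apply Module.finrank_eq_zero_of_rank_eq_zero
      rw [rank_eq_zero_iff]
      rintro ⟨x, hx⟩
      have hxT : (x : E) ∈ Submodule.torsion ℤ E := by
        have := LinearMap.mem_ker.mp hx
        simpa [g] using this
      obtain ⟨a, ha⟩ := (Submodule.mem_torsion_iff _).mp hxT
      rw [Submonoid.smul_def] at ha
      refine ⟨(a : ℤ), nonZeroDivisors.coe_ne_zero a, ?_⟩
      apply Subtype.ext
      apply Subtype.ext
      simpa using ha
    rw [hker, add_zero, (LinearMap.quotKerEquivRange g).finrank_eq] at h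
    exact h.symm
  -- (2) `range g ≤ M'`
  have h2 : LinearMap.range g ≤ M' := by
    rintro _ ⟨m, rfl⟩
    rw [hmemM']
    show quotEnd f (Submodule.Quotient.mk (m : E)) = Submodule.Quotient.mk (m : E)
    rw [quotEnd_mk, (hmemM _).mp m.2]
  -- (3) `r • M' ≤ range g`
  have hinj : Function.Injective ((r : ℤ) • (LinearMap.id : (E ⧸ Submodule.torsion ℤ E) →ₗ[ℤ] (E ⧸ Submodule.torsion ℤ E))) := by
    intro x y hxy
    exact smul_right_injective (E ⧸ Submodule.torsion ℤ E) (Int.natCast_ne_zero.mpr hr.ne') hxy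
  have h3 : M'.map ((r : ℤ) • (LinearMap.id : (E ⧸ Submodule.torsion ℤ E) →ₗ[ℤ] (E ⧸ Submodule.torsion ℤ E))) ≤ LinearMap.range g := by
    rintro _ ⟨x', hx', rfl⟩
    obtain ⟨x, rfl⟩ := (Submodule.torsion ℤ E).mkQ_surjective x'
    have hfix : ∀ i : ℕ, (quotEnd f ^ i) ((Submodule.torsion ℤ E).mkQ x) = (Submodule.torsion ℤ E).mkQ x := by
      intro i
      induction i with
      | zero => simp
      | succ i ih => rw [pow_succ, Module.End.mul_apply, (hmemM' _).mp hx', ih]
    have hN : (∑ i ∈ Finset.range r, f ^ i) x ∈ M := by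
      rw [hM, LinearMap.mem_ker, ← Module.End.mul_apply, mul_geom_sum, hf, sub_self,
        LinearMap.zero_apply]
    refine ⟨⟨_, hN⟩, ?_⟩
    show (Submodule.torsion ℤ E).mkQ ((∑ i ∈ Finset.range r, f ^ i) x) = _
    rw [LinearMap.sum_apply, map_sum]
    have : ∀ i ∈ Finset.range r, (Submodule.torsion ℤ E).mkQ ((f ^ i) x) = (Submodule.torsion ℤ E).mkQ x := by
      intro i _
      rw [← hfix i, ← map_pow]
      rfl
    rw [Finset.sum_congr rfl this, Finset.sum_const, Finset.card_range, LinearMap.smul_apply,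
      LinearMap.id_apply, natCast_zsmul]
  have h4 : finrank ℤ M' = finrank ℤ (M'.map ((r : ℤ) • (LinearMap.id : (E ⧸ Submodule.torsion ℤ E) →ₗ[ℤ] (E ⧸ Submodule.torsion ℤ E)))) :=
    (Submodule.equivMapOfInjective _ hinj M').finrank_eq
  have h5 := Submodule.finrank_mono h2
  have h6 := Submodule.finrank_mono h3
  omega

end torsionQuot

section perm

variable {C : Type*} [Group C] (X : Type*) [MulAction C X]

/-- The permutation representation on functions: `(g f) x = f (g⁻¹ x)`. -/
def permRep (k : Type*) [CommSemiring k] : Representation k C (X → k) where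
  toFun g := LinearMap.funLeft k k (fun x => g⁻¹ • x)
  map_one' := by
    ext f x
    simp [LinearMap.funLeft]
  map_mul' g h := by
    ext f x
    simp [LinearMap.funLeft, mul_smul]

@[simp] theorem permRep_apply (k : Type*) [CommSemiring k] (g : C) (f : X → k) (x : X) :
    permRep X k g f x = f (g⁻¹ • x) := rfl

variable {X}

theorem permRep_fixed_iff {k : Type*} [CommRing k] (g : C) (f : X → k) :
    f ∈ LinearMap.ker (permRep X k g - 1) ↔ ∀ x, f (g • x) = f x := by
  rw [LinearMap.mem_ker, LinearMap.sub_apply, Module.End.one_apply, sub_eq_zero]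
  constructor
  · intro h x
    have := congrFun h (g • x)
    rw [permRep_apply, inv_smul_smul] at this
    exact this.symm
  · intro h
    funext x
    rw [permRep_apply]
    have := h (g⁻¹ • x)
    rw [smul_inv_smul] at this
    exact this.symm

theorem fixed_zpow {k : Type*} {g : C} {f : X → k} (h : ∀ x, f (g • x) = f x) (n : ℤ) (x : X) :
    f (g ^ n • x) = f x := by
  induction n using Int.induction_on generalizing x with
  | zero => simp
  | succ n ih => rw [zpow_add_one, mul_smul, ih, h]
  | pred n ih =>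
    rw [zpow_sub_one, mul_smul, ih]
    have := h (g⁻¹ • x)
    rw [smul_inv_smul] at this
    exact this.symm

/-- Functions on the orbit space are the `g`-invariant functions. -/
noncomputable def orbitFunEquiv (k : Type*) [CommRing k] (g : C) :
    (MulAction.orbitRel.Quotient (Subgroup.zpowers g) X → k) ≃ₗ[k]
      LinearMap.ker (permRep X k g - 1) where
  toFun F := ⟨fun x => F (Quotient.mk'' x), by
    rw [permRep_fixed_iff]
    intro x
    congr 1
    apply Quotient.sound'
    exact ⟨⟨g, Subgroup.mem_zpowers g⟩, rfl⟩⟩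
  map_add' F F' := rfl
  map_smul' a F := rfl
  invFun f := fun q => Quotient.liftOn' q f.1 (by
    rintro x y ⟨⟨z, n, rfl⟩, rfl⟩
    exact fixed_zpow ((permRep_fixed_iff g f.1).mp f.2) n y)
  left_inv F := by
    funext q
    induction q using Quotient.inductionOn' with
    | h x => rfl
  right_inv f := by
    apply Subtype.ext
    funext x
    rfl

/-- The rank of the fixed lattice of `g` in the permutation lattice is the number of orbits. -/
theorem finrank_permRep_fixed [Finite X] (g : C) :
    finrank ℤ (LinearMap.ker (permRep X ℤ g - 1))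
      = Nat.card (MulAction.orbitRel.Quotient (Subgroup.zpowers g) X) := by
  classical
  have : Fintype (MulAction.orbitRel.Quotient (Subgroup.zpowers g) X) := Fintype.ofFinite _
  rw [← (orbitFunEquiv ℤ g).finrank_eq, Module.finrank_fintype_fun_eq_card,
    Nat.card_eq_fintype_card]

end perm

section models

variable (p : ℕ) [Fact p.Prime]

/-- For a free `ℤ`-module, the kernel of `Λ → 𝔽_p ⊗ Λ` is `pΛ`. -/
theorem one_tmul_eq_zero_iff {Λ : Type*} [AddCommGroup Λ] [Module.Free ℤ Λ] (x : Λ) :
    (1 : ZMod p) ⊗ₜ[ℤ] x = 0 ↔ ∃ x', x = p • x' := by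
  constructor
  · intro h
    let b := Module.Free.chooseBasis ℤ Λ
    have h1 : ∀ i, (p : ℤ) ∣ b.repr x i := by
      intro i
      have h2 := congrArg (fun z => (b.baseChange (ZMod p)).repr z i) h
      simp only [Basis.baseChange_repr_tmul, map_zero, Finsupp.coe_zero, Pi.zero_apply,
        zsmul_eq_mul, mul_one] at h2
      exact (ZMod.intCast_zmod_eq_zero_iff_dvd _ p).mp h2
    refine ⟨b.repr.symm ((b.repr x).mapRange (fun n => n / (p : ℤ)) (by simp)), ?_⟩
    apply b.repr.injective
    ext i
    rw [map_nsmul, LinearEquiv.apply_symm_apply, Finsupp.smul_apply, Finsupp.mapRange_apply,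
      nsmul_eq_mul, Int.mul_ediv_cancel' (h1 i)]
  · rintro ⟨x', rfl⟩
    rw [← TensorProduct.smul_tmul, nsmul_eq_mul, mul_one, ZMod.natCast_self, zero_tmul]

variable {C : Type*} [Group C]

/-- Base change of an integral representation to `𝔽_p`. -/
def baseChangeRep {Λ : Type*} [AddCommGroup Λ] (ρ : Representation ℤ C Λ) :
    Representation (ZMod p) C (ZMod p ⊗[ℤ] Λ) where
  toFun g := (ρ g).baseChange (ZMod p)
  map_one' := by rw [map_one]; exact LinearMap.baseChange_one _ _
  map_mul' g h := by rw [map_mul]; exact LinearMap.baseChange_mul _ _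

@[simp] theorem baseChangeRep_tmul {Λ : Type*} [AddCommGroup Λ] (ρ : Representation ℤ C Λ)
    (g : C) (a : ZMod p) (x : Λ) : baseChangeRep p ρ g (a ⊗ₜ x) = a ⊗ₜ (ρ g x) := rfl

/-- The reduction map `Λ → 𝔽_p ⊗ Λ`. -/
def redMap (Λ : Type*) [AddCommGroup Λ] : Λ →+ ZMod p ⊗[ℤ] Λ :=
  (TensorProduct.mk ℤ (ZMod p) Λ 1).toAddMonoidHom

@[simp] theorem redMap_apply {Λ : Type*} [AddCommGroup Λ] (x : Λ) :
    redMap p Λ x = (1 : ZMod p) ⊗ₜ[ℤ] x := rfl

/-- The canonical model of the reduction mod `p` of a lattice. -/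
noncomputable def tensorModel {Λ : Type} [AddCommGroup Λ] [Module.Free ℤ Λ] [Module.Finite ℤ Λ]
    {C : Type} [Group C] (ρ : Representation ℤ C Λ) : LatticeModel.{0, 0} p C where
  L := Λ
  α := ρ
  W := ZMod p ⊗[ℤ] Λ
  ρ := baseChangeRep p ρ
  q := redMap p Λ
  surj := fun z => by
    obtain ⟨x, rfl⟩ := exists_one_tmul p z
    exact ⟨x, rfl⟩
  ker_eq := one_tmul_eq_zero_iff p
  equivariant := fun g e => rfl

/-- The trivial lattice `ℤ` with its reduction `𝔽_p`. -/
noncomputable def trivModel (C : Type) [Group C] : LatticeModel.{0, 0} p C where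
  L := ℤ
  α := Representation.trivial ℤ C ℤ
  W := ZMod p
  ρ := Representation.trivial (ZMod p) C (ZMod p)
  q := Int.castAddHom (ZMod p)
  surj := ZMod.intCast_surjective
  ker_eq := fun n => by
    rw [Int.coe_castAddHom, ZMod.intCast_zmod_eq_zero_iff_dvd]
    constructor
    · rintro ⟨n', rfl⟩
      exact ⟨n', by rw [nsmul_eq_mul]⟩
    · rintro ⟨n', rfl⟩
      exact ⟨n', by rw [nsmul_eq_mul]⟩
  equivariant := fun g e => rfl

/-- The permutation lattice `X → ℤ` with its reduction `X → 𝔽_p`. -/
noncomputable def permModel (C : Type) [Group C] (X : Type) [Finite X] [MulAction C X] :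
    LatticeModel.{0, 0} p C where
  L := X → ℤ
  α := permRep X ℤ
  W := X → ZMod p
  ρ := permRep X (ZMod p)
  q := (Int.castAddHom (ZMod p)).compLeft X
  surj := fun F => ⟨fun x => ((F x).val : ℤ), by
    funext x
    simp⟩
  ker_eq := fun f => by
    constructor
    · intro h
      refine ⟨fun x => f x / (p : ℤ), ?_⟩
      funext x
      have h1 : ((f x : ℤ) : ZMod p) = 0 := congrFun h x
      rw [ZMod.intCast_zmod_eq_zero_iff_dvd] at h1
      rw [Pi.smul_apply, nsmul_eq_mul, Int.mul_ediv_cancel' h1]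
    · rintro ⟨f', rfl⟩
      funext x
      simp
  equivariant := fun g f => rfl

end models

section subgroups

variable {C : Type*} [Group C] {E : Type*} [AddCommGroup E]

/-- The subgroup of elements fixed by a subgroup `C'`, as a `ℤ`-submodule. -/
def fixedSubmodule (α : C → E →+ E) (C' : Subgroup C) : Submodule ℤ E where
  carrier := {e | ∀ g ∈ C', α g e = e}
  add_mem' := fun {a b} ha hb g hg => by rw [map_add, ha g hg, hb g hg]
  zero_mem' := fun g _ => map_zero _
  smul_mem' := fun n e he g hg => by rw [map_zsmul, he g hg]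

theorem mem_fixedSubmodule (α : C → E →+ E) (C' : Subgroup C) (e : E) :
    e ∈ fixedSubmodule α C' ↔ ∀ g ∈ C', α g e = e := Iff.rfl

theorem fixedSubmodule_zpowers (α : C → E →+ E) (hα1 : ∀ e, α 1 e = e)
    (hαmul : ∀ g h e, α (g * h) e = α g (α h e)) (g : C) :
    fixedSubmodule α (Subgroup.zpowers g) = LinearMap.ker ((α g).toIntLinearMap - 1) := by
  ext e
  rw [mem_fixedSubmodule, LinearMap.mem_ker, LinearMap.sub_apply, Module.End.one_apply,
    sub_eq_zero, AddMonoidHom.coe_toIntLinearMap]
  constructor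
  · intro h
    exact h g (Subgroup.mem_zpowers g)
  · intro h
    have hinv : α g⁻¹ e = e := by
      have := hαmul g⁻¹ g e
      rw [inv_mul_cancel, hα1, h] at this
      exact this.symm
    rintro _ ⟨n, rfl⟩
    show α (g ^ n) e = e
    induction n using Int.induction_on with
    | zero => rw [zpow_zero, hα1]
    | succ n ih => rw [zpow_add_one, hαmul, h, ih]
    | pred n ih => rw [zpow_sub_one, hαmul, hinv, ih]

end subgroups

section final

variable {C : Type} [Group C] {E : Type} [AddCommGroup E]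

/-- An action by additive maps, as an integral representation. -/
def actionRep (α : C → E →+ E) (hα1 : ∀ e, α 1 e = e)
    (hαmul : ∀ g h e, α (g * h) e = α g (α h e)) : Representation ℤ C E where
  toFun g := (α g).toIntLinearMap
  map_one' := by
    ext e
    exact hα1 e
  map_mul' g h := by
    ext e
    exact hαmul g h e

@[simp] theorem actionRep_apply (α : C → E →+ E) (hα1 : ∀ e, α 1 e = e)
    (hαmul : ∀ g h e, α (g * h) e = α g (α h e)) (g : C) (e : E) :
    actionRep α hα1 hαmul g e = α g e := rfl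

theorem finite_torsion [Module.Finite ℤ E] : Finite (AddCommGroup.torsion E) := by
  have h1 : Finite (Submodule.torsion ℤ E) :=
    Module.finite_of_fg_torsion _ (Submodule.torsion_isTorsion (R := ℤ) (M := E))
  have h2 : (Submodule.torsion ℤ E).toAddSubgroup = AddCommGroup.torsion E :=
    Submodule.torsion_int
  rw [← h2]
  exact h1

theorem mem_torsion_iff_isOfFinAddOrder (x : E) :
    x ∈ Submodule.torsion ℤ E ↔ IsOfFinAddOrder x := by
  have h2 : (Submodule.torsion ℤ E).toAddSubgroup = AddCommGroup.torsion E :=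
    Submodule.torsion_int
  rw [← Submodule.mem_toAddSubgroup, h2, AddCommGroup.mem_torsion]

variable (p : ℕ) [Fact p.Prime] [Finite C] {B : Type w} [AddCommGroup B]
  (φ : AdditiveInvariant (ZMod p) C B)

/-- **R4a-final.**  `E` a finitely generated abelian group with an action of the finite group `C`,
`X` a finite `C`-set such that `rank E^{⟨g⟩} + 1 = #(X / ⟨g⟩)` for every `p`-regular `g ∈ C`.  Then
for all models `V ≅ E[p]`, `W ≅ E / p E`:
`φ W + φ 𝔽_p = φ V + φ (𝔽_p[X])`. -/
theorem map_units_eq [Module.Finite ℤ E] (α : C → E →+ E) (hα1 : ∀ e, α 1 e = e)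
    (hαmul : ∀ g h e, α (g * h) e = α g (α h e))
    (X : Type) [Finite X] [MulAction C X]
    (hrank : ∀ g : C, (orderOf g).Coprime p →
      finrank ℤ (LinearMap.ker ((α g).toIntLinearMap - 1)) + 1
        = Nat.card (MulAction.orbitRel.Quotient (Subgroup.zpowers g) X))
    (V W : Type) [AddCommGroup V] [Module (ZMod p) V] [Module.Finite (ZMod p) V]
    [AddCommGroup W] [Module (ZMod p) W] [Module.Finite (ZMod p) W]
    (ρV : Representation (ZMod p) C V) (ρW : Representation (ZMod p) C W)
    (i : V →+ E) (hi : Function.Injective i) (hiK : ∀ e, e ∈ i.range ↔ p • e = 0)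
    (hiα : ∀ g v, i (ρV g v) = α g (i v))
    (q : E →+ W) (hq : Function.Surjective q) (hqK : ∀ e, q e = 0 ↔ ∃ e', e = p • e')
    (hqα : ∀ g e, q (α g e) = ρW g (q e)) :
    φ.toFun W ρW + φ.toFun (ZMod p) (Representation.trivial (ZMod p) C (ZMod p))
      = φ.toFun V ρV + φ.toFun (X → ZMod p) (permRep X (ZMod p)) := by
  have hfinT : Finite (AddCommGroup.torsion E) := finite_torsion
  -- the lattice `E / tors`
  let ρE : Representation ℤ C E := actionRep α hα1 hαmul
  let ρ₁ : Representation ℤ C (E ⧸ Submodule.torsion ℤ E) := quotEnd.comp ρE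
  let R₁ : LatticeModel.{0, 0} p C := tensorModel p ρ₁
  let R₂ : LatticeModel.{0, 0} p C := trivModel p C
  let R₃ : LatticeModel.{0, 0} p C := permModel p C X
  -- R4a for the three lattices
  let R : Fin 3 → LatticeModel.{0, 0} p C := fun j =>
    match j with
    | 0 => R₁
    | 1 => R₂
    | 2 => R₃
  let c : Fin 3 → ℤ := fun j =>
    match j with
    | 0 => 1
    | 1 => 1
    | 2 => -1
  have key := sum_smul_latticeModel_eq_zero p φ R c ?_
  · rw [Fin.sum_univ_three] at key
    change (1 : ℤ) • φ.toFun R₁.W R₁.ρ + (1 : ℤ) • φ.toFun R₂.W R₂.ρ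
      + (-1 : ℤ) • φ.toFun R₃.W R₃.ρ = 0 at key
    rw [one_smul, one_smul, neg_smul, one_smul] at key
    -- R4c for `E`
    have h4c := map_quot_eq_torsion_add_free p φ E α V W
      (ZMod p ⊗[ℤ] (E ⧸ Submodule.torsion ℤ E)) ρV ρW (baseChangeRep p ρ₁) i hi hiK hiα q hq hqK hqα
      ((redMap p _).comp (Submodule.torsion ℤ E).mkQ.toAddMonoidHom) ?_ ?_ ?_
    · rw [h4c]
      change φ.toFun V ρV + φ.toFun R₁.W R₁.ρ + φ.toFun R₂.W R₂.ρ = φ.toFun V ρV + φ.toFun R₃.W R₃.ρ
      rw [add_assoc]
      congr 1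
      exact eq_neg_of_add_eq_zero_left key |>.trans (neg_neg _)
    · intro z
      obtain ⟨x, rfl⟩ := exists_one_tmul p z
      obtain ⟨e, rfl⟩ := (Submodule.torsion ℤ E).mkQ_surjective x
      exact ⟨e, rfl⟩
    · intro e
      rw [AddMonoidHom.comp_apply, redMap_apply, one_tmul_eq_zero_iff]
      constructor
      · rintro ⟨x', hx'⟩
        obtain ⟨e', rfl⟩ := (Submodule.torsion ℤ E).mkQ_surjective x'
        refine ⟨e - p • e', e', ?_, by abel⟩
        rw [← mem_torsion_iff_isOfFinAddOrder, ← Submodule.Quotient.mk_eq_zero,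
          Submodule.Quotient.mk_sub, Submodule.Quotient.mk_smul]
        exact sub_eq_zero.mpr hx'
      · rintro ⟨t, e', ht, rfl⟩
        refine ⟨(Submodule.torsion ℤ E).mkQ e', ?_⟩
        rw [map_add, map_nsmul]
        have : (Submodule.torsion ℤ E).mkQ.toAddMonoidHom t = 0 :=
          (Submodule.Quotient.mk_eq_zero _).mpr ((mem_torsion_iff_isOfFinAddOrder t).mpr ht)
        rw [this, zero_add]
        rfl
    · intro g e
      rfl
  · intro g hg
    rw [Fin.sum_univ_three]
    change (1 : ℤ) * (finrank ℤ (LinearMap.ker (R₁.α g - 1)) : ℤ)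
      + (1 : ℤ) * (finrank ℤ (LinearMap.ker (R₂.α g - 1)) : ℤ)
      + (-1 : ℤ) * (finrank ℤ (LinearMap.ker (R₃.α g - 1)) : ℤ) = 0
    have h1 : finrank ℤ (LinearMap.ker (R₁.α g - 1))
        = finrank ℤ (LinearMap.ker ((α g).toIntLinearMap - 1)) := by
      refine finrank_ker_quotEnd_sub_one (ρE g) (orderOf_pos g) ?_
      rw [← map_pow, pow_orderOf_eq_one, map_one]
    have h2 : finrank ℤ (LinearMap.ker (R₂.α g - 1)) = 1 := by
      have : R₂.α g - 1 = 0 := sub_self _
      rw [this, LinearMap.ker_zero, finrank_top]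
      exact Module.finrank_self ℤ
    have h3 : finrank ℤ (LinearMap.ker (R₃.α g - 1))
        = Nat.card (MulAction.orbitRel.Quotient (Subgroup.zpowers g) X) :=
      finrank_permRep_fixed g
    rw [h1, h2, h3, ← hrank g hg]
    push_cast
    ring

/-- **R4a-final, subgroup form**: the hypothesis is stated for the fixed subgroups
`fixedSubmodule α C'` of the cyclic subgroups `C' = ⟨g⟩`. -/
theorem map_units_eq_of_subgroups [Module.Finite ℤ E] (α : C → E →+ E) (hα1 : ∀ e, α 1 e = e)
    (hαmul : ∀ g h e, α (g * h) e = α g (α h e))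
    (X : Type) [Finite X] [MulAction C X]
    (hrank : ∀ g : C, (orderOf g).Coprime p →
      finrank ℤ (fixedSubmodule α (Subgroup.zpowers g)) + 1
        = Nat.card (MulAction.orbitRel.Quotient (Subgroup.zpowers g) X))
    (V W : Type) [AddCommGroup V] [Module (ZMod p) V] [Module.Finite (ZMod p) V]
    [AddCommGroup W] [Module (ZMod p) W] [Module.Finite (ZMod p) W]
    (ρV : Representation (ZMod p) C V) (ρW : Representation (ZMod p) C W)
    (i : V →+ E) (hi : Function.Injective i) (hiK : ∀ e, e ∈ i.range ↔ p • e = 0)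
    (hiα : ∀ g v, i (ρV g v) = α g (i v))
    (q : E →+ W) (hq : Function.Surjective q) (hqK : ∀ e, q e = 0 ↔ ∃ e', e = p • e')
    (hqα : ∀ g e, q (α g e) = ρW g (q e)) :
    φ.toFun W ρW + φ.toFun (ZMod p) (Representation.trivial (ZMod p) C (ZMod p))
      = φ.toFun V ρV + φ.toFun (X → ZMod p) (permRep X (ZMod p)) := by
  refine map_units_eq p φ α hα1 hαmul X ?_ V W ρV ρW i hi hiK hiα q hq hqK hqα
  intro g hg
  rw [← fixedSubmodule_zpowers α hα1 hαmul g]
  exact hrank g hg


end final

end Fermat.Agent.TW.GLOB.LatticeRedFinal9
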