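/-
Chapter T / GLOB, brick (U1) — helper9: **the rank of the fixed `S`-units of a Galois number field**.

`L/ℚ` a finite Galois extension (abstract number field, any `Algebra ℚ L` instance), `S` a finite set
of rational primes, `E = ker (divT S L)` the `S`-units of `L` (model of `PT/GLOB/Interface23`),
`G = Gal(L/ℚ)`.

* `PrimeOver S L`: the primes of `𝓞 L` above `S`, with the `G`-action of
  `Interface23.instMulActionHeightOne`; `XNat S L = PrimeOver S L ⊕ InfinitePlace L`;
* `unitAct S L g : Additive E →+ Additive E` the Galois action (`UnitsBridge24.unitsTSmul`),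
  `unitAct_one`, `unitAct_mul`, `coe_unitAct`;
* `card_orbitQuotient_eq_of_fibers`, `card_orbitQuotient_sum`: counting orbits;
* **`finrank_fixed_add_one`**: for every `g ∈ G`,
  `rank_ℤ E^{g} + 1 = #(⟨g⟩ \ XNat S L)` (Dirichlet's `S`-unit theorem for the fixed field of `g`);
* **`map_units_eq_numberField`**: for every subgroup `C ≤ G`, every additive invariant `φ` of
  `𝔽_p[C]`-modules and all models `V ≅ E[p]`, `W ≅ E / p`:
  `φ W + φ 𝔽_p = φ V + φ (𝔽_p[XNat S L])` (via `LatticeRedFinal9.map_units_eq`).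
-/
import Mathlib
import Fermat.Agent.PT.GLOB.Interface23
import Fermat.Agent.PT.GLOB.UnitsBridge24
import Fermat.Agent.PT.GLOB.SUnitsGalois24
import Fermat.Agent.TW.GLOB.LatticeRedFinal9

set_option autoImplicit false
set_option linter.unusedSectionVars false

namespace Fermat.Agent.TW.GLOB.UnitRanks9

open NumberField IsDedekindDomain Module
open Fermat.Agent.PT.GLOB.Interface23 Fermat.Agent.PT.GLOB.UnitsBridge24
  Fermat.Agent.PT.GLOB.SUnits24 Fermat.Agent.PT.GLOB.PrimesAbove24
  Fermat.Agent.PT.GLOB.SUnitsGalois24 Fermat.Agent.PT.GLOB.HerbrandGroup24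
  Fermat.Agent.TW.GLOB.IndDefs9 Fermat.Agent.TW.GLOB.LatticeRedFinal9
open scoped Pointwise

/-! ### Counting orbits -/

section Orbits

/-- If the fibres of a surjection `f : X → Y` are exactly the `H`-orbits, then `#(H \ X) = #Y`. -/
theorem card_orbitQuotient_eq_of_fibers {H X Y : Type*} [Group H] [MulAction H X] (f : X → Y)
    (hf : Function.Surjective f) (hiff : ∀ x x', f x = f x' ↔ ∃ h : H, h • x = x') :
    Nat.card (MulAction.orbitRel.Quotient H X) = Nat.card Y := by
  let F : MulAction.orbitRel.Quotient H X → Y := fun q => Quotient.liftOn' q f (by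
    rintro a b ⟨h, rfl⟩
    exact ((hiff b (h • b)).2 ⟨h, rfl⟩).symm)
  have hF : Function.Bijective F := by
    constructor
    · intro q q' hqq'
      induction q using Quotient.inductionOn' with
      | h a =>
        induction q' using Quotient.inductionOn' with
        | h b =>
          obtain ⟨h, hh⟩ := (hiff a b).1 hqq'
          apply Quotient.sound'
          exact ⟨h⁻¹, by rw [← hh]; exact inv_smul_smul h a⟩
    · intro y
      obtain ⟨x, rfl⟩ := hf y
      exact ⟨Quotient.mk'' x, rfl⟩
  exact Nat.card_congr (Equiv.ofBijective F hF)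

/-- The orbits on a disjoint union. -/
theorem card_orbitQuotient_sum {H X Y : Type*} [Group H] [MulAction H X] [MulAction H Y]
    [Finite X] [Finite Y] :
    Nat.card (MulAction.orbitRel.Quotient H (X ⊕ Y)) =
      Nat.card (MulAction.orbitRel.Quotient H X) + Nat.card (MulAction.orbitRel.Quotient H Y) := by
  have hX : Finite (MulAction.orbitRel.Quotient H X) := Quotient.finite _
  have hY : Finite (MulAction.orbitRel.Quotient H Y) := Quotient.finite _
  rw [← Nat.card_sum]
  apply card_orbitQuotient_eq_of_fibers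
    (Sum.map (Quotient.mk'' : X → MulAction.orbitRel.Quotient H X)
      (Quotient.mk'' : Y → MulAction.orbitRel.Quotient H Y))
  · exact Sum.map_surjective.2 ⟨Quotient.mk''_surjective, Quotient.mk''_surjective⟩
  · rintro (a | a) (b | b)
    · rw [Sum.map_inl, Sum.map_inl, Sum.inl.injEq]
      constructor
      · intro h
        obtain ⟨h', hh'⟩ := Quotient.exact' h
        exact ⟨h'⁻¹, by rw [Sum.smul_inl, ← hh', inv_smul_smul]⟩
      · rintro ⟨h, hh⟩
        rw [Sum.smul_inl, Sum.inl.injEq] at hh
        apply Quotient.sound'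
        exact ⟨h⁻¹, by rw [← hh]; exact inv_smul_smul h a⟩
    · simp [Sum.smul_inl]
    · simp [Sum.smul_inr]
    · rw [Sum.map_inr, Sum.map_inr, Sum.inr.injEq]
      constructor
      · intro h
        obtain ⟨h', hh'⟩ := Quotient.exact' h
        exact ⟨h'⁻¹, by rw [Sum.smul_inr, ← hh', inv_smul_smul]⟩
      · rintro ⟨h, hh⟩
        rw [Sum.smul_inr, Sum.inr.injEq] at hh
        apply Quotient.sound'
        exact ⟨h⁻¹, by rw [← hh]; exact inv_smul_smul h a⟩

/-- The orbits of `⟨g⟩` do not depend on the ambient group. -/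
theorem card_orbitQuotient_zpowers_subgroup {G X : Type*} [Group G] [MulAction G X]
    (C : Subgroup G) (g : C) :
    Nat.card (MulAction.orbitRel.Quotient (Subgroup.zpowers g) X) =
      Nat.card (MulAction.orbitRel.Quotient (Subgroup.zpowers (g : G)) X) := by
  apply card_orbitQuotient_eq_of_fibers
    (Quotient.mk'' : X → MulAction.orbitRel.Quotient (Subgroup.zpowers (g : G)) X)
    Quotient.mk''_surjective
  intro x x'
  constructor
  · intro h
    obtain ⟨⟨_, n, rfl⟩, hh⟩ := Quotient.exact' h
    refine ⟨⟨g ^ (-n), ⟨-n, rfl⟩⟩, ?_⟩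
    change ((g ^ (-n) : C) : G) • x = x'
    rw [← hh]
    change ((g ^ (-n) : C) : G) • ((g : G) ^ n • x') = x'
    rw [Subgroup.coe_zpow, smul_smul, ← zpow_add, neg_add_cancel, zpow_zero, one_smul]
  · rintro ⟨⟨_, n, rfl⟩, hh⟩
    apply Quotient.sound'
    refine ⟨⟨(g : G) ^ (-n), ⟨-n, rfl⟩⟩, ?_⟩
    change (g : G) ^ (-n) • x' = x
    rw [← hh]
    change (g : G) ^ (-n) • (((g ^ n : C) : G) • x) = x
    rw [Subgroup.coe_zpow, smul_smul, ← zpow_add, neg_add_cancel, zpow_zero, one_smul]

end Orbits

/-! ### The places above `S ∪ {∞}` and the action on the `S`-units -/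

section Defs

variable (S : Finset Nat.Primes) (L : Type) [Field L] [NumberField L] [Algebra ℚ L]

/-- The primes of `𝓞 L` above the rational primes in `S`. -/
def PrimeOver : Type :=
  {P : HeightOneSpectrum (𝓞 L) // ∃ q ∈ S, (((q : ℕ) : ℤ) : 𝓞 L) ∈ P.asIdeal}

instance instFinitePrimeOver : Finite (PrimeOver S L) :=
  (finite_primesOverT S L).to_subtype

theorem card_primeOver : Nat.card (PrimeOver S L) = (primesOverT S L).card := by
  classical
  have e : PrimeOver S L ≃ {P // P ∈ primesOverT S L} :=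
    Equiv.subtypeEquivRight fun P => (mem_primesOverT S L P).symm
  rw [Nat.card_congr e, Nat.card_eq_fintype_card, Fintype.card_coe]

variable [IsGalois ℚ L]

noncomputable instance instMulActionPrimeOver : MulAction (L ≃ₐ[ℚ] L) (PrimeOver S L) where
  smul σ P := ⟨σ • P.1, by
    obtain ⟨q, hq, hmem⟩ := P.2
    exact ⟨q, hq, by rw [smul_asIdeal, natCast_mem_smul_iff]; exact hmem⟩⟩
  one_smul P := Subtype.ext (one_smul _ _)
  mul_smul σ τ P := Subtype.ext (mul_smul _ _ _)

theorem coe_smul_primeOver (σ : L ≃ₐ[ℚ] L) (P : PrimeOver S L) :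
    (σ • P : PrimeOver S L).1 = σ • P.1 := rfl

/-- The natural index set: the places of `L` above `S ∪ {∞}`. -/
abbrev XNat : Type := PrimeOver S L ⊕ InfinitePlace L

/-- The Galois action on the `S`-units (additive form). -/
noncomputable def unitAct (g : L ≃ₐ[ℚ] L) :
    Additive (divT S L).ker →+ Additive (divT S L).ker :=
  MonoidHom.toAdditive (unitsTSmul S ℚ L g)

theorem coe_unitAct (g : L ≃ₐ[ℚ] L) (x : (divT S L).ker) :
    (((Additive.toMul (unitAct S L g (Additive.ofMul x)) : (divT S L).ker) : Lˣ) : L) =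
      g ((x : Lˣ) : L) := rfl

/-- `unitAct` is the restriction of the action of `Interface23` on `Lˣ`. -/
theorem coe_unitAct_smul (g : L ≃ₐ[ℚ] L) (x : (divT S L).ker) :
    ((Additive.toMul (unitAct S L g (Additive.ofMul x)) : (divT S L).ker) : Lˣ) =
      g • (x : Lˣ) :=
  coe_unitsTSmul S ℚ L g x

theorem unitAct_one (e : Additive (divT S L).ker) : unitAct S L 1 e = e := by
  obtain ⟨x, rfl⟩ := Additive.ofMul.surjective e
  apply Additive.toMul.injective
  apply Subtype.ext
  apply Units.ext
  rfl

theorem unitAct_mul (g h : L ≃ₐ[ℚ] L) (e : Additive (divT S L).ker) :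
    unitAct S L (g * h) e = unitAct S L g (unitAct S L h e) := by
  obtain ⟨x, rfl⟩ := Additive.ofMul.surjective e
  apply Additive.toMul.injective
  apply Subtype.ext
  apply Units.ext
  rfl

instance instModuleFiniteUnits : Module.Finite ℤ (Additive (divT S L).ker) := by
  have e : Additive (sUnit L (primesOverT S L)) ≃ₗ[ℤ] Additive (divT S L).ker :=
    (MulEquiv.toAdditive (MulEquiv.subgroupCongr (ker_divT S L).symm)).toIntLinearEquiv
  exact Module.Finite.equiv e

end Defs

/-! ### The fixed field of `g` -/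

section Rank

variable (S : Finset Nat.Primes) (L : Type) [Field L] [NumberField L] [Algebra ℚ L] [IsGalois ℚ L]
  (g : L ≃ₐ[ℚ] L)

/-- The fixed field of `g`. -/
abbrev fixF : IntermediateField ℚ L := IntermediateField.fixedField (Subgroup.zpowers g)

theorem zpowers_le_fixingSubgroup : Subgroup.zpowers g ≤ (fixF L g).fixingSubgroup :=
  (IntermediateField.fixingSubgroup_fixedField (Subgroup.zpowers g)).ge

/-- The element of `Gal(L / L^g)` defined by an element of `⟨g⟩`. -/
noncomputable def toRel : Subgroup.zpowers g →* (L ≃ₐ[fixF L g] L) :=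
  (IntermediateField.fixingSubgroupEquiv (fixF L g)).toMonoidHom.comp
    (Subgroup.inclusion (zpowers_le_fixingSubgroup L g))

theorem toRel_apply (h : Subgroup.zpowers g) (x : L) : toRel L g h x = (h : L ≃ₐ[ℚ] L) x := rfl

theorem toRel_symm_apply (h : Subgroup.zpowers g) (x : L) :
    (toRel L g h).symm x = (h : L ≃ₐ[ℚ] L).symm x := by
  apply (toRel L g h).injective
  rw [AlgEquiv.apply_symm_apply, toRel_apply, AlgEquiv.apply_symm_apply]

theorem exists_toRel_eq (τ : L ≃ₐ[fixF L g] L) : ∃ h : Subgroup.zpowers g, toRel L g h = τ := by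
  have h1 : τ.restrictScalars ℚ ∈ (fixF L g).fixingSubgroup :=
    ((IntermediateField.fixingSubgroupEquiv (fixF L g)).symm τ).2
  rw [IntermediateField.fixingSubgroup_fixedField] at h1
  refine ⟨⟨τ.restrictScalars ℚ, h1⟩, ?_⟩
  ext x
  rfl

/-- The generator of `Gal(L / L^g)`. -/
noncomputable def relGen : L ≃ₐ[fixF L g] L := toRel L g ⟨g, Subgroup.mem_zpowers g⟩

theorem relGen_apply (x : L) : relGen L g x = g x := rfl

theorem mem_zpowers_relGen (τ : L ≃ₐ[fixF L g] L) : τ ∈ Subgroup.zpowers (relGen L g) := by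
  obtain ⟨⟨_, n, rfl⟩, rfl⟩ := exists_toRel_eq L g τ
  refine ⟨n, ?_⟩
  change relGen L g ^ n = toRel L g ⟨g ^ n, _⟩
  have : (⟨g ^ n, ⟨n, rfl⟩⟩ : Subgroup.zpowers g) = ⟨g, Subgroup.mem_zpowers g⟩ ^ n := by
    apply Subtype.ext
    rw [Subgroup.coe_zpow]
  rw [this, map_zpow]
  rfl

/-- The action of `h ∈ ⟨g⟩` on infinite places, computed in `Gal(L / L^g)`. -/
theorem smul_infinitePlace_eq (h : Subgroup.zpowers g) (w : InfinitePlace L) :
    (h : L ≃ₐ[ℚ] L) • w = toRel L g h • w := by
  ext x
  rw [InfinitePlace.smul_apply, InfinitePlace.smul_apply, toRel_symm_apply]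

/-- The action of `h ∈ ⟨g⟩` on finite places, computed in `Gal(L / L^g)`. -/
theorem smul_heightOne_eq (h : Subgroup.zpowers g) (P : HeightOneSpectrum (𝓞 L)) :
    (h : L ≃ₐ[ℚ] L) • P = smulH (fixF L g) L (toRel L g h) P := by
  apply HeightOneSpectrum.ext
  rw [smul_asIdeal, smulH_asIdeal]
  ext x
  rw [Ideal.mem_pointwise_smul_iff_inv_smul_mem, Ideal.mem_pointwise_smul_iff_inv_smul_mem]
  have : (h : L ≃ₐ[ℚ] L)⁻¹ • x = (toRel L g h)⁻¹ • x := by
    apply Subtype.ext
    change (h : L ≃ₐ[ℚ] L).symm (x : L) = (toRel L g h).symm (x : L)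
    rw [toRel_symm_apply]
  rw [this]

theorem card_orbit_infinitePlace :
    Nat.card (MulAction.orbitRel.Quotient (Subgroup.zpowers g) (InfinitePlace L)) =
      Nat.card (InfinitePlace (fixF L g)) := by
  apply card_orbitQuotient_eq_of_fibers
    (fun w : InfinitePlace L => w.comap (algebraMap (fixF L g) L))
    InfinitePlace.comap_surjective
  intro w w'
  constructor
  · intro hww'
    obtain ⟨σ, hσ⟩ := InfinitePlace.exists_smul_eq_of_comap_eq hww'
    obtain ⟨h, rfl⟩ := exists_toRel_eq L g σ
    refine ⟨h, ?_⟩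
    rw [Subgroup.smul_def, smul_infinitePlace_eq, hσ]
  · rintro ⟨h, rfl⟩
    rw [Subgroup.smul_def, smul_infinitePlace_eq]
    exact InfinitePlace.mem_orbit_iff.1 ⟨toRel L g h, rfl⟩

theorem under_mem_primesOverT_iff (P : HeightOneSpectrum (𝓞 L)) :
    P.under (𝓞 (fixF L g)) ∈ primesOverT S (fixF L g) ↔ P ∈ primesOverT S L := by
  rw [← above_primesOverT S L (fixF L g), mem_above]

theorem card_orbit_primeOver :
    Nat.card (MulAction.orbitRel.Quotient (Subgroup.zpowers g) (PrimeOver S L)) =
      (primesOverT S (fixF L g)).card := by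
  classical
  have hcard : Nat.card {v // v ∈ primesOverT S (fixF L g)} = (primesOverT S (fixF L g)).card := by
    rw [Nat.card_eq_fintype_card, Fintype.card_coe]
  rw [← hcard]
  apply card_orbitQuotient_eq_of_fibers
    (fun P : PrimeOver S L => (⟨P.1.under (𝓞 (fixF L g)),
      (under_mem_primesOverT_iff S L g P.1).2 ((mem_primesOverT S L P.1).2 P.2)⟩ :
        {v // v ∈ primesOverT S (fixF L g)}))
  · rintro ⟨v, hv⟩
    obtain ⟨w, hw⟩ := exists_under_eq (fixF L g) L v
    have hwS : w ∈ primesOverT S L := by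
      rw [← under_mem_primesOverT_iff S L g, hw]
      exact hv
    exact ⟨⟨w, (mem_primesOverT S L w).1 hwS⟩, Subtype.ext hw⟩
  · intro P P'
    rw [Subtype.mk.injEq]
    constructor
    · intro hPP'
      have : P.1.asIdeal.LiesOver (P.1.under (𝓞 (fixF L g))).asIdeal := ⟨rfl⟩
      have : P'.1.asIdeal.LiesOver (P.1.under (𝓞 (fixF L g))).asIdeal := ⟨by rw [hPP']; rfl⟩
      obtain ⟨σ, hσ⟩ := Ideal.exists_smul_eq_of_isGaloisGroup
        (P.1.under (𝓞 (fixF L g))).asIdeal P.1.asIdeal P'.1.asIdeal (L ≃ₐ[fixF L g] L)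
      obtain ⟨h, rfl⟩ := exists_toRel_eq L g σ
      refine ⟨h, ?_⟩
      apply Subtype.ext
      rw [Subgroup.smul_def, coe_smul_primeOver, smul_heightOne_eq]
      apply HeightOneSpectrum.ext
      rw [smulH_asIdeal]
      exact hσ
    · rintro ⟨h, rfl⟩
      rw [Subgroup.smul_def, coe_smul_primeOver, smul_heightOne_eq, under_smulH]

/-- The `g`-fixed `S`-units are the `S`-units of the fixed field. -/
theorem finrank_fixed :
    finrank ℤ (LinearMap.ker ((unitAct S L g).toIntLinearMap - 1)) =
      finrank ℤ (Additive (sUnit (fixF L g) (primesOverT S (fixF L g)))) := by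
  obtain ⟨f, hf⟩ : ∃ f : Additive (sUnit (fixF L g) (primesOverT S (fixF L g))) →ₗ[ℤ]
      Additive (divT S L).ker, ∀ y, f (Additive.ofMul y) =
        Additive.ofMul ((unitsTEquiv S (fixF L g) L).symm
          (extHom (fixF L g) L (primesOverT S (fixF L g)) y)) :=
    ⟨(MonoidHom.toAdditive ((unitsTEquiv S (fixF L g) L).symm.toMonoidHom.comp
      (extHom (fixF L g) L (primesOverT S (fixF L g))))).toIntLinearMap, fun y => rfl⟩
  have hinj : Function.Injective f := by
    intro a b hab
    obtain ⟨y, rfl⟩ := Additive.ofMul.surjective a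
    obtain ⟨y', rfl⟩ := Additive.ofMul.surjective b
    rw [hf, hf] at hab
    have h1 := (unitsTEquiv S (fixF L g) L).symm.injective (Additive.ofMul.injective hab)
    rw [extHom_injective (fixF L g) L _ h1]
  have hrange : LinearMap.range f = LinearMap.ker ((unitAct S L g).toIntLinearMap - 1) := by
    ext e
    obtain ⟨x, rfl⟩ := Additive.ofMul.surjective e
    rw [LinearMap.mem_range, LinearMap.mem_ker, LinearMap.sub_apply, Module.End.one_apply,
      sub_eq_zero, AddMonoidHom.coe_toIntLinearMap]
    constructor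
    · rintro ⟨y, hy⟩
      obtain ⟨y, rfl⟩ := Additive.ofMul.surjective y
      rw [← hy, hf]
      apply Additive.toMul.injective
      apply Subtype.ext
      apply Units.ext
      change g (algebraMap (fixF L g) L ((y : (fixF L g)ˣ) : fixF L g)) =
        algebraMap (fixF L g) L ((y : (fixF L g)ˣ) : fixF L g)
      exact (IntermediateField.mem_fixedField_iff _ _).1 ((y : (fixF L g)ˣ) : fixF L g).2 g
        (Subgroup.mem_zpowers g)
    · intro hx
      have hx' : g ((x : Lˣ) : L) = ((x : Lˣ) : L) := by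
        have := congrArg (fun e : Additive (divT S L).ker =>
          (((Additive.toMul e : (divT S L).ker) : Lˣ) : L)) hx
        exact this
      have hmem : unitsTEquiv S (fixF L g) L x ∈
          fixedSubgroup (sUnitSmul (fixF L g) L (primesOverT S (fixF L g)) (relGen L g)) := by
        rw [mem_fixedSubgroup]
        apply sUnit_ext
        rw [coe_sUnitSmul]
        exact hx'
      rw [fixedSubgroup_sUnitSmul (fixF L g) L _ (relGen L g) (mem_zpowers_relGen L g)] at hmem
      obtain ⟨y, hy⟩ := hmem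
      refine ⟨Additive.ofMul y, ?_⟩
      rw [hf, hy, MulEquiv.symm_apply_apply]
  rw [← hrange, LinearMap.finrank_range_of_inj hinj]

/-- **The rank of the `g`-fixed `S`-units**: `rank E^g + 1 = #(⟨g⟩ \ (places above S ∪ ∞))`. -/
theorem finrank_fixed_add_one :
    finrank ℤ (LinearMap.ker ((unitAct S L g).toIntLinearMap - 1)) + 1 =
      Nat.card (MulAction.orbitRel.Quotient (Subgroup.zpowers g) (XNat S L)) := by
  rw [finrank_fixed, Fermat.Agent.PT.GLOB.SUnitsGalois24.finrank_sUnit_add_one, card_orbitQuotient_sum,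
    card_orbit_infinitePlace, card_orbit_primeOver, Nat.card_eq_fintype_card, add_comm]

end Rank

/-! ### The additive-invariant form -/

section PermSum

universe u w

variable {C : Type u} [Group C] {k : Type u} [Field k] {B : Type w} [AddCommGroup B]
  (φ : AdditiveInvariant k C B) (X Y : Type u) [Finite X] [Finite Y] [MulAction C X]
  [MulAction C Y]

/-- The permutation module of a disjoint union. -/
theorem map_permRep_sum :
    φ.toFun (X ⊕ Y → k) (permRep (X ⊕ Y) k) =
      φ.toFun (X → k) (permRep X k) + φ.toFun (Y → k) (permRep Y k) := by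
  let i : (X → k) →ₗ[k] (X ⊕ Y → k) :=
    { toFun := fun f => Sum.elim f 0
      map_add' := fun f f' => by
        funext z
        rcases z with x | y
        · rfl
        · simp
      map_smul' := fun a f => by
        funext z
        rcases z with x | y
        · rfl
        · simp }
  let q : (X ⊕ Y → k) →ₗ[k] (Y → k) := LinearMap.funLeft k k Sum.inr
  refine φ.map_exact (X → k) (X ⊕ Y → k) (Y → k) (permRep X k) (permRep (X ⊕ Y) k) (permRep Y k)
    i q ?_ ?_ ?_ ?_ ?_
  · intro g f
    funext z
    rcases z with x | y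
    · change f (g⁻¹ • x) = Sum.elim f (0 : Y → k) (g⁻¹ • (Sum.inl x : X ⊕ Y))
      rw [Sum.smul_inl, Sum.elim_inl]
    · change (0 : k) = Sum.elim f (0 : Y → k) (g⁻¹ • (Sum.inr y : X ⊕ Y))
      rw [Sum.smul_inr, Sum.elim_inr, Pi.zero_apply]
  · intro g F
    funext y
    change F (g⁻¹ • (Sum.inr y : X ⊕ Y)) = F (Sum.inr (g⁻¹ • y))
    rw [Sum.smul_inr]
  · intro f f' hff'
    funext x
    exact congrFun hff' (Sum.inl x)
  · intro F
    constructor
    · intro hF
      refine ⟨fun x => F (Sum.inl x), ?_⟩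
      funext z
      rcases z with x | y
      · rfl
      · exact (congrFun hF y).symm
    · rintro ⟨f, rfl⟩
      funext y
      rfl
  · intro f
    refine ⟨Sum.elim 0 f, ?_⟩
    funext y
    rfl

end PermSum

section Final

universe w

variable (S : Finset Nat.Primes) (L : Type) [Field L] [NumberField L] [Algebra ℚ L] [IsGalois ℚ L]
  (C : Subgroup (L ≃ₐ[ℚ] L)) (p : ℕ) [Fact p.Prime] {B : Type w} [AddCommGroup B]
  (φ : AdditiveInvariant (ZMod p) C B)

/-- **The unit side in `K₀`-form.**  For every subgroup `C ≤ Gal(L/ℚ)`, every additive invariant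
`φ` of `𝔽_p[C]`-modules and all models `V ≅ E[p]`, `W ≅ E / p` of the `p`-torsion and the reduction
mod `p` of the `S`-units `E` of `L`: `φ W + φ 𝔽_p = φ V + φ (𝔽_p[XNat S L])`. -/
theorem map_units_eq_numberField
    (V W : Type) [AddCommGroup V] [Module (ZMod p) V] [Module.Finite (ZMod p) V]
    [AddCommGroup W] [Module (ZMod p) W] [Module.Finite (ZMod p) W]
    (ρV : Representation (ZMod p) C V) (ρW : Representation (ZMod p) C W)
    (i : V →+ Additive (divT S L).ker) (hi : Function.Injective i)
    (hiK : ∀ e, e ∈ i.range ↔ p • e = 0)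
    (hiα : ∀ (g : C) v, i (ρV g v) = unitAct S L g (i v))
    (q : Additive (divT S L).ker →+ W) (hq : Function.Surjective q)
    (hqK : ∀ e, q e = 0 ↔ ∃ e', e = p • e')
    (hqα : ∀ (g : C) e, q (unitAct S L g e) = ρW g (q e)) :
    φ.toFun W ρW + φ.toFun (ZMod p) (Representation.trivial (ZMod p) C (ZMod p))
      = φ.toFun V ρV + φ.toFun (XNat S L → ZMod p) (permRep (XNat S L) (ZMod p)) := by
  refine map_units_eq p φ (fun g : C => unitAct S L (g : L ≃ₐ[ℚ] L)) (unitAct_one S L)
    (fun g h e => by rw [Subgroup.coe_mul]; exact unitAct_mul S L _ _ e) (XNat S L) ?_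
    V W ρV ρW i hi hiK hiα q hq hqK hqα
  intro g _
  rw [finrank_fixed_add_one, card_orbitQuotient_zpowers_subgroup]

/-- The same with the finite and the infinite places separated. -/
theorem map_units_eq_numberField'
    (V W : Type) [AddCommGroup V] [Module (ZMod p) V] [Module.Finite (ZMod p) V]
    [AddCommGroup W] [Module (ZMod p) W] [Module.Finite (ZMod p) W]
    (ρV : Representation (ZMod p) C V) (ρW : Representation (ZMod p) C W)
    (i : V →+ Additive (divT S L).ker) (hi : Function.Injective i)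
    (hiK : ∀ e, e ∈ i.range ↔ p • e = 0)
    (hiα : ∀ (g : C) v, i (ρV g v) = unitAct S L g (i v))
    (q : Additive (divT S L).ker →+ W) (hq : Function.Surjective q)
    (hqK : ∀ e, q e = 0 ↔ ∃ e', e = p • e')
    (hqα : ∀ (g : C) e, q (unitAct S L g e) = ρW g (q e)) :
    φ.toFun W ρW + φ.toFun (ZMod p) (Representation.trivial (ZMod p) C (ZMod p))
      = φ.toFun V ρV + (φ.toFun (PrimeOver S L → ZMod p) (permRep (PrimeOver S L) (ZMod p)) +
          φ.toFun (InfinitePlace L → ZMod p) (permRep (InfinitePlace L) (ZMod p))) := by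
  rw [map_units_eq_numberField S L C p φ V W ρV ρW i hi hiK hiα q hq hqK hqα, map_permRep_sum]

end Final

end Fermat.Agent.TW.GLOB.UnitRanks9
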