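/-
Chapter T / GLOB, brick (U2) — helper9: **the primes of a finite level over `q` and the cosets of
the decomposition group**.

`F/ℚ` finite Galois inside `ℚ̄`, `G = Gal(F/ℚ)`, `q` a prime, `V = padicPlace q`.

* `primeBelow_smul`: `𝔪_{gV} ∩ 𝓞 F = (g|_F) • (𝔪_V ∩ 𝓞 F)`;
* `primeAt F q : HeightOneSpectrum (𝓞 F)`: the prime of `F` cut out by `padicEmbedding q`;
* `exists_smul_primeAt_eq`: `G` acts transitively on the primes of `F` over `q`;
* `smul_primeAt_eq_iff`: the stabiliser of `primeAt F q` is the image of `Γ_q → G`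
  (`S14.UnramLevel.exists_decomposition_lift` + helper4's `DecompSurj4.range_rq`).

For a level `K : Lev S`, `Q = Γ ⧸ K.U` (`eLev K : Q ≃* Gal(K.F/ℚ)`):

* `Dsub K q : Subgroup Q` (carrier = `FunQ5.Dset K.U (localGaloisToGlobal q)`), `mem_Dsub_iff`;
* `PlacesQ K = Σ q : S, Q ⧸ D_q`, `placesEquiv K : PlacesQ K ≃ PrimeOver S K.F`
  (`(q, x D_q) ↦ x • P_q`), `placesEquiv_smul` (equivariance through `eLev K`);
* `card_orbitQuotient_zpowers_congr` (orbit counting along an equivariant bijection);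
* `mulActionInfinitePlaceLev` (the action of `Q` on `InfinitePlace K.F` through `eLev K`; a
  reducible def, to be activated with `attribute [local instance]`);
* **`map_units_eq_lev`**: for every `C ≤ Q`, additive invariant `φ` of `𝔽_p[C]`-modules and models
  `V ≅ E[p]`, `W ≅ E / p` of the `S`-units `E` of `K.F` (action through `eLev K`):
  `φ W + φ 𝔽_p = φ V + (φ (𝔽_p[Σ_q Q ⧸ D_q]) + φ (𝔽_p[InfinitePlace K.F]))`;
  `map_units_eq_lev_sum` (index set `PlacesQ K ⊕ InfinitePlace K.F`), `map_permRep_placesQ`.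
-/
import Mathlib
import Fermat.Agent.S14.UnramLevel
import Fermat.Agent.PT.BR.UnramBridge13
import Fermat.Agent.TW.GRP.PlaceConj3
import Fermat.Agent.TW.LOC.DecompSurj4
import Fermat.Agent.PT.GLUE.Levels21
import Fermat.Agent.PT.GLUE.LevelQuot13
import Fermat.Agent.TW.GLOB.FunQ5
import Fermat.Agent.TW.GLOB.UnitRanks9

set_option autoImplicit false
set_option linter.unusedSectionVars false

open scoped Pointwise
open NumberField IsDedekindDomain
open Fermat.Agent.S13.UnramRam Fermat.Agent.S14.UnramLevel Fermat.Agent.PT.BR.UnramBridge13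
open Fermat.Agent.TW.LOC.Defs2 Fermat.Agent.TW.LOC.DecompSurj4 Fermat.Agent.TW.LOC.TameProfinite4

namespace Fermat.Agent.TW.GLOB.PlacesBridge9

local notation "Qbar" => AlgebraicClosure ℚ
local notation "GQ" => (AlgebraicClosure ℚ ≃ₐ[ℚ] AlgebraicClosure ℚ)

/-! ### The prime of a finite level below a place of `ℚ̄` -/

section Core

variable (F : IntermediateField ℚ Qbar) [FiniteDimensional ℚ F] [IsGalois ℚ F]

theorem coe_restrictNormalHom (g : GQ) (x : F) :
    ((AlgEquiv.restrictNormalHom F g x : F) : Qbar) = g (x : Qbar) :=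
  AlgEquiv.restrictNormal_commutes g F x

/-- `𝔪_{gA} ∩ 𝓞 F = (g|_F) • (𝔪_A ∩ 𝓞 F)`. -/
theorem primeBelow_smul (g : GQ) (A : ValuationSubring Qbar) :
    primeBelow F (g • A) = (AlgEquiv.restrictNormalHom F g) • primeBelow F A := by
  ext x
  rw [mem_primeBelow_iff, mem_smul_nonunits_iff, Ideal.mem_pointwise_smul_iff_inv_smul_mem,
    mem_primeBelow_iff, ← map_inv, coe_smul_integer, coe_restrictNormalHom]

theorem natCast_mem_primeBelow {A : ValuationSubring Qbar} {q : ℕ} (hA : A.LiesOverPrime q) :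
    (((q : ℕ) : ℤ) : 𝓞 F) ∈ primeBelow F A := by
  rw [mem_primeBelow_iff]
  have : ((((((q : ℕ) : ℤ) : 𝓞 F) : 𝓞 F) : F) : Qbar) = ((q : ℕ) : Qbar) := by simp
  rw [this]
  exact hA

theorem liesOverPrime_of_natCast_mem {A : ValuationSubring Qbar} {q : ℕ}
    (h : (((q : ℕ) : ℤ) : 𝓞 F) ∈ primeBelow F A) : A.LiesOverPrime q := by
  rw [mem_primeBelow_iff] at h
  have : ((((((q : ℕ) : ℤ) : 𝓞 F) : 𝓞 F) : F) : Qbar) = ((q : ℕ) : Qbar) := by simp
  rw [this] at h
  exact h

theorem primeBelow_ne_bot {A : ValuationSubring Qbar} {q : ℕ} (hq : q.Prime)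
    (hA : A.LiesOverPrime q) : primeBelow F A ≠ ⊥ := by
  intro h
  have h1 := natCast_mem_primeBelow F hA
  rw [h, Ideal.mem_bot] at h1
  have h2 : ((q : ℕ) : ℤ) = 0 := by exact_mod_cast h1
  exact hq.ne_zero (by exact_mod_cast h2)

variable (q : ℕ) [Fact q.Prime]

/-- The prime of `F` cut out by `padicEmbedding q`. -/
noncomputable def primeAt : HeightOneSpectrum (𝓞 F) where
  asIdeal := primeBelow F (padicPlace q)
  isPrime := inferInstance
  ne_bot := primeBelow_ne_bot F (Fact.out : q.Prime) (liesOverPrime_padicPlace q)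

theorem primeAt_asIdeal : (primeAt F q).asIdeal = primeBelow F (padicPlace q) := rfl

theorem natCast_mem_primeAt : (((q : ℕ) : ℤ) : 𝓞 F) ∈ (primeAt F q).asIdeal :=
  natCast_mem_primeBelow F (liesOverPrime_padicPlace q)

/-- **`Gal(F/ℚ)` acts transitively on the primes of `F` over `q`.** -/
theorem exists_smul_primeAt_eq (P : HeightOneSpectrum (𝓞 F))
    (hP : (((q : ℕ) : ℤ) : 𝓞 F) ∈ P.asIdeal) :
    ∃ σ : F ≃ₐ[ℚ] F, σ • (primeAt F q).asIdeal = P.asIdeal := by
  have := P.isPrime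
  obtain ⟨A, hA⟩ := exists_primeBelow_eq F P.asIdeal P.ne_bot
  have hAq : A.LiesOverPrime q := liesOverPrime_of_natCast_mem F (by rw [hA]; exact hP)
  obtain ⟨g, hg⟩ := Fermat.Agent.TW.GRP.PlaceConj3.exists_smul_eq (Fact.out : q.Prime)
    (liesOverPrime_padicPlace q) hAq
  refine ⟨AlgEquiv.restrictNormalHom F g, ?_⟩
  rw [primeAt_asIdeal, ← primeBelow_smul, ← hg, hA]

/-- **The stabiliser of `primeAt F q` is the image of the local Galois group.** -/
theorem smul_primeAt_eq_iff (σ : F ≃ₐ[ℚ] F) :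
    σ • (primeAt F q).asIdeal = (primeAt F q).asIdeal ↔
      ∃ t : Gq q, AlgEquiv.restrictNormalHom F (rq q t) = σ := by
  constructor
  · intro h
    obtain ⟨g, hgD, hg⟩ := exists_decomposition_lift F (padicPlace q) (Fact.out : q.Prime)
      (liesOverPrime_padicPlace q) σ h
    rw [← range_rq] at hgD
    obtain ⟨t, rfl⟩ := hgD
    refine ⟨t, ?_⟩
    ext x
    rw [coe_restrictNormalHom]
    exact hg x
  · rintro ⟨t, rfl⟩
    have h1 : rq q t • padicPlace q = padicPlace q :=
      MulAction.mem_stabilizer_iff.1 (localGaloisToGlobal_mem_decompositionSubgroup q t)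
    rw [primeAt_asIdeal, ← primeBelow_smul, h1]

end Core

/-! ### Orbit counting along an equivariant bijection -/

section OrbitCongr

open Fermat.Agent.TW.GLOB.UnitRanks9

/-- Orbits of a cyclic group correspond under an equivariant bijection (along a group
homomorphism). -/
theorem card_orbitQuotient_zpowers_congr {G G' X X' : Type*} [Group G] [Group G'] [MulAction G X]
    [MulAction G' X'] (φ : G →* G') (E : X ≃ X') (hE : ∀ c x, E (c • x) = φ c • E x) (g : G) :
    Nat.card (MulAction.orbitRel.Quotient (Subgroup.zpowers g) X) =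
      Nat.card (MulAction.orbitRel.Quotient (Subgroup.zpowers (φ g)) X') := by
  apply card_orbitQuotient_eq_of_fibers
    (fun x => (Quotient.mk'' (E x) : MulAction.orbitRel.Quotient (Subgroup.zpowers (φ g)) X'))
  · intro y
    induction y using Quotient.inductionOn' with
    | h y => exact ⟨E.symm y, by simp only [Equiv.apply_symm_apply]⟩
  · intro x x'
    constructor
    · intro h
      obtain ⟨⟨_, n, rfl⟩, hh⟩ := Quotient.exact' h
      have hh' : (φ g) ^ n • E x' = E x := hh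
      refine ⟨⟨g ^ (-n), ⟨-n, rfl⟩⟩, ?_⟩
      change g ^ (-n) • x = x'
      apply E.injective
      rw [hE, ← hh', map_zpow, smul_smul, ← zpow_add, neg_add_cancel, zpow_zero, one_smul]
    · rintro ⟨⟨_, n, rfl⟩, hh⟩
      have hh' : g ^ n • x = x' := hh
      apply Quotient.sound'
      refine ⟨⟨(φ g) ^ (-n), ⟨-n, rfl⟩⟩, ?_⟩
      change (φ g) ^ (-n) • E x' = E x
      rw [← hh', hE, map_zpow, smul_smul, ← zpow_add, neg_add_cancel, zpow_zero, one_smul]

end OrbitCongr

/-! ### The levels -/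

section Lev

open Fermat.Agent.PT.GLUE.Levels21 Fermat.Agent.PT.GLUE.LevelQuot13
  Fermat.Agent.PT.GLOB.Interface23 Fermat.Agent.TW.GLOB.UnitRanks9
  Fermat.Agent.TW.GLOB.IndDefs9 Fermat.Agent.TW.GLOB.LatticeRedFinal9

local notation "Γ" => (AlgebraicClosure ℚ ≃ₐ[ℚ] AlgebraicClosure ℚ)

variable {S : Finset Nat.Primes} (K : Lev S)

/-- The decomposition group at `q` in `Γ ⧸ K.U`: the image of the local Galois group. -/
noncomputable def Dsub (q : ℕ) [Fact q.Prime] : Subgroup (Γ ⧸ K.U) :=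
  (Fermat.Agent.TW.GLOB.FunQ5.rbar K.U (localGaloisToGlobal q)).range

theorem coe_Dsub (q : ℕ) [Fact q.Prime] :
    (Dsub K q : Set (Γ ⧸ K.U)) = Fermat.Agent.TW.GLOB.FunQ5.Dset K.U (localGaloisToGlobal q) :=
  rfl

/-- `D_q` is the stabiliser of the prime `primeAt K.F q`. -/
theorem mem_Dsub_iff (q : ℕ) [Fact q.Prime] (x : Γ ⧸ K.U) :
    x ∈ Dsub K q ↔
      eLev K x • (primeAt K.F q).asIdeal = (primeAt K.F q).asIdeal := by
  induction x using QuotientGroup.induction_on with
  | H g =>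
    rw [smul_primeAt_eq_iff, eLev_mk]
    constructor
    · rintro ⟨t, ht⟩
      refine ⟨t, ?_⟩
      have h1 : ((rq q t : Γ) : Γ ⧸ K.U) = (g : Γ ⧸ K.U) := ht
      rw [← eLev_mk, ← eLev_mk, h1]
    · rintro ⟨t, ht⟩
      refine ⟨t, ?_⟩
      change ((rq q t : Γ) : Γ ⧸ K.U) = (g : Γ ⧸ K.U)
      apply (eLev K).injective
      rw [eLev_mk, eLev_mk, ht]

/-- The index set of the `H²`-side: `Σ_{q ∈ S} Q ⧸ D_q`. -/
abbrev PlacesQ : Type := Σ q : S, (Γ ⧸ K.U) ⧸ Dsub K ((q : Nat.Primes) : ℕ)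

/-- The prime `x • P_q` of `K.F`. -/
noncomputable def primeOfCoset (q : S) (x : Γ ⧸ K.U) : PrimeOver S ↥K.F :=
  ⟨eLev K x • primeAt K.F ((q : Nat.Primes) : ℕ), ⟨q, q.2, by
    rw [smul_asIdeal, natCast_mem_smul_iff]
    exact natCast_mem_primeAt K.F _⟩⟩

theorem primeOfCoset_asIdeal (q : S) (x : Γ ⧸ K.U) :
    (primeOfCoset K q x).1.asIdeal = eLev K x • (primeAt K.F ((q : Nat.Primes) : ℕ)).asIdeal :=
  rfl

theorem primeOfCoset_mul (q : S) (c x : Γ ⧸ K.U) :
    primeOfCoset K q (c * x) = eLev K c • primeOfCoset K q x := by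
  apply Subtype.ext
  apply HeightOneSpectrum.ext
  rw [coe_smul_primeOver, smul_asIdeal, primeOfCoset_asIdeal, primeOfCoset_asIdeal, map_mul,
    mul_smul]

theorem primeOfCoset_eq_iff (q : S) (x y : Γ ⧸ K.U) :
    primeOfCoset K q x = primeOfCoset K q y ↔ x⁻¹ * y ∈ Dsub K ((q : Nat.Primes) : ℕ) := by
  rw [mem_Dsub_iff, map_mul, map_inv, mul_smul, inv_smul_eq_iff, ← primeOfCoset_asIdeal,
    ← primeOfCoset_asIdeal]
  constructor
  · intro h
    rw [h]
  · intro h
    apply Subtype.ext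
    apply HeightOneSpectrum.ext
    exact h.symm

/-- Two distinct rational primes do not lie in a common prime. -/
theorem eq_of_mem_mem {q q' : Nat.Primes} (P : HeightOneSpectrum (𝓞 ↥K.F))
    (h : (((q : ℕ) : ℤ) : 𝓞 ↥K.F) ∈ P.asIdeal) (h' : (((q' : ℕ) : ℤ) : 𝓞 ↥K.F) ∈ P.asIdeal) :
    q = q' := by
  by_contra hne
  have hco : Nat.Coprime (q : ℕ) (q' : ℕ) :=
    (Nat.coprime_primes q.2 q'.2).2 fun h => hne (Subtype.ext h)
  have hco' : IsCoprime ((q : ℕ) : ℤ) ((q' : ℕ) : ℤ) := Nat.isCoprime_iff_coprime.2 hco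
  obtain ⟨a, b, hab⟩ := hco'
  have h1 : ((a * ((q : ℕ) : ℤ) + b * ((q' : ℕ) : ℤ) : ℤ) : 𝓞 ↥K.F) ∈ P.asIdeal := by
    rw [Int.cast_add, Int.cast_mul, Int.cast_mul]
    exact add_mem (Ideal.mul_mem_left _ _ h) (Ideal.mul_mem_left _ _ h')
  rw [hab, Int.cast_one] at h1
  exact P.isPrime.ne_top ((Ideal.eq_top_iff_one _).2 h1)

/-- The map `Σ_q Q ⧸ D_q → {primes of K.F over S}`, `(q, x D_q) ↦ x • P_q`. -/
noncomputable def placesMap : PlacesQ K → PrimeOver S ↥K.F := fun y =>
  Quotient.liftOn' y.2 (primeOfCoset K y.1) (by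
    intro a b hab
    rw [primeOfCoset_eq_iff]
    exact QuotientGroup.leftRel_apply.1 hab)

theorem placesMap_mk (q : S) (x : Γ ⧸ K.U) :
    placesMap K ⟨q, (x : (Γ ⧸ K.U) ⧸ Dsub K ((q : Nat.Primes) : ℕ))⟩ = primeOfCoset K q x := rfl

theorem placesMap_bijective : Function.Bijective (placesMap K) := by
  constructor
  · rintro ⟨q, a⟩ ⟨q', b⟩ hab
    induction a using QuotientGroup.induction_on with
    | H x =>
      induction b using QuotientGroup.induction_on with
      | H y =>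
        rw [placesMap_mk, placesMap_mk] at hab
        have hq : q = q' := by
          apply Subtype.ext
          refine eq_of_mem_mem K (primeOfCoset K q x).1 ?_ ?_
          · rw [primeOfCoset_asIdeal, natCast_mem_smul_iff]
            exact natCast_mem_primeAt K.F _
          · rw [hab, primeOfCoset_asIdeal, natCast_mem_smul_iff]
            exact natCast_mem_primeAt K.F _
        subst hq
        rw [primeOfCoset_eq_iff] at hab
        exact congrArg (Sigma.mk q) (QuotientGroup.eq.2 hab)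
  · rintro ⟨P, q, hq, hP⟩
    have : Fact ((q : ℕ)).Prime := ⟨q.2⟩
    obtain ⟨σ, hσ⟩ := exists_smul_primeAt_eq K.F (q : ℕ) P hP
    refine ⟨⟨⟨q, hq⟩, (((eLev K).symm σ : Γ ⧸ K.U) : (Γ ⧸ K.U) ⧸ Dsub K (q : ℕ))⟩, ?_⟩
    rw [placesMap_mk]
    apply Subtype.ext
    apply HeightOneSpectrum.ext
    rw [primeOfCoset_asIdeal, MulEquiv.apply_symm_apply]
    exact hσ

/-- **The bijection `Σ_q Q ⧸ D_q ≃ {primes of K.F over S}`.** -/
noncomputable def placesEquiv : PlacesQ K ≃ PrimeOver S ↥K.F :=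
  Equiv.ofBijective (placesMap K) (placesMap_bijective K)

/-- **Equivariance**: left multiplication on the cosets corresponds to the Galois action on the
primes through `eLev K`. -/
theorem placesEquiv_smul (c : Γ ⧸ K.U) (y : PlacesQ K) :
    placesEquiv K (c • y) = eLev K c • placesEquiv K y := by
  obtain ⟨q, a⟩ := y
  induction a using QuotientGroup.induction_on with
  | H x =>
    change placesMap K ⟨q, ((c * x : Γ ⧸ K.U) : (Γ ⧸ K.U) ⧸ Dsub K ((q : Nat.Primes) : ℕ))⟩ =
      eLev K c • placesMap K ⟨q, (x : (Γ ⧸ K.U) ⧸ Dsub K ((q : Nat.Primes) : ℕ))⟩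
    rw [placesMap_mk, placesMap_mk, primeOfCoset_mul]

end Lev

/-! ### The unit side in the vocabulary of the levels -/

section Final

open Fermat.Agent.PT.GLUE.Levels21 Fermat.Agent.PT.GLUE.LevelQuot13
  Fermat.Agent.PT.GLOB.Interface23 Fermat.Agent.TW.GLOB.UnitRanks9
  Fermat.Agent.TW.GLOB.IndDefs9 Fermat.Agent.TW.GLOB.LatticeRedFinal9

local notation "Γ" => (AlgebraicClosure ℚ ≃ₐ[ℚ] AlgebraicClosure ℚ)

universe w

variable {S : Finset Nat.Primes} (K : Lev S)

/-- `Γ ⧸ K.U` acts on the infinite places of `K.F` through `eLev K`. -/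
@[reducible] noncomputable def mulActionInfinitePlaceLev :
    MulAction (Γ ⧸ K.U) (InfinitePlace ↥K.F) :=
  MulAction.compHom _ (eLev K).toMonoidHom

attribute [local instance] mulActionInfinitePlaceLev

theorem smul_infinitePlace_lev (c : Γ ⧸ K.U) (w : InfinitePlace ↥K.F) :
    c • w = eLev K c • w := rfl

/-- The comparison of the two index sets. -/
noncomputable def indexEquiv : PlacesQ K ⊕ InfinitePlace ↥K.F ≃ XNat S ↥K.F :=
  Equiv.sumCongr (placesEquiv K) (Equiv.refl _)

theorem indexEquiv_smul (c : Γ ⧸ K.U) (x : PlacesQ K ⊕ InfinitePlace ↥K.F) :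
    indexEquiv K (c • x) = eLev K c • indexEquiv K x := by
  rcases x with y | w
  · change Sum.inl (placesEquiv K (c • y)) = eLev K c • Sum.inl (placesEquiv K y)
    rw [placesEquiv_smul, Sum.smul_inl]
  · rfl

variable (C : Subgroup (Γ ⧸ K.U)) (p : ℕ) [Fact p.Prime] {B : Type w} [AddCommGroup B]
  (φ : AdditiveInvariant (ZMod p) C B)

/-- **The unit side in the vocabulary of the `H²`-side.**  `K` a level, `Q = Γ ⧸ K.U`, `C ≤ Q` any
subgroup acting on the `S`-units `E` of `K.F` through `eLev K`; for all models `V ≅ E[p]`,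
`W ≅ E / p` and every additive invariant `φ` of `𝔽_p[C]`-modules:
`φ W + φ 𝔽_p = φ V + φ (𝔽_p[Σ_q Q ⧸ D_q ⊔ InfinitePlace K.F])`. -/
theorem map_units_eq_lev_sum
    (V W : Type) [AddCommGroup V] [Module (ZMod p) V] [Module.Finite (ZMod p) V]
    [AddCommGroup W] [Module (ZMod p) W] [Module.Finite (ZMod p) W]
    (ρV : Representation (ZMod p) C V) (ρW : Representation (ZMod p) C W)
    (i : V →+ Additive (divT S ↥K.F).ker) (hi : Function.Injective i)
    (hiK : ∀ e, e ∈ i.range ↔ p • e = 0)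
    (hiα : ∀ (g : C) v, i (ρV g v) = unitAct S ↥K.F (eLev K g) (i v))
    (q : Additive (divT S ↥K.F).ker →+ W) (hq : Function.Surjective q)
    (hqK : ∀ e, q e = 0 ↔ ∃ e', e = p • e')
    (hqα : ∀ (g : C) e, q (unitAct S ↥K.F (eLev K g) e) = ρW g (q e)) :
    φ.toFun W ρW + φ.toFun (ZMod p) (Representation.trivial (ZMod p) C (ZMod p))
      = φ.toFun V ρV + φ.toFun (PlacesQ K ⊕ InfinitePlace ↥K.F → ZMod p)
          (permRep (PlacesQ K ⊕ InfinitePlace ↥K.F) (ZMod p)) := by
  refine map_units_eq p φ (fun g : C => unitAct S ↥K.F (eLev K (g : Γ ⧸ K.U)))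
    (fun e => by rw [Subgroup.coe_one, map_one]; exact unitAct_one S ↥K.F e)
    (fun g h e => by rw [Subgroup.coe_mul, map_mul]; exact unitAct_mul S ↥K.F _ _ e)
    (PlacesQ K ⊕ InfinitePlace ↥K.F) ?_ V W ρV ρW i hi hiK hiα q hq hqK hqα
  intro g _
  rw [finrank_fixed_add_one]
  exact (card_orbitQuotient_zpowers_congr ((eLev K).toMonoidHom.comp C.subtype)
    (indexEquiv K) (fun c x => indexEquiv_smul K (c : Γ ⧸ K.U) x) g).symm

/-- The same with the finite and the infinite places separated: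
`φ (E/p) + φ 𝔽_p = φ (E[p]) + φ (𝔽_p[Σ_q Q ⧸ D_q]) + φ (𝔽_p[InfinitePlace K.F])`. -/
theorem map_units_eq_lev
    (V W : Type) [AddCommGroup V] [Module (ZMod p) V] [Module.Finite (ZMod p) V]
    [AddCommGroup W] [Module (ZMod p) W] [Module.Finite (ZMod p) W]
    (ρV : Representation (ZMod p) C V) (ρW : Representation (ZMod p) C W)
    (i : V →+ Additive (divT S ↥K.F).ker) (hi : Function.Injective i)
    (hiK : ∀ e, e ∈ i.range ↔ p • e = 0)
    (hiα : ∀ (g : C) v, i (ρV g v) = unitAct S ↥K.F (eLev K g) (i v))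
    (q : Additive (divT S ↥K.F).ker →+ W) (hq : Function.Surjective q)
    (hqK : ∀ e, q e = 0 ↔ ∃ e', e = p • e')
    (hqα : ∀ (g : C) e, q (unitAct S ↥K.F (eLev K g) e) = ρW g (q e)) :
    φ.toFun W ρW + φ.toFun (ZMod p) (Representation.trivial (ZMod p) C (ZMod p))
      = φ.toFun V ρV + (φ.toFun (PlacesQ K → ZMod p) (permRep (PlacesQ K) (ZMod p)) +
          φ.toFun (InfinitePlace ↥K.F → ZMod p) (permRep (InfinitePlace ↥K.F) (ZMod p))) := by
  have : Finite (PlacesQ K) := Finite.of_equiv _ (placesEquiv K).symm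
  rw [map_units_eq_lev_sum K C p φ V W ρV ρW i hi hiK hiα q hq hqK hqα, map_permRep_sum]

/-- The permutation modules on the primes of `K.F` over `S` (with `C` acting through `eLev K`) and
on `Σ_q Q ⧸ D_q` have the same image under every additive invariant. -/
theorem map_permRep_placesQ :
    letI : MulAction (Γ ⧸ K.U) (PrimeOver S ↥K.F) := MulAction.compHom _ (eLev K).toMonoidHom
    φ.toFun (PlacesQ K → ZMod p) (permRep (PlacesQ K) (ZMod p)) =
      φ.toFun (PrimeOver S ↥K.F → ZMod p) (permRep (PrimeOver S ↥K.F) (ZMod p)) := by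
  let _ : MulAction (Γ ⧸ K.U) (PrimeOver S ↥K.F) := MulAction.compHom _ (eLev K).toMonoidHom
  have : Finite (PlacesQ K) := Finite.of_equiv _ (placesEquiv K).symm
  refine φ.map_equiv _ _ _ _ (LinearEquiv.funCongrLeft (ZMod p) (ZMod p) (placesEquiv K).symm) ?_
  intro g f
  funext P
  change f (g⁻¹ • (placesEquiv K).symm P) = f ((placesEquiv K).symm (g⁻¹ • P))
  congr 1
  apply (placesEquiv K).injective
  rw [Equiv.apply_symm_apply]
  change placesEquiv K (((g⁻¹ : C) : Γ ⧸ K.U) • (placesEquiv K).symm P) = _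
  rw [placesEquiv_smul, Equiv.apply_symm_apply]
  rfl

end Final

end Fermat.Agent.TW.GLOB.PlacesBridge9
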