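/-
Programme T (S56), chapter T/GLOB, brick (MU-U) of T7-(MU) — helper2.

`exists_unitsEquiv`: for a level `K` (finite Galois, unramified outside `S`), the invariants of
`U = Gal(ℚ̄/K.F)` on `E_S` are the `S`-units of `K.F`, equivariantly for `Γ ⧸ U ≅ Gal(K.F/ℚ)`:
`(E_S)^U ≃+ Additive (divT S K.F).ker`, intertwining `SubLevel5.repH0` and `UnitRanks9.unitAct`.
-/
import Mathlib
import Fermat.Agent.PT.GLUE.ESLevel27
import Fermat.Agent.PT.GLUE.LevelQuot13
import Fermat.Agent.TW.GLOB.SubLevel5
import Fermat.Agent.TW.GLOB.UnitRanks9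

set_option autoImplicit false
set_option linter.unusedSectionVars false

open Fermat.Agent.PT.GLUE.Objects21 Fermat.Agent.PT.GLOB
open Fermat.Agent.PT.GLUE.Levels21 Fermat.Agent.PT.GLUE.LevelQuot13
open Fermat.Agent.PT.GLUE.ESLevel27
open Fermat.Agent.TW.GLOB.SubLevel5 Fermat.Agent.TW.GLOB.UnitRanks9

namespace Fermat.Agent.TW.GLOB.UnitsLevel2

noncomputable section

local notation "Γ" => (AlgebraicClosure ℚ ≃ₐ[ℚ] AlgebraicClosure ℚ)

variable {S : Finset Nat.Primes} (K : Lev S)

/-- The `S`-units of `K.F`, as `U`-invariants of `E_S`. -/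
def unitsToInv : Additive (Interface23.divT S ↥K.F).ker →+ ↥(resRep K.U (ES S)).ρ.invariants where
  toFun x := ⟨Additive.ofMul ((esLevel K.unr (Additive.toMul x) : levelSub S K.F) : ESgroup S),
    fun s => ρ_esLevel S K.F K.unr (Additive.toMul x) (s : Γ) s.2⟩
  map_zero' := by
    apply Subtype.ext
    change Additive.ofMul ((esLevel K.unr 1 : levelSub S K.F) : ESgroup S) = 0
    rw [map_one]
    rfl
  map_add' x y := by
    apply Subtype.ext
    change Additive.ofMul ((esLevel K.unr (Additive.toMul x * Additive.toMul y) :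
      levelSub S K.F) : ESgroup S) = _
    rw [map_mul]
    rfl

theorem coe_unitsToInv (x : Additive (Interface23.divT S ↥K.F).ker) :
    ((unitsToInv K x : ↥(resRep K.U (ES S)).ρ.invariants) : ES S) =
      Additive.ofMul ((esLevel K.unr (Additive.toMul x) : levelSub S K.F) : ESgroup S) := rfl

theorem unitsToInv_bijective : Function.Bijective (unitsToInv K) := by
  constructor
  · intro x y h
    have h1 := congrArg (fun z : ↥(resRep K.U (ES S)).ρ.invariants => (z : ES S)) h
    change Additive.ofMul ((esLevel K.unr (Additive.toMul x) : levelSub S K.F) : ESgroup S) =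
      Additive.ofMul ((esLevel K.unr (Additive.toMul y) : levelSub S K.F) : ESgroup S) at h1
    have h2 : ((esLevel K.unr (Additive.toMul x) : levelSub S K.F) : ESgroup S) =
        ((esLevel K.unr (Additive.toMul y) : levelSub S K.F) : ESgroup S) :=
      Additive.ofMul.injective h1
    exact Additive.toMul.injective ((esLevel K.unr).injective (Subtype.ext h2))
  · intro b
    obtain ⟨x, hx⟩ := exists_esLevel_eq_of_fixed S K.F K.unr (b : ES S)
      (fun s hs => b.2 ⟨s, hs⟩)
    refine ⟨Additive.ofMul x, ?_⟩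
    apply Subtype.ext
    rw [coe_unitsToInv]
    change Additive.ofMul ((esLevel K.unr x : levelSub S K.F) : ESgroup S) = _
    rw [hx]
    rfl

/-- Equivariance of `unitsToInv`. -/
theorem unitsToInv_unitAct (q : Γ ⧸ K.U) (y : Additive (Interface23.divT S ↥K.F).ker) :
    unitsToInv K (unitAct S ↥K.F (eLev K q) y) = repH0 K.U (ES S) q (unitsToInv K y) := by
  induction q using QuotientGroup.induction_on with
  | H γ =>
    apply Subtype.ext
    rw [coe_repH0_mk, coe_unitsToInv, coe_unitsToInv]
    obtain ⟨x, rfl⟩ := Additive.ofMul.surjective y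
    have h1 := coe_esLevel_smul S K.F K.unr γ x
      (Additive.toMul (unitAct S ↥K.F (eLev K (γ : Γ ⧸ K.U)) (Additive.ofMul x)))
      (by rw [coe_unitAct_smul, eLev_mk])
    rw [h1]
    rfl

/-- **(MU-U)**. -/
theorem exists_unitsEquiv :
    ∃ e : ↥(resRep K.U (ES S)).ρ.invariants ≃+ Additive (Interface23.divT S ↥K.F).ker,
      ∀ (q : Γ ⧸ K.U) (x : ↥(resRep K.U (ES S)).ρ.invariants),
        e (repH0 K.U (ES S) q x) = unitAct S ↥K.F (eLev K q) (e x) := by
  refine ⟨(AddEquiv.ofBijective (unitsToInv K) (unitsToInv_bijective K)).symm, fun q x => ?_⟩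
  set e := AddEquiv.ofBijective (unitsToInv K) (unitsToInv_bijective K) with he
  apply e.injective
  rw [AddEquiv.apply_symm_apply]
  have h1 : e (unitAct S ↥K.F (eLev K q) (e.symm x)) =
      unitsToInv K (unitAct S ↥K.F (eLev K q) (e.symm x)) := rfl
  rw [h1, unitsToInv_unitAct]
  congr 1
  exact (e.apply_symm_apply x).symm

end

end Fermat.Agent.TW.GLOB.UnitsLevel2
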