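/-
Programme T (S56, Taylor–Wiles primes), chapter GLOB, task T7 — helper5.

**(MU\*) The equivariant Euler characteristic of `μ_p` over a level.**

`K` a level of `G_S` (`U = Gal(ℚ̄/K.F)`, `Q = Γ ⧸ U ≅ Gal(K.F/ℚ)`), `p ∈ S` odd, `C ≤ Q` any subgroup,
`ψ` any additive invariant of `𝔽_p[C]`-modules.  For all `𝔽_p[C]`-models `V0, V1, V2` of
`H⁰(U; μ_p)`, `H¹(U; μ_p)`, `H²(U; μ_p)`:

  `ψ V0 + ψ V2 + ψ 𝔽_p[InfinitePlace K.F] = ψ V1`        (`euler_muP`),

and `H¹(U; μ_p)`, `H²(U; μ_p)` are finite (`finite_H1_muP`, `finite_H2_muP`); `euler_muP_self` is the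
statement for the cohomology groups themselves.

Proof: the Kummer sequence `0 → μ_p → E_S → E_S → 0` (`KummerU5`), the `S`-unit theorem
(`PlacesBridge9.map_units_eq_lev` through `UnitsLevel2.exists_unitsEquiv`), the finiteness of
`H¹(U; E_S)` (`H1ES5.finite_H1_ES`) and the recognition of `H²(U; E_S)[p]`
(`H2ES5.map_model_H2ES`), assembled by `MUAbs5.euler_of_kummer`.
-/
import Mathlib
import Fermat.Agent.TW.GLOB.MUAbs5
import Fermat.Agent.TW.GLOB.KummerU5
import Fermat.Agent.TW.GLOB.H2ES5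
import Fermat.Agent.TW.GLOB.H1ES5
import Fermat.Agent.TW.GLOB.UnitsLevel2
import Fermat.Agent.TW.GLOB.PlacesBridge9
import Fermat.Agent.TW.GLOB.InvRecip1

set_option autoImplicit false
set_option linter.unusedSectionVars false
set_option linter.style.haveILetI false

open Fermat.Agent.PT.PRO.LevelCoh28 Fermat.Agent.PT.PRO.LevelCohRes28
  Fermat.Agent.TW.GLOB.SubLevel5
  Fermat.Agent.TW.GLOB.IndDefs9 Fermat.Agent.TW.GLOB.LatticeRedFinal9
  Fermat.Agent.TW.GLOB.KummerU5 Fermat.Agent.TW.GLOB.AddCoh5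
  Fermat.Agent.PT.GLUE.Objects21

namespace Fermat.Agent.TW.GLOB.MUMain5

/-! ### Abstract finiteness lemmas -/

section Abs

/-- The middle term of an exact sequence `A → B → C` with finite images is finite. -/
theorem finite_of_exact {A B C : Type*} [AddCommGroup A] [AddCommGroup B] [AddCommGroup C]
    (f : A →+ B) (g : B →+ C) (hex : ∀ b, g b = 0 ↔ ∃ a, f a = b)
    (hf : (Set.range f).Finite) (hg : (Set.range g).Finite) : Finite B := by
  classical
  have hσ : ∀ c : Set.range g, ∃ b, g b = c := fun c => c.2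
  choose σ hσ using hσ
  have hmem : ∀ b, b - σ ⟨g b, b, rfl⟩ ∈ Set.range f := fun b => by
    obtain ⟨a, ha⟩ := (hex _).1 (show g (b - σ ⟨g b, b, rfl⟩) = 0 by rw [map_sub, hσ, sub_self])
    exact ⟨a, ha⟩
  haveI := hf.to_subtype
  haveI := hg.to_subtype
  refine Finite.of_injective
    (fun b => ((⟨g b, b, rfl⟩ : Set.range g), (⟨_, hmem b⟩ : Set.range f))) ?_
  intro b b' h
  have h1 : (⟨g b, b, rfl⟩ : Set.range g) = ⟨g b', b', rfl⟩ := congrArg Prod.fst h
  have h2 : b - σ ⟨g b, b, rfl⟩ = b' - σ ⟨g b', b', rfl⟩ :=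
    congrArg (fun x => (x.2 : B)) h
  rw [h1] at h2
  exact sub_left_injective h2

/-- The image of a finitely generated abelian group under a homomorphism killing `p E` is finite. -/
theorem finite_range_of_fg {E N : Type*} [AddCommGroup E] [Module.Finite ℤ E] [AddCommGroup N]
    (p : ℕ) (hp : p ≠ 0) (f : E →+ N) (hf : ∀ e, f (p • e) = 0) : (Set.range f).Finite := by
  let P : Submodule ℤ E := LinearMap.range ((p : ℤ) • (LinearMap.id : E →ₗ[ℤ] E))
  have hP : ∀ e : E, p • e ∈ P := fun e => ⟨e, by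
    rw [LinearMap.smul_apply, LinearMap.id_apply, Nat.cast_smul_eq_nsmul ℤ]⟩
  have htors : Module.IsTorsion ℤ (E ⧸ P) := by
    intro x
    obtain ⟨e, rfl⟩ := P.mkQ_surjective x
    refine ⟨⟨(p : ℤ), mem_nonZeroDivisors_of_ne_zero (by exact_mod_cast hp)⟩, ?_⟩
    change (p : ℤ) • P.mkQ e = 0
    rw [← map_smul, Nat.cast_smul_eq_nsmul ℤ]
    exact (Submodule.Quotient.mk_eq_zero P).2 (hP e)
  haveI : Finite (E ⧸ P) := Module.finite_of_fg_torsion (E ⧸ P) htors
  have hle : P ≤ LinearMap.ker f.toIntLinearMap := by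
    rintro _ ⟨e, rfl⟩
    rw [LinearMap.mem_ker, LinearMap.smul_apply, LinearMap.id_apply, Nat.cast_smul_eq_nsmul ℤ]
    exact hf e
  refine (Set.finite_range (P.liftQ f.toIntLinearMap hle)).subset ?_
  rintro _ ⟨e, rfl⟩
  exact ⟨P.mkQ e, rfl⟩

end Abs

/-! ### The conjugation actions as additive maps (`k`-generic) -/

section RepAdd

variable {k : Type} [CommRing k] {G : Type} [Group G] (𝓑 : LevelBasis G) (U : Subgroup G)
  [hU : U.Normal] (A : Rep.{0} k G)

/-- `repH0` as a family of additive maps. -/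
noncomputable def repH0Add (q : G ⧸ U) :
    ↥(resRep U A).ρ.invariants →+ ↥(resRep U A).ρ.invariants :=
  (repH0 U A q).toAddMonoidHom

/-- `repH1` as a family of additive maps. -/
noncomputable def repH1Add (q : G ⧸ U) :
    H1 (subBasis 𝓑 U) (resRep U A) →+ H1 (subBasis 𝓑 U) (resRep U A) :=
  (repH1 𝓑 U A q).toAddMonoidHom

/-- `repH2` as a family of additive maps. -/
noncomputable def repH2Add (q : G ⧸ U) :
    H2 (subBasis 𝓑 U) (resRep U A) →+ H2 (subBasis 𝓑 U) (resRep U A) :=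
  (repH2 𝓑 U A q).toAddMonoidHom

@[simp] theorem repH0Add_apply (q : G ⧸ U) (x : ↥(resRep U A).ρ.invariants) :
    repH0Add U A q x = repH0 U A q x := rfl

@[simp] theorem repH1Add_apply (q : G ⧸ U) (x : H1 (subBasis 𝓑 U) (resRep U A)) :
    repH1Add 𝓑 U A q x = repH1 𝓑 U A q x := rfl

@[simp] theorem repH2Add_apply (q : G ⧸ U) (x : H2 (subBasis 𝓑 U) (resRep U A)) :
    repH2Add 𝓑 U A q x = repH2 𝓑 U A q x := rfl

end RepAdd

/-! ### The Kummer sequence of `μ_p ⊂ E_S` over a level -/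

section Concrete

open Fermat.Agent.PT.GLUE.Levels21 Fermat.Agent.PT.GLUE.LevelQuot13
  Fermat.Agent.PT.GLUE Fermat.Agent.PT.PRO
  Fermat.Agent.TW.GLOB.PlacesBridge9 Fermat.Agent.TW.GLOB.UnitRanks9
  Fermat.Agent.TW.DEF.Mu1 Fermat.Agent.TW.GLOB.InvRecip1
  Fermat.Agent.PT.GLOB.Interface23
  NumberField ExtCitation

local notation "Γ" => (AlgebraicClosure ℚ ≃ₐ[ℚ] AlgebraicClosure ℚ)

attribute [local instance] mulActionInfinitePlaceLev

variable (S : Finset Nat.Primes) (p : ℕ) [hp : Fact p.Prime] (hpS : pPrime p ∈ S) (K : Lev S)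

include hpS in
theorem hdivES (x : ES S) : ∃ y : ES S, p • y = x :=
  ESDivisible27.exists_nsmul_eq (Fact.out) hpS x

theorem hjn (a : muP p) : p • jE p S hpS a = 0 :=
  Fermat.Agent.TW.GLOB.KummerH2_1.nsmul_apply_eq_zero (jE p S hpS) a

theorem jE_injective : Function.Injective (jE p S hpS) := (KerIsoGal7.muES p S hpS).inj

theorem jE_surj (x : ES S) (hx : p • x = 0) : ∃ a, jE p S hpS a = x :=
  (KerIsoGal7.muES p S hpS).surj x hx

/-- `μ_p^U → E_S^U`. -/
noncomputable def J0 :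
    ↥(resRep K.U (muP p)).ρ.invariants →+ ↥(resRep K.U (ES S)).ρ.invariants :=
  kj0 K.U (jE p S hpS) (jE_ρ p S hpS)

/-- `E_S^U → H¹(U; μ_p)`. -/
noncomputable def D0 :
    ↥(resRep K.U (ES S)).ρ.invariants →+ H1 (subBasis (levelS S) K.U) (resRep K.U (muP p)) :=
  kd0 (levelS S) K.U (isDiscrete_ES S) (hdivES S p hpS) (jE p S hpS) (jE_ρ p S hpS)
    (jE_injective S p hpS) (hjn S p hpS) (jE_surj S p hpS)

/-- `H¹(U; μ_p) → H¹(U; E_S)`. -/
noncomputable def J1 :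
    H1 (subBasis (levelS S) K.U) (resRep K.U (muP p)) →+
      H1 (subBasis (levelS S) K.U) (resRep K.U (ES S)) :=
  kj1 (levelS S) K.U (jE p S hpS) (jE_ρ p S hpS)

/-- `H¹(U; E_S) → H²(U; μ_p)`. -/
noncomputable def D1 :
    H1 (subBasis (levelS S) K.U) (resRep K.U (ES S)) →+
      H2 (subBasis (levelS S) K.U) (resRep K.U (muP p)) :=
  kd1 (levelS S) K.U (isDiscrete_ES S) (hdivES S p hpS) (jE p S hpS) (jE_ρ p S hpS)
    (jE_injective S p hpS) (hjn S p hpS) (jE_surj S p hpS)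

/-- `H²(U; μ_p) → H²(U; E_S)`. -/
noncomputable def J2 :
    H2 (subBasis (levelS S) K.U) (resRep K.U (muP p)) →+
      H2 (subBasis (levelS S) K.U) (resRep K.U (ES S)) :=
  kj2 (levelS S) K.U (jE p S hpS) (jE_ρ p S hpS)

theorem J0_injective : Function.Injective (J0 S p hpS K) :=
  kj0_injective K.U (jE p S hpS) (jE_ρ p S hpS) (jE_injective S p hpS)

theorem J0_range (x : ↥(resRep K.U (ES S)).ρ.invariants) :
    p • x = 0 ↔ ∃ a, J0 S p hpS K a = x :=
  nsmul_eq_zero_iff_H0 K.U (jE p S hpS) (jE_ρ p S hpS) (jE_injective S p hpS) (hjn S p hpS)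
    (jE_surj S p hpS) x

theorem D0_eq_zero_iff (x : ↥(resRep K.U (ES S)).ρ.invariants) :
    D0 S p hpS K x = 0 ↔ ∃ x' : ↥(resRep K.U (ES S)).ρ.invariants, x = p • x' :=
  kd0_eq_zero_iff (levelS S) K.U (isDiscrete_ES S) (hdivES S p hpS) (jE p S hpS) (jE_ρ p S hpS)
    (jE_injective S p hpS) (hjn S p hpS) (jE_surj S p hpS) x

theorem J1_eq_zero_iff (v : H1 (subBasis (levelS S) K.U) (resRep K.U (muP p))) :
    J1 S p hpS K v = 0 ↔ ∃ x, D0 S p hpS K x = v :=
  kj1_eq_zero_iff (levelS S) K.U (isDiscrete_ES S) (hdivES S p hpS) (jE p S hpS) (jE_ρ p S hpS)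
    (jE_injective S p hpS) (hjn S p hpS) (jE_surj S p hpS) v

theorem J1_range (y : H1 (subBasis (levelS S) K.U) (resRep K.U (ES S))) :
    p • y = 0 ↔ ∃ v, J1 S p hpS K v = y :=
  nsmul_eq_zero_iff_kj1 (levelS S) K.U (isDiscrete_ES S) (hdivES S p hpS) (jE p S hpS)
    (jE_ρ p S hpS) (jE_injective S p hpS) (hjn S p hpS) (jE_surj S p hpS) y

theorem D1_eq_zero_iff (y : H1 (subBasis (levelS S) K.U) (resRep K.U (ES S))) :
    D1 S p hpS K y = 0 ↔ ∃ y', y = p • y' :=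
  kd1_eq_zero_iff (levelS S) K.U (isDiscrete_ES S) (hdivES S p hpS) (jE p S hpS) (jE_ρ p S hpS)
    (jE_injective S p hpS) (hjn S p hpS) (jE_surj S p hpS) y

theorem J2_eq_zero_iff (v : H2 (subBasis (levelS S) K.U) (resRep K.U (muP p))) :
    J2 S p hpS K v = 0 ↔ ∃ y, D1 S p hpS K y = v :=
  kj2_eq_zero_iff (levelS S) K.U (isDiscrete_ES S) (hdivES S p hpS) (jE p S hpS) (jE_ρ p S hpS)
    (jE_injective S p hpS) (hjn S p hpS) (jE_surj S p hpS) v

theorem J2_range (z : H2 (subBasis (levelS S) K.U) (resRep K.U (ES S))) :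
    p • z = 0 ↔ ∃ v, J2 S p hpS K v = z :=
  nsmul_eq_zero_iff_kj2 (levelS S) K.U (isDiscrete_ES S) (hdivES S p hpS) (jE p S hpS)
    (jE_ρ p S hpS) (jE_injective S p hpS) (hjn S p hpS) (jE_surj S p hpS) z

theorem J0_rep (q : Γ ⧸ K.U) (a : ↥(resRep K.U (muP p)).ρ.invariants) :
    J0 S p hpS K (repH0 K.U (muP p) q a) = repH0 K.U (ES S) q (J0 S p hpS K a) :=
  kj0_repH0 K.U (jE p S hpS) (jE_ρ p S hpS) q a

theorem D0_rep (q : Γ ⧸ K.U) (x : ↥(resRep K.U (ES S)).ρ.invariants) :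
    D0 S p hpS K (repH0 K.U (ES S) q x) = repH1 (levelS S) K.U (muP p) q (D0 S p hpS K x) :=
  kd0_repH0 (levelS S) K.U (isDiscrete_ES S) (hdivES S p hpS) (jE p S hpS) (jE_ρ p S hpS)
    (jE_injective S p hpS) (hjn S p hpS) (jE_surj S p hpS) q x

theorem J1_rep (q : Γ ⧸ K.U) (v : H1 (subBasis (levelS S) K.U) (resRep K.U (muP p))) :
    J1 S p hpS K (repH1 (levelS S) K.U (muP p) q v) =
      repH1 (levelS S) K.U (ES S) q (J1 S p hpS K v) :=
  kj1_repH1 (levelS S) K.U (jE p S hpS) (jE_ρ p S hpS) q v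

theorem D1_rep (q : Γ ⧸ K.U) (y : H1 (subBasis (levelS S) K.U) (resRep K.U (ES S))) :
    D1 S p hpS K (repH1 (levelS S) K.U (ES S) q y) =
      repH2 (levelS S) K.U (muP p) q (D1 S p hpS K y) :=
  kd1_repH1 (levelS S) K.U (isDiscrete_ES S) (hdivES S p hpS) (jE p S hpS) (jE_ρ p S hpS)
    (jE_injective S p hpS) (hjn S p hpS) (jE_surj S p hpS) q y

theorem J2_rep (q : Γ ⧸ K.U) (v : H2 (subBasis (levelS S) K.U) (resRep K.U (muP p))) :
    J2 S p hpS K (repH2 (levelS S) K.U (muP p) q v) =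
      repH2 (levelS S) K.U (ES S) q (J2 S p hpS K v) :=
  kj2_repH2 (levelS S) K.U (jE p S hpS) (jE_ρ p S hpS) q v

end Concrete

/-! ### The Euler characteristic -/

section Main

open Fermat.Agent.PT.GLUE.Levels21 Fermat.Agent.PT.GLUE.LevelQuot13
  Fermat.Agent.PT.GLUE Fermat.Agent.PT.PRO
  Fermat.Agent.TW.GLOB.PlacesBridge9 Fermat.Agent.TW.GLOB.UnitRanks9
  Fermat.Agent.TW.DEF.Mu1 Fermat.Agent.TW.GLOB.InvRecip1
  Fermat.Agent.PT.GLOB.Interface23
  NumberField ExtCitation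

local notation "Γ" => (AlgebraicClosure ℚ ≃ₐ[ℚ] AlgebraicClosure ℚ)

attribute [local instance] mulActionInfinitePlaceLev

variable (S : Finset Nat.Primes) [DecidableEq ↥S] (p : ℕ) [hp : Fact p.Prime] (hp2 : p ≠ 2)
  (hpS : pPrime p ∈ S) (K : Lev S)

set_option maxHeartbeats 2000000 in
include hp2 hpS in
/-- **(MU\*) The equivariant Euler characteristic of `μ_p` over the level `K`**:
`ψ H⁰(U; μ_p) + ψ H²(U; μ_p) + ψ 𝔽_p[InfinitePlace K.F] = ψ H¹(U; μ_p)` for all models of the three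
cohomology groups, every subgroup `C ≤ Γ ⧸ U` and every additive invariant `ψ`. -/
theorem euler_muP {B : Type*} [AddCommGroup B] (C : Subgroup (Γ ⧸ K.U))
    (ψ : AdditiveInvariant (ZMod p) C B)
    (V0 V1 V2 : Type)
    [AddCommGroup V0] [Module (ZMod p) V0] [Module.Finite (ZMod p) V0]
    [AddCommGroup V1] [Module (ZMod p) V1] [Module.Finite (ZMod p) V1]
    [AddCommGroup V2] [Module (ZMod p) V2] [Module.Finite (ZMod p) V2]
    (ρ0 : Representation (ZMod p) C V0) (ρ1 : Representation (ZMod p) C V1)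
    (ρ2 : Representation (ZMod p) C V2)
    (i0 : V0 ≃+ ↥(resRep K.U (muP p)).ρ.invariants)
    (h0 : ∀ (c : C) v, i0 (ρ0 c v) = repH0 K.U (muP p) (c : Γ ⧸ K.U) (i0 v))
    (i1 : V1 ≃+ H1 (subBasis (levelS S) K.U) (resRep K.U (muP p)))
    (h1 : ∀ (c : C) v, i1 (ρ1 c v) = repH1 (levelS S) K.U (muP p) (c : Γ ⧸ K.U) (i1 v))
    (i2 : V2 ≃+ H2 (subBasis (levelS S) K.U) (resRep K.U (muP p)))
    (h2 : ∀ (c : C) v, i2 (ρ2 c v) = repH2 (levelS S) K.U (muP p) (c : Γ ⧸ K.U) (i2 v)) :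
    ψ.toFun V0 ρ0 + ψ.toFun V2 ρ2 +
        ψ.toFun (InfinitePlace ↥K.F → ZMod p) (permRep (InfinitePlace ↥K.F) (ZMod p)) =
      ψ.toFun V1 ρ1 := by
  haveI := Fermat.Agent.TW.GLOB.H1ES5.finite_H1_ES K
  obtain ⟨e, he⟩ := Fermat.Agent.TW.GLOB.UnitsLevel2.exists_unitsEquiv K
  have he' : ∀ (q : Γ ⧸ K.U) u, e.symm (unitAct S ↥K.F (eLev K q) u) =
      repH0 K.U (ES S) q (e.symm u) := fun q u => by
    apply e.injective
    rw [AddEquiv.apply_symm_apply, he, AddEquiv.apply_symm_apply]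
  refine Fermat.Agent.TW.GLOB.MUAbs5.euler_of_kummer p ψ
    (fun c => repH0Add K.U (ES S) (c : Γ ⧸ K.U))
    (fun c => repH1Add (levelS S) K.U (ES S) (c : Γ ⧸ K.U))
    (fun c => repH2Add (levelS S) K.U (ES S) (c : Γ ⧸ K.U))
    V0 V1 V2 ρ0 ρ1 ρ2
    (i1.symm.toAddMonoidHom.comp (D0 S p hpS K)) ?_ ?_
    ((J1 S p hpS K).comp i1.toAddMonoidHom) ?_ ?_ ?_
    (i2.symm.toAddMonoidHom.comp (D1 S p hpS K)) ?_ ?_
    ((J2 S p hpS K).comp i2.toAddMonoidHom) ?_ ?_ ?_
    (ψ.toFun (ZMod p) (Representation.trivial (ZMod p) C (ZMod p)))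
    (ψ.toFun (PlacesQ K → ZMod p) (permRep (PlacesQ K) (ZMod p)))
    (ψ.toFun (InfinitePlace ↥K.F → ZMod p) (permRep (InfinitePlace ↥K.F) (ZMod p))) ?_ ?_
  · -- hd0K
    intro x
    show i1.symm (D0 S p hpS K x) = 0 ↔ _
    rw [AddEquiv.map_eq_zero_iff]
    exact D0_eq_zero_iff S p hpS K x
  · -- hd0α
    intro c x
    show i1.symm (D0 S p hpS K (repH0 K.U (ES S) (c : Γ ⧸ K.U) x)) =
      ρ1 c (i1.symm (D0 S p hpS K x))
    apply i1.injective
    rw [AddEquiv.apply_symm_apply, h1, AddEquiv.apply_symm_apply, D0_rep]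
  · -- hj1K
    intro v
    show J1 S p hpS K (i1 v) = 0 ↔ ∃ x, i1.symm (D0 S p hpS K x) = v
    rw [J1_eq_zero_iff]
    constructor
    · rintro ⟨x, hx⟩
      exact ⟨x, by rw [hx, AddEquiv.symm_apply_apply]⟩
    · rintro ⟨x, rfl⟩
      exact ⟨x, by rw [AddEquiv.apply_symm_apply]⟩
  · -- hj1R
    intro y
    show p • y = 0 ↔ ∃ v, J1 S p hpS K (i1 v) = y
    rw [J1_range S p hpS K y]
    constructor
    · rintro ⟨w, rfl⟩
      exact ⟨i1.symm w, by rw [AddEquiv.apply_symm_apply]⟩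
    · rintro ⟨v, rfl⟩
      exact ⟨i1 v, rfl⟩
  · -- hj1α
    intro c v
    show J1 S p hpS K (i1 (ρ1 c v)) = repH1 (levelS S) K.U (ES S) (c : Γ ⧸ K.U)
      (J1 S p hpS K (i1 v))
    rw [h1, J1_rep]
  · -- hd1K
    intro y
    show i2.symm (D1 S p hpS K y) = 0 ↔ _
    rw [AddEquiv.map_eq_zero_iff]
    exact D1_eq_zero_iff S p hpS K y
  · -- hd1α
    intro c y
    show i2.symm (D1 S p hpS K (repH1 (levelS S) K.U (ES S) (c : Γ ⧸ K.U) y)) =
      ρ2 c (i2.symm (D1 S p hpS K y))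
    apply i2.injective
    rw [AddEquiv.apply_symm_apply, h2, AddEquiv.apply_symm_apply, D1_rep]
  · -- hj2K
    intro v
    show J2 S p hpS K (i2 v) = 0 ↔ ∃ y, i2.symm (D1 S p hpS K y) = v
    rw [J2_eq_zero_iff]
    constructor
    · rintro ⟨y, hy⟩
      exact ⟨y, by rw [hy, AddEquiv.symm_apply_apply]⟩
    · rintro ⟨y, rfl⟩
      exact ⟨y, by rw [AddEquiv.apply_symm_apply]⟩
  · -- hj2R
    intro z
    show p • z = 0 ↔ ∃ v, J2 S p hpS K (i2 v) = z
    rw [J2_range S p hpS K z]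
    constructor
    · rintro ⟨w, rfl⟩
      exact ⟨i2.symm w, by rw [AddEquiv.apply_symm_apply]⟩
    · rintro ⟨v, rfl⟩
      exact ⟨i2 v, rfl⟩
  · -- hj2α
    intro c v
    show J2 S p hpS K (i2 (ρ2 c v)) = repH2 (levelS S) K.U (ES S) (c : Γ ⧸ K.U)
      (J2 S p hpS K (i2 v))
    rw [h2, J2_rep]
  · -- hunits
    intro W _ _ _ ρW q hq hqK hqα
    refine map_units_eq_lev K C p ψ V0 W ρ0 ρW
      (e.toAddMonoidHom.comp ((J0 S p hpS K).comp i0.toAddMonoidHom)) ?_ ?_ ?_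
      (q.comp e.symm.toAddMonoidHom) ?_ ?_ ?_
    · exact e.injective.comp ((J0_injective S p hpS K).comp i0.injective)
    · intro u
      constructor
      · rintro ⟨v, rfl⟩
        show p • e (J0 S p hpS K (i0 v)) = 0
        rw [← map_nsmul, (J0_range S p hpS K _).2 ⟨i0 v, rfl⟩, map_zero]
      · intro hu
        have hx : p • e.symm u = 0 := by rw [← map_nsmul, hu, map_zero]
        obtain ⟨a, ha⟩ := (J0_range S p hpS K _).1 hx
        refine ⟨i0.symm a, ?_⟩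
        show e (J0 S p hpS K (i0 (i0.symm a))) = u
        rw [AddEquiv.apply_symm_apply, ha, AddEquiv.apply_symm_apply]
    · intro c v
      show e (J0 S p hpS K (i0 (ρ0 c v))) = unitAct S ↥K.F (eLev K (c : Γ ⧸ K.U))
        (e (J0 S p hpS K (i0 v)))
      rw [h0, J0_rep, he]
    · exact hq.comp e.symm.surjective
    · intro u
      show q (e.symm u) = 0 ↔ _
      rw [hqK]
      constructor
      · rintro ⟨x', hx'⟩
        refine ⟨e x', ?_⟩
        rw [← map_nsmul, ← hx', AddEquiv.apply_symm_apply]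
      · rintro ⟨u', rfl⟩
        exact ⟨e.symm u', map_nsmul _ _ _⟩
    · intro c u
      show q (e.symm (unitAct S ↥K.F (eLev K (c : Γ ⧸ K.U)) u)) = ρW c (q (e.symm u))
      rw [he', ← hqα]
      rfl
  · -- hH2
    intro T _ _ _ ρT i hi hiK hiα
    exact Fermat.Agent.TW.GLOB.H2ES5.map_model_H2ES S p hp2 hpS K C ψ T ρT i hi hiK hiα

/-! ### Finiteness of `H¹(U; μ_p)` and `H²(U; μ_p)` -/

include hpS in
/-- `H¹(U; μ_p)` is finite. -/
theorem finite_H1_muP : Finite (H1 (subBasis (levelS S) K.U) (resRep K.U (muP p))) := by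
  haveI := Fermat.Agent.TW.GLOB.H1ES5.finite_H1_ES K
  obtain ⟨e, -⟩ := Fermat.Agent.TW.GLOB.UnitsLevel2.exists_unitsEquiv K
  refine finite_of_exact (D0 S p hpS K) (J1 S p hpS K) (J1_eq_zero_iff S p hpS K) ?_
    (Set.toFinite _)
  have h := finite_range_of_fg p (Fact.out : p.Prime).ne_zero
    ((D0 S p hpS K).comp e.symm.toAddMonoidHom) (fun u => by
      show D0 S p hpS K (e.symm (p • u)) = 0
      rw [D0_eq_zero_iff]
      exact ⟨e.symm u, map_nsmul _ _ _⟩)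
  refine h.subset ?_
  rintro _ ⟨x, rfl⟩
  refine ⟨e x, ?_⟩
  show D0 S p hpS K (e.symm (e x)) = _
  rw [AddEquiv.symm_apply_apply]

include hp2 hpS in
/-- `H²(U; μ_p)` is finite. -/
theorem finite_H2_muP : Finite (H2 (subBasis (levelS S) K.U) (resRep K.U (muP p))) := by
  haveI := Fermat.Agent.TW.GLOB.H1ES5.finite_H1_ES K
  have hfin := Fermat.Agent.TW.GLOB.H2ES5.finite_tors_H2ES S p hp2 hpS K
  refine finite_of_exact (D1 S p hpS K) (J2 S p hpS K) (J2_eq_zero_iff S p hpS K)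
    (Set.toFinite _) ?_
  have h : (SetLike.coe (Fermat.Agent.TW.GLOB.H2Abs5.tors p
      (H2 (subBasis (levelS S) K.U) (resRep K.U (ES S))))).Finite := by
    haveI := hfin
    exact Set.toFinite _
  refine h.subset ?_
  rintro _ ⟨v, rfl⟩
  exact (Fermat.Agent.TW.GLOB.H2Abs5.mem_tors_iff p _).2 ((J2_range S p hpS K _).2 ⟨v, rfl⟩)

/-- `H⁰(U; μ_p)` is a finite `𝔽_p`-module. -/
theorem moduleFinite_H0_muP : Module.Finite (ZMod p) ↥(resRep K.U (muP p)).ρ.invariants := by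
  haveI : Finite (muP p) := inferInstanceAs (Finite (ZMod p))
  haveI : Finite ↥(resRep K.U (muP p)).ρ.invariants :=
    Finite.of_injective (fun x => (x.1 : muP p)) Subtype.val_injective
  exact Module.Finite.of_finite

include hpS in
/-- `H¹(U; μ_p)` is a finite `𝔽_p`-module. -/
theorem moduleFinite_H1_muP :
    Module.Finite (ZMod p) (H1 (subBasis (levelS S) K.U) (resRep K.U (muP p))) := by
  haveI := finite_H1_muP S p hpS K
  exact Module.Finite.of_finite

include hp2 hpS in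
/-- `H²(U; μ_p)` is a finite `𝔽_p`-module. -/
theorem moduleFinite_H2_muP :
    Module.Finite (ZMod p) (H2 (subBasis (levelS S) K.U) (resRep K.U (muP p))) := by
  haveI := finite_H2_muP S p hp2 hpS K
  exact Module.Finite.of_finite

include hp2 hpS in
/-- **(MU\*) for the cohomology groups themselves** (the finiteness instances are hypotheses; they
are provided by `moduleFinite_H0_muP`, `moduleFinite_H1_muP`, `moduleFinite_H2_muP`). -/
theorem euler_muP_self {B : Type*} [AddCommGroup B] (C : Subgroup (Γ ⧸ K.U))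
    (ψ : AdditiveInvariant (ZMod p) C B)
    [Module.Finite (ZMod p) ↥(resRep K.U (muP p)).ρ.invariants]
    [Module.Finite (ZMod p) (H1 (subBasis (levelS S) K.U) (resRep K.U (muP p)))]
    [Module.Finite (ZMod p) (H2 (subBasis (levelS S) K.U) (resRep K.U (muP p)))] :
    ψ.toFun ↥(resRep K.U (muP p)).ρ.invariants ((repH0 K.U (muP p)).comp C.subtype) +
        ψ.toFun (H2 (subBasis (levelS S) K.U) (resRep K.U (muP p)))
          ((repH2 (levelS S) K.U (muP p)).comp C.subtype) +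
        ψ.toFun (InfinitePlace ↥K.F → ZMod p) (permRep (InfinitePlace ↥K.F) (ZMod p)) =
      ψ.toFun (H1 (subBasis (levelS S) K.U) (resRep K.U (muP p)))
        ((repH1 (levelS S) K.U (muP p)).comp C.subtype) :=
  euler_muP S p hp2 hpS K C ψ _ _ _ _ _ _ (AddEquiv.refl _) (fun _ _ => rfl)
    (AddEquiv.refl _) (fun _ _ => rfl) (AddEquiv.refl _) (fun _ _ => rfl)

end Main

end Fermat.Agent.TW.GLOB.MUMain5
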