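/-
Chapter T / GLOB, brick (U3) — helper9: **the infinite places of a finite level and the cosets of
complex conjugation**.

`F/ℚ` finite Galois inside `ℚ̄`, `G = Gal(F/ℚ)`, `φ₀ = complexEmbedding|_F : F → ℂ` (the Prelude's
embedding `ℚ̄ → ℂ`), `c_F = complexConjugation|_F`.

* `embF F`, `placeAt F : InfinitePlace F` (the place of `φ₀`), `ccF F`, `isConj_ccF`;
* `exists_smul_placeAt_eq`: `G` acts transitively on the infinite places of `F`;
* `smul_placeAt_eq_iff`: the stabiliser of `placeAt F` is `⟨c_F⟩`.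

For a level `K : Lev S`, `Q = Γ ⧸ K.U`, `cbar K : Q` the class of `complexConjugation`:

* `archEquiv K : Q ⧸ ⟨cbar K⟩ ≃ InfinitePlace K.F` (`x ⟨c⟩ ↦ x • placeAt`), `archEquiv_smul`
  (equivariance for `PlacesBridge9.mulActionInfinitePlaceLev`);
* **`map_permRep_arch`**: for `C ≤ Q` and every additive invariant `φ` of `𝔽_p[C]`-modules,
  `φ (𝔽_p[Q ⧸ ⟨c⟩]) = φ (𝔽_p[InfinitePlace K.F])`.
-/
import Mathlib
import Fermat.Prelude.Def_GaloisRep_ComplexConjugation
import Fermat.Agent.TW.GLOB.PlacesBridge9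

set_option autoImplicit false
set_option linter.unusedSectionVars false

open scoped Pointwise
open NumberField NumberField.InfinitePlace

namespace Fermat.Agent.TW.GLOB.ArchPlaces9

local notation "Qbar" => AlgebraicClosure ℚ
local notation "GQ" => (AlgebraicClosure ℚ ≃ₐ[ℚ] AlgebraicClosure ℚ)

/-! ### The place of a finite level cut out by `complexEmbedding` -/

section Core

variable (F : IntermediateField ℚ Qbar) [FiniteDimensional ℚ F] [IsGalois ℚ F]

/-- The restriction of the Prelude's `complexEmbedding : ℚ̄ → ℂ` to `F`. -/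
noncomputable def embF : ↥F →+* ℂ :=
  (complexEmbedding : Qbar →+* ℂ).comp (algebraMap ↥F Qbar)

theorem embF_apply (x : ↥F) : embF F x = complexEmbedding (x : Qbar) := rfl

/-- The infinite place of `F` cut out by `complexEmbedding`. -/
noncomputable def placeAt : InfinitePlace ↥F := InfinitePlace.mk (embF F)

/-- The restriction of complex conjugation to `F`. -/
noncomputable def ccF : ↥F ≃ₐ[ℚ] ↥F := AlgEquiv.restrictNormalHom F complexConjugation

theorem coe_ccF (x : ↥F) : ((ccF F x : ↥F) : Qbar) = complexConjugation (x : Qbar) :=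
  AlgEquiv.restrictNormal_commutes complexConjugation F x

theorem isConj_ccF : ComplexEmbedding.IsConj (embF F) (ccF F) := by
  ext x
  change star (embF F x) = embF F (ccF F x)
  rw [embF_apply, embF_apply, coe_ccF, complexEmbedding_complexConjugation]
  rfl

/-- `Gal(F/ℚ)` acts transitively on the infinite places of `F`. -/
theorem exists_smul_placeAt_eq (w : InfinitePlace ↥F) : ∃ σ : ↥F ≃ₐ[ℚ] ↥F, σ • placeAt F = w :=
  exists_smul_eq_of_comap_eq (Subsingleton.elim _ _)

/-- The stabiliser of `placeAt F` is generated by the restriction of complex conjugation. -/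
theorem smul_placeAt_eq_iff (σ : ↥F ≃ₐ[ℚ] ↥F) :
    σ • placeAt F = placeAt F ↔ σ ∈ Subgroup.zpowers (ccF F) := by
  rw [← MulAction.mem_stabilizer_iff]
  constructor
  · intro h
    rcases (mem_stabilizer_mk_iff (embF F) σ).1 h with h1 | h1
    · rw [h1]
      exact one_mem _
    · rw [h1.ext (isConj_ccF F)]
      exact Subgroup.mem_zpowers _
  · intro h
    have hc : ccF F ∈ MulAction.stabilizer (↥F ≃ₐ[ℚ] ↥F) (placeAt F) :=
      (mem_stabilizer_mk_iff (embF F) (ccF F)).2 (Or.inr (isConj_ccF F))
    exact (Subgroup.zpowers_le.2 hc) h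

end Core

/-! ### The levels -/

section Lev

open Fermat.Agent.PT.GLUE.Levels21 Fermat.Agent.PT.GLUE.LevelQuot13
  Fermat.Agent.TW.GLOB.IndDefs9 Fermat.Agent.TW.GLOB.LatticeRedFinal9
  Fermat.Agent.TW.GLOB.PlacesBridge9

local notation "Γ" => (AlgebraicClosure ℚ ≃ₐ[ℚ] AlgebraicClosure ℚ)

universe w

variable {S : Finset Nat.Primes} (K : Lev S)

attribute [local instance] mulActionInfinitePlaceLev

/-- The class of complex conjugation in `Γ ⧸ K.U`. -/
noncomputable def cbar : Γ ⧸ K.U := ((complexConjugation : Γ) : Γ ⧸ K.U)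

theorem eLev_cbar : eLev K (cbar K) = ccF K.F := rfl

theorem cbar_mul_self : cbar K * cbar K = 1 := by
  change ((complexConjugation * complexConjugation : Γ) : Γ ⧸ K.U) = 1
  rw [complexConjugation_mul_self]
  rfl

/-- `⟨c⟩` is the stabiliser of `placeAt K.F`. -/
theorem mem_zpowers_cbar_iff (x : Γ ⧸ K.U) :
    x ∈ Subgroup.zpowers (cbar K) ↔ x • placeAt K.F = placeAt K.F := by
  rw [smul_infinitePlace_lev, smul_placeAt_eq_iff, ← eLev_cbar]
  constructor
  · rintro ⟨n, rfl⟩
    exact ⟨n, (map_zpow (eLev K) _ n).symm⟩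
  · rintro ⟨n, hn⟩
    refine ⟨n, (eLev K).injective ?_⟩
    change eLev K (cbar K ^ n) = eLev K x
    rw [map_zpow]
    exact hn

/-- The index set of the archimedean places in the vocabulary of the levels. -/
abbrev ArchQ : Type := (Γ ⧸ K.U) ⧸ Subgroup.zpowers (cbar K)

theorem smul_placeAt_eq_smul_iff (x y : Γ ⧸ K.U) :
    x • placeAt K.F = y • placeAt K.F ↔ x⁻¹ * y ∈ Subgroup.zpowers (cbar K) := by
  rw [mem_zpowers_cbar_iff, mul_smul, inv_smul_eq_iff]
  exact eq_comm

/-- The map `Q ⧸ ⟨c⟩ → InfinitePlace K.F`, `x ⟨c⟩ ↦ x • placeAt`. -/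
noncomputable def archMap : ArchQ K → InfinitePlace ↥K.F := fun y =>
  Quotient.liftOn' y (fun x => x • placeAt K.F) (by
    intro a b hab
    rw [smul_placeAt_eq_smul_iff]
    exact QuotientGroup.leftRel_apply.1 hab)

theorem archMap_mk (x : Γ ⧸ K.U) : archMap K (x : ArchQ K) = x • placeAt K.F := rfl

theorem archMap_bijective : Function.Bijective (archMap K) := by
  constructor
  · intro a b hab
    induction a using QuotientGroup.induction_on with
    | H x =>
      induction b using QuotientGroup.induction_on with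
      | H y =>
        rw [archMap_mk, archMap_mk, smul_placeAt_eq_smul_iff] at hab
        exact QuotientGroup.eq.2 hab
  · intro w
    obtain ⟨σ, hσ⟩ := exists_smul_placeAt_eq K.F w
    refine ⟨(((eLev K).symm σ : Γ ⧸ K.U) : ArchQ K), ?_⟩
    rw [archMap_mk, smul_infinitePlace_lev, MulEquiv.apply_symm_apply]
    exact hσ

/-- **The bijection `Q ⧸ ⟨c⟩ ≃ InfinitePlace K.F`.** -/
noncomputable def archEquiv : ArchQ K ≃ InfinitePlace ↥K.F :=
  Equiv.ofBijective (archMap K) (archMap_bijective K)

/-- **Equivariance** of `archEquiv`. -/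
theorem archEquiv_smul (c : Γ ⧸ K.U) (y : ArchQ K) :
    archEquiv K (c • y) = c • archEquiv K y := by
  induction y using QuotientGroup.induction_on with
  | H x =>
    change archMap K ((c * x : Γ ⧸ K.U) : ArchQ K) = c • archMap K (x : ArchQ K)
    rw [archMap_mk, archMap_mk, mul_smul]

instance : Finite (ArchQ K) := Finite.of_equiv _ (archEquiv K).symm

variable (C : Subgroup (Γ ⧸ K.U)) (p : ℕ) [Fact p.Prime] {B : Type w} [AddCommGroup B]
  (φ : AdditiveInvariant (ZMod p) C B)

/-- The permutation modules on `Q ⧸ ⟨c⟩` and on the infinite places of `K.F` have the same image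
under every additive invariant. -/
theorem map_permRep_arch :
    φ.toFun (ArchQ K → ZMod p) (permRep (ArchQ K) (ZMod p)) =
      φ.toFun (InfinitePlace ↥K.F → ZMod p) (permRep (InfinitePlace ↥K.F) (ZMod p)) := by
  refine φ.map_equiv _ _ _ _ (LinearEquiv.funCongrLeft (ZMod p) (ZMod p) (archEquiv K).symm) ?_
  intro g f
  funext P
  change f (g⁻¹ • (archEquiv K).symm P) = f ((archEquiv K).symm (g⁻¹ • P))
  congr 1
  apply (archEquiv K).injective
  rw [Equiv.apply_symm_apply]
  change archEquiv K (((g⁻¹ : C) : Γ ⧸ K.U) • (archEquiv K).symm P) = _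
  rw [archEquiv_smul, Equiv.apply_symm_apply]
  rfl

end Lev

end Fermat.Agent.TW.GLOB.ArchPlaces9
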