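/-
Chapter T / GLOB, task T7 (Tate's global Euler characteristic), algebra brick — helper9.

**Twisting by a matrix representation and taking invariants is an additive invariant.**

`k` a field, `C` a finite group whose order is invertible in `k`.

* `avg θ` : the averaging operator of a representation `θ` of `C`; `avg_mem_invariants`,
  `avg_of_mem`, `avg_comm` (naturality), `range_avg`;
* `finrank_invariants_eq_add` : `θ ↦ dim θ^C` is additive on short exact sequences;
* `twistRep s ρ` : for a matrix representation `s : C →* M_d(k)` and a representation `ρ` of `C` on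
  `X`, the representation `s ⊗ ρ` on `X^d = (Fin d → X)`,
  `(c • F)_i = ∑_j s(c)_{ij} • ρ(c)(F_j)`;
* **`psiS s hC : AdditiveInvariant k C ℤ`**, `X ↦ dim (s ⊗ X)^C`.
-/
import Mathlib
import Fermat.Agent.TW.GLOB.IndDefs9

set_option autoImplicit false
set_option linter.unusedSectionVars false

namespace Fermat.Agent.TW.GLOB.MatIdem9

open Fermat.Agent.TW.GLOB.IndDefs9 Module

universe u v

variable {k : Type v} [Field k] {C : Type u} [Group C] [Fintype C]

/-! ### Averaging -/

section Avg

variable {Z : Type*} [AddCommGroup Z] [Module k Z] (θ : Representation k C Z)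

/-- The averaging operator `|C|⁻¹ ∑_g θ(g)`. -/
noncomputable def avg : Z →ₗ[k] Z := ((Fintype.card C : k)⁻¹) • ∑ g : C, θ g

theorem avg_apply (v : Z) : avg θ v = ((Fintype.card C : k)⁻¹) • ∑ g : C, θ g v := by
  rw [avg, LinearMap.smul_apply, LinearMap.sum_apply]

theorem apply_avg (h : C) (v : Z) : θ h (avg θ v) = avg θ v := by
  rw [avg_apply, map_smul, map_sum]
  congr 1
  rw [← Equiv.sum_comp (Equiv.mulLeft h) (fun g => θ g v)]
  refine Finset.sum_congr rfl (fun g _ => ?_)
  rw [Equiv.coe_mulLeft, map_mul, Module.End.mul_apply]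

theorem avg_mem_invariants (v : Z) : avg θ v ∈ θ.invariants := fun h => apply_avg θ h v

theorem avg_of_mem (hC : (Fintype.card C : k) ≠ 0) {v : Z} (hv : v ∈ θ.invariants) :
    avg θ v = v := by
  rw [avg_apply, Finset.sum_congr rfl (fun g _ => hv g), Finset.sum_const, Finset.card_univ,
    ← Nat.cast_smul_eq_nsmul k, smul_smul, inv_mul_cancel₀ hC, one_smul]

theorem avg_avg (hC : (Fintype.card C : k) ≠ 0) (v : Z) : avg θ (avg θ v) = avg θ v :=
  avg_of_mem θ hC (avg_mem_invariants θ v)

theorem range_avg (hC : (Fintype.card C : k) ≠ 0) : LinearMap.range (avg θ) = θ.invariants := by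
  ext v
  constructor
  · rintro ⟨w, rfl⟩
    exact avg_mem_invariants θ w
  · intro hv
    exact ⟨v, avg_of_mem θ hC hv⟩

variable {θ}

/-- Naturality of the averaging operator. -/
theorem avg_comm {Z' : Type*} [AddCommGroup Z'] [Module k Z'] {θ' : Representation k C Z'}
    (f : Z →ₗ[k] Z') (hf : ∀ g v, f (θ g v) = θ' g (f v)) (v : Z) :
    f (avg θ v) = avg θ' (f v) := by
  rw [avg_apply, avg_apply, map_smul, map_sum]
  congr 1
  exact Finset.sum_congr rfl (fun g _ => hf g v)

end Avg

/-! ### Exactness of invariants -/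

section Exact

variable {Z₁ Z₂ Z₃ : Type*} [AddCommGroup Z₁] [Module k Z₁] [AddCommGroup Z₂] [Module k Z₂]
  [AddCommGroup Z₃] [Module k Z₃]

/-- **Invariants under a group of invertible order are exact** (dimension form). -/
theorem finrank_invariants_eq_add (hC : (Fintype.card C : k) ≠ 0) [Module.Finite k Z₂]
    (θ₁ : Representation k C Z₁) (θ₂ : Representation k C Z₂) (θ₃ : Representation k C Z₃)
    (i : Z₁ →ₗ[k] Z₂) (q : Z₂ →ₗ[k] Z₃)
    (hi : ∀ g v, i (θ₁ g v) = θ₂ g (i v)) (hq : ∀ g v, q (θ₂ g v) = θ₃ g (q v))
    (hinj : Function.Injective i) (hex : Function.Exact i q) (hsurj : Function.Surjective q) :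
    finrank k θ₂.invariants = finrank k θ₁.invariants + finrank k θ₃.invariants := by
  -- the restricted maps
  let q' : θ₂.invariants →ₗ[k] θ₃.invariants :=
    (q.comp θ₂.invariants.subtype).codRestrict θ₃.invariants (fun v g => by
      change θ₃ g (q (v : Z₂)) = q (v : Z₂)
      rw [← hq, v.2 g])
  let i' : θ₁.invariants →ₗ[k] θ₂.invariants :=
    (i.comp θ₁.invariants.subtype).codRestrict θ₂.invariants (fun v g => by
      change θ₂ g (i (v : Z₁)) = i (v : Z₁)
      rw [← hi, v.2 g])
  have hq'surj : Function.Surjective q' := by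
    rintro ⟨w, hw⟩
    obtain ⟨v, rfl⟩ := hsurj w
    refine ⟨⟨avg θ₂ v, avg_mem_invariants θ₂ v⟩, Subtype.ext ?_⟩
    change q (avg θ₂ v) = q v
    rw [avg_comm q hq, avg_of_mem θ₃ hC hw]
  have hi'inj : Function.Injective i' := by
    intro a b hab
    apply Subtype.ext
    apply hinj
    exact congrArg (fun z : θ₂.invariants => (z : Z₂)) hab
  have hker : LinearMap.ker q' = LinearMap.range i' := by
    ext v
    rw [LinearMap.mem_ker, LinearMap.mem_range]
    constructor
    · intro hv
      have hv' : q (v : Z₂) = 0 := congrArg (fun z : θ₃.invariants => (z : Z₃)) hv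
      obtain ⟨u, hu⟩ := (hex (v : Z₂)).1 hv'
      have hu' : u ∈ θ₁.invariants := by
        intro g
        apply hinj
        rw [hi, hu, v.2 g]
      exact ⟨⟨u, hu'⟩, Subtype.ext hu⟩
    · rintro ⟨u, rfl⟩
      apply Subtype.ext
      change q (i (u : Z₁)) = 0
      exact (hex _).2 ⟨_, rfl⟩
  have h1 := LinearMap.finrank_range_add_finrank_ker q'
  rw [LinearMap.range_eq_top.2 hq'surj, finrank_top, hker,
    LinearMap.finrank_range_of_inj hi'inj] at h1
  omega

end Exact

/-! ### Twisting by a matrix representation -/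

section Twist

variable {d : ℕ} (s : C →* Matrix (Fin d) (Fin d) k)

/-- The representation `s ⊗ ρ` on `X^d`: `(c • F)_i = ∑_j s(c)_{ij} • ρ(c)(F_j)`. -/
noncomputable def twistRep {X : Type*} [AddCommGroup X] [Module k X] (ρ : Representation k C X) :
    Representation k C (Fin d → X) where
  toFun c :=
    { toFun := fun F i => ∑ j, s c i j • ρ c (F j)
      map_add' := fun F F' => by
        funext i
        simp only [Pi.add_apply, map_add, smul_add, Finset.sum_add_distrib]
      map_smul' := fun a F => by
        funext i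
        simp only [Pi.smul_apply, map_smul, RingHom.id_apply, Finset.smul_sum]
        exact Finset.sum_congr rfl (fun j _ => smul_comm _ _ _) }
  map_one' := by
    refine LinearMap.ext fun F => funext fun i => ?_
    change ∑ j, s 1 i j • ρ 1 (F j) = F i
    rw [map_one, map_one]
    simp only [Module.End.one_apply, Matrix.one_apply, ite_smul, one_smul, zero_smul,
      Finset.sum_ite_eq, Finset.mem_univ, if_true]
  map_mul' c c' := by
    refine LinearMap.ext fun F => funext fun i => ?_
    change ∑ j, s (c * c') i j • ρ (c * c') (F j) =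
      ∑ l, s c i l • ρ c (∑ j, s c' l j • ρ c' (F j))
    simp only [map_mul, Matrix.mul_apply, Module.End.mul_apply, map_sum, map_smul,
      Finset.smul_sum, Finset.sum_smul, smul_smul]
    rw [Finset.sum_comm]

@[simp] theorem twistRep_apply {X : Type*} [AddCommGroup X] [Module k X]
    (ρ : Representation k C X) (c : C) (F : Fin d → X) (i : Fin d) :
    twistRep s ρ c F i = ∑ j, s c i j • ρ c (F j) := rfl

/-- Functoriality of `twistRep` in equivariant maps. -/
theorem compLeft_twistRep {X X' : Type*} [AddCommGroup X] [Module k X] [AddCommGroup X']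
    [Module k X'] {ρ : Representation k C X} {ρ' : Representation k C X'} (f : X →ₗ[k] X')
    (hf : ∀ g v, f (ρ g v) = ρ' g (f v)) (c : C) (F : Fin d → X) :
    f.compLeft (Fin d) (twistRep s ρ c F) = twistRep s ρ' c (f.compLeft (Fin d) F) := by
  funext i
  simp only [LinearMap.compLeft_apply, Function.comp_apply, twistRep_apply, map_sum, map_smul, hf]

/-- **The additive invariant `X ↦ dim (s ⊗ X)^C`.** -/
noncomputable def psiS (hC : (Fintype.card C : k) ≠ 0) : AdditiveInvariant k C ℤ where
  toFun X _ _ _ ρ := (finrank k (twistRep s ρ).invariants : ℤ)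
  map_exact V₁ V₂ V₃ _ _ _ _ _ _ _ _ _ ρ₁ ρ₂ ρ₃ i q hi hq hinj hex hsurj := by
    have h := finrank_invariants_eq_add hC (twistRep s ρ₁) (twistRep s ρ₂) (twistRep s ρ₃)
      (i.compLeft (Fin d)) (q.compLeft (Fin d)) (compLeft_twistRep s i hi)
      (compLeft_twistRep s q hq)
      (fun F F' h => funext fun j => hinj (congrFun h j))
      (fun F => by
        constructor
        · intro hF
          have h1 : ∀ j, ∃ u, i u = F j := fun j => (hex (F j)).1 (congrFun hF j)
          choose G hG using h1
          exact ⟨G, funext hG⟩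
        · rintro ⟨G, rfl⟩
          funext j
          exact (hex _).2 ⟨G j, rfl⟩)
      (fun F => by
        choose G hG using fun j => hsurj (F j)
        exact ⟨G, funext hG⟩)
    rw [h]
    push_cast
    rfl

theorem psiS_toFun (hC : (Fintype.card C : k) ≠ 0) (X : Type u) [AddCommGroup X] [Module k X]
    [Module.Finite k X] (ρ : Representation k C X) :
    (psiS s hC).toFun X ρ = (finrank k (twistRep s ρ).invariants : ℤ) := rfl

end Twist

end Fermat.Agent.TW.GLOB.MatIdem9
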