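/-
Chapter T / GLOB, task T7 (Tate's global Euler characteristic), abstract brick — helper9.

**Linear functors on `Rep k G` and invariants under a commuting finite group.**

* `LinFun k G` : a `k`-linear functor from `Rep k G` (morphisms = equivariant linear maps, given
  as a linear map plus a proof of equivariance) to `k`-modules.
  Instances: `H0fun` (invariants), `H1fun 𝓑`, `H2fun 𝓑` (level cohomology of `LevelCoh28`),
  `eigFun g₀ a` (the kernel of `ρ g₀ - a`).
* For `A : Rep k G` with a representation `θ` of a finite group `C` (of order invertible in `k`)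
  by `G`-equivariant maps: `fixedRep A θ hθ : Rep k G` (the `θ`-invariants), `mapRep F A θ hθ`
  (the induced representation of `C` on `F.obj A`), and
  **`objFixedEquiv : F.obj (fixedRep A θ hθ) ≃ₗ (mapRep F A θ hθ).invariants`**.
* `powRep Y d : Rep k G` (`Y^d`), `objPowEquiv : (Fin d → F.obj Y) ≃ₗ F.obj (powRep Y d)`, and
  its compatibility `objPowEquiv_twist` with `MatIdem9.twistRep`.
* **`finrank_obj_twistFixed`** : for a model `j : F.obj Y ≃ₗ W` intertwining `F(T)` with `ρW`,
  `dim F((Y^d)^{s ⊗ T}) = dim (s ⊗ ρW)^C`.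
-/
import Mathlib
import Fermat.Agent.PT.PRO.LevelCoh28
import Fermat.Agent.TW.GLOB.MapH5
import Fermat.Agent.TW.GLOB.MatIdem9

set_option autoImplicit false
set_option linter.unusedSectionVars false

universe u

open Module
open Fermat.Agent.PT.PRO.LevelCoh28 Fermat.Agent.TW.GLOB.MapH5 Fermat.Agent.TW.GLOB.MatIdem9

namespace Fermat.Agent.TW.GLOB.LinFun9

/-- A `k`-linear functor from `Rep k G` to `k`-modules; morphisms are presented as linear maps
together with a proof of equivariance. -/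
structure LinFun (k G : Type u) [CommRing k] [Group G] where
  /-- the value on objects -/
  obj : Rep.{u} k G → Type u
  [acg : ∀ A, AddCommGroup (obj A)]
  [mod : ∀ A, Module k (obj A)]
  /-- the value on morphisms -/
  map : ∀ {A B : Rep.{u} k G} (φ : A →ₗ[k] B), (∀ g a, φ (A.ρ g a) = B.ρ g (φ a)) →
    (obj A →ₗ[k] obj B)
  map_id : ∀ (A : Rep.{u} k G) (h : ∀ g a, (LinearMap.id : A →ₗ[k] A) (A.ρ g a) =
    A.ρ g ((LinearMap.id : A →ₗ[k] A) a)), map (LinearMap.id : A →ₗ[k] A) h = LinearMap.id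
  map_comp : ∀ {A B C : Rep.{u} k G} (φ : A →ₗ[k] B) (hφ : ∀ g a, φ (A.ρ g a) = B.ρ g (φ a))
    (ψ : B →ₗ[k] C) (hψ : ∀ g b, ψ (B.ρ g b) = C.ρ g (ψ b))
    (h : ∀ g a, (ψ ∘ₗ φ) (A.ρ g a) = C.ρ g ((ψ ∘ₗ φ) a)),
    map (ψ ∘ₗ φ) h = map ψ hψ ∘ₗ map φ hφ
  map_add : ∀ {A B : Rep.{u} k G} (φ : A →ₗ[k] B) (hφ : ∀ g a, φ (A.ρ g a) = B.ρ g (φ a))
    (φ' : A →ₗ[k] B) (hφ' : ∀ g a, φ' (A.ρ g a) = B.ρ g (φ' a))
    (h : ∀ g a, (φ + φ') (A.ρ g a) = B.ρ g ((φ + φ') a)),
    map (φ + φ') h = map φ hφ + map φ' hφ'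
  map_smul : ∀ {A B : Rep.{u} k G} (r : k) (φ : A →ₗ[k] B)
    (hφ : ∀ g a, φ (A.ρ g a) = B.ρ g (φ a))
    (h : ∀ g a, (r • φ) (A.ρ g a) = B.ρ g ((r • φ) a)),
    map (r • φ) h = r • map φ hφ

attribute [instance] LinFun.acg LinFun.mod

section Basic

variable {k G : Type u} [CommRing k] [Group G] (F : LinFun k G) {A B : Rep.{u} k G}

theorem smul_equivariant (r : k) {φ : A →ₗ[k] B} (hφ : ∀ g a, φ (A.ρ g a) = B.ρ g (φ a))
    (g : G) (a : A) : (r • φ) (A.ρ g a) = B.ρ g ((r • φ) a) := by
  rw [LinearMap.smul_apply, hφ, LinearMap.smul_apply, map_smul]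

theorem LinFun.map_congr {φ φ' : A →ₗ[k] B} (h : φ = φ')
    (hφ : ∀ g a, φ (A.ρ g a) = B.ρ g (φ a)) (hφ' : ∀ g a, φ' (A.ρ g a) = B.ρ g (φ' a)) :
    F.map φ hφ = F.map φ' hφ' := by
  subst h
  rfl

theorem LinFun.map_zero (h : ∀ g a, (0 : A →ₗ[k] B) (A.ρ g a) = B.ρ g ((0 : A →ₗ[k] B) a)) :
    F.map (0 : A →ₗ[k] B) h = 0 :=
  calc F.map (0 : A →ₗ[k] B) h
      = F.map ((0 : k) • (0 : A →ₗ[k] B)) (smul_equivariant 0 h) :=
        F.map_congr (zero_smul k (0 : A →ₗ[k] B)).symm _ _
    _ = (0 : k) • F.map (0 : A →ₗ[k] B) h := F.map_smul 0 0 h _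
    _ = 0 := zero_smul _ _

theorem LinFun.map_sum {ι : Type*} [DecidableEq ι] (t : Finset ι) {φ : ι → A →ₗ[k] B}
    (hφ : ∀ i g a, φ i (A.ρ g a) = B.ρ g (φ i a))
    (h : ∀ g a, (∑ i ∈ t, φ i) (A.ρ g a) = B.ρ g ((∑ i ∈ t, φ i) a)) :
    F.map (∑ i ∈ t, φ i) h = ∑ i ∈ t, F.map (φ i) (hφ i) := by
  induction t using Finset.induction_on with
  | empty =>
    simp only [Finset.sum_empty]
    exact F.map_zero _
  | insert i t hi ih =>
    calc F.map (∑ j ∈ insert i t, φ j) h
        = F.map (φ i + ∑ j ∈ t, φ j) (add_equivariant (hφ i) (sum_equivariant t hφ)) :=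
          F.map_congr (Finset.sum_insert hi) _ _
      _ = F.map (φ i) (hφ i) + F.map (∑ j ∈ t, φ j) (sum_equivariant t hφ) :=
          F.map_add _ _ _ _ _
      _ = F.map (φ i) (hφ i) + ∑ j ∈ t, F.map (φ j) (hφ j) := by rw [ih]
      _ = ∑ j ∈ insert i t, F.map (φ j) (hφ j) :=
          (Finset.sum_insert (f := fun j => F.map (φ j) (hφ j)) hi).symm

theorem LinFun.map_comp_apply {C : Rep.{u} k G} (φ : A →ₗ[k] B)
    (hφ : ∀ g a, φ (A.ρ g a) = B.ρ g (φ a)) (ψ : B →ₗ[k] C)
    (hψ : ∀ g b, ψ (B.ρ g b) = C.ρ g (ψ b)) (x : F.obj A) :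
    F.map ψ hψ (F.map φ hφ x) = F.map (ψ ∘ₗ φ) (comp_equivariant hφ hψ) x := by
  rw [F.map_comp φ hφ ψ hψ]
  rfl

end Basic

/-! ### The standard examples -/

section Examples

variable {k G : Type u} [CommRing k] [Group G]

/-- An equivariant map restricted to the invariants. -/
noncomputable def mapInv {A B : Rep.{u} k G} (φ : A →ₗ[k] B) (hφ : ∀ g a, φ (A.ρ g a) = B.ρ g (φ a)) :
    A.ρ.invariants →ₗ[k] B.ρ.invariants :=
  (φ ∘ₗ A.ρ.invariants.subtype).codRestrict B.ρ.invariants (fun a g => by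
    change B.ρ g (φ (a : A)) = φ (a : A)
    rw [← hφ, a.2 g])

@[simp] theorem coe_mapInv {A B : Rep.{u} k G} (φ : A →ₗ[k] B)
    (hφ : ∀ g a, φ (A.ρ g a) = B.ρ g (φ a)) (a : A.ρ.invariants) :
    ((mapInv φ hφ a : B.ρ.invariants) : B) = φ (a : A) := rfl

/-- `H⁰`: the invariants. -/
noncomputable def H0fun : LinFun k G where
  obj A := A.ρ.invariants
  map φ hφ := mapInv φ hφ
  map_id A h := LinearMap.ext fun a => Subtype.ext rfl
  map_comp φ hφ ψ hψ h := LinearMap.ext fun a => Subtype.ext rfl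
  map_add φ hφ φ' hφ' h := LinearMap.ext fun a => Subtype.ext rfl
  map_smul r φ hφ h := LinearMap.ext fun a => Subtype.ext rfl

/-- The kernel of `ρ g₀ - a` (an eigenspace of a fixed group element). -/
noncomputable def eigFun (g₀ : G) (a : k) : LinFun k G where
  obj A := LinearMap.ker (A.ρ g₀ - a • LinearMap.id)
  map {A B} φ hφ := (φ ∘ₗ (LinearMap.ker (A.ρ g₀ - a • LinearMap.id)).subtype).codRestrict
    (LinearMap.ker (B.ρ g₀ - a • LinearMap.id)) (fun x => by
      have hx := x.2
      rw [LinearMap.mem_ker, LinearMap.sub_apply, LinearMap.smul_apply, LinearMap.id_apply,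
        sub_eq_zero] at hx ⊢
      change B.ρ g₀ (φ (x : A)) = a • φ (x : A)
      rw [← hφ, hx, map_smul])
  map_id A h := LinearMap.ext fun a => Subtype.ext rfl
  map_comp φ hφ ψ hψ h := LinearMap.ext fun a => Subtype.ext rfl
  map_add φ hφ φ' hφ' h := LinearMap.ext fun a => Subtype.ext rfl
  map_smul r φ hφ h := LinearMap.ext fun a => Subtype.ext rfl

theorem mem_eigFun_obj_iff (g₀ : G) (a : k) (A : Rep.{u} k G) (x : A) :
    x ∈ LinearMap.ker (A.ρ g₀ - a • LinearMap.id) ↔ A.ρ g₀ x = a • x := by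
  rw [LinearMap.mem_ker, LinearMap.sub_apply, LinearMap.smul_apply, LinearMap.id_apply,
    sub_eq_zero]

variable (𝓑 : LevelBasis G)

theorem mapH1_add' {A B : Rep.{u} k G} {φ φ' : A →ₗ[k] B}
    (hφ : ∀ g a, φ (A.ρ g a) = B.ρ g (φ a)) (hφ' : ∀ g a, φ' (A.ρ g a) = B.ρ g (φ' a))
    (h : ∀ g a, (φ + φ') (A.ρ g a) = B.ρ g ((φ + φ') a)) (x : H1 𝓑 A) :
    mapH1 (𝓑 := 𝓑) (φ + φ') h x = mapH1 (𝓑 := 𝓑) φ hφ x + mapH1 (𝓑 := 𝓑) φ' hφ' x := by
  obtain ⟨c, rfl⟩ := H1mk_surjective 𝓑 A x
  rw [mapH1_mk, mapH1_mk, mapH1_mk, ← map_add]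
  congr 1

theorem mapH1_smul' {A B : Rep.{u} k G} (r : k) {φ : A →ₗ[k] B}
    (hφ : ∀ g a, φ (A.ρ g a) = B.ρ g (φ a))
    (h : ∀ g a, (r • φ) (A.ρ g a) = B.ρ g ((r • φ) a)) (x : H1 𝓑 A) :
    mapH1 (𝓑 := 𝓑) (r • φ) h x = r • mapH1 (𝓑 := 𝓑) φ hφ x := by
  obtain ⟨c, rfl⟩ := H1mk_surjective 𝓑 A x
  rw [mapH1_mk, mapH1_mk, ← map_smul]
  congr 1

theorem mapH2_smul' {A B : Rep.{u} k G} (r : k) {φ : A →ₗ[k] B}
    (hφ : ∀ g a, φ (A.ρ g a) = B.ρ g (φ a))
    (h : ∀ g a, (r • φ) (A.ρ g a) = B.ρ g ((r • φ) a)) (x : H2 𝓑 A) :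
    mapH2 (𝓑 := 𝓑) (r • φ) h x = r • mapH2 (𝓑 := 𝓑) φ hφ x := by
  obtain ⟨c, rfl⟩ := H2mk_surjective 𝓑 A x
  rw [mapH2_mk, mapH2_mk, ← map_smul]
  congr 1

/-- `H¹(𝓑; -)`. -/
def H1fun : LinFun k G where
  obj A := H1 𝓑 A
  map φ hφ := mapH1 (𝓑 := 𝓑) φ hφ
  map_id A h := LinearMap.ext fun x => mapH1_id h x
  map_comp φ hφ ψ hψ h := LinearMap.ext fun x => (mapH1_comp hφ hψ x).symm
  map_add φ hφ φ' hφ' h := LinearMap.ext fun x => mapH1_add' 𝓑 hφ hφ' h x
  map_smul r φ hφ h := LinearMap.ext fun x => mapH1_smul' 𝓑 r hφ h x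

/-- `H²(𝓑; -)`. -/
def H2fun : LinFun k G where
  obj A := H2 𝓑 A
  map φ hφ := mapH2 (𝓑 := 𝓑) φ hφ
  map_id A h := LinearMap.ext fun x => mapH2_id h x
  map_comp φ hφ ψ hψ h := LinearMap.ext fun x => (mapH2_comp hφ hψ x).symm
  map_add φ hφ φ' hφ' h := LinearMap.ext fun x => mapH2_add hφ hφ' x
  map_smul r φ hφ h := LinearMap.ext fun x => mapH2_smul' 𝓑 r hφ h x

end Examples

/-! ### Invariants under a commuting finite group -/

section Fixed

variable {k G : Type u} [Field k] [Group G] (F : LinFun k G)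
variable {C : Type*} [Group C]
variable (A : Rep.{u} k G) (θ : Representation k C A)
  (hθ : ∀ c g a, θ c (A.ρ g a) = A.ρ g (θ c a))

include hθ in
theorem invariants_le_comap (g : G) : θ.invariants ≤ θ.invariants.comap (A.ρ g) := by
  intro a ha c
  rw [hθ, ha c]

/-- The `G`-subrepresentation of `θ`-invariants. -/
noncomputable def fixedRep : Rep.{u} k G :=
  Rep.of (A.ρ.subrepresentation θ.invariants (invariants_le_comap A θ hθ))

/-- The inclusion of the `θ`-invariants. -/
noncomputable def inclFixed : fixedRep A θ hθ →ₗ[k] A := θ.invariants.subtype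

theorem inclFixed_equivariant (g : G) (a : fixedRep A θ hθ) :
    inclFixed A θ hθ ((fixedRep A θ hθ).ρ g a) = A.ρ g (inclFixed A θ hθ a) := rfl

/-- The induced representation of `C` on `F.obj A`. -/
noncomputable def mapRep : Representation k C (F.obj A) where
  toFun c := F.map (θ c) (hθ c)
  map_one' := (F.map_congr (show θ 1 = LinearMap.id from map_one θ) _ (fun _ _ => rfl)).trans
    (F.map_id A _)
  map_mul' c c' := (F.map_congr (show θ (c * c') = θ c ∘ₗ θ c' from map_mul θ c c') _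
    (comp_equivariant (hθ c') (hθ c))).trans (F.map_comp (θ c') (hθ c') (θ c) (hθ c) _)

@[simp] theorem mapRep_apply (c : C) (x : F.obj A) :
    mapRep F A θ hθ c x = F.map (θ c) (hθ c) x := rfl

variable [Fintype C]

/-- The averaging projection onto the `θ`-invariants. -/
noncomputable def projFixed : A →ₗ[k] fixedRep A θ hθ :=
  (avg θ).codRestrict θ.invariants (avg_mem_invariants θ)

theorem projFixed_equivariant (g : G) (a : A) :
    projFixed A θ hθ (A.ρ g a) = (fixedRep A θ hθ).ρ g (projFixed A θ hθ a) :=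
  Subtype.ext (avg_comm (A.ρ g) (fun c v => (hθ c g v).symm) a).symm

include hθ in
theorem avg_equivariant (g : G) (a : A) : avg θ (A.ρ g a) = A.ρ g (avg θ a) :=
  (avg_comm (A.ρ g) (fun c v => (hθ c g v).symm) a).symm

theorem map_avg : F.map (avg θ) (avg_equivariant A θ hθ) = avg (mapRep F A θ hθ) := by
  classical
  have h1 : ∀ g a, (∑ c : C, θ c) (A.ρ g a) = A.ρ g ((∑ c : C, θ c) a) :=
    sum_equivariant Finset.univ hθ
  calc F.map (avg θ) (avg_equivariant A θ hθ)
      = F.map (((Fintype.card C : k)⁻¹) • ∑ c : C, θ c) (smul_equivariant _ h1) :=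
        F.map_congr rfl _ _
    _ = ((Fintype.card C : k)⁻¹) • F.map (∑ c : C, θ c) h1 := F.map_smul _ _ _ _
    _ = ((Fintype.card C : k)⁻¹) • ∑ c : C, F.map (θ c) (hθ c) := by
        rw [F.map_sum Finset.univ hθ h1]
    _ = avg (mapRep F A θ hθ) := rfl

variable (hC : (Fintype.card C : k) ≠ 0)

include hC in
theorem projFixed_comp_inclFixed :
    projFixed A θ hθ ∘ₗ inclFixed A θ hθ = LinearMap.id :=
  LinearMap.ext fun a => Subtype.ext (avg_of_mem θ hC a.2)

theorem inclFixed_comp_projFixed : inclFixed A θ hθ ∘ₗ projFixed A θ hθ = avg θ :=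
  LinearMap.ext fun _ => rfl

/-- **`F` commutes with invariants under a commuting finite group of invertible order.** -/
noncomputable def objFixedEquiv :
    F.obj (fixedRep A θ hθ) ≃ₗ[k] (mapRep F A θ hθ).invariants :=
  LinearEquiv.ofLinear
    ((F.map (inclFixed A θ hθ) (inclFixed_equivariant A θ hθ)).codRestrict
      (mapRep F A θ hθ).invariants (fun x c => by
        rw [mapRep_apply, F.map_comp_apply]
        exact congrFun (congrArg DFunLike.coe (F.map_congr
          (LinearMap.ext fun a : fixedRep A θ hθ => a.2 c) _ _)) x))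
    (F.map (projFixed A θ hθ) (projFixed_equivariant A θ hθ) ∘ₗ
      (mapRep F A θ hθ).invariants.subtype)
    (by
      refine LinearMap.ext fun y => Subtype.ext ?_
      change F.map (inclFixed A θ hθ) _ (F.map (projFixed A θ hθ) _ (y : F.obj A)) = y
      rw [F.map_comp_apply]
      have h1 : F.map (inclFixed A θ hθ ∘ₗ projFixed A θ hθ)
          (comp_equivariant (projFixed_equivariant A θ hθ) (inclFixed_equivariant A θ hθ))
          = avg (mapRep F A θ hθ) :=
        (F.map_congr (inclFixed_comp_projFixed A θ hθ) _ _).trans (map_avg F A θ hθ)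
      rw [h1]
      exact avg_of_mem _ hC y.2)
    (by
      refine LinearMap.ext fun x => ?_
      change F.map (projFixed A θ hθ) _ (F.map (inclFixed A θ hθ) _ x) = x
      rw [F.map_comp_apply]
      have h1 : F.map (projFixed A θ hθ ∘ₗ inclFixed A θ hθ)
          (comp_equivariant (inclFixed_equivariant A θ hθ) (projFixed_equivariant A θ hθ))
          = LinearMap.id :=
        (F.map_congr (projFixed_comp_inclFixed A θ hθ hC) _ (fun _ _ => rfl)).trans
          (F.map_id _ _)
      rw [h1]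
      rfl)

end Fixed

/-! ### Transport of invariants along an intertwining isomorphism -/

section InvCongr

variable {k : Type*} [CommRing k] {C : Type*} [Group C]
  {V W : Type*} [AddCommGroup V] [Module k V] [AddCommGroup W] [Module k W]
  {ρ : Representation k C V} {ρ' : Representation k C W}

/-- An intertwining isomorphism induces an isomorphism on invariants. -/
noncomputable def invariantsEquiv (e : V ≃ₗ[k] W) (he : ∀ c v, e (ρ c v) = ρ' c (e v)) :
    ρ.invariants ≃ₗ[k] ρ'.invariants :=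
  LinearEquiv.ofLinear
    ((e.toLinearMap ∘ₗ ρ.invariants.subtype).codRestrict ρ'.invariants (fun v c => by
      change ρ' c (e (v : V)) = e (v : V)
      rw [← he, v.2 c]))
    ((e.symm.toLinearMap ∘ₗ ρ'.invariants.subtype).codRestrict ρ.invariants (fun w c => by
      change ρ c (e.symm (w : W)) = e.symm (w : W)
      apply e.injective
      rw [he, e.apply_symm_apply, w.2 c]))
    (LinearMap.ext fun w => Subtype.ext (e.apply_symm_apply _))
    (LinearMap.ext fun v => Subtype.ext (e.symm_apply_apply _))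

end InvCongr

/-! ### Powers -/

section Pow

variable {k G : Type u} [Field k] [Group G] (F : LinFun k G) (Y : Rep.{u} k G) (d : ℕ)

/-- The diagonal action on `Y^d`. -/
noncomputable def powρ : Representation k G (Fin d → Y) where
  toFun g := (Y.ρ g).compLeft (Fin d)
  map_one' := LinearMap.ext fun f => funext fun i => by simp
  map_mul' g g' := LinearMap.ext fun f => funext fun i => by simp

/-- `Y^d`. -/
noncomputable def powRep : Rep.{u} k G := Rep.of (powρ Y d)

theorem powRep_ρ_apply (g : G) (f : powRep Y d) (i : Fin d) :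
    (powRep Y d).ρ g f i = Y.ρ g (f i) := rfl

/-- The `j`-th inclusion. -/
noncomputable def inj (j : Fin d) : Y →ₗ[k] powRep Y d := LinearMap.single k (fun _ => Y) j

/-- The `j`-th projection. -/
noncomputable def prj (j : Fin d) : powRep Y d →ₗ[k] Y := LinearMap.proj j

theorem inj_apply (j : Fin d) (y : Y) (i : Fin d) :
    inj Y d j y i = if i = j then y else 0 := by
  change (Pi.single j y : Fin d → Y) i = _
  rw [Pi.single_apply]

theorem prj_apply (j : Fin d) (f : powRep Y d) : prj Y d j f = f j := rfl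

theorem inj_equivariant (j : Fin d) (g : G) (y : Y) :
    inj Y d j (Y.ρ g y) = (powRep Y d).ρ g (inj Y d j y) := by
  funext i
  rw [powRep_ρ_apply, inj_apply, inj_apply]
  split_ifs
  · rfl
  · rw [map_zero]

theorem prj_equivariant (j : Fin d) (g : G) (f : powRep Y d) :
    prj Y d j ((powRep Y d).ρ g f) = Y.ρ g (prj Y d j f) := rfl

theorem prj_comp_inj (i j : Fin d) :
    prj Y d i ∘ₗ inj Y d j = if i = j then LinearMap.id else 0 := by
  refine LinearMap.ext fun y => ?_
  rw [LinearMap.comp_apply, prj_apply, inj_apply]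
  split_ifs <;> rfl

theorem sum_inj_comp_prj : ∑ j, inj Y d j ∘ₗ prj Y d j = LinearMap.id := by
  refine LinearMap.ext fun f => funext fun i => ?_
  rw [LinearMap.sum_apply, LinearMap.id_apply]
  change (∑ j, (inj Y d j ∘ₗ prj Y d j) f : Fin d → Y) i = f i
  rw [Finset.sum_apply]
  simp only [LinearMap.comp_apply, prj_apply, inj_apply]
  rw [Finset.sum_ite_eq]
  simp

/-- `F(Y^d) = F(Y)^d`. -/
noncomputable def objPowEquiv : (Fin d → F.obj Y) ≃ₗ[k] F.obj (powRep Y d) :=
  LinearEquiv.ofLinear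
    (∑ j, F.map (inj Y d j) (inj_equivariant Y d j) ∘ₗ LinearMap.proj j)
    (LinearMap.pi fun j => F.map (prj Y d j) (prj_equivariant Y d j))
    (by
      classical
      refine LinearMap.ext fun x => ?_
      rw [LinearMap.comp_apply, LinearMap.sum_apply, LinearMap.id_apply]
      simp only [LinearMap.comp_apply, LinearMap.proj_apply, LinearMap.pi_apply]
      simp only [F.map_comp_apply]
      have h1 := F.map_sum Finset.univ (φ := fun j => inj Y d j ∘ₗ prj Y d j)
        (fun j => comp_equivariant (prj_equivariant Y d j) (inj_equivariant Y d j))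
        (sum_equivariant _ (fun j => comp_equivariant (prj_equivariant Y d j)
          (inj_equivariant Y d j)))
      have h2 := congrFun (congrArg DFunLike.coe h1) x
      rw [LinearMap.sum_apply] at h2
      rw [← h2]
      exact congrFun (congrArg DFunLike.coe ((F.map_congr (sum_inj_comp_prj Y d) _
        (fun _ _ => rfl)).trans (F.map_id _ _))) x)
    (by
      classical
      refine LinearMap.ext fun y => funext fun i => ?_
      rw [LinearMap.comp_apply, LinearMap.pi_apply, LinearMap.sum_apply, map_sum,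
        LinearMap.id_apply]
      simp only [LinearMap.comp_apply, LinearMap.proj_apply, F.map_comp_apply]
      rw [Finset.sum_eq_single i]
      · exact congrFun (congrArg DFunLike.coe ((F.map_congr
          ((prj_comp_inj Y d i i).trans (if_pos rfl)) _ (fun _ _ => rfl)).trans
            (F.map_id _ _))) (y i)
      · intro j _ hji
        exact congrFun (congrArg DFunLike.coe ((F.map_congr
          ((prj_comp_inj Y d i j).trans (if_neg (Ne.symm hji))) _
            (zero_equivariant)).trans (F.map_zero _))) (y j)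
      · intro h
        exact absurd (Finset.mem_univ i) h)

theorem objPowEquiv_apply (y : Fin d → F.obj Y) :
    objPowEquiv F Y d y = ∑ j, F.map (inj Y d j) (inj_equivariant Y d j) (y j) := by
  change (∑ j, F.map (inj Y d j) (inj_equivariant Y d j) ∘ₗ LinearMap.proj j) y = _
  rw [LinearMap.sum_apply]
  rfl

end Pow

/-! ### The twisted invariants of a power -/

section Twist

variable {k G : Type u} [Field k] [Group G] (F : LinFun k G) (Y : Rep.{u} k G) {d : ℕ}
variable {C : Type*} [Group C] [Fintype C]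
  (T : Representation k C Y) (hT : ∀ c g y, T c (Y.ρ g y) = Y.ρ g (T c y))
  (s : C →* Matrix (Fin d) (Fin d) k)

/-- The twisted action `s ⊗ T` on `Y^d`, as a representation on `powRep Y d`. -/
noncomputable def twistθ : Representation k C (powRep Y d) := twistRep s T

theorem twistθ_apply (c : C) (f : powRep Y d) (i : Fin d) :
    twistθ Y T s c f i = ∑ j, s c i j • T c (f j) := rfl

include hT in
theorem twistθ_equivariant (c : C) (g : G) (f : powRep Y d) :
    twistθ Y T s c ((powRep Y d).ρ g f) = (powRep Y d).ρ g (twistθ Y T s c f) := by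
  funext i
  rw [powRep_ρ_apply, twistθ_apply, twistθ_apply, map_sum]
  refine Finset.sum_congr rfl fun j _ => ?_
  rw [powRep_ρ_apply, hT, map_smul]

/-- **The `G`-module `(Y^d)^{s ⊗ T}`.** -/
noncomputable def twistFixed : Rep.{u} k G :=
  fixedRep (powRep Y d) (twistθ Y T s) (twistθ_equivariant Y T hT s)

theorem twistθ_comp_inj (c : C) (l : Fin d) :
    twistθ Y T s c ∘ₗ inj Y d l = ∑ i, s c i l • (inj Y d i ∘ₗ T c) := by
  refine LinearMap.ext fun y => funext fun i' => ?_
  rw [LinearMap.comp_apply, twistθ_apply, LinearMap.sum_apply]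
  change _ = (∑ i, (s c i l • (inj Y d i ∘ₗ T c)) y : Fin d → Y) i'
  rw [Finset.sum_apply]
  simp only [LinearMap.smul_apply, LinearMap.comp_apply]
  have h1 : ∀ j, s c i' j • T c (inj Y d l y j) = if j = l then s c i' l • T c y else 0 := by
    intro j
    rw [inj_apply]
    split_ifs with h
    · rw [h]
    · rw [map_zero, smul_zero]
  have h2 : ∀ i, (s c i l • inj Y d i (T c y) : Fin d → Y) i'
      = if i = i' then s c i' l • T c y else 0 := by
    intro i
    change s c i l • inj Y d i (T c y) i' = _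
    rw [inj_apply]
    split_ifs with h h' h'
    · rw [h]
    · exact absurd h.symm h'
    · exact absurd h'.symm h
    · rw [smul_zero]
  rw [Finset.sum_congr rfl (fun j _ => h1 j), Finset.sum_congr rfl (fun i _ => h2 i),
    Finset.sum_ite_eq', Finset.sum_ite_eq']
  simp

/-- `objPowEquiv` intertwines `s ⊗ F(T)` with `F(s ⊗ T)`. -/
theorem objPowEquiv_twist (c : C) (y : Fin d → F.obj Y) :
    objPowEquiv F Y d (twistRep s (mapRep F Y T hT) c y) =
      mapRep F (powRep Y d) (twistθ Y T s) (twistθ_equivariant Y T hT s) c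
        (objPowEquiv F Y d y) := by
  classical
  rw [objPowEquiv_apply, objPowEquiv_apply, mapRep_apply, map_sum]
  simp only [twistRep_apply, map_sum, map_smul, mapRep_apply, F.map_comp_apply]
  rw [Finset.sum_comm]
  refine Finset.sum_congr rfl fun l _ => ?_
  have h0 : ∀ i, ∀ g a, (s c i l • (inj Y d i ∘ₗ T c)) (Y.ρ g a) =
      (powRep Y d).ρ g ((s c i l • (inj Y d i ∘ₗ T c)) a) := fun i =>
    smul_equivariant _ (comp_equivariant (hT c) (inj_equivariant Y d i))
  have h1 : F.map (twistθ Y T s c ∘ₗ inj Y d l)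
      (comp_equivariant (inj_equivariant Y d l) (twistθ_equivariant Y T hT s c))
      = ∑ i, s c i l • F.map (inj Y d i ∘ₗ T c)
          (comp_equivariant (hT c) (inj_equivariant Y d i)) := by
    rw [F.map_congr (twistθ_comp_inj Y T s c l) _ (sum_equivariant _ h0),
      F.map_sum Finset.univ h0]
    exact Finset.sum_congr rfl fun i _ => F.map_smul _ _ _ _
  rw [h1, LinearMap.sum_apply]
  rfl

variable (hC : (Fintype.card C : k) ≠ 0)

/-- **`F((Y^d)^{s ⊗ T}) = (s ⊗ F(T))`-invariants of `F(Y)^d`.** -/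
noncomputable def objTwistFixedEquiv :
    F.obj (twistFixed Y T hT s) ≃ₗ[k] (twistRep s (mapRep F Y T hT)).invariants :=
  (objFixedEquiv F (powRep Y d) (twistθ Y T s) (twistθ_equivariant Y T hT s) hC).trans
    (invariantsEquiv (objPowEquiv F Y d) (objPowEquiv_twist F Y T hT s)).symm

include hC in
/-- Transport to a model `W` of `F.obj Y`. -/
theorem finrank_obj_twistFixed {W : Type*} [AddCommGroup W] [Module k W]
    (ρW : Representation k C W) (j : F.obj Y ≃ₗ[k] W)
    (hj : ∀ c x, j (F.map (T c) (hT c) x) = ρW c (j x)) :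
    finrank k (F.obj (twistFixed Y T hT s)) = finrank k (twistRep s ρW).invariants := by
  have e1 := objTwistFixedEquiv F Y T hT s hC
  have e2 : (twistRep s (mapRep F Y T hT)).invariants ≃ₗ[k] (twistRep s ρW).invariants :=
    invariantsEquiv (LinearEquiv.piCongrRight fun _ : Fin d => j) (fun c y => by
      funext i
      change j (twistRep s (mapRep F Y T hT) c y i) = twistRep s ρW c (fun i => j (y i)) i
      rw [twistRep_apply, twistRep_apply, map_sum]
      refine Finset.sum_congr rfl fun l _ => ?_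
      rw [map_smul, mapRep_apply, hj])
  exact (e1.trans e2).finrank_eq

end Twist

end Fermat.Agent.TW.GLOB.LinFun9
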