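/-
Chapter T / GLOB, task T7 (Tate's global Euler characteristic), small auxiliary lemmas — helper9.

* `LinFun.objEquiv` : a linear functor carries equivariant isomorphisms to isomorphisms;
* `finrank_eq_ker_sub_add_ker_add` : for an involution `σ` of a finite-dimensional space over a
  field with `2 ≠ 0`: `dim V = dim ker (σ - 1) + dim ker (σ + 1)`;
* `mem_invariants_zpowers_iff` : the invariants of a cyclic group `⟨g⟩` are the fixed points of `g`;
* `card_eq_pow_finrank_zmod` : `#V = p ^ dim V` for finite `𝔽_p`-spaces.
-/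
import Mathlib
import Fermat.Agent.TW.GLOB.LinFun9

set_option autoImplicit false
set_option linter.unusedSectionVars false

universe u

open Module
open Fermat.Agent.TW.GLOB.MapH5 Fermat.Agent.TW.GLOB.LinFun9

namespace Fermat.Agent.TW.GLOB.TateAux9

section ObjEquiv

variable {k G : Type u} [CommRing k] [Group G] (F : LinFun k G) {A B : Rep.{u} k G}

/-- A linear functor carries equivariant isomorphisms to isomorphisms. -/
noncomputable def objEquiv (e : A ≃ₗ[k] B) (he : ∀ g a, e (A.ρ g a) = B.ρ g (e a)) :
    F.obj A ≃ₗ[k] F.obj B :=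
  have he' : ∀ g b, e.symm (B.ρ g b) = A.ρ g (e.symm b) := fun g b => by
    apply e.injective
    rw [he, e.apply_symm_apply, e.apply_symm_apply]
  LinearEquiv.ofLinear (F.map e.toLinearMap he) (F.map e.symm.toLinearMap he')
    (by
      rw [← F.map_comp e.symm.toLinearMap he' e.toLinearMap he
        (comp_equivariant he' he)]
      exact (F.map_congr (LinearMap.ext fun b => e.apply_symm_apply b) _ (fun _ _ => rfl)).trans
        (F.map_id _ _))
    (by
      rw [← F.map_comp e.toLinearMap he e.symm.toLinearMap he'
        (comp_equivariant he he')]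
      exact (F.map_congr (LinearMap.ext fun a => e.symm_apply_apply a) _ (fun _ _ => rfl)).trans
        (F.map_id _ _))

theorem finrank_obj_congr (e : A ≃ₗ[k] B) (he : ∀ g a, e (A.ρ g a) = B.ρ g (e a)) :
    finrank k (F.obj A) = finrank k (F.obj B) :=
  (objEquiv F e he).finrank_eq

end ObjEquiv

section Involution

variable {k : Type*} [Field k] {V : Type*} [AddCommGroup V] [Module k V]

/-- `dim V = dim ker (σ - 1) + dim ker (σ + 1)` for an involution `σ`, `2 ≠ 0`. -/
theorem finrank_eq_ker_sub_add_ker_add [Module.Finite k V] (h2 : (2 : k) ≠ 0) (σ : V →ₗ[k] V)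
    (hσ : ∀ v, σ (σ v) = v) :
    finrank k V = finrank k (LinearMap.ker (σ - (1 : k) • LinearMap.id))
      + finrank k (LinearMap.ker (σ - (-1 : k) • LinearMap.id)) := by
  have hdisj : Disjoint (LinearMap.ker (σ - (1 : k) • LinearMap.id))
      (LinearMap.ker (σ - (-1 : k) • LinearMap.id)) := by
    rw [Submodule.disjoint_def]
    intro v h1 h2'
    rw [LinearMap.mem_ker, LinearMap.sub_apply, LinearMap.smul_apply, LinearMap.id_apply,
      sub_eq_zero] at h1 h2'
    have h3 : (2 : k) • v = 0 := by
      have : (1 : k) • v = (-1 : k) • v := h1.symm.trans h2'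
      rw [neg_smul, one_smul] at this
      rw [two_smul]
      nth_rewrite 1 [this]
      exact neg_add_cancel v
    exact (smul_eq_zero.1 h3).resolve_left h2
  have hsup : LinearMap.ker (σ - (1 : k) • LinearMap.id) ⊔
      LinearMap.ker (σ - (-1 : k) • LinearMap.id) = ⊤ := by
    rw [eq_top_iff]
    intro v _
    have hv : v = (2 : k)⁻¹ • (v + σ v) + (2 : k)⁻¹ • (v - σ v) := by
      rw [← smul_add, add_add_sub_cancel, ← two_smul k v, smul_smul, inv_mul_cancel₀ h2, one_smul]
    rw [hv]
    refine Submodule.add_mem_sup ?_ ?_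
    · rw [LinearMap.mem_ker, LinearMap.sub_apply, LinearMap.smul_apply, LinearMap.id_apply,
        one_smul, map_smul, map_add, hσ, add_comm, sub_self]
    · rw [LinearMap.mem_ker, LinearMap.sub_apply, LinearMap.smul_apply, LinearMap.id_apply,
        map_smul, map_sub, hσ, neg_smul, one_smul, sub_neg_eq_add, ← smul_add]
      have : σ v - v + (v - σ v) = 0 := by abel
      rw [this, smul_zero]
  have h := Submodule.finrank_sup_add_finrank_inf_eq (LinearMap.ker (σ - (1 : k) • LinearMap.id))
    (LinearMap.ker (σ - (-1 : k) • LinearMap.id))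
  rw [hsup, hdisj.eq_bot, finrank_top, finrank_bot, add_zero] at h
  exact h

end Involution

section Zpowers

variable {k : Type*} [CommRing k] {G : Type*} [Group G] {V : Type*} [AddCommGroup V] [Module k V]
  (ρ : Representation k G V) (g : G)

/-- The invariants of `⟨g⟩` are the fixed points of `g`. -/
theorem mem_invariants_zpowers_iff (v : V) :
    v ∈ Representation.invariants (ρ.comp (Subgroup.zpowers g).subtype) ↔ ρ g v = v := by
  constructor
  · intro h
    exact h ⟨g, Subgroup.mem_zpowers g⟩
  · intro h x
    obtain ⟨x, n, rfl⟩ := x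
    change ρ (g ^ n) v = v
    have hinv : ρ g⁻¹ v = v := by
      have h1 : ρ g⁻¹ (ρ g v) = v := by
        rw [← Module.End.mul_apply, ← map_mul, inv_mul_cancel, map_one, Module.End.one_apply]
      rw [h] at h1
      exact h1
    induction n using Int.induction_on with
    | zero => rw [zpow_zero, map_one, Module.End.one_apply]
    | succ i ih =>
      rw [zpow_add_one, map_mul, Module.End.mul_apply, h]
      exact ih
    | pred i ih =>
      rw [zpow_sub_one, map_mul, Module.End.mul_apply, hinv]
      exact ih

/-- The invariants of `⟨g⟩` as the kernel of `ρ g - 1`. -/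
theorem invariants_zpowers_eq_ker :
    Representation.invariants (ρ.comp (Subgroup.zpowers g).subtype) =
      LinearMap.ker (ρ g - (1 : k) • LinearMap.id) := by
  ext v
  rw [mem_invariants_zpowers_iff, LinearMap.mem_ker, LinearMap.sub_apply, LinearMap.smul_apply,
    LinearMap.id_apply, one_smul, sub_eq_zero]

end Zpowers

section Card

variable (p : ℕ) [Fact p.Prime]

theorem card_eq_pow_finrank_zmod (V : Type*) [AddCommGroup V] [Module (ZMod p) V]
    [Module.Finite (ZMod p) V] : Nat.card V = p ^ finrank (ZMod p) V := by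
  rw [Module.natCard_eq_pow_finrank (K := ZMod p), Nat.card_zmod]

/-- The order of `⟨g⟩` for an involution `g` is invertible in `𝔽_p`, `p` odd. -/
theorem card_zpowers_ne_zero (hp2 : p ≠ 2) {G : Type*} [Group G] (g : G) (hg : g * g = 1)
    [Fintype (Subgroup.zpowers g)] : (Fintype.card (Subgroup.zpowers g) : ZMod p) ≠ 0 := by
  have hp : p.Prime := Fact.out
  rw [← Nat.card_eq_fintype_card, Nat.card_zpowers]
  have hd : orderOf g ∣ 2 := orderOf_dvd_of_pow_eq_one (by rw [pow_two, hg])
  intro h0
  rw [ZMod.natCast_eq_zero_iff] at h0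
  have h2 : p ∣ 2 := h0.trans hd
  exact hp2 ((Nat.prime_dvd_prime_iff_eq hp Nat.prime_two).1 h2)

end Card

end Fermat.Agent.TW.GLOB.TateAux9
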