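/-
Chapter T / GLOB, task T7 (Tate's global Euler characteristic), the cyclic step — helper9.

`G` a group with a level basis `𝓑`, `U ≤ G` normal, `A : Rep k G` discrete (`k` a field),
`Y := Coind_U^G A = ShapiroConj5.coindRes 𝓑 U A` with the translation action of `G ⧸ U`
(`translRep`).  For a finite subgroup `C ≤ G ⧸ U` of order invertible in `k` and a matrix
representation `s : C →* M_d(k)`, the `G`-module

  `twistCoind 𝓑 U A C s := (Y^d)^{s ⊗ T|_C}`   (`LinFun9.twistFixed`)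

has cohomology `dim Hⁿ(𝓑; twistCoind) = dim (s ⊗ Hⁿ(𝓑|U; A))^C`, `n = 0, 1, 2`
(`finrank_H0_twistCoind`, `finrank_H1_twistCoind`, `finrank_H2_twistCoind`), where `C` acts on
`Hⁿ(U; A)` by conjugation (`SubLevel5.repH0/1/2`).
-/
import Mathlib
import Fermat.Agent.TW.GLOB.LinFun9
import Fermat.Agent.TW.GLOB.ShapiroConj5

set_option autoImplicit false
set_option linter.unusedSectionVars false

universe u

open Module
open Fermat.Agent.PT.PRO.LevelCoh28 Fermat.Agent.PT.PRO.LevelCohRes28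
  Fermat.Agent.PT.PRO.SmoothCoind28 Fermat.Agent.PT.PRO.ShapiroLevel28
  Fermat.Agent.TW.GLOB.SubLevel5 Fermat.Agent.TW.GLOB.ShapiroConj5
  Fermat.Agent.TW.GLOB.MatIdem9 Fermat.Agent.TW.GLOB.LinFun9

namespace Fermat.Agent.TW.GLOB.TateCore9

section General

variable {k G : Type u} [Field k] [Group G] (𝓑 : LevelBasis G) (U : Subgroup G) [hU : U.Normal]
  (A : Rep.{u} k G)

/-- `γ ↦ T_γ` as a monoid homomorphism. -/
noncomputable def translHom : G →* Module.End k (coindRes 𝓑 U A) where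
  toFun γ := transl 𝓑 U A γ
  map_one' := LinearMap.ext fun f => transl_one 𝓑 U A f
  map_mul' γ γ' := LinearMap.ext fun f => transl_mul 𝓑 U A γ γ' f

/-- **The translation action of `G ⧸ U` on `Coind_U^G A`.** -/
noncomputable def translRep : Representation k (G ⧸ U) (coindRes 𝓑 U A) :=
  QuotientGroup.lift U (translHom 𝓑 U A) fun _ hγ =>
    MonoidHom.mem_ker.mpr (LinearMap.ext fun f => transl_of_mem 𝓑 U A hγ f)

@[simp] theorem translRep_mk (γ : G) (f : coindRes 𝓑 U A) :
    translRep 𝓑 U A (γ : G ⧸ U) f = transl 𝓑 U A γ f := rfl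

theorem translRep_equivariant (q : G ⧸ U) (g : G) (f : coindRes 𝓑 U A) :
    translRep 𝓑 U A q ((coindRes 𝓑 U A).ρ g f) = (coindRes 𝓑 U A).ρ g (translRep 𝓑 U A q f) := by
  induction q using QuotientGroup.induction_on with
  | H γ => exact transl_equivariant 𝓑 U A γ g f

variable (C : Subgroup (G ⧸ U))

/-- The translation action restricted to a subgroup `C ≤ G ⧸ U`. -/
noncomputable def translC : Representation k C (coindRes 𝓑 U A) :=
  (translRep 𝓑 U A).comp C.subtype

@[simp] theorem translC_apply (c : C) (f : coindRes 𝓑 U A) :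
    translC 𝓑 U A C c f = translRep 𝓑 U A (c : G ⧸ U) f := rfl

theorem translC_equivariant (c : C) (g : G) (f : coindRes 𝓑 U A) :
    translC 𝓑 U A C c ((coindRes 𝓑 U A).ρ g f) = (coindRes 𝓑 U A).ρ g (translC 𝓑 U A C c f) :=
  translRep_equivariant 𝓑 U A (c : G ⧸ U) g f

variable [Fintype C] {d : ℕ} (s : C →* Matrix (Fin d) (Fin d) k)

/-- **The `G`-module `((Coind_U^G A)^d)^{s ⊗ T|_C}`.** -/
noncomputable def twistCoind : Rep.{u} k G :=
  twistFixed (coindRes 𝓑 U A) (translC 𝓑 U A C) (translC_equivariant 𝓑 U A C) s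

/-! ### Degree 0 -/

/-- `(Coind_U^G A)^G = A^U`, `f ↦ f 1`. -/
noncomputable def h0Equiv :
    (coindRes 𝓑 U A).ρ.invariants ≃ₗ[k] (resRep U A).ρ.invariants where
  toFun f := ⟨ev U.subtype 𝓑 (resRep U A) (f : coindRes 𝓑 U A),
    ev_mem_invariants U.subtype 𝓑 (resRep U A) f.2⟩
  map_add' _ _ := rfl
  map_smul' _ _ := rfl
  invFun x := ⟨constFun U.subtype 𝓑 (resRep U A) (x : resRep U A) x.2,
    constFun_mem_invariants U.subtype 𝓑 (resRep U A) (x : resRep U A) x.2⟩
  left_inv f := Subtype.ext (eq_constFun_of_mem_invariants U.subtype 𝓑 (resRep U A) f.2).symm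
  right_inv _ := rfl

theorem coe_h0Equiv (f : (coindRes 𝓑 U A).ρ.invariants) :
    ((h0Equiv 𝓑 U A f : (resRep U A).ρ.invariants) : A) = (f : coindRes 𝓑 U A).1 1 := rfl

theorem h0Equiv_transl (q : G ⧸ U) (f : (coindRes 𝓑 U A).ρ.invariants) :
    h0Equiv 𝓑 U A (mapInv (translRep 𝓑 U A q) (translRep_equivariant 𝓑 U A q) f) =
      repH0 U A q (h0Equiv 𝓑 U A f) := by
  induction q using QuotientGroup.induction_on with
  | H γ =>
    apply Subtype.ext
    rw [coe_repH0_mk, coe_h0Equiv, coe_h0Equiv, coe_mapInv, translRep_mk, transl_apply, mul_one]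
    congr 1
    have h := congrFun (congrArg Subtype.val (f.2 γ⁻¹)) 1
    rw [scoind_ρ_apply, one_mul] at h
    exact h

variable (hC : (Fintype.card C : k) ≠ 0)

include hC in
/-- **`dim H⁰(G; twistCoind) = dim (s ⊗ A^U)^C`.** -/
theorem finrank_H0_twistCoind :
    finrank k (twistCoind 𝓑 U A C s).ρ.invariants =
      finrank k (twistRep s ((repH0 U A).comp C.subtype)).invariants :=
  finrank_obj_twistFixed (H0fun : LinFun k G) (coindRes 𝓑 U A) (translC 𝓑 U A C)
    (translC_equivariant 𝓑 U A C) s hC ((repH0 U A).comp C.subtype) (h0Equiv 𝓑 U A)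
    (fun c x => h0Equiv_transl 𝓑 U A (c : G ⧸ U) x)

/-! ### Degrees 1 and 2 -/

variable {A} (hA : IsDiscrete 𝓑.sets A)

theorem shapiro1Equiv_translRep (q : G ⧸ U) (x : H1 𝓑 (coindRes 𝓑 U A)) :
    shapiro1Equiv 𝓑 U hA (mapH1 (translRep 𝓑 U A q) (translRep_equivariant 𝓑 U A q) x) =
      repH1 𝓑 U A q (shapiro1Equiv 𝓑 U hA x) := by
  induction q using QuotientGroup.induction_on with
  | H γ => exact shapiro1Equiv_transl 𝓑 U hA γ x

theorem shapiro2Equiv_translRep (q : G ⧸ U) (x : H2 𝓑 (coindRes 𝓑 U A)) :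
    shapiro2Equiv 𝓑 U hA (mapH2 (translRep 𝓑 U A q) (translRep_equivariant 𝓑 U A q) x) =
      repH2 𝓑 U A q (shapiro2Equiv 𝓑 U hA x) := by
  induction q using QuotientGroup.induction_on with
  | H γ => exact shapiro2Equiv_transl 𝓑 U hA γ x

include hC hA in
/-- **`dim H¹(G; twistCoind) = dim (s ⊗ H¹(U; A))^C`.** -/
theorem finrank_H1_twistCoind :
    finrank k (H1 𝓑 (twistCoind 𝓑 U A C s)) =
      finrank k (twistRep s ((repH1 𝓑 U A).comp C.subtype)).invariants :=
  finrank_obj_twistFixed (H1fun 𝓑 : LinFun k G) (coindRes 𝓑 U A) (translC 𝓑 U A C)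
    (translC_equivariant 𝓑 U A C) s hC ((repH1 𝓑 U A).comp C.subtype) (shapiro1Equiv 𝓑 U hA)
    (fun c x => shapiro1Equiv_translRep 𝓑 U hA (c : G ⧸ U) x)

include hC hA in
/-- **`dim H²(G; twistCoind) = dim (s ⊗ H²(U; A))^C`.** -/
theorem finrank_H2_twistCoind :
    finrank k (H2 𝓑 (twistCoind 𝓑 U A C s)) =
      finrank k (twistRep s ((repH2 𝓑 U A).comp C.subtype)).invariants :=
  finrank_obj_twistFixed (H2fun 𝓑 : LinFun k G) (coindRes 𝓑 U A) (translC 𝓑 U A C)
    (translC_equivariant 𝓑 U A C) s hC ((repH2 𝓑 U A).comp C.subtype) (shapiro2Equiv 𝓑 U hA)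
    (fun c x => shapiro2Equiv_translRep 𝓑 U hA (c : G ⧸ U) x)

include hC in
/-- The eigenspaces of a fixed `g₀ ∈ G`: for any model `j` of the `a`-eigenspace of `g₀` on
`Coind_U^G A` with its translation action. -/
theorem finrank_eig_twistCoind (g₀ : G) (a : k) {W : Type*} [AddCommGroup W] [Module k W]
    (ρW : Representation k C W)
    (j : (eigFun g₀ a : LinFun k G).obj (coindRes 𝓑 U A) ≃ₗ[k] W)
    (hj : ∀ (c : C) x, j ((eigFun g₀ a : LinFun k G).map (translC 𝓑 U A C c)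
      (translC_equivariant 𝓑 U A C c) x) = ρW c (j x)) :
    finrank k (LinearMap.ker ((twistCoind 𝓑 U A C s).ρ g₀ - a • LinearMap.id)) =
      finrank k (twistRep s ρW).invariants :=
  finrank_obj_twistFixed (eigFun g₀ a : LinFun k G) (coindRes 𝓑 U A) (translC 𝓑 U A C)
    (translC_equivariant 𝓑 U A C) s hC ρW j hj

end General

end Fermat.Agent.TW.GLOB.TateCore9
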