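/-
Chapter T / GLOB, task T7 (Tate's global Euler characteristic), THE ASSEMBLY — helper9.

Inputs (as hypotheses, in the shapes in which the other bricks deliver them):
* `EulerInv6.AddHyp S`, `EulerInv6.FinH2Hyp S` : (ADD) and finiteness of `H²` (lead / helper6);
* `MUHyp S p` : helper5's `(MU*)` = `MUMain5.euler_muP` (model form), `MUFinHyp S p` : finiteness
  of `Hⁿ(K.U; μ_p)`;
* `ArchModelHyp p K` : the `(-1)`-eigenspace of complex conjugation on `Coind_{K.U} μ_p` is the
  permutation module on `ArchQ K` (brick (TA-ARCH));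
* `CoindModelHyp p K` : `infl Coind_C^Q σ ≅ twistCoind … s` (brick (TA-COIND)).

Output: `chi_twistCoind_eq_zero`, `chi_infl_coind_eq_zero` (the cyclic step), and
**`tate_of_MU`** : Tate's formula `#X^G * #H²_S(X) * #X = #H¹_S(X) * #X^{c}` for every finite
discrete `G_S`-module `X` over `𝔽_p`.
-/
import Mathlib
import Fermat.Agent.TW.GLOB.EulerInv6
import Fermat.Agent.TW.GLOB.TateCore9
import Fermat.Agent.TW.GLOB.TateAux9
import Fermat.Agent.TW.GLOB.ArchPlaces9
import Fermat.Agent.TW.DEF.Mu1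

set_option autoImplicit false
set_option linter.unusedSectionVars false

open Module NumberField ExtCitation
open Fermat.Agent.PT.PRO.LevelCoh28 Fermat.Agent.PT.GLUE.Objects21 Fermat.Agent.PT.GLUE.Levels21
open Fermat.Agent.TW.DEF.Basic1 Fermat.Agent.TW.DEF.Mu1
open Fermat.Agent.TW.GLOB.IndDefs9 Fermat.Agent.TW.GLOB.MatIdem9 Fermat.Agent.TW.GLOB.LinFun9
  Fermat.Agent.TW.GLOB.TateAux9 Fermat.Agent.TW.GLOB.TateCore9 Fermat.Agent.TW.GLOB.ArchPlaces9
  Fermat.Agent.TW.GLOB.SubLevel5 Fermat.Agent.TW.GLOB.ShapiroConj5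
  Fermat.Agent.TW.GLOB.LatticeRedFinal9 Fermat.Agent.TW.GLOB.EulerInv6

namespace Fermat.Agent.TW.GLOB.TateAssembly9

attribute [local instance] Fermat.Agent.TW.GLOB.PlacesBridge9.mulActionInfinitePlaceLev

variable (S : Finset Nat.Primes) (p : ℕ) [Fact p.Prime]

/-- helper5's `(MU*)`, model form (`MUMain5.euler_muP`), for `ℤ`-valued invariants. -/
def MUHyp : Prop :=
  ∀ (K : Lev S) (C : Subgroup (GQ ⧸ K.U)) (ψ : AdditiveInvariant (ZMod p) C ℤ)
    (V0 V1 V2 : Type) [AddCommGroup V0] [Module (ZMod p) V0] [Module.Finite (ZMod p) V0]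
    [AddCommGroup V1] [Module (ZMod p) V1] [Module.Finite (ZMod p) V1]
    [AddCommGroup V2] [Module (ZMod p) V2] [Module.Finite (ZMod p) V2]
    (ρ0 : Representation (ZMod p) C V0) (ρ1 : Representation (ZMod p) C V1)
    (ρ2 : Representation (ZMod p) C V2)
    (i0 : V0 ≃+ ↥(resRep K.U (muP p)).ρ.invariants)
    (_ : ∀ (c : C) v, i0 (ρ0 c v) = repH0 K.U (muP p) (c : GQ ⧸ K.U) (i0 v))
    (i1 : V1 ≃+ H1 (subBasis (levelS S) K.U) (resRep K.U (muP p)))
    (_ : ∀ (c : C) v, i1 (ρ1 c v) = repH1 (levelS S) K.U (muP p) (c : GQ ⧸ K.U) (i1 v))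
    (i2 : V2 ≃+ H2 (subBasis (levelS S) K.U) (resRep K.U (muP p)))
    (_ : ∀ (c : C) v, i2 (ρ2 c v) = repH2 (levelS S) K.U (muP p) (c : GQ ⧸ K.U) (i2 v)),
    ψ.toFun V0 ρ0 + ψ.toFun V2 ρ2 +
        ψ.toFun (InfinitePlace ↥K.F → ZMod p) (permRep (InfinitePlace ↥K.F) (ZMod p)) =
      ψ.toFun V1 ρ1

/-- Finiteness of `H¹(K.U; μ_p)` and `H²(K.U; μ_p)`. -/
def MUFinHyp : Prop :=
  ∀ K : Lev S, Finite (H1 (subBasis (levelS S) K.U) (resRep K.U (muP p))) ∧
    Finite (H2 (subBasis (levelS S) K.U) (resRep K.U (muP p)))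

variable {S}

/-- Brick (TA-ARCH): the `(-1)`-eigenspace of complex conjugation on `Coind_{K.U} μ_p`. -/
def ArchModelHyp (K : Lev S) : Prop :=
  ∃ j : (eigFun (complexConjugation : GQ) (-1 : ZMod p) : LinFun (ZMod p) GQ).obj
      (coindRes (levelS S) K.U (muP p)) ≃ₗ[ZMod p] (ArchQ K → ZMod p),
    ∀ (q : GQ ⧸ K.U) x,
      j ((eigFun (complexConjugation : GQ) (-1 : ZMod p)).map
        (translRep (levelS S) K.U (muP p) q) (translRep_equivariant (levelS S) K.U (muP p) q) x) =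
      permRep (ArchQ K) (ZMod p) q (j x)

/-- Brick (TA-COIND): `infl Coind_C^Q σ` as a twisted coinduced module. -/
def CoindModelHyp (K : Lev S) : Prop :=
  ∀ (C : Subgroup (GQ ⧸ K.U)) [Fintype C] (N : Type) [AddCommGroup N] [Module (ZMod p) N]
    [Module.Finite (ZMod p) N] (σ : Representation (ZMod p) C N),
    ∃ (d : ℕ) (s : C →* Matrix (Fin d) (Fin d) (ZMod p))
      (e : ↥(Representation.coindV C.subtype σ) ≃ₗ[ZMod p]
        (twistCoind (levelS S) K.U (muP p) C s)),
      ∀ (γ : GQ) f, e (Representation.coind C.subtype σ (γ : GQ ⧸ K.U) f) =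
        (twistCoind (levelS S) K.U (muP p) C s).ρ γ (e f)

variable (S)

/-- **The cyclic step**: `χ` vanishes on the twisted coinduced modules. -/
theorem chi_twistCoind_eq_zero (hp2 : p ≠ 2) (hpS : pPrime p ∈ S) (hMU : MUHyp S p)
    (hMUfin : MUFinHyp S p) (K : Lev S) (harch : ArchModelHyp p K)
    (C : Subgroup (GQ ⧸ K.U)) [Fintype C] (hC : (Fintype.card C : ZMod p) ≠ 0) {d : ℕ}
    (s : C →* Matrix (Fin d) (Fin d) (ZMod p))
    [Module.Finite (ZMod p) (twistCoind (levelS S) K.U (muP p) C s)] :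
    chi S (twistCoind (levelS S) K.U (muP p) C s) = 0 := by
  have hA : IsDiscrete (levelS S).sets (muP p) := isDiscrete_muP p hpS
  have hf1 : Finite (H1 (subBasis (levelS S) K.U) (resRep K.U (muP p))) := (hMUfin K).1
  have hf2 : Finite (H2 (subBasis (levelS S) K.U) (resRep K.U (muP p))) := (hMUfin K).2
  have hm1 : Module.Finite (ZMod p) (H1 (subBasis (levelS S) K.U) (resRep K.U (muP p))) :=
    Module.Finite.of_finite
  have hm2 : Module.Finite (ZMod p) (H2 (subBasis (levelS S) K.U) (resRep K.U (muP p))) :=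
    Module.Finite.of_finite
  have hm0 : Module.Finite (ZMod p) ↥(resRep K.U (muP p)).ρ.invariants :=
    inferInstanceAs (Module.Finite (ZMod p)
      ↥((resRep K.U (muP p)).ρ.invariants : Submodule (ZMod p) (ZMod p)))
  -- the cohomology of `Z`
  have h0 := finrank_H0_twistCoind (levelS S) K.U (muP p) C s hC
  have h1 := finrank_H1_twistCoind (levelS S) K.U C s hC hA
  have h2 := finrank_H2_twistCoind (levelS S) K.U C s hC hA
  -- the archimedean term
  obtain ⟨j, hj⟩ := harch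
  have h3 := finrank_eig_twistCoind (A := muP p) (levelS S) K.U C s hC (complexConjugation : GQ)
    (-1 : ZMod p) (permRep (ArchQ K) (ZMod p)) j (fun c x => hj (c : GQ ⧸ K.U) x)
  have hinvol := finrank_eq_ker_sub_add_ker_add (two_ne_zero_zmod hp2)
    ((twistCoind (levelS S) K.U (muP p) C s).ρ complexConjugation)
    (conj_conj (twistCoind (levelS S) K.U (muP p) C s))
  have hfix : fixC (twistCoind (levelS S) K.U (muP p) C s) =
      LinearMap.ker ((twistCoind (levelS S) K.U (muP p) C s).ρ complexConjugation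
        - (1 : ZMod p) • LinearMap.id) := by
    rw [one_smul]
    rfl
  -- (MU*)
  have hmu := hMU K C (psiS s hC) ↥(resRep K.U (muP p)).ρ.invariants
    (H1 (subBasis (levelS S) K.U) (resRep K.U (muP p)))
    (H2 (subBasis (levelS S) K.U) (resRep K.U (muP p)))
    ((repH0 K.U (muP p)).comp C.subtype) ((repH1 (levelS S) K.U (muP p)).comp C.subtype)
    ((repH2 (levelS S) K.U (muP p)).comp C.subtype)
    (AddEquiv.refl _) (fun _ _ => rfl) (AddEquiv.refl _) (fun _ _ => rfl)
    (AddEquiv.refl _) (fun _ _ => rfl)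
  rw [← map_permRep_arch K C p (psiS s hC)] at hmu
  simp only [psiS_toFun] at hmu
  unfold chi
  rw [hfix, h0, h1, h2]
  have e3 : (finrank (ZMod p) (twistCoind (levelS S) K.U (muP p) C s) : ℤ) =
      finrank (ZMod p) ↥(LinearMap.ker ((twistCoind (levelS S) K.U (muP p) C s).ρ
        complexConjugation - (1 : ZMod p) • LinearMap.id)) +
      finrank (ZMod p) ↥(twistRep s (permRep (ArchQ K) (ZMod p))).invariants := by
    rw [← h3]
    exact_mod_cast hinvol
  rw [e3]
  linarith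

/-- **The cyclic step of the induction**: `χ` vanishes on the inflations of the representations
coinduced from subgroups of order prime to `p` of `Γ ⧸ K.U`. -/
theorem chi_infl_coind_eq_zero (hp2 : p ≠ 2) (hpS : pPrime p ∈ S) (hMU : MUHyp S p)
    (hMUfin : MUFinHyp S p) (K : Lev S) (harch : ArchModelHyp p K) (hcoind : CoindModelHyp p K)
    [Finite (GQ ⧸ K.U)] (C : Subgroup (GQ ⧸ K.U)) (hcop : (Nat.card C).Coprime p)
    (N : Type) [AddCommGroup N] [Module (ZMod p) N] [Module.Finite (ZMod p) N]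
    (σ : Representation (ZMod p) C N) :
    chi S (infl (QuotientGroup.mk' K.U) (Representation.coind C.subtype σ)) = 0 := by
  classical
  have hp : p.Prime := Fact.out
  let _ : Fintype C := Fintype.ofFinite _
  have hC : (Fintype.card C : ZMod p) ≠ 0 := by
    intro h0
    rw [ZMod.natCast_eq_zero_iff, ← Nat.card_eq_fintype_card] at h0
    have h1 : p ∣ Nat.gcd (Nat.card C) p := Nat.dvd_gcd h0 dvd_rfl
    rw [hcop] at h1
    exact hp.one_lt.ne' (Nat.dvd_one.1 h1)
  obtain ⟨d, s, e, he⟩ := hcoind C N σ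
  have hfin : Module.Finite (ZMod p) (twistCoind (levelS S) K.U (muP p) C s) :=
    Module.Finite.equiv e
  rw [chi_congr S (A := infl (QuotientGroup.mk' K.U) (Representation.coind C.subtype σ))
    (B := twistCoind (levelS S) K.U (muP p) C s) e (fun g a => he g a)]
  exact chi_twistCoind_eq_zero S p hp2 hpS hMU hMUfin K harch C hC s

/-- **Tate's global Euler characteristic formula** for every finite discrete `G_S`-module over
`𝔽_p`, from (ADD), finiteness of `H²`, `(MU*)` and the two model bricks. -/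
theorem tate_of_MU (hp2 : p ≠ 2) (hpS : pPrime p ∈ S) (hadd : AddHyp (p := p) S)
    (hfin2 : FinH2Hyp (p := p) S) (hMU : MUHyp S p) (hMUfin : MUFinHyp S p)
    (harch : ∀ K : Lev S, (∀ u ∈ K.U, cycloChar p u = 1) → ArchModelHyp p K)
    (hcoind : ∀ K : Lev S, (∀ u ∈ K.U, cycloChar p u = 1) → CoindModelHyp p K)
    (X : Rep.{0} (ZMod p) GQ) [Finite X] (hX : IsDiscrete (levelS S).sets X) :
    Nat.card ↥X.ρ.invariants * Nat.card (HS2 S X) * Nat.card X =
      Nat.card (HS1 S X) * Nat.card {x : X // X.ρ complexConjugation x = x} := by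
  obtain ⟨F₀, hF₀, hKz, h1⟩ := Fermat.Agent.TW.GLOB.FiniteHS6.exists_field_triv S hpS X hX
  obtain ⟨K, hK⟩ := exists_lev_le (S := S) (U := F₀.fixingSubgroup) ⟨F₀, hF₀, rfl⟩
  have hζ : ∀ u ∈ K.U, cycloChar p u = 1 := fun u hu =>
    Fermat.Agent.PT.BR.DualTwist7.cycloChar_eq_one_of_mem_fixingSubgroup_Kz p
      (IntermediateField.fixingSubgroup_antitone hKz (hK hu))
  have hXK : ∀ s ∈ K.U, X.ρ s = 1 := fun s hs => h1 s (hK hs)
  have hfi := (levelS S).isBasis.finiteIndex K.U K.U_mem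
  have hfq : Finite (GQ ⧸ K.U) := Subgroup.finite_quotient_of_finiteIndex
  refine tate_of_chi_eq_zero S hpS hfin2 X hX
    (chi_eq_zero_of_epsInv S K.U K.U_mem hp2 hpS hadd hfin2 ?_ X hXK)
  intro V _ _ _ ρ
  refine epsInv_eq_zero_of_cyclic S K.U K.U_mem hp2 hpS hadd hfin2 ?_ V ρ
  intro C _ hcop N _ _ _ σ
  rw [epsInv_toFun]
  exact chi_infl_coind_eq_zero S p hp2 hpS hMU hMUfin K (harch K hζ) (hcoind K hζ) C hcop N σ

end Fermat.Agent.TW.GLOB.TateAssembly9
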