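/-
Programme T (S56, Taylor–Wiles primes), chapter GLOB, task T7 — helper5.

Discharge of the two `(MU*)` hypotheses of helper9's `TateAssembly9.tate_of_MU`:
`muHyp : TateAssembly9.MUHyp S p` (from `MUMain5.euler_muP`) and
`muFinHyp : TateAssembly9.MUFinHyp S p` (from `MUMain5.finite_H1_muP`, `finite_H2_muP`).
-/
import Mathlib
import Fermat.Agent.TW.GLOB.MUMain5
import Fermat.Agent.TW.GLOB.TateAssembly9

set_option autoImplicit false
set_option linter.unusedSectionVars false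

open ExtCitation

namespace Fermat.Agent.TW.GLOB.MUHyp5

attribute [local instance] Fermat.Agent.TW.GLOB.PlacesBridge9.mulActionInfinitePlaceLev

variable (S : Finset Nat.Primes) (p : ℕ) [Fact p.Prime] (hp2 : p ≠ 2) (hpS : pPrime p ∈ S)

include hp2 hpS in
/-- `(MU*)` in the shape of `TateAssembly9`. -/
theorem muHyp : Fermat.Agent.TW.GLOB.TateAssembly9.MUHyp S p := by
  classical
  intro K C ψ V0 V1 V2 _ _ _ _ _ _ _ _ _ ρ0 ρ1 ρ2 i0 h0 i1 h1 i2 h2
  exact Fermat.Agent.TW.GLOB.MUMain5.euler_muP S p hp2 hpS K C ψ V0 V1 V2 ρ0 ρ1 ρ2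
    i0 h0 i1 h1 i2 h2

include hp2 hpS in
/-- Finiteness of `H¹(K.U; μ_p)` and `H²(K.U; μ_p)` in the shape of `TateAssembly9`. -/
theorem muFinHyp : Fermat.Agent.TW.GLOB.TateAssembly9.MUFinHyp S p := fun K => by
  classical
  exact ⟨Fermat.Agent.TW.GLOB.MUMain5.finite_H1_muP S p hpS K,
    Fermat.Agent.TW.GLOB.MUMain5.finite_H2_muP S p hp2 hpS K⟩

end Fermat.Agent.TW.GLOB.MUHyp5
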