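/-
PROGRAMME T, chapter GLOB (helper1).  `TailGeneric1`: the tail of the Poitou–Tate sequence as an
INEQUALITY of cardinalities, `k`-generic (`hk : IntSurj k`), in the variable block of
`StarS55_7.starAt_of_muData` / `MEKer1`.

Setting: `M` a finite `𝔽_p[G]`-module, `P → A = M^∨(χ)` a two-term resolution (`R`), `0 → E → I → C → 0`
exact with `E ⊇ μ_p` `p`-divisible (`D : MuData χ ρE`), `I = ∏_q I_q`, `ev_q : I_q → W_q` over
`r_q : G_q → G` with `W_q ⊇ μ_p` `p`-divisible.  Hypotheses: `(S2)` the maps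
`Λ²_q : ℍ²(G; K(P; I_q)) → ℍ²(G_q; K(P|; W_q))` are BIJECTIVE, and `ℍ²(G; K(P; C))` is finite.

**Theorem `card_tail`.**
  `#{h ∈ H²(G; M) | ∀ q, res_q h = 0} * ∏_q #H²(G_q; M) ≤ #H²(G; M) * #ℍ²(G; K(P; C))`.

(Proof: `ℍ²(K(P;E)) → ℍ²(K(P;I)) → ℍ²(K(P;C))` is exact, `H²(G; M) ≅ ℍ²(K(P;E))`,
`ℍ²(K(P;I)) ≅ ∏_q ℍ²(K(P;I_q)) ≅ ∏_q ℍ²(G_q; K(P|;W_q)) ≅ ∏_q H²(G_q; M)`, and the kernel of
`H²(G; M) → ℍ²(K(P;I))` is `Ш²` by `StarBlock25.mapℍ2_incl2_K_eq_zero_iff`.)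
-/
import Mathlib
import Fermat.Agent.PT.PRO.KerIsoMain7
import Fermat.Agent.PT.PRO.StarBlock25

set_option autoImplicit false
set_option linter.unusedSectionVars false

namespace Fermat.Agent.TW.GLOB.TailGeneric1

open Function
open Fermat.Agent.PT.PRO Fermat.Agent.PT.PRO.HyperLevel25 Fermat.Agent.PT.PRO.HyperCompare25
open Fermat.Agent.PT.PRO.HyperRes25 Fermat.Agent.PT.PRO.IndRes20 Fermat.Agent.PT.PRO.Resolved4
open Fermat.Agent.PT.PRO.Setup20 Fermat.Agent.PT.PRO.Objects20 Fermat.Agent.PT.PRO.KerIso7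
open Fermat.Agent.PT.PRO.PairingRes1

/-- Counting along an exact sequence `A → B → C` of additive groups with `C` finite:
`#ker f * #B ≤ #A * #C`. -/
theorem card_ker_mul_le {A B C : Type*} [AddCommGroup A] [AddCommGroup B] [AddCommGroup C]
    [Finite C] (f : A →+ B) (g : B →+ C) (hfg : Function.Exact f g) :
    Nat.card f.ker * Nat.card B ≤ Nat.card A * Nat.card C := by
  have h1 : Nat.card A = Nat.card f.range * Nat.card f.ker := by
    rw [AddSubgroup.card_eq_card_quotient_mul_card_addSubgroup f.ker]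
    congr 1
    exact Nat.card_congr (QuotientAddGroup.quotientKerEquivRange f).toEquiv
  have h2 : Nat.card B = Nat.card g.range * Nat.card g.ker := by
    rw [AddSubgroup.card_eq_card_quotient_mul_card_addSubgroup g.ker]
    congr 1
    exact Nat.card_congr (QuotientAddGroup.quotientKerEquivRange g).toEquiv
  have h3 : Nat.card g.ker = Nat.card f.range :=
    Nat.card_congr (Equiv.subtypeEquivRight fun b => by
      rw [AddMonoidHom.mem_ker, AddMonoidHom.mem_range]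
      exact hfg b)
  have h4 : Nat.card g.range ≤ Nat.card C :=
    Nat.card_le_card_of_injective _ Subtype.val_injective
  calc Nat.card f.ker * Nat.card B
      = (Nat.card f.range * Nat.card f.ker) * Nat.card g.range := by rw [h2, h3]; ring
    _ ≤ (Nat.card f.range * Nat.card f.ker) * Nat.card C := Nat.mul_le_mul_left _ h4
    _ = Nat.card A * Nat.card C := by rw [h1]

variable {k : Type} [CommRing k] (hk : IntSurj k)
variable {p : ℕ} [Fact p.Prime] {G : Type} [Group G] {𝒰 : Set (Subgroup G)}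
variable {M : Type} [AddCommGroup M] [Module (ZMod p) M] [Module k M]
  [FiniteDimensional (ZMod p) M] [Module k (Module.Dual (ZMod p) M)]
variable {P0 P1 : Type} [AddCommGroup P0] [Module k P0] [AddCommGroup P1] [Module k P1]
  [Module.Finite k P0] [Module.Finite k P1] [Module.Projective k P0] [Module.Projective k P1]
variable {E I C : Type} [AddCommGroup E] [Module k E] [AddCommGroup I] [Module k I]
  [AddCommGroup C] [Module k C]
variable {Q : Type} [Fintype Q] {Gq : Q → Type} [∀ q, Group (Gq q)]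
  {𝒰q : ∀ q, Set (Subgroup (Gq q))}
variable {Iq W : Q → Type} [∀ q, AddCommGroup (Iq q)] [∀ q, Module k (Iq q)]
  [∀ q, AddCommGroup (W q)] [∀ q, Module k (W q)]

variable (R : Res k G P1 P0 (Module.Dual (ZMod p) M)) (h0 : IsDiscrete 𝒰 R.ρ0)
  (h𝒰 : IsLevelBasis 𝒰) (h𝒰q : ∀ q, IsLevelBasis (𝒰q q))
  (r : ∀ q, Gq q →* G) (hr : ∀ q, IsLevelHom (r q) (𝒰q q) 𝒰)
  (ρM : Representation (ZMod p) G M) (hM : IsDiscrete 𝒰 ρM) (χ : G →* (ZMod p)ˣ)
  (hA : ∀ g a, R.ρM g a = (χ g : ZMod p) • (a ∘ₗ ρM g⁻¹))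
  {ρE : Representation k G E} (hE : IsDiscrete 𝒰 ρE)
  {ρI : Representation k G I} (hI : IsDiscrete 𝒰 ρI)
  {ρC : Representation k G C} (hC : IsDiscrete 𝒰 ρC)
  {ρIq : ∀ q, Representation k G (Iq q)} (hIq : ∀ q, IsDiscrete 𝒰 (ρIq q))
  {ρW : ∀ q, Representation k (Gq q) (W q)} (hW : ∀ q, IsDiscrete (𝒰q q) (ρW q))
  (d : E →ₗ[k] I) (hd : ∀ g x, d (ρE g x) = ρI g (d x))
  (t : I →ₗ[k] C) (ht : ∀ g x, t (ρI g x) = ρC g (t x))
  (hdinj : Injective d) (htsurj : Surjective t) (hex : Function.Exact d t)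
  (prj : ∀ q, I →ₗ[k] Iq q) (hprj : ∀ q g x, prj q (ρI g x) = ρIq q g (prj q x))
  (hprod : Bijective (fun (x : I) (q : Q) => prj q x))
  (ev : ∀ q, Iq q →ₗ[k] W q) (hev : ∀ q g x, ev q (ρIq q (r q g) x) = ρW q g (ev q x))
  (D : MuData χ ρE) (D' : ∀ q, MuData (χ.comp (r q)) (ρW q))
  (hDD' : ∀ q a, ev q (prj q (d (D.j a))) = (D' q).j a)
  (hdivE : ∀ x : E, ∃ y : E, (p : k) • y = x)
  (hdivW : ∀ q (x : W q), ∃ y : W q, (p : k) • y = x)

include hd hIq hW hprj hprod hev hDD' hdivW in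
/-- `d_* (Φ h) = 0` in `ℍ²(K(P; I))` iff all localisations of `h ∈ H²(G; M)` vanish. -/
theorem mapℍ2_compare2_eq_zero_iff
    (hS2 : ∀ q, Injective ((KPHom (hr q) h𝒰 (h𝒰q q) (hIq q) (hW q) (toResolved R h0) (ev q)
      (hev q)).ppℍ2 (hr q) h𝒰 (h𝒰q q)))
    (h : Hp2 h𝒰 (intRep hk ρM) (isDiscrete_intRep hk hM)) :
    (HK20.coefHom (toResolved R h0) h𝒰 hE hI d hd).mapℍ2 h𝒰
        (compare2 hk h𝒰 (toResolved R h0) ρM hM χ hA hE D h) = 0 ↔
      ∀ q, (KerIsoMain7.resPlain hk h𝒰 (h𝒰q q) ρM hM (r q) (hr q)).mapH2 h = 0 :=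
  StarBlock25.mapℍ2_incl2_K_eq_zero_iff (toResolved R h0) h𝒰 hE hI d hd
    (isDiscrete_intRep hk hM) (kapRes hk D.j R.π)
    (kapRes_equivariant hk ρM χ R.ρM hA ρE D.j D.equiv R.ρ0 R.π R.π_comm)
    (lcomp_kapRes hk D.j R.π R.ι (toResolved R h0).π_ι)
    h𝒰q hr hIq hW prj hprj ev hev
    (fun q => isDiscrete_intRep hk (IsLevelHom.isDiscrete (hr q) hM))
    (fun q => kapRes hk (D' q).j R.π)
    (fun q => kapRes_equivariant hk (ρM.comp (r q)) (χ.comp (r q)) (R.comap (r q)).ρM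
      (KerIsoMain7.hA_comap R ρM χ hA (r q)) (ρW q) (D' q).j (D' q).equiv (R.comap (r q)).ρ0 R.π
      (R.comap (r q)).π_comm)
    (fun q => lcomp_kapRes hk (D' q).j R.π R.ι (toResolved R h0).π_ι)
    (fun q => LinearMap.id) (fun q g n => rfl)
    (StarBlock25.hP2h_of_prod (toResolved R h0) h𝒰 hI hIq prj hprj hprod) hS2
    (fun q => (compare2_bijective hk (h𝒰q q)
      (toResolved (R.comap (r q)) (comap_disc0 R h0 (r q) (hr q))) (ρM.comp (r q))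
      (IsLevelHom.isDiscrete (hr q) hM) (χ.comp (r q)) (KerIsoMain7.hA_comap R ρM χ hA (r q))
      (hW q) (D' q) (hdivW q)).1)
    (fun q n x => by
      rw [LinearMap.id_apply, kapRes_apply, kapRes_apply, hDD']) h

include hA hprj hprod D' hdivW in
/-- `#ℍ²(G; K(P; I)) = ∏_q #H²(G_q; M)`. -/
theorem card_ℍ2_I
    (hS2 : ∀ q, Bijective ((KPHom (hr q) h𝒰 (h𝒰q q) (hIq q) (hW q) (toResolved R h0) (ev q)
      (hev q)).ppℍ2 (hr q) h𝒰 (h𝒰q q))) :
    Nat.card ((KX R h0 h𝒰 ρI hI).ℍ2 h𝒰) =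
      ∏ q, Nat.card (Hp2 (h𝒰q q) (intRep hk (ρM.comp (r q)))
        (isDiscrete_intRep hk (IsLevelHom.isDiscrete (hr q) hM))) := by
  have hb := ProdInst10.prod_ℍ2_of_compRight
    (fun q => HK20.coefHom (toResolved R h0) h𝒰 hI (hIq q) (prj q) (hprj q)) h𝒰 prj hprod
    (fun _ _ => rfl) (fun _ _ => rfl)
  rw [Nat.card_congr (Equiv.ofBijective _ hb), Nat.card_pi]
  refine Finset.prod_congr rfl fun q _ => ?_
  rw [Nat.card_congr (Equiv.ofBijective _ (hS2 q))]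
  exact (Nat.card_congr (Equiv.ofBijective _ (compare2_bijective hk (h𝒰q q)
      (toResolved (R.comap (r q)) (comap_disc0 R h0 (r q) (hr q))) (ρM.comp (r q))
      (IsLevelHom.isDiscrete (hr q) hM) (χ.comp (r q)) (KerIsoMain7.hA_comap R ρM χ hA (r q))
      (hW q) (D' q) (hdivW q)))).symm

include hA hE hI hIq hW hd ht hdinj htsurj hex hprj hprod hev D D' hDD' hdivE hdivW in
/-- **The tail inequality** (`k`-generic). -/
theorem card_tail
    (hS2 : ∀ q, Bijective ((KPHom (hr q) h𝒰 (h𝒰q q) (hIq q) (hW q) (toResolved R h0) (ev q)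
      (hev q)).ppℍ2 (hr q) h𝒰 (h𝒰q q)))
    [Finite ((KX R h0 h𝒰 ρC hC).ℍ2 h𝒰)] :
    Nat.card {h : Hp2 h𝒰 (intRep hk ρM) (isDiscrete_intRep hk hM) //
        ∀ q, (KerIsoMain7.resPlain hk h𝒰 (h𝒰q q) ρM hM (r q) (hr q)).mapH2 h = 0} *
      ∏ q, Nat.card (Hp2 (h𝒰q q) (intRep hk (ρM.comp (r q)))
        (isDiscrete_intRep hk (IsLevelHom.isDiscrete (hr q) hM))) ≤
    Nat.card (Hp2 h𝒰 (intRep hk ρM) (isDiscrete_intRep hk hM)) *
      Nat.card ((KX R h0 h𝒰 ρC hC).ℍ2 h𝒰) := by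
  have hse := StarBlock25.coefHom_shortExact (toResolved R h0) h𝒰 hE hI hC d hd t ht hdinj htsurj
    hex
  have hbij := compare2_bijective hk h𝒰 (toResolved R h0) ρM hM χ hA hE D hdivE
  -- the composite `f := d_* ∘ Φ` and `g := t_*`
  let f : Hp2 h𝒰 (intRep hk ρM) (isDiscrete_intRep hk hM) →+ (KX R h0 h𝒰 ρI hI).ℍ2 h𝒰 :=
    ((HK20.coefHom (toResolved R h0) h𝒰 hE hI d hd).mapℍ2 h𝒰).toAddMonoidHom.comp
      (compare2 hk h𝒰 (toResolved R h0) ρM hM χ hA hE D).toAddMonoidHom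
  let g : (KX R h0 h𝒰 ρI hI).ℍ2 h𝒰 →+ (KX R h0 h𝒰 ρC hC).ℍ2 h𝒰 :=
    ((HK20.coefHom (toResolved R h0) h𝒰 hI hC t ht).mapℍ2 h𝒰).toAddMonoidHom
  have hfg : Function.Exact f g := by
    intro y
    constructor
    · intro hy
      obtain ⟨e, he⟩ := (Cx.Hom.exact_mapℍ2_mapℍ2 hse h𝒰 y).1 hy
      obtain ⟨h, rfl⟩ := hbij.2 e
      exact ⟨h, he⟩
    · rintro ⟨h, rfl⟩
      exact (Cx.Hom.exact_mapℍ2_mapℍ2 hse h𝒰 _).2 ⟨_, rfl⟩
  have hker : Nat.card {h : Hp2 h𝒰 (intRep hk ρM) (isDiscrete_intRep hk hM) //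
        ∀ q, (KerIsoMain7.resPlain hk h𝒰 (h𝒰q q) ρM hM (r q) (hr q)).mapH2 h = 0} =
      Nat.card f.ker :=
    Nat.card_congr (Equiv.subtypeEquivRight fun h => by
      rw [AddMonoidHom.mem_ker]
      exact (mapℍ2_compare2_eq_zero_iff hk R h0 h𝒰 h𝒰q r hr ρM hM χ hA hE hI hIq hW d hd prj hprj
        hprod ev hev D D' hDD' hdivW (fun q => (hS2 q).1) h).symm)
  rw [hker, ← card_ℍ2_I hk R h0 h𝒰 h𝒰q r hr ρM hM χ hA hI hIq hW prj hprj hprod ev hev D' hdivW hS2]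
  exact card_ker_mul_le f g hfg

end Fermat.Agent.TW.GLOB.TailGeneric1
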