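/-
PROGRAMME T, chapter GLOB (helper1).  `Tail1` = (T-3): the TAIL of the Poitou–Tate sequence as an
inequality of cardinalities, in the vocabulary of `TW/DEF/Basic1` + `TW/GLOB/GWNumeric1`, from

* `(S2)`  : the maps `Λ²_q : ℍ²(Γ; K(P; I_{S,q})) → ℍ²(Γ_q; K(P|; ℚ̄_qˣ))` are BIJECTIVE, and
* `(C)`   : `ℍ²(Γ; K(P; C_S))` is finite of order `≤ #A^Γ`,

where `P → A = N^∨(1)` is the canonical resolution `HpAt29.freeRes (IntRep20.intRep A)`.

`p` a prime, `S ∋ p`, `N : Rep (ZMod p) GQ` finite-dimensional, `N` and `N.dualTwist (cycloChar p)`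
discrete for `levelS S`.

**`tail_le`** : `#Ш²_S(N) * ∏_{q ∈ S} #H²(ℚ_q, N) ≤ #H²(G_S, N) * #H⁰(G_S, N^∨(1))`.
**`tail_le_dualTwist`** : the same for `N = X^∨(1)`, with `#H⁰(G_S, X)` on the right
(`GWNumeric1.GWInputs.tail` for `M = X`, `M' = X^∨(1)`).

Proof: `TailGeneric1.card_tail` at the S55 objects (`card_tail_S55`) + the dictionary
`LevelEquiv29.h2IntEquiv`.
-/
import Mathlib
import Fermat.Agent.TW.GLOB.TailGeneric1
import Fermat.Agent.TW.GLOB.GWNumeric1
import Fermat.Agent.TW.DEF.Mu1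
import Fermat.Agent.PT.PRO.StarS55_7
import Fermat.Agent.PT.PRO.HpAt29
import Fermat.Agent.PT.BR.DualTwist7

set_option autoImplicit false
set_option linter.unusedSectionVars false
set_option linter.unusedVariables false

open Function ExtCitation
open Fermat.Agent.PT Fermat.Agent.PT.PRO Fermat.Agent.PT.GLUE Fermat.Agent.PT.GLUE.Objects21
open Fermat.Agent.PT.PRO.HyperLevel25 Fermat.Agent.PT.PRO.Resolved4
open Fermat.Agent.PT.PRO.HyperRes25 Fermat.Agent.PT.PRO.PairingRes1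
open Fermat.Agent.PT.PRO.IntRep20 Fermat.Agent.PT.PRO.LevelEquiv29
open Fermat.Agent.PT.PRO.ProdDict10 Fermat.Agent.PT.GLUE.LocS2_29
open Fermat.Agent.PT.PRO.IndRes20 Fermat.Agent.PT.PRO.Setup20 Fermat.Agent.PT.PRO.Objects20
open Fermat.Agent.PT.PRO.KerIso7 Fermat.Agent.PT.PRO.KerIsoGal7
open Fermat.Agent.PT.PRO.HyperCompare25

namespace Fermat.Agent.TW.GLOB.Tail1

local notation "Γ" => (AlgebraicClosure ℚ ≃ₐ[ℚ] AlgebraicClosure ℚ)

variable (p : ℕ) [Fact p.Prime] (S : Finset Nat.Primes)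
  (M : Rep.{0} (ZMod p) Γ) [FiniteDimensional (ZMod p) M]

/-- The resolution of `A = M^∨(1)` used throughout. -/
noncomputable abbrev resA := HpAt29.freeRes (IntRep20.intRep (M.dualTwist (cycloChar p)))

variable [Finite (M.dualTwist (cycloChar p))]

/-- **The tail inequality, hyper form at the S55 objects.** -/
theorem card_tail_S55 (hpS : pPrime p ∈ S)
    (hMi : IsDiscrete (levelS S).sets (IntRep20.intRep M))
    (hAi : IsDiscrete (levelS S).sets (IntRep20.intRep (M.dualTwist (cycloChar p))))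
    (h0 : IsDiscrete (levelS S).sets (resA p M).ρ0)
    (hS2 : ∀ q : ↥S, Bijective ((KPHom (isLevelHom_loc S ((q : Nat.Primes) : ℕ))
      (basis (levelS S)) (basis (levelLoc ((q : Nat.Primes) : ℕ))) (isDiscrete_ISq' S q)
      (isDiscrete_unitsLoc ((q : Nat.Primes) : ℕ)) (toResolved (resA p M) h0)
      (evq S ((q : Nat.Primes) : ℕ)) (evq_ρ S ((q : Nat.Primes) : ℕ))).ppℍ2
        (isLevelHom_loc S ((q : Nat.Primes) : ℕ)) (basis (levelS S))
        (basis (levelLoc ((q : Nat.Primes) : ℕ)))))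
    [Finite ((KX (resA p M) h0 (basis (levelS S)) (CS S).ρ (isDiscrete_CS S)).ℍ2
      (basis (levelS S)))] :
    Nat.card {h : Hp2 (basis (levelS S)) (KerIso7.intRep intSurj_int M.ρ)
          (isDiscrete_intRep intSurj_int hMi) //
        ∀ q : ↥S, (KerIsoMain7.resPlain intSurj_int (basis (levelS S))
          (basis (levelLoc ((q : Nat.Primes) : ℕ))) M.ρ hMi
          (localGaloisToGlobal ((q : Nat.Primes) : ℕ))
          (isLevelHom_loc S ((q : Nat.Primes) : ℕ))).mapH2 h = 0} *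
      ∏ q : ↥S, Nat.card (Hp2 (basis (levelLoc ((q : Nat.Primes) : ℕ)))
        (KerIso7.intRep intSurj_int (M.ρ.comp (localGaloisToGlobal ((q : Nat.Primes) : ℕ))))
        (isDiscrete_intRep intSurj_int
          (IsLevelHom.isDiscrete (isLevelHom_loc S ((q : Nat.Primes) : ℕ)) hMi))) ≤
    Nat.card (Hp2 (basis (levelS S)) (KerIso7.intRep intSurj_int M.ρ)
        (isDiscrete_intRep intSurj_int hMi)) *
      Nat.card ((KX (resA p M) h0 (basis (levelS S)) (CS S).ρ (isDiscrete_CS S)).ℍ2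
        (basis (levelS S))) :=
  TailGeneric1.card_tail intSurj_int (resA p M) h0 (basis (levelS S))
    (fun q : ↥S => basis (levelLoc ((q : Nat.Primes) : ℕ)))
    (fun q : ↥S => localGaloisToGlobal ((q : Nat.Primes) : ℕ))
    (fun q : ↥S => isLevelHom_loc S ((q : Nat.Primes) : ℕ))
    M.ρ hMi (cycloChar p) (KerIsoMain7.hA_freeRes M (cycloChar p))
    (isDiscrete_ES S) (isDiscrete_IS' S) (isDiscrete_CS S) (isDiscrete_ISq' S)
    (fun q : ↥S => isDiscrete_unitsLoc ((q : Nat.Primes) : ℕ))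
    (diag S) (diag_ρ S) (toCS S) (toCS_ρ S)
    (Objects21.diag_injective S ⟨pPrime p, hpS⟩) (toCS_surjective S)
    (StarS55_7.exact_diag_toCS S)
    (ISproj S) (ISproj_ρ S) (ISproj_bijective S)
    (fun q : ↥S => evq S ((q : Nat.Primes) : ℕ)) (fun q : ↥S => evq_ρ S ((q : Nat.Primes) : ℕ))
    (muES p S hpS) (fun q : ↥S => muLoc p ((q : Nat.Primes) : ℕ))
    (StarS55_7.evq_ISproj_diag_muES p S hpS)
    (ESDivisible27.exists_zsmul_eq (Fact.out) hpS)
    (fun q : ↥S => exists_zsmul_eq_unitsLoc p ((q : Nat.Primes) : ℕ))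
    hS2

/-! ### Translation to the vocabulary of `Basic1` / `GWNumeric1` -/

section Translate

open Fermat.Agent.TW.DEF.Basic1 Fermat.Agent.TW.DEF.Mu1 Fermat.Agent.TW.GLOB.GWNumeric1

omit [FiniteDimensional (ZMod p) M] [Finite (M.dualTwist (cycloChar p))] in
theorem mem_sha2_iff (x : HS2 S M) :
    x ∈ sha2 S M ↔ ∀ q : ↥S, resq2 S M ((q : Nat.Primes) : ℕ) x = 0 := by
  unfold sha2
  rw [LinearMap.mem_ker]
  constructor
  · intro h q
    exact congrFun h q
  · intro h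
    funext q
    exact h q

omit [FiniteDimensional (ZMod p) M] [Finite (M.dualTwist (cycloChar p))] in
/-- `Ш²` in the `Hlev2` model. -/
theorem card_sha2_eq (hM : LevelCoh28.IsDiscrete (levelS S).sets M)
    (hMq : ∀ q : ↥S, LevelCoh28.IsDiscrete (levelLoc ((q : Nat.Primes) : ℕ)).sets
      (Mq M ((q : Nat.Primes) : ℕ))) :
    Nat.card ↥(sha2 S M) =
      Nat.card {h : Hlev2 (basis (levelS S)) (IntRep20.intRep M) hM //
        ∀ q : ↥S, (plainPHom (isLevelHom_iff.1 (isLevelHom_rq S ((q : Nat.Primes) : ℕ)))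
          (basis (levelS S)) (basis (levelLoc ((q : Nat.Primes) : ℕ)))
          (ρ := IntRep20.intRep M) (ρ' := IntRep20.intRep (Mq M ((q : Nat.Primes) : ℕ)))
          hM (hMq q) LinearMap.id (fun _ _ => rfl)).mapH2 h = 0} :=
  Nat.card_congr (Equiv.subtypeEquiv (h2IntEquiv (levelS S) M hM).toEquiv fun x =>
    (mem_sha2_iff p S M x).trans (forall_congr' fun q =>
      ppH2_eq_zero_iff (rq ((q : Nat.Primes) : ℕ)) hM (hMq q)
        (LinearMap.id : M →ₗ[ZMod p] Mq M ((q : Nat.Primes) : ℕ)) (fun _ _ => rfl)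
        (isLevelHom_rq S ((q : Nat.Primes) : ℕ)) LinearMap.id (fun _ _ => rfl) (fun _ => rfl) x))

/-- The invariants of the resolved module are those of `M^∨(1)`. -/
theorem card_invariants_resA :
    Nat.card ↥(resA p M).ρM.invariants =
      Nat.card ↥(M.dualTwist (cycloChar p)).ρ.invariants :=
  Nat.card_congr (Equiv.subtypeEquivRight fun a => Iff.rfl)

/-- **(T-3) The tail inequality** `#Ш²_S(M) * ∏_q #H²(ℚ_q, M) ≤ #H²(G_S, M) * #H⁰(G_S, M^∨(1))`
from `(S2)` (bijectivity of `Λ²_q`) and the count `(C)` for `C_S`. -/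
theorem tail_le (hpS : pPrime p ∈ S)
    (hM : LevelCoh28.IsDiscrete (levelS S).sets M)
    (hM' : LevelCoh28.IsDiscrete (levelS S).sets (M.dualTwist (cycloChar p)))
    (hS2 : ∀ (h0 : IsDiscrete (levelS S).sets (resA p M).ρ0) (q : ↥S),
      Bijective ((KPHom (isLevelHom_loc S ((q : Nat.Primes) : ℕ))
        (basis (levelS S)) (basis (levelLoc ((q : Nat.Primes) : ℕ))) (isDiscrete_ISq' S q)
        (isDiscrete_unitsLoc ((q : Nat.Primes) : ℕ)) (toResolved (resA p M) h0)
        (evq S ((q : Nat.Primes) : ℕ)) (evq_ρ S ((q : Nat.Primes) : ℕ))).ppℍ2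
          (isLevelHom_loc S ((q : Nat.Primes) : ℕ)) (basis (levelS S))
          (basis (levelLoc ((q : Nat.Primes) : ℕ)))))
    (hC : ∀ h0 : IsDiscrete (levelS S).sets (resA p M).ρ0,
      Finite ((KX (resA p M) h0 (basis (levelS S)) (CS S).ρ (isDiscrete_CS S)).ℍ2
        (basis (levelS S))) ∧
      Nat.card ((KX (resA p M) h0 (basis (levelS S)) (CS S).ρ (isDiscrete_CS S)).ℍ2
        (basis (levelS S))) ≤ Nat.card ↥(resA p M).ρM.invariants) :
    Nat.card ↥(sha2 S M) * ∏ q : ↥S, Nat.card (Hq2 M ((q : Nat.Primes) : ℕ)) ≤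
      Nat.card (HS2 S M) * Nat.card ↥(M.dualTwist (cycloChar p)).ρ.invariants := by
  have hMi : IsDiscrete (levelS S).sets (IntRep20.intRep M) := hM
  have hAi : IsDiscrete (levelS S).sets (IntRep20.intRep (M.dualTwist (cycloChar p))) := hM'
  have h0 : IsDiscrete (levelS S).sets (resA p M).ρ0 :=
    FreeRes29.isDiscrete_freeRep (basis (levelS S)) hAi
  have hMq : ∀ q : ↥S, LevelCoh28.IsDiscrete (levelLoc ((q : Nat.Primes) : ℕ)).sets
      (Mq M ((q : Nat.Primes) : ℕ)) := fun q => isDiscrete_Mq p S ((q : Nat.Primes) : ℕ) hM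
  have hfin := (hC h0).1
  have key := card_tail_S55 p S M hpS hMi hAi h0 (hS2 h0)
  have e1 := card_sha2_eq p S M hM hMq
  have e2 : ∀ q : ↥S, Nat.card (Hq2 M ((q : Nat.Primes) : ℕ)) =
      Nat.card (Hp2 (basis (levelLoc ((q : Nat.Primes) : ℕ)))
        (KerIso7.intRep intSurj_int (M.ρ.comp (localGaloisToGlobal ((q : Nat.Primes) : ℕ))))
        (isDiscrete_intRep intSurj_int
          (IsLevelHom.isDiscrete (isLevelHom_loc S ((q : Nat.Primes) : ℕ)) hMi))) := fun q =>
    Nat.card_congr (h2IntEquiv (levelLoc ((q : Nat.Primes) : ℕ)) (Mq M ((q : Nat.Primes) : ℕ))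
      (hMq q)).toEquiv
  have e3 : Nat.card (HS2 S M) = Nat.card (Hp2 (basis (levelS S))
      (KerIso7.intRep intSurj_int M.ρ) (isDiscrete_intRep intSurj_int hMi)) :=
    Nat.card_congr (h2IntEquiv (levelS S) M hM).toEquiv
  have e4 := card_invariants_resA p M
  refine (le_of_eq (congrArg₂ (· * ·) e1 (Finset.prod_congr rfl fun q _ => e2 q))).trans ?_
  refine key.trans ?_
  refine (Nat.mul_le_mul_left _ (hC h0).2).trans ?_
  exact le_of_eq (congrArg₂ (· * ·) e3.symm e4)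

end Translate

end Fermat.Agent.TW.GLOB.Tail1
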