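/-
Programme T (S56, Taylor–Wiles primes), chapter GLOB, task T7 — helper5.

**The class formations used in the Euler characteristic of `μ_p`.**

* `fundAt_of_isInvIncl` : fundamental classes at finite levels pass from `(𝓑, A)` to `(𝓑', A^N)`
  when every member of `𝓑'` is a member of `𝓑` containing `N`;
* `fundAt_CS` : the global class formation `(Γ, levelS S, C_S)`;
* `fundAt_unitsLocS` : the local class formation `(Γ_q, levelLocS q S, ((ℚ_S)_q)ˣ)`.
-/
import Mathlib
import Fermat.Agent.TW.GLOB.ClassFormSub5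
import Fermat.Agent.PT.GLUE.FundLevelFinal2
import Fermat.Agent.PT.GLUE.LocalFund11
import Fermat.Agent.PT.GLUE.LocHyper13

set_option autoImplicit false
set_option linter.unusedSectionVars false

open CategoryTheory groupCohomology
open Fermat.Agent.PT.PRO.LevelCoh28 Fermat.Agent.PT.PRO.HyperColim18
  Fermat.Agent.PT.PRO.FundRaw18 Fermat.Agent.PT.PRO.InfLevel13
  Fermat.Agent.PT.FG.Interface8 Fermat.Agent.TW.GLOB.ClassFormSub5

namespace Fermat.Agent.TW.GLOB.ClassFormInst5

section Generic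

variable {k : Type} [CommRing k] {G : Type} [Group G] {A' A : Rep.{0} k G} {N : Subgroup G}
  {ι : A' →ₗ[k] A} (hι : IsInvIncl N A'.ρ A.ρ ι) (V : Subgroup G) [V.Normal] (hNV : N ≤ V)

include hι in
/-- `ι` maps `V`-fixed vectors to `V`-fixed vectors. -/
def fixedIncl : (CV A' V) →ₗ[k] (CV A V) where
  toFun x := ⟨ι x.1, fun s hs => by
    have h1 : A'.ρ s x.1 = x.1 := x.2 s hs
    show A.ρ s (ι x.1) = ι x.1
    rw [← hι.comm, h1]⟩
  map_add' x y := Subtype.ext (map_add ι x.1 y.1)
  map_smul' r x := Subtype.ext (map_smul ι r x.1)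

theorem coe_fixedIncl (x : CV A' V) : (fixedIncl hι V x).1 = ι x.1 := rfl

include hNV in
theorem fixedIncl_bijective : Function.Bijective (fixedIncl hι V) := by
  constructor
  · intro x y h
    exact Subtype.ext (hι.inj (congrArg Subtype.val h))
  · intro a
    obtain ⟨x, hx⟩ := hι.surj a.1 (fun n hn => a.2 n (hNV hn))
    refine ⟨⟨x, fun s hs => ?_⟩, Subtype.ext hx⟩
    apply hι.inj
    show ι (A'.ρ s x) = ι x
    rw [hι.comm, hx]
    exact a.2 s hs

theorem fixedIncl_comm (q : G ⧸ V) (x : CV A' V) :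
    fixedIncl hι V ((CV A' V).ρ q x) = (CV A V).ρ q (fixedIncl hι V x) := by
  induction q using QuotientGroup.induction_on with
  | H g => exact Subtype.ext (hι.comm g x.1)

/-- `(A^N)^V ≅ A^V` as `G ⧸ V`-modules, for `N ≤ V`. -/
noncomputable def fixedIso : CV A V ≅ CV A' V :=
  (Rep.mkIso (Representation.Equiv.mk (LinearEquiv.ofBijective (fixedIncl hι V)
    (fixedIncl_bijective hι V hNV)) (fun q => by
      ext x
      exact fixedIncl_comm hι V q x))).symm

end Generic

section Int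

variable {G : Type} [Group G] {𝓑 𝓑' : LevelBasis G} (A : Rep.{0} ℤ G) (N : Subgroup G)
  [N.Normal]

/-- Fundamental classes at finite levels pass to the `N`-invariants, on the levels containing
`N`. -/
theorem fundAt_toInvariants (hsets : ∀ V ∈ 𝓑'.sets, V ∈ 𝓑.sets ∧ N ≤ V) {p : ℕ} [Fact p.Prime]
    (h : FundAt 𝓑 A p) : FundAt 𝓑' (A.toInvariants N) p := by
  intro V hV hn
  have := hn
  obtain ⟨hV', hNV⟩ := hsets V hV
  obtain ⟨u, hu⟩ := h V hV' hn
  exact ⟨_, Fermat.Agent.TW.GLOB.FundSub9.isFundClass_of_injective p (MonoidHom.id (G ⧸ V))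
    Function.injective_id (CV A V) (CV (A.toInvariants N) V)
    (fixedIso (Fermat.Agent.PT.PRO.InfLevelRep13.isInvIncl_toInvariants A N) V hNV) u hu⟩

end Int

section Instances

open Fermat.Agent.PT.GLUE.Objects21 Fermat.Agent.PT.GLUE.LocHyper13
  Fermat.Agent.PT.BR.InfLocal13

variable (S : Finset Nat.Primes) (p : ℕ) [hp : Fact p.Prime]

/-- The global class formation `(Γ, levelS S, C_S)`. -/
theorem fundAt_CS (hp2 : p ≠ 2) (hpS : (⟨p, hp.out⟩ : Nat.Primes) ∈ S) :
    FundAt (levelS S) (CS S) p :=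
  fun V hV hn => Fermat.Agent.PT.GLUE.FundLevelFinal2.fundFixed_CS p hp2 hpS V hV hn

variable (q : ℕ) [Fact q.Prime]

/-- The local class formation `(Γ_q, levelLoc q, ℚ̄_qˣ)`. -/
theorem fundAt_unitsLoc : FundAt (levelLoc q) (unitsLoc q) p :=
  fun V hV hn => Fermat.Agent.PT.GLUE.LocalFund11.fundFixed_unitsLoc q p V hV hn

/-- The local class formation `(Γ_q, levelLocS q S, ((ℚ_S)_q)ˣ)`. -/
theorem fundAt_unitsLocS : FundAt (levelLocS q S) (unitsLocS S q) p := by
  refine fundAt_toInvariants (𝓑 := levelLoc q) (unitsLoc q) (Nloc S q) ?_ (fundAt_unitsLoc p q)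
  rintro _ ⟨W, hW, rfl⟩
  exact ⟨⟨W, levelSetS_subset_levelSetAll S hW, rfl⟩, Nloc_le_comap S q W hW⟩

end Instances

end Fermat.Agent.TW.GLOB.ClassFormInst5
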