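/-
Programme T (S56), chapter T/GLOB, bricks (T-2) and (T-1) of T/plan/TAIL / (A3) of T/plan/ADD
(helper4), in the shapes requested by helper1 (msg 433).

**Generic** (`ExtPair20_2` vocabulary): `card_ℍ2_le` : under `Lim20_2.Hyp20` and an injective
invariant map, `ℍ²(Y)` is finite and `#ℍ²(Y) ≤ #H⁰(G, M)` (left kernel only, no (DIV)).

**(T-2)** `Λ²_q` is bijective (variable block of `LocHyperFinal13.S2h`, `M` finite killed by
`p ∈ S`):
* `card_ℍ2_localS` : `#ℍ²(K(P; ((ℚ_S)_q)ˣ)) = #H⁰(Γ_q, M)` for the local-at-`S` class formation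
  `(Γ_q, levelLocS q S, ((ℚ_S)_q)ˣ)` (`ClassFormInst5.fundAt_unitsLocS`, `BrickA4.div_levelLocS`);
* `card_ℍ2_ISq` : `#ℍ²(Γ; K(P; I_{S,q})) = #H⁰(Γ_q, M)` (Shapiro half + `card_ℍ2_localS`);
* **`S2_bijective`**, **`S2h_surjective`** : `Λ²_q = (PairingRes1.KPHom hr h𝒰 h𝒰q hX hW P ev_q _).ppℍ2`
  is bijective / surjective (injective by `LocHyperFinal13.S2h`; both sides are finite of
  cardinality `#H⁰(Γ_q, M)`, the target by `LocalDuality20_2.card_ℍ2_local`).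

**(T-1)** `α²` is injective for the global class formation `(Γ, levelS S, C_S)` (`p` odd, `p ∈ S`,
`FundLevelFinal2.fundFixed_CS`):
* **`alpha2_injective`**; **`card_ℍ2_CS_le`** : `ℍ²(K(P; C_S))` finite, `#ℍ²(K(P; C_S)) ≤ #H⁰(Γ, M)`;
* **`card_ℍ2_CS`** : the same in `Res`-form, for `Objects20.KX R h0 (basis (levelS S)) (CS S).ρ _`.
-/
import Mathlib
import Fermat.Agent.TW.LOC.LocalDuality20_2
import Fermat.Agent.TW.GLOB.ClassFormInst5
import Fermat.Agent.PT.GLUE.LocHyperFinal13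
import Fermat.Agent.PT.GLUE.FundLevelFinal2
import Fermat.Agent.PT.PRO.Objects20

set_option autoImplicit false
set_option linter.unusedSectionVars false

namespace Fermat.Agent.TW.GLOB.TailInst4

open Function ExtCitation
open Fermat.Agent.PT.PRO Fermat.Agent.PT.PRO.HyperLevel25 Fermat.Agent.PT.PRO.Resolved4
open Fermat.Agent.PT.PRO.ExtPairing4 Fermat.Agent.PT.PRO.ExtPairingB4
open Fermat.Agent.PT.PRO.IndRes20 Fermat.Agent.PT.PRO.GlobalDuality20
open Fermat.Agent.PT.PRO.FundHyp12 Fermat.Agent.PT.PRO.InvP4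
open Fermat.Agent.PT.PRO.PerfectPairing29 Fermat.Agent.PT.PRO.PairP4
open Fermat.Agent.PT.GLUE Fermat.Agent.PT.GLUE.Objects21 Fermat.Agent.PT.GLUE.LocalHypR11
open Fermat.Agent.PT.GLUE.LocHyper13
open Fermat.Agent.TW.GLOB.Lim20_2 Fermat.Agent.TW.GLOB.FundHyp20_2
open Fermat.Agent.TW.GLOB.ExtPair20_2
open Fermat.Agent.TW.LOC.Defs2

local notation "Γ" => (AlgebraicClosure ℚ ≃ₐ[ℚ] AlgebraicClosure ℚ)

/-! ## Generic: the count from the left kernel alone -/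

section Generic

variable {k G : Type*} [CommRing k] [Group G] {𝒰 : Set (Subgroup G)}
variable {Y0 Y1 P1 P0 M C : Type*}
  [AddCommGroup Y0] [Module k Y0] [AddCommGroup Y1] [Module k Y1]
  [AddCommGroup P1] [Module k P1] [AddCommGroup P0] [Module k P0]
  [AddCommGroup M] [Module k M] [AddCommGroup C] [Module k C]
variable {Y : Cx k 𝒰 Y0 Y1} {P : Resolved k 𝒰 P1 P0 M} {ρC : Representation k G C}
variable (B : Pairing Y P ρC) (h𝒰 : IsLevelBasis 𝒰) (hC : IsDiscrete 𝒰 ρC)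

/-- **The count from the left kernel.**  Under `Hyp20` and an injective invariant map
`τ : H²_lev(C)[p] → ℤ/p`: `ℍ²(Y)` is finite with `#ℍ²(Y) ≤ #H⁰(G, M)` (`M` killed by `p`). -/
theorem card_ℍ2_le {ℱ : Set (Subgroup G)} {p : ℕ} [Fact p.Prime]
    (H : Hyp20 (toDatum B) 𝒰 ℱ p)
    [Finite P.ρM.invariants] (hpM : ∀ m : M, p • m = 0)
    (τ : pTor p (Hlev2 h𝒰 ρC hC) →+ ZMod p) (hτ : Injective τ) :
    Finite (Y.ℍ2 h𝒰) ∧ Nat.card (Y.ℍ2 h𝒰) ≤ Nat.card P.ρM.invariants := by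
  have hinj := injective_of_left_kernel (pair20P B h𝒰 hC hpM) τ (injOnTorsion_of_injective τ hτ)
    (nsmul_invariants_eq_zero hpM)
    (fun ξ h => pair20_left_kernel B h𝒰 hC H ξ fun m =>
      (pair20P_eq_zero_iff B h𝒰 hC hpM ξ m).1 (h m))
  have hfinD : Finite (P.ρM.invariants →+ ZMod p) := finite_addMonoidHom_zmod
  refine ⟨Finite.of_injective _ hinj, ?_⟩
  calc Nat.card (Y.ℍ2 h𝒰)
      ≤ Nat.card (P.ρM.invariants →+ ZMod p) := Nat.card_le_card_of_injective _ hinj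
    _ = Nat.card P.ρM.invariants := card_addMonoidHom_zmod (nsmul_invariants_eq_zero hpM)

end Generic

/-! ## (T-2): `Λ²_q` is bijective -/

section LocalS

variable (S : Finset Nat.Primes) (q : ℕ) [Fact q.Prime]

variable {P1 P0 M : Type} [AddCommGroup P1] [Module ℤ P1] [AddCommGroup P0] [Module ℤ P0]
  [AddCommGroup M] [Module ℤ M]

theorem isLevelBasis_levelLocS : IsLevelBasis (levelLocS q S).sets :=
  LevelCompare13.isLevelBasis_iff.1 (levelLocS q S).isBasis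

theorem isDiscrete_unitsLocS' : IsDiscrete (levelLocS q S).sets (unitsLocS S q).ρ :=
  isDiscrete_unitsLocS S q

theorem fundFixed_unitsLocS (p : ℕ) [Fact p.Prime] :
    FundFixed (unitsLocS S q).ρ (levelLocS q S).sets p :=
  Fermat.Agent.TW.GLOB.ClassFormInst5.fundAt_unitsLocS S p q

/-- **`Hyp20` for the local-at-`S` datum `K(P; ((ℚ_S)_q)ˣ)`, raw form.** -/
theorem hyp20_localS (R : Res ℤ (Gq q) P1 P0 M) [Module.Free ℤ P0] [Module.Finite ℤ P0]
    [Module.Free ℤ P1] [Module.Finite ℤ P1] (h0 : IsDiscrete (levelLocS q S).sets R.ρ0)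
    (p : ℕ) [Fact p.Prime] (hpM : ∀ m : M, p • m = 0) :
    Hyp20 (R.datum (unitsLocS S q).ρ) (levelLocS q S).sets
      (goodSet (levelLocS q S).sets R.ρ0) p :=
  hyp20_of_fixed R (unitsLocS S q).ρ (isLevelBasis_levelLocS S q)
    (fun m => (Nat.cast_smul_eq_nsmul ℤ p m).trans (hpM m))
    (isDiscrete_unitsLocS' S q) h0
    (tn11lFixed_of_fund _ (fundFixed_unitsLocS S q p))
    (tn11rFixed_of_fund _ (fundFixed_unitsLocS S q p))
    (h1Fixed_of_fund _ (fundFixed_unitsLocS S q p))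

/-- **Vanishing of norms for the local-at-`S` datum**, from (DIV). -/
theorem norm_localS (R : Res ℤ (Gq q) P1 P0 M) (p : ℕ) [Fact p.Prime] (hpS : pPrime p ∈ S)
    (hpM : ∀ m : M, p • m = 0) :
    ∀ U ∈ goodSet (levelLocS q S).sets R.ρ0, ∃ V ∈ goodSet (levelLocS q S).sets R.ρ0, V ≤ U ∧
      ∀ a', FixedBy (R.datum (unitsLocS S q).ρ).ρA V a' →
        nrm (R.datum (unitsLocS S q).ρ).ρA V a' = 0 :=
  norm_of_div R (unitsLocS S q).ρ (isLevelBasis_levelLocS S q)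
    (fun m => (Nat.cast_smul_eq_nsmul ℤ p m).trans (hpM m))
    (Fermat.Agent.TW.LOC.BrickA4.div_levelLocS q p S hpS)

/-- **The count for the local-at-`S` datum**: `#ℍ²(K(P; ((ℚ_S)_q)ˣ)) = #H⁰(Γ_q, M)` for a
resolved module `M` killed by `p ∈ S` (`P₀` finitely generated free). -/
theorem card_ℍ2_localS (P : Resolved ℤ (levelLocS q S).sets P1 P0 M) [Module.Free ℤ P0]
    [Module.Finite ℤ P0] [Module.Finite ℤ P1] (p : ℕ) [Fact p.Prime] (hpS : pPrime p ∈ S)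
    (hpM : ∀ m : M, p • m = 0) [Finite P.ρM.invariants] :
    Finite ((P.K (isLevelBasis_levelLocS S q) (unitsLocS S q).ρ (isDiscrete_unitsLocS' S q)).ℍ2
        (isLevelBasis_levelLocS S q)) ∧
      Nat.card ((P.K (isLevelBasis_levelLocS S q) (unitsLocS S q).ρ
        (isDiscrete_unitsLocS' S q)).ℍ2 (isLevelBasis_levelLocS S q)) =
        Nat.card P.ρM.invariants := by
  have := free_P1 P
  obtain ⟨τ, hτ⟩ := InvFund18.exists_inv_of_isFundClass (unitsLocS S q).ρ (p := p)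
    (isLevelBasis_levelLocS S q) (isDiscrete_unitsLocS' S q) (fundFixed_unitsLocS S q p)
  exact Fermat.Agent.TW.GLOB.ExtPair20_2.card_ℍ2_eq
    (evalPairing P (isLevelBasis_levelLocS S q) (unitsLocS S q).ρ (isDiscrete_unitsLocS' S q))
    (isLevelBasis_levelLocS S q) (isDiscrete_unitsLocS' S q)
    (hyp20_localS S q (Fermat.Agent.PT.GLUE.LocalHypR11.toRes P) P.disc0 p hpM)
    (norm_localS S q (Fermat.Agent.PT.GLUE.LocalHypR11.toRes P) p hpS hpM) hpM τ hτ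

end LocalS

section Main

variable (S : Finset Nat.Primes) (q : ℕ) [Fact q.Prime]
variable {P1 P0 M : Type} [AddCommGroup P1] [Module ℤ P1] [AddCommGroup P0] [Module ℤ P0]
  [AddCommGroup M] [Module ℤ M] [Module.Finite ℤ P0] [Module.Finite ℤ P1] [Module.Free ℤ P0]
variable (h𝒰 : HyperLevel25.IsLevelBasis (levelS S).sets)
  (h𝒰q : HyperLevel25.IsLevelBasis (levelLoc q).sets)
  (hr : HyperRes25.IsLevelHom (localGaloisToGlobal q) (levelLoc q).sets (levelS S).sets)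
  (hX : HyperLevel25.IsDiscrete (levelS S).sets (ISq S q).ρ)
  (hW : HyperLevel25.IsDiscrete (levelLoc q).sets (unitsLoc q).ρ)

/-- `#ℍ²(Γ; K(P; I_{S,q})) = #H⁰(Γ_q, M)`. -/
theorem card_ℍ2_ISq (P : Resolved4.Resolved ℤ (levelS S).sets P1 P0 M) (p : ℕ) [Fact p.Prime]
    (hpS : pPrime p ∈ S) (hpM : ∀ m : M, p • m = 0) [Finite M] :
    Finite ((P.K h𝒰 (ISq S q).ρ hX).ℍ2 h𝒰) ∧
      Nat.card ((P.K h𝒰 (ISq S q).ρ hX).ℍ2 h𝒰) =
        Nat.card (PairingRes1.comapResolved (localGaloisToGlobal q)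
          (LocI13.isLevelHom_levelLocS S q) P).ρM.invariants := by
  have hfin : Finite (PairingRes1.comapResolved (localGaloisToGlobal q)
      (LocI13.isLevelHom_levelLocS S q) P).ρM.invariants :=
    Finite.of_injective (fun x => (x.1 : M)) Subtype.val_injective
  have h1 := card_ℍ2_localS S q (PairingRes1.comapResolved (localGaloisToGlobal q)
    (LocI13.isLevelHom_levelLocS S q) P) p hpS hpM
  have hsh := LocHyperFinal13.shPHom_ppℍ2_bijective (localGaloisToGlobal q) (levelS S)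
    (isInvIncl_inclS S q) (Nloc_le_comap S q) P h𝒰 (isLevelBasis_levelLocS S q)
    (LocI13.isLevelHom_levelLocS S q) hX (isDiscrete_unitsLocS S q)
    (LocI13.induced_levelLocS S q)
  have := h1.1
  exact ⟨Finite.of_injective _ hsh.1, (Nat.card_congr (Equiv.ofBijective _ hsh)).trans h1.2⟩

/-- **(T-2)** `Λ²_q : ℍ²(Γ; K(P; I_{S,q})) → ℍ²(Γ_q; K(P|_{Γ_q}; ℚ̄_qˣ))` is bijective
(`M` finite killed by `p ∈ S`). -/
theorem S2_bijective (P : Resolved4.Resolved ℤ (levelS S).sets P1 P0 M) (p : ℕ) [Fact p.Prime]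
    (hpS : pPrime p ∈ S) (hpM : ∀ m : M, p • m = 0) [Finite M] :
    Bijective ((PairingRes1.KPHom hr h𝒰 h𝒰q hX hW P (LocPlain13.evq S q)
      (LocPlain13.evq_ρ S q)).ppℍ2 hr h𝒰 h𝒰q) := by
  have hinj := LocHyperFinal13.S2h S q h𝒰 h𝒰q hr hX hW P
  have hfin : Finite (PairingRes1.comapResolved (localGaloisToGlobal q) hr P).ρM.invariants :=
    Finite.of_injective (fun x => (x.1 : M)) Subtype.val_injective
  have h1 := card_ℍ2_ISq S q h𝒰 hX P p hpS hpM
  have h2 := Fermat.Agent.TW.LOC.LocalDuality20_2.card_ℍ2_local q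
    (PairingRes1.comapResolved (localGaloisToGlobal q) hr P) p hpM
  have := h1.1
  have := h2.1
  refine hinj.bijective_of_nat_card_le ?_
  rw [h1.2]
  exact h2.2.le

/-- **(T-2s)** `Λ²_q` is surjective. -/
theorem S2h_surjective (P : Resolved4.Resolved ℤ (levelS S).sets P1 P0 M) (p : ℕ) [Fact p.Prime]
    (hpS : pPrime p ∈ S) (hpM : ∀ m : M, p • m = 0) [Finite M] :
    Surjective ((PairingRes1.KPHom hr h𝒰 h𝒰q hX hW P (LocPlain13.evq S q)
      (LocPlain13.evq_ρ S q)).ppℍ2 hr h𝒰 h𝒰q) :=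
  (S2_bijective S q h𝒰 h𝒰q hr hX hW P p hpS hpM).2

end Main

/-! ## (T-1): `α²` is injective -/

section Global

variable (S : Finset Nat.Primes)

variable {P1 P0 M : Type} [AddCommGroup P1] [Module ℤ P1] [AddCommGroup P0] [Module ℤ P0]
  [AddCommGroup M] [Module ℤ M]

variable (h𝒰 : IsLevelBasis (levelS S).sets) (hC : IsDiscrete (levelS S).sets (CS S).ρ)

include h𝒰 hC in
/-- **`Hyp20` for the global datum `K(P; C_S)`, raw form.** -/
theorem hyp20_global (R : Res ℤ Γ P1 P0 M) [Module.Free ℤ P0] [Module.Finite ℤ P0]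
    [Module.Free ℤ P1] [Module.Finite ℤ P1] (h0 : IsDiscrete (levelS S).sets R.ρ0)
    (p : ℕ) [hp : Fact p.Prime] (hp2 : p ≠ 2) (hpS : pPrime p ∈ S)
    (hpM : ∀ m : M, p • m = 0) :
    Hyp20 (R.datum (CS S).ρ) (levelS S).sets (goodSet (levelS S).sets R.ρ0) p :=
  hyp20_of_fixed R (CS S).ρ h𝒰
    (fun m => (Nat.cast_smul_eq_nsmul ℤ p m).trans (hpM m))
    hC h0
    (tn11lFixed_of_fund _ (Fermat.Agent.PT.GLUE.FundLevelFinal2.fundFixed_CS p hp2 hpS))
    (tn11rFixed_of_fund _ (Fermat.Agent.PT.GLUE.FundLevelFinal2.fundFixed_CS p hp2 hpS))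
    (h1Fixed_of_fund _ (Fermat.Agent.PT.GLUE.FundLevelFinal2.fundFixed_CS p hp2 hpS))

set_option synthInstance.maxHeartbeats 400000 in
/-- **(T-1)** `α²` is injective: the left kernel of the `(2,0)` pairing for `(Γ, levelS S, C_S)` is
trivial. -/
theorem alpha2_injective (P : Resolved ℤ (levelS S).sets P1 P0 M) [Module.Free ℤ P0]
    [Module.Finite ℤ P0] [Module.Finite ℤ P1] (p : ℕ) [hp : Fact p.Prime] (hp2 : p ≠ 2)
    (hpS : pPrime p ∈ S) (hpM : ∀ m : M, p • m = 0)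
    (ξ : (P.K h𝒰 (CS S).ρ hC).ℍ2 h𝒰)
    (h : ∀ m, pair20 (evalPairing P h𝒰 (CS S).ρ hC) h𝒰 hC ξ m = 0) : ξ = 0 := by
  have := free_P1 P
  exact pair20_left_kernel (evalPairing P h𝒰 (CS S).ρ hC) h𝒰 hC
    (hyp20_global S h𝒰 hC (Fermat.Agent.PT.GLUE.LocalHypR11.toRes P) P.disc0 p hp2 hpS hpM) ξ h

/-- **The count**: `ℍ²(K(P; C_S))` is finite and `#ℍ²(K(P; C_S)) ≤ #H⁰(Γ, M)`. -/
theorem card_ℍ2_CS_le (P : Resolved ℤ (levelS S).sets P1 P0 M) [Module.Free ℤ P0]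
    [Module.Finite ℤ P0] [Module.Finite ℤ P1] (p : ℕ) [hp : Fact p.Prime] (hp2 : p ≠ 2)
    (hpS : pPrime p ∈ S) (hpM : ∀ m : M, p • m = 0) [Finite P.ρM.invariants] :
    Finite ((P.K h𝒰 (CS S).ρ hC).ℍ2 h𝒰) ∧
      Nat.card ((P.K h𝒰 (CS S).ρ hC).ℍ2 h𝒰) ≤ Nat.card P.ρM.invariants := by
  have := free_P1 P
  obtain ⟨τ, hτ⟩ := InvFund18.exists_inv_of_isFundClass (CS S).ρ (p := p) h𝒰 hC
    (Fermat.Agent.PT.GLUE.FundLevelFinal2.fundFixed_CS p hp2 hpS)
  exact card_ℍ2_le (evalPairing P h𝒰 (CS S).ρ hC) h𝒰 hC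
    (hyp20_global S h𝒰 hC (Fermat.Agent.PT.GLUE.LocalHypR11.toRes P) P.disc0 p hp2 hpS hpM)
    hpM τ hτ

/-- **(T-1c)** the count in `Res`-form: `#ℍ²(K(R; C_S)) ≤ #H⁰(Γ, M)`. -/
theorem card_ℍ2_CS (R : Res ℤ Γ P1 P0 M) [Module.Free ℤ P0] [Module.Finite ℤ P0]
    [Module.Finite ℤ P1] (h0 : IsDiscrete (levelS S).sets R.ρ0) (p : ℕ) [hp : Fact p.Prime]
    (hp2 : p ≠ 2) (hpS : pPrime p ∈ S) (hpM : ∀ m : M, p • m = 0) [Finite M] :
    Finite ((Objects20.KX R h0 (LevelEquiv29.basis (levelS S)) (CS S).ρ (isDiscrete_CS S)).ℍ2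
        (LevelEquiv29.basis (levelS S))) ∧
      Nat.card ((Objects20.KX R h0 (LevelEquiv29.basis (levelS S)) (CS S).ρ
        (isDiscrete_CS S)).ℍ2 (LevelEquiv29.basis (levelS S))) ≤ Nat.card ↥R.ρM.invariants := by
  have hfin : Finite (Setup20.toResolved R h0).ρM.invariants :=
    Finite.of_injective (fun x => (x.1 : M)) Subtype.val_injective
  exact card_ℍ2_CS_le S (LevelEquiv29.basis (levelS S)) (isDiscrete_CS S)
    (Setup20.toResolved R h0) p hp2 hpS hpM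

end Global

end Fermat.Agent.TW.GLOB.TailInst4
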