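/-
PROGRAMME T, chapter GLOB (helper1).  `TailFinal1` = (A3): the TAIL INEQUALITY of the Poitou–Tate
sequence, unconditional, in the vocabulary of `TW/DEF/Basic1` + `TW/GLOB/GWNumeric1`.

`p` an odd prime, `S ∋ p`, `X : Rep (ZMod p) GQ` finite and discrete for `levelS S`,
`X' = X.dualTwist (cycloChar p)`.

* **`tail_le`**  : `#Ш²_S(X) * ∏_{q ∈ S} #H²(ℚ_q, X) ≤ #H²(G_S, X) * #H⁰(G_S, X')`;
* **`tail`**     : `#Ш²_S(X') * ∏_{q ∈ S} #H²(ℚ_q, X') ≤ #H²(G_S, X') * #H⁰(G_S, X)`
  (`GWNumeric1.GWInputs.tail` for `M = X`, `M' = X'`).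

Proof: `Tail1.tail_le` (hyper-cohomology of `0 → E_S → I_S → C_S → 0`) with the inputs
`TailInst4.S2_bijective` (`Λ²_q` bijective) and `TailInst4.card_ℍ2_CS` (`#ℍ²(K(P; C_S)) ≤ #A^Γ`)
of helper4, and the double dual `X ≅ X''`.
-/
import Mathlib
import Fermat.Agent.TW.GLOB.Tail1
import Fermat.Agent.TW.GLOB.TailInst4
import Fermat.Agent.TW.GLOB.FiniteHS6

set_option autoImplicit false
set_option linter.unusedSectionVars false
set_option linter.unusedVariables false

open Function ExtCitation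
open Fermat.Agent.PT Fermat.Agent.PT.PRO Fermat.Agent.PT.GLUE Fermat.Agent.PT.GLUE.Objects21
open Fermat.Agent.PT.PRO.LevelEquiv29 Fermat.Agent.PT.PRO.ProdDict10 Fermat.Agent.PT.GLUE.LocS2_29
open Fermat.Agent.PT.PRO.Setup20
open Fermat.Agent.TW.DEF.Basic1 Fermat.Agent.TW.GLOB.GWNumeric1

namespace Fermat.Agent.TW.GLOB.TailFinal1

variable (p : ℕ) [Fact p.Prime] (S : Finset Nat.Primes)

/-- **(A3), first form**: `#Ш²_S(X) * ∏_q #H²(ℚ_q, X) ≤ #H²(G_S, X) * #H⁰(G_S, X^∨(1))`. -/
theorem tail_le (hp2 : p ≠ 2) (hpS : pPrime p ∈ S) (X : Rep.{0} (ZMod p) GQ) [Finite X]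
    (hX : LevelCoh28.IsDiscrete (levelS S).sets X) :
    Nat.card ↥(sha2 S X) * ∏ q : ↥S, Nat.card (Hq2 X ((q : Nat.Primes) : ℕ)) ≤
      Nat.card (HS2 S X) * Nat.card ↥(X.dualTwist (cycloChar p)).ρ.invariants := by
  have hfd : FiniteDimensional (ZMod p) X := Module.Finite.of_finite
  have hfd' : FiniteDimensional (ZMod p) (X.dualTwist (cycloChar p)) :=
    inferInstanceAs (FiniteDimensional (ZMod p) (Module.Dual (ZMod p) X))
  have hfin' : Finite (X.dualTwist (cycloChar p)) := Module.finite_of_finite (ZMod p)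
  have hpA : ∀ m : (X.dualTwist (cycloChar p)), p • m = 0 := fun m => by
    rw [← Nat.cast_smul_eq_nsmul (ZMod p), ZMod.natCast_self, zero_smul]
  exact Tail1.tail_le p S X hpS hX (FiniteHS6.isDiscrete_dualTwist S hpS X hX)
    (fun h0 q => TailInst4.S2_bijective S ((q : Nat.Primes) : ℕ) (basis (levelS S))
      (basis (levelLoc ((q : Nat.Primes) : ℕ))) (isLevelHom_loc S ((q : Nat.Primes) : ℕ))
      (isDiscrete_ISq' S q) (isDiscrete_unitsLoc ((q : Nat.Primes) : ℕ))
      (toResolved (Tail1.resA p X) h0) p hpS hpA)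
    (fun h0 => TailInst4.card_ℍ2_CS S (Tail1.resA p X) h0 p hp2 hpS hpA)

/-- The invariants of `X` and of its double dual `X''` have the same cardinality. -/
theorem card_invariants_ddual (X : Rep.{0} (ZMod p) GQ) [Finite X] :
    Nat.card ↥((X.dualTwist (cycloChar p)).dualTwist (cycloChar p)).ρ.invariants =
      Nat.card ↥X.ρ.invariants := by
  have hfd : FiniteDimensional (ZMod p) X := Module.Finite.of_finite
  refine (Nat.card_congr (Equiv.subtypeEquiv
    (BR.DualTwist7.ddualEquiv (cycloChar p) X).toEquiv (fun a => ?_))).symm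
  constructor
  · intro ha
    rw [Representation.mem_invariants]
    intro g
    exact (BR.DualTwist7.ddualEquiv_ρ (cycloChar p) X g a).symm.trans
      (congrArg _ ((Representation.mem_invariants _ _).1 ha g))
  · intro ha
    rw [Representation.mem_invariants]
    intro g
    apply (BR.DualTwist7.ddualEquiv (cycloChar p) X).injective
    exact (BR.DualTwist7.ddualEquiv_ρ (cycloChar p) X g a).trans
      ((Representation.mem_invariants _ _).1 ha g)

/-- **(A3) = `GWInputs.tail`**: `#Ш²_S(X') * ∏_q #H²(ℚ_q, X') ≤ #H²(G_S, X') * #H⁰(G_S, X)`,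
`X' = X^∨(1)`. -/
theorem tail (hp2 : p ≠ 2) (hpS : pPrime p ∈ S) (X : Rep.{0} (ZMod p) GQ) [Finite X]
    (hX : LevelCoh28.IsDiscrete (levelS S).sets X) :
    Nat.card ↥(sha2 S (X.dualTwist (cycloChar p))) *
        ∏ q : ↥S, Nat.card (Hq2 (X.dualTwist (cycloChar p)) ((q : Nat.Primes) : ℕ)) ≤
      Nat.card (HS2 S (X.dualTwist (cycloChar p))) * Nat.card ↥X.ρ.invariants := by
  have hfd : FiniteDimensional (ZMod p) X := Module.Finite.of_finite
  have hfd' : FiniteDimensional (ZMod p) (X.dualTwist (cycloChar p)) :=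
    inferInstanceAs (FiniteDimensional (ZMod p) (Module.Dual (ZMod p) X))
  have hfin' : Finite (X.dualTwist (cycloChar p)) := Module.finite_of_finite (ZMod p)
  have h := tail_le p S hp2 hpS (X.dualTwist (cycloChar p))
    (FiniteHS6.isDiscrete_dualTwist S hpS X hX)
  rw [card_invariants_ddual p X] at h
  exact h

end Fermat.Agent.TW.GLOB.TailFinal1
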