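/-
Programme T (S56), chapter GLOB (helper6): wrappers around `EulerInv6` for the T7 tate assembly.

`{p} [Fact p.Prime] (S : Finset Nat.Primes)`:
* `finH2Hyp S hp2 hpS : EulerInv6.FinH2Hyp S`   (`H²(G_S, X)` finite for every finite discrete `X`:
  `ShaDisc8` (S55) + `FiniteHS6`);
* `finite_HS2 S hp2 hpS X hX : Finite (HS2 S X)`;
* `exists_lev_triv S hpS X hX : ∃ K : Lev S, (∀ u ∈ K.U, X.ρ u = 1) ∧ ∀ u ∈ K.U, cycloChar p u = 1`;
* `CycHyp S : Prop` — `χ` vanishes on the inflations of the representations coinduced from cyclic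
  `p'`-subgroups of `GQ ⧸ K.U`, for the levels `K : Lev S` containing `μ_p`:
  `∀ (K : Lev S), (∀ u ∈ K.U, cycloChar p u = 1) → ∀ C : Subgroup (GQ ⧸ K.U), IsCyclic C →
     (Nat.card C).Coprime p → ∀ (N : Type) [AddCommGroup N] [Module (ZMod p) N]
     [Module.Finite (ZMod p) N] (σ : Representation (ZMod p) C N),
     chi S (infl (QuotientGroup.mk' K.U) (Representation.coind C.subtype σ)) = 0`;
* `chi_eq_zero_of_cycHyp S hp2 hpS hadd hcyc X hX : chi S X = 0`;
* **`tate_of_cycHyp S hp2 hpS (hadd : AddHyp S) (hcyc : CycHyp S) X hX :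
    #X^G * #HS2 S X * #X = #HS1 S X * Nat.card {x : X // X.ρ complexConjugation x = x}`**
  (the `tate` field of `GWInputs` / `htate` of `GlobPack8`, with equality).
-/
import Mathlib
import Fermat.Agent.TW.GLOB.EulerInv6
import Fermat.Agent.TW.GLOB.ShaDisc8
import Fermat.Agent.PT.GLUE.Levels21

set_option autoImplicit false
set_option linter.unusedSectionVars false
set_option linter.style.haveILetI false

open CategoryTheory groupCohomology ExtCitation Module
open Fermat.Agent.PT.PRO.LevelCoh28 Fermat.Agent.PT.PRO.LevelCohRes28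
open Fermat.Agent.PT.GLUE.Objects21 Fermat.Agent.PT.GLUE.Levels21
open Fermat.Agent.TW.DEF.Basic1 Fermat.Agent.TW.GLOB.GWNumeric1
open Fermat.Agent.TW.GLOB.IndDefs9 Fermat.Agent.TW.GLOB.FiniteHS6
open Fermat.Agent.TW.GLOB.EulerInv6

namespace Fermat.Agent.TW.GLOB.EulerLev6

noncomputable section

variable {p : ℕ} [hp : Fact p.Prime] (S : Finset Nat.Primes)

/-- **`H²(G_S, X)` is finite** for every finite discrete `G_S`-module `X` (`p` odd, `p ∈ S`). -/
theorem finite_HS2 (hp2 : p ≠ 2) (hpS : pPrime p ∈ S) (X : Rep.{0} (ZMod p) GQ) [Finite X]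
    (hX : IsDiscrete (levelS S).sets X) : Finite (HS2 S X) := by
  haveI : Finite ↥(sha2 S X) :=
    (Fermat.Agent.TW.GLOB.ShaDisc8.card_sha1_dualTwist_of_isDiscrete hp2 S hpS X hX).2.1
  haveI : ∀ q : ↥S, Finite (Hq2 X ((q : Nat.Primes) : ℕ)) := fun q =>
    haveI : Fact ((q : Nat.Primes) : ℕ).Prime := ⟨(q : Nat.Primes).2⟩
    finite_Hq2 S X hX ((q : Nat.Primes) : ℕ)
  exact finite_HS2_of_sha2 S X

theorem finH2Hyp (hp2 : p ≠ 2) (hpS : pPrime p ∈ S) : FinH2Hyp (p := p) S :=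
  fun X _ hX => finite_HS2 S hp2 hpS X hX

/-- A finite discrete `G_S`-module is trivialised by a level `K : Lev S` containing `μ_p`. -/
theorem exists_lev_triv (hpS : pPrime p ∈ S) (X : Rep.{0} (ZMod p) GQ) [Finite X]
    (hX : IsDiscrete (levelS S).sets X) :
    ∃ K : Lev S, (∀ u ∈ K.U, X.ρ u = 1) ∧ ∀ u ∈ K.U, cycloChar p u = 1 := by
  obtain ⟨F₀, hF₀, hK, h1⟩ := exists_field_triv S hpS X hX
  obtain ⟨K, hKle⟩ := exists_lev_le (S := S) (U := F₀.fixingSubgroup) ⟨F₀, hF₀, rfl⟩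
  refine ⟨K, fun u hu => h1 u (hKle hu), fun u hu => ?_⟩
  exact Fermat.Agent.PT.BR.DualTwist7.cycloChar_eq_one_of_mem_fixingSubgroup_Kz p
    (IntermediateField.fixingSubgroup_antitone hK (hKle hu))

/-- The cyclic step of Tate's formula, as a hypothesis. -/
def CycHyp : Prop :=
  ∀ (K : Lev S), (∀ u ∈ K.U, cycloChar p u = 1) → ∀ C : Subgroup (GQ ⧸ K.U), IsCyclic C →
    (Nat.card C).Coprime p → ∀ (N : Type) [AddCommGroup N] [Module (ZMod p) N]
      [Module.Finite (ZMod p) N] (σ : Representation (ZMod p) C N),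
      chi S (infl (QuotientGroup.mk' K.U) (Representation.coind C.subtype σ)) = 0

/-- `χ(X) = 0` for every finite discrete `X`, from (ADD) and the cyclic step. -/
theorem chi_eq_zero_of_cycHyp (hp2 : p ≠ 2) (hpS : pPrime p ∈ S) (hadd : AddHyp (p := p) S)
    (hcyc : CycHyp (p := p) S) (X : Rep.{0} (ZMod p) GQ) [Finite X]
    (hX : IsDiscrete (levelS S).sets X) : chi S X = 0 := by
  obtain ⟨K, hKX, hKζ⟩ := exists_lev_triv S hpS X hX
  haveI := (levelS S).isBasis.finiteIndex K.U K.U_mem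
  haveI : Finite (GQ ⧸ K.U) := Subgroup.finite_quotient_of_finiteIndex
  refine chi_eq_zero_of_epsInv S K.U K.U_mem hp2 hpS hadd (finH2Hyp S hp2 hpS) ?_ X hKX
  exact epsInv_eq_zero_of_cyclic S K.U K.U_mem hp2 hpS hadd (finH2Hyp S hp2 hpS)
    (fun C hC hCp N _ _ _ σ => hcyc K hKζ C hC hCp N σ)

/-- **Tate's global Euler characteristic formula**, from (ADD) and the cyclic step. -/
theorem tate_of_cycHyp (hp2 : p ≠ 2) (hpS : pPrime p ∈ S) (hadd : AddHyp (p := p) S)
    (hcyc : CycHyp (p := p) S) (X : Rep.{0} (ZMod p) GQ) [Finite X]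
    (hX : IsDiscrete (levelS S).sets X) :
    Nat.card ↥X.ρ.invariants * Nat.card (HS2 S X) * Nat.card X =
      Nat.card (HS1 S X) * Nat.card {x : X // X.ρ complexConjugation x = x} :=
  tate_of_chi_eq_zero S hpS (finH2Hyp S hp2 hpS) X hX
    (chi_eq_zero_of_cycHyp S hp2 hpS hadd hcyc X hX)

end

end Fermat.Agent.TW.GLOB.EulerLev6
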