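/-
Programme T (S56), chapter GLOB (helper6), brick (K3) of the T7 chain: FINITENESS OF THE
COHOMOLOGY OF A LEVEL `U = K.U` (`K : Lev S`) with coefficients in a finite discrete `G_S`-module
(e.g. `μ_p`), from Shapiro's lemma and the finiteness of `H¹(G_S, -)`, `H²(G_S, -)`.

Generic (`𝓑 : LevelBasis G`, `U ≤ G` normal of finite index, `A : Rep.{0} k G` finite):
* `finite_coindRes 𝓑 U A : Finite (coindRes 𝓑 U A)`.

Galois (`{p} [Fact p.Prime] (S) (K : Lev S) (A : Rep.{0} (ZMod p) GQ) [Finite A]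
(hA : IsDiscrete (levelS S).sets A)`, `pPrime p ∈ S`):
* `finite_H1_sub S hpS K A hA : Finite (H1 (subBasis (levelS S) K.U) (resRep K.U A))`;
* `finite_H2_sub S hp2 hpS K A hA : Finite (H2 (subBasis (levelS S) K.U) (resRep K.U A))`;
* `moduleFinite_H1_sub`, `moduleFinite_H2_sub` (`Module.Finite (ZMod p)` forms),
  `finite_invariants_sub`, `moduleFinite_invariants_sub`;
* `finite_H1_muP S hpS K`, `finite_H2_muP S hp2 hpS K` (`A = muP p`).
-/
import Mathlib
import Fermat.Agent.TW.GLOB.EulerLev6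
import Fermat.Agent.TW.GLOB.ShapiroConj5
import Fermat.Agent.TW.DEF.Mu1

set_option autoImplicit false
set_option linter.unusedSectionVars false
set_option linter.style.haveILetI false

open ExtCitation
open Fermat.Agent.PT.PRO.LevelCoh28 Fermat.Agent.PT.PRO.LevelCohRes28
  Fermat.Agent.PT.PRO.SmoothCoind28
open Fermat.Agent.PT.GLUE.Objects21 Fermat.Agent.PT.GLUE.Levels21
open Fermat.Agent.TW.DEF.Basic1 Fermat.Agent.TW.DEF.Mu1
open Fermat.Agent.TW.GLOB.SubLevel5 Fermat.Agent.TW.GLOB.ShapiroConj5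
open Fermat.Agent.TW.GLOB.FiniteHS6 Fermat.Agent.TW.GLOB.EulerLev6

namespace Fermat.Agent.TW.GLOB.FiniteSub6

section Generic

variable {k G : Type} [CommRing k] [Group G] (𝓑 : LevelBasis G) (U : Subgroup G) [hU : U.Normal]
  (A : Rep.{0} k G)

/-- `Coind_U^G A` is finite when `U` has finite index and `A` is finite. -/
theorem finite_coindRes [Finite (G ⧸ U)] [Finite A] : Finite (coindRes 𝓑 U A) := by
  refine Finite.of_injective
    (fun (f : coindRes 𝓑 U A) (q : G ⧸ U) => (f.1 (Quotient.out q) : A)) ?_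
  intro f g hfg
  refine Subtype.ext (funext fun x => ?_)
  -- `x = u * out (mk x)` with `u ∈ U`
  have h1 : (Quotient.out (QuotientGroup.mk x : G ⧸ U))⁻¹ * x ∈ U := by
    rw [← QuotientGroup.eq]
    exact Quotient.out_eq _
  have h2 : x * (Quotient.out (QuotientGroup.mk x : G ⧸ U))⁻¹ ∈ U := by
    have := hU.conj_mem _ h1 (Quotient.out (QuotientGroup.mk x : G ⧸ U))
    rwa [mul_inv_cancel_left] at this
  have hx : x = (U.subtype ⟨_, h2⟩) * Quotient.out (QuotientGroup.mk x : G ⧸ U) := by
    rw [Subgroup.coe_subtype, inv_mul_cancel_right]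
  have hf := f.2.1 ⟨_, h2⟩ (Quotient.out (QuotientGroup.mk x : G ⧸ U))
  have hg := g.2.1 ⟨_, h2⟩ (Quotient.out (QuotientGroup.mk x : G ⧸ U))
  rw [← hx] at hf hg
  rw [hf, hg]
  exact congrArg _ (congrFun hfg (QuotientGroup.mk x : G ⧸ U))

end Generic

section Galois

variable {p : ℕ} [hp : Fact p.Prime] (S : Finset Nat.Primes) (K : Lev S)
  (A : Rep.{0} (ZMod p) GQ) [Finite A] (hA : IsDiscrete (levelS S).sets A)

theorem finite_quotient_lev : Finite (GQ ⧸ K.U) := by
  haveI := (levelS S).isBasis.finiteIndex K.U K.U_mem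
  exact Subgroup.finite_quotient_of_finiteIndex

include hA in
/-- **`H¹(U; A)` is finite** (`U = K.U`). -/
theorem finite_H1_sub (hpS : pPrime p ∈ S) :
    Finite (H1 (subBasis (levelS S) K.U) (resRep K.U A)) := by
  haveI := finite_quotient_lev S K
  haveI : Finite (coindRes (levelS S) K.U A) := finite_coindRes (levelS S) K.U A
  haveI : Finite (H1 (levelS S) (coindRes (levelS S) K.U A)) :=
    finite_HS1 S hpS (coindRes (levelS S) K.U A) (isDiscrete_scoind _ _ _)
  exact Finite.of_equiv _ (shapiro1Equiv (levelS S) K.U hA).toEquiv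

include hA in
/-- **`H²(U; A)` is finite** (`U = K.U`, `p` odd). -/
theorem finite_H2_sub (hp2 : p ≠ 2) (hpS : pPrime p ∈ S) :
    Finite (H2 (subBasis (levelS S) K.U) (resRep K.U A)) := by
  haveI := finite_quotient_lev S K
  haveI : Finite (coindRes (levelS S) K.U A) := finite_coindRes (levelS S) K.U A
  haveI : Finite (H2 (levelS S) (coindRes (levelS S) K.U A)) :=
    finite_HS2 S hp2 hpS (coindRes (levelS S) K.U A) (isDiscrete_scoind _ _ _)
  exact Finite.of_equiv _ (shapiro2Equiv (levelS S) K.U hA).toEquiv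

include hA in
theorem moduleFinite_H1_sub (hpS : pPrime p ∈ S) :
    Module.Finite (ZMod p) (H1 (subBasis (levelS S) K.U) (resRep K.U A)) := by
  haveI := finite_H1_sub S K A hA hpS
  exact Module.Finite.of_finite

include hA in
theorem moduleFinite_H2_sub (hp2 : p ≠ 2) (hpS : pPrime p ∈ S) :
    Module.Finite (ZMod p) (H2 (subBasis (levelS S) K.U) (resRep K.U A)) := by
  haveI := finite_H2_sub S K A hA hp2 hpS
  exact Module.Finite.of_finite

theorem finite_invariants_sub : Finite ↥(resRep K.U A).ρ.invariants :=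
  Finite.of_injective (fun x : ↥(resRep K.U A).ρ.invariants => (x : A)) Subtype.val_injective

theorem moduleFinite_invariants_sub : Module.Finite (ZMod p) ↥(resRep K.U A).ρ.invariants := by
  haveI := finite_invariants_sub S K A
  exact Module.Finite.of_finite

instance finite_muP : Finite (muP p) := (inferInstance : Finite (ZMod p))

/-- `H¹(U; μ_p)` is finite. -/
theorem finite_H1_muP (hpS : pPrime p ∈ S) :
    Finite (H1 (subBasis (levelS S) K.U) (resRep K.U (muP p))) :=
  finite_H1_sub S K (muP p) (isDiscrete_muP p hpS) hpS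

/-- `H²(U; μ_p)` is finite. -/
theorem finite_H2_muP (hp2 : p ≠ 2) (hpS : pPrime p ∈ S) :
    Finite (H2 (subBasis (levelS S) K.U) (resRep K.U (muP p))) :=
  finite_H2_sub S K (muP p) (isDiscrete_muP p hpS) hp2 hpS

end Galois

end Fermat.Agent.TW.GLOB.FiniteSub6
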