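/-
Programme T (S56), chapter GLOB, brick (TA-ARCH) of the T7 tate assembly (helper6, statement by
helper9): THE ARCHIMEDEAN TERM.

`K : Lev S` with `μ_p ⊆ K.F` (`hζ : ∀ u ∈ K.U, cycloChar p u = 1`),
`Y := coindRes (levelS S) K.U (muP p) = {f : GQ → ZMod p | f (u x) = ω(u) f(x), f level}`.
The `(-1)`-eigenspace of complex conjugation on `Y` is, `GQ ⧸ K.U`-equivariantly (translation
action `translRep` on the left, permutation action on the right), the permutation module on
`ArchQ K = (GQ ⧸ K.U) ⧸ ⟨c̄⟩`: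

theorem exists_archModel (p) [Fact p.Prime] {S} (K : Lev S) (hζ : ∀ u ∈ K.U, cycloChar p u = 1) :
  ∃ j : (eigFun (complexConjugation : GQ) (-1 : ZMod p) : LinFun (ZMod p) GQ).obj
      (coindRes (levelS S) K.U (muP p)) ≃ₗ[ZMod p] (ArchQ K → ZMod p),
    ∀ (q : GQ ⧸ K.U) x,
      j ((eigFun (complexConjugation : GQ) (-1 : ZMod p)).map (translRep (levelS S) K.U (muP p) q)
        (translRep_equivariant (levelS S) K.U (muP p) q) x) = permRep (ArchQ K) (ZMod p) q (j x)

`j f (x̄⟨c̄⟩) = ω(x)⁻¹ f(x)`.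
-/
import Mathlib
import Fermat.Agent.TW.GLOB.TateCore9
import Fermat.Agent.TW.GLOB.ArchPlaces9
import Fermat.Agent.TW.ASM.ArchCount8
import Fermat.Agent.TW.DEF.Mu1

set_option autoImplicit false
set_option linter.unusedSectionVars false
set_option linter.style.haveILetI false

open ExtCitation
open Fermat.Agent.PT.PRO.LevelCoh28 Fermat.Agent.PT.PRO.LevelCohRes28
  Fermat.Agent.PT.PRO.SmoothCoind28
open Fermat.Agent.PT.GLUE.Objects21 Fermat.Agent.PT.GLUE.Levels21
open Fermat.Agent.TW.DEF.Basic1 Fermat.Agent.TW.DEF.Mu1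
open Fermat.Agent.TW.GLOB.SubLevel5 Fermat.Agent.TW.GLOB.ShapiroConj5
  Fermat.Agent.TW.GLOB.LinFun9 Fermat.Agent.TW.GLOB.TateCore9
  Fermat.Agent.TW.GLOB.ArchPlaces9 Fermat.Agent.TW.GLOB.LatticeRedFinal9

namespace Fermat.Agent.TW.GLOB.TateArch6

noncomputable section

variable (p : ℕ) [hp : Fact p.Prime]

/-- The mod `p` cyclotomic character with values in `ZMod p`. -/
def om (x : GQ) : ZMod p := ((cycloChar p x : (ZMod p)ˣ) : ZMod p)

theorem om_mul (x y : GQ) : om p (x * y) = om p x * om p y := by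
  unfold om
  rw [map_mul, Units.val_mul]

theorem om_ne_zero (x : GQ) : om p x ≠ 0 := Units.ne_zero _

theorem om_inv (x : GQ) : om p x⁻¹ = (om p x)⁻¹ := by
  unfold om
  rw [map_inv, Units.val_inv_eq_inv_val]

theorem om_conj : om p complexConjugation = -1 := by
  unfold om
  rw [Fermat.Agent.TW.ASM.ArchCount8.cycloChar_complexConjugation, Units.val_neg, Units.val_one]

variable {S : Finset Nat.Primes} (K : Lev S)

theorem om_of_mem (hζ : ∀ u ∈ K.U, cycloChar p u = 1) {u : GQ} (hu : u ∈ K.U) : om p u = 1 := by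
  unfold om
  rw [hζ u hu, Units.val_one]

/-- The underlying function of an element of `Y`. -/
def val (f : coindRes (levelS S) K.U (muP p)) (x : GQ) : ZMod p := f.1 x

theorem val_mul_left (f : coindRes (levelS S) K.U (muP p)) {u : GQ} (hu : u ∈ K.U) (x : GQ) :
    val p K f (u * x) = om p u * val p K f x :=
  f.2.1 ⟨u, hu⟩ x

variable (hζ : ∀ u ∈ K.U, cycloChar p u = 1)

/-- The `(-1)`-eigenspace of complex conjugation on `Y`. -/
abbrev Eig : Type :=
  (eigFun (complexConjugation : GQ) (-1 : ZMod p) : LinFun (ZMod p) GQ).obj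
    (coindRes (levelS S) K.U (muP p))

/-- The eigenspace as a submodule. -/
abbrev EigSub : Submodule (ZMod p) (coindRes (levelS S) K.U (muP p)) :=
  LinearMap.ker ((coindRes (levelS S) K.U (muP p)).ρ (complexConjugation : GQ) -
    (-1 : ZMod p) • LinearMap.id)

/-- The identity `Eig = ↥EigSub`. -/
def toSub : Eig p K ≃ₗ[ZMod p] ↥(EigSub p K) := LinearEquiv.refl _ _

/-- The underlying element of `Y`. -/
def toY (f : Eig p K) : coindRes (levelS S) K.U (muP p) := (toSub p K f).1

/-- The underlying function of an element of the eigenspace. -/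
def valE (f : Eig p K) (x : GQ) : ZMod p := val p K (toY p K f) x

theorem valE_add (f g : Eig p K) (x : GQ) : valE p K (f + g) x = valE p K f x + valE p K g x := rfl

theorem valE_smul (a : ZMod p) (f : Eig p K) (x : GQ) : valE p K (a • f) x = a * valE p K f x := rfl

theorem valE_ext {f g : Eig p K} (h : ∀ x, valE p K f x = valE p K g x) : f = g := by
  apply (toSub p K).injective
  exact Subtype.ext (Subtype.ext (funext h))

theorem valE_mul_left (f : Eig p K) {u : GQ} (hu : u ∈ K.U) (x : GQ) :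
    valE p K f (u * x) = om p u * valE p K f x := val_mul_left p K _ hu x

include hζ in
theorem valE_mul_left' (f : Eig p K) {u : GQ} (hu : u ∈ K.U) (x : GQ) :
    valE p K f (u * x) = valE p K f x := by
  rw [valE_mul_left p K f hu, om_of_mem p K hζ hu, one_mul]

include hζ in
theorem valE_mul_right (f : Eig p K) {u : GQ} (hu : u ∈ K.U) (x : GQ) :
    valE p K f (x * u) = valE p K f x := by
  have h1 : x * u = (x * u * x⁻¹) * x := by group
  have h2 : x * u * x⁻¹ ∈ K.U := (inferInstance : K.U.Normal).conj_mem u hu x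
  rw [h1, valE_mul_left' p K hζ f h2]

theorem valE_mul_conj (f : Eig p K) (x : GQ) :
    valE p K f (x * complexConjugation) = - valE p K f x := by
  have h := (mem_eigFun_obj_iff (complexConjugation : GQ) (-1 : ZMod p)
    (coindRes (levelS S) K.U (muP p)) (toY p K f)).1 (toSub p K f).2
  have h2 := congrFun (congrArg Subtype.val h) x
  rw [scoind_ρ_apply] at h2
  show (toY p K f).1 (x * complexConjugation) = _
  rw [h2]
  show (-1 : ZMod p) * _ = _
  rw [neg_one_mul]
  rfl

/-- `x ↦ ω(x)⁻¹ f(x)`. -/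
def Ff (f : Eig p K) (x : GQ) : ZMod p := (om p x)⁻¹ * valE p K f x

include hζ in
theorem Ff_mul_mem (f : Eig p K) {u : GQ} (hu : u ∈ K.U) (x : GQ) :
    Ff p K f (x * u) = Ff p K f x := by
  unfold Ff
  rw [valE_mul_right p K hζ f hu, om_mul, om_of_mem p K hζ hu, mul_one]

theorem Ff_mul_conj (f : Eig p K) (x : GQ) :
    Ff p K f (x * complexConjugation) = Ff p K f x := by
  unfold Ff
  rw [valE_mul_conj, om_mul, om_conj, mul_neg_one, inv_neg, neg_mul_neg]

/-- The right stabiliser of `Ff f`. -/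
def stab (f : Eig p K) : Subgroup GQ where
  carrier := {g | ∀ x, Ff p K f (x * g) = Ff p K f x}
  one_mem' := fun x => by rw [mul_one]
  mul_mem' := fun {a b} ha hb x => by rw [← mul_assoc, hb, ha]
  inv_mem' := fun {a} ha x => by
    have := ha (x * a⁻¹)
    rw [inv_mul_cancel_right] at this
    exact this.symm

include hζ in
theorem Ff_eq_of_mk_eq (f : Eig p K) {x y : GQ}
    (h : (((x : GQ ⧸ K.U)) : ArchQ K) = (((y : GQ ⧸ K.U)) : ArchQ K)) :
    Ff p K f x = Ff p K f y := by
  have h1 : ((x : GQ ⧸ K.U))⁻¹ * (y : GQ ⧸ K.U) ∈ Subgroup.zpowers (cbar K) :=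
    QuotientGroup.eq.1 h
  obtain ⟨n, hn⟩ := h1
  have hn' : (((complexConjugation : GQ) ^ n : GQ) : GQ ⧸ K.U) = ((x⁻¹ * y : GQ) : GQ ⧸ K.U) := by
    rw [QuotientGroup.mk_zpow, QuotientGroup.mk_mul, QuotientGroup.mk_inv]
    exact hn
  have hu : ((complexConjugation : GQ) ^ n)⁻¹ * (x⁻¹ * y) ∈ K.U := QuotientGroup.eq.1 hn'
  have hc : (complexConjugation : GQ) ∈ stab p K f := fun x => Ff_mul_conj p K f x
  have hmem : (complexConjugation : GQ) ^ n * (((complexConjugation : GQ) ^ n)⁻¹ * (x⁻¹ * y)) ∈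
      stab p K f :=
    (stab p K f).mul_mem ((stab p K f).zpow_mem hc n) (fun x => Ff_mul_mem p K hζ f hu x)
  have hy : y = x * ((complexConjugation : GQ) ^ n * (((complexConjugation : GQ) ^ n)⁻¹ * (x⁻¹ * y))) := by
    group
  rw [hy]
  exact (hmem x).symm

/-- The forward map `f ↦ (x̄⟨c̄⟩ ↦ ω(x)⁻¹ f(x))`. -/
def fwd (f : Eig p K) : ArchQ K → ZMod p := fun y =>
  Ff p K f (Quotient.out (Quotient.out y : GQ ⧸ K.U))

include hζ in
theorem fwd_mk (f : Eig p K) (x : GQ) :
    fwd p K f (((x : GQ ⧸ K.U)) : ArchQ K) = Ff p K f x := by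
  apply Ff_eq_of_mk_eq p K hζ
  have h1 : ((Quotient.out (Quotient.out ((((x : GQ ⧸ K.U)) : ArchQ K)) : GQ ⧸ K.U) : GQ) :
      GQ ⧸ K.U) = Quotient.out ((((x : GQ ⧸ K.U)) : ArchQ K)) := Quotient.out_eq _
  rw [h1]
  exact Quotient.out_eq _

theorem Ff_add (f g : Eig p K) (x : GQ) : Ff p K (f + g) x = Ff p K f x + Ff p K g x := by
  unfold Ff
  rw [valE_add, mul_add]

theorem Ff_smul (a : ZMod p) (f : Eig p K) (x : GQ) : Ff p K (a • f) x = a * Ff p K f x := by
  unfold Ff
  rw [valE_smul, mul_left_comm]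

/-- The inverse map, as a function: `φ ↦ (x ↦ ω(x) φ(x̄⟨c̄⟩))`. -/
def bwdFun (φ : ArchQ K → ZMod p) (x : GQ) : ZMod p :=
  om p x * φ (((x : GQ ⧸ K.U)) : ArchQ K)

theorem mk_mul_mem {u : GQ} (hu : u ∈ K.U) (x : GQ) :
    ((x * u : GQ) : GQ ⧸ K.U) = (x : GQ ⧸ K.U) := by
  symm
  rw [QuotientGroup.eq]
  have : x⁻¹ * (x * u) = u := by group
  rw [← this] at hu
  exact hu

theorem mk_mem_mul {u : GQ} (hu : u ∈ K.U) (x : GQ) :
    ((u * x : GQ) : GQ ⧸ K.U) = (x : GQ ⧸ K.U) := by
  have h1 : u * x = x * (x⁻¹ * u * x) := by group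
  have h2 : x⁻¹ * u * x ∈ K.U := by
    have := (inferInstance : K.U.Normal).conj_mem u hu x⁻¹
    rwa [inv_inv] at this
  rw [h1, mk_mul_mem K h2]

include hζ in
theorem bwdFun_mem (φ : ArchQ K → ZMod p) :
    bwdFun p K φ ∈ scoindV K.U.subtype (levelS S) (resRep K.U (muP p)) := by
  refine ⟨fun u x => ?_, K.U, K.U_mem, fun x s hs => ?_⟩
  · show bwdFun p K φ ((u : GQ) * x) = om p (u : GQ) * bwdFun p K φ x
    unfold bwdFun
    rw [mk_mem_mul K u.2, om_mul, mul_assoc]
  · show bwdFun p K φ (x * s) = bwdFun p K φ x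
    unfold bwdFun
    rw [mk_mul_mem K hs, om_mul, om_of_mem p K hζ hs, mul_one]

/-- The inverse map into `Y`. -/
def bwdY (φ : ArchQ K → ZMod p) : coindRes (levelS S) K.U (muP p) :=
  ⟨bwdFun p K φ, bwdFun_mem p K hζ φ⟩

theorem bwdY_mem (φ : ArchQ K → ZMod p) : bwdY p K hζ φ ∈ EigSub p K := by
  rw [mem_eigFun_obj_iff]
  refine Subtype.ext (funext fun x => ?_)
  rw [scoind_ρ_apply]
  show bwdFun p K φ (x * complexConjugation) = (-1 : ZMod p) * bwdFun p K φ x
  unfold bwdFun
  have h1 : (((x * complexConjugation : GQ) : GQ ⧸ K.U) : ArchQ K) = ((x : GQ ⧸ K.U) : ArchQ K) := by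
    symm
    rw [QuotientGroup.eq, QuotientGroup.mk_mul, inv_mul_cancel_left]
    exact Subgroup.mem_zpowers _
  rw [h1, om_mul, om_conj, mul_neg_one, neg_mul, neg_one_mul]

/-- The inverse map. -/
def bwd (φ : ArchQ K → ZMod p) : Eig p K := (toSub p K).symm ⟨bwdY p K hζ φ, bwdY_mem p K hζ φ⟩

theorem valE_bwd (φ : ArchQ K → ZMod p) (x : GQ) :
    valE p K (bwd p K hζ φ) x = om p x * φ (((x : GQ ⧸ K.U)) : ArchQ K) := rfl

/-- **The archimedean model**: the `(-1)`-eigenspace of complex conjugation on `Coind μ_p` is the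
permutation module on `ArchQ K`. -/
def jEquiv : Eig p K ≃ₗ[ZMod p] (ArchQ K → ZMod p) where
  toFun := fwd p K
  map_add' f g := funext fun y => Ff_add p K f g _
  map_smul' a f := funext fun y => Ff_smul p K a f _
  invFun := bwd p K hζ
  left_inv f := valE_ext p K fun x => by
    rw [valE_bwd, fwd_mk p K hζ]
    unfold Ff
    rw [← mul_assoc, mul_inv_cancel₀ (om_ne_zero p x), one_mul]
  right_inv φ := funext fun y => by
    induction y using QuotientGroup.induction_on with
    | H y =>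
      induction y using QuotientGroup.induction_on with
      | H x =>
        rw [fwd_mk p K hζ]
        unfold Ff
        rw [valE_bwd, ← mul_assoc, inv_mul_cancel₀ (om_ne_zero p x), one_mul]

theorem jEquiv_apply (f : Eig p K) : jEquiv p K hζ f = fwd p K f := rfl

theorem valE_map_transl (γ : GQ) (f : Eig p K) (x : GQ) :
    valE p K ((eigFun (complexConjugation : GQ) (-1 : ZMod p)).map
      (translRep (levelS S) K.U (muP p) (γ : GQ ⧸ K.U))
      (translRep_equivariant (levelS S) K.U (muP p) (γ : GQ ⧸ K.U)) f) x =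
      om p γ * valE p K f (γ⁻¹ * x) := rfl

include hζ in
/-- **Equivariance** of the archimedean model. -/
theorem jEquiv_equivariant (q : GQ ⧸ K.U) (f : Eig p K) :
    jEquiv p K hζ ((eigFun (complexConjugation : GQ) (-1 : ZMod p)).map
      (translRep (levelS S) K.U (muP p) q)
      (translRep_equivariant (levelS S) K.U (muP p) q) f) =
      permRep (ArchQ K) (ZMod p) q (jEquiv p K hζ f) := by
  induction q using QuotientGroup.induction_on with
  | H γ =>
    funext y
    induction y using QuotientGroup.induction_on with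
    | H y =>
      induction y using QuotientGroup.induction_on with
      | H x =>
        rw [permRep_apply, jEquiv_apply, jEquiv_apply, fwd_mk p K hζ]
        have h1 : ((γ : GQ ⧸ K.U))⁻¹ • (((x : GQ ⧸ K.U)) : ArchQ K) =
            ((((γ⁻¹ * x : GQ)) : GQ ⧸ K.U) : ArchQ K) := rfl
        rw [h1, fwd_mk p K hζ]
        unfold Ff
        rw [valE_map_transl, om_mul, om_inv, mul_inv, inv_inv]
        ring

end

/-- **(TA-ARCH)** -/
theorem exists_archModel (p : ℕ) [Fact p.Prime] {S : Finset Nat.Primes} (K : Lev S)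
    (hζ : ∀ u ∈ K.U, cycloChar p u = 1) :
    ∃ j : (eigFun (complexConjugation : GQ) (-1 : ZMod p) : LinFun (ZMod p) GQ).obj
        (coindRes (levelS S) K.U (muP p)) ≃ₗ[ZMod p] (ArchQ K → ZMod p),
      ∀ (q : GQ ⧸ K.U) x,
        j ((eigFun (complexConjugation : GQ) (-1 : ZMod p)).map
          (translRep (levelS S) K.U (muP p) q)
          (translRep_equivariant (levelS S) K.U (muP p) q) x) =
          permRep (ArchQ K) (ZMod p) q (j x) :=
  ⟨jEquiv p K hζ, jEquiv_equivariant p K hζ⟩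

end Fermat.Agent.TW.GLOB.TateArch6
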