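/-
Programme T (S56), chapter GLOB, task T7 (tate assembly (A8)), brick (TA-COIND) — helper2.

For `U ◁ G` in the level basis, `χ : G →* kˣ` trivial on `U`, `Y := Coind_U^G k(χ)` with its
translation action of `G ⧸ U`, `C ≤ G ⧸ U` finite and `σ : C → GL(N)` (`N` with a finite basis):

  `Coind_C^{G ⧸ U} σ ≃ (Y^d)^{s ⊗ T|_C} = TateCore9.twistCoind 𝓑 U (muRep χ) C s`,

`G`-equivariantly, where `s c := χ̄(c)⁻¹ • [σ c]` (`exists_coindModel_generic`), and the Galois
instance `exists_coindModel` (helper9's exact statement).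
-/
import Mathlib
import Fermat.Agent.TW.GLOB.TateCore9
import Fermat.Agent.TW.DEF.Mu1
import Fermat.Agent.PT.GLUE.Levels21

set_option autoImplicit false
set_option linter.unusedSectionVars false
set_option linter.style.haveILetI false

open Fermat.Agent.PT.PRO.LevelCoh28 Fermat.Agent.PT.PRO.SmoothCoind28
  Fermat.Agent.TW.GLOB.SubLevel5 Fermat.Agent.TW.GLOB.ShapiroConj5
  Fermat.Agent.TW.GLOB.MatIdem9 Fermat.Agent.TW.GLOB.LinFun9 Fermat.Agent.TW.GLOB.TateCore9
  Fermat.Agent.TW.DEF.Mu1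

namespace Fermat.Agent.TW.GLOB.TateCoind2

noncomputable section

section Generic

variable {k G : Type} [Field k] [Group G] (𝓑 : LevelBasis G) (U : Subgroup G) [hU : U.Normal]
  (hUm : U ∈ 𝓑.sets) (χ : G →* kˣ) (hχ : ∀ u ∈ U, χ u = 1)

/-- `χ` on the quotient. -/
def chiBar : G ⧸ U →* kˣ :=
  QuotientGroup.lift U χ (fun u hu => MonoidHom.mem_ker.2 (hχ u hu))

@[simp] theorem chiBar_mk (γ : G) : chiBar U χ hχ (γ : G ⧸ U) = χ γ := rfl

include hχ in
/-- Elements of `Coind_U^G k(χ)` are right `U`-invariant. -/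
theorem coind_apply_mul_mem (y : coindRes 𝓑 U (muRep χ)) (x : G) {u : G} (hu : u ∈ U) :
    y.1 (x * u) = y.1 x := by
  have h1 : x * u = ((⟨x * u * x⁻¹, hU.conj_mem u hu x⟩ : U) : G) * x := by
    simp
  have h2 := y.2.1 ⟨x * u * x⁻¹, hU.conj_mem u hu x⟩ x
  rw [h1]
  refine h2.trans ?_
  show (muRep χ).ρ (x * u * x⁻¹) (y.1 x) = y.1 x
  rw [muRep_ρ_apply, hχ _ (hU.conj_mem u hu x), Units.val_one, one_mul]

variable (C : Subgroup (G ⧸ U)) {N : Type} [AddCommGroup N] [Module k N]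
  (σ : Representation k C N) {d : ℕ} (b : Module.Basis (Fin d) k N)

/-- `c ↦ χ̄(c)⁻¹ • σ c`. -/
def sigTw : C →* Module.End k N where
  toFun c := (((chiBar U χ hχ (c : G ⧸ U))⁻¹ : kˣ) : k) • σ c
  map_one' := by simp
  map_mul' c c' := by
    rw [Subgroup.coe_mul, map_mul, map_mul, mul_inv, Units.val_mul, smul_mul_smul_comm]

/-- The matrix representation `s c = χ̄(c)⁻¹ • [σ c]`. -/
def sMat : C →* Matrix (Fin d) (Fin d) k :=
  (MonoidHomClass.toMonoidHom (LinearMap.toMatrixAlgEquiv b)).comp (sigTw U χ hχ C σ)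

theorem sMat_apply (c : C) (i j : Fin d) :
    sMat U χ hχ C σ b c i j =
      (((chiBar U χ hχ (c : G ⧸ U))⁻¹ : kˣ) : k) * b.repr (σ c (b j)) i := by
  show LinearMap.toMatrixAlgEquiv b ((((chiBar U χ hχ (c : G ⧸ U))⁻¹ : kˣ) : k) • σ c) i j = _
  rw [LinearMap.toMatrixAlgEquiv_apply, LinearMap.smul_apply, map_smul, Finsupp.smul_apply,
    smul_eq_mul]

theorem repr_apply_eq_sum (φ : N →ₗ[k] N) (n : N) (i : Fin d) :
    b.repr (φ n) i = ∑ j, b.repr (φ (b j)) i * b.repr n j := by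
  conv_lhs => rw [← b.sum_repr n]
  rw [map_sum, map_sum, Finsupp.coe_finsetSum, Finset.sum_apply]
  refine Finset.sum_congr rfl fun j _ => ?_
  rw [map_smul, map_smul, Finsupp.smul_apply, smul_eq_mul, mul_comm]

/-! ### The forward map -/

include hUm hχ in
theorem fwd_mem (f : ↥(Representation.coindV C.subtype σ)) (i : Fin d) :
    (fun x : G => b.repr (f.1 (x : G ⧸ U)) i) ∈
      scoindV U.subtype 𝓑 (resRep U (muRep χ)) := by
  refine ⟨fun u x => ?_, ⟨U, hUm, fun x s hs => ?_⟩⟩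
  · have h1 : ((U.subtype u * x : G) : G ⧸ U) = (x : G ⧸ U) := by
      rw [QuotientGroup.mk_mul, Subgroup.coe_subtype, (QuotientGroup.eq_one_iff _).2 u.2, one_mul]
    show b.repr (f.1 ((U.subtype u * x : G) : G ⧸ U)) i =
      (muRep χ).ρ (u : G) (b.repr (f.1 (x : G ⧸ U)) i)
    rw [h1, muRep_ρ_apply, hχ _ u.2, Units.val_one, one_mul]
  · have h1 : ((x * s : G) : G ⧸ U) = (x : G ⧸ U) := by
      rw [QuotientGroup.mk_mul, (QuotientGroup.eq_one_iff _).2 hs, mul_one]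
    show b.repr (f.1 ((x * s : G) : G ⧸ U)) i = b.repr (f.1 (x : G ⧸ U)) i
    rw [h1]

/-- `f ↦ (x ↦ (f x̄)_i)_i`. -/
def fwd : ↥(Representation.coindV C.subtype σ) →ₗ[k] powRep (coindRes 𝓑 U (muRep χ)) d where
  toFun f i := ⟨fun x : G => b.repr (f.1 (x : G ⧸ U)) i, fwd_mem 𝓑 U hUm χ hχ C σ b f i⟩
  map_add' f f' := by
    funext i
    apply Subtype.ext
    funext x
    show b.repr ((f + f').1 (x : G ⧸ U)) i = b.repr (f.1 (x : G ⧸ U)) i + b.repr (f'.1 (x : G ⧸ U)) i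
    rw [Submodule.coe_add, Pi.add_apply, map_add, Finsupp.add_apply]
  map_smul' a f := by
    funext i
    apply Subtype.ext
    funext x
    show b.repr ((a • f).1 (x : G ⧸ U)) i = a • b.repr (f.1 (x : G ⧸ U)) i
    rw [Submodule.coe_smul, Pi.smul_apply, map_smul, Finsupp.smul_apply]

theorem fwd_apply (f : ↥(Representation.coindV C.subtype σ)) (i : Fin d) (x : G) :
    (fwd 𝓑 U hUm χ hχ C σ b f i).1 x = b.repr (f.1 (x : G ⧸ U)) i := rfl

/-! ### The image is fixed by the twisted action -/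

variable [Fintype C]

theorem coe_sum_apply {ι : Type*} (t : Finset ι) (y : ι → coindRes 𝓑 U (muRep χ)) (x : G) :
    (∑ j ∈ t, y j).1 x = ∑ j ∈ t, (y j).1 x := by
  classical
  induction t using Finset.induction_on with
  | empty => rfl
  | insert a t ha ih =>
    rw [Finset.sum_insert ha, Finset.sum_insert ha, ← ih]
    rfl

theorem translC_apply_apply (c : C) (γ : G) (hγ : (γ : G ⧸ U) = (c : G ⧸ U))
    (y : coindRes 𝓑 U (muRep χ)) (x : G) :
    (translC 𝓑 U (muRep χ) C c y).1 x = (χ γ : k) * y.1 (γ⁻¹ * x) := by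
  rw [translC_apply, ← hγ, translRep_mk, transl_apply, muRep_ρ_apply]

theorem twistθ_fwd (c : C) (f : ↥(Representation.coindV C.subtype σ)) :
    twistθ (coindRes 𝓑 U (muRep χ)) (translC 𝓑 U (muRep χ) C) (sMat U χ hχ C σ b) c
      (fwd 𝓑 U hUm χ hχ C σ b f) = fwd 𝓑 U hUm χ hχ C σ b f := by
  funext i
  apply Subtype.ext
  funext x
  obtain ⟨γ, hγ⟩ := QuotientGroup.mk_surjective (c : G ⧸ U)
  rw [twistθ_apply, coe_sum_apply, fwd_apply]
  have h1 : ∀ j, (sMat U χ hχ C σ b c i j • translC 𝓑 U (muRep χ) C c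
      (fwd 𝓑 U hUm χ hχ C σ b f j)).1 x =
      b.repr (σ c (b j)) i * b.repr (f.1 ((c : G ⧸ U)⁻¹ * (x : G ⧸ U))) j := by
    intro j
    have h2 : (sMat U χ hχ C σ b c i j • translC 𝓑 U (muRep χ) C c
        (fwd 𝓑 U hUm χ hχ C σ b f j)).1 x = sMat U χ hχ C σ b c i j *
          (translC 𝓑 U (muRep χ) C c (fwd 𝓑 U hUm χ hχ C σ b f j)).1 x := rfl
    rw [h2, translC_apply_apply 𝓑 U χ C c γ hγ, fwd_apply, sMat_apply, ← hγ, chiBar_mk,
      QuotientGroup.mk_mul, QuotientGroup.mk_inv]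
    have h3 : ((χ γ)⁻¹ : kˣ).1 * (χ γ : k) = 1 := by
      rw [← Units.val_mul, inv_mul_cancel, Units.val_one]
    calc ((χ γ)⁻¹ : kˣ).1 * b.repr (σ c (b j)) i *
          ((χ γ : k) * b.repr (f.1 ((γ : G ⧸ U)⁻¹ * (x : G ⧸ U))) j)
        = (((χ γ)⁻¹ : kˣ).1 * (χ γ : k)) * (b.repr (σ c (b j)) i *
            b.repr (f.1 ((γ : G ⧸ U)⁻¹ * (x : G ⧸ U))) j) := by ring
      _ = _ := by rw [h3, one_mul]
  rw [Finset.sum_congr rfl (fun j _ => h1 j), ← repr_apply_eq_sum b (σ c)]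
  have h4 := f.2 c ((c : G ⧸ U)⁻¹ * (x : G ⧸ U))
  rw [Subgroup.coe_subtype, mul_inv_cancel_left] at h4
  rw [← h4]

/-- The forward map, into the twisted invariants. -/
def fwdFix : ↥(Representation.coindV C.subtype σ) →ₗ[k]
    twistCoind 𝓑 U (muRep χ) C (sMat U χ hχ C σ b) :=
  (fwd 𝓑 U hUm χ hχ C σ b).codRestrict
    (twistθ (coindRes 𝓑 U (muRep χ)) (translC 𝓑 U (muRep χ) C) (sMat U χ hχ C σ b)).invariants
    (fun f c => twistθ_fwd 𝓑 U hUm χ hχ C σ b c f)

theorem fwdFix_apply (f : ↥(Representation.coindV C.subtype σ)) (i : Fin d) (x : G) :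
    ((fwdFix 𝓑 U hUm χ hχ C σ b f).1 i).1 x = b.repr (f.1 (x : G ⧸ U)) i := rfl

theorem fwdFix_injective : Function.Injective (fwdFix 𝓑 U hUm χ hχ C σ b) := by
  intro f f' h
  apply Subtype.ext
  funext q
  induction q using QuotientGroup.induction_on with
  | H x =>
    apply b.repr.injective
    apply Finsupp.ext
    intro i
    have h1 := congrFun (congrArg Subtype.val (congrFun (congrArg Subtype.val h) i)) x
    exact h1

/-- Invariance under the twisted action, in coordinates. -/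
theorem fixed_apply (F : twistCoind 𝓑 U (muRep χ) C (sMat U χ hχ C σ b)) (c : C) (γ : G)
    (hγ : (γ : G ⧸ U) = (c : G ⧸ U)) (i : Fin d) (x : G) :
    (F.1 i).1 (γ * x) = ∑ j, b.repr (σ c (b j)) i * (F.1 j).1 x := by
  have h0 := F.2 c
  have h1 := congrFun (congrArg Subtype.val (congrFun h0 i)) (γ * x)
  rw [twistθ_apply, coe_sum_apply] at h1
  rw [← h1]
  refine Finset.sum_congr rfl fun j _ => ?_
  have h2 : (sMat U χ hχ C σ b c i j • translC 𝓑 U (muRep χ) C c (F.1 j)).1 (γ * x) =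
      sMat U χ hχ C σ b c i j * (translC 𝓑 U (muRep χ) C c (F.1 j)).1 (γ * x) := rfl
  rw [h2, translC_apply_apply 𝓑 U χ C c γ hγ, sMat_apply, ← hγ, chiBar_mk, inv_mul_cancel_left]
  have h3 : ((χ γ)⁻¹ : kˣ).1 * (χ γ : k) = 1 := by
    rw [← Units.val_mul, inv_mul_cancel, Units.val_one]
  calc ((χ γ)⁻¹ : kˣ).1 * b.repr (σ c (b j)) i * ((χ γ : k) * (F.1 j).1 x)
      = (((χ γ)⁻¹ : kˣ).1 * (χ γ : k)) * (b.repr (σ c (b j)) i * (F.1 j).1 x) := by ring
    _ = _ := by rw [h3, one_mul]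

theorem fwdFix_surjective : Function.Surjective (fwdFix 𝓑 U hUm χ hχ C σ b) := by
  intro F
  let g : G ⧸ U → N := fun q => ∑ i, (F.1 i).1 (Quotient.out q) • b i
  have hg : ∀ x : G, g (x : G ⧸ U) = ∑ i, (F.1 i).1 x • b i := by
    intro x
    obtain ⟨h, hh⟩ := QuotientGroup.mk_out_eq_mul U x
    show ∑ i, (F.1 i).1 (Quotient.out (x : G ⧸ U)) • b i = _
    rw [hh]
    refine Finset.sum_congr rfl fun i _ => ?_
    rw [coind_apply_mul_mem 𝓑 U χ hχ (F.1 i) x h.2]
  have hrepr : ∀ (x : G) (i : Fin d), b.repr (g (x : G ⧸ U)) i = (F.1 i).1 x := by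
    intro x i
    rw [hg, b.repr_sum_self]
  have hmem : g ∈ Representation.coindV C.subtype σ := by
    intro c q
    induction q using QuotientGroup.induction_on with
    | H x =>
      obtain ⟨γ, hγ⟩ := QuotientGroup.mk_surjective (c : G ⧸ U)
      apply b.repr.injective
      apply Finsupp.ext
      intro i
      rw [Subgroup.coe_subtype, ← hγ, ← QuotientGroup.mk_mul, hrepr,
        fixed_apply 𝓑 U χ hχ C σ b F c γ hγ i x, repr_apply_eq_sum b (σ c)]
      refine Finset.sum_congr rfl fun j _ => ?_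
      rw [hrepr]
  refine ⟨⟨g, hmem⟩, ?_⟩
  apply Subtype.ext
  funext i
  apply Subtype.ext
  funext x
  exact hrepr x i

/-- **The model**: `Coind_C^{G/U} σ ≃ (Y^d)^{s ⊗ T}`. -/
def coindModel : ↥(Representation.coindV C.subtype σ) ≃ₗ[k]
    twistCoind 𝓑 U (muRep χ) C (sMat U χ hχ C σ b) :=
  LinearEquiv.ofBijective (fwdFix 𝓑 U hUm χ hχ C σ b)
    ⟨fwdFix_injective 𝓑 U hUm χ hχ C σ b, fwdFix_surjective 𝓑 U hUm χ hχ C σ b⟩

theorem coindModel_equivariant (γ : G) (f : ↥(Representation.coindV C.subtype σ)) :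
    coindModel 𝓑 U hUm χ hχ C σ b (Representation.coind C.subtype σ (γ : G ⧸ U) f) =
      (twistCoind 𝓑 U (muRep χ) C (sMat U χ hχ C σ b)).ρ γ (coindModel 𝓑 U hUm χ hχ C σ b f) := by
  apply Subtype.ext
  funext i
  apply Subtype.ext
  funext x
  rfl

include hUm hχ in
/-- **(TA-COIND), generic form.** -/
theorem exists_coindModel_generic [Module.Finite k N] :
    ∃ (d : ℕ) (s : C →* Matrix (Fin d) (Fin d) k)
      (e : ↥(Representation.coindV C.subtype σ) ≃ₗ[k] (twistCoind 𝓑 U (muRep χ) C s)),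
      ∀ (γ : G) f, e (Representation.coind C.subtype σ (γ : G ⧸ U) f) =
        (twistCoind 𝓑 U (muRep χ) C s).ρ γ (e f) :=
  ⟨Module.finrank k N, sMat U χ hχ C σ (Module.finBasis k N),
    coindModel 𝓑 U hUm χ hχ C σ (Module.finBasis k N),
    coindModel_equivariant 𝓑 U hUm χ hχ C σ (Module.finBasis k N)⟩

end Generic

/-! ### The Galois case -/

section Galois

open Fermat.Agent.TW.DEF.Basic1 Fermat.Agent.PT.GLUE.Objects21 Fermat.Agent.PT.GLUE.Levels21
open ExtCitation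

/-- **(TA-COIND)**: for a level `K`, on which `ω` is trivial, and a finite-dimensional
representation `σ` of a subgroup `C ≤ GQ ⧸ K.U`, the coinduced module `Coind_C^{GQ ⧸ K.U} σ` is
`GQ`-equivariantly isomorphic to `((Coind_{K.U}^{GQ} μ_p)^d)^{s ⊗ T|_C}`. -/
theorem exists_coindModel (p : ℕ) [Fact p.Prime] {S : Finset Nat.Primes} (K : Lev S)
    (hζ : ∀ u ∈ K.U, cycloChar p u = 1) (C : Subgroup (GQ ⧸ K.U)) [Fintype C]
    (N : Type) [AddCommGroup N] [Module (ZMod p) N] [Module.Finite (ZMod p) N]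
    (σ : Representation (ZMod p) C N) :
    ∃ (d : ℕ) (s : C →* Matrix (Fin d) (Fin d) (ZMod p))
      (e : ↥(Representation.coindV C.subtype σ) ≃ₗ[ZMod p]
        (twistCoind (levelS S) K.U (muP p) C s)),
      ∀ (γ : GQ) f, e (Representation.coind C.subtype σ (γ : GQ ⧸ K.U) f) =
        (twistCoind (levelS S) K.U (muP p) C s).ρ γ (e f) :=
  exists_coindModel_generic (levelS S) K.U K.U_mem (cycloChar p) hζ C σ

end Galois

end

end Fermat.Agent.TW.GLOB.TateCoind2
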