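/-
Programme T (S56), chapter GLOB (helper6): FINAL WIRING of the T7 chain.

`TateAssembly9.tate_of_MU` with its inputs `MUFinHyp` (`FiniteSub6`), `ArchModelHyp` (`TateArch6`),
`CoindModelHyp` (`TateCoind2`), `FinH2Hyp` (`EulerLev6`) discharged.  Remaining inputs:
`hadd : EulerInv6.AddHyp S` (multiplicativity of the Euler characteristic) and
`hMU : TateAssembly9.MUHyp S p` (the equivariant Euler characteristic of `μ_p` over the levels).

* `muFinHyp S p hp2 hpS : MUFinHyp S p`;
* **`tate S p hp2 hpS hadd hMU X hX :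
    #X^G * #HS2 S X * #X = #HS1 S X * Nat.card {x : X // X.ρ complexConjugation x = x}`**;
* `tate_le` (the `≤` form = field `tate` of `GWNumeric1.GWInputs` / `htate` of `GlobPack8`).
-/
import Mathlib
import Fermat.Agent.TW.GLOB.TateAssembly9
import Fermat.Agent.TW.GLOB.TateArch6
import Fermat.Agent.TW.GLOB.TateCoind2
import Fermat.Agent.TW.GLOB.FiniteSub6
import Fermat.Agent.TW.GLOB.EulerLev6

set_option autoImplicit false
set_option linter.unusedSectionVars false
set_option linter.style.haveILetI false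

open ExtCitation
open Fermat.Agent.PT.PRO.LevelCoh28 Fermat.Agent.PT.GLUE.Objects21 Fermat.Agent.PT.GLUE.Levels21
open Fermat.Agent.TW.DEF.Basic1
open Fermat.Agent.TW.GLOB.EulerInv6 Fermat.Agent.TW.GLOB.TateAssembly9

namespace Fermat.Agent.TW.GLOB.TateFinal6

variable (S : Finset Nat.Primes) (p : ℕ) [hp : Fact p.Prime]

/-- Finiteness of `H¹(K.U; μ_p)`, `H²(K.U; μ_p)`. -/
theorem muFinHyp (hp2 : p ≠ 2) (hpS : pPrime p ∈ S) : MUFinHyp S p := fun K =>
  ⟨Fermat.Agent.TW.GLOB.FiniteSub6.finite_H1_muP S K hpS,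
    Fermat.Agent.TW.GLOB.FiniteSub6.finite_H2_muP S K hp2 hpS⟩

/-- **Tate's global Euler characteristic formula** for every finite discrete `G_S`-module over
`ZMod p`, from (ADD) and (MU). -/
theorem tate (hp2 : p ≠ 2) (hpS : pPrime p ∈ S) (hadd : AddHyp (p := p) S) (hMU : MUHyp S p)
    (X : Rep.{0} (ZMod p) GQ) [Finite X] (hX : IsDiscrete (levelS S).sets X) :
    Nat.card ↥X.ρ.invariants * Nat.card (HS2 S X) * Nat.card X =
      Nat.card (HS1 S X) * Nat.card {x : X // X.ρ complexConjugation x = x} :=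
  tate_of_MU S p hp2 hpS hadd (Fermat.Agent.TW.GLOB.EulerLev6.finH2Hyp S hp2 hpS) hMU
    (muFinHyp S p hp2 hpS)
    (fun K hζ => Fermat.Agent.TW.GLOB.TateArch6.exists_archModel p K hζ)
    (fun K hζ C _ N _ _ _ σ => Fermat.Agent.TW.GLOB.TateCoind2.exists_coindModel p K hζ C N σ)
    X hX

/-- The `≤` form (`GWInputs.tate`). -/
theorem tate_le (hp2 : p ≠ 2) (hpS : pPrime p ∈ S) (hadd : AddHyp (p := p) S) (hMU : MUHyp S p)
    (X : Rep.{0} (ZMod p) GQ) [Finite X] (hX : IsDiscrete (levelS S).sets X) :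
    Nat.card ↥X.ρ.invariants * Nat.card (HS2 S X) * Nat.card X ≤
      Nat.card (HS1 S X) * Nat.card {x : X // X.ρ complexConjugation x = x} :=
  (tate S p hp2 hpS hadd hMU X hX).le

end Fermat.Agent.TW.GLOB.TateFinal6
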