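/-
Programme T (S56), chapter T/GLOB, brick (A7) of T/plan/ADD (lead): **additivity of the global Euler
characteristic, by squeezing**.

`0 → A → B → C → 0` a short exact sequence of finite `𝔽_p[G_ℚ]`-modules, unramified outside `S`;
`X' := X^*(1)`.  Write `χ(X) = h⁰(X) h²(X) / h¹(X)` (cohomology of `G_S`).

* the long exact sequences of `0 → A → B → C → 0` and of the dual sequence `0 → C' → B' → A' → 0`
  (`LesCount0.card_les`, `DualSeq0`) give `χ(B) κ = χ(A) χ(C)`, `χ(B') κ' = χ(A') χ(C')` with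
  `κ, κ'` the orders of the cokernels of `H²(B) → H²(C)`, `H²(B') → H²(A')`;
* the nine-term count (`NineTerm0.NineTerm`) gives `χ(X) χ(X') = ∏_q χ_q(X)` for `X = A, B, C`;
* locally `χ_q` is multiplicative (`LocAdd`: local right exactness of `H²` + `h²_q(X') = h⁰_q(X)`).

Hence `κ κ' = 1`, so `κ = 1`:

  `h⁰(A) h⁰(C) h¹(B) h²(A) h²(C) = h⁰(B) h¹(A) h¹(C) h²(B)`       (`add_euler`).
-/
import Mathlib
import Fermat.Agent.TW.GLOB.NineTerm0
import Fermat.Agent.TW.GLOB.DualSeq0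

set_option autoImplicit false
set_option linter.unusedSectionVars false

open Fermat.Agent.PT.PRO.LevelCoh28 Fermat.Agent.PT.GLUE.Objects21
open Fermat.Agent.TW.DEF.Basic1 Fermat.Agent.TW.GLOB.GWNumeric1
open Fermat.Agent.TW.GLOB.NineTerm0 Fermat.Agent.TW.GLOB.DualSeq0

namespace Fermat.Agent.TW.GLOB.AddEuler0

noncomputable section

/-- The arithmetic of the squeeze. -/
theorem squeeze_arith {a0 a1 a2 a0' a1' a2' b0 b1 b2 b0' b1' b2' c0 c1 c2 c0' c1' c2' : ℕ}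
    {PA1 PA2 PA2' PB1 PB2 PB2' PC1 PC2 PC2' κ κ' : ℕ}
    (NA : a0 * a2 * a0' * a2' * PA1 = a1 * a1' * PA2' * PA2)
    (NB : b0 * b2 * b0' * b2' * PB1 = b1 * b1' * PB2' * PB2)
    (NC : c0 * c2 * c0' * c2' * PC1 = c1 * c1' * PC2' * PC2)
    (les : a0 * c0 * b1 * a2 * c2 = b0 * a1 * c1 * b2 * κ)
    (les' : c0' * a0' * b1' * c2' * a2' = b0' * c1' * a1' * b2' * κ')
    (loc : (PA2' * PA2) * (PC2' * PC2) * PB1 = (PB2' * PB2) * PA1 * PC1)
    (hPB2' : 0 < PB2') (hPB2 : 0 < PB2) (hPA1 : 0 < PA1) (hPC1 : 0 < PC1) (hb1 : 0 < b1)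
    (hb1' : 0 < b1') (ha1 : 0 < a1) (ha1' : 0 < a1') (hc1 : 0 < c1) (hc1' : 0 < c1') :
    κ = 1 := by
  have pos : 0 < PB2' * PB2 * PA1 * PC1 * b1 * b1' * (a1 * a1' * c1 * c1') := by positivity
  have key : (PB2' * PB2 * PA1 * PC1 * b1 * b1' * (a1 * a1' * c1 * c1')) * (κ * κ') =
      (PB2' * PB2 * PA1 * PC1 * b1 * b1' * (a1 * a1' * c1 * c1')) * 1 := by
    calc (PB2' * PB2 * PA1 * PC1 * b1 * b1' * (a1 * a1' * c1 * c1')) * (κ * κ')
        = (b1 * b1' * PB2' * PB2) * (PA1 * PC1 * (a1 * a1' * c1 * c1') * (κ * κ')) := by ring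
      _ = (b0 * b2 * b0' * b2' * PB1) * (PA1 * PC1 * (a1 * a1' * c1 * c1') * (κ * κ')) := by
          rw [NB]
      _ = PB1 * PA1 * PC1 * (b0 * a1 * c1 * b2 * κ) * (b0' * c1' * a1' * b2' * κ') := by ring
      _ = PB1 * PA1 * PC1 * (a0 * c0 * b1 * a2 * c2) * (c0' * a0' * b1' * c2' * a2') := by
          rw [les, les']
      _ = PB1 * b1 * b1' * (a0 * a2 * a0' * a2' * PA1) * (c0 * c2 * c0' * c2' * PC1) := by ring
      _ = PB1 * b1 * b1' * (a1 * a1' * PA2' * PA2) * (c1 * c1' * PC2' * PC2) := by rw [NA, NC]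
      _ = ((PA2' * PA2) * (PC2' * PC2) * PB1) * (b1 * b1' * (a1 * a1' * c1 * c1')) := by ring
      _ = ((PB2' * PB2) * PA1 * PC1) * (b1 * b1' * (a1 * a1' * c1 * c1')) := by rw [loc]
      _ = _ := by ring
  have h : κ * κ' = 1 := Nat.eq_of_mul_eq_mul_left pos key
  exact Nat.eq_one_of_mul_eq_one_right h

/-- Products of a pointwise identity. -/
theorem prod_locAdd {ι : Type*} [Fintype ι] (f1 f2 f3 f4 f5 f6 f7 f8 f9 : ι → ℕ)
    (h : ∀ i, (f1 i * f2 i) * (f3 i * f4 i) * f5 i = (f6 i * f7 i) * f8 i * f9 i) :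
    ((∏ i, f1 i) * ∏ i, f2 i) * ((∏ i, f3 i) * ∏ i, f4 i) * (∏ i, f5 i) =
      ((∏ i, f6 i) * ∏ i, f7 i) * (∏ i, f8 i) * ∏ i, f9 i := by
  simp only [← Finset.prod_mul_distrib]
  exact Finset.prod_congr rfl fun i _ => h i

variable {p : ℕ} [Fact p.Prime] (S : Finset Nat.Primes)

/-- Finiteness of the cohomology groups entering the squeeze, for the pair `(X, X')`. -/
structure FinCoh (X X' : Rep.{0} (ZMod p) GQ) : Prop where
  finH1 : Finite (HS1 S X)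
  finH1' : Finite (HS1 S X')
  finHq1 : ∀ q : ↥S, Finite (Hq1 X ((q : Nat.Primes) : ℕ))
  finHq2 : ∀ q : ↥S, Finite (Hq2 X ((q : Nat.Primes) : ℕ))
  finHq2' : ∀ q : ↥S, Finite (Hq2 X' ((q : Nat.Primes) : ℕ))

/-- **Local multiplicativity** of `X ↦ h²_q(X') h²_q(X) / h¹_q(X)` (`= χ_q(X)`) along
`0 → A → B → C → 0`, cross-multiplied. -/
def LocAdd (A A' B B' C C' : Rep.{0} (ZMod p) GQ) (q : ℕ) [Fact q.Prime] : Prop :=
  (Nat.card (Hq2 A' q) * Nat.card (Hq2 A q)) * (Nat.card (Hq2 C' q) * Nat.card (Hq2 C q)) *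
      Nat.card (Hq1 B q) =
    (Nat.card (Hq2 B' q) * Nat.card (Hq2 B q)) * Nat.card (Hq1 A q) * Nat.card (Hq1 C q)

/-- `LocAdd` from the local long exact sequence count (LOC-ADD) and `h²_q(X') = h⁰_q(X)`. -/
theorem locAdd_of {A A' B B' C C' : Rep.{0} (ZMod p) GQ} (q : ℕ) [Fact q.Prime]
    (hadd : Nat.card ↥(Mq A q).ρ.invariants * Nat.card ↥(Mq C q).ρ.invariants *
        Nat.card (Hq1 B q) * Nat.card (Hq2 A q) * Nat.card (Hq2 C q) =
      Nat.card ↥(Mq B q).ρ.invariants * Nat.card (Hq1 A q) * Nat.card (Hq1 C q) *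
        Nat.card (Hq2 B q))
    (hA : Nat.card (Hq2 A' q) = Nat.card ↥(Mq A q).ρ.invariants)
    (hB : Nat.card (Hq2 B' q) = Nat.card ↥(Mq B q).ρ.invariants)
    (hC : Nat.card (Hq2 C' q) = Nat.card ↥(Mq C q).ρ.invariants) :
    LocAdd A A' B B' C C' q := by
  unfold LocAdd
  rw [hA, hB, hC]
  calc Nat.card ↥(Mq A q).ρ.invariants * Nat.card (Hq2 A q) *
        (Nat.card ↥(Mq C q).ρ.invariants * Nat.card (Hq2 C q)) * Nat.card (Hq1 B q)
      = Nat.card ↥(Mq A q).ρ.invariants * Nat.card ↥(Mq C q).ρ.invariants *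
        Nat.card (Hq1 B q) * Nat.card (Hq2 A q) * Nat.card (Hq2 C q) := by ring
    _ = Nat.card ↥(Mq B q).ρ.invariants * Nat.card (Hq1 A q) * Nat.card (Hq1 C q) *
        Nat.card (Hq2 B q) := hadd
    _ = _ := by ring

section Main

variable {A B C : Rep.{0} (ZMod p) GQ} (χ : GQ →* (ZMod p)ˣ)
  (φ : A →ₗ[ZMod p] B) (hφ : ∀ g a, φ (A.ρ g a) = B.ρ g (φ a))
  (ψ : B →ₗ[ZMod p] C) (hψ : ∀ g b, ψ (B.ρ g b) = C.ρ g (ψ b))
  (hinj : Function.Injective φ) (hsurj : Function.Surjective ψ)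
  (hex : ∀ b, ψ b = 0 ↔ ∃ a, φ a = b)

set_option maxHeartbeats 400000 in
include hφ hψ hinj hsurj hex in
/-- **The cokernel of `H²(G_S, B) → H²(G_S, C)` is trivial.** -/
theorem card_coker_eq_one
    (hB : IsDiscrete (levelS S).sets B) (hB' : IsDiscrete (levelS S).sets (B.dualTwist χ))
    (NA : NineTerm S A (A.dualTwist χ)) (NB : NineTerm S B (B.dualTwist χ))
    (NC : NineTerm S C (C.dualTwist χ))
    (FA : FinCoh S A (A.dualTwist χ)) (FB : FinCoh S B (B.dualTwist χ))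
    (FC : FinCoh S C (C.dualTwist χ))
    (hloc : ∀ q : ↥S, LocAdd A (A.dualTwist χ) B (B.dualTwist χ) C (C.dualTwist χ)
      ((q : Nat.Primes) : ℕ)) :
    Nat.card (HS2 S C ⧸ LinearMap.range (mapH2 (𝓑 := levelS S) ψ hψ)) = 1 := by
  have les := LesCount0.card_les (𝓑 := levelS S) φ hφ ψ hψ hinj hsurj hex hB
  have les' := LesCount0.card_les (𝓑 := levelS S) (dualMapT χ ψ) (dualMapT_ρ χ ψ hψ)
    (dualMapT χ φ) (dualMapT_ρ χ φ hφ) (dualMapT_injective χ ψ hsurj)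
    (dualMapT_surjective χ φ hinj) (dualMapT_exact χ φ ψ hex) hB'
  have loc := prod_locAdd (ι := ↥S)
    (fun q => Nat.card (Hq2 (A.dualTwist χ) ((q : Nat.Primes) : ℕ)))
    (fun q => Nat.card (Hq2 A ((q : Nat.Primes) : ℕ)))
    (fun q => Nat.card (Hq2 (C.dualTwist χ) ((q : Nat.Primes) : ℕ)))
    (fun q => Nat.card (Hq2 C ((q : Nat.Primes) : ℕ)))
    (fun q => Nat.card (Hq1 B ((q : Nat.Primes) : ℕ)))
    (fun q => Nat.card (Hq2 (B.dualTwist χ) ((q : Nat.Primes) : ℕ)))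
    (fun q => Nat.card (Hq2 B ((q : Nat.Primes) : ℕ)))
    (fun q => Nat.card (Hq1 A ((q : Nat.Primes) : ℕ)))
    (fun q => Nat.card (Hq1 C ((q : Nat.Primes) : ℕ)))
    (fun q => hloc q)
  have := FA.finH1; have := FA.finH1'; have := FB.finH1; have := FB.finH1'
  have := FC.finH1; have := FC.finH1'
  have := FA.finHq1; have := FC.finHq1; have := FB.finHq2; have := FB.finHq2'
  have h1 : 0 < ∏ q : ↥S, Nat.card (Hq2 (B.dualTwist χ) ((q : Nat.Primes) : ℕ)) :=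
    Finset.prod_pos fun q _ => Nat.card_pos
  have h2 : 0 < ∏ q : ↥S, Nat.card (Hq2 B ((q : Nat.Primes) : ℕ)) :=
    Finset.prod_pos fun q _ => Nat.card_pos
  have h3 : 0 < ∏ q : ↥S, Nat.card (Hq1 A ((q : Nat.Primes) : ℕ)) :=
    Finset.prod_pos fun q _ => Nat.card_pos
  have h4 : 0 < ∏ q : ↥S, Nat.card (Hq1 C ((q : Nat.Primes) : ℕ)) :=
    Finset.prod_pos fun q _ => Nat.card_pos
  have h5 : 0 < Nat.card (HS1 S B) := Nat.card_pos
  have h6 : 0 < Nat.card (HS1 S (B.dualTwist χ)) := Nat.card_pos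
  have h7 : 0 < Nat.card (HS1 S A) := Nat.card_pos
  have h8 : 0 < Nat.card (HS1 S (A.dualTwist χ)) := Nat.card_pos
  have h9 : 0 < Nat.card (HS1 S C) := Nat.card_pos
  have h10 : 0 < Nat.card (HS1 S (C.dualTwist χ)) := Nat.card_pos
  unfold NineTerm at NA NB NC
  exact squeeze_arith NA NB NC les les' loc h1 h2 h3 h4 h5 h6 h7 h8 h9 h10

include hφ hψ hinj hsurj hex in
/-- **(ADD): the Euler characteristic of `G_S` is multiplicative on short exact sequences.** -/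
theorem add_euler
    (hB : IsDiscrete (levelS S).sets B) (hB' : IsDiscrete (levelS S).sets (B.dualTwist χ))
    (NA : NineTerm S A (A.dualTwist χ)) (NB : NineTerm S B (B.dualTwist χ))
    (NC : NineTerm S C (C.dualTwist χ))
    (FA : FinCoh S A (A.dualTwist χ)) (FB : FinCoh S B (B.dualTwist χ))
    (FC : FinCoh S C (C.dualTwist χ))
    (hloc : ∀ q : ↥S, LocAdd A (A.dualTwist χ) B (B.dualTwist χ) C (C.dualTwist χ)
      ((q : Nat.Primes) : ℕ)) :
    Nat.card ↥A.ρ.invariants * Nat.card ↥C.ρ.invariants * Nat.card (HS1 S B) *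
        Nat.card (HS2 S A) * Nat.card (HS2 S C) =
      Nat.card ↥B.ρ.invariants * Nat.card (HS1 S A) * Nat.card (HS1 S C) *
        Nat.card (HS2 S B) := by
  have les := LesCount0.card_les (𝓑 := levelS S) φ hφ ψ hψ hinj hsurj hex hB
  rw [card_coker_eq_one S χ φ hφ ψ hψ hinj hsurj hex hB hB' NA NB NC FA FB FC hloc, mul_one]
    at les
  exact les

end Main

end

end Fermat.Agent.TW.GLOB.AddEuler0
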