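/-
PROGRAMME T (S56), chapter GLOB — helper3.  `AddTail3`: the hypothesis `AddFinal3.TailLeHyp S`
((A3), `tail ≤` in both orientations) discharged by helper1's `TailFinal1`; hence

* **`addHyp_of_mid`** : `MidHyp S → EulerInv6.AddHyp S`
  ((ADD) conditional only on (A5), middle exactness in count form).
-/
import Mathlib
import Fermat.Agent.TW.GLOB.AddFinal3
import Fermat.Agent.TW.GLOB.TailFinal1

set_option autoImplicit false
set_option linter.unusedSectionVars false

open ExtCitation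
open Fermat.Agent.PT.PRO.LevelCoh28
open Fermat.Agent.PT.GLUE.Objects21
open Fermat.Agent.TW.DEF.Basic1 Fermat.Agent.TW.GLOB.GWNumeric1
open Fermat.Agent.TW.GLOB.EulerInv6 Fermat.Agent.TW.GLOB.AddFinal3

namespace Fermat.Agent.TW.GLOB.AddTail3

variable {p : ℕ} [Fact p.Prime] (S : Finset Nat.Primes)

/-- **(A3)**, both orientations (helper1's `TailFinal1`). -/
theorem tailLeHyp (hp2 : p ≠ 2) (hpS : pPrime p ∈ S) : TailLeHyp (p := p) S := by
  intro X X' _ hX'eq hX
  subst hX'eq
  exact ⟨Fermat.Agent.TW.GLOB.TailFinal1.tail p S hp2 hpS X hX,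
    Fermat.Agent.TW.GLOB.TailFinal1.tail_le p S hp2 hpS X hX⟩

/-- **(ADD)** conditional only on (A5). -/
theorem addHyp_of_mid (hp2 : p ≠ 2) (hpS : pPrime p ∈ S) (hmid : MidHyp (p := p) S) :
    AddHyp (p := p) S :=
  addHyp S hp2 hpS (tailLeHyp S hp2 hpS) hmid

end Fermat.Agent.TW.GLOB.AddTail3
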