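/-
Chapter T / GLOB, brick FundSub9 (helper9, request of helper5): consequences of the class-formation
hypotheses `Interface8.IsFundClass p C u` (finite group `G`, `p`-subgroups only) for ARBITRARY
subgroups.  Pure finite group cohomology: Mathlib + PT/FG/{Interface8, Transfer2,
FundClassTransferB2}.

* (R1) `isFundClass_of_injective`, `isFundClass_resSub`: transport of fundamental classes along an
  injective group homomorphism, in particular restriction to a subgroup.
* (S-a) `exists_nsmul_eq`: every `p`-primary class of `H²(G, C)` is a multiple of `u`;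
  (S-b) `dvd_of_nsmul_eq_zero`: `m • u = 0 → p ^ v_p(|G|) ∣ m`;
  (S-c) `eq_zero_of_isPPrimary_H1`: `H¹(G, C)` has no `p`-primary torsion.
* relative consequences for a subgroup `H`: (f2) `exists_resMap_eq`, (f3)
  `resMap_eq_zero_of_index_nsmul`, (f4) `exists_ne_zero`, (f5) `cyclic`, (f6)
  `eq_zero_of_isPPrimary_H1_resSub`.
-/
import Mathlib
import Fermat.Agent.PT.FG.Interface8
import Fermat.Agent.PT.FG.Transfer2
import Fermat.Agent.PT.FG.FundClassTransferB2

set_option autoImplicit false

namespace Fermat.Agent.TW.GLOB.FundSub9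

open CategoryTheory groupCohomology Rep
open Fermat.Agent.PT.FG.Interface8 Fermat.Agent.PT.FG.Transfer2
  Fermat.Agent.PT.FG.FundClassTransferB2

section inj

variable {G G' : Type} [Group G] [Group G']

/-- The comparison isomorphism on a subgroup `H'` of `G'` for an injective `f : G' →* G`. -/
noncomputable def resIsoInj (f : G' →* G) (hf : Function.Injective f) (C : Rep ℤ G)
    (C' : Rep ℤ G') (φ : Rep.res f C ≅ C') (H' : Subgroup G') :
    res (Subgroup.equivMapOfInjective H' f hf).toMonoidHom (res (H'.map f).subtype C) ≅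
      res H'.subtype C' :=
  (resFunctor H'.subtype).mapIso φ

theorem map_resIsoInj_bijective (f : G' →* G) (hf : Function.Injective f) (C : Rep ℤ G)
    (C' : Rep ℤ G') (φ : Rep.res f C ≅ C') (H' : Subgroup G') (n : ℕ) :
    Function.Bijective (groupCohomology.map (Subgroup.equivMapOfInjective H' f hf).toMonoidHom
      (resIsoInj f hf C C' φ H').hom n).hom :=
  map_equiv_bijective (Subgroup.equivMapOfInjective H' f hf) (res (H'.map f).subtype C)
    (res H'.subtype C') (resIsoInj f hf C C' φ H') n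

lemma map_inj_res_comm (f : G' →* G) (hf : Function.Injective f) (C : Rep ℤ G)
    (C' : Rep ℤ G') (φ : Rep.res f C ≅ C') (H' : Subgroup G') (n : ℕ) :
    groupCohomology.map f φ.hom n ≫
        groupCohomology.map H'.subtype (𝟙 (res H'.subtype C')) n =
      groupCohomology.map (H'.map f).subtype (𝟙 (res (H'.map f).subtype C)) n ≫
        groupCohomology.map (Subgroup.equivMapOfInjective H' f hf).toMonoidHom
          (resIsoInj f hf C C' φ H').hom n := by
  rw [← groupCohomology.map_comp, ← groupCohomology.map_comp]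
  exact groupCohomology.map_congr rfl rfl n

/-- **(R1)** Transport of fundamental classes along an injective group homomorphism. -/
theorem isFundClass_of_injective (p : ℕ) [Fact p.Prime] (f : G' →* G)
    (hf : Function.Injective f) (C : Rep ℤ G) (C' : Rep ℤ G') (φ : Rep.res f C ≅ C') (u : H2 C)
    (hu : IsFundClass p C u) : IsFundClass p C' (groupCohomology.map f φ.hom 2 u) := by
  have hP : ∀ H' : Subgroup G', IsPGroup p H' → IsPGroup p (H'.map f) :=
    fun H' hH' => hH'.map _
  have hcard : ∀ H' : Subgroup G', Nat.card (H'.map f) = Nat.card H' :=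
    fun H' => (Nat.card_congr (Subgroup.equivMapOfInjective H' f hf).toEquiv).symm
  refine ⟨fun H' hH' => ?_, fun H' hH' => ?_, fun H' hH' => ?_⟩
  · have := hu.h1 _ (hP H' hH')
    exact (map_resIsoInj_bijective f hf C C' φ H' 1).2.subsingleton
  · rw [← hcard H', ← hu.card _ (hP H' hH')]
    exact (Nat.card_congr (Equiv.ofBijective _ (map_resIsoInj_bijective f hf C C' φ H' 2))).symm
  · rw [← hcard H', ← hu.order _ (hP H' hH')]
    have hnat := congrArg (fun g => g.hom u) (map_inj_res_comm f hf C C' φ H' 2)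
    simp only [ModuleCat.hom_comp, LinearMap.coe_comp, Function.comp_apply] at hnat
    show addOrderOf ((groupCohomology.map H'.subtype (𝟙 (res H'.subtype C')) 2).hom
      ((groupCohomology.map f φ.hom 2).hom u)) = _
    rw [hnat]
    exact addOrderOf_injective
      (groupCohomology.map (Subgroup.equivMapOfInjective H' f hf).toMonoidHom
        (resIsoInj f hf C C' φ H').hom 2).hom.toAddMonoidHom
      (map_resIsoInj_bijective f hf C C' φ H' 2).1 _

/-- The restriction of a fundamental class to a subgroup is a fundamental class. -/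
theorem isFundClass_resSub (p : ℕ) [Fact p.Prime] (C : Rep ℤ G) (u : H2 C)
    (hu : IsFundClass p C u) (H : Subgroup G) :
    IsFundClass p (resSub H C) (resMap H C 2 u) :=
  isFundClass_of_injective p H.subtype H.subtype_injective C (resSub H C) (Iso.refl _) u hu

end inj

section sylow

variable {G : Type} [Group G] [Finite G] (p : ℕ) [Fact p.Prime] (C : Rep ℤ G) (u : H2 C)
  (hu : IsFundClass p C u)

include hu

/-- **(S-b)** the order of a fundamental class is divisible by the `p`-part of `|G|`. -/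
theorem dvd_of_nsmul_eq_zero (m : ℕ) (h : m • u = 0) :
    p ^ (Nat.card G).factorization p ∣ m := by
  obtain ⟨P⟩ : Nonempty (Sylow p G) := inferInstance
  have h1 : m • resMap (P : Subgroup G) C 2 u = 0 := by
    rw [← map_nsmul, h, map_zero]
  have h2 := addOrderOf_dvd_of_nsmul_eq_zero h1
  rw [hu.order _ P.isPGroup', Sylow.card_eq_multiplicity] at h2
  exact h2

/-- **(S-c)** `H¹(G, C)` has no `p`-primary torsion. -/
theorem eq_zero_of_isPPrimary_H1 (x : H1 C) (hx : IsPPrimary p x) : x = 0 := by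
  obtain ⟨P⟩ : Nonempty (Sylow p G) := inferInstance
  have := hu.h1 _ P.isPGroup'
  exact eq_zero_of_isZero_sylow C P 1 (ModuleCat.isZero_of_subsingleton _) x hx

/-- **(S-a)** every `p`-primary class of `H²(G, C)` is a multiple of the fundamental class. -/
theorem exists_nsmul_eq (x : H2 C) (hx : IsPPrimary p x) : ∃ m : ℕ, x = m • u := by
  have hp : p.Prime := Fact.out
  obtain ⟨P⟩ : Nonempty (Sylow p G) := inferInstance
  set a := (Nat.card G).factorization p with ha
  have hcardP : Nat.card (P : Subgroup G) = p ^ a := Sylow.card_eq_multiplicity P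
  -- `|G| = p ^ a * n'`
  obtain ⟨n', hn'⟩ : p ^ a ∣ Nat.card G := Nat.ordProj_dvd _ _
  have hfin : Finite (groupCohomology (res (P : Subgroup G).subtype C) 2) := by
    apply Nat.finite_of_card_ne_zero
    rw [hu.card _ P.isPGroup', hcardP]
    exact pow_ne_zero _ hp.ne_zero
  obtain ⟨hfinT, hdvd⟩ := card_primaryTorsion_dvd_sylow C P 2
  rw [hu.card _ P.isPGroup', hcardP] at hdvd
  -- the element `e0 = n' • u`
  have he0 : p ^ a • (n' • u) = 0 := by
    rw [← mul_smul, ← hn']
    exact card_nsmul_eq_zero C 1 u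
  have he0mem : n' • u ∈ primaryTorsion (H2 C) p := ⟨a, he0⟩
  have hord : addOrderOf (n' • u) = p ^ a := by
    apply Nat.dvd_antisymm (addOrderOf_dvd_of_nsmul_eq_zero he0)
    obtain ⟨b, hb, hb'⟩ := (Nat.dvd_prime_pow hp).mp (addOrderOf_dvd_of_nsmul_eq_zero he0)
    rw [hb']
    have h1 : (p ^ b * n') • u = 0 := by
      rw [mul_smul, ← hb']
      exact addOrderOf_nsmul_eq_zero _
    have h2 := dvd_of_nsmul_eq_zero p C u hu _ h1
    have hcop : Nat.Coprime (p ^ a) n' := by
      apply Nat.Coprime.pow_left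
      rw [Nat.Prime.coprime_iff_not_dvd hp]
      intro hpn
      have h3 : p ^ (a + 1) ∣ Nat.card G := by
        rw [hn', pow_succ]
        exact Nat.mul_dvd_mul_left _ hpn
      exact Nat.pow_succ_factorization_not_dvd Nat.card_pos.ne' hp h3
    exact (Nat.Coprime.dvd_of_dvd_mul_right hcop h2)
  -- the cyclic group generated by `e0` is the whole primary torsion
  let e0 : primaryTorsion (H2 C) p := ⟨n' • u, he0mem⟩
  have horde0 : addOrderOf e0 = p ^ a := by
    rw [← hord]
    exact (addOrderOf_injective (primaryTorsion (H2 C) p).subtype Subtype.val_injective e0).symm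
  have hle : Nat.card (primaryTorsion (H2 C) p) ≤ p ^ a :=
    Nat.le_of_dvd (pow_pos hp.pos _) hdvd
  have htop : AddSubgroup.zmultiples e0 = ⊤ := by
    apply AddSubgroup.eq_top_of_le_card
    rw [Nat.card_zmultiples, horde0]
    exact hle
  have hxmem : (⟨x, hx⟩ : primaryTorsion (H2 C) p) ∈ AddSubgroup.zmultiples e0 := by
    rw [htop]; trivial
  obtain ⟨z, hz⟩ := AddSubgroup.mem_zmultiples_iff.mp hxmem
  have hz' : z • (n' • u) = x := congrArg Subtype.val hz
  -- convert to a natural multiple
  refine ⟨(z % (p ^ a : ℕ)).toNat * n', ?_⟩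
  have h3 : (z % (p ^ a : ℕ)) • (n' • u) = z • (n' • u) := by
    rw [zsmul_eq_zsmul_iff_modEq, hord]
    exact Int.mod_modEq _ _
  have h4 : 0 ≤ z % (p ^ a : ℕ) := Int.emod_nonneg _ (by exact_mod_cast pow_ne_zero _ hp.ne_zero)
  rw [← hz', ← h3, mul_smul]
  conv_lhs => rw [← Int.toNat_of_nonneg h4, natCast_zsmul]

end sylow

section cyclicAux

/-- In a finite cyclic group, two `p`-torsion elements, the first of which is nonzero, are
multiples of each other. -/
theorem exists_nsmul_eq_of_mem_zmultiples {A : Type*} [AddCommGroup A] {p : ℕ} (hp : p.Prime)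
    {w x y : A} (hwfin : IsOfFinAddOrder w) (hxw : x ∈ AddSubgroup.zmultiples w)
    (hyw : y ∈ AddSubgroup.zmultiples w) (hx : p • x = 0) (hy : p • y = 0) (hx0 : x ≠ 0) :
    ∃ n : ℕ, y = n • x := by
  classical
  have : Fact p.Prime := ⟨hp⟩
  have hfin : Finite (AddSubgroup.zmultiples w) := finite_zmultiples.mpr hwfin
  have : Fintype (AddSubgroup.zmultiples w) := Fintype.ofFinite _
  let x' : AddSubgroup.zmultiples w := ⟨x, hxw⟩
  let y' : AddSubgroup.zmultiples w := ⟨y, hyw⟩
  -- the `p`-torsion subgroup of the cyclic group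
  let T : AddSubgroup (AddSubgroup.zmultiples w) := (nsmulAddMonoidHom p).ker
  have hmemT : ∀ a, a ∈ T ↔ p • a = 0 := fun a => AddMonoidHom.mem_ker
  have hx'T : x' ∈ T := (hmemT x').mpr (Subtype.ext (by simpa using hx))
  have hy'T : y' ∈ T := (hmemT y').mpr (Subtype.ext (by simpa using hy))
  have hcardT : Nat.card T ≤ p := by
    have h1 := IsAddCyclic.card_nsmul_eq_zero_le (α := AddSubgroup.zmultiples w) hp.pos
    have h2 : Nat.card T = (Finset.univ.filter
        (fun a : AddSubgroup.zmultiples w => p • a = 0)).card := by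
      rw [Nat.card_eq_fintype_card, Fintype.card_subtype]
      exact Finset.card_bij (fun a _ => a) (fun a ha => by
          rw [Finset.mem_filter] at ha ⊢; exact ⟨ha.1, (hmemT a).mp ha.2⟩)
        (fun a _ b _ h => h) (fun a ha => ⟨a, by
          rw [Finset.mem_filter] at ha ⊢; exact ⟨ha.1, (hmemT a).mpr ha.2⟩, rfl⟩)
    rw [h2]
    exact h1
  have hx'0 : x' ≠ 0 := fun h => hx0 (congrArg Subtype.val h)
  have hordx : addOrderOf x' = p :=
    addOrderOf_eq_prime ((hmemT x').mp hx'T) hx'0
  have hle : AddSubgroup.zmultiples x' ≤ T := by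
    rw [AddSubgroup.zmultiples_le]
    exact hx'T
  have heq : AddSubgroup.zmultiples x' = T := by
    apply AddSubgroup.eq_of_le_of_card_ge hle
    rw [Nat.card_zmultiples, hordx]
    exact hcardT
  have hy'mem : y' ∈ AddSubgroup.zmultiples x' := by rw [heq]; exact hy'T
  obtain ⟨z, hz⟩ := AddSubgroup.mem_zmultiples_iff.mp hy'mem
  have hz' : z • x = y := by
    have := congrArg (fun a : AddSubgroup.zmultiples w => (a : A)) hz
    simpa [x', y'] using this
  refine ⟨(z % (p : ℕ)).toNat, ?_⟩
  have hordx' : addOrderOf x = p := addOrderOf_eq_prime hx hx0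
  have h3 : (z % (p : ℕ)) • x = z • x := by
    rw [zsmul_eq_zsmul_iff_modEq, hordx']
    exact Int.mod_modEq _ _
  have h4 : 0 ≤ z % (p : ℕ) := Int.emod_nonneg _ (by exact_mod_cast hp.ne_zero)
  rw [← hz', ← h3]
  conv_lhs => rw [← Int.toNat_of_nonneg h4, natCast_zsmul]

end cyclicAux

section relative

variable {G : Type} [Group G] [Finite G] (p : ℕ) [Fact p.Prime] (C : Rep ℤ G) (u : H2 C)
  (hu : IsFundClass p C u) (H : Subgroup G)

include hu

/-- **(f6)** `H¹(H, C)` has no `p`-primary torsion, for every subgroup `H`. -/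
theorem eq_zero_of_isPPrimary_H1_resSub (x : H1 (resSub H C)) (hx : IsPPrimary p x) : x = 0 :=
  eq_zero_of_isPPrimary_H1 p (resSub H C) _ (isFundClass_resSub p C u hu H) x hx

/-- **(f4)** if `p ∣ |H|` then `H²(H, C)[p] ≠ 0`. -/
theorem exists_ne_zero (h : p ∣ Nat.card H) :
    ∃ e : H2 (resSub H C), p • e = 0 ∧ e ≠ 0 := by
  have hp : p.Prime := Fact.out
  have hfund := isFundClass_resSub p C u hu H
  set b := (Nat.card H).factorization p with hb
  have hb1 : 1 ≤ b := (hp.dvd_iff_one_le_factorization Nat.card_pos.ne').mp h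
  obtain ⟨h', hh'⟩ : p ^ b ∣ Nat.card H := Nat.ordProj_dvd _ _
  refine ⟨(p ^ (b - 1) * h') • resMap H C 2 u, ?_, ?_⟩
  · rw [← mul_smul, ← mul_assoc, ← pow_succ', Nat.sub_add_cancel hb1, ← hh']
    exact card_nsmul_eq_zero (resSub H C) 1 _
  · intro h0
    have h1 := dvd_of_nsmul_eq_zero p (resSub H C) _ hfund _ h0
    rw [← hb] at h1
    have h2 : p ^ b = p ^ (b - 1) * p := by rw [← pow_succ, Nat.sub_add_cancel hb1]
    rw [h2] at h1
    have h3 : p ∣ h' := (Nat.mul_dvd_mul_iff_left (pow_pos hp.pos _)).mp h1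
    have h4 : p ^ (b + 1) ∣ Nat.card H := by
      rw [hh', pow_succ]
      exact Nat.mul_dvd_mul_left _ h3
    exact Nat.pow_succ_factorization_not_dvd Nat.card_pos.ne' hp h4

/-- **(f2)** every `p`-torsion class of `H²(H, C)` is the restriction of a `p`-primary class of
`H²(G, C)`. -/
theorem exists_resMap_eq (x : H2 (resSub H C)) (hx : p • x = 0) :
    ∃ y : H2 C, IsPPrimary p y ∧ resMap H C 2 y = x := by
  have hp : p.Prime := Fact.out
  have hfund := isFundClass_resSub p C u hu H
  obtain ⟨m, hm⟩ := exists_nsmul_eq p (resSub H C) _ hfund x ⟨1, by rw [pow_one]; exact hx⟩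
  set a := (Nat.card G).factorization p with ha
  obtain ⟨n', hn'⟩ : p ^ a ∣ Nat.card G := Nat.ordProj_dvd _ _
  have hcop : Nat.Coprime n' p := by
    rw [Nat.coprime_comm, Nat.Prime.coprime_iff_not_dvd hp]
    intro hpn
    have h3 : p ^ (a + 1) ∣ Nat.card G := by
      rw [hn', pow_succ]
      exact Nat.mul_dvd_mul_left _ hpn
    exact Nat.pow_succ_factorization_not_dvd Nat.card_pos.ne' hp h3
  -- `n''` with `n' * n'' ≡ 1 mod p`
  obtain ⟨n'', hn''⟩ : ∃ n'' : ℕ, n' * n'' ≡ 1 [MOD p] := by
    obtain ⟨c, -, hc⟩ := Nat.exists_mul_mod_eq_one_of_coprime hcop hp.one_lt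
    exact ⟨c, by
      rw [Nat.ModEq, hc, Nat.mod_eq_of_lt hp.one_lt]⟩
  refine ⟨(n' * n'' * m) • u, ⟨a, ?_⟩, ?_⟩
  · rw [← mul_smul, ← mul_assoc, ← mul_assoc, ← hn', mul_assoc, mul_smul]
    rw [show Nat.card G • ((n'' * m) • u) = (n'' * m) • (Nat.card G • u) by
      rw [smul_comm]]
    rw [card_nsmul_eq_zero C 1 u, smul_zero]
  · rw [mul_smul, map_nsmul, map_nsmul, ← hm]
    -- `(n' * n'') • x = x` since `p • x = 0`
    have h1 : (n' * n'') • x = 1 • x := by
      rw [nsmul_eq_nsmul_iff_modEq]
      exact hn''.of_dvd (addOrderOf_dvd_of_nsmul_eq_zero hx)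
    rw [h1, one_smul]

/-- **(f3)** a `p`-primary class of `H²(G, C)` killed by `[G : H]` restricts to zero on `H`. -/
theorem resMap_eq_zero_of_index_nsmul (y : H2 C) (hy : IsPPrimary p y) (h : H.index • y = 0) :
    resMap H C 2 y = 0 := by
  have hp : p.Prime := Fact.out
  obtain ⟨m, rfl⟩ := exists_nsmul_eq p C u hu y hy
  obtain ⟨k, hk⟩ := hy
  have h1 : p ^ (Nat.card G).factorization p ∣ H.index * m := by
    apply dvd_of_nsmul_eq_zero p C u hu
    rw [mul_smul]
    exact h
  -- `|G| = [G : H] * |H|`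
  have hGH : Nat.card G = H.index * Nat.card H := by
    rw [mul_comm]; exact (Subgroup.card_mul_index H).symm
  set b := (Nat.card H).factorization p with hb
  obtain ⟨h', hh'⟩ : p ^ b ∣ Nat.card H := Nat.ordProj_dvd _ _
  have hcoph : Nat.Coprime h' p := by
    rw [Nat.coprime_comm, Nat.Prime.coprime_iff_not_dvd hp]
    intro hpn
    have h3 : p ^ (b + 1) ∣ Nat.card H := by
      rw [hh', pow_succ]
      exact Nat.mul_dvd_mul_left _ hpn
    exact Nat.pow_succ_factorization_not_dvd Nat.card_pos.ne' hp h3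
  set w := resMap H C 2 u with hw
  have hw0 : Nat.card H • w = 0 := card_nsmul_eq_zero (resSub H C) 1 w
  -- `p^k • (m • w) = 0`
  have hpk : p ^ k • (m • w) = 0 := by
    rw [hw, ← map_nsmul, ← map_nsmul, hk, map_zero]
  -- the prime-to-`p` part `i'` of the index
  set j := H.index.factorization p with hj
  have hfac : (Nat.card G).factorization p = j + b := by
    rw [hGH, Nat.factorization_mul H.index_ne_zero_of_finite Nat.card_pos.ne']
    rfl
  obtain ⟨i', hi'⟩ : p ^ j ∣ H.index := Nat.ordProj_dvd _ _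
  have hcopi : Nat.Coprime i' p := by
    rw [Nat.coprime_comm, Nat.Prime.coprime_iff_not_dvd hp]
    intro hpn
    have h3 : p ^ (j + 1) ∣ H.index := by
      obtain ⟨c, rfl⟩ := hpn
      exact ⟨c, by rw [hi', pow_succ, mul_assoc]⟩
    exact Nat.pow_succ_factorization_not_dvd H.index_ne_zero_of_finite hp h3
  have h3 : p ^ b ∣ i' * m := by
    have h1' : p ^ j * p ^ b ∣ p ^ j * (i' * m) := by
      rw [← pow_add, ← hfac, ← mul_assoc, ← hi']
      exact h1
    exact (Nat.mul_dvd_mul_iff_left (pow_pos hp.pos _)).mp h1'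
  have h4 : (i' * h') • (m • w) = 0 := by
    obtain ⟨c, hc⟩ := h3
    have h5 : i' * h' * m = Nat.card H * c := by
      rw [hh', mul_assoc, mul_comm h' m, ← mul_assoc, hc]
      ring
    rw [← mul_smul, h5, mul_comm, mul_smul, hw0, smul_zero]
  have hcop : Nat.Coprime (i' * h') (p ^ k) :=
    Nat.Coprime.pow_right _ (Nat.Coprime.mul_left hcopi hcoph)
  have h5 : addOrderOf (m • w) = 1 :=
    Nat.eq_one_of_dvd_coprimes hcop (addOrderOf_dvd_of_nsmul_eq_zero h4)
      (addOrderOf_dvd_of_nsmul_eq_zero hpk)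
  rw [map_nsmul]
  exact AddMonoid.addOrderOf_eq_one_iff.mp h5

/-- **(f5)** the `p`-torsion of `H²(H, C)` is cyclic: any two `p`-torsion classes, the first of
which is nonzero, are multiples of each other. -/
theorem cyclic (x y : H2 (resSub H C)) (hx : p • x = 0) (hy : p • y = 0) (hx0 : x ≠ 0) :
    ∃ n : ℕ, y = n • x := by
  have hp : p.Prime := Fact.out
  have hfund := isFundClass_resSub p C u hu H
  obtain ⟨i, hi⟩ := exists_nsmul_eq p (resSub H C) _ hfund x ⟨1, by rw [pow_one]; exact hx⟩
  obtain ⟨j, hj⟩ := exists_nsmul_eq p (resSub H C) _ hfund y ⟨1, by rw [pow_one]; exact hy⟩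
  have hwfin : IsOfFinAddOrder (resMap H C 2 u) :=
    isOfFinAddOrder_iff_nsmul_eq_zero.mpr
      ⟨Nat.card H, Nat.card_pos, card_nsmul_eq_zero (resSub H C) 1 _⟩
  refine exists_nsmul_eq_of_mem_zmultiples hp hwfin ?_ ?_ hx hy hx0
  · rw [hi]
    exact AddSubgroup.nsmul_mem_zmultiples _ _
  · rw [hj]
    exact AddSubgroup.nsmul_mem_zmultiples _ _

end relative

end Fermat.Agent.TW.GLOB.FundSub9
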