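/-
Programme T (S56, Taylor–Wiles primes), chapter GLOB, task T7 — helper5.

**Class-formation consequences for an open subgroup of a level group.**

`(G, 𝓑)` a level group, `A : Rep ℤ G` discrete with fundamental classes at all finite levels
(`FundHyp12.FundFixed A.ρ 𝓑.sets p`), `U ≤ G` a subgroup containing a member of `𝓑`.
For the level cohomology `Hⁿ(U; A) := Hⁿ(subBasis 𝓑 U; resRep U A)`:
(A1) `H¹(U; A)` has no `p`-primary torsion; (A2) `H²(U; A)[p]` is cyclic;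
(A3) every `p`-torsion class of `H²(U; A)` is the restriction of a `p`-primary class of `H²(G; A)`;
(A4) if `p ∣ [U : V]` for some normal `V ∈ 𝓑`, `V ≤ U`, then `H²(U; A)[p] ≠ 0`;
(A5) a `p`-primary class of `H²(G; A)` killed by `[G : U]` restricts to zero on `U`.
-/
import Mathlib
import Fermat.Agent.PT.PRO.LevelCohColim28
import Fermat.Agent.PT.PRO.FundHyp12
import Fermat.Agent.PT.FG.InfResFlexPrimary8
import Fermat.Agent.TW.GLOB.FundSub9
import Fermat.Agent.TW.GLOB.SubLevel5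
import Fermat.Agent.TW.GLOB.TraceLevel5

set_option autoImplicit false
set_option linter.unusedSectionVars false
set_option linter.style.haveILetI false

open CategoryTheory groupCohomology
open Fermat.Agent.PT.PRO.LevelCoh28 Fermat.Agent.PT.PRO.LevelCohRes28
  Fermat.Agent.PT.PRO.LevelCohColim28 Fermat.Agent.PT.PRO.HyperColim18
  Fermat.Agent.PT.PRO.FundRaw18 Fermat.Agent.PT.PRO.FundHyp12
  Fermat.Agent.PT.FG.Interface8 Fermat.Agent.TW.GLOB.SubLevel5

namespace Fermat.Agent.TW.GLOB.ClassFormSub5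

variable {k : Type} [CommRing k] {G : Type} [Group G] (𝓑 : LevelBasis G) (A : Rep.{0} k G)

/-! ### Torsion classes descend to torsion classes at fine levels -/

section Torsion

variable {𝓑 A}

/-- **A class of `H²(𝓑, A)` killed by `n` and `m` is, at every sufficiently fine finite level,
inflated from a class killed by `n` and `m`.** -/
theorem exists_infl2_eq_torsion (hA : IsDiscrete 𝓑.sets A) (x : H2 𝓑 A) (n m : ℕ)
    (hn : n • x = 0) (hm : m • x = 0) :
    ∃ U ∈ 𝓑.sets, U.Normal ∧ ∀ {Q : Type} [Group Q] [Finite Q] (π : G →* Q)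
      {X : Rep.{0} k Q} (ι : X →ₗ[k] A)
      (hι : ∀ (g : G) (x : X), ι (X.ρ (π g) x) = A.ρ g (ι x))
      (hopen : ∃ V ∈ 𝓑.sets, V ≤ π.ker),
      Function.Surjective π → Function.Injective ι →
      (∀ a : A, (∀ s ∈ π.ker, A.ρ s a = a) → ∃ x, ι x = a) → π.ker ≤ U →
      ∃ y : groupCohomology.H2 X, n • y = 0 ∧ m • y = 0 ∧ infl2 π ι hι hopen y = x := by
  obtain ⟨c, rfl⟩ := H2mk_surjective 𝓑 A x
  -- the two coboundary relations
  have key : ∀ r : ℕ, r • H2mk 𝓑 A c = 0 → ∃ b : G → A, IsLevel₁ 𝓑.sets b ∧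
      (d₁₂ A).hom b = r • (c : G × G → A) := by
    intro r hr
    rw [← map_nsmul, H2mk_eq_zero_iff] at hr
    obtain ⟨b, hb, hbc⟩ := (mem_B2_iff 𝓑 A _).1 hr
    exact ⟨b, hb, hbc⟩
  obtain ⟨bn, hbn, hbnc⟩ := key n hn
  obtain ⟨bm, hbm, hbmc⟩ := key m hm
  obtain ⟨U₀, hU₀, -, hinv₀, hfix₀⟩ := isLevel₂_exists_normal_fixing 𝓑.isBasis hA c.2.2
  obtain ⟨U₁, hU₁, -, hinv₁, hfix₁⟩ := hbn.exists_normal_fixing 𝓑.isBasis hA
  obtain ⟨U₂, hU₂, -, hinv₂, hfix₂⟩ := hbm.exists_normal_fixing 𝓑.isBasis hA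
  obtain ⟨W₁, hW₁, hW₁le⟩ := 𝓑.isBasis.directed U₀ hU₀ U₁ hU₁
  obtain ⟨W₂, hW₂, hW₂le⟩ := 𝓑.isBasis.directed W₁ hW₁ U₂ hU₂
  obtain ⟨U, hU, hUle, hUn⟩ := 𝓑.isBasis.normalCore W₂ hW₂
  have hU0 : U ≤ U₀ := hUle.trans (hW₂le.trans (inf_le_left.trans (hW₁le.trans inf_le_left)))
  have hU1 : U ≤ U₁ := hUle.trans (hW₂le.trans (inf_le_left.trans (hW₁le.trans inf_le_right)))
  have hU2 : U ≤ U₂ := hUle.trans (hW₂le.trans inf_le_right)
  refine ⟨U, hU, hUn, fun {Q} _ _ π {X} ι hι hopen hπ hinj hrange hle => ?_⟩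
  obtain ⟨c', hc'⟩ := exists_descent₂ π ι hπ hrange (hinv₀.mono (hle.trans hU0))
    (fun s hs g => hfix₀ s (hU0 (hle hs)) g)
  obtain ⟨bn', hbn'⟩ := exists_descent₁ π ι hπ hrange (hinv₁.mono (hle.trans hU1))
    (fun s hs g => hfix₁ s (hU1 (hle hs)) g)
  obtain ⟨bm', hbm'⟩ := exists_descent₁ π ι hπ hrange (hinv₂.mono (hle.trans hU2))
    (fun s hs g => hfix₂ s (hU2 (hle hs)) g)
  have hc'Z : c' ∈ cocycles₂ X := mem_cocycles₂_of_pp₂ π ι hι hπ hinj (hc' ▸ c.2.1)
  have hkill : ∀ (r : ℕ) (b : G → A) (b' : Q → X), pp₁ π ι b' = b →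
      (d₁₂ A).hom b = r • (c : G × G → A) → r • H2π X ⟨c', hc'Z⟩ = 0 := by
    intro r b b' hb' hbc
    rw [← map_nsmul, H2π_eq_zero_iff]
    refine ⟨b', ?_⟩
    apply pp₂_injective π ι hπ hinj
    rw [pp₂_d₁₂ π ι hι, hb', hbc]
    show r • (c : G × G → A) = pp₂ π ι (r • c')
    rw [map_nsmul, hc']
  refine ⟨H2π X ⟨c', hc'Z⟩, hkill n bn bn' hbn' hbnc, hkill m bm bm' hbm' hbmc, ?_⟩
  rw [infl2_π]
  congr 1
  exact Subtype.ext hc'

end Torsion

/-! ### The finite levels of `G` -/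

section GLevel

variable (V : Subgroup G) [V.Normal]

/-- The module `A^V` of the finite level `V` of `G` (a `k`-generic abbreviation, so that at
`k = ℤ` the module instance is the one of `A`). -/
abbrev CV : Rep.{0} k (G ⧸ V) := fixedObj V A.ρ

/-- The inclusion `A^V → A`. -/
def ιG : (fixedObj V A.ρ) →ₗ[k] A := (fixedSub V A.ρ).subtype

theorem ιG_equivariant (g : G) (x : fixedObj V A.ρ) :
    ιG A V ((fixedObj V A.ρ).ρ (QuotientGroup.mk' V g) x) = A.ρ g (ιG A V x) := rfl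

theorem ιG_injective : Function.Injective (ιG A V) := Subtype.val_injective

theorem ιG_range (a : A) (h : ∀ s ∈ (QuotientGroup.mk' V).ker, A.ρ s a = a) :
    ∃ x, ιG A V x = a :=
  ⟨⟨a, fun s hs => h s (by rw [QuotientGroup.ker_mk']; exact hs)⟩, rfl⟩

variable {𝓑 V} in
theorem openG (hV : V ∈ 𝓑.sets) : ∃ W ∈ 𝓑.sets, W ≤ (QuotientGroup.mk' V).ker :=
  ⟨V, hV, by rw [QuotientGroup.ker_mk']⟩

variable {𝓑 V} in
theorem finiteG (hV : V ∈ 𝓑.sets) : Finite (G ⧸ V) := std_finite ⟨V, hV, le_rfl⟩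

/-- Inflation `H²(G ⧸ V, A^V) → H²(𝓑, A)`. -/
noncomputable def inflG (hV : V ∈ 𝓑.sets) :
    groupCohomology.H2 (fixedObj V A.ρ) →ₗ[k] H2 𝓑 A :=
  haveI := finiteG hV
  infl2 (QuotientGroup.mk' V) (ιG A V) (ιG_equivariant A V) (openG hV)

variable {𝓑 A} in
/-- Torsion classes of `H²(𝓑, A)` are inflated from torsion classes of all fine levels. -/
theorem exists_inflG_eq_torsion (hA : IsDiscrete 𝓑.sets A) (x : H2 𝓑 A) (n m : ℕ)
    (hn : n • x = 0) (hm : m • x = 0) :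
    ∃ W ∈ 𝓑.sets, ∀ (V : Subgroup G) [V.Normal] (hV : V ∈ 𝓑.sets), V ≤ W →
      ∃ z : groupCohomology.H2 (fixedObj V A.ρ), n • z = 0 ∧ m • z = 0 ∧ inflG 𝓑 A V hV z = x := by
  obtain ⟨W, hW, -, hall⟩ := exists_infl2_eq_torsion hA x n m hn hm
  refine ⟨W, hW, fun V _ hV hVW => ?_⟩
  haveI := finiteG hV
  exact hall (QuotientGroup.mk' V) (ιG A V) (ιG_equivariant A V) (openG hV)
    (QuotientGroup.mk'_surjective V) (ιG_injective A V) (ιG_range A V)
    (by rw [QuotientGroup.ker_mk']; exact hVW)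

end GLevel

/-! ### The finite levels of `U` -/

section ULevel

variable (U : Subgroup G) (V : Subgroup G) [V.Normal]

/-- The image of `U` in `G ⧸ V`. -/
def HU : Subgroup (G ⧸ V) := U.map (QuotientGroup.mk' V)

/-- The projection `U → U V / V`. -/
def πU : U →* HU U V := (QuotientGroup.mk' V).subgroupMap U

theorem πU_surjective : Function.Surjective (πU U V) :=
  MonoidHom.subgroupMap_surjective _ _

theorem coe_πU (s : U) : ((πU U V s : HU U V) : G ⧸ V) = QuotientGroup.mk' V (s : G) := rfl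

theorem mem_ker_πU (s : U) : s ∈ (πU U V).ker ↔ (s : G) ∈ V := by
  rw [MonoidHom.mem_ker, Subtype.ext_iff, coe_πU, Subgroup.coe_one, QuotientGroup.mk'_apply,
    QuotientGroup.eq_one_iff]

theorem ker_πU : (πU U V).ker = V.subgroupOf U := by
  ext s
  rw [mem_ker_πU, Subgroup.mem_subgroupOf]

/-- The module of the finite level `V` of `U`: `A^V` restricted to `U V / V`. -/
abbrev XU : Rep.{0} k (HU U V) := Rep.res (HU U V).subtype (fixedObj V A.ρ)

/-- The inclusion `A^V → A`. -/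
def ιU : (XU A U V) →ₗ[k] (resRep U A) := (fixedSub V A.ρ).subtype

theorem ιU_equivariant (s : U) (x : XU A U V) :
    ιU A U V ((XU A U V).ρ (πU U V s) x) = (resRep U A).ρ s (ιU A U V x) := rfl

theorem ιU_injective : Function.Injective (ιU A U V) := Subtype.val_injective

variable {U V} in
theorem ιU_range (hVU : V ≤ U) (a : resRep U A)
    (h : ∀ s ∈ (πU U V).ker, (resRep U A).ρ s a = a) : ∃ x, ιU A U V x = a :=
  ⟨⟨a, fun s hs => h ⟨s, hVU hs⟩ ((mem_ker_πU U V _).2 hs)⟩, rfl⟩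

variable {𝓑 V} in
theorem openU (hV : V ∈ 𝓑.sets) : ∃ W ∈ (subBasis 𝓑 U).sets, W ≤ (πU U V).ker :=
  ⟨V.subgroupOf U, subgroupOf_mem_subSets U hV, by rw [ker_πU]⟩

variable {𝓑 V} in
theorem finiteU (hV : V ∈ 𝓑.sets) : Finite (HU U V) :=
  haveI := finiteG hV
  inferInstance

/-- Inflation `H²(U V / V, A^V) → H²(U; A)`. -/
noncomputable def inflU (hV : V ∈ 𝓑.sets) :
    groupCohomology.H2 (XU A U V) →ₗ[k] H2 (subBasis 𝓑 U) (resRep U A) :=
  haveI := finiteU U hV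
  infl2 (πU U V) (ιU A U V) (ιU_equivariant A U V) (openU U hV)

/-- Inflation `H¹(U V / V, A^V) → H¹(U; A)`. -/
noncomputable def inflU1 (hV : V ∈ 𝓑.sets) :
    groupCohomology.H1 (XU A U V) →ₗ[k] H1 (subBasis 𝓑 U) (resRep U A) :=
  haveI := finiteU U hV
  infl1 (πU U V) (ιU A U V) (ιU_equivariant A U V) (openU U hV)

variable {U V} in
theorem inflU1_injective (hV : V ∈ 𝓑.sets) (hVU : V ≤ U) :
    Function.Injective (inflU1 𝓑 A U V hV) :=
  haveI := finiteU U hV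
  infl1_injective (πU U V) (ιU A U V) (ιU_equivariant A U V) (openU U hV) (πU_surjective U V)
    (ιU_injective A U V) (ιU_range A hVU)

variable {𝓑 A} in
/-- Torsion classes of `H²(U; A)` are inflated from torsion classes of all fine levels. -/
theorem exists_inflU_eq_torsion (hA : IsDiscrete 𝓑.sets A)
    (x : H2 (subBasis 𝓑 U) (resRep U A)) (n m : ℕ) (hn : n • x = 0) (hm : m • x = 0) :
    ∃ W ∈ 𝓑.sets, ∀ (V : Subgroup G) [V.Normal] (hV : V ∈ 𝓑.sets), V ≤ W → V ≤ U →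
      ∃ a : groupCohomology.H2 (XU A U V), n • a = 0 ∧ m • a = 0 ∧ inflU 𝓑 A U V hV a = x := by
  obtain ⟨W', ⟨W, hW, rfl⟩, -, hall⟩ :=
    exists_infl2_eq_torsion (isDiscrete_resRep U hA) x n m hn hm
  refine ⟨W, hW, fun V _ hV hVW hVU => ?_⟩
  haveI := finiteU U hV
  exact hall (πU U V) (ιU A U V) (ιU_equivariant A U V) (openU U hV) (πU_surjective U V)
    (ιU_injective A U V) (ιU_range A hVU)
    (by rw [ker_πU]; exact Subgroup.comap_mono hVW)

variable {𝓑 A} in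
/-- Classes of `H¹(U; A)` are inflated from all fine levels. -/
theorem exists_inflU1_eq (hA : IsDiscrete 𝓑.sets A) (x : H1 (subBasis 𝓑 U) (resRep U A)) :
    ∃ W ∈ 𝓑.sets, ∀ (V : Subgroup G) [V.Normal] (hV : V ∈ 𝓑.sets), V ≤ W → V ≤ U →
      ∃ a : groupCohomology.H1 (XU A U V), inflU1 𝓑 A U V hV a = x := by
  obtain ⟨W', ⟨W, hW, rfl⟩, -, hall⟩ := exists_infl1_eq (isDiscrete_resRep U hA) x
  refine ⟨W, hW, fun V _ hV hVW hVU => ?_⟩
  haveI := finiteU U hV
  exact hall (πU U V) (ιU A U V) (ιU_equivariant A U V) (openU U hV) (πU_surjective U V)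
    (ιU_injective A U V) (ιU_range A hVU)
    (by rw [ker_πU]; exact Subgroup.comap_mono hVW)

/-- **Restriction commutes with inflation.** -/
theorem resH2_inflG (hV : V ∈ 𝓑.sets) (z : groupCohomology.H2 (fixedObj V A.ρ)) :
    resH2 𝓑 U A (inflG 𝓑 A V hV z) =
      inflU 𝓑 A U V hV ((groupCohomology.map (HU U V).subtype (𝟙 (XU A U V)) 2).hom z) := by
  haveI := finiteG hV
  haveI := finiteU U hV
  induction z using H2_induction_on with
  | h c =>
    have h1 := H2π_comp_map_apply (HU U V).subtype (𝟙 (XU A U V)) c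
    rw [h1]
    unfold inflG inflU resH2
    rw [infl2_π, infl2_π, ppH2_mk]
    congr 1

end ULevel

/-! ### Transitions between the finite levels of `U` -/

section Transition

variable (U : Subgroup G) {V V' : Subgroup G} [V.Normal] [V'.Normal] (h : V' ≤ V)

/-- The transition `U V' / V' → U V / V`. -/
def tU : HU U V' →* HU U V :=
  ((stdT h).comp (HU U V').subtype).codRestrict (HU U V) (fun q => by
    obtain ⟨u, hu, hq⟩ := q.2
    refine ⟨u, hu, ?_⟩
    show QuotientGroup.mk' V u = stdT h (q : G ⧸ V')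
    rw [← hq]
    rfl)

theorem tU_πU (s : U) : tU U h (πU U V' s) = πU U V s := Subtype.ext rfl

theorem tU_surjective : Function.Surjective (tU U h) := by
  intro q
  obtain ⟨s, rfl⟩ := πU_surjective U V q
  exact ⟨πU U V' s, tU_πU U h s⟩

/-- The transition `A^V → A^{V'}`. -/
def jU : (XU A U V) →ₗ[k] (XU A U V') :=
  Submodule.inclusion (fun _ ha s hs => ha s (h hs))

theorem ιU_jU (x : XU A U V) : ιU A U V' (jU A U h x) = ιU A U V x := rfl

theorem jU_injective : Function.Injective (jU A U h) := Submodule.inclusion_injective _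

theorem jU_equivariant (q : HU U V') (x : XU A U V) :
    jU A U h ((XU A U V).ρ (tU U h q) x) = (XU A U V').ρ q (jU A U h x) := by
  obtain ⟨s, rfl⟩ := πU_surjective U V' q
  exact Subtype.ext rfl

/-- The transition map on `H²`. -/
noncomputable def transU :
    groupCohomology.H2 (XU A U V) →ₗ[k] groupCohomology.H2 (XU A U V') :=
  (groupCohomology.map (tU U h) (repHom (tU U h) (jU A U h) (jU_equivariant A U h)) 2).hom

theorem inflU_transU (hV : V ∈ 𝓑.sets) (hV' : V' ∈ 𝓑.sets) (a : groupCohomology.H2 (XU A U V)) :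
    inflU 𝓑 A U V' hV' (transU A U h a) = inflU 𝓑 A U V hV a := by
  haveI := finiteU U hV
  haveI := finiteU U hV'
  exact infl2_map (πU U V) (ιU A U V) (ιU_equivariant A U V) (openU U hV) (πU U V') (ιU A U V')
    (ιU_equivariant A U V') (openU U hV') (tU U h) (jU A U h) (tU_πU U h) (ιU_jU A U h)
    (jU_equivariant A U h) a

end Transition

section TransitionZero

variable (U : Subgroup G) {V : Subgroup G} [V.Normal]

variable {𝓑 A} in
/-- A class of a finite level of `U` whose inflation vanishes dies at a finer level. -/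
theorem exists_transU_eq_zero (hA : IsDiscrete 𝓑.sets A) (hV : V ∈ 𝓑.sets)
    (a : groupCohomology.H2 (XU A U V)) (h0 : inflU 𝓑 A U V hV a = 0) :
    ∃ (V' : Subgroup G) (_ : V' ∈ 𝓑.sets) (hn : V'.Normal) (h : V' ≤ V), V' ≤ U →
      haveI := hn
      transU A U h a = 0 := by
  haveI := finiteU U hV
  obtain ⟨W', ⟨W, hW, rfl⟩, -, hall⟩ := exists_map_eq_zero_of_infl2_eq_zero (πU U V) (ιU A U V)
    (ιU_equivariant A U V) (openU U hV) (isDiscrete_resRep U hA) a h0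
  obtain ⟨W₁, hW₁, hW₁le⟩ := 𝓑.isBasis.directed W hW V hV
  obtain ⟨V', hV', hV'le, hn⟩ := 𝓑.isBasis.normalCore W₁ hW₁
  have hV'V : V' ≤ V := hV'le.trans (hW₁le.trans inf_le_right)
  have hV'W : V' ≤ W := hV'le.trans (hW₁le.trans inf_le_left)
  refine ⟨V', hV', hn, hV'V, fun hV'U => ?_⟩
  haveI := hn
  exact hall (πU U V') (ιU A U V') (ιU_equivariant A U V') (tU U hV'V) (jU A U hV'V)
    (jU_equivariant A U hV'V) (tU_πU U hV'V) (ιU_jU A U hV'V) (πU_surjective U V')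
    (ιU_injective A U V') (ιU_range A hV'U)
    (by rw [ker_πU]; exact Subgroup.comap_mono hV'W)

end TransitionZero

/-! ### The class-formation consequences (`k = ℤ`) -/

section Int

open Fermat.Agent.TW.GLOB.FundSub9

/-- Fundamental classes at all finite levels of `(G, 𝓑, A)`
(`FundHyp12.FundFixed A.ρ 𝓑.sets p`, with the module instance of `A`). -/
def FundAt {G : Type} [Group G] (𝓑 : LevelBasis G) (A : Rep.{0} ℤ G) (p : ℕ) : Prop :=
  ∀ V ∈ 𝓑.sets, ∀ hn : V.Normal, haveI := hn;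
    ∃ u : groupCohomology.H2 (CV A V), IsFundClass p (CV A V) u

variable {G : Type} [Group G] {𝓑 : LevelBasis G} {A : Rep.{0} ℤ G} (hA : IsDiscrete 𝓑.sets A)
  {p : ℕ} [Fact p.Prime] (hfund : FundAt 𝓑 A p)
  (U : Subgroup G) (hU : ∃ V₀ ∈ 𝓑.sets, V₀ ≤ U)

include hU in
/-- A normal member of the basis below `W` and inside `U`. -/
theorem exists_normal_le (W : Subgroup G) (hW : W ∈ 𝓑.sets) :
    ∃ V ∈ 𝓑.sets, V.Normal ∧ V ≤ W ∧ V ≤ U := by
  obtain ⟨V₀, hV₀, hV₀U⟩ := hU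
  obtain ⟨W₁, hW₁, hW₁le⟩ := 𝓑.isBasis.directed W hW V₀ hV₀
  obtain ⟨V, hV, hVle, hn⟩ := 𝓑.isBasis.normalCore W₁ hW₁
  exact ⟨V, hV, hn, hVle.trans (hW₁le.trans inf_le_left),
    hVle.trans (hW₁le.trans (inf_le_right.trans hV₀U))⟩

include hA hfund hU in
/-- **(A1)** `H¹(U; A)` has no `p`-primary torsion. -/
theorem eq_zero_of_isPPrimary_H1 (x : H1 (subBasis 𝓑 U) (resRep U A)) (hx : IsPPrimary p x) :
    x = 0 := by
  obtain ⟨W, hW, hall⟩ := exists_inflU1_eq U hA x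
  obtain ⟨V, hV, hn, hVW, hVU⟩ := exists_normal_le U hU W hW
  haveI := hn
  haveI := finiteG hV
  obtain ⟨a, rfl⟩ := hall V hV hVW hVU
  obtain ⟨u, hu⟩ := hfund V hV hn
  obtain ⟨j, hj⟩ := hx
  have ha : p ^ j • a = 0 := by
    apply inflU1_injective 𝓑 A hV hVU
    rw [map_nsmul, hj, map_zero]
  rw [eq_zero_of_isPPrimary_H1_resSub p (CV A V) u hu (HU U V) a ⟨j, ha⟩, map_zero]

include hA hfund hU in
/-- **(A2)** The `p`-torsion of `H²(U; A)` is cyclic. -/
theorem cyclic_H2 (x y : H2 (subBasis 𝓑 U) (resRep U A)) (hx : p • x = 0) (hy : p • y = 0)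
    (hx0 : x ≠ 0) : ∃ n : ℕ, y = n • x := by
  obtain ⟨W₁, hW₁, hall₁⟩ := exists_inflU_eq_torsion U hA x p p hx hx
  obtain ⟨W₂, hW₂, hall₂⟩ := exists_inflU_eq_torsion U hA y p p hy hy
  obtain ⟨W, hW, hWle⟩ := 𝓑.isBasis.directed W₁ hW₁ W₂ hW₂
  obtain ⟨V, hV, hn, hVW, hVU⟩ := exists_normal_le U hU W hW
  haveI := hn
  haveI := finiteG hV
  obtain ⟨a, ha, -, rfl⟩ := hall₁ V hV (hVW.trans (hWle.trans inf_le_left)) hVU
  obtain ⟨b, hb, -, rfl⟩ := hall₂ V hV (hVW.trans (hWle.trans inf_le_right)) hVU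
  obtain ⟨u, hu⟩ := hfund V hV hn
  have ha0 : a ≠ 0 := fun h => hx0 (by rw [h, map_zero])
  obtain ⟨n, hn'⟩ := cyclic p (CV A V) u hu (HU U V) a b ha hb ha0
  exact ⟨n, by rw [hn', map_nsmul]⟩

include hA hfund hU in
/-- **(A3)** Every `p`-torsion class of `H²(U; A)` is the restriction of a `p`-primary class of
`H²(G; A)`. -/
theorem exists_resH2_eq (x : H2 (subBasis 𝓑 U) (resRep U A)) (hx : p • x = 0) :
    ∃ y : H2 𝓑 A, IsPPrimary p y ∧ resH2 𝓑 U A y = x := by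
  obtain ⟨W, hW, hall⟩ := exists_inflU_eq_torsion U hA x p p hx hx
  obtain ⟨V, hV, hn, hVW, hVU⟩ := exists_normal_le U hU W hW
  haveI := hn
  haveI := finiteG hV
  obtain ⟨a, ha, -, rfl⟩ := hall V hV hVW hVU
  obtain ⟨u, hu⟩ := hfund V hV hn
  obtain ⟨z, ⟨j, hj⟩, hz⟩ := exists_resMap_eq p (CV A V) u hu (HU U V) a ha
  refine ⟨inflG 𝓑 A V hV z, ⟨j, by rw [← map_nsmul, hj, map_zero]⟩, ?_⟩
  rw [resH2_inflG]
  exact congrArg _ hz

theorem card_HU (V : Subgroup G) [V.Normal] : Nat.card (HU U V) = V.relIndex U := by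
  have h := Subgroup.relIndex_ker (QuotientGroup.mk' V) (K := U)
  rw [QuotientGroup.ker_mk'] at h
  exact h.symm

theorem index_HU {V : Subgroup G} [V.Normal] (hVU : V ≤ U) : (HU U V).index = U.index :=
  Subgroup.index_map_eq U (QuotientGroup.mk'_surjective V)
    (by rw [QuotientGroup.ker_mk']; exact hVU)

include hA hfund hU in
/-- **(A5)** A `p`-primary class of `H²(G; A)` killed by `[G : U]` restricts to zero on `U`. -/
theorem resH2_eq_zero_of_index_nsmul (y : H2 𝓑 A) (hy : IsPPrimary p y)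
    (h : U.index • y = 0) : resH2 𝓑 U A y = 0 := by
  obtain ⟨j, hj⟩ := hy
  obtain ⟨W, hW, hall⟩ := exists_inflG_eq_torsion hA y (p ^ j) U.index hj h
  obtain ⟨V, hV, hn, hVW, hVU⟩ := exists_normal_le U hU W hW
  haveI := hn
  haveI := finiteG hV
  obtain ⟨z, hz1, hz2, rfl⟩ := hall V hV hVW
  obtain ⟨u, hu⟩ := hfund V hV hn
  rw [resH2_inflG]
  have h0 := resMap_eq_zero_of_index_nsmul p (CV A V) u hu (HU U V) z ⟨j, hz1⟩
    (by rw [index_HU U hVU]; exact hz2)
  have h1 : (groupCohomology.map (HU U V).subtype (𝟙 (XU A U V)) 2).hom z = 0 := h0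
  rw [h1, map_zero]

/-- The transition maps of the tower of `U` are injective on `p`-primary classes. -/
theorem eq_zero_of_transU_eq_zero {V V' : Subgroup G} [V.Normal] [V'.Normal] (h : V' ≤ V)
    (hVU : V ≤ U) [Finite (G ⧸ V')] (u' : groupCohomology.H2 (CV A V'))
    (hu' : IsFundClass p (CV A V') u') (a : groupCohomology.H2 (XU A U V))
    (ha : ∃ j : ℕ, p ^ j • a = 0) (h0 : transU A U h a = 0) : a = 0 := by
  have hfund' := isFundClass_resSub p (CV A V') u' hu' (HU U V')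
  refine Fermat.Agent.PT.FG.InfResFlexPrimary8.eq_zero_of_map_inf_eq_zero_of_pPrimary
    (tU U h).ker.subtype (tU U h) (tU_surjective U h) (Subgroup.range_subtype _)
    (XU A U V) (XU A U V') (repHom (tU U h) (jU A U h) (jU_equivariant A U h))
    (jU_injective A U h) ?_ (p := p) ?_ a ha h0
  · intro x hx
    refine ⟨⟨ιU A U V' x, fun s hs => ?_⟩, rfl⟩
    have hmem : πU U V' ⟨s, hVU hs⟩ ∈ (tU U h).ker := by
      rw [MonoidHom.mem_ker, tU_πU]
      exact (mem_ker_πU U V _).2 hs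
    exact congrArg Subtype.val (hx ⟨_, hmem⟩)
  · intro P _ hP
    haveI := hfund'.h1 P hP
    exact ModuleCat.isZero_of_subsingleton _

include hA hfund in
/-- **(A4)** If `p ∣ [U : V]` for a normal `V ∈ 𝓑`, `V ≤ U`, then `H²(U; A)[p] ≠ 0`. -/
theorem exists_ne_zero_H2 (V : Subgroup G) [hn : V.Normal] (hV : V ∈ 𝓑.sets) (hVU : V ≤ U)
    (hdiv : p ∣ V.relIndex U) :
    ∃ x : H2 (subBasis 𝓑 U) (resRep U A), p • x = 0 ∧ x ≠ 0 := by
  haveI := finiteG hV
  obtain ⟨u, hu⟩ := hfund V hV hn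
  obtain ⟨e, he, he0⟩ := exists_ne_zero p (CV A V) u hu (HU U V)
    (by rw [card_HU]; exact hdiv)
  refine ⟨inflU 𝓑 A U V hV e, by rw [← map_nsmul, he, map_zero], fun h0 => he0 ?_⟩
  obtain ⟨V', hV', hn', hV'V, hall⟩ := exists_transU_eq_zero U hA hV e h0
  haveI := hn'
  haveI := finiteG hV'
  obtain ⟨u', hu'⟩ := hfund V' hV' hn'
  exact eq_zero_of_transU_eq_zero U hV'V hVU u' hu' e ⟨1, by rw [pow_one]; exact he⟩
    (hall (hV'V.trans hVU))

section Normal

variable [hUn : U.Normal]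

include hA hfund hU in
/-- The conjugation action of `G ⧸ U` on `H²(U; A)[p]` is trivial. -/
theorem repH2_eq_self_of_torsion (q : G ⧸ U) (x : H2 (subBasis 𝓑 U) (resRep U A))
    (hx : p • x = 0) : repH2 𝓑 U A q x = x := by
  obtain ⟨y, -, rfl⟩ := exists_resH2_eq hA hfund U hU x hx
  exact repH2_resH2 𝓑 U A q y

include hfund hU in
/-- **The corestriction `H²(U; A) → H²(G; A)` is injective on `p`-torsion.** -/
theorem eq_zero_of_trH2_eq_zero [Fintype (G ⧸ U)] (x : H2 (subBasis 𝓑 U) (resRep U A))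
    (hx : p • x = 0) (h0 : Fermat.Agent.TW.GLOB.TraceLevel5.trH2 𝓑 U hA x = 0) : x = 0 := by
  obtain ⟨y, hy, rfl⟩ := exists_resH2_eq hA hfund U hU x hx
  rw [Fermat.Agent.TW.GLOB.TraceLevel5.trH2_resH2] at h0
  apply resH2_eq_zero_of_index_nsmul hA hfund U hU y hy
  rw [Subgroup.index, Nat.card_eq_fintype_card]
  exact h0

end Normal

end Int

end Fermat.Agent.TW.GLOB.ClassFormSub5
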