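/-
Programme T (S56, Taylor–Wiles primes), chapter GLOB, task T7 — helper5.

**(A1')**  For a class formation `(G, 𝓑, A)` with fundamental classes at `p` and an open subgroup
`U`, every class of `H¹(U; A)` has finite order prime to `p`.
-/
import Mathlib
import Fermat.Agent.TW.GLOB.ClassFormSub5
import Fermat.Agent.PT.FG.Transfer2

set_option autoImplicit false
set_option linter.unusedSectionVars false
set_option linter.style.haveILetI false

open CategoryTheory groupCohomology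
open Fermat.Agent.PT.PRO.LevelCoh28 Fermat.Agent.PT.PRO.LevelCohRes28
  Fermat.Agent.PT.FG.Interface8 Fermat.Agent.TW.GLOB.SubLevel5
  Fermat.Agent.TW.GLOB.ClassFormSub5

namespace Fermat.Agent.TW.GLOB.ClassFormTors5

variable {G : Type} [Group G] {𝓑 : LevelBasis G} {A : Rep.{0} ℤ G} (hA : IsDiscrete 𝓑.sets A)
  {p : ℕ} [Fact p.Prime] (hfund : FundAt 𝓑 A p)
  (U : Subgroup G) (hU : ∃ V₀ ∈ 𝓑.sets, V₀ ≤ U)

include hA hfund hU in
/-- **(A1')** Every class of `H¹(U; A)` has finite order prime to `p`. -/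
theorem exists_coprime_nsmul_eq_zero_H1 (x : H1 (subBasis 𝓑 U) (resRep U A)) :
    ∃ m : ℕ, m.Coprime p ∧ m • x = 0 := by
  have hp : p.Prime := Fact.out
  obtain ⟨W, hW, hall⟩ := exists_inflU1_eq U hA x
  obtain ⟨V, hV, hn, hVW, hVU⟩ := exists_normal_le U hU W hW
  haveI := hn
  haveI := finiteU U hV
  obtain ⟨a, rfl⟩ := hall V hV hVW hVU
  have h1 : Nat.card (HU U V) • a = 0 :=
    Fermat.Agent.PT.FG.Transfer2.card_nsmul_eq_zero (XU A U V) 0 a
  obtain ⟨j, m, hm, hcard⟩ :=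
    Nat.exists_eq_pow_mul_and_not_dvd (Nat.card_pos (α := HU U V)).ne' p hp.ne_one
  refine ⟨m, ((Nat.Prime.coprime_iff_not_dvd hp).2 hm).symm, ?_⟩
  apply eq_zero_of_isPPrimary_H1 hA hfund U hU
  refine ⟨j, ?_⟩
  rw [← mul_nsmul', ← hcard, ← map_nsmul, h1, map_zero]

end Fermat.Agent.TW.GLOB.ClassFormTors5
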