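/-
Programme T (S56, Taylor–Wiles primes), chapter GLOB, task T7 (Tate's global Euler–Poincaré
formula), framework brick — helper5.

**Mackey / projection formula for `Coind_U^G Res_U Coind_H^G A`.**  `G` a group with level basis `𝓑`,
`U ≤ G` normal and open, `r : H →* G`, `A` an `H`-module.  Then

  `kap : Coind_U^G (Coind_{H→G}^sm A) ≃ Coind_{H→G}^sm (Fun(G/U, A))`,
  `(kap F)(y)(ḡ) = F(g⁻¹ y)(g)`,

is a `G`-equivariant linear isomorphism (`kap`, `kapInv`, `kap_equivariant`) which carries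
* the translation `T_γ` of `ShapiroConj5` to `Coind(R_γ̄)` (`kap_transl`), and
* the trace `avgSum` of `ResInvariants5` to `Coind(∑)` (`avgSum_eq_sumQ_kap`).
-/
import Mathlib
import Fermat.Agent.TW.GLOB.FunQ5

set_option autoImplicit false
set_option linter.unusedSectionVars false

universe u

open CategoryTheory groupCohomology
open Fermat.Agent.PT.PRO.LevelCoh28 Fermat.Agent.PT.PRO.LevelCohRes28
  Fermat.Agent.PT.PRO.SmoothCoind28 Fermat.Agent.PT.PRO.ShapiroLevel28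
  Fermat.Agent.TW.GLOB.SubLevel5 Fermat.Agent.TW.GLOB.ShapiroConj5
  Fermat.Agent.TW.GLOB.ResInvariants5 Fermat.Agent.TW.GLOB.FunQ5

namespace Fermat.Agent.TW.GLOB.CoindFunQ5

variable {k G H : Type u} [CommRing k] [Group G] [Group H]
variable (𝓑 : LevelBasis G) (U : Subgroup G) [hU : U.Normal] (r : H →* G) (A : Rep.{u} k H)

/-- The two-variable function attached to `F ∈ Coind_U^G Coind_H^G A`. -/
def theta (F : coindRes 𝓑 U (scoind (k := k) r 𝓑 A)) (a g : G) : A := (F.1 a).1 g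

theorem theta_smul_left (F : coindRes 𝓑 U (scoind (k := k) r 𝓑 A)) (s : U) (a g : G) :
    theta 𝓑 U r A F ((s : G) * a) g = theta 𝓑 U r A F a (g * (s : G)) := by
  have h := F.2.1 s a
  rw [Subgroup.coe_subtype] at h
  show (F.1 ((s : G) * a)).1 g = (F.1 a).1 (g * (s : G))
  rw [h]
  rfl

theorem theta_equivariant (F : coindRes 𝓑 U (scoind (k := k) r 𝓑 A)) (h : H) (a g : G) :
    theta 𝓑 U r A F a (r h * g) = A.ρ h (theta 𝓑 U r A F a g) :=
  (F.1 a).2.1 h g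

/-- `Θ(g⁻¹ y, g)` only depends on the class of `g` modulo `U`. -/
theorem theta_wd (F : coindRes 𝓑 U (scoind (k := k) r 𝓑 A)) (y g g' : G)
    (h : (g : G ⧸ U) = (g' : G ⧸ U)) :
    theta 𝓑 U r A F (g⁻¹ * y) g = theta 𝓑 U r A F (g'⁻¹ * y) g' := by
  have hs : g⁻¹ * g' ∈ U := QuotientGroup.eq.1 h
  have h1 : g'⁻¹ * y = ((⟨g⁻¹ * g', hs⟩ : U)⁻¹ : U) * (g⁻¹ * y) := by
    show g'⁻¹ * y = (g⁻¹ * g')⁻¹ * (g⁻¹ * y)
    group
  rw [h1, theta_smul_left]
  congr 1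
  show g = g' * (g⁻¹ * g')⁻¹
  group

/-- The function `ḡ ↦ Θ(g⁻¹ y, g)`. -/
noncomputable def kapFun (F : coindRes 𝓑 U (scoind (k := k) r 𝓑 A)) (y : G) : (G ⧸ U) → A :=
  fun x => theta 𝓑 U r A F ((Quotient.out x)⁻¹ * y) (Quotient.out x)

theorem kapFun_mk (F : coindRes 𝓑 U (scoind (k := k) r 𝓑 A)) (y g : G) :
    kapFun 𝓑 U r A F y (g : G ⧸ U) = theta 𝓑 U r A F (g⁻¹ * y) g :=
  theta_wd 𝓑 U r A F y _ _ (QuotientGroup.out_eq' (g : G ⧸ U))

/-- `kap F ∈ Coind_{H→G}^sm Fun(G/U, A)`. -/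
noncomputable def kap :
    coindRes 𝓑 U (scoind (k := k) r 𝓑 A) →ₗ[k] scoind (k := k) r 𝓑 (FunQ U r A) where
  toFun F := ⟨fun y => (fe U r A).symm (kapFun 𝓑 U r A F y), by
    refine ⟨fun h y => ?_, ?_⟩
    · apply fe_injective
      funext x
      induction x using QuotientGroup.induction_on with
      | H g =>
        rw [fe_ρ, fe_symm_apply, fe_symm_apply, kapFun_mk]
        have e : (rbar U r h)⁻¹ * (g : G ⧸ U) = (((r h)⁻¹ * g : G) : G ⧸ U) := rfl
        rw [e, kapFun_mk, ← theta_equivariant, mul_inv_cancel_left, mul_inv_rev, inv_inv,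
          mul_assoc]
    · obtain ⟨V, hV, hinv⟩ := F.2.2
      refine ⟨V, hV, fun y s hs => ?_⟩
      apply fe_injective
      funext x
      rw [fe_symm_apply, fe_symm_apply]
      show (F.1 ((Quotient.out x)⁻¹ * (y * s))).1 _ = (F.1 ((Quotient.out x)⁻¹ * y)).1 _
      rw [← mul_assoc, hinv _ s hs]⟩
  map_add' F F' := Subtype.ext (funext fun y => by
    apply fe_injective
    funext x
    rfl)
  map_smul' c F := Subtype.ext (funext fun y => by
    apply fe_injective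
    funext x
    rfl)

theorem kap_apply_mk (F : coindRes 𝓑 U (scoind (k := k) r 𝓑 A)) (y g : G) :
    fe U r A ((kap 𝓑 U r A F).1 y) (g : G ⧸ U) = (F.1 (g⁻¹ * y)).1 g :=
  kapFun_mk 𝓑 U r A F y g

theorem kap_equivariant (γ : G) (F : coindRes 𝓑 U (scoind (k := k) r 𝓑 A)) :
    kap 𝓑 U r A ((coindRes 𝓑 U (scoind (k := k) r 𝓑 A)).ρ γ F) =
      (scoind (k := k) r 𝓑 (FunQ U r A)).ρ γ (kap 𝓑 U r A F) := by
  refine Subtype.ext (funext fun y => ?_)
  apply fe_injective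
  funext x
  induction x using QuotientGroup.induction_on with
  | H g =>
    rw [kap_apply_mk]
    show (F.1 (g⁻¹ * y * γ)).1 g = fe U r A ((kap 𝓑 U r A F).1 (y * γ)) (g : G ⧸ U)
    rw [kap_apply_mk, mul_assoc]

variable (hopen : ∃ V ∈ 𝓑.sets, V ≤ U)

/-- The inverse of `kap`: `(kapInv Ξ)(a)(g) = Ξ(g a)(ḡ)`. -/
noncomputable def kapInv :
    scoind (k := k) r 𝓑 (FunQ U r A) →ₗ[k] coindRes 𝓑 U (scoind (k := k) r 𝓑 A) where
  toFun Ξ := ⟨fun a => ⟨fun g => fe U r A (Ξ.1 (g * a)) (g : G ⧸ U), by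
      refine ⟨fun h g => ?_, ?_⟩
      · show fe U r A (Ξ.1 (r h * g * a)) ((r h * g : G) : G ⧸ U) =
          A.ρ h (fe U r A (Ξ.1 (g * a)) (g : G ⧸ U))
        rw [mul_assoc, Ξ.2.1 h (g * a), fe_ρ]
        have e : (rbar U r h)⁻¹ * ((r h * g : G) : G ⧸ U) = (g : G ⧸ U) := by
          show ((r h : G) : G ⧸ U)⁻¹ * (((r h : G) : G ⧸ U) * (g : G ⧸ U)) = _
          rw [inv_mul_cancel_left]
        rw [e]
      · obtain ⟨V₁, hV₁, hinv⟩ := Ξ.2.2
        obtain ⟨V₀, hV₀, hV₀U⟩ := hopen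
        obtain ⟨W, hW, hWle⟩ := 𝓑.isBasis.directed V₁ hV₁ V₀ hV₀
        obtain ⟨V, hV, hVW, hn⟩ := 𝓑.isBasis.normalCore W hW
        refine ⟨V, hV, fun g s hs => ?_⟩
        show fe U r A (Ξ.1 (g * s * a)) ((g * s : G) : G ⧸ U) =
          fe U r A (Ξ.1 (g * a)) (g : G ⧸ U)
        have h1 : ((g * s : G) : G ⧸ U) = (g : G ⧸ U) := by
          rw [QuotientGroup.eq]
          have : (g * s)⁻¹ * g = s⁻¹ := by group
          rw [this]
          exact U.inv_mem (hV₀U ((hWle.trans inf_le_right) (hVW hs)))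
        have h2 : g * s * a = g * a * (a⁻¹ * s * a) := by group
        have h3 : a⁻¹ * s * a ∈ V₁ := by
          have := hn.conj_mem s hs a⁻¹
          rw [inv_inv] at this
          exact (hWle.trans inf_le_left) (hVW this)
        rw [h1, h2, hinv _ _ h3]⟩, by
    refine ⟨fun s a => ?_, ?_⟩
    · refine Subtype.ext (funext fun g => ?_)
      show fe U r A (Ξ.1 (g * (U.subtype s * a))) (g : G ⧸ U) =
        fe U r A (Ξ.1 (g * (s : G) * a)) ((g * (s : G) : G) : G ⧸ U)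
      have h1 : ((g * (s : G) : G) : G ⧸ U) = (g : G ⧸ U) := by
        rw [QuotientGroup.eq]
        have : (g * (s : G))⁻¹ * g = (s : G)⁻¹ := by group
        rw [this]
        exact U.inv_mem s.2
      rw [h1, Subgroup.coe_subtype, mul_assoc]
    · obtain ⟨V₁, hV₁, hinv⟩ := Ξ.2.2
      refine ⟨V₁, hV₁, fun a s hs => ?_⟩
      refine Subtype.ext (funext fun g => ?_)
      show fe U r A (Ξ.1 (g * (a * s))) (g : G ⧸ U) = fe U r A (Ξ.1 (g * a)) (g : G ⧸ U)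
      rw [← mul_assoc, hinv _ s hs]⟩
  map_add' Ξ Ξ' := Subtype.ext (funext fun a => Subtype.ext (funext fun g => rfl))
  map_smul' c Ξ := Subtype.ext (funext fun a => Subtype.ext (funext fun g => rfl))

theorem kapInv_apply (Ξ : scoind (k := k) r 𝓑 (FunQ U r A)) (a g : G) :
    ((kapInv 𝓑 U r A hopen Ξ).1 a).1 g = fe U r A (Ξ.1 (g * a)) (g : G ⧸ U) := rfl

theorem kap_kapInv (Ξ : scoind (k := k) r 𝓑 (FunQ U r A)) :
    kap 𝓑 U r A (kapInv 𝓑 U r A hopen Ξ) = Ξ := by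
  refine Subtype.ext (funext fun y => ?_)
  apply fe_injective
  funext x
  induction x using QuotientGroup.induction_on with
  | H g => rw [kap_apply_mk, kapInv_apply, mul_inv_cancel_left]

theorem kapInv_kap (F : coindRes 𝓑 U (scoind (k := k) r 𝓑 A)) :
    kapInv 𝓑 U r A hopen (kap 𝓑 U r A F) = F := by
  refine Subtype.ext (funext fun a => Subtype.ext (funext fun g => ?_))
  rw [kapInv_apply, kap_apply_mk, inv_mul_cancel_left]

/-- `kap` as a linear equivalence. -/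
noncomputable def kapEquiv :
    coindRes 𝓑 U (scoind (k := k) r 𝓑 A) ≃ₗ[k] scoind (k := k) r 𝓑 (FunQ U r A) :=
  LinearEquiv.ofLinearMap (kap 𝓑 U r A) (kapInv 𝓑 U r A hopen)
    (LinearMap.ext (kap_kapInv 𝓑 U r A hopen)) (LinearMap.ext (kapInv_kap 𝓑 U r A hopen))

theorem kapInv_equivariant (γ : G) (Ξ : scoind (k := k) r 𝓑 (FunQ U r A)) :
    kapInv 𝓑 U r A hopen ((scoind (k := k) r 𝓑 (FunQ U r A)).ρ γ Ξ) =
      (coindRes 𝓑 U (scoind (k := k) r 𝓑 A)).ρ γ (kapInv 𝓑 U r A hopen Ξ) := by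
  obtain ⟨F, rfl⟩ : ∃ F, kap 𝓑 U r A F = Ξ := ⟨_, kap_kapInv 𝓑 U r A hopen Ξ⟩
  rw [← kap_equivariant, kapInv_kap, kapInv_kap]

/-- `kap` carries the translation `T_γ` to `Coind(R_γ̄)`. -/
theorem kap_transl (γ : G) (F : coindRes 𝓑 U (scoind (k := k) r 𝓑 A)) :
    kap 𝓑 U r A (transl 𝓑 U (scoind (k := k) r 𝓑 A) γ F) =
      scoindMap (k := k) r 𝓑 (rightTr U r A (γ : G ⧸ U))
        (fun h ν => rightTr_equivariant U r A (γ : G ⧸ U) h ν) (kap 𝓑 U r A F) := by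
  refine Subtype.ext (funext fun y => ?_)
  apply fe_injective
  funext x
  induction x using QuotientGroup.induction_on with
  | H g =>
    rw [kap_apply_mk, transl_apply, scoind_ρ_apply, scoindMap_apply, fe_rightTr]
    have e : (g : G ⧸ U) * (γ : G ⧸ U) = ((g * γ : G) : G ⧸ U) := rfl
    rw [e, kap_apply_mk, mul_inv_rev, mul_assoc]

/-- `kap` carries the trace to `Coind(∑)`. -/
theorem avgSum_eq_sumQ_kap [Fintype (G ⧸ U)] (F : coindRes 𝓑 U (scoind (k := k) r 𝓑 A)) :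
    avgSum 𝓑 U (scoind (k := k) r 𝓑 A) F =
      scoindMap (k := k) r 𝓑 (sumQ U r A) (fun h ν => sumQ_equivariant U r A h ν)
        (kap 𝓑 U r A F) := by
  refine Subtype.ext (funext fun g => ?_)
  rw [scoindMap_apply, sumQ_apply, avgSum_apply]
  have h1 : ((∑ q : G ⧸ U, (translQ 𝓑 U (scoind (k := k) r 𝓑 A) q F).1 1 :
      scoind (k := k) r 𝓑 A)).1 g =
      ∑ q : G ⧸ U, ((translQ 𝓑 U (scoind (k := k) r 𝓑 A) q F).1 1).1 g := by
    have h2 : ((∑ q : G ⧸ U, (translQ 𝓑 U (scoind (k := k) r 𝓑 A) q F).1 1 :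
        scoind (k := k) r 𝓑 A)).1 =
        ∑ q : G ⧸ U, ((translQ 𝓑 U (scoind (k := k) r 𝓑 A) q F).1 1).1 :=
      map_sum (scoindV (k := k) r 𝓑 A).subtype _ _
    rw [h2, Finset.sum_apply]
  rw [h1]
  refine Fintype.sum_equiv (Equiv.mulLeft (g : G ⧸ U)) _ _ (fun q => ?_)
  induction q using QuotientGroup.induction_on with
  | H γ =>
    show ((transl 𝓑 U (scoind (k := k) r 𝓑 A) γ F).1 1).1 g =
      fe U r A ((kap 𝓑 U r A F).1 g) (((g * γ : G)) : G ⧸ U)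
    rw [kap_apply_mk, transl_apply]
    show (F.1 (γ⁻¹ * 1)).1 (g * γ) = (F.1 ((g * γ)⁻¹ * g)).1 (g * γ)
    rw [mul_one, mul_inv_rev, inv_mul_cancel_right]

end Fermat.Agent.TW.GLOB.CoindFunQ5
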