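/-
Programme T (S56, Taylor–Wiles primes), chapter GLOB (helper8): THE DUAL OF A SHORT EXACT SEQUENCE
(brick for (A7) `AddEuler0`).

For `χ : G →* kˣ`, `k` a field, and a short exact sequence `0 → A --φ--> B --ψ--> C → 0` of
`k[G]`-modules (equivariant linear maps, in the argument shapes of `LesCount0.card_les`), the
transposes give a short exact sequence `0 → C^*(χ) --ψ^*--> B^*(χ) --φ^*--> A^*(χ) → 0`:
* `dualTwistMap χ φ : B.dualTwist χ →ₗ[k] A.dualTwist χ` (`f ↦ f ∘ φ`), `dualTwistMap_apply`;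
* `dualTwistMap_equivariant`;
* `dualTwistMap_injective` (`ψ` onto ⇒ `ψ^*` injective);
* `dualTwistMap_surjective` (`φ` injective ⇒ `φ^*` onto; `k` a field);
* `dualTwistMap_exact` (`φ^* f = 0 ↔ ∃ h, ψ^* h = f`).
-/
import Mathlib
import Fermat.Prelude.Def_GroupCohomology_Selmer

set_option autoImplicit false
set_option linter.unusedSectionVars false

universe u

namespace Fermat.Agent.TW.GLOB.DualExact8

noncomputable section

variable {k G : Type u} [Field k] [Group G] (χ : G →* kˣ) {A B C : Rep.{u} k G}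

/-- The transpose of a linear map, as a map between the twisted duals. -/
def dualTwistMap (φ : A →ₗ[k] B) : (B.dualTwist χ) →ₗ[k] (A.dualTwist χ) where
  toFun f := (f : Module.Dual k B) ∘ₗ φ
  map_add' _ _ := LinearMap.add_comp _ _ _
  map_smul' _ _ := LinearMap.smul_comp _ _ _

theorem dualTwistMap_apply (φ : A →ₗ[k] B) (f : B.dualTwist χ) (a : A) :
    (dualTwistMap χ φ f : Module.Dual k A) a = (f : Module.Dual k B) (φ a) := rfl

theorem dualTwistMap_equivariant (φ : A →ₗ[k] B) (hφ : ∀ g a, φ (A.ρ g a) = B.ρ g (φ a))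
    (g : G) (f : B.dualTwist χ) :
    dualTwistMap χ φ ((B.dualTwist χ).ρ g f) = (A.dualTwist χ).ρ g (dualTwistMap χ φ f) := by
  apply LinearMap.ext
  intro a
  show (χ g : k) • (f : Module.Dual k B) (B.ρ g⁻¹ (φ a)) =
    (χ g : k) • (f : Module.Dual k B) (φ (A.ρ g⁻¹ a))
  rw [hφ]

theorem dualTwistMap_injective (ψ : B →ₗ[k] C) (hsurj : Function.Surjective ψ) :
    Function.Injective (dualTwistMap χ ψ) := by
  intro f g h
  apply LinearMap.ext
  intro c
  obtain ⟨b, rfl⟩ := hsurj c
  exact LinearMap.congr_fun h b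

theorem dualTwistMap_surjective (φ : A →ₗ[k] B) (hinj : Function.Injective φ) :
    Function.Surjective (dualTwistMap χ φ) := by
  intro f
  obtain ⟨r, hr⟩ := LinearMap.exists_leftInverse_of_injective φ (LinearMap.ker_eq_bot.2 hinj)
  refine ⟨(f : Module.Dual k A) ∘ₗ r, ?_⟩
  apply LinearMap.ext
  intro a
  show (f : Module.Dual k A) (r (φ a)) = (f : Module.Dual k A) a
  have : r (φ a) = a := LinearMap.congr_fun hr a
  rw [this]

theorem dualTwistMap_exact (φ : A →ₗ[k] B) (ψ : B →ₗ[k] C) (hsurj : Function.Surjective ψ)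
    (hex : ∀ b, ψ b = 0 ↔ ∃ a, φ a = b) (f : B.dualTwist χ) :
    dualTwistMap χ φ f = 0 ↔ ∃ h : C.dualTwist χ, dualTwistMap χ ψ h = f := by
  constructor
  · intro hf
    have hker : LinearMap.ker ψ ≤ LinearMap.ker (f : Module.Dual k B) := by
      intro b hb
      obtain ⟨a, rfl⟩ := (hex b).1 (LinearMap.mem_ker.1 hb)
      exact LinearMap.mem_ker.2 (LinearMap.congr_fun hf a)
    obtain ⟨s, hs⟩ := LinearMap.exists_rightInverse_of_surjective ψ (LinearMap.range_eq_top.2 hsurj)
    refine ⟨(f : Module.Dual k B) ∘ₗ s, ?_⟩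
    apply LinearMap.ext
    intro b
    show (f : Module.Dual k B) (s (ψ b)) = (f : Module.Dual k B) b
    have h1 : ψ (s (ψ b)) = ψ b := LinearMap.congr_fun hs (ψ b)
    have h2 : s (ψ b) - b ∈ LinearMap.ker ψ := by
      rw [LinearMap.mem_ker, map_sub, h1, sub_self]
    have h3 := LinearMap.mem_ker.1 (hker h2)
    rw [map_sub, sub_eq_zero] at h3
    exact h3
  · rintro ⟨h, rfl⟩
    apply LinearMap.ext
    intro a
    show (h : Module.Dual k C) (ψ (φ a)) = 0
    rw [(hex (φ a)).2 ⟨a, rfl⟩, map_zero]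

end

end Fermat.Agent.TW.GLOB.DualExact8
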