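/-
Programme T (S56), chapter T/GLOB, brick of (A7) of T/plan/ADD (lead): **the dual of a short exact
sequence of representations**.

For an equivariant map `φ : A → B` of representations of `G` over a field `k` and a character `χ`,
`dualMapT χ φ : B.dualTwist χ → A.dualTwist χ` is the transpose; it is equivariant, and the functor
`X ↦ X.dualTwist χ` turns the short exact sequence `0 → A → B → C → 0` into the short exact sequence
`0 → C' → B' → A' → 0` (`dual_exact`, in the shape of the hypotheses of `LevelCoh28`/`LesCount0`).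
-/
import Mathlib
import Fermat.Prelude.Def_GroupCohomology_Selmer

set_option autoImplicit false
set_option linter.unusedSectionVars false

namespace Fermat.Agent.TW.GLOB.DualSeq0

noncomputable section

variable {k : Type} [Field k] {G : Type} [Group G] (χ : G →* kˣ) {A B C : Rep.{0} k G}

/-- The transpose of a linear map, between the twisted duals. -/
def dualMapT (φ : A →ₗ[k] B) : (B.dualTwist χ) →ₗ[k] (A.dualTwist χ) :=
  LinearMap.dualMap φ

theorem dualMapT_apply (φ : A →ₗ[k] B) (f : Module.Dual k B) (a : A) :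
    (dualMapT χ φ f : Module.Dual k A) a = f (φ a) := rfl

theorem dualMapT_ρ (φ : A →ₗ[k] B) (hφ : ∀ g a, φ (A.ρ g a) = B.ρ g (φ a)) (g : G)
    (f : (B.dualTwist χ)) :
    dualMapT χ φ ((B.dualTwist χ).ρ g f) = (A.dualTwist χ).ρ g (dualMapT χ φ f) := by
  apply LinearMap.ext
  intro a
  rw [Rep.dualTwist_ρ_apply, Rep.dualTwist_ρ_apply]
  change ((χ g : k) • ((f : Module.Dual k B) ∘ₗ B.ρ g⁻¹)) (φ a) =
    ((χ g : k) • ((dualMapT χ φ f : Module.Dual k A) ∘ₗ A.ρ g⁻¹)) a
  rw [LinearMap.smul_apply, LinearMap.smul_apply, LinearMap.comp_apply, LinearMap.comp_apply,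
    dualMapT_apply, hφ]

theorem dualMapT_injective (ψ : B →ₗ[k] C) (hsurj : Function.Surjective ψ) :
    Function.Injective (dualMapT χ ψ) :=
  LinearMap.dualMap_injective_of_surjective hsurj

theorem dualMapT_surjective (φ : A →ₗ[k] B) (hinj : Function.Injective φ) :
    Function.Surjective (dualMapT χ φ) :=
  LinearMap.dualMap_surjective_of_injective hinj

theorem dualMapT_exact (φ : A →ₗ[k] B) (ψ : B →ₗ[k] C)
    (hex : ∀ b, ψ b = 0 ↔ ∃ a, φ a = b) (f : (B.dualTwist χ)) :
    dualMapT χ φ f = 0 ↔ ∃ h : (C.dualTwist χ), dualMapT χ ψ h = f := by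
  have hker : LinearMap.ker ψ = LinearMap.range φ := by
    ext b
    rw [LinearMap.mem_ker, LinearMap.mem_range]
    exact hex b
  have h1 : LinearMap.ker (LinearMap.dualMap φ) = (LinearMap.range φ).dualAnnihilator :=
    LinearMap.ker_dualMap_eq_dualAnnihilator_range φ
  have h2 : LinearMap.range (LinearMap.dualMap ψ) = (LinearMap.ker ψ).dualAnnihilator :=
    LinearMap.range_dualMap_eq_dualAnnihilator_ker ψ
  have h3 : LinearMap.ker (LinearMap.dualMap φ) = LinearMap.range (LinearMap.dualMap ψ) := by
    rw [h1, h2, hker]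
  have h4 : (f : Module.Dual k B) ∈ LinearMap.ker (LinearMap.dualMap φ) ↔
      (f : Module.Dual k B) ∈ LinearMap.range (LinearMap.dualMap ψ) := by rw [h3]
  rw [LinearMap.mem_ker, LinearMap.mem_range] at h4
  exact h4

end

end Fermat.Agent.TW.GLOB.DualSeq0
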