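/-
Programme T (S56, Taylor–Wiles primes), chapter GLOB, task T7 — helper5.

**The local pieces of `H²(U; I_S)`.**

`r : H →* G` (a decomposition group), `U ◁ G` of finite index, `A` a discrete `H`-module with
fundamental classes at its finite levels.  On `L = H²(H; Fun(G ⧸ U, A))` the idempotents
`π_T` (`T = D γ⁻¹` a right coset of the image `D` of `H` in `G ⧸ U`) cut out copies of
`H²(U'; A)`, `U' = r⁻¹ U`, on which the sum map `Fun(G ⧸ U, A) → A` induces the local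
corestriction.  Hence
* `eq_zero_of_sumQ_eq_zero` : a `p`-torsion class in the image of `π_T` killed by the sum map is zero;
* `exists_ne_zero` : the image of `π_T` contains a nonzero `p`-torsion class, if `p ∣ [U' : V]` for
  some normal `V` of the basis.
-/
import Mathlib
import Fermat.Agent.TW.GLOB.ClassFormSub5
import Fermat.Agent.TW.GLOB.FunQ5
import Fermat.Agent.TW.GLOB.MapH5

set_option autoImplicit false
set_option linter.unusedSectionVars false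

open Fermat.Agent.PT.PRO.LevelCoh28 Fermat.Agent.PT.PRO.LevelCohRes28
  Fermat.Agent.TW.GLOB.SubLevel5 Fermat.Agent.TW.GLOB.ShapiroConj5
  Fermat.Agent.TW.GLOB.ResInvariants5 Fermat.Agent.TW.GLOB.TraceLevel5
  Fermat.Agent.TW.GLOB.FunQ5 Fermat.Agent.TW.GLOB.MapH5 Fermat.Agent.TW.GLOB.ClassFormSub5

namespace Fermat.Agent.TW.GLOB.LocalComp5

/-! ### The generic part -/

section Generic

variable {k : Type} [CommRing k] {G H : Type} [Group G] [Group H] (U : Subgroup G)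
  [hU : U.Normal] [Fintype (G ⧸ U)]
  (r : H →* G) (A : Rep.{0} k H) {𝓑H : LevelBasis H} (hA : IsDiscrete 𝓑H.sets A)
  (hopen : ∃ V ∈ 𝓑H.sets, V ≤ U.comap r) [Fintype (H ⧸ Uloc U r)]

/-- The right coset `D γ⁻¹` of the image `D` of `H` in `G ⧸ U`. -/
def Tset (γ : G ⧸ U) : Set (G ⧸ U) := (fun x => x * γ) ⁻¹' Dset U r

theorem isStable_Tset (γ : G ⧸ U) : IsStable U r (Tset U r γ) :=
  (isStable_Dset U r).preimage_mulRight γ

theorem Tset_one : Tset U r 1 = Dset U r := by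
  ext x
  show x * 1 ∈ Dset U r ↔ x ∈ Dset U r
  rw [mul_one]

/-- The idempotent `π_T` on `L = H²(H; Fun(G ⧸ U, A))`. -/
noncomputable def PT (γ : G ⧸ U) : H2 𝓑H (FunQ U r A) →ₗ[k] H2 𝓑H (FunQ U r A) :=
  mapH2 (𝓑 := 𝓑H) (piT U r A (Tset U r γ)) (piT_equivariant U r A (isStable_Tset U r γ))

/-- Right translation on `L`. -/
noncomputable def RT (γ : G ⧸ U) : H2 𝓑H (FunQ U r A) →ₗ[k] H2 𝓑H (FunQ U r A) :=
  mapH2 (𝓑 := 𝓑H) (rightTr U r A γ) (rightTr_equivariant U r A γ)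

/-- The sum map on `L`. -/
noncomputable def SQ : H2 𝓑H (FunQ U r A) →ₗ[k] H2 𝓑H A :=
  mapH2 (𝓑 := 𝓑H) (sumQ U r A) (sumQ_equivariant U r A)

/-- `L → H²(H; Coind_{U'}^H A)`. -/
noncomputable def TL : H2 𝓑H (FunQ U r A) →ₗ[k] H2 𝓑H (coindRes 𝓑H (Uloc U r) A) :=
  mapH2 (𝓑 := 𝓑H) (toLoc U r A 𝓑H hA hopen) (toLoc_equivariant U r A 𝓑H hA hopen)

/-- `H²(H; Coind_{U'}^H A) → L`. -/
noncomputable def OL : H2 𝓑H (coindRes 𝓑H (Uloc U r) A) →ₗ[k] H2 𝓑H (FunQ U r A) :=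
  mapH2 (𝓑 := 𝓑H) (ofLoc U r A 𝓑H) (ofLoc_equivariant U r A 𝓑H)

theorem PT_one_eq (y : H2 𝓑H (FunQ U r A)) :
    PT U r A (𝓑H := 𝓑H) 1 y =
      mapH2 (𝓑 := 𝓑H) (piT U r A (Dset U r)) (piT_equivariant U r A (isStable_Dset U r)) y := by
  unfold PT
  exact mapH2_congr (by rw [Tset_one]) _ _ y

theorem TL_OL (t : H2 𝓑H (coindRes 𝓑H (Uloc U r) A)) :
    TL U r A hA hopen (OL U r A t) = t := by
  unfold TL OL
  rw [mapH2_comp]
  have h : (toLoc U r A 𝓑H hA hopen) ∘ₗ (ofLoc U r A 𝓑H) = LinearMap.id :=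
    LinearMap.ext fun f => toLoc_ofLoc U r A 𝓑H hA hopen f
  rw [mapH2_congr h _ (id_equivariant)]
  exact mapH2_id _ t

theorem OL_TL (y : H2 𝓑H (FunQ U r A)) :
    OL U r A (TL U r A hA hopen y) = PT U r A 1 y := by
  rw [PT_one_eq]
  unfold TL OL
  rw [mapH2_comp]
  exact mapH2_congr (LinearMap.ext fun ν => ofLoc_toLoc U r A 𝓑H hA hopen ν) _ _ y

include hA hopen in
theorem PT_one_OL (t : H2 𝓑H (coindRes 𝓑H (Uloc U r) A)) :
    PT U r A 1 (OL U r A t) = OL U r A t := by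
  rw [← OL_TL U r A hA hopen, TL_OL]

/-- The sum map on the image of `π_D` is the local corestriction. -/
theorem trH2_TL (y : H2 𝓑H (FunQ U r A)) :
    trH2 𝓑H (Uloc U r) hA (shapiro2Equiv 𝓑H (Uloc U r) hA (TL U r A hA hopen y)) =
      SQ U r A (PT U r A 1 y) := by
  rw [trH2_shapiro2Equiv, PT_one_eq]
  unfold TL SQ
  rw [mapH2_comp, mapH2_comp]
  exact mapH2_congr (LinearMap.ext fun ν => (sumQ_piT_Dset U r A 𝓑H hA hopen ν).symm) _ _ y

theorem RT_mul (γ γ' : G ⧸ U) (y : H2 𝓑H (FunQ U r A)) :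
    RT U r A γ (RT U r A γ' y) = RT U r A (γ * γ') y := by
  unfold RT
  rw [mapH2_comp]
  exact mapH2_congr (LinearMap.ext fun ν => (rightTr_mul U r A γ γ' ν).symm) _ _ y

theorem RT_one (y : H2 𝓑H (FunQ U r A)) : RT U r A 1 y = y := by
  unfold RT
  have h : rightTr U r A (1 : G ⧸ U) = LinearMap.id :=
    LinearMap.ext fun ν => rightTr_one U r A ν
  rw [mapH2_congr h _ (id_equivariant)]
  exact mapH2_id _ y

theorem SQ_RT (γ : G ⧸ U) (y : H2 𝓑H (FunQ U r A)) : SQ U r A (RT U r A γ y) = SQ U r A y := by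
  unfold SQ RT
  rw [mapH2_comp]
  exact mapH2_congr (LinearMap.ext fun ν => sumQ_rightTr U r A γ ν) _ _ y

/-- `R_γ ∘ π_{D} = π_{D γ⁻¹} ∘ R_γ`. -/
theorem RT_PT_one (γ : G ⧸ U) (y : H2 𝓑H (FunQ U r A)) :
    RT U r A γ (PT U r A 1 y) = PT U r A γ (RT U r A γ y) := by
  rw [PT_one_eq]
  unfold RT PT
  rw [mapH2_comp, mapH2_comp]
  exact mapH2_congr (LinearMap.ext fun ν => rightTr_piT U r A γ (Dset U r) ν) _ _ y

include hA hopen in
/-- **A torsion class in the image of `π_T` killed by the sum map is zero**, if the local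
corestriction is injective on torsion. -/
theorem eq_zero_of_SQ_eq_zero (n : ℕ)
    (hinj : ∀ z : H2 (subBasis 𝓑H (Uloc U r)) (resRep (Uloc U r) A), n • z = 0 →
      trH2 𝓑H (Uloc U r) hA z = 0 → z = 0)
    (γ : G ⧸ U) (y : H2 𝓑H (FunQ U r A)) (hn : n • y = 0) (hT : PT U r A γ y = y)
    (hs : SQ U r A y = 0) : y = 0 := by
  -- move to the trivial coset
  set y₁ := RT U r A γ⁻¹ y with hy₁
  have hyy : RT U r A γ y₁ = y := by rw [hy₁, RT_mul, mul_inv_cancel, RT_one]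
  have hT₁ : PT U r A 1 y₁ = y₁ := by
    have h1 : RT U r A γ (PT U r A 1 y₁) = RT U r A γ y₁ := by
      rw [RT_PT_one, hyy, hT]
    have h2 := congrArg (RT U r A γ⁻¹) h1
    rwa [RT_mul, RT_mul, inv_mul_cancel, RT_one, RT_one] at h2
  have hs₁ : SQ U r A y₁ = 0 := by rw [hy₁, SQ_RT, hs]
  have hn₁ : n • y₁ = 0 := by rw [hy₁, ← map_nsmul, hn, map_zero]
  -- the local class
  have hz : shapiro2Equiv 𝓑H (Uloc U r) hA (TL U r A hA hopen y₁) = 0 :=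
    hinj _ (by rw [← map_nsmul, ← map_nsmul, hn₁, map_zero, map_zero])
      (by rw [trH2_TL, hT₁, hs₁])
  have ht0 : TL U r A hA hopen y₁ = 0 :=
    (shapiro2Equiv 𝓑H (Uloc U r) hA).injective (by rw [hz, map_zero])
  have h0 : y₁ = 0 := by rw [← hT₁, ← OL_TL U r A hA hopen, ht0, map_zero]
  rw [← hyy, h0, map_zero]

include hA hopen in
/-- **The image of `π_T` contains a nonzero torsion class**, if `H²(U'; A)` does. -/
theorem exists_PT_eq_ne_zero (n : ℕ)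
    (hne : ∃ z : H2 (subBasis 𝓑H (Uloc U r)) (resRep (Uloc U r) A), n • z = 0 ∧ z ≠ 0)
    (γ : G ⧸ U) : ∃ y : H2 𝓑H (FunQ U r A), n • y = 0 ∧ PT U r A γ y = y ∧ y ≠ 0 := by
  obtain ⟨z, hz, hz0⟩ := hne
  set t := (shapiro2Equiv 𝓑H (Uloc U r) hA).symm z with ht
  have ht0 : t ≠ 0 := fun h => hz0 (by
    have := congrArg (shapiro2Equiv 𝓑H (Uloc U r) hA) h
    rwa [ht, LinearEquiv.apply_symm_apply, map_zero] at this)
  have hnt : n • t = 0 := by rw [ht, ← map_nsmul, hz, map_zero]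
  refine ⟨RT U r A γ (OL U r A t), by rw [← map_nsmul, ← map_nsmul, hnt, map_zero, map_zero],
    ?_, fun h0 => ht0 ?_⟩
  · rw [← RT_PT_one, PT_one_OL U r A hA hopen]
  · have h1 := congrArg (RT U r A γ⁻¹) h0
    rw [RT_mul, inv_mul_cancel, RT_one, map_zero] at h1
    rw [← TL_OL U r A hA hopen t, h1, map_zero]

/-! ### The idempotents indexed by `(G ⧸ U) ⧸ D` -/

/-- The image of `H` in `G ⧸ U`, as a subgroup. -/
def Dsub : Subgroup (G ⧸ U) := (rbar U r).range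

theorem mem_Dsub_iff (x : G ⧸ U) : x ∈ Dsub U r ↔ x ∈ Dset U r := Iff.rfl

/-- The right coset `{x | x⁻¹ ∈ j}` attached to the left coset `j`. -/
def TJ (j : (G ⧸ U) ⧸ Dsub U r) : Set (G ⧸ U) :=
  {x | ((x⁻¹ : G ⧸ U) : (G ⧸ U) ⧸ Dsub U r) = j}

theorem mem_TJ_iff (j : (G ⧸ U) ⧸ Dsub U r) (x : G ⧸ U) :
    x ∈ TJ U r j ↔ ((x⁻¹ : G ⧸ U) : (G ⧸ U) ⧸ Dsub U r) = j := Iff.rfl

theorem TJ_mk (γ : G ⧸ U) : TJ U r (γ : (G ⧸ U) ⧸ Dsub U r) = Tset U r γ := by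
  ext x
  rw [mem_TJ_iff, QuotientGroup.eq]
  show (x⁻¹)⁻¹ * γ ∈ Dsub U r ↔ x * γ ∈ Dset U r
  rw [inv_inv, mem_Dsub_iff]

theorem isStable_TJ (j : (G ⧸ U) ⧸ Dsub U r) : IsStable U r (TJ U r j) := by
  induction j using QuotientGroup.induction_on with
  | H γ =>
    rw [TJ_mk]
    exact isStable_Tset U r γ

theorem existsUnique_TJ (x : G ⧸ U) : ∃! j : (G ⧸ U) ⧸ Dsub U r, x ∈ TJ U r j :=
  ⟨_, rfl, fun _ h => h.symm⟩

theorem preimage_TJ (γ : G ⧸ U) (j : (G ⧸ U) ⧸ Dsub U r) :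
    (fun x => x * γ) ⁻¹' TJ U r j = TJ U r (γ • j) := by
  ext x
  show (((x * γ)⁻¹ : G ⧸ U) : (G ⧸ U) ⧸ Dsub U r) = j ↔
    ((x⁻¹ : G ⧸ U) : (G ⧸ U) ⧸ Dsub U r) = γ • j
  rw [mul_inv_rev]
  show γ⁻¹ • ((x⁻¹ : G ⧸ U) : (G ⧸ U) ⧸ Dsub U r) = j ↔ _
  exact inv_smul_eq_iff

/-- The idempotent `π_j` on `L`. -/
noncomputable def PJ (j : (G ⧸ U) ⧸ Dsub U r) :
    H2 𝓑H (FunQ U r A) →ₗ[k] H2 𝓑H (FunQ U r A) :=
  mapH2 (𝓑 := 𝓑H) (piT U r A (TJ U r j)) (piT_equivariant U r A (isStable_TJ U r j))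

theorem PJ_mk (γ : G ⧸ U) (y : H2 𝓑H (FunQ U r A)) :
    PJ U r A (γ : (G ⧸ U) ⧸ Dsub U r) y = PT U r A γ y := by
  unfold PJ PT
  exact mapH2_congr (by rw [TJ_mk]) _ _ y

theorem PJ_PJ (j : (G ⧸ U) ⧸ Dsub U r) (y : H2 𝓑H (FunQ U r A)) :
    PJ U r A j (PJ U r A j y) = PJ U r A j y := by
  unfold PJ
  rw [mapH2_comp]
  refine mapH2_congr (LinearMap.ext fun ν => ?_) _ _ y
  rw [LinearMap.comp_apply, piT_piT, Set.inter_self]

theorem PJ_PJ_of_ne {j j' : (G ⧸ U) ⧸ Dsub U r} (h : j ≠ j') (y : H2 𝓑H (FunQ U r A)) :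
    PJ U r A j (PJ U r A j' y) = 0 := by
  unfold PJ
  rw [mapH2_comp]
  have h0 : (piT U r A (TJ U r j)) ∘ₗ (piT U r A (TJ U r j')) = 0 := by
    refine LinearMap.ext fun ν => ?_
    rw [LinearMap.comp_apply, piT_piT]
    have he : TJ U r j ∩ TJ U r j' = ∅ := by
      ext x
      simp only [Set.mem_inter_iff, mem_TJ_iff, Set.mem_empty_iff_false, iff_false, not_and]
      intro h1 h2
      exact h (h1.symm.trans h2)
    rw [he, piT_empty]
    rfl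
  rw [mapH2_congr h0 _ zero_equivariant]
  exact mapH2_zero _ y

theorem sum_PJ [Fintype ((G ⧸ U) ⧸ Dsub U r)] (y : H2 𝓑H (FunQ U r A)) :
    ∑ j, PJ U r A j y = y := by
  classical
  unfold PJ
  rw [← mapH2_sum Finset.univ (fun j => piT_equivariant U r A (isStable_TJ U r j))]
  have h : ∑ j, piT U r A (TJ U r j) = LinearMap.id := by
    refine LinearMap.ext fun ν => ?_
    rw [LinearMap.sum_apply]
    exact sum_piT U r A (TJ U r) (existsUnique_TJ U r) ν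
  rw [mapH2_congr h _ id_equivariant]
  exact mapH2_id _ y

/-- `R_γ ∘ π_j = π_{γ j} ∘ R_γ`. -/
theorem RT_PJ (γ : G ⧸ U) (j : (G ⧸ U) ⧸ Dsub U r) (y : H2 𝓑H (FunQ U r A)) :
    RT U r A γ (PJ U r A j y) = PJ U r A (γ • j) (RT U r A γ y) := by
  unfold RT PJ
  rw [mapH2_comp, mapH2_comp]
  refine mapH2_congr (LinearMap.ext fun ν => ?_) _ _ y
  rw [LinearMap.comp_apply, LinearMap.comp_apply, rightTr_piT]
  congr 2
  exact preimage_TJ U r γ j

include hA hopen in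
theorem eq_zero_of_SQ_eq_zero_J (n : ℕ)
    (hinj : ∀ z : H2 (subBasis 𝓑H (Uloc U r)) (resRep (Uloc U r) A), n • z = 0 →
      trH2 𝓑H (Uloc U r) hA z = 0 → z = 0)
    (j : (G ⧸ U) ⧸ Dsub U r) (y : H2 𝓑H (FunQ U r A)) (hn : n • y = 0)
    (hT : PJ U r A j y = y) (hs : SQ U r A y = 0) : y = 0 := by
  induction j using QuotientGroup.induction_on with
  | H γ =>
    rw [PJ_mk] at hT
    exact eq_zero_of_SQ_eq_zero U r A hA hopen n hinj γ y hn hT hs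

include hA hopen in
theorem exists_PJ_eq_ne_zero (n : ℕ)
    (hne : ∃ z : H2 (subBasis 𝓑H (Uloc U r)) (resRep (Uloc U r) A), n • z = 0 ∧ z ≠ 0)
    (j : (G ⧸ U) ⧸ Dsub U r) :
    ∃ y : H2 𝓑H (FunQ U r A), n • y = 0 ∧ PJ U r A j y = y ∧ y ≠ 0 := by
  induction j using QuotientGroup.induction_on with
  | H γ =>
    obtain ⟨y, h1, h2, h3⟩ := exists_PT_eq_ne_zero U r A hA hopen n hne γ
    exact ⟨y, h1, by rw [PJ_mk]; exact h2, h3⟩

end Generic

/-! ### The case of a class formation -/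

section Int

variable {G H : Type} [Group G] [Group H] (U : Subgroup G) [hU : U.Normal] [Fintype (G ⧸ U)]
  (r : H →* G) (A : Rep.{0} ℤ H) {𝓑H : LevelBasis H} (hA : IsDiscrete 𝓑H.sets A)
  (hopen : ∃ V ∈ 𝓑H.sets, V ≤ U.comap r) [Fintype (H ⧸ Uloc U r)]
  {p : ℕ} [Fact p.Prime] (hfund : FundAt 𝓑H A p)

include hA hopen hfund in
/-- A `p`-torsion class in the image of `π_T` killed by the sum map is zero. -/
theorem eq_zero_of_sumQ_eq_zero (γ : G ⧸ U) (y : H2 𝓑H (FunQ U r A)) (hp : p • y = 0)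
    (hT : PT U r A γ y = y) (hs : SQ U r A y = 0) : y = 0 :=
  eq_zero_of_SQ_eq_zero U r A hA hopen p
    (fun z hz h0 => eq_zero_of_trH2_eq_zero hA hfund (Uloc U r) hopen z hz h0) γ y hp hT hs

include hA hopen hfund in
/-- The image of `π_T` contains a nonzero `p`-torsion class. -/
theorem exists_ne_zero (V : Subgroup H) [V.Normal] (hV : V ∈ 𝓑H.sets) (hVU : V ≤ Uloc U r)
    (hdiv : p ∣ V.relIndex (Uloc U r)) (γ : G ⧸ U) :
    ∃ y : H2 𝓑H (FunQ U r A), p • y = 0 ∧ PT U r A γ y = y ∧ y ≠ 0 :=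
  exists_PT_eq_ne_zero U r A hA hopen p
    (exists_ne_zero_H2 hA hfund (Uloc U r) V hV hVU hdiv) γ

end Int

end Fermat.Agent.TW.GLOB.LocalComp5
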