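/-
Programme T (S56, Taylor–Wiles primes), chapter GLOB, task T7 — helper5.

**The `q`-component of `H²(U; I_S)` on the level of `G`.**

`(G, 𝓑)` a level group, `U ◁ G` open of finite index, `r : H →* G` with `(H, 𝓑H)` carrying the
induced levels, `A` a discrete `H`-module, `M = Coind_{H→G}^{sm} A`, `N = Coind_U^G M`.  Through
`Θ : H²(G; N) ≅ H²(H; Fun(G ⧸ U, A))` (`kap` of `CoindFunQ5` + Shapiro) the results of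
`LocalComp5` become statements on `H²(G; N) ≅ H²(U; M)`:
* `ΘN_transl` : the translation action of `G ⧸ U` corresponds to the right translations `R_γ`;
* `ΘM_avgSum` : the trace `H²(G; N) → H²(G; M)` corresponds to the sum map;
* the idempotents `PN γ`, with `PN_comp`, `sum_PN`, `transl_PN`, `eq_zero_of_avgSum_eq_zero`,
  `exists_PN_eq_ne_zero`.
-/
import Mathlib
import Fermat.Agent.TW.GLOB.LocalComp5
import Fermat.Agent.TW.GLOB.CoindFunQ5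
import Fermat.Agent.PT.GLUE.CoindCompare13

set_option autoImplicit false
set_option linter.unusedSectionVars false

open Fermat.Agent.PT.PRO.LevelCoh28 Fermat.Agent.PT.PRO.LevelCohRes28
  Fermat.Agent.PT.PRO.SmoothCoind28 Fermat.Agent.PT.PRO.ShapiroLevel28
  Fermat.Agent.TW.GLOB.SubLevel5 Fermat.Agent.TW.GLOB.ShapiroConj5
  Fermat.Agent.TW.GLOB.ResInvariants5 Fermat.Agent.TW.GLOB.TraceLevel5
  Fermat.Agent.TW.GLOB.FunQ5 Fermat.Agent.TW.GLOB.CoindFunQ5 Fermat.Agent.TW.GLOB.MapH5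
  Fermat.Agent.TW.GLOB.LocalComp5

namespace Fermat.Agent.TW.GLOB.GlobalComp5

variable {k : Type} [CommRing k] {G H : Type} [Group G] [Group H] (𝓑 : LevelBasis G)
  (U : Subgroup G) [hU : U.Normal] [Fintype (G ⧸ U)] (hopenU : ∃ V ∈ 𝓑.sets, V ≤ U)
  (r : H →* G) (𝓑H : LevelBasis H) (hcont : IsLevelHom r 𝓑H.sets 𝓑.sets)
  (hind : ∀ V ∈ 𝓑H.sets, ∃ W ∈ 𝓑.sets, W.comap r ≤ V)
  (A : Rep.{0} k H) (hA : IsDiscrete 𝓑H.sets A) [Fintype (H ⧸ Uloc U r)]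

/-- The module `M = Coind_{H→G}^{sm} A`. -/
noncomputable abbrev Mq : Rep.{0} k G := scoind (k := k) r 𝓑 A

/-- The module `N = Coind_U^G M`. -/
noncomputable abbrev Nq : Rep.{0} k G := coindRes 𝓑 U (Mq 𝓑 r A)

include hopenU hcont in
theorem hopen_loc : ∃ V ∈ 𝓑H.sets, V ≤ U.comap r := by
  obtain ⟨V, hV, hVU⟩ := hopenU
  obtain ⟨W, hW, hWV⟩ := hcont V hV
  exact ⟨W, hW, hWV.trans (Subgroup.comap_mono hVU)⟩

/-- `H²(G; N) → H²(G; Coind Fun(G ⧸ U, A))`. -/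
noncomputable def kapH2 :
    H2 𝓑 (Nq 𝓑 U r A) →ₗ[k] H2 𝓑 (scoind (k := k) r 𝓑 (FunQ U r A)) :=
  mapH2 (𝓑 := 𝓑) (kap 𝓑 U r A) (kap_equivariant 𝓑 U r A)

include hopenU in
theorem kapH2_bijective : Function.Bijective (kapH2 𝓑 U r A) :=
  Fermat.Agent.PT.GLUE.CoindCompare13.mapH2_bijective (kapEquiv 𝓑 U r A hopenU)
    (kap_equivariant 𝓑 U r A)

/-- `Θ : H²(G; N) → H²(H; Fun(G ⧸ U, A))`. -/
noncomputable def ΘN : H2 𝓑 (Nq 𝓑 U r A) →ₗ[k] H2 𝓑H (FunQ U r A) :=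
  (sh2 r 𝓑 𝓑H hcont (FunQ U r A)) ∘ₗ (kapH2 𝓑 U r A)

include hopenU hind hA in
theorem ΘN_bijective : Function.Bijective (ΘN 𝓑 U r 𝓑H hcont A) :=
  (sh2_bijective r 𝓑 𝓑H hcont hind (FunQ U r A)
    (isDiscrete_FunQ U r A hA (hopen_loc 𝓑 U hopenU r 𝓑H hcont))).comp
    (kapH2_bijective 𝓑 U hopenU r A)

/-- `Θ` as a linear equivalence. -/
noncomputable def ΘNEquiv : H2 𝓑 (Nq 𝓑 U r A) ≃ₗ[k] H2 𝓑H (FunQ U r A) :=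
  LinearEquiv.ofBijective (ΘN 𝓑 U r 𝓑H hcont A) (ΘN_bijective 𝓑 U hopenU r 𝓑H hcont hind A hA)

/-- Shapiro for `M`. -/
noncomputable def ΘM : H2 𝓑 (Mq 𝓑 r A) ≃ₗ[k] H2 𝓑H A := sh2Equiv r 𝓑 𝓑H hcont hind A hA

theorem ΘNEquiv_apply (y : H2 𝓑 (Nq 𝓑 U r A)) :
    ΘNEquiv 𝓑 U hopenU r 𝓑H hcont hind A hA y = ΘN 𝓑 U r 𝓑H hcont A y := rfl

/-- The translation action corresponds to the right translations. -/
theorem ΘN_transl (γ : G) (y : H2 𝓑 (Nq 𝓑 U r A)) :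
    ΘN 𝓑 U r 𝓑H hcont A (mapH2 (𝓑 := 𝓑) (transl 𝓑 U (Mq 𝓑 r A) γ)
        (transl_equivariant 𝓑 U (Mq 𝓑 r A) γ) y) =
      RT U r A (γ : G ⧸ U) (ΘN 𝓑 U r 𝓑H hcont A y) := by
  unfold ΘN kapH2 RT
  rw [LinearMap.comp_apply, LinearMap.comp_apply, mapH2_comp, ← sh2_natural, mapH2_comp]
  congr 1
  exact mapH2_congr (LinearMap.ext fun F => kap_transl 𝓑 U r A γ F) _ _ y

/-- The trace corresponds to the sum map. -/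
theorem ΘM_avgSum (y : H2 𝓑 (Nq 𝓑 U r A)) :
    ΘM 𝓑 r 𝓑H hcont hind A hA (mapH2 (𝓑 := 𝓑) (avgSum 𝓑 U (Mq 𝓑 r A))
        (avgSum_equivariant 𝓑 U (Mq 𝓑 r A)) y) =
      SQ U r A (ΘN 𝓑 U r 𝓑H hcont A y) := by
  unfold ΘN kapH2 SQ
  rw [LinearMap.comp_apply, ← sh2_natural, mapH2_comp]
  show sh2 r 𝓑 𝓑H hcont A _ = _
  congr 1
  exact mapH2_congr (LinearMap.ext fun F => avgSum_eq_sumQ_kap 𝓑 U r A F) _ _ y

/-- The translation action of `G ⧸ U` corresponds to the right translations. -/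
theorem ΘN_translQ (q : G ⧸ U) (y : H2 𝓑 (Nq 𝓑 U r A)) :
    ΘN 𝓑 U r 𝓑H hcont A (mapH2 (𝓑 := 𝓑) (translQ 𝓑 U (Mq 𝓑 r A) q)
        (translQ_equivariant 𝓑 U (Mq 𝓑 r A) q) y) =
      RT U r A q (ΘN 𝓑 U r 𝓑H hcont A y) := by
  induction q using QuotientGroup.induction_on with
  | H γ => exact ΘN_transl 𝓑 U r 𝓑H hcont A γ y

/-- The idempotent of `H²(G; N)` attached to `j ∈ (G ⧸ U) ⧸ D`. -/
noncomputable def PN (j : (G ⧸ U) ⧸ Dsub U r) :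
    H2 𝓑 (Nq 𝓑 U r A) →ₗ[k] H2 𝓑 (Nq 𝓑 U r A) :=
  (ΘNEquiv 𝓑 U hopenU r 𝓑H hcont hind A hA).symm.toLinearMap ∘ₗ (PJ U r A j) ∘ₗ
    (ΘNEquiv 𝓑 U hopenU r 𝓑H hcont hind A hA).toLinearMap

theorem ΘN_PN (j : (G ⧸ U) ⧸ Dsub U r) (y : H2 𝓑 (Nq 𝓑 U r A)) :
    ΘN 𝓑 U r 𝓑H hcont A (PN 𝓑 U hopenU r 𝓑H hcont hind A hA j y) =
      PJ U r A j (ΘN 𝓑 U r 𝓑H hcont A y) := by
  unfold PN
  rw [LinearMap.comp_apply, LinearMap.comp_apply, LinearEquiv.coe_coe, LinearEquiv.coe_coe,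
    ← ΘNEquiv_apply 𝓑 U hopenU r 𝓑H hcont hind A hA, LinearEquiv.apply_symm_apply]
  rfl

include hopenU hind hA in
theorem ΘN_injective : Function.Injective (ΘN 𝓑 U r 𝓑H hcont A) :=
  (ΘN_bijective 𝓑 U hopenU r 𝓑H hcont hind A hA).1

theorem PN_PN (j : (G ⧸ U) ⧸ Dsub U r) (y : H2 𝓑 (Nq 𝓑 U r A)) :
    PN 𝓑 U hopenU r 𝓑H hcont hind A hA j (PN 𝓑 U hopenU r 𝓑H hcont hind A hA j y) =
      PN 𝓑 U hopenU r 𝓑H hcont hind A hA j y := by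
  apply ΘN_injective 𝓑 U hopenU r 𝓑H hcont hind A hA
  rw [ΘN_PN, ΘN_PN, PJ_PJ]

theorem PN_PN_of_ne {j j' : (G ⧸ U) ⧸ Dsub U r} (h : j ≠ j') (y : H2 𝓑 (Nq 𝓑 U r A)) :
    PN 𝓑 U hopenU r 𝓑H hcont hind A hA j (PN 𝓑 U hopenU r 𝓑H hcont hind A hA j' y) = 0 := by
  apply ΘN_injective 𝓑 U hopenU r 𝓑H hcont hind A hA
  rw [ΘN_PN, ΘN_PN, PJ_PJ_of_ne U r A h, map_zero]

theorem sum_PN [Fintype ((G ⧸ U) ⧸ Dsub U r)] (y : H2 𝓑 (Nq 𝓑 U r A)) :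
    ∑ j, PN 𝓑 U hopenU r 𝓑H hcont hind A hA j y = y := by
  apply ΘN_injective 𝓑 U hopenU r 𝓑H hcont hind A hA
  rw [map_sum]
  simp only [ΘN_PN]
  exact sum_PJ U r A _

/-- `q ∘ P_j = P_{q j} ∘ q` for the translation action of `q ∈ G ⧸ U`. -/
theorem translQ_PN (q : G ⧸ U) (j : (G ⧸ U) ⧸ Dsub U r) (y : H2 𝓑 (Nq 𝓑 U r A)) :
    mapH2 (𝓑 := 𝓑) (translQ 𝓑 U (Mq 𝓑 r A) q) (translQ_equivariant 𝓑 U (Mq 𝓑 r A) q)
        (PN 𝓑 U hopenU r 𝓑H hcont hind A hA j y) =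
      PN 𝓑 U hopenU r 𝓑H hcont hind A hA (q • j)
        (mapH2 (𝓑 := 𝓑) (translQ 𝓑 U (Mq 𝓑 r A) q) (translQ_equivariant 𝓑 U (Mq 𝓑 r A) q) y) := by
  apply ΘN_injective 𝓑 U hopenU r 𝓑H hcont hind A hA
  rw [ΘN_translQ, ΘN_PN, ΘN_PN, ΘN_translQ, RT_PJ]

/-- **A torsion class in the image of `P_j` with vanishing trace is zero**, if the local
corestriction is injective on torsion. -/
theorem eq_zero_of_avgSum_eq_zero (n : ℕ)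
    (hinj : ∀ z : H2 (subBasis 𝓑H (Uloc U r)) (resRep (Uloc U r) A), n • z = 0 →
      trH2 𝓑H (Uloc U r) hA z = 0 → z = 0)
    (j : (G ⧸ U) ⧸ Dsub U r) (y : H2 𝓑 (Nq 𝓑 U r A)) (hn : n • y = 0)
    (hP : PN 𝓑 U hopenU r 𝓑H hcont hind A hA j y = y)
    (htr : mapH2 (𝓑 := 𝓑) (avgSum 𝓑 U (Mq 𝓑 r A)) (avgSum_equivariant 𝓑 U (Mq 𝓑 r A)) y = 0) :
    y = 0 := by
  apply ΘN_injective 𝓑 U hopenU r 𝓑H hcont hind A hA
  rw [map_zero]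
  refine eq_zero_of_SQ_eq_zero_J U r A hA (hopen_loc 𝓑 U hopenU r 𝓑H hcont) n hinj j _
    (by rw [← map_nsmul, hn, map_zero])
    (by rw [← ΘN_PN 𝓑 U hopenU r 𝓑H hcont hind A hA, hP]) ?_
  rw [← ΘM_avgSum 𝓑 U r 𝓑H hcont hind A hA, htr, map_zero]

/-- **The image of `P_j` contains a nonzero torsion class**, if `H²(U'; A)` does. -/
theorem exists_PN_eq_ne_zero (n : ℕ)
    (hne : ∃ z : H2 (subBasis 𝓑H (Uloc U r)) (resRep (Uloc U r) A), n • z = 0 ∧ z ≠ 0)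
    (j : (G ⧸ U) ⧸ Dsub U r) :
    ∃ y : H2 𝓑 (Nq 𝓑 U r A), n • y = 0 ∧ PN 𝓑 U hopenU r 𝓑H hcont hind A hA j y = y ∧ y ≠ 0 := by
  obtain ⟨x, hx, hPx, hx0⟩ :=
    exists_PJ_eq_ne_zero U r A hA (hopen_loc 𝓑 U hopenU r 𝓑H hcont) n hne j
  obtain ⟨y, rfl⟩ := (ΘN_bijective 𝓑 U hopenU r 𝓑H hcont hind A hA).2 x
  refine ⟨y, ?_, ?_, fun h => hx0 (by rw [h, map_zero])⟩
  · apply ΘN_injective 𝓑 U hopenU r 𝓑H hcont hind A hA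
    rw [map_nsmul, hx, map_zero]
  · apply ΘN_injective 𝓑 U hopenU r 𝓑H hcont hind A hA
    rw [ΘN_PN, hPx]

end Fermat.Agent.TW.GLOB.GlobalComp5
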