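/-
Chapter T / GLOB, brick PermRecog9 (helper9, request of helper5): the RECOGNITION LEMMA for
permutation modules.

`C` a group, `Y` a finite-dimensional representation of `C` over a field `k`, `J` a finite `C`-set,
`P j` (`j ∈ J`) pairwise orthogonal projectors with sum `1`, permuted by `C`
(`ρ c ∘ P j = P (c • j) ∘ ρ c`), `s : Y → Z` an invariant functional with values in a
one-dimensional space, injective and nonzero on each `range (P j)`.  Then
* `map_eq_map_permRep`: `ψ Y = ψ (J → k)` (permutation representation `LatticeRedFinal9.permRep`);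
* `map_ker_add_map_trivial`: `ψ (ker s) + ψ (Z, trivial) = ψ (J → k)` (`J` nonempty);
* `map_ker_add_map_zmod`: for `k = ZMod p`, universe `0`:
  `ψ (ker s) + ψ (ZMod p, trivial) = ψ (J → ZMod p)`.
-/
import Mathlib
import Fermat.Agent.TW.GLOB.LatticeRedFinal9

set_option autoImplicit false

namespace Fermat.Agent.TW.GLOB.PermRecog9

open Module
open Fermat.Agent.TW.GLOB.IndDefs9 Fermat.Agent.TW.GLOB.LatticeRedFinal9

universe u w

section recog

variable {k : Type*} [Field k] {C : Type u} [Group C] {Y : Type*} [AddCommGroup Y] [Module k Y]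
  (ρ : Representation k C Y) {J : Type*} [Fintype J] [MulAction C J]
  (P : J → Y →ₗ[k] Y) (hsum : ∑ j, P j = LinearMap.id)
  (horth : ∀ i j, i ≠ j → P i ∘ₗ P j = 0)
  (hρP : ∀ c j, ρ c ∘ₗ P j = P (c • j) ∘ₗ ρ c)
  {Z : Type*} [AddCommGroup Z] [Module k Z] (s : Y →ₗ[k] Z)
  (hs : ∀ c y, s (ρ c y) = s y)
  (hinj : ∀ j y, s (P j y) = 0 → P j y = 0)

include hsum horth in
theorem proj_idem (j : J) (y : Y) : P j (P j y) = P j y := by
  classical
  have h1 : P j y = ∑ i, P i (P j y) := by
    have := LinearMap.congr_fun hsum (P j y)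
    rw [LinearMap.sum_apply, LinearMap.id_apply] at this
    exact this.symm
  rw [Finset.sum_eq_single j] at h1
  · exact h1.symm
  · intro i _ hij
    exact LinearMap.congr_fun (horth i j hij) y
  · intro h
    exact absurd (Finset.mem_univ j) h

/-- The data of the recognition lemma: a family `e j ∈ range (P j)` with `s (e j) = z₀`. -/
structure Frame (z₀ : Z) where
  /-- the basis vectors -/
  e : J → Y
  mem : ∀ j, P j (e j) = e j
  val : ∀ j, s (e j) = z₀

include hsum horth in
theorem exists_frame {z₀ : Z} (hz₀ : ∀ z : Z, ∃ a : k, a • z₀ = z)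
    (hne : ∀ j, ∃ y, s (P j y) ≠ 0) : Nonempty (Frame P s z₀) := by
  have h : ∀ j, ∃ e : Y, P j e = e ∧ s e = z₀ := by
    intro j
    obtain ⟨y, hy⟩ := hne j
    obtain ⟨a, ha⟩ := hz₀ (s (P j y))
    have ha0 : a ≠ 0 := by
      rintro rfl
      rw [zero_smul] at ha
      exact hy ha.symm
    refine ⟨a⁻¹ • P j y, ?_, ?_⟩
    · rw [map_smul, proj_idem P hsum horth]
    · rw [map_smul, ← ha, smul_smul, inv_mul_cancel₀ ha0, one_smul]
  choose e he1 he2 using h
  exact ⟨⟨e, he1, he2⟩⟩

variable {P s}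

omit [Fintype J] in
include hρP hs hinj in
theorem Frame.smul_eq {z₀ : Z} (F : Frame P s z₀) (c : C) (j : J) :
    ρ c (F.e j) = F.e (c • j) := by
  have h1 : ρ c (F.e j) = P (c • j) (ρ c (F.e j)) := by
    conv_lhs => rw [← F.mem j]
    exact LinearMap.congr_fun (hρP c j) (F.e j)
  have h2 : ρ c (F.e j) - F.e (c • j) = P (c • j) (ρ c (F.e j) - F.e (c • j)) := by
    rw [map_sub, ← h1, F.mem]
  have h3 : s (P (c • j) (ρ c (F.e j) - F.e (c • j))) = 0 := by
    rw [← h2, map_sub, hs, F.val, F.val, sub_self]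
  have h4 := hinj _ _ h3
  rw [← h2] at h4
  exact sub_eq_zero.mp h4

/-- The comparison map `(J → k) → Y`, `f ↦ ∑ j, f j • e j`. -/
def Frame.toLin {z₀ : Z} (F : Frame P s z₀) : (J → k) →ₗ[k] Y where
  toFun f := ∑ j, f j • F.e j
  map_add' f f' := by
    simp only [Pi.add_apply, add_smul, Finset.sum_add_distrib]
  map_smul' a f := by
    simp only [Pi.smul_apply, smul_eq_mul, mul_smul, Finset.smul_sum, RingHom.id_apply]

theorem Frame.toLin_apply {z₀ : Z} (F : Frame P s z₀) (f : J → k) :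
    F.toLin f = ∑ j, f j • F.e j := rfl

include horth in
theorem Frame.proj_toLin {z₀ : Z} (F : Frame P s z₀) (f : J → k) (i : J) :
    P i (F.toLin f) = f i • F.e i := by
  classical
  rw [F.toLin_apply, map_sum, Finset.sum_eq_single i]
  · rw [map_smul, F.mem]
  · intro j _ hji
    rw [map_smul, ← F.mem j]
    have := LinearMap.congr_fun (horth i j (Ne.symm hji)) (F.e j)
    rw [LinearMap.comp_apply] at this
    rw [this, LinearMap.zero_apply, smul_zero]
  · intro h
    exact absurd (Finset.mem_univ i) h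

include horth in
theorem Frame.toLin_injective {z₀ : Z} (hz₀ne : z₀ ≠ 0) (F : Frame P s z₀) :
    Function.Injective F.toLin := by
  rw [injective_iff_map_eq_zero]
  intro f hf
  funext i
  have h1 := F.proj_toLin horth f i
  rw [hf, map_zero] at h1
  have hei : F.e i ≠ 0 := by
    intro h0
    have := F.val i
    rw [h0, map_zero] at this
    exact hz₀ne this.symm
  exact (smul_eq_zero.mp h1.symm).resolve_right hei

include hsum hinj in
theorem Frame.toLin_surjective {z₀ : Z} (hz₀ : ∀ z : Z, ∃ a : k, a • z₀ = z) (F : Frame P s z₀) :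
    Function.Surjective F.toLin := by
  intro y
  choose a ha using fun j => hz₀ (s (P j y))
  refine ⟨a, ?_⟩
  rw [F.toLin_apply]
  have h1 : y = ∑ j, P j y := by
    have := LinearMap.congr_fun hsum y
    rw [LinearMap.sum_apply, LinearMap.id_apply] at this
    exact this.symm
  conv_rhs => rw [h1]
  refine Finset.sum_congr rfl fun j _ => ?_
  have h2 : P j (y - a j • F.e j) = P j y - a j • F.e j := by
    rw [map_sub, map_smul, F.mem]
  have h3 : s (P j (y - a j • F.e j)) = 0 := by
    rw [h2, map_sub, map_smul, F.val, ha, sub_self]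
  have h4 := hinj _ _ h3
  rw [h2] at h4
  exact (sub_eq_zero.mp h4).symm

include hρP hs hinj in
theorem Frame.toLin_equivariant {z₀ : Z} (F : Frame P s z₀) (c : C) (f : J → k) :
    F.toLin (permRep J k c f) = ρ c (F.toLin f) := by
  rw [F.toLin_apply, F.toLin_apply, map_sum]
  simp only [map_smul, F.smul_eq ρ hρP hs hinj, permRep_apply]
  exact Fintype.sum_equiv (MulAction.toPerm c⁻¹) _ _ (fun j => by
    simp [MulAction.toPerm_apply])

end recog

section main

variable {k : Type u} [Field k] {C : Type u} [Group C] {B : Type w} [AddCommGroup B]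
  (ψ : AdditiveInvariant k C B)
  {Y : Type u} [AddCommGroup Y] [Module k Y] [Module.Finite k Y]
  (ρ : Representation k C Y) {J : Type u} [Fintype J] [MulAction C J]
  (P : J → Y →ₗ[k] Y) (hsum : ∑ j, P j = LinearMap.id)
  (horth : ∀ i j, i ≠ j → P i ∘ₗ P j = 0)
  (hρP : ∀ c j, ρ c ∘ₗ P j = P (c • j) ∘ₗ ρ c)
  {Z : Type u} [AddCommGroup Z] [Module k Z] [Module.Finite k Z] (hZ : finrank k Z = 1) (s : Y →ₗ[k] Z)
  (hs : ∀ c y, s (ρ c y) = s y)
  (hinj : ∀ j y, s (P j y) = 0 → P j y = 0)
  (hne : ∀ j, ∃ y, s (P j y) ≠ 0)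

include hsum horth hρP hZ hs hinj hne

/-- **Recognition lemma, part 1**: `Y` is the permutation module on `J`. -/
theorem map_eq_map_permRep : ψ.toFun Y ρ = ψ.toFun (J → k) (permRep J k) := by
  obtain ⟨z₀, hz₀ne, hz₀⟩ := finrank_eq_one_iff'.mp hZ
  obtain ⟨F⟩ := exists_frame P hsum horth s hz₀ hne
  symm
  exact ψ.map_equiv _ _ _ _
    (LinearEquiv.ofBijective F.toLin
      ⟨F.toLin_injective horth hz₀ne, F.toLin_surjective hsum hinj hz₀⟩)
    (fun c f => F.toLin_equivariant ρ hρP hs hinj c f)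

/-- the representation on `ker s` -/
def kerRep : Representation k C (LinearMap.ker s) :=
  ρ.subrepresentation (LinearMap.ker s) (fun c y hy => by
    rw [Submodule.mem_comap, LinearMap.mem_ker, hs, LinearMap.mem_ker.mp hy])

omit [Module.Finite k Y] [Module.Finite k Z] [Fintype J] [MulAction C J] hsum horth hρP hZ hinj hne in
@[simp] theorem kerRep_apply (c : C) (y : LinearMap.ker s) :
    ((kerRep ρ s hs c y : LinearMap.ker s) : Y) = ρ c y := rfl

/-- **Recognition lemma, part 2** (general form): `ψ (ker s) + ψ (Z, trivial) = ψ (k[J])`. -/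
theorem map_ker_add_map_trivial [Nonempty J] :
    ψ.toFun (LinearMap.ker s) (kerRep ρ s hs) + ψ.toFun Z (Representation.trivial k C Z)
      = ψ.toFun (J → k) (permRep J k) := by
  rw [← map_eq_map_permRep ψ ρ P hsum horth hρP hZ s hs hinj hne]
  obtain ⟨z₀, hz₀ne, hz₀⟩ := finrank_eq_one_iff'.mp hZ
  have hsurj : Function.Surjective s := by
    intro z
    obtain ⟨j⟩ := ‹Nonempty J›
    obtain ⟨y, hy⟩ := hne j
    -- `s (P j y)` generates `Z`
    obtain ⟨a, ha⟩ := hz₀ (s (P j y))
    have ha0 : a ≠ 0 := by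
      rintro rfl
      rw [zero_smul] at ha
      exact hy ha.symm
    obtain ⟨b, hb⟩ := hz₀ z
    refine ⟨(b * a⁻¹) • P j y, ?_⟩
    rw [map_smul, ← ha, smul_smul, mul_assoc, inv_mul_cancel₀ ha0, mul_one, hb]
  symm
  exact ψ.map_exact _ Y Z (kerRep ρ s hs) ρ (Representation.trivial k C Z)
    (LinearMap.ker s).subtype s (fun _ _ => rfl) (fun c y => hs c y)
    (LinearMap.ker s).injective_subtype
    (by
      intro y
      constructor
      · intro hy; exact ⟨⟨y, hy⟩, rfl⟩
      · rintro ⟨x, rfl⟩; exact x.2)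
    hsurj

end main

section zmod

variable (p : ℕ) [Fact p.Prime] {C : Type} [Group C] {B : Type w} [AddCommGroup B]
  (ψ : AdditiveInvariant (ZMod p) C B)

/-- A one-dimensional trivial representation has the same invariant as `ZMod p`. -/
theorem map_trivial_eq_of_finrank_eq_one {Z : Type} [AddCommGroup Z] [Module (ZMod p) Z]
    [Module.Finite (ZMod p) Z] (hZ : finrank (ZMod p) Z = 1) :
    ψ.toFun Z (Representation.trivial (ZMod p) C Z)
      = ψ.toFun (ZMod p) (Representation.trivial (ZMod p) C (ZMod p)) := by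
  obtain ⟨z₀, hz₀ne, hz₀⟩ := finrank_eq_one_iff'.mp hZ
  symm
  refine ψ.map_equiv _ _ _ _ (LinearEquiv.ofBijective (LinearMap.toSpanSingleton (ZMod p) Z z₀)
    ⟨?_, ?_⟩) (fun c a => rfl)
  · rw [injective_iff_map_eq_zero]
    intro a ha
    rw [LinearMap.toSpanSingleton_apply] at ha
    exact (smul_eq_zero.mp ha).resolve_right hz₀ne
  · intro z
    obtain ⟨a, ha⟩ := hz₀ z
    exact ⟨a, ha⟩

variable {Y : Type} [AddCommGroup Y] [Module (ZMod p) Y] [Module.Finite (ZMod p) Y]
  (ρ : Representation (ZMod p) C Y) {J : Type} [Fintype J] [Nonempty J] [MulAction C J]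
  (P : J → Y →ₗ[ZMod p] Y) (hsum : ∑ j, P j = LinearMap.id)
  (horth : ∀ i j, i ≠ j → P i ∘ₗ P j = 0)
  (hρP : ∀ c j, ρ c ∘ₗ P j = P (c • j) ∘ₗ ρ c)
  {Z : Type} [AddCommGroup Z] [Module (ZMod p) Z] [Module.Finite (ZMod p) Z]
  (hZ : finrank (ZMod p) Z = 1) (s : Y →ₗ[ZMod p] Z)
  (hs : ∀ c y, s (ρ c y) = s y)
  (hinj : ∀ j y, s (P j y) = 0 → P j y = 0)
  (hne : ∀ j, ∃ y, s (P j y) ≠ 0)

include hsum horth hρP hZ hinj hne in
/-- **Recognition lemma, part 2** (`ZMod p` form):
`ψ (ker s) + ψ (ZMod p, trivial) = ψ (J → ZMod p)`. -/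
theorem map_ker_add_map_zmod :
    ψ.toFun (LinearMap.ker s) (kerRep ρ s hs)
        + ψ.toFun (ZMod p) (Representation.trivial (ZMod p) C (ZMod p))
      = ψ.toFun (J → ZMod p) (permRep J (ZMod p)) := by
  rw [← map_trivial_eq_of_finrank_eq_one p ψ hZ]
  exact map_ker_add_map_trivial ψ ρ P hsum horth hρP hZ s hs hinj hne

end zmod

end Fermat.Agent.TW.GLOB.PermRecog9
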