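/-
Programme T (S56, Taylor–Wiles primes), chapter GLOB, task T7 — helper5.

**Abstract recognition of `H²(U; E_S)[p]`.**

An exact sequence `ℂ --δ--> 𝔼 --j--> 𝕐 --s--> 𝕫` of `R`-modules with compatible actions of a group
`Q` (think `H¹(U; C_S) → H²(U; E_S) → H²(U; I_S) → H²(U; C_S)`), such that
* every element of `ℂ` has finite order prime to `p`;
* `𝕫[p]` is cyclic with trivial action;
* `𝕐` carries orthogonal idempotents `P j` (`j` in a finite `Q`-set `J`) with sum `1`, permuted by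
  `Q`, such that `s` is injective on the `p`-torsion of each `range (P j)`, which is nonzero.
Then for every subgroup `C ≤ Q`, every additive invariant `ψ` of `𝔽_p[C]`-modules and every
`𝔽_p[C]`-model `V` of `𝔼[p]`:  `ψ V + ψ 𝔽_p = ψ 𝔽_p[J]`.
-/
import Mathlib
import Fermat.Agent.TW.GLOB.PermRecog9

set_option autoImplicit false
set_option linter.unusedSectionVars false
set_option linter.style.haveILetI false

open Fermat.Agent.TW.GLOB.IndDefs9 Fermat.Agent.TW.GLOB.LatticeRedFinal9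
  Fermat.Agent.TW.GLOB.PermRecog9

namespace Fermat.Agent.TW.GLOB.H2Abs5

/-! ### `p`-torsion subgroups as `ZMod p`-modules -/

section Tors

variable (p : ℕ) [Fact p.Prime]

/-- The `p`-torsion subgroup. -/
def tors (M : Type*) [AddCommGroup M] : AddSubgroup M := (nsmulAddMonoidHom (α := M) p).ker

theorem mem_tors_iff {M : Type*} [AddCommGroup M] (x : M) : x ∈ tors p M ↔ p • x = 0 :=
  AddMonoidHom.mem_ker

theorem nsmul_tors {M : Type*} [AddCommGroup M] (x : tors p M) : p • x = 0 :=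
  Subtype.ext ((mem_tors_iff p x.1).1 x.2)

noncomputable instance torsModule (M : Type*) [AddCommGroup M] : Module (ZMod p) (tors p M) :=
  AddCommGroup.zmodModule (nsmul_tors p)

/-- The restriction of an additive map to the `p`-torsion. -/
def torsMap {M N : Type*} [AddCommGroup M] [AddCommGroup N] (f : M →+ N) :
    tors p M →+ tors p N :=
  (f.comp (tors p M).subtype).codRestrict (tors p N) (fun x => by
    rw [mem_tors_iff, AddMonoidHom.comp_apply, ← map_nsmul, AddSubgroup.coe_subtype,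
      (mem_tors_iff p x.1).1 x.2, map_zero])

@[simp] theorem coe_torsMap {M N : Type*} [AddCommGroup M] [AddCommGroup N] (f : M →+ N)
    (x : tors p M) : ((torsMap p f x : tors p N) : N) = f x := rfl

/-- The restriction of an additive map to the `p`-torsion, as a `ZMod p`-linear map. -/
noncomputable def torsLin {M N : Type*} [AddCommGroup M] [AddCommGroup N] (f : M →+ N) :
    tors p M →ₗ[ZMod p] tors p N :=
  AddMonoidHom.toZModLinearMap p (torsMap p f)

@[simp] theorem coe_torsLin {M N : Type*} [AddCommGroup M] [AddCommGroup N] (f : M →+ N)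
    (x : tors p M) : ((torsLin p f x : tors p N) : N) = f x := rfl

theorem natCast_smul_tors {M : Type*} [AddCommGroup M] (n : ℕ) (x : tors p M) :
    ((n : ZMod p) • x : tors p M) = n • x := Nat.cast_smul_eq_nsmul (ZMod p) n x

end Tors

/-! ### The recognition theorem -/

section Main

variable (p : ℕ) [Fact p.Prime] {R : Type} [CommRing R] {Q : Type} [Group Q]

/-- The representation of a subgroup `C ≤ Q` on the `p`-torsion of a `Q`-module. -/
noncomputable def torsRep {M : Type} [AddCommGroup M] [Module R M] (ρ : Representation R Q M)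
    (C : Subgroup Q) : Representation (ZMod p) C (tors p M) where
  toFun c := torsLin p (ρ (c : Q)).toAddMonoidHom
  map_one' := LinearMap.ext fun x => Subtype.ext (by
    show ρ ((1 : C) : Q) x.1 = x.1
    rw [Subgroup.coe_one, map_one]
    rfl)
  map_mul' c c' := LinearMap.ext fun x => Subtype.ext (by
    show ρ ((c * c' : C) : Q) x.1 = ρ (c : Q) (ρ (c' : Q) x.1)
    rw [Subgroup.coe_mul, map_mul]
    rfl)

@[simp] theorem coe_torsRep {M : Type} [AddCommGroup M] [Module R M] (ρ : Representation R Q M)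
    (C : Subgroup Q) (c : C) (x : tors p M) :
    ((torsRep p ρ C c x : tors p M) : M) = ρ (c : Q) x.1 := rfl

variable {E₂ Y₂ Z₂ C₁ : Type} [AddCommGroup E₂] [Module R E₂] [AddCommGroup Y₂] [Module R Y₂]
  [AddCommGroup Z₂] [Module R Z₂] [AddCommGroup C₁] [Module R C₁]
  (ρE : Representation R Q E₂) (ρY : Representation R Q Y₂) (ρZ : Representation R Q Z₂)
  (δ : C₁ →ₗ[R] E₂) (jm : E₂ →ₗ[R] Y₂) (s : Y₂ →ₗ[R] Z₂)
  (hδj : ∀ e, jm e = 0 ↔ ∃ c, δ c = e) (hjs : ∀ y, s y = 0 ↔ ∃ e, jm e = y)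
  (hC : ∀ c : C₁, ∃ m : ℕ, m.Coprime p ∧ m • c = 0)
  (hjρ : ∀ q e, jm (ρE q e) = ρY q (jm e)) (hsρ : ∀ q y, s (ρY q y) = ρZ q (s y))
  (hZtriv : ∀ q z, p • z = 0 → ρZ q z = z)
  (hZcyc : ∀ z z' : Z₂, p • z = 0 → p • z' = 0 → z ≠ 0 → ∃ n : ℕ, z' = n • z)
  {J : Type} [Fintype J] [Nonempty J] [MulAction Q J]
  (P : J → Y₂ →ₗ[R] Y₂) (hsum : ∀ y, ∑ j, P j y = y)
  (horth : ∀ i j, i ≠ j → ∀ y, P i (P j y) = 0)
  (hρP : ∀ q j y, ρY q (P j y) = P (q • j) (ρY q y))
  (hinj : ∀ j y, p • y = 0 → P j y = y → s y = 0 → y = 0)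
  (hne : ∀ j, ∃ y, p • y = 0 ∧ P j y = y ∧ y ≠ 0)

include hsum horth in
theorem P_idem (j : J) (y : Y₂) : P j (P j y) = P j y := by
  classical
  have h1 := hsum (P j y)
  rw [Finset.sum_eq_single j (fun i _ hij => horth i j hij y)
    (fun h => absurd (Finset.mem_univ j) h)] at h1
  exact h1

/-- `P j` on the `p`-torsion. -/
noncomputable def PY (j : J) : tors p Y₂ →ₗ[ZMod p] tors p Y₂ := torsLin p (P j).toAddMonoidHom

/-- `s` on the `p`-torsion. -/
noncomputable def sY : tors p Y₂ →ₗ[ZMod p] tors p Z₂ := torsLin p s.toAddMonoidHom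

include hsum in
theorem sum_PY : ∑ j, PY p P j = LinearMap.id := by
  refine LinearMap.ext fun y => Subtype.ext ?_
  rw [LinearMap.sum_apply, AddSubgroup.val_finsetSum]
  exact hsum y.1

include horth in
theorem PY_orth (i j : J) (hij : i ≠ j) : PY p P i ∘ₗ PY p P j = 0 :=
  LinearMap.ext fun y => Subtype.ext (horth i j hij y.1)

include hρP in
theorem torsRep_PY (C : Subgroup Q) (c : C) (j : J) :
    torsRep p ρY C c ∘ₗ PY p P j = PY p P (c • j) ∘ₗ torsRep p ρY C c :=
  LinearMap.ext fun y => Subtype.ext (hρP (c : Q) j y.1)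

include hsρ hZtriv in
theorem sY_torsRep (C : Subgroup Q) (c : C) (y : tors p Y₂) :
    sY p s (torsRep p ρY C c y) = sY p s y :=
  Subtype.ext ((hsρ (c : Q) y.1).trans
    (hZtriv (c : Q) (s y.1) (by rw [← map_nsmul, (mem_tors_iff p y.1).1 y.2, map_zero])))

include hsum horth hinj in
theorem sY_PY_inj (j : J) (y : tors p Y₂) (h : sY p s (PY p P j y) = 0) : PY p P j y = 0 := by
  apply Subtype.ext
  have h1 : s (P j y.1) = 0 := congrArg Subtype.val h
  exact hinj j (P j y.1) (by rw [← map_nsmul, (mem_tors_iff p y.1).1 y.2, map_zero])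
    (P_idem P hsum horth j y.1) h1

include hsum horth hinj hne in
theorem sY_PY_ne (j : J) : ∃ y : tors p Y₂, sY p s (PY p P j y) ≠ 0 := by
  obtain ⟨y, hy, hPy, hy0⟩ := hne j
  refine ⟨⟨y, (mem_tors_iff p y).2 hy⟩, fun h => hy0 ?_⟩
  have h1 : s (P j y) = 0 := congrArg Subtype.val h
  rw [hPy] at h1
  exact hinj j y hy hPy h1

include hsum horth hinj hne hZcyc in
/-- `Z₂[p]` is one-dimensional. -/
theorem exists_gen :
    ∃ z₀ : tors p Z₂, z₀ ≠ 0 ∧ ∀ z : tors p Z₂, ∃ a : ZMod p, a • z₀ = z := by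
  obtain ⟨j⟩ := (inferInstance : Nonempty J)
  obtain ⟨y, hy⟩ := sY_PY_ne p s P hsum horth hinj hne j
  refine ⟨_, hy, fun z => ?_⟩
  obtain ⟨n, hn⟩ := hZcyc _ z.1 ((mem_tors_iff p _).1 (sY p s (PY p P j y)).2)
    ((mem_tors_iff p _).1 z.2) (fun h => hy (Subtype.ext h))
  refine ⟨(n : ZMod p), Subtype.ext ?_⟩
  rw [natCast_smul_tors, AddSubgroup.coe_nsmul, hn]

include hsum horth hinj hne hZcyc in
theorem finite_torsZ : Finite (tors p Z₂) := by
  obtain ⟨z₀, -, hz₀⟩ := exists_gen p s hZcyc P hsum horth hinj hne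
  exact Finite.of_surjective (fun a : ZMod p => a • z₀) hz₀

include hsum horth hinj hne hZcyc in
theorem finite_torsY : Finite (tors p Y₂) := by
  have := finite_torsZ p s hZcyc P hsum horth hinj hne
  refine Finite.of_injective (fun y : tors p Y₂ => fun j : J => sY p s (PY p P j y)) ?_
  intro y y' h
  have h1 : ∀ j, PY p P j (y - y') = 0 := fun j => by
    apply sY_PY_inj p s P hsum horth hinj j
    rw [map_sub, map_sub, sub_eq_zero]
    exact congrFun h j
  have h2 := LinearMap.congr_fun (sum_PY p P hsum) (y - y')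
  rw [LinearMap.sum_apply, Finset.sum_eq_zero (fun j _ => h1 j), LinearMap.id_apply] at h2
  exact sub_eq_zero.1 h2.symm

include hsum horth hinj hne hZcyc in
theorem finrank_torsZ : Module.finrank (ZMod p) (tors p Z₂) = 1 := by
  obtain ⟨z₀, hz₀, hz⟩ := exists_gen p s hZcyc P hsum horth hinj hne
  exact finrank_eq_one_iff'.2 ⟨z₀, hz₀, hz⟩

include hδj hC hZcyc hsum horth hinj hne in
/-- `E₂[p]` is finite (it embeds into `Y₂[p]`). -/
theorem finite_torsE : Finite (tors p E₂) := by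
  have hp : p.Prime := Fact.out
  haveI : Finite (tors p Y₂) := finite_torsY p s hZcyc P hsum horth hinj hne
  refine Finite.of_injective (torsMap p jm.toAddMonoidHom) ?_
  intro e e' h
  have h1 : jm ((e : E₂) - (e' : E₂)) = 0 := by
    rw [map_sub, sub_eq_zero]
    exact congrArg Subtype.val h
  obtain ⟨c, hc⟩ := (hδj _).1 h1
  obtain ⟨m, hm, hmc⟩ := hC c
  have h3 : m • ((e : E₂) - (e' : E₂)) = 0 := by rw [← hc, ← map_nsmul, hmc, map_zero]
  have h4 : p • ((e : E₂) - (e' : E₂)) = 0 := by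
    rw [smul_sub, (mem_tors_iff p _).1 e.2, (mem_tors_iff p _).1 e'.2, sub_zero]
  have h6 : addOrderOf ((e : E₂) - (e' : E₂)) ∣ m := addOrderOf_dvd_of_nsmul_eq_zero h3
  have h7 : addOrderOf ((e : E₂) - (e' : E₂)) ∣ p := addOrderOf_dvd_of_nsmul_eq_zero h4
  have h8 : addOrderOf ((e : E₂) - (e' : E₂)) = 1 := Nat.eq_one_of_dvd_coprimes hm h6 h7
  exact Subtype.ext (sub_eq_zero.1 (AddMonoid.addOrderOf_eq_one_iff.1 h8))

section Final

variable {B : Type*} [AddCommGroup B] (C : Subgroup Q) (ψ : AdditiveInvariant (ZMod p) C B)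

include hδj hjs hC hjρ hsρ hZtriv hZcyc hsum horth hρP hinj hne in
/-- **The recognition theorem**: `ψ (E₂[p]) + ψ 𝔽_p = ψ 𝔽_p[J]` for every `𝔽_p[C]`-model `V` of
`E₂[p]`. -/
theorem map_model_add_map_zmod
    (V : Type) [AddCommGroup V] [Module (ZMod p) V] [Module.Finite (ZMod p) V]
    (ρV : Representation (ZMod p) C V) (i : V →+ E₂) (hi : Function.Injective i)
    (hiK : ∀ e, e ∈ i.range ↔ p • e = 0) (hiρ : ∀ c v, i (ρV c v) = ρE (c : Q) (i v)) :
    ψ.toFun V ρV + ψ.toFun (ZMod p) (Representation.trivial (ZMod p) C (ZMod p)) =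
      ψ.toFun (J → ZMod p) (permRep J (ZMod p)) := by
  have hp : p.Prime := Fact.out
  haveI : Finite (tors p Y₂) := finite_torsY p s hZcyc P hsum horth hinj hne
  haveI : Finite (tors p Z₂) := finite_torsZ p s hZcyc P hsum horth hinj hne
  haveI : Module.Finite (ZMod p) (tors p Y₂) := Module.Finite.of_finite
  haveI : Module.Finite (ZMod p) (tors p Z₂) := Module.Finite.of_finite
  have hs' := sY_torsRep p ρY ρZ s hsρ hZtriv C
  rw [← map_ker_add_map_zmod p ψ (torsRep p ρY C) (PY p P) (sum_PY p P hsum)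
    (PY_orth p P horth) (torsRep_PY p ρY P hρP C)
    (finrank_torsZ p s hZcyc P hsum horth hinj hne) (sY p s) hs'
    (sY_PY_inj p s P hsum horth hinj) (sY_PY_ne p s P hsum horth hinj hne)]
  congr 1
  -- the comparison `V ≃ ker (s | Y₂[p])`
  have hmem : ∀ v : V, jm (i v) ∈ tors p Y₂ := fun v => by
    rw [mem_tors_iff, ← map_nsmul, (hiK (i v)).1 ⟨v, rfl⟩, map_zero]
  have hker : ∀ v : V, (⟨jm (i v), hmem v⟩ : tors p Y₂) ∈ LinearMap.ker (sY p s) := fun v => by
    rw [LinearMap.mem_ker]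
    exact Subtype.ext ((hjs _).2 ⟨i v, rfl⟩)
  let f : V →+ LinearMap.ker (sY p s) :=
    { toFun := fun v => ⟨⟨jm (i v), hmem v⟩, hker v⟩
      map_zero' := Subtype.ext (Subtype.ext (by
        show jm (i 0) = 0
        rw [map_zero, map_zero]))
      map_add' := fun v w => Subtype.ext (Subtype.ext (by
        show jm (i (v + w)) = jm (i v) + jm (i w)
        rw [map_add, map_add])) }
  have hfinj : Function.Injective f := by
    intro v w hvw
    have h1 : jm (i v) = jm (i w) :=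
      congrArg (fun x : LinearMap.ker (sY p s) => ((x : tors p Y₂) : Y₂)) hvw
    have h2 : jm (i (v - w)) = 0 := by rw [map_sub, map_sub, h1, sub_self]
    obtain ⟨c, hc⟩ := (hδj _).1 h2
    obtain ⟨m, hm, hmc⟩ := hC c
    have h3 : m • i (v - w) = 0 := by rw [← hc, ← map_nsmul, hmc, map_zero]
    have h4 : p • i (v - w) = 0 := (hiK _).1 ⟨_, rfl⟩
    have h5 : i (v - w) = 0 := by
      have h6 : addOrderOf (i (v - w)) ∣ m := addOrderOf_dvd_of_nsmul_eq_zero h3
      have h7 : addOrderOf (i (v - w)) ∣ p := addOrderOf_dvd_of_nsmul_eq_zero h4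
      have h8 : addOrderOf (i (v - w)) = 1 :=
        Nat.eq_one_of_dvd_coprimes hm h6 h7
      exact AddMonoid.addOrderOf_eq_one_iff.1 h8
    have h9 : v - w = 0 := hi (by rw [h5, map_zero])
    exact sub_eq_zero.1 h9
  have hfsurj : Function.Surjective f := by
    rintro ⟨⟨y, hy⟩, hys⟩
    have hpy : p • y = 0 := (mem_tors_iff p y).1 hy
    have hsy : s y = 0 := congrArg Subtype.val (LinearMap.mem_ker.1 hys)
    obtain ⟨e, he⟩ := (hjs y).1 hsy
    have h1 : jm (p • e) = 0 := by rw [map_nsmul, he, hpy]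
    obtain ⟨c, hc⟩ := (hδj _).1 h1
    obtain ⟨m, hm, hmc⟩ := hC c
    -- `c = p • c'`
    obtain ⟨a, ha⟩ : ∃ a : ℕ, p * a ≡ 1 [MOD m] := by
      by_cases hm1 : m = 1
      · exact ⟨0, by rw [hm1]; exact Nat.modEq_one⟩
      · by_cases hm0 : m = 0
        · rw [hm0, Nat.coprime_zero_left] at hm
          exact absurd hm hp.one_lt.ne'
        · have hm2 : 1 < m := by omega
          obtain ⟨a, -, ha⟩ := Nat.exists_mul_mod_eq_one_of_coprime hm.symm hm2
          exact ⟨a, by rw [Nat.ModEq, ha, Nat.mod_eq_of_lt hm2]⟩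
    have hcc : c = p • (a • c) := by
      rw [← mul_smul]
      have h2 : (p * a) • c = 1 • c := by
        rw [nsmul_eq_nsmul_iff_modEq]
        exact ha.of_dvd (addOrderOf_dvd_of_nsmul_eq_zero hmc)
      rw [h2, one_smul]
    set e' := e - δ (a • c) with he'
    have hpe' : p • e' = 0 := by
      rw [he', smul_sub, ← map_nsmul, ← hcc, hc, sub_self]
    obtain ⟨v, hv⟩ := (hiK e').2 hpe'
    refine ⟨v, Subtype.ext (Subtype.ext ?_)⟩
    show jm (i v) = y
    rw [hv, he', map_sub, he, (hδj _).2 ⟨_, rfl⟩, sub_zero]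
  let fe : V ≃ₗ[ZMod p] LinearMap.ker (sY p s) :=
    LinearEquiv.ofBijective (AddMonoidHom.toZModLinearMap p f) ⟨hfinj, hfsurj⟩
  refine ψ.map_equiv V _ ρV _ fe (fun c v => ?_)
  apply Subtype.ext
  apply Subtype.ext
  show jm (i (ρV c v)) = ρY (c : Q) (jm (i v))
  rw [hiρ, hjρ]

end Final

end Main

end Fermat.Agent.TW.GLOB.H2Abs5
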