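/-
Programme T (S56, Taylor–Wiles primes), chapter GLOB, task T7 — helper5.

**The decomposition of `H²(U; Y)` for a finite product `Y = ∏ᵢ Coind_{Hᵢ→G}^{sm} Aᵢ`.**

`(G, 𝓑)` a level group, `U ◁ G` open of finite index, `I` a finite index set, and for `i ∈ I` a
group `Hᵢ` with `rᵢ : Hᵢ →* G`, induced levels, a discrete `Hᵢ`-module `Aᵢ`,
`Mᵢ = Coind_{Hᵢ→G}^{sm} Aᵢ`.  `Y` is a discrete `G`-module with a biproduct structure
`incᵢ : Mᵢ → Y`, `prᵢ : Y → Mᵢ`.  On `H²(G; Coind_U^G Y)` and on `H²(U; Y)` we get the family of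
orthogonal idempotents `PS ⟨i, j⟩`, `j ∈ (G ⧸ U) ⧸ Dᵢ` (think: the places of the fixed field of `U`
over the places `i`), with sum `1`, permuted by the action of `G ⧸ U`; and for an equivariant map
`s : Y → Z` (think `I_S → C_S`) such that `H²(G; Mᵢ)[n] → H²(G; Z)` is injective for every `i`,
the map `H²(U; s)` is injective on the `n`-torsion of the image of each `PS ⟨i, j⟩`.
-/
import Mathlib
import Fermat.Agent.TW.GLOB.GlobalComp5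

set_option autoImplicit false
set_option linter.unusedSectionVars false

open Fermat.Agent.PT.PRO.LevelCoh28 Fermat.Agent.PT.PRO.LevelCohRes28
  Fermat.Agent.PT.PRO.SmoothCoind28 Fermat.Agent.PT.PRO.ShapiroLevel28
  Fermat.Agent.TW.GLOB.SubLevel5 Fermat.Agent.TW.GLOB.ShapiroConj5
  Fermat.Agent.TW.GLOB.ResInvariants5 Fermat.Agent.TW.GLOB.TraceLevel5
  Fermat.Agent.TW.GLOB.FunQ5 Fermat.Agent.TW.GLOB.CoindFunQ5 Fermat.Agent.TW.GLOB.MapH5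
  Fermat.Agent.TW.GLOB.LocalComp5 Fermat.Agent.TW.GLOB.GlobalComp5

namespace Fermat.Agent.TW.GLOB.ProdComp5

/-! ### Functoriality of `Coind_U^G` -/

section CoindMap

variable {k G : Type} [CommRing k] [Group G] {𝓑 : LevelBasis G} (U : Subgroup G)
  {A B C : Rep.{0} k G}

theorem coindMap_comp {φ : A →ₗ[k] B} (hφ : ∀ g a, φ (A.ρ g a) = B.ρ g (φ a))
    {ψ : B →ₗ[k] C} (hψ : ∀ g b, ψ (B.ρ g b) = C.ρ g (ψ b)) :
    coindMap (𝓑 := 𝓑) U ψ hψ ∘ₗ coindMap (𝓑 := 𝓑) U φ hφ =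
      coindMap (𝓑 := 𝓑) U (ψ ∘ₗ φ) (comp_equivariant hφ hψ) :=
  LinearMap.ext fun _ => Subtype.ext (funext fun _ => rfl)

theorem coindMap_id (h : ∀ g a, (LinearMap.id : A →ₗ[k] A) (A.ρ g a) =
    A.ρ g ((LinearMap.id : A →ₗ[k] A) a)) :
    coindMap (𝓑 := 𝓑) U (LinearMap.id : A →ₗ[k] A) h = LinearMap.id :=
  LinearMap.ext fun _ => Subtype.ext (funext fun _ => rfl)

theorem coindMap_zero (h : ∀ g a, (0 : A →ₗ[k] B) (A.ρ g a) = B.ρ g ((0 : A →ₗ[k] B) a)) :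
    coindMap (𝓑 := 𝓑) U (0 : A →ₗ[k] B) h = 0 :=
  LinearMap.ext fun _ => Subtype.ext (funext fun _ => rfl)

theorem coindMap_congr {φ φ' : A →ₗ[k] B} (h : φ = φ') (hφ : ∀ g a, φ (A.ρ g a) = B.ρ g (φ a))
    (hφ' : ∀ g a, φ' (A.ρ g a) = B.ρ g (φ' a)) :
    coindMap (𝓑 := 𝓑) U φ hφ = coindMap (𝓑 := 𝓑) U φ' hφ' := by
  subst h
  rfl

theorem coindMap_sum {ι : Type*} (s : Finset ι) {φ : ι → A →ₗ[k] B}
    (hφ : ∀ i g a, φ i (A.ρ g a) = B.ρ g (φ i a)) :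
    coindMap (𝓑 := 𝓑) U (∑ i ∈ s, φ i) (sum_equivariant s hφ) =
      ∑ i ∈ s, coindMap (𝓑 := 𝓑) U (φ i) (hφ i) := by
  refine LinearMap.ext fun f => Subtype.ext (funext fun x => ?_)
  rw [coindMap_apply, LinearMap.sum_apply, LinearMap.sum_apply]
  have h1 : ((∑ i ∈ s, coindMap (𝓑 := 𝓑) U (φ i) (hφ i) f : coindRes 𝓑 U B)).1 x =
      ∑ i ∈ s, (coindMap (𝓑 := 𝓑) U (φ i) (hφ i) f).1 x := by
    classical
    induction s using Finset.induction_on with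
    | empty => simp only [Finset.sum_empty]; rfl
    | insert i s hi ih =>
      rw [Finset.sum_insert hi, Finset.sum_insert hi, ← ih]
      rfl
  rw [h1]
  rfl

end CoindMap

/-! ### The idempotents on `H²(G; Coind_U^G Y)` -/

section Prod

variable {k : Type} [CommRing k] {G : Type} [Group G] (𝓑 : LevelBasis G)
  (U : Subgroup G) [hU : U.Normal] [Fintype (G ⧸ U)] (hopenU : ∃ V ∈ 𝓑.sets, V ≤ U)
  {I : Type} [Fintype I] [DecidableEq I]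
  {H : I → Type} [∀ i, Group (H i)] (r : ∀ i, H i →* G) (𝓑H : ∀ i, LevelBasis (H i))
  (hcont : ∀ i, IsLevelHom (r i) (𝓑H i).sets 𝓑.sets)
  (hind : ∀ i, ∀ V ∈ (𝓑H i).sets, ∃ W ∈ 𝓑.sets, W.comap (r i) ≤ V)
  (A : ∀ i, Rep.{0} k (H i)) (hA : ∀ i, IsDiscrete (𝓑H i).sets (A i))
  [∀ i, Fintype (H i ⧸ Uloc U (r i))] [∀ i, Fintype ((G ⧸ U) ⧸ Dsub U (r i))]
  {Y : Rep.{0} k G}
  (inc : ∀ i, Mq 𝓑 (r i) (A i) →ₗ[k] Y)
  (hinc : ∀ i g m, inc i ((Mq 𝓑 (r i) (A i)).ρ g m) = Y.ρ g (inc i m))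
  (pr : ∀ i, Y →ₗ[k] Mq 𝓑 (r i) (A i))
  (hpr : ∀ i g y, pr i (Y.ρ g y) = (Mq 𝓑 (r i) (A i)).ρ g (pr i y))
  (hpi : ∀ i m, pr i (inc i m) = m) (hpij : ∀ i j, i ≠ j → ∀ m, pr i (inc j m) = 0)
  (hsum : ∀ y, ∑ i, inc i (pr i y) = y)

/-- The index set: pairs `(i, j)` with `j ∈ (G ⧸ U) ⧸ Dᵢ`. -/
abbrev JS : Type := Σ i : I, (G ⧸ U) ⧸ Dsub U (r i)

/-- `H²(G; Coind_U^G incᵢ)`. -/
noncomputable def αi (i : I) : H2 𝓑 (Nq 𝓑 U (r i) (A i)) →ₗ[k] H2 𝓑 (coindRes 𝓑 U Y) :=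
  mapH2 (𝓑 := 𝓑) (coindMap U (inc i) (hinc i)) (coindMap_equivariant U (inc i) (hinc i))

/-- `H²(G; Coind_U^G prᵢ)`. -/
noncomputable def βi (i : I) : H2 𝓑 (coindRes 𝓑 U Y) →ₗ[k] H2 𝓑 (Nq 𝓑 U (r i) (A i)) :=
  mapH2 (𝓑 := 𝓑) (coindMap U (pr i) (hpr i)) (coindMap_equivariant U (pr i) (hpr i))

include hpi in
theorem βi_αi (i : I) (y : H2 𝓑 (Nq 𝓑 U (r i) (A i))) :
    βi 𝓑 U r A pr hpr i (αi 𝓑 U r A inc hinc i y) = y := by
  unfold βi αi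
  rw [mapH2_comp]
  refine (mapH2_congr ?_ _ (id_equivariant (A := Nq 𝓑 U (r i) (A i))) y).trans (mapH2_id _ y)
  rw [coindMap_comp, ← coindMap_id (𝓑 := 𝓑) U (A := Mq 𝓑 (r i) (A i)) id_equivariant]
  exact coindMap_congr U (LinearMap.ext fun m => hpi i m) _ _

include hpij in
theorem βi_αi_of_ne {i j : I} (hij : i ≠ j) (y : H2 𝓑 (Nq 𝓑 U (r j) (A j))) :
    βi 𝓑 U r A pr hpr i (αi 𝓑 U r A inc hinc j y) = 0 := by
  unfold βi αi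
  rw [mapH2_comp]
  refine (mapH2_congr ?_ _ (zero_equivariant (A := Nq 𝓑 U (r j) (A j))
    (B := Nq 𝓑 U (r i) (A i))) y).trans (mapH2_zero _ y)
  rw [coindMap_comp, ← coindMap_zero (𝓑 := 𝓑) U (A := Mq 𝓑 (r j) (A j))
    (B := Mq 𝓑 (r i) (A i)) zero_equivariant]
  exact coindMap_congr U (LinearMap.ext fun m => hpij i j hij m) _ _

include hsum in
theorem sum_αi_βi (y : H2 𝓑 (coindRes 𝓑 U Y)) :
    ∑ i, αi 𝓑 U r A inc hinc i (βi 𝓑 U r A pr hpr i y) = y := by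
  unfold βi αi
  simp only [mapH2_comp]
  have h1 : ∀ i g (f : coindRes 𝓑 U Y),
      (coindMap (𝓑 := 𝓑) U (inc i) (hinc i) ∘ₗ coindMap (𝓑 := 𝓑) U (pr i) (hpr i))
        ((coindRes 𝓑 U Y).ρ g f) = (coindRes 𝓑 U Y).ρ g
        ((coindMap (𝓑 := 𝓑) U (inc i) (hinc i) ∘ₗ coindMap (𝓑 := 𝓑) U (pr i) (hpr i)) f) :=
    fun i => comp_equivariant (coindMap_equivariant U (pr i) (hpr i))
      (coindMap_equivariant U (inc i) (hinc i))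
  rw [← mapH2_sum Finset.univ h1 y]
  refine (mapH2_congr ?_ _ (id_equivariant (A := coindRes 𝓑 U Y)) y).trans (mapH2_id _ y)
  refine LinearMap.ext fun f => Subtype.ext (funext fun x => ?_)
  rw [LinearMap.sum_apply]
  have h2 : ((∑ i, (coindMap (𝓑 := 𝓑) U (inc i) (hinc i) ∘ₗ
      coindMap (𝓑 := 𝓑) U (pr i) (hpr i)) f : coindRes 𝓑 U Y)).1 x =
      ∑ i, inc i (pr i (f.1 x)) := by
    have h3 : ∀ s : Finset I, ((∑ i ∈ s, (coindMap (𝓑 := 𝓑) U (inc i) (hinc i) ∘ₗ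
        coindMap (𝓑 := 𝓑) U (pr i) (hpr i)) f : coindRes 𝓑 U Y)).1 x =
        ∑ i ∈ s, inc i (pr i (f.1 x)) := by
      intro s
      induction s using Finset.induction_on with
      | empty => simp only [Finset.sum_empty]; rfl
      | insert i s hi ih =>
        rw [Finset.sum_insert hi, Finset.sum_insert hi, ← ih]
        rfl
    exact h3 Finset.univ
  rw [h2, hsum]
  rfl

/-- The idempotent of `H²(G; Coind_U^G Y)` attached to `(i, j)`. -/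
noncomputable def PS (x : JS U r) : H2 𝓑 (coindRes 𝓑 U Y) →ₗ[k] H2 𝓑 (coindRes 𝓑 U Y) :=
  (αi 𝓑 U r A inc hinc x.1) ∘ₗ
    (PN 𝓑 U hopenU (r x.1) (𝓑H x.1) (hcont x.1) (hind x.1) (A x.1) (hA x.1) x.2) ∘ₗ
    (βi 𝓑 U r A pr hpr x.1)

theorem PS_apply (x : JS U r) (y : H2 𝓑 (coindRes 𝓑 U Y)) :
    PS 𝓑 U hopenU r 𝓑H hcont hind A hA inc hinc pr hpr x y =
      αi 𝓑 U r A inc hinc x.1
        (PN 𝓑 U hopenU (r x.1) (𝓑H x.1) (hcont x.1) (hind x.1) (A x.1) (hA x.1) x.2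
          (βi 𝓑 U r A pr hpr x.1 y)) := rfl

include hsum in
theorem sum_PS (y : H2 𝓑 (coindRes 𝓑 U Y)) :
    ∑ x : JS U r, PS 𝓑 U hopenU r 𝓑H hcont hind A hA inc hinc pr hpr x y = y := by
  rw [Fintype.sum_sigma]
  simp only [PS_apply]
  have h1 : ∀ i : I, ∑ j : (G ⧸ U) ⧸ Dsub U (r i), αi 𝓑 U r A inc hinc i
      (PN 𝓑 U hopenU (r i) (𝓑H i) (hcont i) (hind i) (A i) (hA i) j (βi 𝓑 U r A pr hpr i y)) =
      αi 𝓑 U r A inc hinc i (βi 𝓑 U r A pr hpr i y) := by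
    intro i
    rw [← map_sum, sum_PN]
  rw [Finset.sum_congr rfl fun i _ => h1 i]
  exact sum_αi_βi 𝓑 U r A inc hinc pr hpr hsum y

include hpi hpij in
theorem PS_PS_of_ne {x x' : JS U r} (h : x ≠ x') (y : H2 𝓑 (coindRes 𝓑 U Y)) :
    PS 𝓑 U hopenU r 𝓑H hcont hind A hA inc hinc pr hpr x
      (PS 𝓑 U hopenU r 𝓑H hcont hind A hA inc hinc pr hpr x' y) = 0 := by
  obtain ⟨i, j⟩ := x
  obtain ⟨i', j'⟩ := x'
  rw [PS_apply, PS_apply]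
  by_cases hii : i = i'
  · subst hii
    have hjj : j ≠ j' := fun hjj => h (by rw [hjj])
    rw [βi_αi 𝓑 U r A inc hinc pr hpr hpi, PN_PN_of_ne _ _ _ _ _ _ _ _ _ hjj, map_zero]
  · rw [βi_αi_of_ne 𝓑 U r A inc hinc pr hpr hpij hii, map_zero, map_zero]

include hpi in
theorem PS_PS (x : JS U r) (y : H2 𝓑 (coindRes 𝓑 U Y)) :
    PS 𝓑 U hopenU r 𝓑H hcont hind A hA inc hinc pr hpr x
      (PS 𝓑 U hopenU r 𝓑H hcont hind A hA inc hinc pr hpr x y) =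
      PS 𝓑 U hopenU r 𝓑H hcont hind A hA inc hinc pr hpr x y := by
  rw [PS_apply, PS_apply, βi_αi 𝓑 U r A inc hinc pr hpr hpi, PN_PN]

/-- Translation by `q ∈ G ⧸ U` commutes with `αᵢ`. -/
theorem translQ_αi (q : G ⧸ U) (i : I) (y : H2 𝓑 (Nq 𝓑 U (r i) (A i))) :
    mapH2 (𝓑 := 𝓑) (translQ 𝓑 U Y q) (translQ_equivariant 𝓑 U Y q)
        (αi 𝓑 U r A inc hinc i y) =
      αi 𝓑 U r A inc hinc i (mapH2 (𝓑 := 𝓑) (translQ 𝓑 U (Mq 𝓑 (r i) (A i)) q)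
        (translQ_equivariant 𝓑 U (Mq 𝓑 (r i) (A i)) q) y) := by
  unfold αi
  rw [mapH2_comp, mapH2_comp]
  exact mapH2_congr (LinearMap.ext fun f => translQ_coindMap U (inc i) (hinc i) q f) _ _ y

/-- Translation by `q ∈ G ⧸ U` commutes with `βᵢ`. -/
theorem translQ_βi (q : G ⧸ U) (i : I) (y : H2 𝓑 (coindRes 𝓑 U Y)) :
    mapH2 (𝓑 := 𝓑) (translQ 𝓑 U (Mq 𝓑 (r i) (A i)) q)
        (translQ_equivariant 𝓑 U (Mq 𝓑 (r i) (A i)) q) (βi 𝓑 U r A pr hpr i y) =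
      βi 𝓑 U r A pr hpr i (mapH2 (𝓑 := 𝓑) (translQ 𝓑 U Y q) (translQ_equivariant 𝓑 U Y q) y) := by
  unfold βi
  rw [mapH2_comp, mapH2_comp]
  exact mapH2_congr (LinearMap.ext fun f => translQ_coindMap U (pr i) (hpr i) q f) _ _ y

/-- `q ∘ P_x = P_{q x} ∘ q` for the translation action of `q ∈ G ⧸ U`. -/
theorem translQ_PS (q : G ⧸ U) (x : JS U r) (y : H2 𝓑 (coindRes 𝓑 U Y)) :
    mapH2 (𝓑 := 𝓑) (translQ 𝓑 U Y q) (translQ_equivariant 𝓑 U Y q)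
        (PS 𝓑 U hopenU r 𝓑H hcont hind A hA inc hinc pr hpr x y) =
      PS 𝓑 U hopenU r 𝓑H hcont hind A hA inc hinc pr hpr (q • x)
        (mapH2 (𝓑 := 𝓑) (translQ 𝓑 U Y q) (translQ_equivariant 𝓑 U Y q) y) := by
  obtain ⟨i, j⟩ := x
  rw [PS_apply, translQ_αi, translQ_PN, translQ_βi]
  rfl

/-! ### Injectivity and non-vanishing on the components -/

variable {Z : Rep.{0} k G} (s : Y →ₗ[k] Z) (hs : ∀ g y, s (Y.ρ g y) = Z.ρ g (s y)) (n : ℕ)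
  (hloc : ∀ i, ∀ z : H2 (subBasis (𝓑H i) (Uloc U (r i))) (resRep (Uloc U (r i)) (A i)),
    n • z = 0 → trH2 (𝓑H i) (Uloc U (r i)) (hA i) z = 0 → z = 0)
  (hLG : ∀ i, ∀ w : H2 𝓑 (Mq 𝓑 (r i) (A i)), n • w = 0 →
    mapH2 (𝓑 := 𝓑) s hs (mapH2 (𝓑 := 𝓑) (inc i) (hinc i) w) = 0 → w = 0)
  (hne : ∀ i, ∃ z : H2 (subBasis (𝓑H i) (Uloc U (r i))) (resRep (Uloc U (r i)) (A i)),
    n • z = 0 ∧ z ≠ 0)

/-- The trace of `H²(G; Coind_U^G (s ∘ incᵢ))`. -/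
theorem avgSum_s_αi (i : I) (y : H2 𝓑 (Nq 𝓑 U (r i) (A i))) :
    mapH2 (𝓑 := 𝓑) (avgSum 𝓑 U Z) (avgSum_equivariant 𝓑 U Z)
        (mapH2 (𝓑 := 𝓑) (coindMap U s hs) (coindMap_equivariant U s hs)
          (αi 𝓑 U r A inc hinc i y)) =
      mapH2 (𝓑 := 𝓑) s hs (mapH2 (𝓑 := 𝓑) (inc i) (hinc i)
        (mapH2 (𝓑 := 𝓑) (avgSum 𝓑 U (Mq 𝓑 (r i) (A i)))
          (avgSum_equivariant 𝓑 U (Mq 𝓑 (r i) (A i))) y)) := by
  unfold αi
  rw [mapH2_comp, mapH2_comp, mapH2_comp, mapH2_comp]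
  refine mapH2_congr (LinearMap.ext fun f => ?_) _ _ y
  rw [LinearMap.comp_apply, LinearMap.comp_apply, LinearMap.comp_apply, LinearMap.comp_apply,
    avgSum_coindMap, avgSum_coindMap]

include hpi hloc hLG in
/-- **A torsion class of the `x`-component killed by `H²(G; Coind_U^G s)` is zero.** -/
theorem eq_zero_of_mapH2_eq_zero (x : JS U r) (y : H2 𝓑 (coindRes 𝓑 U Y)) (hn : n • y = 0)
    (hP : PS 𝓑 U hopenU r 𝓑H hcont hind A hA inc hinc pr hpr x y = y)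
    (h0 : mapH2 (𝓑 := 𝓑) (coindMap U s hs) (coindMap_equivariant U s hs) y = 0) : y = 0 := by
  obtain ⟨i, j⟩ := x
  rw [PS_apply] at hP
  set y' := PN 𝓑 U hopenU (r i) (𝓑H i) (hcont i) (hind i) (A i) (hA i) j
    (βi 𝓑 U r A pr hpr i y) with hy'
  have hny' : n • y' = 0 := by rw [hy', ← map_nsmul, ← map_nsmul, hn, map_zero, map_zero]
  have hPy' : PN 𝓑 U hopenU (r i) (𝓑H i) (hcont i) (hind i) (A i) (hA i) j y' = y' := by
    rw [hy', PN_PN]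
  have h1 := avgSum_s_αi 𝓑 U r A inc hinc s hs i y'
  rw [hP, h0, map_zero] at h1
  have h2 : mapH2 (𝓑 := 𝓑) (avgSum 𝓑 U (Mq 𝓑 (r i) (A i)))
      (avgSum_equivariant 𝓑 U (Mq 𝓑 (r i) (A i))) y' = 0 :=
    hLG i _ (by rw [← map_nsmul, hny', map_zero]) h1.symm
  have h3 : y' = 0 :=
    eq_zero_of_avgSum_eq_zero 𝓑 U hopenU (r i) (𝓑H i) (hcont i) (hind i) (A i) (hA i) n
      (hloc i) j y' hny' hPy' h2
  rw [← hP, h3, map_zero]

include hpi hne in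
/-- **Each component contains a nonzero torsion class.** -/
theorem exists_PS_eq_ne_zero (x : JS U r) :
    ∃ y : H2 𝓑 (coindRes 𝓑 U Y), n • y = 0 ∧
      PS 𝓑 U hopenU r 𝓑H hcont hind A hA inc hinc pr hpr x y = y ∧ y ≠ 0 := by
  obtain ⟨i, j⟩ := x
  obtain ⟨y', hny', hPy', hy'0⟩ :=
    exists_PN_eq_ne_zero 𝓑 U hopenU (r i) (𝓑H i) (hcont i) (hind i) (A i) (hA i) n (hne i) j
  refine ⟨αi 𝓑 U r A inc hinc i y', ?_, ?_, fun h => hy'0 ?_⟩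
  · rw [← map_nsmul, hny', map_zero]
  · rw [PS_apply, βi_αi 𝓑 U r A inc hinc pr hpr hpi, hPy']
  · rw [← βi_αi 𝓑 U r A inc hinc pr hpr hpi i y', h, map_zero]

/-! ### Transport to `H²(U; Y)` -/

theorem shapiro2Equiv_translQ {B : Rep.{0} k G} (hB : IsDiscrete 𝓑.sets B) (q : G ⧸ U)
    (y : H2 𝓑 (coindRes 𝓑 U B)) :
    shapiro2Equiv 𝓑 U hB (mapH2 (𝓑 := 𝓑) (translQ 𝓑 U B q) (translQ_equivariant 𝓑 U B q) y) =
      repH2 𝓑 U B q (shapiro2Equiv 𝓑 U hB y) := by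
  induction q using QuotientGroup.induction_on with
  | H γ => exact shapiro2Equiv_transl 𝓑 U hB γ y

variable (hY : IsDiscrete 𝓑.sets Y) (hZ : IsDiscrete 𝓑.sets Z)

/-- The idempotent of `H²(U; Y)` attached to `(i, j)`. -/
noncomputable def PU (x : JS U r) :
    H2 (subBasis 𝓑 U) (resRep U Y) →ₗ[k] H2 (subBasis 𝓑 U) (resRep U Y) :=
  (shapiro2Equiv 𝓑 U hY).toLinearMap ∘ₗ
    (PS 𝓑 U hopenU r 𝓑H hcont hind A hA inc hinc pr hpr x) ∘ₗ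
    (shapiro2Equiv 𝓑 U hY).symm.toLinearMap

theorem PU_apply (x : JS U r) (y : H2 (subBasis 𝓑 U) (resRep U Y)) :
    PU 𝓑 U hopenU r 𝓑H hcont hind A hA inc hinc pr hpr hY x y =
      shapiro2Equiv 𝓑 U hY (PS 𝓑 U hopenU r 𝓑H hcont hind A hA inc hinc pr hpr x
        ((shapiro2Equiv 𝓑 U hY).symm y)) := rfl

include hsum in
theorem sum_PU (y : H2 (subBasis 𝓑 U) (resRep U Y)) :
    ∑ x : JS U r, PU 𝓑 U hopenU r 𝓑H hcont hind A hA inc hinc pr hpr hY x y = y := by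
  simp only [PU_apply]
  rw [← map_sum, sum_PS 𝓑 U hopenU r 𝓑H hcont hind A hA inc hinc pr hpr hsum,
    LinearEquiv.apply_symm_apply]

include hpi hpij in
theorem PU_PU_of_ne {x x' : JS U r} (h : x ≠ x') (y : H2 (subBasis 𝓑 U) (resRep U Y)) :
    PU 𝓑 U hopenU r 𝓑H hcont hind A hA inc hinc pr hpr hY x
      (PU 𝓑 U hopenU r 𝓑H hcont hind A hA inc hinc pr hpr hY x' y) = 0 := by
  rw [PU_apply, PU_apply, LinearEquiv.symm_apply_apply,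
    PS_PS_of_ne 𝓑 U hopenU r 𝓑H hcont hind A hA inc hinc pr hpr hpi hpij h, map_zero]

/-- `q ∘ P_x = P_{q x} ∘ q` for the conjugation action of `q ∈ G ⧸ U` on `H²(U; Y)`. -/
theorem repH2_PU (q : G ⧸ U) (x : JS U r) (y : H2 (subBasis 𝓑 U) (resRep U Y)) :
    repH2 𝓑 U Y q (PU 𝓑 U hopenU r 𝓑H hcont hind A hA inc hinc pr hpr hY x y) =
      PU 𝓑 U hopenU r 𝓑H hcont hind A hA inc hinc pr hpr hY (q • x) (repH2 𝓑 U Y q y) := by
  obtain ⟨y₀, rfl⟩ := (shapiro2Equiv 𝓑 U hY).surjective y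
  rw [PU_apply, PU_apply, LinearEquiv.symm_apply_apply, ← shapiro2Equiv_translQ 𝓑 U hY,
    ← shapiro2Equiv_translQ 𝓑 U hY, LinearEquiv.symm_apply_apply, translQ_PS]

include hpi hloc hLG hZ in
/-- **`H²(U; s)` is injective on the torsion of each component.** -/
theorem eq_zero_of_mapResH2_eq_zero (x : JS U r) (y : H2 (subBasis 𝓑 U) (resRep U Y))
    (hn : n • y = 0)
    (hP : PU 𝓑 U hopenU r 𝓑H hcont hind A hA inc hinc pr hpr hY x y = y)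
    (h0 : mapResH2 𝓑 U s hs y = 0) : y = 0 := by
  obtain ⟨y₀, rfl⟩ := (shapiro2Equiv 𝓑 U hY).surjective y
  rw [PU_apply, LinearEquiv.symm_apply_apply] at hP
  have h1 : y₀ = 0 := by
    refine eq_zero_of_mapH2_eq_zero 𝓑 U hopenU r 𝓑H hcont hind A hA inc hinc pr hpr hpi s hs n
      hloc hLG x y₀ ?_ ((shapiro2Equiv 𝓑 U hY).injective hP) ?_
    · apply (shapiro2Equiv 𝓑 U hY).injective
      rw [map_nsmul, hn, map_zero]
    · apply (shapiro2Equiv 𝓑 U hZ).injective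
      rw [shapiro2Equiv_coindMap 𝓑 U hY hZ, h0, map_zero]
  rw [h1, map_zero]

include hpi hne in
/-- **Each component of `H²(U; Y)` contains a nonzero torsion class.** -/
theorem exists_PU_eq_ne_zero (x : JS U r) :
    ∃ y : H2 (subBasis 𝓑 U) (resRep U Y), n • y = 0 ∧
      PU 𝓑 U hopenU r 𝓑H hcont hind A hA inc hinc pr hpr hY x y = y ∧ y ≠ 0 := by
  obtain ⟨y₀, hn, hP, hy0⟩ :=
    exists_PS_eq_ne_zero 𝓑 U hopenU r 𝓑H hcont hind A hA inc hinc pr hpr hpi n hne x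
  refine ⟨shapiro2Equiv 𝓑 U hY y₀, ?_, ?_, fun h => hy0 ?_⟩
  · rw [← map_nsmul, hn, map_zero]
  · rw [PU_apply, LinearEquiv.symm_apply_apply, hP]
  · exact (shapiro2Equiv 𝓑 U hY).injective (h.trans (map_zero _).symm)

include hopenU hcont hind hA hinc hpr hpi hpij hsum hloc hLG hne hY hZ in
/-- **Summary**: the family of idempotents on `H²(U; Y)` needed by `H2Abs5`. -/
theorem exists_idempotents :
    ∃ P : JS U r → H2 (subBasis 𝓑 U) (resRep U Y) →ₗ[k] H2 (subBasis 𝓑 U) (resRep U Y),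
      (∀ y, ∑ x, P x y = y) ∧ (∀ x x', x ≠ x' → ∀ y, P x (P x' y) = 0) ∧
      (∀ q x y, repH2 𝓑 U Y q (P x y) = P (q • x) (repH2 𝓑 U Y q y)) ∧
      (∀ x y, n • y = 0 → P x y = y → mapResH2 𝓑 U s hs y = 0 → y = 0) ∧
      (∀ x, ∃ y, n • y = 0 ∧ P x y = y ∧ y ≠ 0) :=
  ⟨PU 𝓑 U hopenU r 𝓑H hcont hind A hA inc hinc pr hpr hY,
    sum_PU 𝓑 U hopenU r 𝓑H hcont hind A hA inc hinc pr hpr hsum hY,
    fun _ _ h y => PU_PU_of_ne 𝓑 U hopenU r 𝓑H hcont hind A hA inc hinc pr hpr hpi hpij hY h y,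
    repH2_PU 𝓑 U hopenU r 𝓑H hcont hind A hA inc hinc pr hpr hY,
    eq_zero_of_mapResH2_eq_zero 𝓑 U hopenU r 𝓑H hcont hind A hA inc hinc pr hpr hpi s hs n
      hloc hLG hY hZ,
    exists_PU_eq_ne_zero 𝓑 U hopenU r 𝓑H hcont hind A hA inc hinc pr hpr hpi n hne hY⟩

end Prod

end Fermat.Agent.TW.GLOB.ProdComp5
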