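/-
Programme T (S56, Taylor–Wiles primes), chapter GLOB, task T7 — helper5.

**Recognition of `H²(U; E)[p]` for an exact sequence `0 → E → Y → Z → 0` of discrete `G`-modules
with `Y = ∏ᵢ Coind_{Hᵢ→G}^{sm} Aᵢ`** (`k`-generic; think `0 → E_S → I_S → C_S → 0`).

This is the combination of `ProdComp5.exists_idempotents` (the idempotents of `H²(U; Y)`) with the
abstract recognition theorem `H2Abs5.map_model_add_map_zmod` and the long exact cohomology sequence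
of `LevelCoh28` over `U`.  All class-formation inputs are hypotheses on elements:
* `hloc`  : the local corestrictions are injective on `p`-torsion;
* `hLG`   : `H²(G; Mᵢ)[p] → H²(G; Z)` is injective;
* `hne`   : `H²(Uᵢ; Aᵢ)[p] ≠ 0`;
* `hC`    : `H¹(U; Z)` is torsion of order prime to `p`;
* `hZtriv`, `hZcyc` : `H²(U; Z)[p]` is cyclic with trivial action of `G ⧸ U`.
Conclusion: `ψ V + ψ 𝔽_p = ψ 𝔽_p[Σᵢ (G ⧸ U) ⧸ Dᵢ]` for every `𝔽_p[C]`-model `V` of `H²(U; E)[p]`.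
-/
import Mathlib
import Fermat.Agent.TW.GLOB.ProdComp5
import Fermat.Agent.TW.GLOB.H2Abs5

set_option autoImplicit false
set_option linter.unusedSectionVars false

open Fermat.Agent.PT.PRO.LevelCoh28 Fermat.Agent.PT.PRO.LevelCohRes28
  Fermat.Agent.PT.PRO.SmoothCoind28 Fermat.Agent.PT.PRO.ShapiroLevel28
  Fermat.Agent.TW.GLOB.SubLevel5 Fermat.Agent.TW.GLOB.ShapiroConj5
  Fermat.Agent.TW.GLOB.ResInvariants5 Fermat.Agent.TW.GLOB.TraceLevel5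
  Fermat.Agent.TW.GLOB.FunQ5 Fermat.Agent.TW.GLOB.CoindFunQ5 Fermat.Agent.TW.GLOB.MapH5
  Fermat.Agent.TW.GLOB.LocalComp5 Fermat.Agent.TW.GLOB.GlobalComp5
  Fermat.Agent.TW.GLOB.ProdComp5
  Fermat.Agent.TW.GLOB.IndDefs9 Fermat.Agent.TW.GLOB.LatticeRedFinal9

namespace Fermat.Agent.TW.GLOB.H2Model5

variable (p : ℕ) [Fact p.Prime] {k : Type} [CommRing k] {G : Type} [Group G] (𝓑 : LevelBasis G)
  (U : Subgroup G) [hU : U.Normal] [Fintype (G ⧸ U)] (hopenU : ∃ V ∈ 𝓑.sets, V ≤ U)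
  {I : Type} [Fintype I] [DecidableEq I] [Nonempty I]
  {H : I → Type} [∀ i, Group (H i)] (r : ∀ i, H i →* G) (𝓑H : ∀ i, LevelBasis (H i))
  (hcont : ∀ i, IsLevelHom (r i) (𝓑H i).sets 𝓑.sets)
  (hind : ∀ i, ∀ V ∈ (𝓑H i).sets, ∃ W ∈ 𝓑.sets, W.comap (r i) ≤ V)
  (A : ∀ i, Rep.{0} k (H i)) (hA : ∀ i, IsDiscrete (𝓑H i).sets (A i))
  [∀ i, Fintype (H i ⧸ Uloc U (r i))] [∀ i, Fintype ((G ⧸ U) ⧸ Dsub U (r i))]
  {E Y Z : Rep.{0} k G} (hY : IsDiscrete 𝓑.sets Y) (hZ : IsDiscrete 𝓑.sets Z)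
  (d : E →ₗ[k] Y) (hd : ∀ g e, d (E.ρ g e) = Y.ρ g (d e))
  (s : Y →ₗ[k] Z) (hs : ∀ g y, s (Y.ρ g y) = Z.ρ g (s y))
  (hdinj : Function.Injective d) (hssurj : Function.Surjective s)
  (hex : ∀ y, s y = 0 ↔ ∃ e, d e = y)
  (inc : ∀ i, Mq 𝓑 (r i) (A i) →ₗ[k] Y)
  (hinc : ∀ i g m, inc i ((Mq 𝓑 (r i) (A i)).ρ g m) = Y.ρ g (inc i m))
  (pr : ∀ i, Y →ₗ[k] Mq 𝓑 (r i) (A i))
  (hpr : ∀ i g y, pr i (Y.ρ g y) = (Mq 𝓑 (r i) (A i)).ρ g (pr i y))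
  (hpi : ∀ i m, pr i (inc i m) = m) (hpij : ∀ i j, i ≠ j → ∀ m, pr i (inc j m) = 0)
  (hsum : ∀ y, ∑ i, inc i (pr i y) = y)
  (hloc : ∀ i, ∀ z : H2 (subBasis (𝓑H i) (Uloc U (r i))) (resRep (Uloc U (r i)) (A i)),
    p • z = 0 → trH2 (𝓑H i) (Uloc U (r i)) (hA i) z = 0 → z = 0)
  (hLG : ∀ i, ∀ w : H2 𝓑 (Mq 𝓑 (r i) (A i)), p • w = 0 →
    mapH2 (𝓑 := 𝓑) s hs (mapH2 (𝓑 := 𝓑) (inc i) (hinc i) w) = 0 → w = 0)
  (hne : ∀ i, ∃ z : H2 (subBasis (𝓑H i) (Uloc U (r i))) (resRep (Uloc U (r i)) (A i)),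
    p • z = 0 ∧ z ≠ 0)
  (hC : ∀ c : H1 (subBasis 𝓑 U) (resRep U Z), ∃ m : ℕ, m.Coprime p ∧ m • c = 0)
  (hZtriv : ∀ q (z : H2 (subBasis 𝓑 U) (resRep U Z)), p • z = 0 → repH2 𝓑 U Z q z = z)
  (hZcyc : ∀ z z' : H2 (subBasis 𝓑 U) (resRep U Z), p • z = 0 → p • z' = 0 → z ≠ 0 →
    ∃ n : ℕ, z' = n • z)
  {B : Type*} [AddCommGroup B] (C : Subgroup (G ⧸ U)) (ψ : AdditiveInvariant (ZMod p) C B)

include hopenU hcont hind hA hY hZ hd hs hdinj hssurj hex hinc hpr hpi hpij hsum hloc hLG hne hC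
  hZtriv hZcyc in
/-- **Recognition of `H²(U; E)[p]`.** -/
theorem map_model_H2
    (V : Type) [AddCommGroup V] [Module (ZMod p) V] [Module.Finite (ZMod p) V]
    (ρV : Representation (ZMod p) C V) (i : V →+ H2 (subBasis 𝓑 U) (resRep U E))
    (hi : Function.Injective i) (hiK : ∀ e, e ∈ i.range ↔ p • e = 0)
    (hiρ : ∀ c v, i (ρV c v) = repH2 𝓑 U E (c : G ⧸ U) (i v)) :
    ψ.toFun V ρV + ψ.toFun (ZMod p) (Representation.trivial (ZMod p) C (ZMod p)) =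
      ψ.toFun (JS U r → ZMod p) (permRep (JS U r) (ZMod p)) := by
  obtain ⟨P, hPsum, hPorth, hPρ, hPinj, hPne⟩ :=
    exists_idempotents 𝓑 U hopenU r 𝓑H hcont hind A hA inc hinc pr hpr hpi hpij hsum s hs p
      hloc hLG hne hY hZ
  have : Nonempty (JS U r) := ⟨⟨Classical.arbitrary I, ((1 : G ⧸ U) : (G ⧸ U) ⧸ Dsub U (r _))⟩⟩
  refine Fermat.Agent.TW.GLOB.H2Abs5.map_model_add_map_zmod p
    (repH2 𝓑 U E) (repH2 𝓑 U Y) (repH2 𝓑 U Z)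
    (deltaRes 𝓑 U d hd s hs hdinj hssurj hex hY) (mapResH2 𝓑 U d hd) (mapResH2 𝓑 U s hs)
    ?_ ?_ hC (fun q e => mapResH2_repH2 𝓑 U d hd q e) (fun q y => mapResH2_repH2 𝓑 U s hs q y)
    hZtriv hZcyc P hPsum hPorth hPρ hPinj hPne C ψ V ρV i hi hiK hiρ
  · intro e
    have h := ker_mapH2 (𝓑 := subBasis 𝓑 U) (A := resRep U E) (B := resRep U Y)
      (C := resRep U Z) d (res_equivariant U d hd) s (res_equivariant U s hs) hdinj hssurj hex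
      (isDiscrete_resRep U hY)
    have h1 : e ∈ LinearMap.ker (mapResH2 𝓑 U d hd) ↔
        e ∈ LinearMap.range (deltaRes 𝓑 U d hd s hs hdinj hssurj hex hY) := by
      unfold mapResH2 deltaRes
      rw [h]
    rw [LinearMap.mem_ker, LinearMap.mem_range] at h1
    exact h1
  · intro y
    have h := ker_mapH2' (𝓑 := subBasis 𝓑 U) (A := resRep U E) (B := resRep U Y)
      (C := resRep U Z) d (res_equivariant U d hd) s (res_equivariant U s hs) hdinj hssurj hex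
      (isDiscrete_resRep U hY)
    have h1 : y ∈ LinearMap.ker (mapResH2 𝓑 U s hs) ↔
        y ∈ LinearMap.range (mapResH2 𝓑 U d hd) := by
      unfold mapResH2
      rw [h]
    rw [LinearMap.mem_ker, LinearMap.mem_range] at h1
    exact h1

include hopenU hcont hind hA hY hZ hd hs hdinj hssurj hex hinc hpr hpi hpij hsum hloc hLG hne hC
  hZcyc in
/-- `H²(U; E)[p]` is finite. -/
theorem finite_tors_H2 :
    Finite (Fermat.Agent.TW.GLOB.H2Abs5.tors p (H2 (subBasis 𝓑 U) (resRep U E))) := by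
  obtain ⟨P, hPsum, hPorth, hPρ, hPinj, hPne⟩ :=
    exists_idempotents 𝓑 U hopenU r 𝓑H hcont hind A hA inc hinc pr hpr hpi hpij hsum s hs p
      hloc hLG hne hY hZ
  have : Nonempty (JS U r) := ⟨⟨Classical.arbitrary I, ((1 : G ⧸ U) : (G ⧸ U) ⧸ Dsub U (r _))⟩⟩
  refine Fermat.Agent.TW.GLOB.H2Abs5.finite_torsE p
    (deltaRes 𝓑 U d hd s hs hdinj hssurj hex hY) (mapResH2 𝓑 U d hd) (mapResH2 𝓑 U s hs)
    ?_ hC hZcyc P hPsum hPorth hPinj hPne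
  intro e
  have h := ker_mapH2 (𝓑 := subBasis 𝓑 U) (A := resRep U E) (B := resRep U Y)
    (C := resRep U Z) d (res_equivariant U d hd) s (res_equivariant U s hs) hdinj hssurj hex
    (isDiscrete_resRep U hY)
  have h1 : e ∈ LinearMap.ker (mapResH2 𝓑 U d hd) ↔
      e ∈ LinearMap.range (deltaRes 𝓑 U d hd s hs hdinj hssurj hex hY) := by
    unfold mapResH2 deltaRes
    rw [h]
  rw [LinearMap.mem_ker, LinearMap.mem_range] at h1
  exact h1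

end Fermat.Agent.TW.GLOB.H2Model5
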