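/-
Programme T (S56, Taylor–Wiles primes), chapter GLOB, task T7 — helper5.

**Recognition of `H²(U; E_S)[p]`** for a level `K` of `G_S` (`U = Gal(ℚ̄/K)`, `Q = Γ ⧸ U`),
`p ∈ S` odd: for every subgroup `C ≤ Q`, every additive invariant `ψ` of `𝔽_p[C]`-modules and every
`𝔽_p[C]`-model `V` of `H²(U; E_S)[p]`:

  `ψ V + ψ 𝔽_p = ψ 𝔽_p[Σ_{q ∈ S} Q ⧸ D_q]`   (`map_model_H2ES`).

This instantiates `H2Model5.map_model_H2` at `0 → E_S → I_S → C_S → 0`
(`I_S = ∏_{q ∈ S} Coind^{sm}_{Γ_q → Γ} ℚ̄_qˣ`), with the class formations `(Γ, C_S)`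
(`ClassFormInst5.fundAt_CS`) and `(Γ_q, ((ℚ_S)_q)ˣ)` (`fundAt_unitsLocS`), the local–global
principle `InvRecip1.hLG` and the divisibility `BrickA4.div_levelLocS`.
-/
import Mathlib
import Fermat.Agent.TW.GLOB.H2Model5
import Fermat.Agent.TW.GLOB.ClassFormInst5
import Fermat.Agent.TW.GLOB.ClassFormTors5
import Fermat.Agent.TW.GLOB.InvRecip1
import Fermat.Agent.TW.GLOB.PlacesBridge9
import Fermat.Agent.TW.LOC.BrickA4
import Fermat.Agent.PT.GLUE.SmCoindBridge21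
import Fermat.Agent.PT.GLUE.LocHyper13

set_option autoImplicit false
set_option linter.unusedSectionVars false
set_option linter.style.haveILetI false

open Fermat.Agent.PT.PRO.LevelCoh28 Fermat.Agent.PT.PRO.LevelCohRes28
  Fermat.Agent.PT.PRO.SmoothCoind28 Fermat.Agent.PT.PRO.ShapiroLevel28
  Fermat.Agent.PT.PRO.InfLevel13
  Fermat.Agent.TW.GLOB.SubLevel5 Fermat.Agent.TW.GLOB.ShapiroConj5
  Fermat.Agent.TW.GLOB.ResInvariants5 Fermat.Agent.TW.GLOB.TraceLevel5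
  Fermat.Agent.TW.GLOB.FunQ5 Fermat.Agent.TW.GLOB.CoindFunQ5 Fermat.Agent.TW.GLOB.MapH5
  Fermat.Agent.TW.GLOB.LocalComp5 Fermat.Agent.TW.GLOB.GlobalComp5
  Fermat.Agent.TW.GLOB.ProdComp5
  Fermat.Agent.TW.GLOB.IndDefs9 Fermat.Agent.TW.GLOB.LatticeRedFinal9
  Fermat.Agent.PT.GLUE.Objects21

namespace Fermat.Agent.TW.GLOB.H2ES5

/-! ### The biproduct structure of a finite product of representations (`k`-generic) -/

section PiBiprod

variable {k G : Type} [CommRing k] [Group G] {ι : Type} [DecidableEq ι] [Fintype ι]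
  (X M : ι → Rep.{0} k G) (e : ∀ i, X i ≃ₗ[k] M i)
  (he : ∀ i g x, e i ((X i).ρ g x) = (M i).ρ g (e i x))

include he in
theorem e_symm_ρ (i : ι) (g : G) (m : M i) :
    (e i).symm ((M i).ρ g m) = (X i).ρ g ((e i).symm m) := by
  apply (e i).injective
  rw [LinearEquiv.apply_symm_apply, he, LinearEquiv.apply_symm_apply]

/-- The inclusion of the `i`-th factor (through `e i`). -/
noncomputable def incP (i : ι) : M i →ₗ[k] piRep X :=
  (piEquiv X).symm.toLinearMap ∘ₗ (LinearMap.single k (fun j => X j) i) ∘ₗ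
    (e i).symm.toLinearMap

/-- The projection to the `i`-th factor (through `e i`). -/
noncomputable def prP (i : ι) : piRep X →ₗ[k] M i :=
  (e i).toLinearMap ∘ₗ (LinearMap.proj i) ∘ₗ (piEquiv X).toLinearMap

theorem piEquiv_incP (i : ι) (m : M i) :
    piEquiv X (incP X M e i m) = Pi.single i ((e i).symm m) := rfl

theorem prP_apply (i : ι) (y : piRep X) : prP X M e i y = e i (piEquiv X y i) := rfl

include he in
theorem incP_ρ (i : ι) (g : G) (m : M i) :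
    incP X M e i ((M i).ρ g m) = (piRep X).ρ g (incP X M e i m) := by
  apply (piEquiv X).injective
  funext j
  rw [piEquiv_ρ, piEquiv_incP, piEquiv_incP, e_symm_ρ X M e he]
  by_cases h : j = i
  · subst h
    rw [Pi.single_eq_same, Pi.single_eq_same]
  · rw [Pi.single_eq_of_ne h, Pi.single_eq_of_ne h, map_zero]

include he in
theorem prP_ρ (i : ι) (g : G) (y : piRep X) :
    prP X M e i ((piRep X).ρ g y) = (M i).ρ g (prP X M e i y) := by
  rw [prP_apply, prP_apply, piEquiv_ρ, he]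

theorem prP_incP (i : ι) (m : M i) : prP X M e i (incP X M e i m) = m := by
  rw [prP_apply, piEquiv_incP, Pi.single_eq_same, LinearEquiv.apply_symm_apply]

theorem prP_incP_of_ne (i j : ι) (h : i ≠ j) (m : M j) : prP X M e i (incP X M e j m) = 0 := by
  rw [prP_apply, piEquiv_incP, Pi.single_eq_of_ne h, map_zero]

theorem sum_incP_prP (y : piRep X) : ∑ i, incP X M e i (prP X M e i y) = y := by
  apply (piEquiv X).injective
  funext j
  rw [map_sum, Finset.sum_apply]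
  simp only [piEquiv_incP, prP_apply, LinearEquiv.symm_apply_apply]
  rw [Finset.sum_eq_single j (fun i _ hij => Pi.single_eq_of_ne (Ne.symm hij) _)
    (fun h => absurd (Finset.mem_univ j) h), Pi.single_eq_same]

/-- Transport of the local–global injectivity from `X i` to `M i`. -/
theorem eq_zero_of_hLG {𝓑 : LevelBasis G} {Z : Rep.{0} k G} (s : piRep X →ₗ[k] Z)
    (hs : ∀ g y, s ((piRep X).ρ g y) = Z.ρ g (s y)) (n : ℕ) (i : ι)
    (j : X i →ₗ[k] piRep X) (hj : ∀ g x, j ((X i).ρ g x) = (piRep X).ρ g (j x))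
    (hjinc : ∀ x, piEquiv X (j x) = Pi.single i x)
    (h : ∀ w : H2 𝓑 (X i), n • w = 0 →
      mapH2 (𝓑 := 𝓑) s hs (mapH2 (𝓑 := 𝓑) j hj w) = 0 → w = 0)
    (w : H2 𝓑 (M i)) (hw : n • w = 0)
    (h0 : mapH2 (𝓑 := 𝓑) s hs (mapH2 (𝓑 := 𝓑) (incP X M e i) (incP_ρ X M e he i) w) = 0) :
    w = 0 := by
  have h1 : mapH2 (𝓑 := 𝓑) (incP X M e i) (incP_ρ X M e he i) w =
      mapH2 (𝓑 := 𝓑) j hj (mapH2 (𝓑 := 𝓑) (e i).symm.toLinearMap (e_symm_ρ X M e he i) w) := by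
    rw [mapH2_comp]
    refine mapH2_congr (LinearMap.ext fun m => ?_) _ _ w
    apply (piEquiv X).injective
    rw [piEquiv_incP, LinearMap.comp_apply, hjinc]
    rfl
  rw [h1] at h0
  have h2 := h _ (by rw [← map_nsmul, hw, map_zero]) h0
  have h3 : mapH2 (𝓑 := 𝓑) (e i).toLinearMap (he i)
      (mapH2 (𝓑 := 𝓑) (e i).symm.toLinearMap (e_symm_ρ X M e he i) w) = w := by
    rw [mapH2_comp]
    refine (mapH2_congr (LinearMap.ext fun m => ?_) _ (id_equivariant (A := M i)) w).trans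
      (mapH2_id _ w)
    exact (e i).apply_symm_apply m
  rw [← h3, h2, map_zero]

end PiBiprod

/-! ### `Coind^{sm} A ≅ Coind^{sm} A^N` in the two models (`k`-generic) -/

section EM

variable {k : Type} [CommRing k] {G H : Type} [Group G] [Group H]
  (φ : H →* G) (𝓑 : LevelBasis G) {A A' : Rep.{0} k H} {N : Subgroup H} {ι : A' →ₗ[k] A}
  (hι : IsInvIncl N A'.ρ A.ρ ι) (hN : ∀ U ∈ 𝓑.sets, N ≤ U.comap φ)

/-- `smCoind φ 𝓑 A ≅ scoind φ 𝓑 A^N`. -/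
noncomputable def eM :
    Fermat.Agent.PT.GLUE.SmCoind21.smCoind φ 𝓑 A ≃ₗ[k] scoind (k := k) φ 𝓑 A' :=
  (Fermat.Agent.PT.GLUE.LocHyper13.mEquiv φ 𝓑 hι hN).symm ≪≫ₗ
    (Fermat.Agent.PT.GLUE.SmCoindBridge21.bridge φ 𝓑 A')

theorem eM_ρ (g : G) (x : Fermat.Agent.PT.GLUE.SmCoind21.smCoind φ 𝓑 A) :
    eM φ 𝓑 hι hN ((Fermat.Agent.PT.GLUE.SmCoind21.smCoind φ 𝓑 A).ρ g x) =
      (scoind (k := k) φ 𝓑 A').ρ g (eM φ 𝓑 hι hN x) := by
  obtain ⟨y, rfl⟩ := (Fermat.Agent.PT.GLUE.LocHyper13.mEquiv φ 𝓑 hι hN).surjective x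
  have h1 : (Fermat.Agent.PT.GLUE.SmCoind21.smCoind φ 𝓑 A).ρ g
      (Fermat.Agent.PT.GLUE.LocHyper13.mEquiv φ 𝓑 hι hN y) =
      Fermat.Agent.PT.GLUE.LocHyper13.mEquiv φ 𝓑 hι hN
        ((Fermat.Agent.PT.GLUE.SmCoind21.smCoind φ 𝓑 A').ρ g y) :=
    (Fermat.Agent.PT.GLUE.SmCoind21.map_ρ φ 𝓑 A' ι hι.comm g y).symm
  rw [h1]
  unfold eM
  rw [LinearEquiv.trans_apply, LinearEquiv.trans_apply, LinearEquiv.symm_apply_apply,
    LinearEquiv.symm_apply_apply, Fermat.Agent.PT.GLUE.SmCoindBridge21.bridge_ρ]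

end EM

/-- Linear equivalences between (the underlying modules of) representations, for the module
structures carried by `Rep` (cf. `Objects21.Lin`). -/
abbrev LinEq {k G H : Type} [CommRing k] [Monoid G] [Monoid H] (A : Rep.{0} k G)
    (B : Rep.{0} k H) : Type := A ≃ₗ[k] B

/-! ### The concrete objects -/

section Concrete

open Fermat.Agent.PT.GLUE.Levels21 Fermat.Agent.PT.GLUE.LocHyper13
  Fermat.Agent.PT.GLUE.LevelTheta21 Fermat.Agent.PT.GLUE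
  Fermat.Agent.TW.GLOB.ClassFormSub5 Fermat.Agent.TW.GLOB.ClassFormInst5
  Fermat.Agent.TW.GLOB.ClassFormTors5 Fermat.Agent.TW.GLOB.PlacesBridge9
  ExtCitation

local notation "Γ" => (AlgebraicClosure ℚ ≃ₐ[ℚ] AlgebraicClosure ℚ)

variable (S : Finset Nat.Primes)

/-- The local Galois group at `q ∈ S`. -/
abbrev Hq (q : ↥S) : Type :=
  (PadicAlgCl ((q : Nat.Primes) : ℕ) ≃ₐ[ℚ_[((q : Nat.Primes) : ℕ)]] PadicAlgCl ((q : Nat.Primes) : ℕ))

/-- `Γ_q → Γ`. -/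
noncomputable abbrev rS (q : ↥S) : Hq S q →* Γ := localGaloisToGlobal ((q : Nat.Primes) : ℕ)

/-- `((ℚ_S)_q)ˣ`. -/
noncomputable abbrev AS (q : ↥S) : Rep.{0} ℤ (Hq S q) := unitsLocS S ((q : Nat.Primes) : ℕ)

/-- The `q`-component of `I_S` (model `smCoind`). -/
noncomputable abbrev XS (q : ↥S) : Rep.{0} ℤ Γ := ISq S ((q : Nat.Primes) : ℕ)

/-- The `q`-component of `I_S` (model `scoind`, coefficients `((ℚ_S)_q)ˣ`). -/
noncomputable abbrev MS (q : ↥S) : Rep.{0} ℤ Γ := Mq (levelS S) (rS S q) (AS S q)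

/-- The comparison of the two models. -/
noncomputable def eS (q : ↥S) : LinEq (XS S q) (MS S q) :=
  eM (rS S q) (levelS S) (isInvIncl_inclS S ((q : Nat.Primes) : ℕ))
    (Nloc_le_comap S ((q : Nat.Primes) : ℕ))

theorem eS_ρ (q : ↥S) (g : Γ) (x : XS S q) :
    eS S q ((XS S q).ρ g x) = (MS S q).ρ g (eS S q x) :=
  eM_ρ (rS S q) (levelS S) (isInvIncl_inclS S ((q : Nat.Primes) : ℕ))
    (Nloc_le_comap S ((q : Nat.Primes) : ℕ)) g x

variable [DecidableEq ↥S] (p : ℕ) [hp : Fact p.Prime] (hp2 : p ≠ 2) (hpS : pPrime p ∈ S)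
  (K : Lev S)

theorem finite_quot : Finite (Γ ⧸ K.U) := by
  have := (levelS S).isBasis.finiteIndex K.U K.U_mem
  exact Subgroup.finite_quotient_of_finiteIndex

theorem finite_quot_loc (q : ↥S) : Finite (Hq S q ⧸ Uloc K.U (rS S q)) := by
  have := (levelLocS ((q : Nat.Primes) : ℕ) S).isBasis.finiteIndex (Uloc K.U (rS S q))
    ⟨K.U, K.U_mem, rfl⟩
  exact Subgroup.finite_quotient_of_finiteIndex

include hp2 hpS in
/-- **Recognition of `H²(U; E_S)[p]`**: `ψ V + ψ 𝔽_p = ψ 𝔽_p[Σ_{q ∈ S} Q ⧸ D_q]` for every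
`𝔽_p[C]`-model `V` of `H²(U; E_S)[p]`. -/
theorem map_model_H2ES {B : Type*} [AddCommGroup B] (C : Subgroup (Γ ⧸ K.U))
    (ψ : AdditiveInvariant (ZMod p) C B)
    (V : Type) [AddCommGroup V] [Module (ZMod p) V] [Module.Finite (ZMod p) V]
    (ρV : Representation (ZMod p) C V)
    (i : V →+ H2 (subBasis (levelS S) K.U) (resRep K.U (ES S)))
    (hi : Function.Injective i) (hiK : ∀ e, e ∈ i.range ↔ p • e = 0)
    (hiρ : ∀ c v, i (ρV c v) = repH2 (levelS S) K.U (ES S) (c : Γ ⧸ K.U) (i v)) :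
    ψ.toFun V ρV + ψ.toFun (ZMod p) (Representation.trivial (ZMod p) C (ZMod p)) =
      ψ.toFun (PlacesQ K → ZMod p) (permRep (PlacesQ K) (ZMod p)) := by
  haveI := finite_quot S K
  letI : Fintype (Γ ⧸ K.U) := Fintype.ofFinite _
  haveI : ∀ q : ↥S, Finite (Hq S q ⧸ Uloc K.U (rS S q)) := finite_quot_loc S K
  letI : ∀ q : ↥S, Fintype (Hq S q ⧸ Uloc K.U (rS S q)) := fun q => Fintype.ofFinite _
  letI : ∀ q : ↥S, Fintype ((Γ ⧸ K.U) ⧸ Fermat.Agent.TW.GLOB.LocalComp5.Dsub K.U (rS S q)) :=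
    fun q => Fintype.ofFinite _
  haveI : Nonempty ↥S := ⟨⟨pPrime p, hpS⟩⟩
  have hS : S.Nonempty := ⟨pPrime p, hpS⟩
  have hopenU : ∃ V ∈ (levelS S).sets, V ≤ K.U := ⟨K.U, K.U_mem, le_rfl⟩
  have hopenLoc : ∀ q : ↥S, ∃ V₀ ∈ (levelLocS ((q : Nat.Primes) : ℕ) S).sets,
      V₀ ≤ Uloc K.U (rS S q) := fun q => ⟨_, ⟨K.U, K.U_mem, rfl⟩, le_rfl⟩
  have hloc : ∀ q : ↥S, ∀ z : H2 (subBasis (levelLocS ((q : Nat.Primes) : ℕ) S)
      (Uloc K.U (rS S q))) (resRep (Uloc K.U (rS S q)) (AS S q)), p • z = 0 →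
      trH2 (levelLocS ((q : Nat.Primes) : ℕ) S) (Uloc K.U (rS S q))
        (isDiscrete_unitsLocS S ((q : Nat.Primes) : ℕ)) z = 0 → z = 0 :=
    fun q z hz h0 => eq_zero_of_trH2_eq_zero (isDiscrete_unitsLocS S ((q : Nat.Primes) : ℕ))
      (fundAt_unitsLocS S p ((q : Nat.Primes) : ℕ)) (Uloc K.U (rS S q)) (hopenLoc q) z hz h0
  have hne : ∀ q : ↥S, ∃ z : H2 (subBasis (levelLocS ((q : Nat.Primes) : ℕ) S)
      (Uloc K.U (rS S q))) (resRep (Uloc K.U (rS S q)) (AS S q)), p • z = 0 ∧ z ≠ 0 := by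
    intro q
    obtain ⟨V, hV, hVn, hVU, hdiv⟩ := Fermat.Agent.TW.LOC.BrickA4.div_levelLocS
      ((q : Nat.Primes) : ℕ) p S hpS (Uloc K.U (rS S q)) ⟨K.U, K.U_mem, rfl⟩
    haveI := hVn
    exact exists_ne_zero_H2 (isDiscrete_unitsLocS S ((q : Nat.Primes) : ℕ))
      (fundAt_unitsLocS S p ((q : Nat.Primes) : ℕ)) (Uloc K.U (rS S q)) V hV hVU hdiv
  have hLG : ∀ q : ↥S, ∀ w : H2 (levelS S) (MS S q), p • w = 0 →
      mapH2 (𝓑 := levelS S) (toCS S) (toCS_ρ S)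
        (mapH2 (𝓑 := levelS S) (incP (XS S) (MS S) (eS S) q)
          (incP_ρ (XS S) (MS S) (eS S) (eS_ρ S) q) w) = 0 → w = 0 :=
    fun q => eq_zero_of_hLG (XS S) (MS S) (eS S) (eS_ρ S) (toCS S) (toCS_ρ S) p q
      (inclq S q) (inclq_ρ S q) (ISequiv_inclq S q)
      (Fermat.Agent.TW.GLOB.InvRecip1.hLG p S hp2 hpS q)
  have hfundC := fundAt_CS S p hp2 hpS
  have hC : ∀ c : H1 (subBasis (levelS S) K.U) (resRep K.U (CS S)),
      ∃ m : ℕ, m.Coprime p ∧ m • c = 0 :=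
    exists_coprime_nsmul_eq_zero_H1 (isDiscrete_CS S) hfundC K.U hopenU
  have hZtriv : ∀ q (z : H2 (subBasis (levelS S) K.U) (resRep K.U (CS S))), p • z = 0 →
      repH2 (levelS S) K.U (CS S) q z = z :=
    fun q z hz => repH2_eq_self_of_torsion (isDiscrete_CS S) hfundC K.U hopenU q z hz
  have hZcyc : ∀ z z' : H2 (subBasis (levelS S) K.U) (resRep K.U (CS S)), p • z = 0 →
      p • z' = 0 → z ≠ 0 → ∃ n : ℕ, z' = n • z :=
    fun z z' hz hz' hz0 => cyclic_H2 (isDiscrete_CS S) hfundC K.U hopenU z z' hz hz' hz0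
  exact Fermat.Agent.TW.GLOB.H2Model5.map_model_H2 p (levelS S) K.U hopenU (rS S)
    (fun q => levelLocS ((q : Nat.Primes) : ℕ) S)
    (fun q => LocI13.isLevelHom_levelLocS S ((q : Nat.Primes) : ℕ))
    (fun q => LocI13.induced_levelLocS S ((q : Nat.Primes) : ℕ))
    (AS S) (fun q => isDiscrete_unitsLocS S ((q : Nat.Primes) : ℕ))
    (isDiscrete_IS S) (isDiscrete_CS S) (diag S) (diag_ρ S) (toCS S) (toCS_ρ S)
    (diag_injective S hS) (toCS_surjective S) (toCS_eq_zero_iff S)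
    (incP (XS S) (MS S) (eS S)) (incP_ρ (XS S) (MS S) (eS S) (eS_ρ S))
    (prP (XS S) (MS S) (eS S)) (prP_ρ (XS S) (MS S) (eS S) (eS_ρ S))
    (prP_incP (XS S) (MS S) (eS S)) (prP_incP_of_ne (XS S) (MS S) (eS S))
    (sum_incP_prP (XS S) (MS S) (eS S))
    hloc hLG hne hC hZtriv hZcyc C ψ V ρV i hi hiK hiρ

include hp2 hpS in
/-- `H²(U; E_S)[p]` is finite. -/
theorem finite_tors_H2ES :
    Finite (Fermat.Agent.TW.GLOB.H2Abs5.tors p
      (H2 (subBasis (levelS S) K.U) (resRep K.U (ES S)))) := by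
  haveI := finite_quot S K
  letI : Fintype (Γ ⧸ K.U) := Fintype.ofFinite _
  haveI : ∀ q : ↥S, Finite (Hq S q ⧸ Uloc K.U (rS S q)) := finite_quot_loc S K
  letI : ∀ q : ↥S, Fintype (Hq S q ⧸ Uloc K.U (rS S q)) := fun q => Fintype.ofFinite _
  letI : ∀ q : ↥S, Fintype ((Γ ⧸ K.U) ⧸ Fermat.Agent.TW.GLOB.LocalComp5.Dsub K.U (rS S q)) :=
    fun q => Fintype.ofFinite _
  haveI : Nonempty ↥S := ⟨⟨pPrime p, hpS⟩⟩
  have hS : S.Nonempty := ⟨pPrime p, hpS⟩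
  have hopenU : ∃ V ∈ (levelS S).sets, V ≤ K.U := ⟨K.U, K.U_mem, le_rfl⟩
  have hopenLoc : ∀ q : ↥S, ∃ V₀ ∈ (levelLocS ((q : Nat.Primes) : ℕ) S).sets,
      V₀ ≤ Uloc K.U (rS S q) := fun q => ⟨_, ⟨K.U, K.U_mem, rfl⟩, le_rfl⟩
  have hloc : ∀ q : ↥S, ∀ z : H2 (subBasis (levelLocS ((q : Nat.Primes) : ℕ) S)
      (Uloc K.U (rS S q))) (resRep (Uloc K.U (rS S q)) (AS S q)), p • z = 0 →
      trH2 (levelLocS ((q : Nat.Primes) : ℕ) S) (Uloc K.U (rS S q))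
        (isDiscrete_unitsLocS S ((q : Nat.Primes) : ℕ)) z = 0 → z = 0 :=
    fun q z hz h0 => eq_zero_of_trH2_eq_zero (isDiscrete_unitsLocS S ((q : Nat.Primes) : ℕ))
      (fundAt_unitsLocS S p ((q : Nat.Primes) : ℕ)) (Uloc K.U (rS S q)) (hopenLoc q) z hz h0
  have hne : ∀ q : ↥S, ∃ z : H2 (subBasis (levelLocS ((q : Nat.Primes) : ℕ) S)
      (Uloc K.U (rS S q))) (resRep (Uloc K.U (rS S q)) (AS S q)), p • z = 0 ∧ z ≠ 0 := by
    intro q
    obtain ⟨V, hV, hVn, hVU, hdiv⟩ := Fermat.Agent.TW.LOC.BrickA4.div_levelLocS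
      ((q : Nat.Primes) : ℕ) p S hpS (Uloc K.U (rS S q)) ⟨K.U, K.U_mem, rfl⟩
    haveI := hVn
    exact exists_ne_zero_H2 (isDiscrete_unitsLocS S ((q : Nat.Primes) : ℕ))
      (fundAt_unitsLocS S p ((q : Nat.Primes) : ℕ)) (Uloc K.U (rS S q)) V hV hVU hdiv
  have hLG : ∀ q : ↥S, ∀ w : H2 (levelS S) (MS S q), p • w = 0 →
      mapH2 (𝓑 := levelS S) (toCS S) (toCS_ρ S)
        (mapH2 (𝓑 := levelS S) (incP (XS S) (MS S) (eS S) q)
          (incP_ρ (XS S) (MS S) (eS S) (eS_ρ S) q) w) = 0 → w = 0 :=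
    fun q => eq_zero_of_hLG (XS S) (MS S) (eS S) (eS_ρ S) (toCS S) (toCS_ρ S) p q
      (inclq S q) (inclq_ρ S q) (ISequiv_inclq S q)
      (Fermat.Agent.TW.GLOB.InvRecip1.hLG p S hp2 hpS q)
  have hfundC := fundAt_CS S p hp2 hpS
  have hC : ∀ c : H1 (subBasis (levelS S) K.U) (resRep K.U (CS S)),
      ∃ m : ℕ, m.Coprime p ∧ m • c = 0 :=
    exists_coprime_nsmul_eq_zero_H1 (isDiscrete_CS S) hfundC K.U hopenU
  have hZcyc : ∀ z z' : H2 (subBasis (levelS S) K.U) (resRep K.U (CS S)), p • z = 0 →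
      p • z' = 0 → z ≠ 0 → ∃ n : ℕ, z' = n • z :=
    fun z z' hz hz' hz0 => cyclic_H2 (isDiscrete_CS S) hfundC K.U hopenU z z' hz hz' hz0
  exact Fermat.Agent.TW.GLOB.H2Model5.finite_tors_H2 p (levelS S) K.U hopenU (rS S)
    (fun q => levelLocS ((q : Nat.Primes) : ℕ) S)
    (fun q => LocI13.isLevelHom_levelLocS S ((q : Nat.Primes) : ℕ))
    (fun q => LocI13.induced_levelLocS S ((q : Nat.Primes) : ℕ))
    (AS S) (fun q => isDiscrete_unitsLocS S ((q : Nat.Primes) : ℕ))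
    (isDiscrete_IS S) (isDiscrete_CS S) (diag S) (diag_ρ S) (toCS S) (toCS_ρ S)
    (diag_injective S hS) (toCS_surjective S) (toCS_eq_zero_iff S)
    (incP (XS S) (MS S) (eS S)) (incP_ρ (XS S) (MS S) (eS S) (eS_ρ S))
    (prP (XS S) (MS S) (eS S)) (prP_ρ (XS S) (MS S) (eS S) (eS_ρ S))
    (prP_incP (XS S) (MS S) (eS S)) (prP_incP_of_ne (XS S) (MS S) (eS S))
    (sum_incP_prP (XS S) (MS S) (eS S))
    hloc hLG hne hC hZcyc

end Concrete

end Fermat.Agent.TW.GLOB.H2ES5
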