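/-
Programme T (S56), chapter T/GLOB, brick (A5) of T/plan/ADD (helper4): **middle exactness of the
Poitou–Tate sequence in COUNT form**.

* Abstract (`F` a field, `V q`, `V' q` finite-dimensional, `B q : V q × V' q → F` right-nondegenerate
  local pairings, `R ≤ ∏ V q`, `R' ≤ ∏ V' q` with `R` EXACTLY the orthogonal of `R'` for
  `∑_q B q`): `finrank_add_finrank_eq : dim R + dim R' = dim ∏ V q`, and for finite `F`
  `card_mul_card_eq : #R * #R' = ∏_q #(V q)`.
* **`card_range_locS_mul`** (`p` odd, `p ∈ S`, `M` finite-dimensional, `M` and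
  `M' = M.dualTwist (cycloChar p)` discrete for `levelS S`):
  `#range (locS S M) * #range (locS S M') = ∏_{q ∈ S} #Hq1 M q`
  and `mid` (the same in the shape of `AddFinal3.MidHyp`: `[Finite X]`, `X' = X.dualTwist _`)
  (`⊆ ⊥`: reciprocity `InvData.pair_recip`; `⊥ ⊆`: `MiddleExact1.middle_exact`; nondegeneracy:
  `CupDualityMu2.cupq_right_nondegenerate`; finiteness: `FiniteH1Loc6.finite_Hq1_of_levelS`).
-/
import Mathlib
import Fermat.Agent.TW.GLOB.MiddleExact1
import Fermat.Agent.TW.GLOB.GWNumeric1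
import Fermat.Agent.TW.LOC.CupDualityMu2
import Fermat.Agent.TW.LOC.FiniteH1Loc6
import Fermat.Agent.TW.GLOB.FiniteHS6

set_option autoImplicit false
set_option linter.unusedSectionVars false

namespace Fermat.Agent.TW.GLOB.MECount4

open Module

/-! ### The abstract count -/

section Abstract

variable {F : Type} [Field F] {ι : Type} [Fintype ι]
variable {V V' : ι → Type} [∀ q, AddCommGroup (V q)] [∀ q, Module F (V q)]
  [∀ q, AddCommGroup (V' q)] [∀ q, Module F (V' q)]

/-- The sum of local pairings, as a bilinear map on the products. -/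
def totPair (B : ∀ q, V q →ₗ[F] V' q →ₗ[F] F) : (∀ q, V q) →ₗ[F] (∀ q, V' q) →ₗ[F] F :=
  ∑ q, ((B q).compl₁₂ (LinearMap.proj q) (LinearMap.proj q))

theorem totPair_apply (B : ∀ q, V q →ₗ[F] V' q →ₗ[F] F) (x : ∀ q, V q) (y : ∀ q, V' q) :
    totPair B x y = ∑ q, B q (x q) (y q) := by
  simp [totPair, LinearMap.sum_apply]

theorem totPair_single_left [DecidableEq ι] (B : ∀ q, V q →ₗ[F] V' q →ₗ[F] F) (q : ι) (x : V q)
    (y : ∀ q, V' q) : totPair B (Pi.single q x) y = B q x (y q) := by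
  rw [totPair_apply, Finset.sum_eq_single q]
  · rw [Pi.single_eq_same]
  · intro b _ hb
    rw [Pi.single_eq_of_ne hb, map_zero, LinearMap.zero_apply]
  · intro h
    exact absurd (Finset.mem_univ q) h

variable [∀ q, FiniteDimensional F (V q)]

/-- **Orthogonal complements for a right-nondegenerate sum of local pairings.**  If `R ≤ ∏ V_q` is
exactly the orthogonal of `R' ≤ ∏ V'_q`, then `dim R + dim R' = dim ∏_q V_q`. -/
theorem finrank_add_finrank_eq (B : ∀ q, V q →ₗ[F] V' q →ₗ[F] F)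
    (hr : ∀ q y, (∀ x, B q x y = 0) → y = 0)
    (R : Submodule F (∀ q, V q)) (R' : Submodule F (∀ q, V' q))
    (h1 : ∀ x ∈ R, ∀ y ∈ R', ∑ q, B q (x q) (y q) = 0)
    (h2 : ∀ x, (∀ y ∈ R', ∑ q, B q (x q) (y q) = 0) → x ∈ R) :
    finrank F R + finrank F R' = finrank F (∀ q, V q) := by
  classical
  set T := totPair B with hT
  -- `T.flip : ∏ V' → Dual (∏ V)` is injective
  have hinjr : Function.Injective T.flip := by
    rw [← LinearMap.ker_eq_bot, LinearMap.ker_eq_bot']
    intro y hy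
    funext q
    apply hr q
    intro x
    have := LinearMap.congr_fun hy (Pi.single q x)
    rw [LinearMap.flip_apply, hT, totPair_single_left] at this
    simpa using this
  -- `R = (T.flip '' R').dualCoannihilator`
  have hR : R = (R'.map T.flip).dualCoannihilator := by
    ext x
    rw [Submodule.mem_dualCoannihilator]
    constructor
    · intro hx φ hφ
      obtain ⟨y, hy, rfl⟩ := hφ
      rw [LinearMap.flip_apply, hT, totPair_apply]
      exact h1 x hx y hy
    · intro hx
      apply h2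
      intro y hy
      have := hx (T.flip y) ⟨y, hy, rfl⟩
      rwa [LinearMap.flip_apply, hT, totPair_apply] at this
  have h3 := Subspace.finrank_add_finrank_dualCoannihilator_eq (R'.map T.flip)
  rw [← hR] at h3
  have h4 : finrank F (R'.map T.flip) = finrank F R' :=
    LinearEquiv.finrank_eq (Submodule.equivMapOfInjective T.flip hinjr R').symm
  rw [h4] at h3
  rw [add_comm]
  exact h3

/-- The same as a count, over a finite field of scalars. -/
theorem card_mul_card_eq [Finite F] [∀ q, FiniteDimensional F (V' q)]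
    (B : ∀ q, V q →ₗ[F] V' q →ₗ[F] F)
    (hr : ∀ q y, (∀ x, B q x y = 0) → y = 0)
    (R : Submodule F (∀ q, V q)) (R' : Submodule F (∀ q, V' q))
    (h1 : ∀ x ∈ R, ∀ y ∈ R', ∑ q, B q (x q) (y q) = 0)
    (h2 : ∀ x, (∀ y ∈ R', ∑ q, B q (x q) (y q) = 0) → x ∈ R) :
    Nat.card R * Nat.card R' = ∏ q, Nat.card (V q) := by
  have h := finrank_add_finrank_eq B hr R R' h1 h2
  rw [Module.natCard_eq_pow_finrank (K := F) (V := R),
    Module.natCard_eq_pow_finrank (K := F) (V := R'), ← pow_add, h,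
    ← Module.natCard_eq_pow_finrank (K := F) (V := ∀ q, V q), Nat.card_pi]

end Abstract

section Abstract'

variable {F : Type} [Field F] [Finite F] {ι : Type} [Fintype ι]
variable {V V' : ι → Type} [∀ q, AddCommMonoid (V q)] [∀ q, Module F (V q)]
  [∀ q, AddCommMonoid (V' q)] [∀ q, Module F (V' q)]
  [∀ q, Module.Finite F (V q)] [∀ q, Module.Finite F (V' q)]

/-- `card_mul_card_eq` with `AddCommMonoid` instance arguments (the additive group structures are
the ones induced by the module structures): in this form the instance arguments found by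
unification for concrete quotient modules are syntactically the synthesized ones. -/
theorem card_mul_card_eq' (B : ∀ q, V q →ₗ[F] V' q →ₗ[F] F)
    (hr : ∀ q y, (∀ x, B q x y = 0) → y = 0)
    (R : Submodule F (∀ q, V q)) (R' : Submodule F (∀ q, V' q))
    (h1 : ∀ x ∈ R, ∀ y ∈ R', ∑ q, B q (x q) (y q) = 0)
    (h2 : ∀ x, (∀ y ∈ R', ∑ q, B q (x q) (y q) = 0) → x ∈ R) :
    Nat.card R * Nat.card R' = ∏ q, Nat.card (V q) := by
  let _ : ∀ q, AddCommGroup (V q) := fun q => Module.addCommMonoidToAddCommGroup F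
  let _ : ∀ q, AddCommGroup (V' q) := fun q => Module.addCommMonoidToAddCommGroup F
  exact card_mul_card_eq B hr R R' h1 h2

end Abstract'

/-! ### The Poitou–Tate instance -/

section PT

open ExtCitation
open Fermat.Agent.PT.PRO.LevelCoh28 Fermat.Agent.PT.GLUE.Objects21
open Fermat.Agent.TW.DEF.Basic1 Fermat.Agent.TW.DEF.Mu1
open Fermat.Agent.TW.GLOB.GWNumeric1 Fermat.Agent.TW.GLOB.InvRecip1
open Fermat.Agent.TW.GLOB.MiddleExact1
open Fermat.Agent.TW.LOC.CupDualityMu2 Fermat.Agent.TW.LOC.FiniteH1Loc6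

variable {p : ℕ} [Fact p.Prime] (S : Finset Nat.Primes) (M : Rep.{0} (ZMod p) GQ)
  [FiniteDimensional (ZMod p) M]

set_option maxHeartbeats 400000 in
/-- The local pairings `B q : H¹(ℚ_q, M) × H¹(ℚ_q, M') → 𝔽_p` (`M' = M^*(1)`, `q ∈ S`: the local
invariant of the cup product), with the three properties used in the count: right
non-degeneracy (local Tate duality), reciprocity, and middle exactness of Poitou–Tate.
(`M'` is kept as a variable: instance search under binders fails on the literal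
`M.dualTwist (cycloChar p)`.) -/
theorem exists_pairing (hp2 : p ≠ 2) (hpS : pPrime p ∈ S) (M' : Rep.{0} (ZMod p) GQ)
    (hM'eq : M' = M.dualTwist (cycloChar p))
    (hM : IsDiscrete (levelS S).sets M) (hM' : IsDiscrete (levelS S).sets M') :
    ∃ B : ∀ q : ↥S, Hq1 M ((q : Nat.Primes) : ℕ) →ₗ[ZMod p]
        Hq1 M' ((q : Nat.Primes) : ℕ) →ₗ[ZMod p] ZMod p,
      (∀ (q : ↥S) (y : Hq1 M' ((q : Nat.Primes) : ℕ)), (∀ x, B q x y = 0) → y = 0) ∧
      (∀ (X : HS1 S M) (Y : HS1 S M'), ∑ q : ↥S,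
        B q (resq1 S M ((q : Nat.Primes) : ℕ) X) (resq1 S M' ((q : Nat.Primes) : ℕ) Y) = 0) ∧
      (∀ x : ∀ q : ↥S, Hq1 M ((q : Nat.Primes) : ℕ),
        (∀ Y : HS1 S M', ∑ q : ↥S, B q (x q) (resq1 S M' ((q : Nat.Primes) : ℕ) Y) = 0) →
        ∃ X : HS1 S M, ∀ q : ↥S, resq1 S M ((q : Nat.Primes) : ℕ) X = x q) := by
  subst hM'eq
  obtain ⟨D⟩ := exists_invData p S hp2 hpS
  have hfinM : Finite M := Module.finite_of_finite (ZMod p)
  have hfdM' : FiniteDimensional (ZMod p) (M.dualTwist (cycloChar p)) :=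
    inferInstanceAs (FiniteDimensional (ZMod p) (Module.Dual (ZMod p) M))
  have hfinM' : Finite (M.dualTwist (cycloChar p)) := Module.finite_of_finite (ZMod p)
  have hMq : ∀ q : ↥S, IsDiscrete (levelLoc ((q : Nat.Primes) : ℕ)).sets
      (Mq M ((q : Nat.Primes) : ℕ)) := fun q => isDiscrete_Mq p S ((q : Nat.Primes) : ℕ) hM
  have hMq' : ∀ q : ↥S, IsDiscrete (levelLoc ((q : Nat.Primes) : ℕ)).sets
      (Mq (M.dualTwist (cycloChar p)) ((q : Nat.Primes) : ℕ)) :=
    fun q => isDiscrete_Mq p S ((q : Nat.Primes) : ℕ) hM'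
  refine ⟨fun q => D.pair (evalB (cycloChar p) M) (evalB_equivariant (cycloChar p) M) q (hMq' q),
    ?_, ?_, ?_⟩
  · intro q y hy
    exact cupq_right_nondegenerate p M ((q : Nat.Primes) : ℕ) (hMq q) (hMq' q) y
      (fun x => (D.pair_eq_zero_iff (evalB (cycloChar p) M)
        (evalB_equivariant (cycloChar p) M) q (hMq' q) x y).1 (hy x))
  · intro X Y
    exact D.pair_recip (evalB (cycloChar p) M) (evalB_equivariant (cycloChar p) M) hpS hM' hMq'
      X Y
  · intro x hx
    exact middle_exact p S M hp2 hpS D hM hM' x hx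

/-- **(A5) Middle exactness in count form**:
`#range (loc¹_M) * #range (loc¹_{M^*(1)}) = ∏_{q ∈ S} #H¹(ℚ_q, M)`. -/
theorem card_range_locS_mul (hp2 : p ≠ 2) (hpS : pPrime p ∈ S) (M' : Rep.{0} (ZMod p) GQ)
    (hM'eq : M' = M.dualTwist (cycloChar p))
    (hM : IsDiscrete (levelS S).sets M) (hM' : IsDiscrete (levelS S).sets M') :
    Nat.card (LinearMap.range (locS S M)) * Nat.card (LinearMap.range (locS S M')) =
      ∏ q : ↥S, Nat.card (Hq1 M ((q : Nat.Primes) : ℕ)) := by
  have hfinM : Finite M := Module.finite_of_finite (ZMod p)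
  have hfinM' : Finite M' := by
    subst hM'eq
    have hfdM' : FiniteDimensional (ZMod p) (M.dualTwist (cycloChar p)) :=
      inferInstanceAs (FiniteDimensional (ZMod p) (Module.Dual (ZMod p) M))
    exact Module.finite_of_finite (ZMod p)
  have hfin1 : ∀ q : ↥S, Finite (Hq1 M ((q : Nat.Primes) : ℕ)) :=
    fun q => finite_Hq1_of_levelS hp2 S M hM ((q : Nat.Primes) : ℕ)
  have hfin1' : ∀ q : ↥S, Finite (Hq1 M' ((q : Nat.Primes) : ℕ)) :=
    fun q => finite_Hq1_of_levelS hp2 S M' hM' ((q : Nat.Primes) : ℕ)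
  have hfd1 : ∀ q : ↥S, FiniteDimensional (ZMod p) (Hq1 M ((q : Nat.Primes) : ℕ)) :=
    fun q => Module.Finite.of_finite
  have hfd1' : ∀ q : ↥S, FiniteDimensional (ZMod p) (Hq1 M' ((q : Nat.Primes) : ℕ)) :=
    fun q => Module.Finite.of_finite
  refine Exists.elim (exists_pairing S M hp2 hpS M' hM'eq hM hM') (fun B hB => ?_)
  have h1 : ∀ x ∈ LinearMap.range (locS S M), ∀ y ∈ LinearMap.range (locS S M'),
      ∑ q : ↥S, B q (x q) (y q) = 0 := by
    rintro _ ⟨X, rfl⟩ _ ⟨Y, rfl⟩
    exact hB.2.1 X Y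
  have h2 : ∀ x : ∀ q : ↥S, Hq1 M ((q : Nat.Primes) : ℕ),
      (∀ y ∈ LinearMap.range (locS S M'), ∑ q : ↥S, B q (x q) (y q) = 0) →
      x ∈ LinearMap.range (locS S M) := by
    intro x hx
    exact Exists.elim (hB.2.2 x (fun Y => hx (locS S M' Y) ⟨Y, rfl⟩))
      (fun X hX => ⟨X, funext hX⟩)
  have h := card_mul_card_eq' (F := ZMod p) (ι := ↥S)
    (V := fun q : ↥S => Hq1 M ((q : Nat.Primes) : ℕ))
    (V' := fun q : ↥S => Hq1 M' ((q : Nat.Primes) : ℕ)) B hB.1
    (LinearMap.range (locS S M)) (LinearMap.range (locS S M')) h1 h2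
  exact h

/-- **(A5)** in the shape of `AddFinal3.MidHyp`: `X` finite and discrete for `levelS S`,
`X' = X^*(1)`. -/
theorem mid (hp2 : p ≠ 2) (hpS : pPrime p ∈ S) (X X' : Rep.{0} (ZMod p) GQ) [Finite X]
    (hX' : X' = X.dualTwist (cycloChar p)) (hX : IsDiscrete (levelS S).sets X) :
    Nat.card (LinearMap.range (locS S X)) * Nat.card (LinearMap.range (locS S X')) =
      ∏ q : ↥S, Nat.card (Hq1 X ((q : Nat.Primes) : ℕ)) := by
  have hfd : FiniteDimensional (ZMod p) X := Module.Finite.of_finite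
  refine card_range_locS_mul S X hp2 hpS X' hX' hX ?_
  subst hX'
  exact Fermat.Agent.TW.GLOB.FiniteHS6.isDiscrete_dualTwist S hpS X hX

end PT

end Fermat.Agent.TW.GLOB.MECount4
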