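/-
PROGRAMME T, chapter GLOB (helper1).  `MEGeneric1`: the MIDDLE EXACTNESS of the Poitou–Tate sequence
(exactness at `∏_q H¹(G_q, ·)`), generic form in the hypercohomology vocabulary of `PT/PRO`
(the companion of `PT/PRO/HK20.forall_resH1_eq_zero_iff`, which is the exactness at `H¹(G, A)`).

Data (as in `HK20` / `MainGeneric20`): a resolved module `P → A` over `(G, 𝒰)` (`p A = 0`),
a short exact sequence `0 → E --d--> I --t--> C → 0` of discrete `G`-modules, modules `Iq q` over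
`G` with `inc q : Iq q → I`, `prj q : I → Iq q` (`prj q ∘ inc q = id`, `prj q ∘ inc q' = 0`), local
groups `r q : Gq q → G` and modules `W q` over `Gq q` with `ev q : Iq q → W q` over `r q`.

Inputs: the left kernel `(hL)` of `pair11 : ℍ¹(K(P; C)) × H¹(G, A) → H²(G, C)` is trivial (global
duality) and `(S1)`: `Λ¹_q : ℍ¹(G; K(P; Iq q)) → ℍ¹(Gq q; K(P|; W q))` is surjective.

**Theorem `exists_of_orthogonal`.**  Let `z q ∈ ℍ¹(Gq q; K(P|; W q))` be local classes such that for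
every `h ∈ H¹(G, A)` and all `p`-torsion classes `w q ∈ H²(G, Iq q)` with
`res_q (w q) = ⟨z q, res_q h⟩_q` one has `∑_q (t ∘ inc q)_* (w q) = 0` in `H²(G, C)`
("`(z q)_q` is orthogonal to the global classes").  Then there is `e ∈ ℍ¹(G; K(P; E))` with
`Λ¹_q ((prj q)_* (d_* e)) = z q` for all `q`.

Also: `mapℍ1_coefHom_comp` (functoriality of `HK20.coefHom` on `ℍ¹`), `mapℍ1_coefHom_zero`.
-/
import Mathlib
import Fermat.Agent.PT.PRO.HK20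
import Fermat.Agent.PT.PRO.StarBlock25

set_option autoImplicit false
set_option linter.unusedSectionVars false

namespace Fermat.Agent.TW.GLOB.MEGeneric1

open Function
open Fermat.Agent.PT.PRO Fermat.Agent.PT.PRO.HyperLevel25 Fermat.Agent.PT.PRO.Resolved4
open Fermat.Agent.PT.PRO.ExtPairing4 Fermat.Agent.PT.PRO.ExtPairingB4
open Fermat.Agent.PT.PRO.HyperRes25 Fermat.Agent.PT.PRO.PairingRes1
open Fermat.Agent.PT.PRO.HK20

variable {k G : Type*} [CommRing k] [Group G] {𝒰 : Set (Subgroup G)}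
variable {P1 P0 A : Type*} [AddCommGroup P1] [Module k P1] [AddCommGroup P0] [Module k P0]
  [AddCommGroup A] [Module k A]

section Coef

variable {X X' X'' : Type*} [AddCommGroup X] [Module k X] [AddCommGroup X'] [Module k X']
  [AddCommGroup X''] [Module k X'']
variable (P : Resolved k 𝒰 P1 P0 A) [Module.Finite k P0] [Module.Finite k P1]
  (h𝒰 : IsLevelBasis 𝒰)
  {ρX : Representation k G X} (hX : IsDiscrete 𝒰 ρX)
  {ρX' : Representation k G X'} (hX' : IsDiscrete 𝒰 ρX')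
  {ρX'' : Representation k G X''} (hX'' : IsDiscrete 𝒰 ρX'')

/-- Functoriality of `coefHom` on `ℍ¹`. -/
theorem mapℍ1_coefHom_comp (α : X →ₗ[k] X') (hα : ∀ g x, α (ρX g x) = ρX' g (α x))
    (β : X' →ₗ[k] X'') (hβ : ∀ g x, β (ρX' g x) = ρX'' g (β x))
    (γ : X →ₗ[k] X'') (hγ : ∀ g x, γ (ρX g x) = ρX'' g (γ x)) (hcomp : ∀ x, β (α x) = γ x)
    (ξ : (P.K h𝒰 ρX hX).ℍ1 h𝒰) :
    (coefHom P h𝒰 hX' hX'' β hβ).mapℍ1 h𝒰 ((coefHom P h𝒰 hX hX' α hα).mapℍ1 h𝒰 ξ) =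
      (coefHom P h𝒰 hX hX'' γ hγ).mapℍ1 h𝒰 ξ := by
  obtain ⟨z, rfl⟩ := ((P.K h𝒰 ρX hX).tot h𝒰).π1_surjective ξ
  show ((P.K h𝒰 ρX'' hX'').tot h𝒰).π1 _ = ((P.K h𝒰 ρX'' hX'').tot h𝒰).π1 _
  congr 1
  apply Subtype.ext
  apply Subtype.ext
  show (coefHom P h𝒰 hX' hX'' β hβ).map1 ((coefHom P h𝒰 hX hX' α hα).map1 z.1.1) =
    (coefHom P h𝒰 hX hX'' γ hγ).map1 z.1.1
  rw [Cx.Hom.map1_apply, Cx.Hom.map1_apply, Cx.Hom.map1_apply]
  refine Prod.ext ?_ ?_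
  · funext g
    apply LinearMap.ext
    intro x
    exact hcomp _
  · apply LinearMap.ext
    intro x
    exact hcomp _

/-- `coefHom` of the identity is the identity on `ℍ¹`. -/
theorem mapℍ1_coefHom_id (γ : X →ₗ[k] X) (hγ : ∀ g x, γ (ρX g x) = ρX g (γ x))
    (hid : ∀ x, γ x = x) (ξ : (P.K h𝒰 ρX hX).ℍ1 h𝒰) :
    (coefHom P h𝒰 hX hX γ hγ).mapℍ1 h𝒰 ξ = ξ := by
  obtain ⟨z, rfl⟩ := ((P.K h𝒰 ρX hX).tot h𝒰).π1_surjective ξ
  show ((P.K h𝒰 ρX hX).tot h𝒰).π1 _ = ((P.K h𝒰 ρX hX).tot h𝒰).π1 _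
  congr 1
  apply Subtype.ext
  apply Subtype.ext
  show (coefHom P h𝒰 hX hX γ hγ).map1 z.1.1 = z.1.1
  rw [Cx.Hom.map1_apply]
  refine Prod.ext ?_ ?_
  · funext g
    apply LinearMap.ext
    intro x
    exact hid _
  · apply LinearMap.ext
    intro x
    exact hid _

/-- `coefHom` of the zero map is zero on `ℍ¹`. -/
theorem mapℍ1_coefHom_zero (γ : X →ₗ[k] X'') (hγ : ∀ g x, γ (ρX g x) = ρX'' g (γ x))
    (hzero : ∀ x, γ x = 0) (ξ : (P.K h𝒰 ρX hX).ℍ1 h𝒰) :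
    (coefHom P h𝒰 hX hX'' γ hγ).mapℍ1 h𝒰 ξ = 0 := by
  obtain ⟨z, rfl⟩ := ((P.K h𝒰 ρX hX).tot h𝒰).π1_surjective ξ
  have h0 : ((coefHom P h𝒰 hX hX'' γ hγ).tot h𝒰).mapZ1 z = 0 := by
    apply Subtype.ext
    apply Subtype.ext
    show (coefHom P h𝒰 hX hX'' γ hγ).map1 z.1.1 = 0
    rw [Cx.Hom.map1_apply]
    refine Prod.ext ?_ ?_
    · funext g
      apply LinearMap.ext
      intro x
      exact hzero _
    · apply LinearMap.ext
      intro x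
      exact hzero _
  show ((P.K h𝒰 ρX'' hX'').tot h𝒰).π1 (((coefHom P h𝒰 hX hX'' γ hγ).tot h𝒰).mapZ1 z) = 0
  rw [h0, map_zero]

end Coef

section Main

variable {ι : Type*} [Fintype ι] {Gq : ι → Type*} [∀ q, Group (Gq q)]
  {𝒰q : ∀ q, Set (Subgroup (Gq q))}
variable {E I C : Type*} [AddCommGroup E] [Module k E] [AddCommGroup I] [Module k I]
  [AddCommGroup C] [Module k C]
variable {Iq W : ι → Type*} [∀ q, AddCommGroup (Iq q)] [∀ q, Module k (Iq q)]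
  [∀ q, AddCommGroup (W q)] [∀ q, Module k (W q)]

variable (P : Resolved k 𝒰 P1 P0 A) [Module.Finite k P0] [Module.Finite k P1]
  [Module.Projective k P0] [Module.Projective k P1]
  (h𝒰 : IsLevelBasis 𝒰) (h𝒰q : ∀ q, IsLevelBasis (𝒰q q))
  (r : ∀ q, Gq q →* G) (hr : ∀ q, IsLevelHom (r q) (𝒰q q) 𝒰)
  {ρE : Representation k G E} (hE : IsDiscrete 𝒰 ρE)
  {ρI : Representation k G I} (hI : IsDiscrete 𝒰 ρI)
  {ρC : Representation k G C} (hC : IsDiscrete 𝒰 ρC)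
  {ρIq : ∀ q, Representation k G (Iq q)} (hIq : ∀ q, IsDiscrete 𝒰 (ρIq q))
  {ρW : ∀ q, Representation k (Gq q) (W q)} (hW : ∀ q, IsDiscrete (𝒰q q) (ρW q))
  (d : E →ₗ[k] I) (hd : ∀ g x, d (ρE g x) = ρI g (d x))
  (t : I →ₗ[k] C) (ht : ∀ g x, t (ρI g x) = ρC g (t x))
  (hdinj : Injective d) (htsurj : Surjective t) (hex : Function.Exact d t)
  (inc : ∀ q, Iq q →ₗ[k] I) (hinc : ∀ q g x, inc q (ρIq q g x) = ρI g (inc q x))
  (prj : ∀ q, I →ₗ[k] Iq q) (hprj : ∀ q g x, prj q (ρI g x) = ρIq q g (prj q x))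
  (hpi1 : ∀ q x, prj q (inc q x) = x) (hpi0 : ∀ q q', q' ≠ q → ∀ x, prj q (inc q' x) = 0)
  (ev : ∀ q, Iq q →ₗ[k] W q) (hev : ∀ q g x, ev q (ρIq q (r q g) x) = ρW q g (ev q x))

include hdinj htsurj hex hpi1 hpi0 in
/-- **Middle exactness, generic form.** -/
theorem exists_of_orthogonal (p : ℕ) (hpA : ∀ m : A, p • m = 0)
    -- global duality: the left kernel of `pair11` for `K(P; C)`
    (hL : ∀ ξ : (P.K h𝒰 ρC hC).ℍ1 h𝒰,
      (∀ x, pair11 (evalPairing P h𝒰 ρC hC) h𝒰 hC ξ x = 0) → ξ = 0)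
    -- (S1)
    (hS1 : ∀ q, Surjective ((KPHom (hr q) h𝒰 (h𝒰q q) (hIq q) (hW q) P (ev q) (hev q)).ppℍ1
      (hr q) h𝒰 (h𝒰q q)))
    -- the local classes
    (z : ∀ q, ((comapResolved (r q) (hr q) P).K (h𝒰q q) (ρW q) (hW q)).ℍ1 (h𝒰q q))
    -- orthogonality to the global classes
    (hz : ∀ (h : Hlev1 h𝒰 P.ρM P.discM) (w : ∀ q, Hlev2 h𝒰 (ρIq q) (hIq q)),
      (∀ q, p • w q = 0) →
      (∀ q, resH2 (hr q) h𝒰 (h𝒰q q) (hIq q) (hW q) (ev q) (hev q) (w q) =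
        pair11 (evalPairing (comapResolved (r q) (hr q) P) (h𝒰q q) (ρW q) (hW q)) (h𝒰q q)
          (hW q) (z q)
          (resH1 (hr q) h𝒰 (h𝒰q q) P.discM (comapResolved (r q) (hr q) P).discM LinearMap.id
            (fun _ _ => rfl) h)) →
      ∑ q, (lvlHom h𝒰 hI hC t ht).mapH2
        ((lvlHom h𝒰 (hIq q) hI (inc q) (hinc q)).mapH2 (w q)) = 0) :
    ∃ e : (P.K h𝒰 ρE hE).ℍ1 h𝒰, ∀ q,
      (KPHom (hr q) h𝒰 (h𝒰q q) (hIq q) (hW q) P (ev q) (hev q)).ppℍ1 (hr q) h𝒰 (h𝒰q q)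
        ((coefHom P h𝒰 hI (hIq q) (prj q) (hprj q)).mapℍ1 h𝒰
          ((coefHom P h𝒰 hE hI d hd).mapℍ1 h𝒰 e)) = z q := by
  classical
  -- preimages under `Λ¹`
  choose y hy using fun q => hS1 q (z q)
  -- the class of `ℍ¹(K(P; I))`
  obtain ⟨Y, hY⟩ : ∃ Y : (P.K h𝒰 ρI hI).ℍ1 h𝒰,
      Y = ∑ q, (coefHom P h𝒰 (hIq q) hI (inc q) (hinc q)).mapℍ1 h𝒰 (y q) := ⟨_, rfl⟩
  -- `t_* Y = 0`
  have hY0 : (coefHom P h𝒰 hI hC t ht).mapℍ1 h𝒰 Y = 0 := by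
    apply hL
    intro h
    have key : ∀ q, pair11 (evalPairing P h𝒰 ρC hC) h𝒰 hC
        ((coefHom P h𝒰 hI hC t ht).mapℍ1 h𝒰
          ((coefHom P h𝒰 (hIq q) hI (inc q) (hinc q)).mapℍ1 h𝒰 (y q))) h =
        (lvlHom h𝒰 hI hC t ht).mapH2 ((lvlHom h𝒰 (hIq q) hI (inc q) (hinc q)).mapH2
          (pair11 (evalPairing P h𝒰 (ρIq q) (hIq q)) h𝒰 (hIq q) (y q) h)) := by
      intro q
      rw [pair11_coefHom P h𝒰 hI hC t ht, pair11_coefHom P h𝒰 (hIq q) hI (inc q) (hinc q)]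
    rw [hY, map_sum, map_sum, LinearMap.sum_apply]
    simp only [key]
    refine hz h (fun q => pair11 (evalPairing P h𝒰 (ρIq q) (hIq q)) h𝒰 (hIq q) (y q) h)
      (fun q => ?_) (fun q => ?_)
    · rw [← map_nsmul, DualityAdapter29.nsmul_Hlev1_eq_zero h𝒰 P.ρM P.discM p hpA h, map_zero]
    · rw [← pair11_res_eval (hr q) h𝒰 (h𝒰q q) (hIq q) (hW q) P (ev q) (hev q), hy q]
  -- exactness at `ℍ¹(K(P; I))`
  obtain ⟨e, he⟩ := (Cx.Hom.exact_mapℍ1_mapℍ1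
    (StarBlock25.coefHom_shortExact P h𝒰 hE hI hC d hd t ht hdinj htsurj hex) h𝒰 Y).1 hY0
  refine ⟨e, fun q => ?_⟩
  have hprjY : (coefHom P h𝒰 hI (hIq q) (prj q) (hprj q)).mapℍ1 h𝒰 Y = y q := by
    rw [hY, map_sum, Finset.sum_eq_single q]
    · rw [mapℍ1_coefHom_comp P h𝒰 (hIq q) hI (hIq q) (inc q) (hinc q) (prj q) (hprj q)
        LinearMap.id (fun _ _ => rfl) (fun x => hpi1 q x),
        mapℍ1_coefHom_id P h𝒰 (hIq q) LinearMap.id (fun _ _ => rfl) (fun _ => rfl)]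
    · intro q' _ hq'
      have h0 : ∀ g x, (0 : Iq q' →ₗ[k] Iq q) (ρIq q' g x) =
          ρIq q g ((0 : Iq q' →ₗ[k] Iq q) x) := by
        intro g x
        simp
      rw [mapℍ1_coefHom_comp P h𝒰 (hIq q') hI (hIq q) (inc q') (hinc q') (prj q) (hprj q) 0 h0
        (fun x => hpi0 q q' hq' x),
        mapℍ1_coefHom_zero P h𝒰 (hIq q') (hIq q) 0 h0 (fun _ => rfl)]
    · intro hq
      exact absurd (Finset.mem_univ q) hq
  rw [he, hprjY, hy q]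

end Main

end Fermat.Agent.TW.GLOB.MEGeneric1
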