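/-
PROGRAMME T, chapter GLOB (helper1).  `MEKer1`: middle exactness of the Poitou–Tate sequence in terms
of PLAIN level cohomology of `M`, from `MEGeneric1.exists_of_orthogonal` and the comparison
isomorphisms `KerIso7.compare1 : H¹(G; M) ≅ ℍ¹(G; K(P; X))` (`P → A = M^∨(χ)`, `X ⊇ μ_p`
`p`-divisible), generic in the ring `k` (`hk : IntSurj k`; the analogue in degree 1 of
`StarS55_7.starAt_of_muData`).

**Theorem `exists_global_of_orthogonal`.**  Let `x q ∈ H¹(G_q; M)` (`q` in a finite index set) be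
local classes such that the hyper-classes `z q := compare1_q (x q) ∈ ℍ¹(G_q; K(P|; W q))` are
orthogonal to the global classes of `H¹(G, A)` in the sense of `MEGeneric1.exists_of_orthogonal`.
Then there is a global class `X ∈ H¹(G; M)` with `res_q X = x q` for all `q`.
-/
import Mathlib
import Fermat.Agent.TW.GLOB.MEGeneric1
import Fermat.Agent.PT.PRO.KerIsoMain7

set_option autoImplicit false
set_option linter.unusedSectionVars false

namespace Fermat.Agent.TW.GLOB.MEKer1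

open Function
open Fermat.Agent.PT.PRO Fermat.Agent.PT.PRO.HyperLevel25 Fermat.Agent.PT.PRO.HyperCompare25
open Fermat.Agent.PT.PRO.HyperRes25 Fermat.Agent.PT.PRO.IndRes20 Fermat.Agent.PT.PRO.Resolved4
open Fermat.Agent.PT.PRO.Setup20 Fermat.Agent.PT.PRO.Objects20 Fermat.Agent.PT.PRO.KerIso7
open Fermat.Agent.PT.PRO.PairingRes1 Fermat.Agent.PT.PRO.ExtPairing4
open Fermat.Agent.PT.PRO.ExtPairingB4

variable {k : Type} [CommRing k] (hk : IntSurj k)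
variable {p : ℕ} [Fact p.Prime] {G : Type} [Group G] {𝒰 : Set (Subgroup G)}
variable {M : Type} [AddCommGroup M] [Module (ZMod p) M] [Module k M]
  [FiniteDimensional (ZMod p) M] [Module k (Module.Dual (ZMod p) M)]
variable {P0 P1 : Type} [AddCommGroup P0] [Module k P0] [AddCommGroup P1] [Module k P1]
  [Module.Finite k P0] [Module.Finite k P1] [Module.Projective k P0] [Module.Projective k P1]
variable {E I C : Type} [AddCommGroup E] [Module k E] [AddCommGroup I] [Module k I]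
  [AddCommGroup C] [Module k C]
variable {Q : Type} [Fintype Q] {Gq : Q → Type} [∀ q, Group (Gq q)]
  {𝒰q : ∀ q, Set (Subgroup (Gq q))}
variable {Iq W : Q → Type} [∀ q, AddCommGroup (Iq q)] [∀ q, Module k (Iq q)]
  [∀ q, AddCommGroup (W q)] [∀ q, Module k (W q)]

variable (R : Res k G P1 P0 (Module.Dual (ZMod p) M)) (h0 : IsDiscrete 𝒰 R.ρ0)
  (h𝒰 : IsLevelBasis 𝒰) (h𝒰q : ∀ q, IsLevelBasis (𝒰q q))
  (r : ∀ q, Gq q →* G) (hr : ∀ q, IsLevelHom (r q) (𝒰q q) 𝒰)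
  (ρM : Representation (ZMod p) G M) (hM : IsDiscrete 𝒰 ρM) (χ : G →* (ZMod p)ˣ)
  (hA : ∀ g a, R.ρM g a = (χ g : ZMod p) • (a ∘ₗ ρM g⁻¹))
  {ρE : Representation k G E} (hE : IsDiscrete 𝒰 ρE)
  {ρI : Representation k G I} (hI : IsDiscrete 𝒰 ρI)
  {ρC : Representation k G C} (hC : IsDiscrete 𝒰 ρC)
  {ρIq : ∀ q, Representation k G (Iq q)} (hIq : ∀ q, IsDiscrete 𝒰 (ρIq q))
  {ρW : ∀ q, Representation k (Gq q) (W q)} (hW : ∀ q, IsDiscrete (𝒰q q) (ρW q))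
  (d : E →ₗ[k] I) (hd : ∀ g x, d (ρE g x) = ρI g (d x))
  (t : I →ₗ[k] C) (ht : ∀ g x, t (ρI g x) = ρC g (t x))
  (hdinj : Injective d) (htsurj : Surjective t) (hex : Function.Exact d t)
  (inc : ∀ q, Iq q →ₗ[k] I) (hinc : ∀ q g x, inc q (ρIq q g x) = ρI g (inc q x))
  (prj : ∀ q, I →ₗ[k] Iq q) (hprj : ∀ q g x, prj q (ρI g x) = ρIq q g (prj q x))
  (hpi1 : ∀ q x, prj q (inc q x) = x) (hpi0 : ∀ q q', q' ≠ q → ∀ x, prj q (inc q' x) = 0)
  (ev : ∀ q, Iq q →ₗ[k] W q) (hev : ∀ q g x, ev q (ρIq q (r q g) x) = ρW q g (ev q x))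
  (D : MuData χ ρE) (D' : ∀ q, MuData (χ.comp (r q)) (ρW q))
  (hDD' : ∀ q a, ev q (prj q (d (D.j a))) = (D' q).j a)
  (hdivE : ∀ x : E, ∃ y : E, (p : k) • y = x)
  (hdivW : ∀ q (x : W q), ∃ y : W q, (p : k) • y = x)

/-- The local comparison map `H¹(G_q; M) → ℍ¹(G_q; K(P|; W q))`. -/
noncomputable abbrev cmpq (q : Q) :=
  compare1 hk (h𝒰q q) (toResolved (R.comap (r q)) (comap_disc0 R h0 (r q) (hr q)))
    (ρM.comp (r q)) (IsLevelHom.isDiscrete (hr q) hM) (χ.comp (r q))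
    (KerIsoMain7.hA_comap R ρM χ hA (r q)) (hW q) (D' q)

/-- The composite coefficient map `E → I → Iq q → W q` over `r q`. -/
def epsq (q : Q) : E →ₗ[k] W q := ev q ∘ₗ prj q ∘ₗ d

include hd hprj hev in
theorem epsq_ρ (q : Q) (g : Gq q) (x : E) :
    epsq d prj ev q (ρE (r q g) x) = ρW q g (epsq d prj ev q x) := by
  show ev q (prj q (d (ρE (r q g) x))) = ρW q g (ev q (prj q (d x)))
  rw [hd, hprj, hev]

/-- `Λ¹_q ∘ (prj q)_* ∘ d_* = (KXPHom (ev q ∘ prj q ∘ d)).ppℍ1`. -/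
theorem ppℍ1_epsq (q : Q) (e : (KX R h0 h𝒰 ρE hE).ℍ1 h𝒰) :
    (KPHom (hr q) h𝒰 (h𝒰q q) (hIq q) (hW q) (toResolved R h0) (ev q) (hev q)).ppℍ1 (hr q) h𝒰
        (h𝒰q q) ((HK20.coefHom (toResolved R h0) h𝒰 hI (hIq q) (prj q) (hprj q)).mapℍ1 h𝒰
          ((HK20.coefHom (toResolved R h0) h𝒰 hE hI d hd).mapℍ1 h𝒰 e)) =
      (KXPHom R h0 h𝒰 (h𝒰q q) (r q) (hr q) hE (hW q) (epsq d prj ev q)
        (epsq_ρ r d hd prj hprj ev hev q)).ppℍ1 (hr q) h𝒰 (h𝒰q q) e := by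
  obtain ⟨z, rfl⟩ := ((KX R h0 h𝒰 ρE hE).tot h𝒰).π1_surjective e
  rfl

include hE hd hprj hdinj htsurj hex hpi1 hpi0 hDD' hdivE hdivW in
/-- **Middle exactness in terms of plain cohomology of `M`.** -/
theorem exists_global_of_orthogonal
    -- global duality: the left kernel of `pair11` for `K(P; C)`
    (hL : ∀ ξ : (KX R h0 h𝒰 ρC hC).ℍ1 h𝒰,
      (∀ x, pair11 (evP R h0 h𝒰 ρC hC) h𝒰 hC ξ x = 0) → ξ = 0)
    -- (S1)
    (hS1 : ∀ q, Surjective ((KPHom (hr q) h𝒰 (h𝒰q q) (hIq q) (hW q) (toResolved R h0) (ev q)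
      (hev q)).ppℍ1 (hr q) h𝒰 (h𝒰q q)))
    -- the local classes
    (x : ∀ q, Hp1 (h𝒰q q) (intRep hk (ρM.comp (r q)))
      (isDiscrete_intRep hk (IsLevelHom.isDiscrete (hr q) hM)))
    -- orthogonality
    (hz : ∀ (h : Hlev1 h𝒰 (toResolved R h0).ρM (toResolved R h0).discM)
      (w : ∀ q, Hlev2 h𝒰 (ρIq q) (hIq q)), (∀ q, p • w q = 0) →
      (∀ q, resH2 (hr q) h𝒰 (h𝒰q q) (hIq q) (hW q) (ev q) (hev q) (w q) =
        pair11 (evalPairing (comapResolved (r q) (hr q) (toResolved R h0)) (h𝒰q q) (ρW q)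
          (hW q)) (h𝒰q q) (hW q) (cmpq hk R h0 h𝒰q r hr ρM hM χ hA hW D' q (x q))
          (resH1 (hr q) h𝒰 (h𝒰q q) (toResolved R h0).discM
            (comapResolved (r q) (hr q) (toResolved R h0)).discM LinearMap.id
            (fun _ _ => rfl) h)) →
      ∑ q, (lvlHom h𝒰 hI hC t ht).mapH2
        ((lvlHom h𝒰 (hIq q) hI (inc q) (hinc q)).mapH2 (w q)) = 0) :
    ∃ X : Hp1 h𝒰 (intRep hk ρM) (isDiscrete_intRep hk hM), ∀ q,
      (KerIsoMain7.resPlain hk h𝒰 (h𝒰q q) ρM hM (r q) (hr q)).mapH1 X = x q := by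
  have hpA : ∀ m : Module.Dual (ZMod p) M, p • m = 0 := fun m => by
    rw [← Nat.cast_smul_eq_nsmul (ZMod p), ZMod.natCast_self, zero_smul]
  obtain ⟨e, he⟩ := MEGeneric1.exists_of_orthogonal (toResolved R h0) h𝒰 h𝒰q r hr hE hI hC hIq hW
    d hd t ht hdinj htsurj hex inc hinc prj hprj hpi1 hpi0 ev hev p hpA hL hS1
    (fun q => cmpq hk R h0 h𝒰q r hr ρM hM χ hA hW D' q (x q)) hz
  obtain ⟨X, rfl⟩ := (compare1_bijective hk h𝒰 (toResolved R h0) ρM hM χ hA hE D hdivE).2 e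
  refine ⟨X, fun q => ?_⟩
  apply (compare1_bijective hk (h𝒰q q) (toResolved (R.comap (r q)) (comap_disc0 R h0 (r q) (hr q)))
    (ρM.comp (r q)) (IsLevelHom.isDiscrete (hr q) hM) (χ.comp (r q))
    (KerIsoMain7.hA_comap R ρM χ hA (r q)) (hW q) (D' q) (hdivW q)).1
  rw [KerIsoMain7.compare1_natural hk R h0 h𝒰 (h𝒰q q) ρM hM χ hA hE D (r q) (hr q) (hW q) (D' q)
    (epsq d prj ev q) (epsq_ρ r d hd prj hprj ev hev q) (hDD' q) X,
    ← ppℍ1_epsq R h0 h𝒰 h𝒰q r hr hE hI hIq hW d hd prj hprj ev hev q]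
  exact he q

end Fermat.Agent.TW.GLOB.MEKer1
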