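/-
Chapter T / GLOB — helper9: **relative transitivity on the places of `ℚ̄`**.

* `exists_smul_eq_rel`: for `F/ℚ` finite inside `ℚ̄`, `Gal(ℚ̄/F)` acts transitively on the valuation
  subrings of `ℚ̄` (over a rational prime `q`) inducing a given prime of `F`.  (Via Mathlib's
  `Algebra.IsInvariant.exists_smul_of_under_eq_of_profinite` for the profinite group `Gal(ℚ̄/F)`
  acting on `ℤ̄` with invariants `fixZ F`.)
-/
import Mathlib
import Fermat.Agent.Lib.FrobeniusExists
import Fermat.Agent.TW.GRP.PlaceConj3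

set_option autoImplicit false
set_option linter.unusedSectionVars false

open scoped Pointwise
open Fermat.Agent.Lib.FrobeniusExists Fermat.Agent.TW.GRP.PlaceConj3

namespace Fermat.Agent.TW.GLOB.RelTransitive9

attribute [local instance] isGalois_Qbar isIntegral_Qbar instTopZbar

local instance : DiscreteTopology Zbar := ⟨rfl⟩

attribute [local instance] continuousSMul_Zbar isInvariant_Zbar

/-! ### Relative transitivity -/

section Rel

variable (F : IntermediateField ℚ Qbar) [FiniteDimensional ℚ F]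

/-- The algebraic integers fixed by `Gal(ℚ̄/F)`. -/
noncomputable abbrev fixZ : Subalgebra ℤ Zbar := FixedPoints.subalgebra ℤ Zbar F.fixingSubgroup

theorem coe_smul_Zbar (g : GQ) (b : Zbar) : ((g • b : Zbar) : Qbar) = g (b : Qbar) := rfl

theorem mem_fixZ_iff (b : Zbar) : b ∈ fixZ F ↔ (b : Qbar) ∈ F := by
  constructor
  · intro hb
    rw [← InfiniteGalois.fixedField_fixingSubgroup F, IntermediateField.mem_fixedField_iff]
    intro g hg
    have := congrArg (Subtype.val : Zbar → Qbar) (hb ⟨g, hg⟩)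
    exact this
  · intro hb g
    apply Subtype.ext
    exact g.2 ⟨(b : Qbar), hb⟩

instance instSMulCommClassFixZ : SMulCommClass F.fixingSubgroup (fixZ F) Zbar where
  smul_comm g a b := by
    change g • ((a : Zbar) * b) = (a : Zbar) * g • b
    rw [smul_mul', a.2 g]

instance instIsInvariantFixZ : Algebra.IsInvariant (fixZ F) Zbar F.fixingSubgroup where
  isInvariant b hb := ⟨⟨b, hb⟩, rfl⟩

instance instCompactSpaceFixing : CompactSpace F.fixingSubgroup :=
  isCompact_iff_compactSpace.mp (IntermediateField.fixingSubgroup_isClosed F).isCompact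

/-- **`Gal(ℚ̄/F)` acts transitively on the places of `ℚ̄` over a given prime of `F`.** -/
theorem exists_smul_eq_rel {q : ℕ} (hq : q.Prime) {V V' : ValuationSubring Qbar}
    (hV : V.LiesOverPrime q) (hV' : V'.LiesOverPrime q)
    (h : ∀ x : Qbar, x ∈ F → IsIntegral ℤ x → (x ∈ V.nonunits ↔ x ∈ V'.nonunits)) :
    ∃ g : GQ, g ∈ F.fixingSubgroup ∧ V' = g • V := by
  have hPQ : (primeZ V).under (fixZ F) = (primeZ V').under (fixZ F) := by
    ext a
    rw [Ideal.mem_comap, Ideal.mem_comap]
    change (a : Zbar) ∈ primeZ V ↔ (a : Zbar) ∈ primeZ V'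
    rw [mem_primeZ, mem_primeZ]
    exact h _ ((mem_fixZ_iff F _).1 a.2) (a : Zbar).2
  obtain ⟨⟨g, hgU⟩, hg⟩ := Algebra.IsInvariant.exists_smul_of_under_eq_of_profinite
    (A := fixZ F) (B := Zbar) (G := F.fixingSubgroup) (primeZ V) (primeZ V') hPQ
  have hg' : primeZ V' = g • primeZ V := hg
  refine ⟨g, hgU, ?_⟩
  apply SetLike.ext
  intro x
  rw [ValuationSubring.mem_pointwise_smul_iff_inv_smul_mem]
  constructor
  · intro hx
    refine map_mem_of_units hq hV' g⁻¹ (fun b hb hbu hcon => hbu ?_) hx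
    have h1 : (g⁻¹ • (⟨b, hb⟩ : Zbar)) ∈ primeZ V := (mem_primeZ V _).mpr hcon
    have h2 : g • (g⁻¹ • (⟨b, hb⟩ : Zbar)) ∈ g • primeZ V :=
      Ideal.smul_mem_pointwise_smul_iff.mpr h1
    rw [smul_inv_smul, ← hg'] at h2
    exact (mem_primeZ V' _).mp h2
  · intro hx
    have : g (g⁻¹ • x) ∈ V' := map_mem_of_units hq hV g (fun b hb hbu hcon => hbu ?_) hx
    · simpa using this
    have h1 : (g • (⟨b, hb⟩ : Zbar)) ∈ primeZ V' := (mem_primeZ V' _).mpr hcon
    rw [hg'] at h1
    exact (mem_primeZ V _).mp (Ideal.smul_mem_pointwise_smul_iff.mp h1)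

end Rel

end Fermat.Agent.TW.GLOB.RelTransitive9
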