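/-
Programme T (S56, Taylor–Wiles primes), chapter GLOB, task T7 (Tate's global Euler–Poincaré
formula), arithmetic side, brick (A1) — helper5.

**The Selmer sequence `1 → E/Eᵖ → Sel/Xᵖ → Cl[p] → 1`, equivariantly.**

ABSTRACT FORM.  `g : X →* D` a homomorphism of commutative groups, `D` without `p`-torsion
(`hD : ∀ d, d ^ p = 1 → d = 1`), `E = ker g`, `Sel = selP g p = {x | g x ∈ Dᵖ}` (helper15's
`RecCount15.selP`), `Cl = D ⧸ g.range`.  We construct

* `rootD g p x : D`, the unique `p`-th root of `g x` for `x ∈ Sel` (`rootD_pow`, `rootD_eq`);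
* `theta g p hD : selP g p →* D ⧸ g.range`, `x ↦ [rootD x]`, with
  - `theta_pow`        : `theta x ^ p = 1`,
  - `theta_eq_one_iff` : `theta x = 1 ↔ (x : X) ∈ g.ker ⊔ powRange X p`,
  - `range_theta`      : the range of `theta` is the `p`-torsion `(powMonoidHom p).ker` of `Cl`,
  - `theta_smul`       : if a group `G` acts on `X`, `D` and `g` is equivariant, then
                         `theta (σ • x) = σ • theta x` (action on `Cl` induced by `QuotientGroup.map`);
* the index form `relIndex_ker_sup_pow_selP : [Sel : E·Xᵖ] = #Cl[p]`,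
  `relIndex_pow_selP : [Sel : Xᵖ] = [E : Eᵖ] · #Cl[p]` (the latter is helper15's
  `RecCount15.relIndex_powRange_selP` rephrased with `Nat.card` of the `p`-torsion subgroup).

NUMBER FIELDS.  `L` a number field containing a primitive `p`-th root of unity, `p` odd, `S` a
finite set of rational primes, `E_S(L) = ker (divT S L)` the `S`-units, `selS S L p` the Selmer
elements, `Cl_S(L) = DivT S L ⧸ range (divT S L)` the `S`-class group (finite,
`FirstIneq16.finite_classGroupT`):

* `thetaS S L p : selS S L p →* DivT S L ⧸ (divT S L).range` with the properties above, equivariant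
  for `L ≃ₐ[K] L` (`thetaS_smul`);
* `relIndex_pow_selS :
    [selS S L p : (Lˣ)ᵖ] = p ^ (#{primes of L above S} + [L:ℚ]/2) * #Cl_S(L)[p]`;
* `euler_mu_p_count` : the numerical identity behind `χ(G_S, μ_p) = p ^ (-[L:ℚ]/2)`:
    `p * (#(Cl_S/p) * p ^ (#S_L - 1)) * p ^ ([L:ℚ]/2) = [selS : (Lˣ)ᵖ]`   (if `S_L ≠ ∅`),
  i.e. `#H⁰ · #H² = #H¹ · p ^ (-r₂)` once `H⁰ = μ_p`, `H¹ = Sel/p` (Kummer theory, brick A3) and
  `#H² = #(Cl_S/p) · p ^ (#S_L - 1)` (class field theory, brick A4) are known.
-/
import Mathlib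
import Fermat.Agent.PT.GLOB.RecKummer15
import Fermat.Agent.PT.GLOB.FirstIneq16
import Fermat.Agent.PT.GLOB.SUnitIndex14

set_option autoImplicit false
set_option linter.unusedSectionVars false

namespace Fermat.Agent.TW.GLOB.SelmerSeq5

open Fermat.Agent.PT.GLOB.RecCount15

/-! ## 1. The abstract Selmer sequence -/

section Abstract

variable {X D : Type*} [CommGroup X] [CommGroup D] (g : X →* D) (p : ℕ)

/-- A `p`-th root in `D` of `g x`, for a Selmer element `x`. -/
noncomputable def rootD (x : selP g p) : D := Classical.choose ((mem_selP g p).1 x.2)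

theorem rootD_pow (x : selP g p) : rootD g p x ^ p = g x :=
  Classical.choose_spec ((mem_selP g p).1 x.2)

variable (hD : ∀ d : D, d ^ p = 1 → d = 1)

include hD in
theorem pow_injective_of_torsionFree : Function.Injective (fun d : D => d ^ p) := by
  intro a b hab
  have h : (a / b) ^ p = 1 := by
    rw [div_pow]
    exact div_eq_one.mpr hab
  exact div_eq_one.mp (hD _ h)

include hD in
/-- Uniqueness of the root. -/
theorem rootD_eq (x : selP g p) {d : D} (hd : d ^ p = g x) : rootD g p x = d :=
  pow_injective_of_torsionFree p hD ((rootD_pow g p x).trans hd.symm)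

include hD in
theorem rootD_mul (x y : selP g p) : rootD g p (x * y) = rootD g p x * rootD g p y := by
  apply rootD_eq g p hD
  rw [mul_pow, rootD_pow, rootD_pow]
  simp

/-- The map `Sel → Cl = D ⧸ g(X)`, `x ↦ [ (g x)^{1/p} ]`. -/
noncomputable def theta : selP g p →* D ⧸ g.range where
  toFun x := QuotientGroup.mk (rootD g p x)
  map_one' := by
    have h : rootD g p (1 : selP g p) = 1 := by
      apply rootD_eq g p hD
      simp
    rw [h]
    rfl
  map_mul' x y := by
    rw [rootD_mul g p hD]
    rfl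

theorem theta_apply (x : selP g p) :
    theta g p hD x = (QuotientGroup.mk (rootD g p x) : D ⧸ g.range) := rfl

theorem theta_eq_mk (x : selP g p) {d : D} (hd : d ^ p = g x) :
    theta g p hD x = (QuotientGroup.mk d : D ⧸ g.range) := by
  rw [theta_apply, rootD_eq g p hD x hd]

/-- The image of `theta` is killed by `p`. -/
theorem theta_pow (x : selP g p) : theta g p hD x ^ p = 1 := by
  rw [theta_apply, ← QuotientGroup.mk_pow, rootD_pow]
  exact (QuotientGroup.eq_one_iff _).mpr ⟨x, rfl⟩

/-- The kernel of `theta` is `E · Xᵖ`. -/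
theorem theta_eq_one_iff (x : selP g p) :
    theta g p hD x = 1 ↔ (x : X) ∈ g.ker ⊔ powRange X p := by
  rw [theta_apply, QuotientGroup.eq_one_iff]
  constructor
  · rintro ⟨y, hy⟩
    -- `g (x / y ^ p) = 1`
    have h1 : g ((x : X) / y ^ p) = 1 := by
      rw [map_div, map_pow, hy, rootD_pow]
      exact div_self' _
    have h2 : (x : X) = ((x : X) / y ^ p) * y ^ p := by
      rw [div_mul_cancel]
    rw [h2]
    exact Subgroup.mul_mem_sup (MonoidHom.mem_ker.mpr h1) (pow_mem_powRange p y)
  · intro hx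
    obtain ⟨e, he, _, ⟨y, rfl⟩, hxy⟩ := Subgroup.mem_sup.mp hx
    refine ⟨y, ?_⟩
    symm
    apply rootD_eq g p hD
    rw [← hxy, map_mul, MonoidHom.mem_ker.mp he, one_mul]
    simp [map_pow]

/-- The range of `theta` is the `p`-torsion of `Cl`. -/
theorem range_theta :
    (theta g p hD).range = (powMonoidHom p : (D ⧸ g.range) →* (D ⧸ g.range)).ker := by
  ext c
  constructor
  · rintro ⟨x, rfl⟩
    rw [MonoidHom.mem_ker, powMonoidHom_apply]
    exact theta_pow g p hD x
  · intro hc
    rw [MonoidHom.mem_ker, powMonoidHom_apply] at hc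
    obtain ⟨d, rfl⟩ := QuotientGroup.mk_surjective c
    rw [← QuotientGroup.mk_pow, QuotientGroup.eq_one_iff] at hc
    obtain ⟨x, hx⟩ := hc
    exact ⟨⟨x, (mem_selP g p).2 ⟨d, hx.symm⟩⟩, theta_eq_mk g p hD _ hx.symm⟩

/-! ### Equivariance -/

section Equivariant

variable {G : Type*} [Group G] [MulDistribMulAction G X] [MulDistribMulAction G D]
  (hg : ∀ (σ : G) (x : X), g (σ • x) = σ • g x)

include hg in
theorem smul_mem_range (σ : G) {d : D} (hd : d ∈ g.range) : σ • d ∈ g.range := by
  obtain ⟨x, rfl⟩ := hd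
  exact ⟨σ • x, hg σ x⟩

include hg in
theorem smul_mem_selP (σ : G) {x : X} (hx : x ∈ selP g p) : σ • x ∈ selP g p := by
  obtain ⟨d, hd⟩ := (mem_selP g p).1 hx
  refine (mem_selP g p).2 ⟨σ • d, ?_⟩
  rw [hg, ← hd, smul_pow']

/-- The endomorphism of `Cl = D ⧸ g(X)` induced by `σ`. -/
noncomputable def smulCl (σ : G) : (D ⧸ g.range) →* (D ⧸ g.range) :=
  QuotientGroup.map g.range g.range (MulDistribMulAction.toMonoidHom D σ)
    (fun _ hd => Subgroup.mem_comap.mpr (smul_mem_range g hg σ hd))

theorem smulCl_mk (σ : G) (d : D) :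
    smulCl g hg σ (QuotientGroup.mk d) = (QuotientGroup.mk (σ • d) : D ⧸ g.range) := rfl

theorem smulCl_one (c : D ⧸ g.range) : smulCl g hg (1 : G) c = c := by
  obtain ⟨d, rfl⟩ := QuotientGroup.mk_surjective c
  rw [smulCl_mk, one_smul]

theorem smulCl_mul (σ τ : G) (c : D ⧸ g.range) :
    smulCl g hg (σ * τ) c = smulCl g hg σ (smulCl g hg τ c) := by
  obtain ⟨d, rfl⟩ := QuotientGroup.mk_surjective c
  rw [smulCl_mk, smulCl_mk, smulCl_mk, mul_smul]

/-- The action of `G` on `Cl = D ⧸ g(X)` (as a definition: use with `letI`). -/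
@[reducible] noncomputable def actionCl : MulDistribMulAction G (D ⧸ g.range) where
  smul σ c := smulCl g hg σ c
  one_smul c := smulCl_one g hg c
  mul_smul σ τ c := smulCl_mul g hg σ τ c
  smul_mul _ c d := map_mul _ c d
  smul_one _ := map_one _

/-- **Equivariance of `theta`.** -/
theorem theta_smul (σ : G) (x : selP g p) :
    theta g p hD ⟨σ • (x : X), smul_mem_selP g p hg σ x.2⟩ = smulCl g hg σ (theta g p hD x) := by
  rw [theta_apply g p hD x, smulCl_mk]
  apply theta_eq_mk
  rw [← smul_pow', rootD_pow, hg]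

end Equivariant

/-! ### Index form -/

include hD in
/-- `[Sel : E·Xᵖ] = #Cl[p]`. -/
theorem relIndex_ker_sup_pow_selP :
    (g.ker ⊔ powRange X p).relIndex (selP g p) =
      Nat.card (powMonoidHom p : (D ⧸ g.range) →* (D ⧸ g.range)).ker := by
  have hker : (theta g p hD).ker = (g.ker ⊔ powRange X p).subgroupOf (selP g p) := by
    ext x
    rw [MonoidHom.mem_ker, theta_eq_one_iff, Subgroup.mem_subgroupOf]
  rw [Subgroup.relIndex, ← hker, Subgroup.index_ker, range_theta]

include hD in
/-- **The Selmer index**: `[Sel : Xᵖ] = [E : Eᵖ] · #Cl[p]`. -/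
theorem relIndex_pow_selP :
    (powRange X p).relIndex (selP g p) =
      (powRange g.ker p).index *
        Nat.card (powMonoidHom p : (D ⧸ g.range) →* (D ⧸ g.range)).ker := by
  have hle1 : powRange X p ≤ g.ker ⊔ powRange X p := le_sup_right
  have hle2 : g.ker ⊔ powRange X p ≤ selP g p :=
    sup_le (ker_le_selP g p) (powRange_le_selP g p)
  rw [← Subgroup.relIndex_mul_relIndex _ _ _ hle1 hle2, relIndex_ker_sup_pow_selP g p hD]
  congr 1
  rw [Subgroup.relIndex_sup_right, ← Subgroup.inf_relIndex_right, powRange_inf_ker g p hD]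
  rw [Subgroup.relIndex, Subgroup.subgroupOf, Subgroup.comap_map_eq_self_of_injective
    (Subgroup.subtype_injective _)]

end Abstract

/-! ## 2. Number fields -/

section NumberField

open NumberField Module
open Fermat.Agent.PT.GLOB.Interface23 Fermat.Agent.PT.GLOB.RecKummer15
open Fermat.Agent.PT.GLOB.UnitsBridge24

variable (S : Finset Nat.Primes) (L : Type) [Field L] [NumberField L] (p : ℕ)

/-- The `S`-class group of `L` (divisors prime to `S` modulo principal divisors). -/
abbrev ClS : Type := DivT S L ⧸ (divT S L).range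

/-- The group of divisors is torsion free. -/
theorem divT_torsionFree (hp : p ≠ 0) : ∀ d : DivT S L, d ^ p = 1 → d = 1 := by
  intro d hd
  have h1 : p • DivT.toFinsupp S L d = 0 := congrArg (DivT.toFinsupp S L) hd
  have h2 : DivT.toFinsupp S L d = 0 := by
    ext P
    have h3 := DFunLike.congr_fun h1 P
    rw [Finsupp.smul_apply, Finsupp.zero_apply, nsmul_eq_mul] at h3
    rcases mul_eq_zero.mp h3 with h | h
    · exact absurd (by exact_mod_cast h) hp
    · simpa using h
  exact congrArg (DivT.ofFinsupp S L) h2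

/-- The map `Sel_S(L) → Cl_S(L)[p]`, `x ↦ [div(x)/p]`. -/
noncomputable def thetaS (hp : p ≠ 0) : selS S L p →* ClS S L :=
  theta (divT S L) p (divT_torsionFree S L p hp)

theorem thetaS_eq_mk (hp : p ≠ 0) (x : selS S L p) {d : DivT S L} (hd : d ^ p = divT S L x) :
    thetaS S L p hp x = (QuotientGroup.mk d : ClS S L) :=
  theta_eq_mk _ p _ x hd

theorem thetaS_pow (hp : p ≠ 0) (x : selS S L p) : thetaS S L p hp x ^ p = 1 :=
  theta_pow _ p _ x

/-- The kernel of `thetaS` consists of the `S`-units times `p`-th powers. -/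
theorem thetaS_eq_one_iff (hp : p ≠ 0) (x : selS S L p) :
    thetaS S L p hp x = 1 ↔ (x : Lˣ) ∈ (divT S L).ker ⊔ powRange Lˣ p :=
  theta_eq_one_iff _ p _ x

/-- The range of `thetaS` is the `p`-torsion of the `S`-class group. -/
theorem range_thetaS (hp : p ≠ 0) :
    (thetaS S L p hp).range = (powMonoidHom p : ClS S L →* ClS S L).ker :=
  range_theta _ p _

section Galois

variable (K : Type) [Field K] [NumberField K] [Algebra K L]

/-- The action of `σ ∈ Aut(L/K)` on the `S`-class group. -/
noncomputable def smulClS (σ : L ≃ₐ[K] L) : ClS S L →* ClS S L :=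
  smulCl (divT S L) (fun σ x => Fermat.Agent.PT.GLOB.ClassAction23.divT_smul S σ x) σ

theorem smulClS_mk (σ : L ≃ₐ[K] L) (d : DivT S L) :
    smulClS S L K σ (QuotientGroup.mk d) = (QuotientGroup.mk (σ • d) : ClS S L) := rfl

/-- The Galois action on the `S`-class group (use with `letI`). -/
@[reducible] noncomputable def actionClS : MulDistribMulAction (L ≃ₐ[K] L) (ClS S L) :=
  actionCl (divT S L) (fun σ x => Fermat.Agent.PT.GLOB.ClassAction23.divT_smul S σ x)

/-- **Galois equivariance of `thetaS`.** -/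
theorem thetaS_smul (hp : p ≠ 0) (σ : L ≃ₐ[K] L) (x : selS S L p) :
    thetaS S L p hp ⟨σ • (x : Lˣ), smul_mem_selS S K L p σ x.2⟩ =
      smulClS S L K σ (thetaS S L p hp x) :=
  theta_smul (divT S L) p (divT_torsionFree S L p hp)
    (fun σ x => Fermat.Agent.PT.GLOB.ClassAction23.divT_smul S σ x) σ x

end Galois

/-- In a finite commutative group the `p`-torsion and the cokernel of `p` have the same order. -/
theorem card_ker_pow_eq_index_range (A : Type*) [CommGroup A] [Finite A] :
    Nat.card (powMonoidHom p : A →* A).ker = (powMonoidHom p : A →* A).range.index := by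
  set φ : A →* A := powMonoidHom p
  have h1 : Nat.card φ.ker * Nat.card φ.range = Nat.card A := by
    rw [← Subgroup.index_ker, Subgroup.card_mul_index]
  have h2 : φ.range.index * Nat.card φ.range = Nat.card A := by
    rw [mul_comm, Subgroup.card_mul_index]
  have hpos : 0 < Nat.card φ.range := Nat.card_pos
  exact Nat.eq_of_mul_eq_mul_right hpos (h1.trans h2.symm)

variable [hp : Fact p.Prime]

/-- **The order of the Selmer group of a number field containing `μ_p`** (`p` odd):
`[Sel_S(L) : (Lˣ)ᵖ] = p ^ (#S_L + [L:ℚ]/2) · #Cl_S(L)[p]`. -/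
theorem relIndex_pow_selS (hp2 : 2 < p) {ζ : L} (hζ : IsPrimitiveRoot ζ p) :
    (powRange Lˣ p).relIndex (selS S L p) =
      p ^ ((primesOverT S L).card + finrank ℚ L / 2) *
        Nat.card (powMonoidHom p : ClS S L →* ClS S L).ker := by
  rw [relIndex_pow_selP (divT S L) p (divT_torsionFree S L p hp.out.ne_zero)]
  congr 1
  have h := (Fermat.Agent.PT.GLOB.SUnitIndex14.card_ker_divT_quot_pow S L p hp2 hζ).2
  rw [Subgroup.index_eq_card]
  exact h

/-- **The numerical content of `χ(G_S, μ_p) = p ^ (-r₂)`** for a number field `L ∋ ζ_p`, `p` odd, and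
`S_L ≠ ∅`: with `h⁰ = p`, `h¹ = [Sel_S(L) : (Lˣ)ᵖ]` and `h² = #(Cl_S(L)/p) · p ^ (#S_L - 1)`,
`h⁰ · h² · p ^ ([L:ℚ]/2) = h¹`. -/
theorem euler_mu_p_count (hp2 : 2 < p) {ζ : L} (hζ : IsPrimitiveRoot ζ p)
    (hS : (primesOverT S L).card ≠ 0) :
    p * ((powMonoidHom p : ClS S L →* ClS S L).range.index * p ^ ((primesOverT S L).card - 1)) *
        p ^ (finrank ℚ L / 2) =
      (powRange Lˣ p).relIndex (selS S L p) := by
  rw [relIndex_pow_selS S L p hp2 hζ, card_ker_pow_eq_index_range p (ClS S L)]
  obtain ⟨n, hn⟩ := Nat.exists_eq_succ_of_ne_zero hS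
  rw [hn, Nat.succ_sub_one, pow_add, Nat.succ_eq_add_one, pow_succ]
  ring

end NumberField

end Fermat.Agent.TW.GLOB.SelmerSeq5
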