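/-
Chapter T / GLOB, task T7 (Tate's global Euler characteristic) — helper9.

**The defect of Tate's formula as an additive invariant.**  `K : Lev S` a level, `Q = Γ ⧸ K.U`.
For a finite-dimensional `𝔽_p[Q]`-module `(V, ρ)` let `inflRep p K ρ : Rep 𝔽_p Γ` be its inflation
and

  `ε(V) = dim H⁰ - dim H¹ + dim H² + dim V - dim V^{c}`   (cohomology of `levelS S`, `c = cbar K`).

Given the multiplicativity (ADD) of the Euler characteristic on short exact sequences and
finiteness of `H¹`, `H²`, this is an `AdditiveInvariant (ZMod p) Q ℤ` (`epsInv`).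
-/
import Mathlib
import Fermat.Agent.TW.GLOB.TateAux9
import Fermat.Agent.TW.GLOB.ArchPlaces9
import Fermat.Agent.TW.DEF.Basic1

set_option autoImplicit false
set_option linter.unusedSectionVars false

open Module
open Fermat.Agent.PT.PRO.LevelCoh28 Fermat.Agent.PT.GLUE.Objects21 Fermat.Agent.PT.GLUE.Levels21
open Fermat.Agent.TW.DEF.Basic1
open Fermat.Agent.TW.GLOB.IndDefs9 Fermat.Agent.TW.GLOB.MatIdem9 Fermat.Agent.TW.GLOB.TateAux9
  Fermat.Agent.TW.GLOB.ArchPlaces9

namespace Fermat.Agent.TW.GLOB.TateEps9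

variable {S : Finset Nat.Primes} (p : ℕ) [Fact p.Prime] (K : Lev S)

section Infl

variable {V : Type} [AddCommGroup V] [Module (ZMod p) V]
  (ρ : Representation (ZMod p) (GQ ⧸ K.U) V)

/-- The inflation to `Γ` of a representation of `Γ ⧸ K.U`. -/
noncomputable def inflRep : Rep.{0} (ZMod p) GQ := Rep.of (ρ.comp (QuotientGroup.mk' K.U))

theorem inflRep_ρ_apply (γ : GQ) (v : V) : (inflRep p K ρ).ρ γ v = ρ (γ : GQ ⧸ K.U) v := rfl

theorem isDiscrete_inflRep : IsDiscrete (levelS S).sets (inflRep p K ρ) := by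
  intro v
  refine ⟨K.U, K.U_mem, fun s hs => ?_⟩
  rw [inflRep_ρ_apply, (QuotientGroup.eq_one_iff s).2 hs, map_one]
  rfl

instance finite_inflRep [Module.Finite (ZMod p) V] : Finite (inflRep p K ρ) :=
  Module.finite_of_finite (ZMod p) (M := V)

end Infl

/-- The order of `⟨c̄⟩` is invertible in `𝔽_p`. -/
theorem card_zpowers_cbar_ne_zero (hp2 : p ≠ 2) [Fintype (Subgroup.zpowers (cbar K))] :
    (Fintype.card (Subgroup.zpowers (cbar K)) : ZMod p) ≠ 0 :=
  card_zpowers_ne_zero p hp2 (cbar K) (cbar_mul_self K)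

section Eps

variable (hp2 : p ≠ 2)
  (hadd : ∀ (A B C : Rep.{0} (ZMod p) GQ) [Finite A] [Finite B] [Finite C]
    (_ : IsDiscrete (levelS S).sets A) (_ : IsDiscrete (levelS S).sets B)
    (_ : IsDiscrete (levelS S).sets C)
    (φ : A →ₗ[ZMod p] B) (hφ : ∀ g a, φ (A.ρ g a) = B.ρ g (φ a))
    (ψ : B →ₗ[ZMod p] C) (hψ : ∀ g b, ψ (B.ρ g b) = C.ρ g (ψ b))
    (_ : Function.Injective φ) (_ : Function.Surjective ψ) (_ : ∀ b, ψ b = 0 ↔ ∃ a, φ a = b),
    Nat.card ↥A.ρ.invariants * Nat.card ↥C.ρ.invariants * Nat.card (H1 (levelS S) B) *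
        Nat.card (H2 (levelS S) A) * Nat.card (H2 (levelS S) C) =
      Nat.card ↥B.ρ.invariants * Nat.card (H1 (levelS S) A) * Nat.card (H1 (levelS S) C) *
        Nat.card (H2 (levelS S) B))
  (hfin1 : ∀ (X : Rep.{0} (ZMod p) GQ) [Finite X], IsDiscrete (levelS S).sets X →
    Finite (H1 (levelS S) X))
  (hfin2 : ∀ (X : Rep.{0} (ZMod p) GQ) [Finite X], IsDiscrete (levelS S).sets X →
    Finite (H2 (levelS S) X))

/-- The value of `ε`. -/
noncomputable def epsVal {V : Type} [AddCommGroup V] [Module (ZMod p) V]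
    (ρ : Representation (ZMod p) (GQ ⧸ K.U) V) : ℤ :=
  (finrank (ZMod p) ↥(inflRep p K ρ).ρ.invariants : ℤ)
    - finrank (ZMod p) (H1 (levelS S) (inflRep p K ρ))
    + finrank (ZMod p) (H2 (levelS S) (inflRep p K ρ))
    + finrank (ZMod p) V
    - finrank (ZMod p)
        ↥(Representation.invariants (ρ.comp (Subgroup.zpowers (cbar K)).subtype))

include hp2 hadd hfin1 hfin2 in
theorem epsVal_exact (V₁ V₂ V₃ : Type) [AddCommGroup V₁] [Module (ZMod p) V₁]
    [Module.Finite (ZMod p) V₁] [AddCommGroup V₂] [Module (ZMod p) V₂] [Module.Finite (ZMod p) V₂]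
    [AddCommGroup V₃] [Module (ZMod p) V₃] [Module.Finite (ZMod p) V₃]
    (ρ₁ : Representation (ZMod p) (GQ ⧸ K.U) V₁) (ρ₂ : Representation (ZMod p) (GQ ⧸ K.U) V₂)
    (ρ₃ : Representation (ZMod p) (GQ ⧸ K.U) V₃) (i : V₁ →ₗ[ZMod p] V₂) (q : V₂ →ₗ[ZMod p] V₃)
    (hi : ∀ g v, i (ρ₁ g v) = ρ₂ g (i v)) (hq : ∀ g v, q (ρ₂ g v) = ρ₃ g (q v))
    (hinj : Function.Injective i) (hex : Function.Exact i q) (hsurj : Function.Surjective q) :
    epsVal p K ρ₂ = epsVal p K ρ₁ + epsVal p K ρ₃ := by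
  classical
  have hp : p.Prime := Fact.out
  -- the card identity
  have hA := isDiscrete_inflRep p K ρ₁
  have hB := isDiscrete_inflRep p K ρ₂
  have hC := isDiscrete_inflRep p K ρ₃
  have hcard := hadd (inflRep p K ρ₁) (inflRep p K ρ₂) (inflRep p K ρ₃) hA hB hC
    i (fun g v => hi (g : GQ ⧸ K.U) v) q (fun g v => hq (g : GQ ⧸ K.U) v) hinj hsurj
    (fun b => hex b)
  have := hfin1 (inflRep p K ρ₁) hA
  have := hfin1 (inflRep p K ρ₂) hB
  have := hfin1 (inflRep p K ρ₃) hC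
  have := hfin2 (inflRep p K ρ₁) hA
  have := hfin2 (inflRep p K ρ₂) hB
  have := hfin2 (inflRep p K ρ₃) hC
  have : Module.Finite (ZMod p) (inflRep p K ρ₁) := ‹Module.Finite (ZMod p) V₁›
  have : Module.Finite (ZMod p) (inflRep p K ρ₂) := ‹Module.Finite (ZMod p) V₂›
  have : Module.Finite (ZMod p) (inflRep p K ρ₃) := ‹Module.Finite (ZMod p) V₃›
  have : Module.Finite (ZMod p) (H1 (levelS S) (inflRep p K ρ₁)) := Module.Finite.of_finite
  have : Module.Finite (ZMod p) (H1 (levelS S) (inflRep p K ρ₂)) := Module.Finite.of_finite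
  have : Module.Finite (ZMod p) (H1 (levelS S) (inflRep p K ρ₃)) := Module.Finite.of_finite
  have : Module.Finite (ZMod p) (H2 (levelS S) (inflRep p K ρ₁)) := Module.Finite.of_finite
  have : Module.Finite (ZMod p) (H2 (levelS S) (inflRep p K ρ₂)) := Module.Finite.of_finite
  have : Module.Finite (ZMod p) (H2 (levelS S) (inflRep p K ρ₃)) := Module.Finite.of_finite
  simp only [card_eq_pow_finrank_zmod p, ← pow_add] at hcard
  have hsum := Nat.pow_right_injective hp.two_le hcard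
  -- dimensions
  have hdim : finrank (ZMod p) V₂ = finrank (ZMod p) V₁ + finrank (ZMod p) V₃ := by
    have h1 := LinearMap.finrank_range_add_finrank_ker q
    rw [LinearMap.range_eq_top.2 hsurj, finrank_top, LinearMap.exact_iff.1 hex,
      LinearMap.finrank_range_of_inj hinj] at h1
    omega
  -- fixed points of complex conjugation
  let _ : Fintype (Subgroup.zpowers (cbar K)) := Fintype.ofFinite _
  have hinv := finrank_invariants_eq_add (card_zpowers_cbar_ne_zero p K hp2)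
    (ρ₁.comp (Subgroup.zpowers (cbar K)).subtype) (ρ₂.comp (Subgroup.zpowers (cbar K)).subtype)
    (ρ₃.comp (Subgroup.zpowers (cbar K)).subtype) i q (fun g v => hi (g : GQ ⧸ K.U) v)
    (fun g v => hq (g : GQ ⧸ K.U) v) hinj hex hsurj
  unfold epsVal
  rw [hdim, hinv]
  push_cast
  have hsum' : ((finrank (ZMod p) ↥(inflRep p K ρ₁).ρ.invariants : ℤ)
      + finrank (ZMod p) ↥(inflRep p K ρ₃).ρ.invariants
      + finrank (ZMod p) (H1 (levelS S) (inflRep p K ρ₂))
      + finrank (ZMod p) (H2 (levelS S) (inflRep p K ρ₁))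
      + finrank (ZMod p) (H2 (levelS S) (inflRep p K ρ₃)))
      = (finrank (ZMod p) ↥(inflRep p K ρ₂).ρ.invariants : ℤ)
      + finrank (ZMod p) (H1 (levelS S) (inflRep p K ρ₁))
      + finrank (ZMod p) (H1 (levelS S) (inflRep p K ρ₃))
      + finrank (ZMod p) (H2 (levelS S) (inflRep p K ρ₂)) := by
    exact_mod_cast hsum
  linarith

/-- **The defect `ε` of Tate's formula as an additive invariant of `𝔽_p[Γ ⧸ K.U]`-modules.** -/
noncomputable def epsInv : AdditiveInvariant (ZMod p) (GQ ⧸ K.U) ℤ where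
  toFun V _ _ _ ρ := epsVal p K ρ
  map_exact V₁ V₂ V₃ _ _ _ _ _ _ _ _ _ ρ₁ ρ₂ ρ₃ i q hi hq hinj hex hsurj :=
    epsVal_exact p K hp2 hadd hfin1 hfin2 V₁ V₂ V₃ ρ₁ ρ₂ ρ₃ i q hi hq hinj hex hsurj

theorem epsInv_toFun (V : Type) [AddCommGroup V] [Module (ZMod p) V] [Module.Finite (ZMod p) V]
    (ρ : Representation (ZMod p) (GQ ⧸ K.U) V) :
    (epsInv p K hp2 hadd hfin1 hfin2).toFun V ρ = epsVal p K ρ := rfl

end Eps

end Fermat.Agent.TW.GLOB.TateEps9
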