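/-
Chapter T / GLOB, task T7 (Tate's global Euler characteristic), FINAL WIRING — helper9.

`tate_of_add_mu` : Tate's formula for every finite discrete `G_S`-module over `𝔽_p` from the two
remaining named inputs
* `EulerInv6.AddHyp S` — (ADD), multiplicativity of the Euler characteristic (lead/helper3), and
* `TateAssembly9.MUHyp S p` — `(MU*)`, the equivariant Euler characteristic of `μ_p` over a level
  (helper5's `MUMain5.euler_muP`),
all other inputs of `TateAssembly9.tate_of_MU` being discharged: finiteness of `H²`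
(`EulerLev6.finH2Hyp`), finiteness of `Hⁿ(K.U; μ_p)` (`FiniteSub6`), the archimedean model
(`TateArch6.exists_archModel`) and the coinduction model (`TateCoind2.exists_coindModel`).
Also `cycHyp_of_mu : MUHyp S p → EulerLev6.CycHyp S` (the cyclic step in helper6's vocabulary).
-/
import Mathlib
import Fermat.Agent.TW.GLOB.TateAssembly9
import Fermat.Agent.TW.GLOB.TateArch6
import Fermat.Agent.TW.GLOB.TateCoind2
import Fermat.Agent.TW.GLOB.FiniteSub6
import Fermat.Agent.TW.GLOB.EulerLev6

set_option autoImplicit false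
set_option linter.unusedSectionVars false

open ExtCitation
open Fermat.Agent.PT.PRO.LevelCoh28 Fermat.Agent.PT.GLUE.Objects21 Fermat.Agent.PT.GLUE.Levels21
open Fermat.Agent.TW.DEF.Basic1 Fermat.Agent.TW.DEF.Mu1
open Fermat.Agent.TW.GLOB.EulerInv6 Fermat.Agent.TW.GLOB.TateAssembly9

namespace Fermat.Agent.TW.GLOB.TateFinal9

variable (S : Finset Nat.Primes) (p : ℕ) [Fact p.Prime]

theorem muFinHyp (hp2 : p ≠ 2) (hpS : pPrime p ∈ S) : MUFinHyp S p := fun K =>
  ⟨Fermat.Agent.TW.GLOB.FiniteSub6.finite_H1_muP S K hpS,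
    Fermat.Agent.TW.GLOB.FiniteSub6.finite_H2_muP S K hp2 hpS⟩

theorem archModelHyp (K : Lev S) (hζ : ∀ u ∈ K.U, cycloChar p u = 1) : ArchModelHyp p K :=
  Fermat.Agent.TW.GLOB.TateArch6.exists_archModel p K hζ

theorem coindModelHyp (K : Lev S) (hζ : ∀ u ∈ K.U, cycloChar p u = 1) : CoindModelHyp p K :=
  fun C _ N _ _ _ σ => Fermat.Agent.TW.GLOB.TateCoind2.exists_coindModel p K hζ C N σ

/-- **The cyclic step**, in the vocabulary of `EulerLev6`. -/
theorem cycHyp_of_mu (hp2 : p ≠ 2) (hpS : pPrime p ∈ S) (hMU : MUHyp S p) :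
    Fermat.Agent.TW.GLOB.EulerLev6.CycHyp (p := p) S := by
  intro K hζ C _ hcop N _ _ _ σ
  have hfi := (levelS S).isBasis.finiteIndex K.U K.U_mem
  have hfq : Finite (GQ ⧸ K.U) := Subgroup.finite_quotient_of_finiteIndex
  exact chi_infl_coind_eq_zero S p hp2 hpS hMU (muFinHyp S p hp2 hpS) K (archModelHyp S p K hζ)
    (coindModelHyp S p K hζ) C hcop N σ

/-- **Tate's global Euler characteristic formula** from (ADD) and `(MU*)`. -/
theorem tate_of_add_mu (hp2 : p ≠ 2) (hpS : pPrime p ∈ S) (hadd : AddHyp (p := p) S)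
    (hMU : MUHyp S p) (X : Rep.{0} (ZMod p) GQ) [Finite X]
    (hX : IsDiscrete (levelS S).sets X) :
    Nat.card ↥X.ρ.invariants * Nat.card (HS2 S X) * Nat.card X =
      Nat.card (HS1 S X) * Nat.card {x : X // X.ρ complexConjugation x = x} :=
  tate_of_MU S p hp2 hpS hadd (Fermat.Agent.TW.GLOB.EulerLev6.finH2Hyp S hp2 hpS) hMU
    (muFinHyp S p hp2 hpS) (fun K hζ => archModelHyp S p K hζ)
    (fun K hζ => coindModelHyp S p K hζ) X hX

end Fermat.Agent.TW.GLOB.TateFinal9
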