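/-
Programme T (S56), chapter GLOB, task T7 (tate assembly (A8)), bricks (C3)+(C5) — helper2.

`EulerLev6.CycHyp S` (the cyclic step of Tate's formula, stated for the coinduced modules
`Coind_C^{GQ ⧸ K.U} σ`) follows from the vanishing of `χ` on the modules
`TateCore9.twistCoind (levelS S) K.U (muP p) C s` (`TateCoind2.exists_coindModel` +
`EulerInv6.chi_congr`).
-/
import Mathlib
import Fermat.Agent.TW.GLOB.TateCoind2
import Fermat.Agent.TW.GLOB.EulerLev6

set_option autoImplicit false
set_option linter.unusedSectionVars false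
set_option linter.style.haveILetI false

open ExtCitation
open Fermat.Agent.PT.PRO.LevelCoh28
open Fermat.Agent.PT.GLUE.Objects21 Fermat.Agent.PT.GLUE.Levels21
open Fermat.Agent.TW.DEF.Basic1 Fermat.Agent.TW.DEF.Mu1
open Fermat.Agent.TW.GLOB.EulerInv6 Fermat.Agent.TW.GLOB.EulerLev6
open Fermat.Agent.TW.GLOB.TateCore9 Fermat.Agent.TW.GLOB.TateCoind2

namespace Fermat.Agent.TW.GLOB.TateTransport2

noncomputable section

variable {p : ℕ} [hp : Fact p.Prime] (S : Finset Nat.Primes)

/-- **(C3)** `χ(Coind_C^{GQ ⧸ K.U} σ) = χ(twistCoind …)` for the model of `TateCoind2`. -/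
theorem exists_chi_infl_coind_eq (K : Lev S) (hζ : ∀ u ∈ K.U, cycloChar p u = 1)
    (C : Subgroup (GQ ⧸ K.U)) [Fintype C] (N : Type) [AddCommGroup N] [Module (ZMod p) N]
    [Module.Finite (ZMod p) N] (σ : Representation (ZMod p) C N) :
    ∃ (d : ℕ) (s : C →* Matrix (Fin d) (Fin d) (ZMod p)),
      chi S (infl (QuotientGroup.mk' K.U) (Representation.coind C.subtype σ)) =
        chi S (twistCoind (levelS S) K.U (muP p) C s) := by
  obtain ⟨d, s, e, he⟩ := exists_coindModel p K hζ C N σ
  exact ⟨d, s, chi_congr S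
    (A := infl (QuotientGroup.mk' K.U) (Representation.coind C.subtype σ))
    (B := twistCoind (levelS S) K.U (muP p) C s) e (fun g a => he g a)⟩

/-- The cyclic step, stated on the modules `twistCoind`. -/
def TwistHyp : Prop :=
  ∀ (K : Lev S), (∀ u ∈ K.U, cycloChar p u = 1) → ∀ (C : Subgroup (GQ ⧸ K.U)) [Fintype C],
    IsCyclic C → (Nat.card C).Coprime p →
    ∀ (d : ℕ) (s : C →* Matrix (Fin d) (Fin d) (ZMod p)),
      chi S (twistCoind (levelS S) K.U (muP p) C s) = 0

/-- **(C5)** `CycHyp` from the vanishing of `χ` on the modules `twistCoind`. -/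
theorem cycHyp_of_twistHyp (h : TwistHyp (p := p) S) : CycHyp (p := p) S := by
  intro K hζ C hC hCp N _ _ _ σ
  haveI := (levelS S).isBasis.finiteIndex K.U K.U_mem
  haveI : Finite (GQ ⧸ K.U) := Subgroup.finite_quotient_of_finiteIndex
  letI : Fintype C := Fintype.ofFinite C
  obtain ⟨d, s, hds⟩ := exists_chi_infl_coind_eq S K hζ C N σ
  rw [hds]
  exact h K hζ C hC hCp d s

end

end Fermat.Agent.TW.GLOB.TateTransport2
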