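/-
Programme T (S56), chapter GLOB — helper2.  Brick (S1) of helper7's trace route for (LOC-20-NAT).

**The trace (corestriction) `trH?` of `TraceLevel5` is natural for ADDITIVE equivariant coefficient
maps between representations over different rings** (`AddCoh5`):

  `trH2 𝓑 U hB (addResH2 𝓑 U j hj x) = addH2 j hj (trH2 𝓑 U hA x)`   (and the same in degree 1).

* `coindAdd U j hj : Coind_U^G A →+ Coind_U^G B` (postcomposition with `j`), `coindAdd_equivariant`,
  `transl_coindAdd`, `translQ_coindAdd`, `avgSum_coindAdd`;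
* `shapiro?Equiv_coindAdd` : Shapiro's isomorphism is natural for additive coefficient maps;
* `trH1_addResH1`, `trH2_addResH2`.
-/
import Mathlib
import Fermat.Agent.TW.GLOB.TraceLevel5
import Fermat.Agent.TW.GLOB.AddCoh5

set_option autoImplicit false
set_option linter.unusedSectionVars false

open CategoryTheory groupCohomology
open Fermat.Agent.PT.PRO.LevelCoh28 Fermat.Agent.PT.PRO.LevelCohRes28
  Fermat.Agent.PT.PRO.SmoothCoind28 Fermat.Agent.PT.PRO.ShapiroLevel28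
  Fermat.Agent.TW.GLOB.SubLevel5 Fermat.Agent.TW.GLOB.ShapiroConj5
  Fermat.Agent.TW.GLOB.ResInvariants5 Fermat.Agent.TW.GLOB.TraceLevel5
  Fermat.Agent.TW.GLOB.AddCoh5

namespace Fermat.Agent.TW.GLOB.TraceAdd2

variable {k k' : Type} [CommRing k] [CommRing k'] {G : Type} [Group G]

/-! ### Additive functoriality of the coinduced module -/

section CoindAdd

variable {𝓑 : LevelBasis G} (U : Subgroup G) {A : Rep.{0} k G} {B : Rep.{0} k' G}
  (j : A →+ B) (hj : ∀ g a, j (A.ρ g a) = B.ρ g (j a))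

/-- `Coind_U^G j` for an additive equivariant `j`. -/
noncomputable def coindAdd : coindRes 𝓑 U A →+ coindRes 𝓑 U B where
  toFun f := ⟨j ∘ f.1, fun s g => by
    show j (f.1 (U.subtype s * g)) = (resRep U B).ρ s (j (f.1 g))
    rw [f.2.1]
    exact hj (s : G) _, f.2.2.comp j⟩
  map_zero' := Subtype.ext (funext fun _ => map_zero j)
  map_add' _ _ := Subtype.ext (funext fun _ => map_add j _ _)

@[simp] theorem coindAdd_apply (f : coindRes 𝓑 U A) (x : G) :
    (coindAdd (𝓑 := 𝓑) U j hj f).1 x = j (f.1 x) := rfl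

theorem coindAdd_equivariant (g : G) (f : coindRes 𝓑 U A) :
    coindAdd (𝓑 := 𝓑) U j hj ((coindRes 𝓑 U A).ρ g f) =
      (coindRes 𝓑 U B).ρ g (coindAdd (𝓑 := 𝓑) U j hj f) := rfl

variable [hU : U.Normal]

theorem transl_coindAdd (γ : G) (f : coindRes 𝓑 U A) :
    transl 𝓑 U B γ (coindAdd (𝓑 := 𝓑) U j hj f) =
      coindAdd (𝓑 := 𝓑) U j hj (transl 𝓑 U A γ f) := by
  refine Subtype.ext (funext fun x => ?_)
  show B.ρ γ (j (f.1 (γ⁻¹ * x))) = j (A.ρ γ (f.1 (γ⁻¹ * x)))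
  rw [hj]

theorem translQ_coindAdd (q : G ⧸ U) (f : coindRes 𝓑 U A) :
    translQ 𝓑 U B q (coindAdd (𝓑 := 𝓑) U j hj f) =
      coindAdd (𝓑 := 𝓑) U j hj (translQ 𝓑 U A q f) := by
  induction q using QuotientGroup.induction_on with
  | H γ => exact transl_coindAdd U j hj γ f

theorem avgSum_coindAdd [Fintype (G ⧸ U)] (f : coindRes 𝓑 U A) :
    avgSum 𝓑 U B (coindAdd (𝓑 := 𝓑) U j hj f) = j (avgSum 𝓑 U A f) := by
  rw [avgSum_apply, avgSum_apply, map_sum]
  refine Finset.sum_congr rfl fun q _ => ?_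
  rw [translQ_coindAdd]
  rfl

end CoindAdd

/-! ### Naturality of Shapiro and of the trace -/

section Natural

variable (𝓑 : LevelBasis G) (U : Subgroup G) [hU : U.Normal] {A : Rep.{0} k G}
  {B : Rep.{0} k' G} (hA : IsDiscrete 𝓑.sets A) (hB : IsDiscrete 𝓑.sets B)
  [Fintype (G ⧸ U)] (j : A →+ B) (hj : ∀ g a, j (A.ρ g a) = B.ρ g (j a))

/-- Shapiro's isomorphism is natural for additive coefficient maps, degree 1. -/
theorem shapiro1Equiv_coindAdd (y : H1 𝓑 (coindRes 𝓑 U A)) :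
    shapiro1Equiv 𝓑 U hB (addH1 (coindAdd (𝓑 := 𝓑) U j hj) (coindAdd_equivariant U j hj) y) =
      addResH1 𝓑 U j hj (shapiro1Equiv 𝓑 U hA y) :=
  ppH1_addH1 U.subtype (isLevelHom_subtype 𝓑 U) (A := coindRes 𝓑 U A) (B := coindRes 𝓑 U B)
    (coindAdd (𝓑 := 𝓑) U j hj) (coindAdd_equivariant U j hj)
    (A' := resRep U A) (B' := resRep U B) j (fun s a => hj (s : G) a)
    (ev U.subtype 𝓑 (resRep U A)) (ev_equivariant U.subtype 𝓑 (resRep U A))
    (ev U.subtype 𝓑 (resRep U B)) (ev_equivariant U.subtype 𝓑 (resRep U B)) (fun _ => rfl) y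

/-- Shapiro's isomorphism is natural for additive coefficient maps, degree 2. -/
theorem shapiro2Equiv_coindAdd (y : H2 𝓑 (coindRes 𝓑 U A)) :
    shapiro2Equiv 𝓑 U hB (addH2 (coindAdd (𝓑 := 𝓑) U j hj) (coindAdd_equivariant U j hj) y) =
      addResH2 𝓑 U j hj (shapiro2Equiv 𝓑 U hA y) :=
  ppH2_addH2 U.subtype (isLevelHom_subtype 𝓑 U) (A := coindRes 𝓑 U A) (B := coindRes 𝓑 U B)
    (coindAdd (𝓑 := 𝓑) U j hj) (coindAdd_equivariant U j hj)
    (A' := resRep U A) (B' := resRep U B) j (fun s a => hj (s : G) a)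
    (ev U.subtype 𝓑 (resRep U A)) (ev_equivariant U.subtype 𝓑 (resRep U A))
    (ev U.subtype 𝓑 (resRep U B)) (ev_equivariant U.subtype 𝓑 (resRep U B)) (fun _ => rfl) y

/-- **The trace is natural for additive coefficient maps, degree 1.** -/
theorem trH1_addResH1 (x : H1 (subBasis 𝓑 U) (resRep U A)) :
    trH1 𝓑 U hB (addResH1 𝓑 U j hj x) = addH1 j hj (trH1 𝓑 U hA x) := by
  obtain ⟨y, rfl⟩ := (shapiro1Equiv 𝓑 U hA).surjective x
  rw [← shapiro1Equiv_coindAdd 𝓑 U hA hB, trH1_shapiro1Equiv, trH1_shapiro1Equiv]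
  obtain ⟨c, rfl⟩ := H1mk_surjective _ _ y
  rw [addH1_mk, mapH1_mk, mapH1_mk, addH1_mk]
  congr 1
  apply Subtype.ext
  funext g
  exact avgSum_coindAdd U j hj _

/-- **The trace is natural for additive coefficient maps, degree 2.** -/
theorem trH2_addResH2 (x : H2 (subBasis 𝓑 U) (resRep U A)) :
    trH2 𝓑 U hB (addResH2 𝓑 U j hj x) = addH2 j hj (trH2 𝓑 U hA x) := by
  obtain ⟨y, rfl⟩ := (shapiro2Equiv 𝓑 U hA).surjective x
  rw [← shapiro2Equiv_coindAdd 𝓑 U hA hB, trH2_shapiro2Equiv, trH2_shapiro2Equiv]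
  obtain ⟨c, rfl⟩ := H2mk_surjective _ _ y
  rw [addH2_mk, mapH2_mk, mapH2_mk, addH2_mk]
  congr 1
  apply Subtype.ext
  funext g
  exact avgSum_coindAdd U j hj _

end Natural

end Fermat.Agent.TW.GLOB.TraceAdd2
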